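import Mathlib
import Fermat.Agent.S30.H94_DvrExt

/-!
# (EXT) extending a ring hom into a complete DVR along a finite extension of orders

`𝒪'` a complete DVR of characteristic zero with finite residue field (the coefficient ring of the
frozen statements S30/S35), `j : R →+* R₁` an injective ring hom into a domain `R₁` which is a
finitely generated `ℤ`-module (e.g. two eigencharacter rings `R ≤ R₁` of Hecke algebras), and
`iota : R →+* 𝒪'`.  Then there is a finite DVR extension `𝒪''` of `𝒪'` (with the literal instance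
bundle of the frozen statements) and `iota₁ : R₁ →+* 𝒪''` with
`iota₁ (j r) = algebraMap 𝒪' 𝒪'' (iota r)`.
-/

set_option autoImplicit false

namespace Fermat.Agent.S35.H10

open IsLocalRing Polynomial

/-- A ring hom from a domain integral over `ℤ` to a domain of characteristic zero is injective. -/
theorem injective_of_isIntegral_int {R O : Type*} [CommRing R] [IsDomain R] [CommRing O]
    [IsDomain O] [CharZero O] (hint : ∀ x : R, IsIntegral ℤ x) (iota : R →+* O) :
    Function.Injective iota := by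
  haveI : Algebra.IsIntegral ℤ R := ⟨hint⟩
  rw [RingHom.injective_iff_ker_eq_bot]
  apply Ideal.eq_bot_of_comap_eq_bot (R := ℤ)
  rw [eq_bot_iff]
  intro n hn
  rw [Ideal.mem_comap, RingHom.mem_ker] at hn
  have h1 : ((n : ℤ) : O) = 0 := by
    have : iota (algebraMap ℤ R n) = ((n : ℤ) : O) := by simp
    rw [← this, hn]
  have h2 : n = 0 := by exact_mod_cast h1
  rw [h2]
  exact Ideal.zero_mem _

/-- An element of an algebra over `𝒪'` integral over `ℤ` is integral for the structure map. -/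
theorem isIntegralElem_of_isIntegral_int {O K : Type*} [CommRing O] [CommRing K] (f : O →+* K)
    {y : K} (hy : ∃ p : ℤ[X], p.Monic ∧ eval₂ (Int.castRingHom K) y p = 0) :
    f.IsIntegralElem y := by
  obtain ⟨p, hp, hpy⟩ := hy
  refine ⟨p.map (Int.castRingHom O), hp.map _, ?_⟩
  rw [eval₂_map]
  have : f.comp (Int.castRingHom O) = Int.castRingHom K := RingHom.ext_int _ _
  rw [this]
  exact hpy

/-- Images of `ℤ`-integral elements satisfy a monic integer polynomial (instance-free form). -/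
theorem exists_monic_int_of_isIntegral {A B : Type*} [CommRing A] [CommRing B] (ψ : A →+* B)
    {b : A} (hb : IsIntegral ℤ b) :
    ∃ p : ℤ[X], p.Monic ∧ eval₂ (Int.castRingHom B) (ψ b) p = 0 := by
  obtain ⟨p, hp, hpb⟩ := hb
  refine ⟨p, hp, ?_⟩
  have h1 : (algebraMap ℤ A) = Int.castRingHom A := RingHom.ext_int _ _
  rw [h1] at hpb
  have h2 : ψ.comp (Int.castRingHom A) = Int.castRingHom B := RingHom.ext_int _ _
  rw [← h2, ← hom_eval₂, hpb, map_zero]

/-- **(EXT).** -/
theorem exists_dvrExt_hom (𝒪' : Type) [CommRing 𝒪'] [IsDomain 𝒪'] [IsDiscreteValuationRing 𝒪']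
    [IsAdicComplete (maximalIdeal 𝒪') 𝒪'] [Finite (ResidueField 𝒪')] [CharZero 𝒪']
    {R R₁ : Type*} [CommRing R] [CommRing R₁] [IsDomain R₁] [Module.Finite ℤ R₁]
    (j : R →+* R₁) (hj : Function.Injective j) (iota : R →+* 𝒪') :
    ∃ (𝒪'' : Type) (_ : CommRing 𝒪'') (_ : IsDomain 𝒪'') (_ : IsDiscreteValuationRing 𝒪'')
      (_ : IsAdicComplete (maximalIdeal 𝒪'') 𝒪'') (_ : Finite (ResidueField 𝒪''))
      (_ : CharZero 𝒪'') (_ : Algebra 𝒪' 𝒪'') (_ : Module.Finite 𝒪' 𝒪'')
      (_ : IsLocalHom (algebraMap 𝒪' 𝒪'')),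
      Function.Injective (algebraMap 𝒪' 𝒪'') ∧
      ∃ iota₁ : R₁ →+* 𝒪'', ∀ r : R, iota₁ (j r) = algebraMap 𝒪' 𝒪'' (iota r) := by
  classical
  haveI : IsDomain R := hj.isDomain j
  have hint₁ : ∀ x : R₁, IsIntegral ℤ x := fun x => Algebra.IsIntegral.isIntegral x
  have hint : ∀ x : R, IsIntegral ℤ x := fun x =>
    (isIntegral_algHom_iff j.toIntAlgHom hj).1 (hint₁ (j x))
  have hiota : Function.Injective iota := injective_of_isIntegral_int hint iota
  -- the algebraically closed field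
  let K' := FractionRing 𝒪'
  let Ω := AlgebraicClosure K'
  let c : 𝒪' →+* Ω := (algebraMap K' Ω).comp (algebraMap 𝒪' K')
  have hc : Function.Injective c :=
    (algebraMap K' Ω).injective.comp (IsFractionRing.injective 𝒪' K')
  let φ : R →+* Ω := c.comp iota
  have hφ : Function.Injective φ := hc.comp hiota
  -- extend `φ` along `j`
  letI : Algebra R R₁ := j.toAlgebra
  letI : Algebra R Ω := φ.toAlgebra
  haveI : FaithfulSMul R R₁ := (faithfulSMul_iff_algebraMap_injective R R₁).mpr hj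
  haveI : FaithfulSMul R Ω := (faithfulSMul_iff_algebraMap_injective R Ω).mpr hφ
  haveI : Algebra.IsAlgebraic R R₁ :=
    ⟨fun x => ((hint₁ x).tower_top (A := R)).isAlgebraic⟩
  let ψA : R₁ →ₐ[R] Ω := IsAlgClosed.lift
  let ψ : R₁ →+* Ω := ψA.toRingHom
  have hψj : ∀ r : R, ψ (j r) = φ r := fun r => ψA.commutes r
  -- the finite extension
  obtain ⟨s, hs⟩ := (Module.finite_def (R := ℤ) (M := R₁)).1 inferInstance
  let T : Set Ω := ψ '' (↑s : Set R₁)
  haveI : Finite T := (s.finite_toSet.image ψ).to_subtype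
  have hTint : ∀ x ∈ T, IsIntegral K' x := by
    rintro _ ⟨b, -, rfl⟩
    exact isIntegralElem_of_isIntegral_int (algebraMap K' Ω)
      (exists_monic_int_of_isIntegral ψ (hint₁ b))
  let K2 := IntermediateField.adjoin K' T
  haveI : FiniteDimensional K' K2 := IntermediateField.finiteDimensional_adjoin hTint
  have hmem : ∀ x : R₁, ψ x ∈ K2 := by
    intro x
    have hx : x ∈ Submodule.span ℤ (↑s : Set R₁) := by rw [hs]; trivial
    induction hx using Submodule.span_induction with
    | mem y hy => exact IntermediateField.subset_adjoin K' T ⟨y, hy, rfl⟩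
    | zero => rw [map_zero]; exact zero_mem _
    | add y z _ _ hy hz => rw [map_add]; exact add_mem hy hz
    | smul n y _ hy => rw [map_zsmul]; exact zsmul_mem hy n
  let ψ₂ : R₁ →+* K2 := ψ.codRestrict K2 hmem
  have hψ₂ : ∀ x, ((ψ₂ x : K2) : Ω) = ψ x := fun _ => rfl
  -- the DVR
  obtain ⟨𝒪'', i1, i2, i3, i4, i5, i6, i7, i8, i9, i10, i11, i12, hinj, hcomp, hsurj, -⟩ :=
    Fermat.Agent.S30.H94.exists_dvrExt_S30 𝒪' K2
  refine ⟨𝒪'', i1, i2, i3, i4, i5, i6, i7, i8, i9, hinj, ?_⟩
  let f'' : 𝒪'' →+* K2 := algebraMap 𝒪'' K2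
  have hf'' : Function.Injective f'' := IsFractionRing.injective 𝒪'' K2
  have hrange : ∀ x : R₁, ψ₂ x ∈ f''.range := by
    intro x
    obtain ⟨y, hy⟩ := hsurj (ψ₂ x) (isIntegralElem_of_isIntegral_int _
      (exists_monic_int_of_isIntegral ψ₂ (hint₁ x)))
    exact ⟨y, hy⟩
  let e : 𝒪'' ≃+* f''.range :=
    RingEquiv.ofBijective f''.rangeRestrict
      ⟨fun a b hab => hf'' (congrArg Subtype.val hab), f''.rangeRestrict_surjective⟩
  let ψ₃ : R₁ →+* f''.range := ψ₂.codRestrict f''.range hrange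
  let iota₁ : R₁ →+* 𝒪'' := (e.symm : f''.range →+* 𝒪'').comp ψ₃
  have hiota₁ : ∀ x, f'' (iota₁ x) = ψ₂ x := by
    intro x
    have h1 : e (iota₁ x) = ψ₃ x := e.apply_symm_apply (ψ₃ x)
    exact congrArg Subtype.val h1
  refine ⟨iota₁, fun r => ?_⟩
  apply hf''
  rw [hiota₁]
  apply Subtype.ext
  rw [hψ₂, hψj]
  have h2 := hcomp (iota r)
  show φ r = ((f'' (algebraMap 𝒪' 𝒪'' (iota r)) : K2) : Ω)
  rw [show f'' (algebraMap 𝒪' 𝒪'' (iota r)) = algebraMap K' K2 (algebraMap 𝒪' K' (iota r)) from h2]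
  rfl

end Fermat.Agent.S35.H10
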