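import Mathlib
import Fermat.Agent.S22
import Fermat.Agent.S41.H85_EigenDict
import Fermat.Agent.S29.H80_Interface
import Fermat.Agent.S30.H10_SupportEigenO
import Fermat.Agent.S35.H10_DvrExtHom

/-!
# S35, row (N1): an eigenvector in the integral lattice for ALL good primes

`g` a normalised eigenform of level `M`, `chig`/`iota` the frozen S35 data (an eigencharacter of
the Hecke algebra away from `S ⊇ {q ∣ M}` with `chig (T_ℓ) = a_ℓ(g)`, and `iota : chig.range →+* 𝒪'`).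
Then after a finite DVR extension `𝒪''` of `𝒪'` (literal S35 output bundle) there are

* `χ₁ : heckeAlgebra M 2 ∅ →+* 𝒪''`, the eigencharacter of `g` on the FULL Hecke algebra (all `T_ℓ`,
  `ℓ ∤ M`, and all `U_q`, `q ∣ M`), extending `algebraMap ∘ iota ∘ chig` at the primes outside `S`;
* a nonzero `u : 𝒪'' ⊗[ℤ] H¹_par(Γ₀(M), ℤ)` with `T u = χ₁(T) • u` for every `T` in the full
  Hecke algebra; in particular `T_ℓ u = χ₁(T_ℓ) • u` for ALL primes `ℓ ∤ M`.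
-/

set_option autoImplicit false

noncomputable section

namespace Fermat.Agent.S35.H10

open scoped TensorProduct
open CuspForm ModularFormClass CongruenceSubgroup ModularCurve.Period IsLocalRing
open Fermat.Agent.S41.H85 Fermat.Agent.S29.H80

variable {M : ℕ} [NeZero M] {g : CuspForm (Gamma0 M) 2}

/-- The inclusion of the Hecke algebra away from `S` into the full Hecke algebra. -/
def inclS (M : ℕ) [NeZero M] (S : Set ℕ) :
    heckeAlgebra M 2 S →+* heckeAlgebra M 2 (∅ : Set ℕ) :=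
  (Subalgebra.inclusion (heckeAlgebra_mono (N := M) (k := 2) (Set.empty_subset S))).toRingHom

theorem coe_inclS (S : Set ℕ) (t : heckeAlgebra M 2 S) :
    ((inclS M S t : heckeAlgebra M 2 (∅ : Set ℕ)) :
      Module.End ℂ (CuspForm (Gamma0 M) 2)) = (t : Module.End ℂ (CuspForm (Gamma0 M) 2)) := by
  unfold inclS
  exact Subalgebra.coe_inclusion _ t

theorem eigenChar_apply (hg : g.IsNormalizedEigenform) (S : Set ℕ) (t : heckeAlgebra M 2 S) :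
    eigenChar hg S t = qCoeff ((t : Module.End ℂ (CuspForm (Gamma0 M) 2)) g) 1 := rfl

theorem eigenChar_inclS (hg : g.IsNormalizedEigenform) (S : Set ℕ) (t : heckeAlgebra M 2 S) :
    eigenChar hg ∅ (inclS M S t) = eigenChar hg S t := by
  rw [eigenChar_apply, eigenChar_apply, coe_inclS]

/-- The frozen `chig` is the eigencharacter of `g` (no `U_q`-generators since `S ⊇ {q ∣ M}`). -/
theorem chig_eq_eigenChar (hg : g.IsNormalizedEigenform) {S : Set ℕ}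
    (hMS : ∀ q : ℕ, q.Prime → q ∣ M → q ∈ S)
    (chig : heckeAlgebra M 2 S →+* ℂ)
    (hchig : ∀ (ℓ : ℕ) (hℓ : ℓ.Prime) (hℓM : ¬ ℓ ∣ M) (hℓS : ℓ ∉ S),
      chig (heckeAlgebra.T hℓ hℓM hℓS) = qCoeff g ℓ) (t : heckeAlgebra M 2 S) :
    chig t = eigenChar hg S t := by
  obtain ⟨t, ht⟩ := t
  induction ht using Algebra.adjoin_induction with
  | mem T hT =>
    rcases hT with ⟨ℓ, hℓ, hℓN, hℓS, rfl⟩ | ⟨q, hqN, hq, hqS, rfl⟩
    · have h1 := hchig ℓ hℓ hℓN hℓS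
      have h2 := eigenChar_T hg (S := S) hℓ hℓN hℓS
      exact h1.trans h2.symm
    · exact absurd (hMS q hq hqN) hqS
  | algebraMap r =>
    have h1 : (⟨algebraMap ℤ (Module.End ℂ (CuspForm (Gamma0 M) 2)) r,
        Subalgebra.algebraMap_mem _ r⟩ : heckeAlgebra M 2 S) = ((r : ℤ) : heckeAlgebra M 2 S) := by
      apply Subtype.ext
      simp
    rw [h1, map_intCast, map_intCast]
  | add T T' hT hT' ihT ihT' =>
    have h1 : (⟨T + T', Subalgebra.add_mem _ hT hT'⟩ : heckeAlgebra M 2 S)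
        = ⟨T, hT⟩ + ⟨T', hT'⟩ := rfl
    rw [h1, map_add, map_add, ihT, ihT']
  | mul T T' hT hT' ihT ihT' =>
    have h1 : (⟨T * T', Subalgebra.mul_mem _ hT hT'⟩ : heckeAlgebra M 2 S)
        = ⟨T, hT⟩ * ⟨T', hT'⟩ := rfl
    rw [h1, map_mul, map_mul, ihT, ihT']

/-- The eigencharacter ring of `g` on the full Hecke algebra is a finite `ℤ`-module. -/
theorem finite_range_eigenChar (hg : g.IsNormalizedEigenform) :
    Module.Finite ℤ (eigenChar hg (∅ : Set ℕ)).range := by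
  haveI : Module.Finite ℤ (heckeAlgebra M 2 (∅ : Set ℕ)) := Fermat.Agent.S22.result M 2 ∅
  exact Module.Finite.of_surjective
    (eigenChar hg (∅ : Set ℕ)).rangeRestrict.toAddMonoidHom.toIntLinearMap
    (eigenChar hg (∅ : Set ℕ)).rangeRestrict_surjective

omit [NeZero M] in
/-- `cohT` at a good prime is `heckeTPar`. -/
theorem cohT_eq_heckeTPar {ℓ : ℕ} (hℓ : ℓ.Prime) (hℓM : ¬ ℓ ∣ M) :
    cohT M ⟨ℓ, hℓ⟩ = heckeTPar ℤ ℤ hℓ hℓM := by
  unfold cohT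
  rw [dif_neg hℓM]

/-- **(N1), primary form**: an injective embedding `iota₁` of the eigencharacter ring of `g` on the
FULL Hecke algebra into a finite DVR extension `𝒪''` of `𝒪'`, compatible with the frozen `iota`,
and an eigenvector `u` in the integral lattice for the full Hecke algebra. -/
theorem exists_eigenvector_iota (hg : g.IsNormalizedEigenform) (S : Finset ℕ)
    (hMS : ∀ q : ℕ, q.Prime → q ∣ M → q ∈ S)
    (𝒪' : Type) [CommRing 𝒪'] [IsDomain 𝒪'] [IsDiscreteValuationRing 𝒪']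
    [IsAdicComplete (maximalIdeal 𝒪') 𝒪'] [Finite (ResidueField 𝒪')] [CharZero 𝒪']
    (chig : heckeAlgebra M 2 (↑S : Set ℕ) →+* ℂ)
    (hchig : ∀ (ℓ : ℕ) (hℓ : ℓ.Prime) (hℓM : ¬ ℓ ∣ M) (hℓS : ℓ ∉ (↑S : Set ℕ)),
      chig (heckeAlgebra.T hℓ hℓM hℓS) = qCoeff g ℓ)
    (iota : chig.range →+* 𝒪') :
    ∃ (𝒪'' : Type) (_ : CommRing 𝒪'') (_ : IsDomain 𝒪'') (_ : IsDiscreteValuationRing 𝒪'')
      (_ : IsAdicComplete (maximalIdeal 𝒪'') 𝒪'') (_ : Finite (ResidueField 𝒪''))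
      (_ : CharZero 𝒪'') (_ : Algebra 𝒪' 𝒪'') (_ : Module.Finite 𝒪' 𝒪'')
      (_ : IsLocalHom (algebraMap 𝒪' 𝒪'')),
      Function.Injective (algebraMap 𝒪' 𝒪'') ∧
      ∃ iota₁ : (eigenChar hg (∅ : Set ℕ)).range →+* 𝒪'', Function.Injective iota₁ ∧
        (∀ (ℓ : ℕ) (hℓ : ℓ.Prime) (hℓM : ¬ ℓ ∣ M) (hℓS : ℓ ∉ (↑S : Set ℕ)),
          iota₁ ((eigenChar hg (∅ : Set ℕ)).rangeRestrict
              (heckeAlgebra.T hℓ hℓM (Set.notMem_empty ℓ))) =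
            algebraMap 𝒪' 𝒪'' ((iota.comp chig.rangeRestrict) (heckeAlgebra.T hℓ hℓM hℓS))) ∧
        ∃ u : 𝒪'' ⊗[ℤ] Lat M, u ≠ 0 ∧
          ∀ t : heckeAlgebra M 2 (∅ : Set ℕ),
            (cohHeckeRep M ∅ t).baseChange 𝒪'' u =
              iota₁ ((eigenChar hg (∅ : Set ℕ)).rangeRestrict t) • u := by
  classical
  have hchig' : ∀ t, chig t = eigenChar hg (∅ : Set ℕ) (inclS M (↑S : Set ℕ) t) := fun t =>
    (chig_eq_eigenChar hg hMS chig hchig t).trans (eigenChar_inclS hg _ t).symm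
  have hle : chig.range ≤ (eigenChar hg (∅ : Set ℕ)).range := by
    rintro _ ⟨t, rfl⟩
    exact ⟨inclS M _ t, (hchig' t).symm⟩
  have hj : Function.Injective (Subring.inclusion hle) := Subring.inclusion_injective hle
  haveI : Module.Finite ℤ (eigenChar hg (∅ : Set ℕ)).range := finite_range_eigenChar hg
  obtain ⟨𝒪'', i1, i2, i3, i4, i5, i6, i7, i8, i9, hinj, iota₁, hiota₁⟩ :=
    exists_dvrExt_hom 𝒪' (Subring.inclusion hle) hj iota
  have hint : ∀ x : (eigenChar hg (∅ : Set ℕ)).range, IsIntegral ℤ x :=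
    fun x => Algebra.IsIntegral.isIntegral x
  refine ⟨𝒪'', i1, i2, i3, i4, i5, i6, i7, i8, i9, hinj, iota₁,
    injective_of_isIntegral_int hint iota₁, ?_, ?_⟩
  · intro ℓ hℓ hℓM hℓS
    have h1 := hiota₁ (chig.rangeRestrict (heckeAlgebra.T hℓ hℓM hℓS))
    have h2 : Subring.inclusion hle (chig.rangeRestrict (heckeAlgebra.T hℓ hℓM hℓS)) =
        (eigenChar hg (∅ : Set ℕ)).rangeRestrict
          (heckeAlgebra.T hℓ hℓM (Set.notMem_empty ℓ)) := by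
      apply Subtype.ext
      have h3 : ((Subring.inclusion hle (chig.rangeRestrict (heckeAlgebra.T hℓ hℓM hℓS)) :
          (eigenChar hg (∅ : Set ℕ)).range) : ℂ) = chig (heckeAlgebra.T hℓ hℓM hℓS) := rfl
      have h4 : (((eigenChar hg (∅ : Set ℕ)).rangeRestrict
          (heckeAlgebra.T hℓ hℓM (Set.notMem_empty ℓ)) : (eigenChar hg (∅ : Set ℕ)).range) : ℂ)
          = eigenChar hg (∅ : Set ℕ) (heckeAlgebra.T hℓ hℓM (Set.notMem_empty ℓ)) := rfl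
      rw [h3, h4, hchig ℓ hℓ hℓM hℓS, eigenChar_T hg hℓ hℓM (Set.notMem_empty ℓ)]
    rw [← h2, h1, RingHom.comp_apply]
  · exact Fermat.Agent.S30.H10.exists_eigenvector_domain
      (cohHeckeRep M (∅ : Set ℕ)) (cohHeckeRep_injective (N := M) (S := (∅ : Set ℕ)))
      (iota₁.comp (eigenChar hg (∅ : Set ℕ)).rangeRestrict)

/-- **(N1), consumer form**: the eigencharacter `χ₁` of `g` on the full Hecke algebra with values
in a finite DVR extension `𝒪''` of `𝒪'`, and a nonzero eigenvector `u ∈ 𝒪'' ⊗ H¹_par(Γ₀(M), ℤ)`: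
all consumer clauses at once (`cohHeckeRep`, `cohT`, `heckeTPar`, kernel clause, `∃ r` clause). -/
theorem exists_eigenvector_all (hg : g.IsNormalizedEigenform) (S : Finset ℕ)
    (hMS : ∀ q : ℕ, q.Prime → q ∣ M → q ∈ S)
    (𝒪' : Type) [CommRing 𝒪'] [IsDomain 𝒪'] [IsDiscreteValuationRing 𝒪']
    [IsAdicComplete (maximalIdeal 𝒪') 𝒪'] [Finite (ResidueField 𝒪')] [CharZero 𝒪']
    (chig : heckeAlgebra M 2 (↑S : Set ℕ) →+* ℂ)
    (hchig : ∀ (ℓ : ℕ) (hℓ : ℓ.Prime) (hℓM : ¬ ℓ ∣ M) (hℓS : ℓ ∉ (↑S : Set ℕ)),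
      chig (heckeAlgebra.T hℓ hℓM hℓS) = qCoeff g ℓ)
    (iota : chig.range →+* 𝒪') :
    ∃ (𝒪'' : Type) (_ : CommRing 𝒪'') (_ : IsDomain 𝒪'') (_ : IsDiscreteValuationRing 𝒪'')
      (_ : IsAdicComplete (maximalIdeal 𝒪'') 𝒪'') (_ : Finite (ResidueField 𝒪''))
      (_ : CharZero 𝒪'') (_ : Algebra 𝒪' 𝒪'') (_ : Module.Finite 𝒪' 𝒪'')
      (_ : IsLocalHom (algebraMap 𝒪' 𝒪'')),
      Function.Injective (algebraMap 𝒪' 𝒪'') ∧
      ∃ (iota₁ : (eigenChar hg (∅ : Set ℕ)).range →+* 𝒪'')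
        (χ₁ : heckeAlgebra M 2 (∅ : Set ℕ) →+* 𝒪''),
        Function.Injective iota₁ ∧
        χ₁ = iota₁.comp (eigenChar hg (∅ : Set ℕ)).rangeRestrict ∧
        (∀ t : heckeAlgebra M 2 (∅ : Set ℕ), eigenChar hg (∅ : Set ℕ) t = 0 → χ₁ t = 0) ∧
        (∀ (ℓ : ℕ) (hℓ : ℓ.Prime) (hℓM : ¬ ℓ ∣ M) (hℓS : ℓ ∉ (↑S : Set ℕ)),
          χ₁ (heckeAlgebra.T hℓ hℓM (Set.notMem_empty ℓ)) =
            algebraMap 𝒪' 𝒪'' ((iota.comp chig.rangeRestrict) (heckeAlgebra.T hℓ hℓM hℓS))) ∧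
        ∃ u : 𝒪'' ⊗[ℤ] Lat M, u ≠ 0 ∧
          (∀ t : heckeAlgebra M 2 (∅ : Set ℕ),
            (cohHeckeRep M ∅ t).baseChange 𝒪'' u = χ₁ t • u) ∧
          (∀ (ℓ : ℕ) (hℓ : ℓ.Prime) (hℓM : ¬ ℓ ∣ M),
            (cohT M ⟨ℓ, hℓ⟩).baseChange 𝒪'' u =
              χ₁ (heckeAlgebra.T hℓ hℓM (Set.notMem_empty ℓ)) • u) ∧
          (∀ (ℓ : ℕ) (hℓ : ℓ.Prime) (hℓM : ¬ ℓ ∣ M),
            (heckeTPar ℤ ℤ hℓ hℓM).baseChange 𝒪'' u =
              χ₁ (heckeAlgebra.T hℓ hℓM (Set.notMem_empty ℓ)) • u) ∧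
          ∀ (ℓ : ℕ) (hℓ : ℓ.Prime) (hℓM : ¬ ℓ ∣ M),
            ∃ r : (eigenChar hg (∅ : Set ℕ)).range, (r : ℂ) = qCoeff g ℓ ∧
              (heckeTPar ℤ ℤ hℓ hℓM).baseChange 𝒪'' u = iota₁ r • u := by
  obtain ⟨𝒪'', i1, i2, i3, i4, i5, i6, i7, i8, i9, hinj, iota₁, hiota₁, hcompat, u, hu0, hu⟩ :=
    exists_eigenvector_iota hg S hMS 𝒪' chig hchig iota
  have hT : ∀ (ℓ : ℕ) (hℓ : ℓ.Prime) (hℓM : ¬ ℓ ∣ M),
      (heckeTPar ℤ ℤ hℓ hℓM).baseChange 𝒪'' u =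
        iota₁ ((eigenChar hg (∅ : Set ℕ)).rangeRestrict
          (heckeAlgebra.T hℓ hℓM (Set.notMem_empty ℓ))) • u := by
    intro ℓ hℓ hℓM
    have h1 := hu (heckeAlgebra.T hℓ hℓM (Set.notMem_empty ℓ))
    rw [cohHeckeRep_T] at h1
    exact h1
  refine ⟨𝒪'', i1, i2, i3, i4, i5, i6, i7, i8, i9, hinj, iota₁,
    iota₁.comp (eigenChar hg (∅ : Set ℕ)).rangeRestrict, hiota₁, rfl, ?_, ?_, u, hu0, ?_, ?_, ?_,
    ?_⟩
  · intro t ht
    have h1 : (eigenChar hg (∅ : Set ℕ)).rangeRestrict t = 0 := Subtype.ext ht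
    rw [RingHom.comp_apply, h1, map_zero]
  · intro ℓ hℓ hℓM hℓS
    rw [RingHom.comp_apply]
    exact hcompat ℓ hℓ hℓM hℓS
  · intro t
    rw [RingHom.comp_apply]
    exact hu t
  · intro ℓ hℓ hℓM
    rw [RingHom.comp_apply, cohT_eq_heckeTPar hℓ hℓM]
    exact hT ℓ hℓ hℓM
  · intro ℓ hℓ hℓM
    rw [RingHom.comp_apply]
    exact hT ℓ hℓ hℓM
  · intro ℓ hℓ hℓM
    refine ⟨(eigenChar hg (∅ : Set ℕ)).rangeRestrict
      (heckeAlgebra.T hℓ hℓM (Set.notMem_empty ℓ)), ?_, hT ℓ hℓ hℓM⟩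
    exact eigenChar_T hg hℓ hℓM (Set.notMem_empty ℓ)

end Fermat.Agent.S35.H10
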