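/-
S35, descent row DESC35 (helper86), part (a): every element of `F_Qbar(N) = FN N` comes from
`F_K(N) = modularFunctionFieldFullC K N` for every field `K ⊆ Qbar` containing a suitable FINITE
set of constants.

* `exists_finset_forall_exists_coeffMap_eq` : Laurent-series form (closure induction);
* `exists_finset_forall_mem_range_toBar`     : for `x : FN N`;
* `exists_finset_forall_mem_range_toBar_finset` : for finitely many elements at once.
-/
import Mathlib
import Fermat.Agent.S18.H99_F1Basics

set_option autoImplicit false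
set_option linter.unusedSectionVars false

noncomputable section

namespace Fermat.Agent.S35.H86

open ModularCurve
open Fermat.Agent.S18 Fermat.Agent.S24

local notation "Qb" => AlgebraicClosure ℚ

variable (N : ℕ) [NeZero N]

omit [NeZero N] in
/-- **Descent of elements, Laurent-series form.** -/
theorem exists_finset_forall_exists_coeffMap_eq {x : LaurentSeries Qb}
    (hx : x ∈ modularFunctionFieldFullC Qb N) :
    ∃ C : Finset Qb, ∀ (K : Type) [Field K] [Algebra K Qb],
      (∀ c ∈ C, c ∈ (algebraMap K Qb).range) →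
        ∃ y : modularFunctionFieldFullC K N,
          coeffMap (algebraMap K Qb) (y : LaurentSeries K) = x := by
  classical
  unfold modularFunctionFieldFullC at hx
  induction hx using IntermediateField.adjoin_induction with
  | mem y hy =>
      obtain ⟨d, hne, hd, rfl⟩ := hy
      have := hne
      refine ⟨∅, fun K _ _ _ => ⟨⟨qExpand K d (jqModC K), jqModCd_mem_full K N hd⟩, ?_⟩⟩
      show coeffMap (algebraMap K Qb) (qExpand K d (jqModC K)) = _
      rw [coeffMap_qExpand, coeffMap_jqModC]
  | algebraMap r =>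
      refine ⟨{r}, fun K _ _ hC => ?_⟩
      obtain ⟨r', hr'⟩ := hC r (Finset.mem_singleton_self r)
      refine ⟨algebraMap K (modularFunctionFieldFullC K N) r', ?_⟩
      show coeffMap (algebraMap K Qb) (algebraMap K (LaurentSeries K) r') = _
      rw [H99.coeffMap_algebraMap_field, hr']
  | add y z _ _ hy hz =>
      obtain ⟨C₁, h₁⟩ := hy
      obtain ⟨C₂, h₂⟩ := hz
      refine ⟨C₁ ∪ C₂, fun K _ _ hC => ?_⟩
      obtain ⟨y', hy'⟩ := h₁ K fun c hc => hC c (Finset.mem_union_left _ hc)
      obtain ⟨z', hz'⟩ := h₂ K fun c hc => hC c (Finset.mem_union_right _ hc)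
      refine ⟨y' + z', ?_⟩
      show coeffMap (algebraMap K Qb) ((y' : LaurentSeries K) + (z' : LaurentSeries K)) = _
      rw [map_add, hy', hz']
  | inv y _ hy =>
      obtain ⟨C₁, h₁⟩ := hy
      refine ⟨C₁, fun K _ _ hC => ?_⟩
      obtain ⟨y', hy'⟩ := h₁ K hC
      refine ⟨y'⁻¹, ?_⟩
      show coeffMap (algebraMap K Qb) ((y' : LaurentSeries K))⁻¹ = _
      rw [map_inv₀, hy']
  | mul y z _ _ hy hz =>
      obtain ⟨C₁, h₁⟩ := hy
      obtain ⟨C₂, h₂⟩ := hz
      refine ⟨C₁ ∪ C₂, fun K _ _ hC => ?_⟩
      obtain ⟨y', hy'⟩ := h₁ K fun c hc => hC c (Finset.mem_union_left _ hc)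
      obtain ⟨z', hz'⟩ := h₂ K fun c hc => hC c (Finset.mem_union_right _ hc)
      refine ⟨y' * z', ?_⟩
      show coeffMap (algebraMap K Qb) ((y' : LaurentSeries K) * (z' : LaurentSeries K)) = _
      rw [map_mul, hy', hz']

/-- **Descent of elements**: every `x : FN N` lies in the image of `toBar K N` for every field
`K ⊆ Qbar` containing a suitable finite set `C` of constants. -/
theorem exists_finset_forall_mem_range_toBar (x : FN N) :
    ∃ C : Finset Qb, ∀ (K : Type) [Field K] [Algebra K Qb],
      (∀ c ∈ C, c ∈ (algebraMap K Qb).range) → ∃ y : modularFunctionFieldFullC K N,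
        H99.toBar K N y = x := by
  have hx : (x : LaurentSeries Qb) ∈ modularFunctionFieldFullC Qb N := by
    rw [H99.fullC_Qbar_eq_bar]
    exact x.2
  obtain ⟨C, hC⟩ := exists_finset_forall_exists_coeffMap_eq N hx
  refine ⟨C, fun K _ _ h => ?_⟩
  obtain ⟨y, hy⟩ := hC K h
  refine ⟨y, Subtype.ext ?_⟩
  rw [H99.coe_toBar, hy]

/-- The same for finitely many elements at once. -/
theorem exists_finset_forall_mem_range_toBar_finset (S : Finset (FN N)) :
    ∃ C : Finset Qb, ∀ (K : Type) [Field K] [Algebra K Qb],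
      (∀ c ∈ C, c ∈ (algebraMap K Qb).range) → ∀ x ∈ S, ∃ y : modularFunctionFieldFullC K N,
        H99.toBar K N y = x := by
  classical
  induction S using Finset.induction_on with
  | empty => exact ⟨∅, fun K _ _ _ x hx => absurd hx (Finset.notMem_empty x)⟩
  | insert a S _ ih =>
      obtain ⟨C₁, h₁⟩ := ih
      obtain ⟨C₂, h₂⟩ := exists_finset_forall_mem_range_toBar N a
      refine ⟨C₁ ∪ C₂, fun K _ _ hC x hx => ?_⟩
      rcases Finset.mem_insert.mp hx with rfl | hx
      · exact h₂ K fun c hc => hC c (Finset.mem_union_right _ hc)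
      · exact h₁ K (fun c hc => hC c (Finset.mem_union_left _ hc)) x hx

end Fermat.Agent.S35.H86
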