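import Mathlib
import Fermat.Agent.CA.H99_TwoPlacesThm
import Fermat.Agent.S34.H6_KroneckerAt

/-!
S35 / G3 prerequisites (helper16): GENERIC Kummer–Dedekind for a "Kronecker-type" extension.

`K₀ ⊆ L` fields, `[L : K₀] = q + 1`, `L = K₀(θ)`, `y ∈ K₀` with `Φ_q(y, θ) = 0`
(`Φ_q = D.Φ`, `D : ModularPolynomialData q` with the `RootsAt` property, so that
`Φ_q(X, Y) ≡ (Y - X^q)(Y^q - X) mod q`). Then

* `minpoly_eq_relPolyAt` : `minpoly K₀ θ = Φ_q(y, Y)`;
* for every DVR `O` with fraction field `K₀`, residue characteristic `q`, containing `y`, and an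
  embedding `ρ` of its residue field into a Laurent series field where `ȳ` has order prime to `q`:
  `nonempty_placeOver_lin` / `nonempty_placeOver_pow` : the two places of `L` over `O`.

Both embeddings `F_M → F_N` of S34/L0 (`ι` = inclusion with `(y, θ) = (j_M, j_N)`, and `V_q` with
`(y, θ) = (j, j)`) are instances.
-/

set_option autoImplicit false
set_option linter.unusedSectionVars false
set_option linter.style.haveILetI false

noncomputable section

namespace Fermat.Agent.S35.H16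

open ModularCurve Polynomial IsLocalRing Fermat.Agent.S28

section Field

variable {K₀ L : Type*} [Field K₀] [Field L] [Algebra K₀ L]
  (q : ℕ) [NeZero q] (D : ModularPolynomialData q) (y : K₀) (θ : L)

/-- `ℤ[X] → A`, `X ↦ a`. -/
def evalAt {A : Type*} [CommRing A] (a : A) : ℤ[X] →+* A := (Polynomial.aeval (R := ℤ) a).toRingHom

@[simp] theorem evalAt_X {A : Type*} [CommRing A] (a : A) : evalAt a X = a := by simp [evalAt]

theorem map_comp_evalAt {A B : Type*} [CommRing A] [CommRing B] (f : A →+* B) (a : A) :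
    f.comp (evalAt a) = evalAt (f a) := by
  apply Polynomial.ringHom_ext'
  · exact RingHom.ext_int _ _
  · simp

/-- `Φ_q(y, Y) ∈ K₀[Y]`. -/
def relPolyAt : K₀[X] := D.Φ.map (evalAt y)

theorem relPolyAt_monic : (relPolyAt q D y).Monic := D.monic.map _

theorem dedekindPsi_prime_eq' {p : ℕ} (hp : p.Prime) : dedekindPsi p = p + 1 := by
  simpa using Fermat.Agent.S20.H78.dedekindPsi_prime_pow (p := p) (k := 1) hp one_pos

theorem relPolyAt_natDegree (hq : q.Prime) : (relPolyAt q D y).natDegree = q + 1 := by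
  rw [relPolyAt, D.monic.natDegree_map, D.natDegree_eq, dedekindPsi_prime_eq' hq]

variable {q D y θ}

theorem aeval_relPolyAt_iff :
    Polynomial.aeval θ (relPolyAt q D y) = 0 ↔ D.Φ.eval₂ (evalAt (algebraMap K₀ L y)) θ = 0 := by
  rw [relPolyAt, Polynomial.aeval_def, Polynomial.eval₂_map, map_comp_evalAt]

theorem isIntegral_of_rel (hrel : Polynomial.aeval θ (relPolyAt q D y) = 0) : IsIntegral K₀ θ :=
  ⟨relPolyAt q D y, relPolyAt_monic q D y, hrel⟩

/-- **`minpoly K₀ θ = Φ_q(y, Y)`**. -/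
theorem minpoly_eq_relPolyAt (hq : q.Prime) (hrel : Polynomial.aeval θ (relPolyAt q D y) = 0)
    (hgen : IntermediateField.adjoin K₀ {θ} = ⊤) (hdeg : Module.finrank K₀ L = q + 1) :
    minpoly K₀ θ = relPolyAt q D y := by
  have hint := isIntegral_of_rel hrel
  have hd : (minpoly K₀ θ).natDegree = q + 1 := by
    rw [← IntermediateField.adjoin.finrank hint, hgen, IntermediateField.finrank_top', hdeg]
  have hdvd := minpoly.dvd K₀ θ hrel
  exact (Polynomial.eq_of_monic_of_dvd_of_natDegree_le (minpoly.monic hint)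
    (relPolyAt_monic q D y) hdvd (by rw [hd, relPolyAt_natDegree q D y hq])).symm

theorem algebra_adjoin_eq_top (hrel : Polynomial.aeval θ (relPolyAt q D y) = 0)
    (hgen : IntermediateField.adjoin K₀ {θ} = ⊤) : Algebra.adjoin K₀ {θ} = ⊤ := by
  rw [← IntermediateField.adjoin_simple_toSubalgebra_of_isAlgebraic
    (isIntegral_of_rel hrel).isAlgebraic, hgen, IntermediateField.top_toSubalgebra]

end Field

section Integral

variable {K₀ L : Type*} [Field K₀] [Field L] [Algebra K₀ L]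
  {q : ℕ} [NeZero q] {D : ModularPolynomialData q} {y : K₀} {θ : L}
  {O : Type*} [CommRing O] [Algebra O K₀] [Algebra O L] [IsScalarTower O K₀ L]

/-- `f.map (O → K₀) = Φ_q(y, Y)` for `f := D.Φ.map φ`, `φ X = y`. -/
theorem map_map_eq_relPolyAt (φ : ℤ[X] →+* O) (hφ : algebraMap O K₀ (φ X) = y) :
    (D.Φ.map φ).map (algebraMap O K₀) = relPolyAt q D y := by
  rw [Polynomial.map_map, relPolyAt]
  congr 1
  apply Polynomial.ringHom_ext'
  · exact RingHom.ext_int _ _
  · simp [hφ]

/-- `hθ` of `CA.H99.nonempty_placeOver`. -/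
theorem aeval_map_eq_zero (hrel : Polynomial.aeval θ (relPolyAt q D y) = 0)
    (φ : ℤ[X] →+* O) (hφ : algebraMap O K₀ (φ X) = y) :
    Polynomial.aeval θ (D.Φ.map φ) = 0 := by
  rw [← map_map_eq_relPolyAt φ hφ, Polynomial.aeval_map_algebraMap] at hrel
  exact hrel

/-- `hmin` of `CA.H99.nonempty_placeOver`. -/
theorem map_dvd_of_aeval_eq_zero (hq : q.Prime)
    (hrel : Polynomial.aeval θ (relPolyAt q D y) = 0)
    (hgen : IntermediateField.adjoin K₀ {θ} = ⊤) (hdeg : Module.finrank K₀ L = q + 1)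
    (hinj : Function.Injective (algebraMap O K₀))
    (φ : ℤ[X] →+* O) (hφ : algebraMap O K₀ (φ X) = y) :
    ∀ p : O[X], Polynomial.aeval θ p = 0 → D.Φ.map φ ∣ p := by
  intro p hp
  rw [← Polynomial.aeval_map_algebraMap K₀] at hp
  have h1 := minpoly.dvd K₀ θ hp
  rw [minpoly_eq_relPolyAt hq hrel hgen hdeg, ← map_map_eq_relPolyAt φ hφ] at h1
  exact (Polynomial.map_dvd_map _ hinj (D.monic.map φ)).1 h1

end Integral

section TwoPlaces

variable {K₀ L : Type*} [Field K₀] [Field L] [Algebra K₀ L]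
  (q : ℕ) [Fact q.Prime] [NeZero q] (D : ModularPolynomialData q)
  (hD : ∀ (k : Type) [Field k] (ζ : kˣ), IsPrimitiveRoot ζ q → RootsAt k q ζ D.Φ)
  {y : K₀} {θ : L}
  (hrel : Polynomial.aeval θ (relPolyAt q D y) = 0)
  (hgen : IntermediateField.adjoin K₀ {θ} = ⊤) (hdeg : Module.finrank K₀ L = q + 1)
  {O : Type*} [CommRing O] [IsDomain O] [IsDiscreteValuationRing O]
  [CharP (ResidueField O) q]
  [Algebra O K₀] [IsFractionRing O K₀] [Algebra O L] [IsScalarTower O K₀ L]
  (φ : ℤ[X] →+* O) (hφ : algebraMap O K₀ (φ X) = y)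
  {k : Type*} [CommRing k] [IsDomain k] (ρ : ResidueField O →+* LaurentSeries k)
  (hord : ¬ (q : ℤ) ∣ (ρ (residue O (φ X))).order)
  {ϖ : O} (hϖ : maximalIdeal O = Ideal.span {ϖ})
  {Fk : Type*} [Field Fk] (ι : O →+* Fk) (hιϖ : ι ϖ = 0)

include hD hrel hgen hdeg hφ hord hϖ hιϖ

theorem residue_pow_ne_self' : residue O (φ X) ^ (q * q) ≠ residue O (φ X) := by
  refine S34.H6.pow_ne_self_of_order q (Fact.out : q.Prime).two_le ρ _ ?_
  intro h0
  exact hord (h0 ▸ dvd_zero _)

/-- The place of `L` over `O` belonging to the LINEAR factor `Y - y^q`. -/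
theorem nonempty_placeOver_lin (θb : Fk) (hθb : θb = ι (φ X) ^ q) :
    Nonempty (CA.H99.PlaceOver ϖ θ ι θb) := by
  have hq : q.Prime := Fact.out
  refine CA.H99.nonempty_placeOver (K := K₀)
    (f := D.Φ.map φ) (g := X - C (φ X ^ q)) (h := X ^ q - C (φ X)) (D.monic.map φ)
    (S34.H6.map_map_kronecker q D hD φ (residue O))
    (S34.H6.irreducible_map_X_sub_C (residue O) _)
    (S34.H6.isCoprime_map_of_ne (residue O) q (φ X)
      (residue_pow_ne_self' q D hD hrel hgen hdeg φ hφ ρ hord hϖ ι hιϖ))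
    hϖ θ (aeval_map_eq_zero hrel φ hφ)
    (map_dvd_of_aeval_eq_zero hq hrel hgen hdeg (IsFractionRing.injective O K₀) φ hφ)
    (algebra_adjoin_eq_top hrel hgen)
    ι hιϖ θb ?_
  rw [eval₂_sub, eval₂_X, eval₂_C, hθb, map_pow, sub_self]

/-- The place of `L` over `O` belonging to the factor `Y^q - y`. -/
theorem nonempty_placeOver_pow (θb : Fk) (hθb : θb ^ q = ι (φ X)) :
    Nonempty (CA.H99.PlaceOver ϖ θ ι θb) := by
  have hq : q.Prime := Fact.out
  refine CA.H99.nonempty_placeOver (K := K₀)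
    (f := D.Φ.map φ) (g := X ^ q - C (φ X)) (h := X - C (φ X ^ q)) (D.monic.map φ)
    (S34.H6.map_map_kronecker' q D hD φ (residue O))
    (S34.H6.irreducible_map_X_pow_sub_C_of_order (residue O) q hq ρ (φ X) hord)
    (S34.H6.isCoprime_map_of_ne' (residue O) q (φ X)
      (residue_pow_ne_self' q D hD hrel hgen hdeg φ hφ ρ hord hϖ ι hιϖ))
    hϖ θ (aeval_map_eq_zero hrel φ hφ)
    (map_dvd_of_aeval_eq_zero hq hrel hgen hdeg (IsFractionRing.injective O K₀) φ hφ)
    (algebra_adjoin_eq_top hrel hgen)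
    ι hιϖ θb ?_
  rw [eval₂_sub, eval₂_pow, eval₂_X, eval₂_C, hθb, sub_self]

end TwoPlaces

end Fermat.Agent.S35.H16
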