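import Mathlib
import Fermat.Agent.S34.H16_RelDeg
import Fermat.Agent.S34.H36_VSub
import Fermat.Agent.S16.H36_DeltaUnit
import Fermat.Agent.S34.H16_RelSwap
import Fermat.Agent.S35.H16_KroneckerExt

/-!
S35 / G3 prerequisites (helper16): the `V_q`-side MIRROR of `S34.H16_RelDeg`.

`V_q = H36.vSub K q M N : F_M → F_N`, `f(t) ↦ f(t^q)` (`N = q * M`, `q` prime, `q ∤ M`) is a second
embedding of `F_M = FullC K M` into `F_N = FullC K N`. With respect to it:

* `relfinrank_kJq_fullC_prime` : `[K(j, j_q) : K(j_q)] = q + 1` (Atkin–Lehner symmetry);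
* `relfinrank_kJq_fullC` : `[F_N : K(j_q)] = ψ(N)`;
* `relfinrank_vRange_fullC` : `[F_N : V_q(F_M)] = q + 1`;
* `finrank_vSub` : the same as `Module.finrank` for the algebra structure `vAlgebra`.
-/

set_option autoImplicit false
set_option linter.unusedSectionVars false
set_option linter.style.haveILetI false
set_option synthInstance.maxHeartbeats 400000

noncomputable section

namespace Fermat.Agent.S35.H16

open ModularCurve HahnSeries Polynomial IntermediateField Fermat.Agent.S28
open Fermat.Agent.S34.H16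

section Degree

variable (K : Type) [Field K]

/-- `K(j(t^q))` inside `K((t))`. -/
def kJq (q : ℕ) [NeZero q] : IntermediateField K (LaurentSeries K) :=
  IntermediateField.adjoin K {qExpand K q (jqModC K)}

theorem kJ_map_qExpand (q : ℕ) [NeZero q] :
    (kJ K).map (qExpandAlgHomC K q) = kJq K q := by
  rw [kJ, IntermediateField.adjoin_map, Set.image_singleton, kJq, qExpandAlgHomC_apply]

/-- Atkin–Lehner symmetry at prime level... in fact at every level `N` with `N ≠ 0` in `K`:
`[K(j, j_N) : K(j_N)] = ψ(N)`. -/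
theorem relfinrank_kJq_fullC_self (N : ℕ) [NeZero N] (hNK : ((N : ℕ) : K) ≠ 0) :
    IntermediateField.relfinrank (kJq K N) (modularFunctionFieldFullC K N) = dedekindPsi N := by
  -- inside `FK`: `[FK : K(j_N)] = [FK : K(j)]` by the Atkin–Lehner involution
  have h0 := IntermediateField.relfinrank_map_map (K⟮S18.H16.jK K N⟯)
    (⊤ : IntermediateField K (modularFunctionFieldFullC K N))
    ((S16.H36.alEquiv N K hNK : modularFunctionFieldFullC K N ≃ₐ[K]
      modularFunctionFieldFullC K N) : modularFunctionFieldFullC K N →ₐ[K]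
      modularFunctionFieldFullC K N)
  rw [IntermediateField.relfinrank_top_right, S18.H16.finrank_fullC_gen N K hNK] at h0
  have h1 : (K⟮S18.H16.jK K N⟯).map
      ((S16.H36.alEquiv N K hNK : modularFunctionFieldFullC K N ≃ₐ[K]
      modularFunctionFieldFullC K N) : modularFunctionFieldFullC K N →ₐ[K]
      modularFunctionFieldFullC K N) = K⟮S18.H16.jNK K N⟯ := by
    rw [IntermediateField.adjoin_map, Set.image_singleton]
    congr 2
    exact S16.H36.alHom_jK N K hNK
  have h2 : (⊤ : IntermediateField K (modularFunctionFieldFullC K N)).map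
      ((S16.H36.alEquiv N K hNK : modularFunctionFieldFullC K N ≃ₐ[K]
      modularFunctionFieldFullC K N) : modularFunctionFieldFullC K N →ₐ[K]
      modularFunctionFieldFullC K N) = ⊤ := by
    rw [← AlgHom.fieldRange_eq_map, AlgHom.fieldRange_eq_top]
    exact (S16.H36.alEquiv N K hNK).surjective
  rw [h1, h2] at h0
  -- transport to `K((t))`
  have h3 := IntermediateField.relfinrank_map_map (K⟮S18.H16.jNK K N⟯)
    (⊤ : IntermediateField K (modularFunctionFieldFullC K N))
    (modularFunctionFieldFullC K N).val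
  rw [h0] at h3
  have h4 : (K⟮S18.H16.jNK K N⟯).map (modularFunctionFieldFullC K N).val = kJq K N := by
    rw [IntermediateField.adjoin_map, Set.image_singleton, kJq]
    rfl
  have h5 : (⊤ : IntermediateField K (modularFunctionFieldFullC K N)).map
      (modularFunctionFieldFullC K N).val = modularFunctionFieldFullC K N := by
    rw [← AlgHom.fieldRange_eq_map, IntermediateField.fieldRange_val]
  rw [h4, h5] at h3
  exact h3


theorem natCast_ne_zero_of_dvd {d N : ℕ} (h : d ∣ N) (hNK : ((N : ℕ) : K) ≠ 0) :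
    ((d : ℕ) : K) ≠ 0 := by
  intro h0
  obtain ⟨c, rfl⟩ := h
  apply hNK
  rw [Nat.cast_mul, h0, zero_mul]

theorem kJq_le_fullC (q N : ℕ) [NeZero q] [NeZero N] (h : q ∣ N) :
    kJq K q ≤ modularFunctionFieldFullC K N := by
  rw [kJq, IntermediateField.adjoin_le_iff]
  rintro x rfl
  exact jqModCd_mem_full K N h

/-- `[F_N : K(j_q)] = ψ(N)` for every `q ∣ N`. -/
theorem relfinrank_kJq_fullC (q N : ℕ) [NeZero q] [NeZero N] (h : q ∣ N)
    (hNK : ((N : ℕ) : K) ≠ 0) :
    IntermediateField.relfinrank (kJq K q) (modularFunctionFieldFullC K N) = dedekindPsi N := by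
  have h1 := relfinrank_kJq_fullC_self K q (natCast_ne_zero_of_dvd K h hNK)
  have h2 := relfinrank_fullC_mul K q N h hNK
  have h3 := IntermediateField.relfinrank_mul_relfinrank (kJq_le_fullC K q q dvd_rfl)
    (full_degeneracyC_le K h)
  rw [h1] at h3
  rw [← h3, h2]

/-- The image of `V_q : F_M → K((t))`, `f(t) ↦ f(t^q)`. -/
def vRange (q M : ℕ) [NeZero q] [NeZero M] : IntermediateField K (LaurentSeries K) :=
  (modularFunctionFieldFullC K M).map (qExpandAlgHomC K q)

theorem kJq_le_vRange (q M : ℕ) [NeZero q] [NeZero M] : kJq K q ≤ vRange K q M := by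
  rw [← kJ_map_qExpand, vRange]
  exact IntermediateField.map_mono _ (kJ_le_fullC K M)

theorem vRange_le_fullC (q M N : ℕ) [NeZero q] [NeZero M] [NeZero N] (hN : N = q * M) :
    vRange K q M ≤ modularFunctionFieldFullC K N := by
  intro x hx
  obtain ⟨y, hy, rfl⟩ := hx
  exact S34.H36.qExpand_mem_fullC K q M N (dvd_of_eq hN.symm) hy

/-- `[V_q(F_M) : K(j_q)] = ψ(M)`. -/
theorem relfinrank_kJq_vRange (q M : ℕ) [NeZero q] [NeZero M] (hMK : ((M : ℕ) : K) ≠ 0) :
    IntermediateField.relfinrank (kJq K q) (vRange K q M) = dedekindPsi M := by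
  rw [← kJ_map_qExpand, vRange, IntermediateField.relfinrank_map_map]
  exact relfinrank_kJ_fullC K M hMK

/-- **`[F_N : V_q(F_M)] = q + 1`** for `N = q * M`, `q` prime, `q ∤ M`. -/
theorem relfinrank_vRange_fullC (q M N : ℕ) [NeZero q] [NeZero M] [NeZero N] (hq : q.Prime)
    (hqM : ¬ q ∣ M) (hN : N = q * M) (hNK : ((N : ℕ) : K) ≠ 0) :
    IntermediateField.relfinrank (vRange K q M) (modularFunctionFieldFullC K N) = q + 1 := by
  have hqN : q ∣ N := hN ▸ Dvd.intro M rfl
  have hMN : M ∣ N := hN ▸ Dvd.intro_left q rfl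
  have h1 := relfinrank_kJq_vRange K q M (natCast_ne_zero_of_dvd K hMN hNK)
  have h2 := relfinrank_kJq_fullC K q N hqN hNK
  have h3 := IntermediateField.relfinrank_mul_relfinrank (kJq_le_vRange K q M)
    (vRange_le_fullC K q M N hN)
  rw [h1, h2] at h3
  have hψ : dedekindPsi N = dedekindPsi M * (q + 1) := by
    rw [hN, S28.H64.dedekindPsi_prime_mul hq (Nat.pos_of_ne_zero (NeZero.ne M)), if_neg hqM]
  rw [hψ] at h3
  exact Nat.eq_of_mul_eq_mul_left (S18.H16.dedekindPsi_pos' M) h3


/-- The algebra structure `F_M → F_N` given by `V_q` (to be used as a LOCAL instance). -/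
abbrev vAlgebra (q M N : ℕ) [NeZero q] [NeZero M] [NeZero N] (h : q * M ∣ N) :
    Algebra (modularFunctionFieldFullC K M) (modularFunctionFieldFullC K N) :=
  (S34.H36.vSub K q M N h).toRingHom.toAlgebra

theorem vAlgebra_algebraMap_eq (q M N : ℕ) [NeZero q] [NeZero M] [NeZero N] (h : q * M ∣ N)
    (x : modularFunctionFieldFullC K M) :
    letI := vAlgebra K q M N h
    algebraMap (modularFunctionFieldFullC K M) (modularFunctionFieldFullC K N) x =
      S34.H36.vSub K q M N h x := by
  letI := vAlgebra K q M N h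
  rw [RingHom.algebraMap_toAlgebra]
  rfl

/-- **`[F_N : F_M] = q + 1` for the algebra structure `V_q`.** -/
theorem finrank_vSub (q M N : ℕ) [NeZero q] [NeZero M] [NeZero N] (hq : q.Prime)
    (hqM : ¬ q ∣ M) (hN : N = q * M) (hNK : ((N : ℕ) : K) ≠ 0) :
    letI := vAlgebra K q M N (dvd_of_eq hN.symm)
    Module.finrank (modularFunctionFieldFullC K M) (modularFunctionFieldFullC K N) = q + 1 := by
  letI := vAlgebra K q M N (dvd_of_eq hN.symm)
  rw [← relfinrank_vRange_fullC K q M N hq hqM hN hNK,
    IntermediateField.relfinrank_eq_finrank_of_le (vRange_le_fullC K q M N hN)]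
  let i : modularFunctionFieldFullC K M ≃+* vRange K q M :=
    (IntermediateField.equivMap (modularFunctionFieldFullC K M) (qExpandAlgHomC K q)).toRingEquiv
  let j : modularFunctionFieldFullC K N ≃+*
      (IntermediateField.extendScalars (vRange_le_fullC K q M N hN)) :=
    { toFun := fun x => ⟨x.1, x.2⟩
      invFun := fun x => ⟨x.1, x.2⟩
      left_inv := fun _ => rfl
      right_inv := fun _ => rfl
      map_mul' := fun _ _ => rfl
      map_add' := fun _ _ => rfl }
  refine Algebra.finrank_eq_of_equiv_equiv i j ?_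
  apply RingHom.ext
  intro x
  apply Subtype.ext
  rfl


/-! ### The `V_q`-side relation, generation and minimal polynomial -/

theorem vAlgebra_algebraMap_coe (q M N : ℕ) [NeZero q] [NeZero M] [NeZero N] (h : q * M ∣ N)
    (x : modularFunctionFieldFullC K M) :
    letI := vAlgebra K q M N h
    ((algebraMap (modularFunctionFieldFullC K M) (modularFunctionFieldFullC K N) x :
      modularFunctionFieldFullC K N) : LaurentSeries K) = qExpand K q (x : LaurentSeries K) := by
  letI := vAlgebra K q M N h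
  rw [vAlgebra_algebraMap_eq]
  rfl

theorem vAlgebra_isScalarTower (q M N : ℕ) [NeZero q] [NeZero M] [NeZero N] (h : q * M ∣ N) :
    letI := vAlgebra K q M N h
    IsScalarTower K (modularFunctionFieldFullC K M) (modularFunctionFieldFullC K N) := by
  letI := vAlgebra K q M N h
  refine IsScalarTower.of_algebraMap_eq (fun c => ?_)
  rw [vAlgebra_algebraMap_eq]
  exact ((S34.H36.vSub K q M N h).commutes c).symm

theorem vAlgebra_algebraMap_jK (q M N : ℕ) [NeZero q] [NeZero M] [NeZero N] (h : q * M ∣ N) :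
    letI := vAlgebra K q M N h
    algebraMap (modularFunctionFieldFullC K M) (modularFunctionFieldFullC K N)
      (S18.H16.jK K M) = S18.H99.jdK K N q ((Dvd.intro _ rfl).trans h) := by
  letI := vAlgebra K q M N h
  rw [vAlgebra_algebraMap_eq]
  exact S34.H36.vSub_jK K q M N h

theorem vAlgebra_algebraMap_jNK (q M N : ℕ) [NeZero q] [NeZero M] [NeZero N] (hN : N = q * M) :
    letI := vAlgebra K q M N (dvd_of_eq hN.symm)
    algebraMap (modularFunctionFieldFullC K M) (modularFunctionFieldFullC K N)
      (S18.H16.jNK K M) = S18.H16.jNK K N := by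
  letI := vAlgebra K q M N (dvd_of_eq hN.symm)
  apply Subtype.ext
  rw [vAlgebra_algebraMap_coe, S18.H16.coe_jNK, S18.H16.coe_jNK, qExpand_qExpand]
  exact qExpand_congr hN.symm _

/-- `Φ_q(V_q j, j) = Φ_q(j_q, j) = 0`: the relation of `θ := j` over `V_q(F_M)`, `y := j`. -/
theorem vAlgebra_rel (q M N : ℕ) [NeZero q] [NeZero M] [NeZero N] (h : q * M ∣ N)
    (D : ModularPolynomialData q)
    (hD : ∀ (k : Type) [Field k] (ζ : kˣ), IsPrimitiveRoot ζ q → RootsAt k q ζ D.Φ) :
    letI := vAlgebra K q M N h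
    Polynomial.aeval (S18.H16.jK K N) (relPolyAt q D (S18.H16.jK K M)) = 0 := by
  letI := vAlgebra K q M N h
  rw [aeval_relPolyAt_iff, vAlgebra_algebraMap_jK, ← S18.H99.jdK_one K N]
  exact relFK_swap K N q D hD 1 q (one_mul q).symm (one_dvd N) ((Dvd.intro _ rfl).trans h)

/-- `F_N = V_q(F_M)(j)`. -/
theorem vAlgebra_adjoin_jK_eq_top (q M N : ℕ) [NeZero q] [NeZero M] [NeZero N] (hN : N = q * M)
    (hNK : ((N : ℕ) : K) ≠ 0) :
    letI := vAlgebra K q M N (dvd_of_eq hN.symm)
    IntermediateField.adjoin (modularFunctionFieldFullC K M) {S18.H16.jK K N} = ⊤ := by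
  letI := vAlgebra K q M N (dvd_of_eq hN.symm)
  haveI := vAlgebra_isScalarTower K q M N (dvd_of_eq hN.symm)
  rw [eq_top_iff]
  have hj : S18.H16.jNK K N ∈ IntermediateField.adjoin (modularFunctionFieldFullC K M)
        {S18.H16.jK K N} := by
    have h0 := IntermediateField.algebraMap_mem (IntermediateField.adjoin
      (modularFunctionFieldFullC K M) {S18.H16.jK K N}) (S18.H16.jNK K M)
    have h1 := vAlgebra_algebraMap_jNK K q M N hN
    exact h1 ▸ h0
  have h1 : (⊤ : IntermediateField K (modularFunctionFieldFullC K N)) ≤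
      (IntermediateField.adjoin (modularFunctionFieldFullC K M)
        {S18.H16.jK K N}).restrictScalars K := by
    rw [← S18.H16.adjoin_pair_eq_top_gen N K hNK, IntermediateField.adjoin_le_iff]
    rintro x (rfl | rfl)
    · exact IntermediateField.subset_adjoin (modularFunctionFieldFullC K M) {S18.H16.jK K N}
        (Set.mem_singleton _)
    · exact hj
  intro x _
  exact h1 (IntermediateField.mem_top)

/-- **`minpoly (V_q F_M) j = Φ_q(j_q, Y)`** (as the image of `Φ_q(j, Y) ∈ F_M[Y]`). -/
theorem vAlgebra_minpoly_jK (q M N : ℕ) [NeZero q] [NeZero M] [NeZero N] (hq : q.Prime)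
    (hqM : ¬ q ∣ M) (hN : N = q * M) (hNK : ((N : ℕ) : K) ≠ 0) (D : ModularPolynomialData q)
    (hD : ∀ (k : Type) [Field k] (ζ : kˣ), IsPrimitiveRoot ζ q → RootsAt k q ζ D.Φ) :
    letI := vAlgebra K q M N (dvd_of_eq hN.symm)
    minpoly (modularFunctionFieldFullC K M) (S18.H16.jK K N) =
      relPolyAt q D (S18.H16.jK K M) := by
  letI := vAlgebra K q M N (dvd_of_eq hN.symm)
  exact minpoly_eq_relPolyAt hq (vAlgebra_rel K q M N (dvd_of_eq hN.symm) D hD)
    (vAlgebra_adjoin_jK_eq_top K q M N hN hNK) (finrank_vSub K q M N hq hqM hN hNK)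

end Degree

end Fermat.Agent.S35.H16
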