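/-
S35, row G6 (helper86): wiring of the geometric input `(GEO)` to `JZero`.

Generic part (any function fields `F ⊆ F'` over `K` along `K`-embeddings):

* `pic0PushAlong φ hφ hfin hN : Pic0 K F' →+ Pic0 K F` : the `Pic⁰`-pushforward along a finite
  `K`-embedding `φ : F → F'` satisfying the norm formula, with `pic0PushAlong_mk`;
* `pic0PushAlong_smul` : it commutes with semilinear automorphisms intertwined by `φ`;
* `ord_normAlong` : `div (N_φ f) = φ_* (div f)`;
* `exists_normAlong_eq_of_pic0PushAlong_eq_zero` : if `m D = div f` and `φ_* [D] = 0`, then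
  `N_φ f ∈ K^× · F^{× m}` (constant field algebraically closed);
* `GeoFnP`, `GeoFn` / `geo_of_geoFnP`, `geo_of_geoFn` : the function-field form `(GEO-fn)` of
  `(g² - q²)(g² - 1)² = 0` on `{x ∈ Pic⁰(F')[m] : α_* x = β_* x = 0}` implies that statement.

Modular part: `pushAlpha N ℓ`, `pushBeta N ℓ : JZero (N * ℓ) →+ JZero N`, their Galois equivariance,
and `(GEO)` on `JZero (N * ℓ)` from `(GEO-fn)`.
-/
import Mathlib
import Fermat.Prelude.Def_ModularCurve_HeckeModule
import Fermat.Agent.S29.H28_GalHecke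
import Fermat.Agent.S29.H38_Moving
import Fermat.Agent.S37.H8_HeckeInputs
import Fermat.Agent.RR.H52_FFInst
import Fermat.Agent.S34.H47_UOfUFn

set_option autoImplicit false
set_option linter.style.haveILetI false
set_option linter.unusedSectionVars false

noncomputable section

namespace Fermat.Agent.S35.H86

open AlgebraicCurve AlgebraicCurve.SemilinearAut IntermediateField
open Fermat.Agent.S34

section Generic

variable {K F F' : Type*} [Field K] [Field F] [Field F'] [Algebra K F] [Algebra K F']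

/-! ### The `Pic⁰`-pushforward along a `K`-embedding -/

/-- Pushforward of degree-zero divisors along `φ`. -/
def degZeroPushAlong (φ : F →ₐ[K] F') (hφ : φ.toRingHom.IsIntegral) :
    Divisor.degZero (K := K) (F := F') →+ Divisor.degZero (K := K) (F := F) :=
  ((Divisor.pushforwardAlong φ hφ).domRestrict (Divisor.degZero (K := K) (F := F'))).codRestrict _
    (fun D => Divisor.pushforwardAlong_mem_degZero φ hφ D.2)

@[simp]
theorem coe_degZeroPushAlong (φ : F →ₐ[K] F') (hφ : φ.toRingHom.IsIntegral)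
    (D : Divisor.degZero (K := K) (F := F')) :
    (degZeroPushAlong φ hφ D : Divisor K F) = Divisor.pushforwardAlong φ hφ (D : Divisor K F') :=
  rfl

/-- The `Pic⁰`-pushforward `φ_* : Pic⁰(F') → Pic⁰(F)` along a finite `K`-embedding `φ : F → F'`
satisfying the norm formula. -/
def pic0PushAlong (φ : F →ₐ[K] F') (hφ : φ.toRingHom.IsIntegral) (hfin : FiniteAlong K φ)
    (hN : NormFormulaAlong K φ hfin) : Pic0 K F' →+ Pic0 K F :=
  QuotientAddGroup.map _ _ (degZeroPushAlong φ hφ) (by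
    rintro ⟨D, hD0⟩ hD
    simp only [AddSubgroup.mem_addSubgroupOf] at hD ⊢
    exact Divisor.isPrincipal_pushforwardAlong φ hφ hfin hN hD)

theorem pic0PushAlong_mk (φ : F →ₐ[K] F') (hφ : φ.toRingHom.IsIntegral) (hfin : FiniteAlong K φ)
    (hN : NormFormulaAlong K φ hfin) (D : Divisor.degZero (K := K) (F := F')) :
    pic0PushAlong φ hφ hfin hN (Pic0.mk D) = Pic0.mk (degZeroPushAlong φ hφ D) :=
  rfl

/-- `φ_*` commutes with semilinear automorphisms intertwined by `φ`. -/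
theorem pic0PushAlong_smul (φ : F →ₐ[K] F') (hφ : φ.toRingHom.IsIntegral)
    (hfin : FiniteAlong K φ) (hN : NormFormulaAlong K φ hfin)
    {g : SemilinearAut K F} {g' : SemilinearAut K F'}
    (h : SemilinearAut.IntertwinesAlong (φ : F →+* F') g g') (x : Pic0 K F') :
    pic0PushAlong φ hφ hfin hN (g' • x) = g • pic0PushAlong φ hφ hfin hN x := by
  obtain ⟨D, rfl⟩ := Pic0.mk_surjective x
  rw [SemilinearAut.pic0_smul_mk, pic0PushAlong_mk, pic0PushAlong_mk, SemilinearAut.pic0_smul_mk]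
  refine congrArg Pic0.mk (Subtype.ext ?_)
  rw [coe_degZeroPushAlong, SemilinearAut.coe_degZeroSMulHom, SemilinearAut.coe_degZeroSMulHom,
    coe_degZeroPushAlong]
  exact Fermat.Agent.S29.H28.pushforwardAlong_smul φ hφ h _

/-! ### The norm along `φ` and its divisor -/

/-- The norm `F' → F` along `φ`. -/
def normAlong (φ : F →ₐ[K] F') : F' →* F :=
  letI := algebraAlong φ
  Algebra.norm F

theorem normAlong_ne_zero (φ : F →ₐ[K] F') (hfin : FiniteAlong K φ) {f : F'} (hf : f ≠ 0) :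
    normAlong φ f ≠ 0 := by
  letI := algebraAlong φ
  haveI : Module.Finite F F' := hfin
  exact (Algebra.norm_ne_zero_iff (R := F) (S := F')).mpr hf

/-- **`div (N_φ f) = φ_* (div f)`**. -/
theorem pushforwardAlong_apply_eq_ord_normAlong (φ : F →ₐ[K] F') (hφ : φ.toRingHom.IsIntegral)
    (hfin : FiniteAlong K φ) (hN : NormFormulaAlong K φ hfin) {f : F'} (hf : f ≠ 0)
    {D : Divisor K F'} (hD : ∀ w : Place K F', D w = w.ord f) (v : Place K F) :
    Divisor.pushforwardAlong φ hφ D v = v.ord (normAlong φ f) :=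
  hN f hf D hD v

/-- If `div f = m D` then `div (N_φ f) = m φ_* D`. -/
theorem ord_normAlong_of_ord_eq_mul (φ : F →ₐ[K] F') (hφ : φ.toRingHom.IsIntegral)
    (hfin : FiniteAlong K φ) (hN : NormFormulaAlong K φ hfin) {f : F'} (hf : f ≠ 0) {m : ℕ}
    {D : Divisor K F'} (hD : ∀ w : Place K F', w.ord f = (m : ℤ) * D w) (v : Place K F) :
    v.ord (normAlong φ f) = (m : ℤ) * Divisor.pushforwardAlong φ hφ D v := by
  have h1 := pushforwardAlong_apply_eq_ord_normAlong φ hφ hfin hN hf (D := m • D)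
    (fun w => by rw [hD w]; simp [Finsupp.smul_apply]) v
  rw [← h1, map_nsmul]
  simp [Finsupp.smul_apply]


/-- **Norm wiring.** If `div f = m D` and `φ_* [D] = 0` in `Pic⁰(F)`, then
`N_φ f ∈ K^× · F^{× m}` (`K` algebraically closed, `F/K` a function field of one variable). -/
theorem exists_normAlong_eq_of_pic0PushAlong_eq_zero [IsAlgClosed K] (t : F)
    (ht : Transcendental K t) [FiniteDimensional K⟮t⟯ F]
    (φ : F →ₐ[K] F') (hφ : φ.toRingHom.IsIntegral)
    (hfin : FiniteAlong K φ) (hN : NormFormulaAlong K φ hfin) {m : ℕ}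
    (D : Divisor.degZero (K := K) (F := F'))
    (hpush : pic0PushAlong φ hφ hfin hN (Pic0.mk D) = 0)
    {f : F'} (hf : f ≠ 0) (hfD : ∀ w : Place K F', w.ord f = (m : ℤ) * (D : Divisor K F') w) :
    ∃ (c : K) (h : F), c ≠ 0 ∧ h ≠ 0 ∧ normAlong φ f = algebraMap K F c * h ^ m := by
  rw [pic0PushAlong_mk] at hpush
  have hprin : (degZeroPushAlong φ hφ D : Divisor K F) ∈ Divisor.principal (K := K) (F := F) :=
    AddSubgroup.mem_addSubgroupOf.mp ((QuotientAddGroup.eq_zero_iff _).mp hpush)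
  obtain ⟨h, hh, hhD⟩ := hprin
  have hnf : normAlong φ f ≠ 0 := normAlong_ne_zero φ hfin hf
  have hhm : h ^ m ≠ 0 := pow_ne_zero _ hh
  have hord : ∀ v : Place K F, v.ord (normAlong φ f / h ^ m) = 0 := by
    intro v
    rw [H47.ord_div v hnf hhm, ord_normAlong_of_ord_eq_mul φ hφ hfin hN hf hfD v, H47.ord_pow,
      ← hhD v, coe_degZeroPushAlong, sub_self]
  obtain ⟨c, hc⟩ := Fermat.Agent.RR.H52.exists_eq_algebraMap_of_forall_ord_eq_zero t ht hord
  have hc0 : c ≠ 0 := by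
    rintro rfl
    rw [map_zero] at hc
    exact (div_ne_zero hnf hhm) hc
  refine ⟨c, h, hc0, hh, ?_⟩
  rw [← hc, div_mul_cancel₀ _ hhm]

/-! ### The ratios `u ↦ g² u / u ^ k` -/

/-- `u ↦ g² u / u ^ k`. -/
def ratk (g : SemilinearAut K F') (k : ℕ) (u : F') : F' := (g • g • u) / u ^ k

theorem ratk_one (g : SemilinearAut K F') (u : F') : ratk g 1 u = (g • g • u) / u := by
  rw [ratk, pow_one]

theorem smul_ne_zero_of_ne_zero (g : SemilinearAut K F') {u : F'} (hu : u ≠ 0) : g • u ≠ 0 := by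
  rw [SemilinearAut.smul_def]; simpa using hu

theorem ratk_ne_zero (g : SemilinearAut K F') (k : ℕ) {u : F'} (hu : u ≠ 0) : ratk g k u ≠ 0 :=
  div_ne_zero (smul_ne_zero_of_ne_zero g (smul_ne_zero_of_ne_zero g hu)) (pow_ne_zero _ hu)

/-- The divisor-level operator `A ↦ g² A - k A`. -/
def divk (g : SemilinearAut K F') (k : ℕ) (A : Divisor K F') : Divisor K F' :=
  g • g • A - k • A

theorem divk_apply (g : SemilinearAut K F') (k : ℕ) (A : Divisor K F') (v : Place K F') :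
    divk g k A v = A (g⁻¹ • g⁻¹ • v) - (k : ℤ) * A v := by
  simp only [divk, Finsupp.sub_apply, Finsupp.smul_apply, divisor_smul_apply, nsmul_eq_mul]

/-- If `div u = m A` then `div (g² u / u ^ k) = m (g² A - k A)`. -/
theorem ord_ratk (g : SemilinearAut K F') (k : ℕ) {u : F'} (hu : u ≠ 0) {m : ℕ}
    {A : Divisor K F'} (hA : ∀ v : Place K F', v.ord u = (m : ℤ) * A v) (v : Place K F') :
    v.ord (ratk g k u) = (m : ℤ) * divk g k A v := by
  have hgu : g • u ≠ 0 := smul_ne_zero_of_ne_zero g hu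
  have hggu : g • g • u ≠ 0 := smul_ne_zero_of_ne_zero g hgu
  rw [ratk, H47.ord_div v hggu (pow_ne_zero _ hu), H47.ord_smul' g v (g • u),
    H47.ord_smul' g (g⁻¹ • v) u, H47.ord_pow, hA, hA, divk_apply]
  ring

/-- The `Pic⁰`-level operator `y ↦ g² y - k y`. -/
def delk (g : SemilinearAut K F') (k : ℕ) (y : Pic0 K F') : Pic0 K F' := g • g • y - k • y

@[simp]
theorem delk_apply (g : SemilinearAut K F') (k : ℕ) (y : Pic0 K F') :
    delk g k y = g • g • y - k • y := rfl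

/-- The degree-zero-divisor-level operator `D ↦ g² D - k D`. -/
def degZeroDivk (g : SemilinearAut K F') (k : ℕ) (D : Divisor.degZero (K := K) (F := F')) :
    Divisor.degZero (K := K) (F := F') :=
  degZeroSMulHom g (degZeroSMulHom g D) - k • D

theorem coe_degZeroDivk (g : SemilinearAut K F') (k : ℕ)
    (D : Divisor.degZero (K := K) (F := F')) :
    (degZeroDivk g k D : Divisor K F') = divk g k (D : Divisor K F') := by
  simp only [degZeroDivk, divk, AddSubgroup.coe_sub, AddSubgroup.coe_nsmul, coe_degZeroSMulHom]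

theorem delk_mk (g : SemilinearAut K F') (k : ℕ) (D : Divisor.degZero (K := K) (F := F')) :
    delk g k (Pic0.mk D) = Pic0.mk (degZeroDivk g k D) := by
  rw [delk_apply, pic0_smul_mk, pic0_smul_mk]
  rfl

/-! ### `(GEO-fn) ⇒ (GEO)` -/

/-- **`(GEO-fn)`, general form**: the function-field form of `(g² - q²)(g² - 1)² = 0` on the
`m`-torsion classes killed by `α_*` and `β_*`, restricted to the representatives `D` satisfying a
predicate `P` (e.g. "the support of `D` avoids a finite set of places").  For every `f ≠ 0` with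
`div f = m D`, `D` of degree zero satisfying `P`, `N_α f, N_β f ∈ K^× F^{× m}`, the function
`u₃ = g² u₂ / u₂ ^ (q²)`, `u₂ = g² u₁ / u₁`, `u₁ = g² f / f` lies in `K^× F'^{× m}`. -/
def GeoFnP (φα φβ : F →ₐ[K] F') (g : SemilinearAut K F') (q m : ℕ)
    (P : Divisor K F' → Prop) : Prop :=
  ∀ (f : F') (D : Divisor K F'), f ≠ 0 → (∀ v : Place K F', v.ord f = (m : ℤ) * D v) →
    Divisor.degree D = 0 → P D →
    (∃ (c : K) (h : F), c ≠ 0 ∧ h ≠ 0 ∧ normAlong φα f = algebraMap K F c * h ^ m) →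
    (∃ (c : K) (h : F), c ≠ 0 ∧ h ≠ 0 ∧ normAlong φβ f = algebraMap K F c * h ^ m) →
    ∃ (c : K) (w : F'), w ≠ 0 ∧
      ratk g (q ^ 2) (ratk g 1 (ratk g 1 f)) = algebraMap K F' c * w ^ m

/-- **`(GEO-fn)`**: the form of `GeoFnP` where `P D` says that `D` avoids the set `T` of places
(finite in the application, so that the moving lemma applies). -/
def GeoFn (φα φβ : F →ₐ[K] F') (g : SemilinearAut K F') (q m : ℕ) (T : Set (Place K F')) : Prop :=
  GeoFnP φα φβ g q m (fun D => ∀ v ∈ T, D v = 0)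

/-- **`(GEO-fn) ⇒ (GEO)`**, abstract form with a general predicate on representatives: if every
class has a representative satisfying `P`, then on every `x ∈ Pic⁰(F')[m]` with
`α_* x = β_* x = 0`, `(g² - q²)(g² - 1)² x = 0`. -/
theorem geo_of_geoFnP [IsAlgClosed K] (t : F)
    (ht : Transcendental K t) [FiniteDimensional K⟮t⟯ F]
    (φα φβ : F →ₐ[K] F') (hα : φα.toRingHom.IsIntegral) (hβ : φβ.toRingHom.IsIntegral)
    (hfinα : FiniteAlong K φα) (hfinβ : FiniteAlong K φβ)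
    (hNα : NormFormulaAlong K φα hfinα) (hNβ : NormFormulaAlong K φβ hfinβ)
    (g : SemilinearAut K F') {q m : ℕ} (hm : m ≠ 0) {P : Divisor K F' → Prop}
    (hG : GeoFnP φα φβ g q m P)
    (x : Pic0 K F') (hP : ∃ D : Divisor.degZero (K := K) (F := F'), Pic0.mk D = x ∧
      P (D : Divisor K F')) (hx : m • x = 0)
    (hxα : pic0PushAlong φα hα hfinα hNα x = 0) (hxβ : pic0PushAlong φβ hβ hfinβ hNβ x = 0) :
    delk g (q ^ 2) (delk g 1 (delk g 1 x)) = 0 := by
  obtain ⟨D, rfl, hDT⟩ := hP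
  -- `m D` is principal
  have hmD : Pic0.mk (m • D) = (0 : Pic0 K F') := by
    rw [← hx]; rfl
  have hprin : ((m • D : Divisor.degZero (K := K) (F := F')) : Divisor K F')
      ∈ Divisor.principal (K := K) (F := F') :=
    AddSubgroup.mem_addSubgroupOf.mp ((QuotientAddGroup.eq_zero_iff (m • D)).mp hmD)
  obtain ⟨f, hf, hfD⟩ := hprin
  have hfD' : ∀ v : Place K F', v.ord f = (m : ℤ) * (D : Divisor K F') v := by
    intro v
    rw [← hfD v]
    simp [Finsupp.smul_apply]
  have hnα := exists_normAlong_eq_of_pic0PushAlong_eq_zero t ht φα hα hfinα hNα D hxα hf hfD'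
  have hnβ := exists_normAlong_eq_of_pic0PushAlong_eq_zero t ht φβ hβ hfinβ hNβ D hxβ hf hfD'
  obtain ⟨c, w, hw, hu⟩ := hG f (D : Divisor K F') hf hfD' (Divisor.mem_degZero.mp D.2) hDT hnα hnβ
  -- the three ratios and their divisors
  have h1 := ord_ratk g 1 hf hfD'
  have hu1 := ratk_ne_zero g 1 hf
  have h2 := ord_ratk g 1 hu1 h1
  have hu2 := ratk_ne_zero g 1 hu1
  have h3 := ord_ratk g (q ^ 2) hu2 h2
  have hu3 := ratk_ne_zero g (q ^ 2) hu2
  have hc : c ≠ 0 := by
    rintro rfl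
    rw [map_zero, zero_mul] at hu
    exact hu3 hu
  rw [delk_mk, delk_mk, delk_mk]
  refine (QuotientAddGroup.eq_zero_iff _).mpr (AddSubgroup.mem_addSubgroupOf.mpr ?_)
  refine ⟨w, hw, fun v => ?_⟩
  rw [coe_degZeroDivk, coe_degZeroDivk, coe_degZeroDivk]
  have hord' : v.ord (ratk g (q ^ 2) (ratk g 1 (ratk g 1 f))) = (m : ℤ) * v.ord w := by
    rw [hu, v.ord_mul ((map_ne_zero _).mpr hc) (pow_ne_zero _ hw),
      H47.ord_algebraMap_of_ne_zero v hc, zero_add, H47.ord_pow]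
  have hm' : (m : ℤ) ≠ 0 := by exact_mod_cast hm
  exact mul_left_cancel₀ hm' ((h3 v).symm.trans hord')

/-- **`(GEO-fn) ⇒ (GEO)`**, abstract form: on every `x ∈ Pic⁰(F')[m]` with `α_* x = β_* x = 0`,
`(g² - q²)(g² - 1)² x = 0` (the representative is moved away from the finite set `T`). -/
theorem geo_of_geoFn [IsAlgClosed K] [HasPrincipalDivisors K F'] (t : F)
    (ht : Transcendental K t) [FiniteDimensional K⟮t⟯ F]
    (φα φβ : F →ₐ[K] F') (hα : φα.toRingHom.IsIntegral) (hβ : φβ.toRingHom.IsIntegral)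
    (hfinα : FiniteAlong K φα) (hfinβ : FiniteAlong K φβ)
    (hNα : NormFormulaAlong K φα hfinα) (hNβ : NormFormulaAlong K φβ hfinβ)
    (g : SemilinearAut K F') {q m : ℕ} (hm : m ≠ 0) {T : Set (Place K F')} (hT : T.Finite)
    (hG : GeoFn φα φβ g q m T)
    (x : Pic0 K F') (hx : m • x = 0)
    (hxα : pic0PushAlong φα hα hfinα hNα x = 0) (hxβ : pic0PushAlong φβ hβ hfinβ hNβ x = 0) :
    delk g (q ^ 2) (delk g 1 (delk g 1 x)) = 0 :=
  geo_of_geoFnP t ht φα φβ hα hβ hfinα hfinβ hNα hNβ g hm hG x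
    (Fermat.Agent.S29.H38.exists_rep_avoid_of_finite x hT) hx hxα hxβ

end Generic

section Modular

open ModularCurve Fermat.Agent.S24 Fermat.Agent.S37.H8

local notation "Qb" => AlgebraicClosure ℚ
local notation "GQ" => (AlgebraicClosure ℚ ≃ₐ[ℚ] AlgebraicClosure ℚ)

variable (N ℓ : ℕ) [NeZero N] [NeZero ℓ]

theorem normFormulaAlong_heckeAlphaBar :
    NormFormulaAlong Qb (heckeAlphaBar Qb N ℓ) (finiteAlong_heckeAlphaBar N ℓ) := by
  haveI := H40.finiteDimensional_FN N
  haveI := H40.finiteDimensional_FN (N * ℓ)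
  exact normFormulaAlong_of_transcendental (K := Qbar) (jBar N) (jBar (N * ℓ))
    (H40.transcendental_jBar N) (H40.transcendental_jBar (N * ℓ)) _ _

theorem normFormulaAlong_heckeBetaBar :
    NormFormulaAlong Qb (heckeBetaBar Qb N ℓ) (finiteAlong_heckeBetaBar N ℓ) := by
  haveI := H40.finiteDimensional_FN N
  haveI := H40.finiteDimensional_FN (N * ℓ)
  exact normFormulaAlong_of_transcendental (K := Qbar) (jBar N) (jBar (N * ℓ))
    (H40.transcendental_jBar N) (H40.transcendental_jBar (N * ℓ)) _ _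

/-- `α_* : J₀(Nℓ) → J₀(N)`, the `Pic⁰`-pushforward along `f(τ) ↦ f(τ)`. -/
def pushAlpha : JZero (N * ℓ) →+ JZero N :=
  pic0PushAlong (heckeAlphaBar Qb N ℓ) (heckeAlphaBarIntegral N ℓ) (finiteAlong_heckeAlphaBar N ℓ)
    (normFormulaAlong_heckeAlphaBar N ℓ)

/-- `β_* : J₀(Nℓ) → J₀(N)`, the `Pic⁰`-pushforward along `f(τ) ↦ f(ℓτ)`. -/
def pushBeta : JZero (N * ℓ) →+ JZero N :=
  pic0PushAlong (heckeBetaBar Qb N ℓ) (heckeBetaBarIntegral N ℓ) (finiteAlong_heckeBetaBar N ℓ)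
    (normFormulaAlong_heckeBetaBar N ℓ)

/-- `α_*` is `G_ℚ`-equivariant. -/
theorem pushAlpha_smul (σ : GQ) (x : JZero (N * ℓ)) :
    pushAlpha N ℓ (σ • x) = σ • pushAlpha N ℓ x := by
  rw [galois_smul_pic0_def, galois_smul_pic0_def]
  exact pic0PushAlong_smul _ _ _ _ (Fermat.Agent.S29.H28.intertwines_heckeAlphaBar N ℓ σ) x

/-- `β_*` is `G_ℚ`-equivariant. -/
theorem pushBeta_smul (σ : GQ) (x : JZero (N * ℓ)) :
    pushBeta N ℓ (σ • x) = σ • pushBeta N ℓ x := by
  rw [galois_smul_pic0_def, galois_smul_pic0_def]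
  exact pic0PushAlong_smul _ _ _ _ (Fermat.Agent.S29.H28.intertwines_heckeBetaBar N ℓ σ) x

/-- The common kernel of `α_*` and `β_*` (the "`ℓ`-new part" of `J₀(Nℓ)`), a `G_ℚ`-stable
subgroup. -/
def newKer : AddSubgroup (JZero (N * ℓ)) := (pushAlpha N ℓ).ker ⊓ (pushBeta N ℓ).ker

theorem mem_newKer {x : JZero (N * ℓ)} :
    x ∈ newKer N ℓ ↔ pushAlpha N ℓ x = 0 ∧ pushBeta N ℓ x = 0 := Iff.rfl

theorem smul_mem_newKer (σ : GQ) {x : JZero (N * ℓ)} (hx : x ∈ newKer N ℓ) :
    σ • x ∈ newKer N ℓ := by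
  rw [mem_newKer] at hx ⊢
  rw [pushAlpha_smul, pushBeta_smul, hx.1, hx.2]
  have h0 : σ • (0 : JZero N) = 0 := smul_zero (A := JZero N) σ
  exact ⟨h0, h0⟩

/-- The norm `F_{Nℓ} → F_N` along `α : f(τ) ↦ f(τ)`. -/
abbrev normAlpha : modularFunctionFieldBar (N * ℓ) →* modularFunctionFieldBar N :=
  normAlong (heckeAlphaBar Qb N ℓ)

/-- The norm `F_{Nℓ} → F_N` along `β : f(τ) ↦ f(ℓτ)`. -/
abbrev normBeta : modularFunctionFieldBar (N * ℓ) →* modularFunctionFieldBar N :=
  normAlong (heckeBetaBar Qb N ℓ)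

/-- If `y = [D]`, `div f = m D` and `α_* y = 0`, then `N_α f = c · h ^ m`. -/
theorem exists_normAlpha_eq_of_pushAlpha_eq_zero {m : ℕ}
    (D : Divisor.degZero (K := Qb) (F := modularFunctionFieldBar (N * ℓ)))
    (hpush : pushAlpha N ℓ (Pic0.mk D) = 0) {f : modularFunctionFieldBar (N * ℓ)} (hf : f ≠ 0)
    (hfD : ∀ w : Place Qb (modularFunctionFieldBar (N * ℓ)),
      w.ord f = (m : ℤ) * (D : Divisor Qb (modularFunctionFieldBar (N * ℓ))) w) :
    ∃ (c : Qb) (h : modularFunctionFieldBar N), c ≠ 0 ∧ h ≠ 0 ∧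
      normAlpha N ℓ f = algebraMap Qb (modularFunctionFieldBar N) c * h ^ m := by
  haveI := H40.finiteDimensional_FN N
  exact exists_normAlong_eq_of_pic0PushAlong_eq_zero (K := Qb) (jBar N)
    (H40.transcendental_jBar N) _ _ _ _ D hpush hf hfD

/-- If `y = [D]`, `div f = m D` and `β_* y = 0`, then `N_β f = c · h ^ m`. -/
theorem exists_normBeta_eq_of_pushBeta_eq_zero {m : ℕ}
    (D : Divisor.degZero (K := Qb) (F := modularFunctionFieldBar (N * ℓ)))
    (hpush : pushBeta N ℓ (Pic0.mk D) = 0) {f : modularFunctionFieldBar (N * ℓ)} (hf : f ≠ 0)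
    (hfD : ∀ w : Place Qb (modularFunctionFieldBar (N * ℓ)),
      w.ord f = (m : ℤ) * (D : Divisor Qb (modularFunctionFieldBar (N * ℓ))) w) :
    ∃ (c : Qb) (h : modularFunctionFieldBar N), c ≠ 0 ∧ h ≠ 0 ∧
      normBeta N ℓ f = algebraMap Qb (modularFunctionFieldBar N) c * h ^ m := by
  haveI := H40.finiteDimensional_FN N
  exact exists_normAlong_eq_of_pic0PushAlong_eq_zero (K := Qb) (jBar N)
    (H40.transcendental_jBar N) _ _ _ _ D hpush hf hfD

/-- **`(GEO-fn)` on the modular function field** of level `N ℓ`, for `σ ∈ G_ℚ`, the prime `q`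
(in the application `q = ℓ`), the exponent `m` and a finite set `T` of places to avoid. -/
def GeoFnJ (σ : GQ) (q m : ℕ) (T : Set (Place Qb (modularFunctionFieldBar (N * ℓ)))) : Prop :=
  GeoFn (heckeAlphaBar Qb N ℓ) (heckeBetaBar Qb N ℓ)
    (arithmeticGalois (L := Qb) (modularFunctionFieldFull (N * ℓ)) σ) q m T

/-- **`(GEO-fn) ⇒ (GEO)` on `JZero (N ℓ)`**: for `x ∈ J₀(Nℓ)[m]` with `α_* x = β_* x = 0`,
`(σ² - q²)(σ² - 1)² x = 0`. -/
theorem geo_jzero (σ : GQ) {q m : ℕ} (hm : m ≠ 0)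
    {T : Set (Place Qb (modularFunctionFieldBar (N * ℓ)))} (hT : T.Finite)
    (hG : GeoFnJ N ℓ σ q m T) (x : JZero (N * ℓ)) (hx : m • x = 0)
    (hxα : pushAlpha N ℓ x = 0) (hxβ : pushBeta N ℓ x = 0) :
    let y₁ := σ • σ • x - x
    let y₂ := σ • σ • y₁ - y₁
    σ • σ • y₂ - (q ^ 2) • y₂ = 0 := by
  haveI := H40.finiteDimensional_FN N
  haveI : HasPrincipalDivisors Qb (modularFunctionFieldBar (N * ℓ)) :=
    hasPrincipalDivisors_FN (N * ℓ)
  have h := geo_of_geoFn (K := Qb) (jBar N) (H40.transcendental_jBar N)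
    (heckeAlphaBar Qb N ℓ) (heckeBetaBar Qb N ℓ) (heckeAlphaBarIntegral N ℓ)
    (heckeBetaBarIntegral N ℓ) (finiteAlong_heckeAlphaBar N ℓ) (finiteAlong_heckeBetaBar N ℓ)
    (normFormulaAlong_heckeAlphaBar N ℓ) (normFormulaAlong_heckeBetaBar N ℓ)
    (arithmeticGalois (L := Qb) (modularFunctionFieldFull (N * ℓ)) σ) hm hT hG x hx hxα hxβ
  simpa only [delk_apply, one_smul, ← galois_smul_pic0_def] using h

/-- **`(GEO-fn)` on the modular function field**, general predicate on representatives. -/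
def GeoFnPJ (σ : GQ) (q m : ℕ)
    (P : Divisor Qb (modularFunctionFieldBar (N * ℓ)) → Prop) : Prop :=
  GeoFnP (heckeAlphaBar Qb N ℓ) (heckeBetaBar Qb N ℓ)
    (arithmeticGalois (L := Qb) (modularFunctionFieldFull (N * ℓ)) σ) q m P

theorem geoFnJ_iff (σ : GQ) (q m : ℕ) (T : Set (Place Qb (modularFunctionFieldBar (N * ℓ)))) :
    GeoFnJ N ℓ σ q m T ↔ GeoFnPJ N ℓ σ q m (fun D => ∀ v ∈ T, D v = 0) := Iff.rfl

/-- **`(GEO-fn) ⇒ (GEO)` on `JZero (N ℓ)`**, general predicate on representatives: for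
`x ∈ J₀(Nℓ)[m]` with `α_* x = β_* x = 0` having a representative satisfying `P`,
`(σ² - q²)(σ² - 1)² x = 0`. -/
theorem geo_jzeroP (σ : GQ) {q m : ℕ} (hm : m ≠ 0)
    {P : Divisor Qb (modularFunctionFieldBar (N * ℓ)) → Prop}
    (hG : GeoFnPJ N ℓ σ q m P) (x : JZero (N * ℓ))
    (hP : ∃ D : Divisor.degZero (K := Qb) (F := modularFunctionFieldBar (N * ℓ)),
      Pic0.mk D = x ∧ P (D : Divisor Qb (modularFunctionFieldBar (N * ℓ))))
    (hx : m • x = 0) (hxα : pushAlpha N ℓ x = 0) (hxβ : pushBeta N ℓ x = 0) :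
    let y₁ := σ • σ • x - x
    let y₂ := σ • σ • y₁ - y₁
    σ • σ • y₂ - (q ^ 2) • y₂ = 0 := by
  haveI := H40.finiteDimensional_FN N
  have h := geo_of_geoFnP (K := Qb) (jBar N) (H40.transcendental_jBar N)
    (heckeAlphaBar Qb N ℓ) (heckeBetaBar Qb N ℓ) (heckeAlphaBarIntegral N ℓ)
    (heckeBetaBarIntegral N ℓ) (finiteAlong_heckeAlphaBar N ℓ) (finiteAlong_heckeBetaBar N ℓ)
    (normFormulaAlong_heckeAlphaBar N ℓ) (normFormulaAlong_heckeBetaBar N ℓ)
    (arithmeticGalois (L := Qb) (modularFunctionFieldFull (N * ℓ)) σ) hm hG x hP hx hxα hxβ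
  simpa only [delk_apply, one_smul, ← galois_smul_pic0_def] using h

end Modular

end Fermat.Agent.S35.H86
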