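/-
helper18 — S35 row DESC-35, part (c): NORM DESCENT.

For a field `L ⊆ Qbar` (in the application `L = ↥E`, `E ⊇ unrCyclo q` a finite extension), the
coefficientwise embedding `H99.toBar L N : F_L(N) = fullC L N → FN N = modularFunctionFieldBar N`
intertwines the field norms of the two degeneracy structures at a prime `q ∤ M`:

* `toBar_norm_alpha` : `toBar (N_{F_L(Mq)/F_L(M)} x) = N_α (toBar x)`, where the source norm is for
  helper16's inclusion algebra `S34.H16.degAlgebra` and `N_α` is the norm along the prelude's
  `heckeAlphaBar Qbar M q` (= helper86's `S35.H86.normAlong`);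
* `toBar_norm_beta` : the twin for `S35.H16.vAlgebra` (`f(t) ↦ f(t^q)`) and `heckeBetaBar`.

Proof: helper19's `S29.H19.norm_baseChange` (a basis stays a basis), the degrees
`[F(Mq) : F(M)] = q + 1` on both sides (helper16 / helper6), and `FN = Qbar · toBar(F_L)`
(helper99's `adjoin_range_toBar_eq_top`).
-/
import Mathlib
import Fermat.Agent.S29.H19_NormBaseChange
import Fermat.Agent.S34.H16_RelDeg
import Fermat.Agent.S35.H16_RelDegV
import Fermat.Agent.S18.H99_F1Basics
import Fermat.Agent.S37.H6_LevelDegree
import Fermat.Prelude.Def_ModularCurve_HeckeOperator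

set_option autoImplicit false
set_option linter.unusedSectionVars false
set_option linter.style.haveILetI false
set_option synthInstance.maxHeartbeats 400000

noncomputable section

namespace Fermat.Agent.S35.H18

open ModularCurve AlgebraicCurve HahnSeries Fermat.Agent.S18 Fermat.Agent.S34

local notation "Qbar" => AlgebraicClosure ℚ

variable (L : Type) [Field L] [Algebra L Qbar] (M q : ℕ) [NeZero M] [NeZero q]

theorem charZero_of_algebra_Qbar : CharZero L :=
  ((algebraMap L Qbar).charZero_iff (algebraMap L Qbar).injective).mpr inferInstance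

theorem natCast_ne_zero_L (n : ℕ) [NeZero n] : ((n : ℕ) : L) ≠ 0 := by
  haveI := charZero_of_algebra_Qbar L
  exact Nat.cast_ne_zero.mpr (NeZero.ne n)

/-- `FN (M q)` is generated, as a field, by `α (FN M)` (it contains the constants) and the image of
`F_L (M q)`. -/
theorem closure_alpha_toBar_eq_top :
    letI := algebraAlong (heckeAlphaBar Qbar M q)
    Subfield.closure (Set.range (algebraMap (S24.FN M) (S24.FN (M * q))) ∪
      Set.range (H99.toBar L (M * q))) = ⊤ := by
  letI := algebraAlong (heckeAlphaBar Qbar M q)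
  rw [eq_top_iff]
  intro z _
  have hz : z ∈ IntermediateField.adjoin Qbar (Set.range (H99.toBar L (M * q))) := by
    rw [H99.adjoin_range_toBar_eq_top]; trivial
  have hz' : z ∈ Subfield.closure (Set.range (algebraMap Qbar (S24.FN (M * q))) ∪
      Set.range (H99.toBar L (M * q))) := hz
  refine Subfield.closure_mono ?_ hz'
  rintro _ (⟨c, rfl⟩ | h)
  · left
    exact ⟨algebraMap Qbar (S24.FN M) c, (heckeAlphaBar Qbar M q).commutes c⟩
  · right; exact h

/-- The same for `β`. -/
theorem closure_beta_toBar_eq_top :
    letI := algebraAlong (heckeBetaBar Qbar M q)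
    Subfield.closure (Set.range (algebraMap (S24.FN M) (S24.FN (M * q))) ∪
      Set.range (H99.toBar L (M * q))) = ⊤ := by
  letI := algebraAlong (heckeBetaBar Qbar M q)
  rw [eq_top_iff]
  intro z _
  have hz : z ∈ IntermediateField.adjoin Qbar (Set.range (H99.toBar L (M * q))) := by
    rw [H99.adjoin_range_toBar_eq_top]; trivial
  have hz' : z ∈ Subfield.closure (Set.range (algebraMap Qbar (S24.FN (M * q))) ∪
      Set.range (H99.toBar L (M * q))) := hz
  refine Subfield.closure_mono ?_ hz'
  rintro _ (⟨c, rfl⟩ | h)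
  · left
    exact ⟨algebraMap Qbar (S24.FN M) c, (heckeBetaBar Qbar M q).commutes c⟩
  · right; exact h

/-! ### the `α`-side -/

/-- `toBar` intertwines the inclusion `F_L(M) ⊆ F_L(M q)` with `α`. -/
theorem toBar_degAlgebra_algebraMap (c : modularFunctionFieldFullC L M) :
    letI := H16.degAlgebra L M (M * q) (dvd_mul_right M q)
    letI := algebraAlong (heckeAlphaBar Qbar M q)
    H99.toBar L (M * q) (algebraMap (modularFunctionFieldFullC L M)
      (modularFunctionFieldFullC L (M * q)) c) =
      algebraMap (S24.FN M) (S24.FN (M * q)) (H99.toBar L M c) := by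
  letI := H16.degAlgebra L M (M * q) (dvd_mul_right M q)
  letI := algebraAlong (heckeAlphaBar Qbar M q)
  apply Subtype.ext
  rw [H99.coe_toBar, H16.degAlgebra_algebraMap_coe]
  show _ = ((heckeAlphaBar Qbar M q (H99.toBar L M c) : S24.FN (M * q)) : LaurentSeries Qbar)
  rw [coe_heckeAlphaBar, H99.coe_toBar]

/-- **Norm descent along `α`.** -/
theorem toBar_norm_alpha (hq : q.Prime) (hqM : ¬ q ∣ M)
    (x : modularFunctionFieldFullC L (M * q)) :
    (letI := H16.degAlgebra L M (M * q) (dvd_mul_right M q);
      H99.toBar L M (Algebra.norm (modularFunctionFieldFullC L M) x)) =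
    (letI := algebraAlong (heckeAlphaBar Qbar M q);
      Algebra.norm (S24.FN M) (H99.toBar L (M * q) x)) := by
  letI a1 := H16.degAlgebra L M (M * q) (dvd_mul_right M q)
  letI a2 := algebraAlong (heckeAlphaBar Qbar M q)
  haveI : FiniteDimensional (modularFunctionFieldFullC L M)
      (modularFunctionFieldFullC L (M * q)) :=
    H16.finiteDimensional_fullC_prime L M (M * q) (dvd_mul_right M q) q hq hqM (mul_comm M q)
      (natCast_ne_zero_L L (M * q))
  have hdeg : Module.finrank (S24.FN M) (S24.FN (M * q)) =
      Module.finrank (modularFunctionFieldFullC L M) (modularFunctionFieldFullC L (M * q)) := by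
    rw [H16.finrank_fullC_prime L M (M * q) (dvd_mul_right M q) q hq hqM (mul_comm M q)
      (natCast_ne_zero_L L (M * q))]
    exact Fermat.Agent.S37.H6.finrankAlong_heckeAlphaBar_of_not_dvd M q hq hqM
  exact ((Fermat.Agent.S29.H19.norm_baseChange (H99.toBar L M) (H99.toBar L (M * q))
    (toBar_degAlgebra_algebraMap L M q) hdeg (closure_alpha_toBar_eq_top L M q) x).1).symm

/-! ### the `β`-side -/

/-- `toBar` intertwines `V_q : F_L(M) → F_L(M q)` with `β`. -/
theorem toBar_vAlgebra_algebraMap (c : modularFunctionFieldFullC L M) :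
    letI := S35.H16.vAlgebra L q M (M * q) (dvd_of_eq (mul_comm q M))
    letI := algebraAlong (heckeBetaBar Qbar M q)
    H99.toBar L (M * q) (algebraMap (modularFunctionFieldFullC L M)
      (modularFunctionFieldFullC L (M * q)) c) =
      algebraMap (S24.FN M) (S24.FN (M * q)) (H99.toBar L M c) := by
  letI := S35.H16.vAlgebra L q M (M * q) (dvd_of_eq (mul_comm q M))
  letI := algebraAlong (heckeBetaBar Qbar M q)
  apply Subtype.ext
  rw [H99.coe_toBar, S35.H16.vAlgebra_algebraMap_coe]
  show _ = ((heckeBetaBar Qbar M q (H99.toBar L M c) : S24.FN (M * q)) : LaurentSeries Qbar)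
  rw [coe_heckeBetaBar, H99.coe_toBar, coeffMap_qExpand]

/-- `[FN (M q) : β (FN M)] = q + 1` for `q ∤ M` (helper16's `finrank_vSub` at `K = Qbar`,
transported along `fullC Qbar = modularFunctionFieldBar`). -/
theorem finrank_beta (hq : q.Prime) (hqM : ¬ q ∣ M) :
    letI := algebraAlong (heckeBetaBar Qbar M q)
    Module.finrank (S24.FN M) (S24.FN (M * q)) = q + 1 := by
  letI a2 := algebraAlong (heckeBetaBar Qbar M q)
  letI a1 := S35.H16.vAlgebra Qbar q M (M * q) (dvd_of_eq (mul_comm q M))
  have h := S35.H16.finrank_vSub Qbar q M (M * q) hq hqM (mul_comm M q)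
    (natCast_ne_zero_L Qbar (M * q))
  rw [← h]
  symm
  let i : modularFunctionFieldFullC Qbar M ≃+* S24.FN M :=
    (IntermediateField.equivOfEq (H99.fullC_Qbar_eq_bar M)).toRingEquiv
  let j : modularFunctionFieldFullC Qbar (M * q) ≃+* S24.FN (M * q) :=
    (IntermediateField.equivOfEq (H99.fullC_Qbar_eq_bar (M * q))).toRingEquiv
  refine Algebra.finrank_eq_of_equiv_equiv i j ?_
  apply RingHom.ext
  intro x
  apply Subtype.ext
  show ((heckeBetaBar Qbar M q (i x) : S24.FN (M * q)) : LaurentSeries Qbar) =
    ((algebraMap (modularFunctionFieldFullC Qbar M) (modularFunctionFieldFullC Qbar (M * q)) x :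
      modularFunctionFieldFullC Qbar (M * q)) : LaurentSeries Qbar)
  rw [coe_heckeBetaBar, S35.H16.vAlgebra_algebraMap_coe]
  rfl

/-- **Norm descent along `β`.** -/
theorem toBar_norm_beta (hq : q.Prime) (hqM : ¬ q ∣ M)
    (x : modularFunctionFieldFullC L (M * q)) :
    (letI := S35.H16.vAlgebra L q M (M * q) (dvd_of_eq (mul_comm q M));
      H99.toBar L M (Algebra.norm (modularFunctionFieldFullC L M) x)) =
    (letI := algebraAlong (heckeBetaBar Qbar M q);
      Algebra.norm (S24.FN M) (H99.toBar L (M * q) x)) := by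
  letI a1 := S35.H16.vAlgebra L q M (M * q) (dvd_of_eq (mul_comm q M))
  letI a2 := algebraAlong (heckeBetaBar Qbar M q)
  have hfr := S35.H16.finrank_vSub L q M (M * q) hq hqM (mul_comm M q)
    (natCast_ne_zero_L L (M * q))
  haveI : FiniteDimensional (modularFunctionFieldFullC L M)
      (modularFunctionFieldFullC L (M * q)) := by
    apply Module.finite_of_finrank_pos
    rw [hfr]
    exact Nat.succ_pos q
  have hdeg : Module.finrank (S24.FN M) (S24.FN (M * q)) =
      Module.finrank (modularFunctionFieldFullC L M) (modularFunctionFieldFullC L (M * q)) := by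
    rw [hfr]
    exact finrank_beta M q hq hqM
  exact ((Fermat.Agent.S29.H19.norm_baseChange (H99.toBar L M) (H99.toBar L (M * q))
    (toBar_vAlgebra_algebraMap L M q) hdeg (closure_beta_toBar_eq_top L M q) x).1).symm

end Fermat.Agent.S35.H18
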