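/-
helper18 — S35 row G2 (escaping points), base fact: the valuation ring `A` of `Qbar` over `ℓ` is
`ℓ`-adically separated (`⋂ ℓ^N A = 0`), because every element of `Qbar` lies in a finite extension
`E / K1` and `A ∩ E` is a discrete valuation ring (helper45's `isDiscreteValuationRing_cutOver`).
This is the hypothesis `hsep` of `CA.H18.eq_of_neverServed` / `comp_eq_of_neverServed` for the
common ring of values `A` of all points of the model.
-/
import Mathlib
import Fermat.Agent.S18.H45_InertiaBase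
import Fermat.Agent.CA.H18_NeverServed

set_option autoImplicit false
set_option linter.unusedSectionVars false
set_option linter.style.haveILetI false

namespace Fermat.Agent.S35.H18

open IsLocalRing Fermat.Agent.S18.H45

local notation "Qbar" => AlgebraicClosure ℚ

variable {A : ValuationSubring Qbar} {ℓ : ℕ} (hℓ : ℓ.Prime) (hA : A.LiesOverPrime ℓ)

include hℓ hA in
/-- `A ∩ E` is `ℓ`-adically separated for `E / K1` finite. -/
theorem sep_cutOver (E : IntermediateField (unrCyclo ℓ) Qbar) [FiniteDimensional (unrCyclo ℓ) E] :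
    ∀ z : cutOver A E, (∀ N : ℕ, ((ℓ : ℕ) : cutOver A E) ^ (N + 1) ∣ z) → z = 0 := by
  haveI := isDiscreteValuationRing_cutOver hℓ hA E
  exact CA.H18.sep_of_isLocalRing _ (natCast_mem_maximalIdeal_cutOver hℓ hA E)

include hℓ hA in
/-- **`A` is `ℓ`-adically separated.** -/
theorem sep_valuationSubring :
    ∀ z : A, (∀ N : ℕ, ((ℓ : ℕ) : A) ^ (N + 1) ∣ z) → z = 0 := by
  intro z hz
  obtain ⟨E, hfd, -, hmem⟩ := exists_finite_galois_ge ℓ ({(z : Qbar)} : Finset Qbar)
  haveI := hfd
  have hzE : (z : Qbar) ∈ E := hmem _ (Finset.mem_singleton_self _)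
  let z' : cutOver A E := ⟨⟨(z : Qbar), hzE⟩, z.2⟩
  have hℓ0 : ((ℓ : ℕ) : Qbar) ≠ 0 := Nat.cast_ne_zero.mpr hℓ.ne_zero
  have key : ∀ N : ℕ, ((ℓ : ℕ) : cutOver A E) ^ (N + 1) ∣ z' := by
    intro N
    obtain ⟨t, ht⟩ := hz N
    -- `t = z / ℓ^(N+1)` lies in `E`
    have htq : (t : Qbar) = (z : Qbar) / ((ℓ : ℕ) : Qbar) ^ (N + 1) := by
      have h1 : (z : Qbar) = ((ℓ : ℕ) : Qbar) ^ (N + 1) * (t : Qbar) := by
        have := congrArg (fun a : A => (a : Qbar)) ht
        simpa using this
      rw [h1]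
      field_simp
    have htE : (t : Qbar) ∈ E := by
      rw [htq]
      exact div_mem hzE (pow_mem (natCast_mem E ℓ) _)
    refine ⟨⟨⟨(t : Qbar), htE⟩, t.2⟩, ?_⟩
    apply Subtype.ext
    apply Subtype.ext
    have h1 : (z : Qbar) = ((ℓ : ℕ) : Qbar) ^ (N + 1) * (t : Qbar) := by
      have := congrArg (fun a : A => (a : Qbar)) ht
      simpa using this
    show (z : Qbar) = _
    rw [h1]
    simp
  have h0 := sep_cutOver hℓ hA E z' key
  have h1 : (((z' : cutOver A E) : E) : Qbar) = (((0 : cutOver A E) : E) : Qbar) := by rw [h0]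
  apply Subtype.ext
  exact h1

end Fermat.Agent.S35.H18
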