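/-
S35, second clause, row G5 (abstract core), helper46.

Abstract form of step (g4) of helper57's blueprint: **three ratios ⟹ local datum**.

Data = the data of `S34.H47.exists_pow_of_localDatum`: a field `F`, a family of subrings
`O n ⊆ F` (Zariski local rings of the model at the closed points of the special fibre), a family
of valuation subrings `V k` (the vertical valuations), `Thr n k` ("`V k` passes through `n`"),
`π` a uniformiser of the base.  New: an automorphism `Φ` of `F` (the square of a Frobenius lift),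
permuting the closed points by `σ` (`Φ (O (σ n)) ⊆ O n`), fixing every `V k`, and inducing
`x ↦ x ^ Q` on the residue field of a fixed closed point.

* `WeakDatum u m` : `u = η_n g_n ^ m`, `η_n ∈ (O n)ˣ`, `g_n` a unit at the vertical valuations
  through `n` (output of the ratio lemma (g1));
* `FrobModel` : the standing hypotheses;
* `localDatum_of_threeRatios` : if `u` has a weak datum and `u ≡ G ^ m` at every vertical
  valuation (output of (g3)), then `(Φ u / u ^ Q) / (Φ G / G ^ Q) ^ m` has a local datum in the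
  sense of `S34.H47.LocalDatum`;
* `exists_const_mul_pow_of_threeRatios` : hence it is a constant times an `m`-th power as soon as
  the S34 criterion is available.

Everything happens inside `F`; no residue fields, no reduction maps.
-/
import Mathlib
import Fermat.Agent.S34.H47_KummerInduct

set_option autoImplicit false
set_option linter.unusedSectionVars false

namespace Fermat.Agent.S35.H46

open Fermat.Agent.S34.H47

section Aux

variable {F : Type*} [Field F] {A : ValuationSubring F}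

/-- `v y < 1 ↔ y⁻¹ ∉ A` for `y ≠ 0`. -/
theorem valuation_lt_one_iff_inv_not_mem {y : F} (hy : y ≠ 0) :
    A.valuation y < 1 ↔ y⁻¹ ∉ A := by
  rw [← A.valuation_le_one_iff, map_inv₀, not_le]
  have h0 : 0 < A.valuation y := zero_lt_iff.mpr ((Valuation.ne_zero_iff _).mpr hy)
  exact (one_lt_inv₀ h0).symm

/-- An automorphism preserving a valuation ring preserves its maximal ideal. -/
theorem valuation_map_lt_one {Φ : F ≃+* F} (hΦ : ∀ x, Φ x ∈ A ↔ x ∈ A) {y : F}
    (hy : A.valuation y < 1) : A.valuation (Φ y) < 1 := by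
  by_cases h0 : y = 0
  · rw [h0, map_zero, map_zero]; exact zero_lt_one
  · have h0' : Φ y ≠ 0 := (map_ne_zero Φ).mpr h0
    rw [valuation_lt_one_iff_inv_not_mem h0'] 
    rw [valuation_lt_one_iff_inv_not_mem h0] at hy
    rw [← map_inv₀, hΦ]
    exact hy

/-- An automorphism preserving a valuation ring preserves its `1`-units. -/
theorem oneU_map {Φ : F ≃+* F} (hΦ : ∀ x, Φ x ∈ A ↔ x ∈ A) {x : F} (hx : OneU A x) :
    OneU A (Φ x) := by
  unfold OneU at *
  have : Φ x - 1 = Φ (x - 1) := by rw [map_sub, map_one]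
  rw [this]
  exact valuation_map_lt_one hΦ hx

/-- An automorphism preserving a valuation ring preserves its units. -/
theorem valuation_map_eq_one {Φ : F ≃+* F} (hΦ : ∀ x, Φ x ∈ A ↔ x ∈ A) {x : F}
    (hx : A.valuation x = 1) : A.valuation (Φ x) = 1 := by
  have hx0 : x ≠ 0 := by
    rintro rfl
    rw [map_zero] at hx
    exact zero_ne_one hx
  have h1 : x ∈ A := (A.valuation_le_one_iff x).mp hx.le
  have h2 : x⁻¹ ∈ A := by
    apply (A.valuation_le_one_iff _).mp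
    rw [map_inv₀, hx, inv_one]
  have h3 : A.valuation (Φ x) ≤ 1 := (A.valuation_le_one_iff _).mpr ((hΦ x).mpr h1)
  have h4 : A.valuation (Φ x)⁻¹ ≤ 1 := by
    rw [← map_inv₀]
    exact (A.valuation_le_one_iff _).mpr ((hΦ _).mpr h2)
  rw [map_inv₀] at h4
  have hv0 : 0 < A.valuation (Φ x) :=
    zero_lt_iff.mpr ((Valuation.ne_zero_iff _).mpr ((map_ne_zero Φ).mpr hx0))
  exact le_antisymm h3 ((inv_le_one₀ hv0).mp h4)

/-- `c ≡ t` modulo the maximal ideal and `t` a unit: `c / t` is a `1`-unit. -/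
theorem oneU_div_of_sub {c t : F} (ht : A.valuation t = 1) (h : A.valuation (c - t) < 1) :
    OneU A (c / t) := by
  have ht0 : t ≠ 0 := by
    rintro rfl
    rw [map_zero] at ht
    exact zero_ne_one ht
  unfold OneU
  have : c / t - 1 = (c - t) / t := by field_simp
  rw [this, map_div₀, ht, div_one]
  exact h

end Aux

section Main

variable {R F : Type*} [CommRing R] [Field F] [Algebra R F]
variable {ν κ : Type*} (O : ν → Subring F) (V : κ → ValuationSubring F) (Thr : ν → κ → Prop)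
  (π : R)

/-- **Weak datum** of `u` for the exponent `m`: at every closed point `n`, `u = η g ^ m` with
`η ∈ (O n)ˣ` and `g` a unit at every vertical valuation through `n`. -/
def WeakDatum (u : F) (m : ℕ) : Prop :=
  ∀ n : ν, ∃ g : F, g ≠ 0 ∧ (∀ k, Thr n k → (V k).valuation g = 1) ∧ UnitIn (O n) (u / g ^ m)

/-- The standing hypotheses on the model and on the automorphism `Φ`. -/
structure FrobModel (Φ : F ≃+* F) (σ : ν → ν) (Q m : ℕ) : Prop where
  /-- the local ring at `n` lies in every vertical valuation ring through `n` -/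
  hOV : ∀ n k, Thr n k → ∀ x ∈ O n, x ∈ V k
  /-- the local rings are local -/
  hOloc : ∀ n (a b : F), UnitIn (O n) a → b ∈ O n → ¬ UnitIn (O n) b → UnitIn (O n) (a + b)
  /-- `Φ` maps the local ring at `σ n` into the local ring at `n` -/
  hΦO : ∀ n x, x ∈ O (σ n) → Φ x ∈ O n
  /-- `Φ` fixes the vertical valuation rings -/
  hΦV : ∀ k x, Φ x ∈ V k ↔ x ∈ V k
  /-- `σ n` and `n` lie on the same components -/
  hThr : ∀ n k, Thr (σ n) k ↔ Thr n k
  /-- the special fibre is reduced at `n` -/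
  hrad : ∀ n x, x ∈ O n → (∀ k, Thr n k → (V k).valuation x < 1) → PiIn π (O n) x
  /-- the branches are integrally closed and `O n` surjects onto them -/
  hroot : ∀ n k, Thr n k → ∀ x e : F, UnitIn (O n) e → OneU (V k) (x ^ m / e) →
    ∃ a, UnitIn (O n) a ∧ OneU (V k) (x / a)
  /-- every closed point is smooth (one component) or a `Φ`-fixed node (two components,
  fibre product over the residue field, on which `Φ` induces `x ↦ x ^ Q`) -/
  hnode : ∀ n, (∃ k₀, ∀ k, Thr n k → k = k₀) ∨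
    (σ n = n ∧ ∃ k₁ k₂, (∀ k, Thr n k → k = k₁ ∨ k = k₂) ∧
      (∀ a b, UnitIn (O n) a → UnitIn (O n) b → ¬ UnitIn (O n) (a - b) →
        ∃ c, UnitIn (O n) c ∧ (V k₁).valuation (c - a) < 1 ∧ (V k₂).valuation (c - b) < 1) ∧
      ∀ a, UnitIn (O n) a → ¬ UnitIn (O n) (Φ a - a ^ Q))

variable {O V Thr π}

theorem unitIn_one (S : Subring F) : UnitIn S (1 : F) :=
  ⟨S.one_mem, by rw [inv_one]; exact S.one_mem, one_ne_zero⟩

theorem unitIn_div {S : Subring F} {a b : F} (ha : UnitIn S a) (hb : UnitIn S b) :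
    UnitIn S (a / b) := by
  rw [div_eq_mul_inv]; exact UnitIn.mul ha (UnitIn.inv hb)

namespace FrobModel

variable {Φ : F ≃+* F} {σ : ν → ν} {Q m : ℕ}

theorem valuation_unit (H : FrobModel O V Thr π Φ σ Q m) {n : ν} {k : κ} (hk : Thr n k) {a : F}
    (ha : UnitIn (O n) a) : (V k).valuation a = 1 := by
  have h1 : (V k).valuation a ≤ 1 := ((V k).valuation_le_one_iff _).mpr (H.hOV n k hk a ha.1)
  have h2 : (V k).valuation a⁻¹ ≤ 1 :=
    ((V k).valuation_le_one_iff _).mpr (H.hOV n k hk _ ha.2.1)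
  rw [map_inv₀] at h2
  have hv0 : 0 < (V k).valuation a := zero_lt_iff.mpr ((Valuation.ne_zero_iff _).mpr ha.2.2)
  exact le_antisymm h1 ((inv_le_one₀ hv0).mp h2)

theorem unitIn_map (H : FrobModel O V Thr π Φ σ Q m) {n : ν} {a : F}
    (ha : UnitIn (O (σ n)) a) : UnitIn (O n) (Φ a) :=
  ⟨H.hΦO n a ha.1, by rw [← map_inv₀]; exact H.hΦO n _ ha.2.1, (map_ne_zero Φ).mpr ha.2.2⟩

/-- non-units of `O n` (inside `O n`) are closed under subtraction. -/
theorem not_unitIn_sub (H : FrobModel O V Thr π Φ σ Q m) {n : ν} {x y : F} (_hx : x ∈ O n)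
    (hy : y ∈ O n) (hxu : ¬ UnitIn (O n) x) (hyu : ¬ UnitIn (O n) y) :
    ¬ UnitIn (O n) (x - y) := by
  intro h
  apply hxu
  have := H.hOloc n (x - y) y h hy hyu
  rwa [sub_add_cancel] at this

/-- a non-unit divided by a unit is a non-unit. -/
theorem not_unitIn_div {S : Subring F} {x b : F} (hx : ¬ UnitIn S x) (hb : UnitIn S b) :
    ¬ UnitIn S (x / b) := by
  intro h
  apply hx
  have := UnitIn.mul h hb
  rwa [div_mul_cancel₀ _ hb.2.2] at this

end FrobModel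

variable {Φ : F ≃+* F} {σ : ν → ν} {Q m : ℕ}

/-- The ratio `Φ u / u` of a function with a weak datum has a weak datum. -/
theorem WeakDatum.ratio (H : FrobModel O V Thr π Φ σ Q m) {u : F} (hu : WeakDatum O V Thr u m) :
    WeakDatum O V Thr (Φ u / u) m := by
  intro n
  obtain ⟨g, hg0, hgv, hη⟩ := hu n
  obtain ⟨g', hg'0, hg'v, hη'⟩ := hu (σ n)
  have hΦg' : Φ g' ≠ 0 := (map_ne_zero Φ).mpr hg'0
  refine ⟨Φ g' / g, div_ne_zero hΦg' hg0, fun k hk => ?_, ?_⟩
  · rw [map_div₀, hgv k hk,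
      valuation_map_eq_one (H.hΦV k) (hg'v k ((H.hThr n k).mpr hk)), div_one]
  · have h1 : UnitIn (O n) (Φ (u / g' ^ m)) := H.unitIn_map hη'
    have h2 := unitIn_div h1 hη
    have hu0 : u ≠ 0 := by
      rintro rfl
      exact hη.2.2 (by rw [zero_div])
    have : Φ u / u / (Φ g' / g) ^ m = Φ (u / g' ^ m) / (u / g ^ m) := by
      simp only [map_div₀, map_pow, div_pow]
      field_simp
      try ring
    rw [this]
    exact h2

/-- The twisted ratio `Φ u / u ^ Q` of a function with a weak datum has a weak datum. -/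
theorem WeakDatum.twistedRatio (H : FrobModel O V Thr π Φ σ Q m) {u : F}
    (hu : WeakDatum O V Thr u m) : WeakDatum O V Thr (Φ u / u ^ Q) m := by
  intro n
  obtain ⟨g, hg0, hgv, hη⟩ := hu n
  obtain ⟨g', hg'0, hg'v, hη'⟩ := hu (σ n)
  have hΦg' : Φ g' ≠ 0 := (map_ne_zero Φ).mpr hg'0
  refine ⟨Φ g' / g ^ Q, div_ne_zero hΦg' (pow_ne_zero _ hg0), fun k hk => ?_, ?_⟩
  · rw [map_div₀, map_pow, hgv k hk, one_pow,
      valuation_map_eq_one (H.hΦV k) (hg'v k ((H.hThr n k).mpr hk)), div_one]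
  · have h1 : UnitIn (O n) (Φ (u / g' ^ m)) := H.unitIn_map hη'
    have h2 := unitIn_div h1 (UnitIn.pow hη Q)
    have hu0 : u ≠ 0 := by
      rintro rfl
      exact hη.2.2 (by rw [zero_div])
    have : Φ u / u ^ Q / (Φ g' / g ^ Q) ^ m = Φ (u / g' ^ m) / (u / g ^ m) ^ Q := by
      simp only [map_div₀, map_pow, div_pow]
      field_simp
      try ring
    rw [this]
    exact h2

/-- the function `(Φ u / u ^ Q) / (Φ G / G ^ Q) ^ m` is a `1`-unit at every vertical valuation at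
which `u / G ^ m` is. -/
theorem oneU_target (H : FrobModel O V Thr π Φ σ Q m) {u G : F} (hu0 : u ≠ 0) (hG0 : G ≠ 0)
    (k : κ) (h : OneU (V k) (u / G ^ m)) :
    OneU (V k) ((Φ u / u ^ Q) / (Φ G / G ^ Q) ^ m) := by
  have h1 : OneU (V k) (Φ (u / G ^ m)) := oneU_map (H.hΦV k) h
  have h2 := h1.div (h.pow Q)
  have hΦG : Φ G ≠ 0 := (map_ne_zero Φ).mpr hG0
  have : Φ u / u ^ Q / (Φ G / G ^ Q) ^ m = Φ (u / G ^ m) / (u / G ^ m) ^ Q := by
    simp only [map_div₀, map_pow, div_pow]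
    field_simp
    try ring
  rw [this]
  exact h2

/-- **Core of (g4)**: the local datum at `n` from the local factorisations at `n` and `σ n` and a
unit `kt` of `O n` congruent to `z = Φ (G / g') / (G / g) ^ Q` on every branch through `n`. -/
theorem localDatum_core (H : FrobModel O V Thr π Φ σ Q m) {u G : F} (hG0 : G ≠ 0)
    (hG : ∀ k, OneU (V k) (u / G ^ m)) (n : ν) {g g' : F} (hg0 : g ≠ 0) (hg'0 : g' ≠ 0)
    (hη : UnitIn (O n) (u / g ^ m)) (hη' : UnitIn (O (σ n)) (u / g' ^ m))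
    {kt : F} (hkt : UnitIn (O n) kt)
    (hktz : ∀ k, Thr n k → OneU (V k) (kt / (Φ (G / g') / (G / g) ^ Q))) :
    ∃ ψ : F, ψ ≠ 0 ∧
      PiIn π (O n) ((Φ u / u ^ Q) / (Φ G / G ^ Q) ^ m / ψ ^ m - 1) ∧
      ∀ k, Thr n k → OneU (V k) ψ := by
  have hu0 : u ≠ 0 := by
    rintro rfl
    exact hη.2.2 (by rw [zero_div])
  have hΦG : Φ G ≠ 0 := (map_ne_zero Φ).mpr hG0
  have hΦg' : Φ g' ≠ 0 := (map_ne_zero Φ).mpr hg'0
  have hΦu : Φ u ≠ 0 := (map_ne_zero Φ).mpr hu0
  have hz0 : Φ (G / g') / (G / g) ^ Q ≠ 0 :=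
    div_ne_zero ((map_ne_zero Φ).mpr (div_ne_zero hG0 hg'0)) (pow_ne_zero _ (div_ne_zero hG0 hg0))
  refine ⟨kt / (Φ (G / g') / (G / g) ^ Q), div_ne_zero hkt.2.2 hz0, ?_, hktz⟩
  -- the quotient is a unit of `O n`
  have hε : UnitIn (O n) (Φ (u / g' ^ m) / (u / g ^ m) ^ Q / kt ^ m) :=
    unitIn_div (unitIn_div (H.unitIn_map hη') (UnitIn.pow hη Q)) (UnitIn.pow hkt m)
  have hid : (Φ u / u ^ Q) / (Φ G / G ^ Q) ^ m / (kt / (Φ (G / g') / (G / g) ^ Q)) ^ m
      = Φ (u / g' ^ m) / (u / g ^ m) ^ Q / kt ^ m := by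
    have hkt0 := hkt.2.2
    simp only [map_div₀, map_pow, div_pow]
    field_simp
    try ring
  rw [hid]
  refine H.hrad n _ ((O n).sub_mem hε.1 (O n).one_mem) fun k hk => ?_
  rw [← hid]
  have h1 : OneU (V k) ((Φ u / u ^ Q) / (Φ G / G ^ Q) ^ m) := oneU_target H hu0 hG0 k (hG k)
  exact h1.div ((hktz k hk).pow m)

/-- On a branch through `n`, `G / g` is congruent to a unit of `O n`. -/
theorem exists_branch_unit (H : FrobModel O V Thr π Φ σ Q m) {u G : F} (hG0 : G ≠ 0)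
    (hG : ∀ k, OneU (V k) (u / G ^ m)) {n : ν} {g : F} (hg0 : g ≠ 0)
    (hη : UnitIn (O n) (u / g ^ m)) {k : κ} (hk : Thr n k) :
    ∃ a, UnitIn (O n) a ∧ OneU (V k) (G / g / a) := by
  have hu0 : u ≠ 0 := by
    rintro rfl
    exact hη.2.2 (by rw [zero_div])
  refine H.hroot n k hk (G / g) (u / g ^ m) hη ?_
  have : (G / g) ^ m / (u / g ^ m) = (u / G ^ m)⁻¹ := by
    simp only [div_pow]
    field_simp
  rw [this]
  exact (hG k).inv

/-- `kt / z` is a `1`-unit when `kt = Φ a' / a ^ Q` with `a ≡ G / g`, `a' ≡ G / g'`. -/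
theorem oneU_frob_quot (H : FrobModel O V Thr π Φ σ Q m) {k : κ} {lam lam' a a' : F}
    (hlam : lam ≠ 0) (hlam' : lam' ≠ 0) (ha0 : a ≠ 0) (ha'0 : a' ≠ 0)
    (ha : OneU (V k) (lam / a)) (ha' : OneU (V k) (lam' / a')) :
    OneU (V k) (Φ a' / a ^ Q / (Φ lam' / lam ^ Q)) := by
  have h1 : OneU (V k) (Φ (lam' / a')) := oneU_map (H.hΦV k) ha'
  have h2 := (ha.pow Q).div h1
  have : Φ a' / a ^ Q / (Φ lam' / lam ^ Q) = (lam / a) ^ Q / Φ (lam' / a') := by
    have h3 : Φ lam' ≠ 0 := (map_ne_zero Φ).mpr hlam'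
    have h4 : Φ a' ≠ 0 := (map_ne_zero Φ).mpr ha'0
    simp only [map_div₀, div_pow]
    field_simp
  rw [this]
  exact h2

/-- **(g4): three ratios ⟹ local datum.** -/
theorem localDatum_of_threeRatios (H : FrobModel O V Thr π Φ σ Q m) {u G : F}
    (hu : WeakDatum O V Thr u m) (hG0 : G ≠ 0) (hG : ∀ k, OneU (V k) (u / G ^ m)) :
    LocalDatum O V Thr π ((Φ u / u ^ Q) / (Φ G / G ^ Q) ^ m) m := by
  classical
  intro n
  obtain ⟨g, hg0, hgv, hη⟩ := hu n
  have hlam : G / g ≠ 0 := div_ne_zero hG0 hg0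
  rcases H.hnode n with ⟨k₀, hk₀⟩ | ⟨hσ, k₁, k₂, hk12, hcrt, hfrob⟩
  · -- smooth point
    obtain ⟨g', hg'0, hg'v, hη'⟩ := hu (σ n)
    have hlam' : G / g' ≠ 0 := div_ne_zero hG0 hg'0
    by_cases hthr : Thr n k₀
    · obtain ⟨a, hau, ha⟩ := exists_branch_unit H hG0 hG hg0 hη hthr
      obtain ⟨a', ha'u, ha'⟩ := exists_branch_unit H hG0 hG hg'0 hη' ((H.hThr n k₀).mpr hthr)
      refine localDatum_core H hG0 hG n hg0 hg'0 hη hη'
        (kt := Φ a' / a ^ Q) (unitIn_div (H.unitIn_map ha'u) (UnitIn.pow hau Q)) fun k hk => ?_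
      rw [hk₀ k hk]
      exact oneU_frob_quot H hlam hlam' hau.2.2 ha'u.2.2 ha ha'
    · refine localDatum_core H hG0 hG n hg0 hg'0 hη hη' (kt := 1) (unitIn_one _) fun k hk => ?_
      exact absurd (hk₀ k hk ▸ hk) hthr
  · -- node, fixed by `σ`
    have hη' : UnitIn (O (σ n)) (u / g ^ m) := by rw [hσ]; exact hη
    -- units on the two branches
    have hbr : ∀ k, ∃ a, UnitIn (O n) a ∧ (Thr n k → OneU (V k) (G / g / a)) := by
      intro k
      by_cases hk : Thr n k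
      · obtain ⟨a, hau, ha⟩ := exists_branch_unit H hG0 hG hg0 hη hk
        exact ⟨a, hau, fun _ => ha⟩
      · exact ⟨1, unitIn_one _, fun h => absurd h hk⟩
    obtain ⟨a₁, ha₁u, ha₁⟩ := hbr k₁
    obtain ⟨a₂, ha₂u, ha₂⟩ := hbr k₂
    have ha₁σ : UnitIn (O (σ n)) a₁ := by rw [hσ]; exact ha₁u
    have ha₂σ : UnitIn (O (σ n)) a₂ := by rw [hσ]; exact ha₂u
    have ht₁ : UnitIn (O n) (Φ a₁ / a₁ ^ Q) := unitIn_div (H.unitIn_map ha₁σ) (UnitIn.pow ha₁u Q)
    have ht₂ : UnitIn (O n) (Φ a₂ / a₂ ^ Q) := unitIn_div (H.unitIn_map ha₂σ) (UnitIn.pow ha₂u Q)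
    -- both are `≡ 1` modulo the maximal ideal of `O n`
    have hnu : ∀ a, UnitIn (O n) a → UnitIn (O (σ n)) a →
        ¬ UnitIn (O n) (Φ a / a ^ Q - 1) := by
      intro a hau haσ
      have h1 : Φ a / a ^ Q - 1 = (Φ a - a ^ Q) / a ^ Q := by
        have := pow_ne_zero Q hau.2.2
        field_simp
      rw [h1]
      exact FrobModel.not_unitIn_div (hfrob a hau) (UnitIn.pow hau Q)
    have hdiff : ¬ UnitIn (O n) (Φ a₁ / a₁ ^ Q - Φ a₂ / a₂ ^ Q) := by
      have h1 : Φ a₁ / a₁ ^ Q - Φ a₂ / a₂ ^ Q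
          = (Φ a₁ / a₁ ^ Q - 1) - (Φ a₂ / a₂ ^ Q - 1) := by ring
      rw [h1]
      exact H.not_unitIn_sub ((O n).sub_mem ht₁.1 (O n).one_mem)
        ((O n).sub_mem ht₂.1 (O n).one_mem) (hnu a₁ ha₁u ha₁σ) (hnu a₂ ha₂u ha₂σ)
    obtain ⟨c, hcu, hc₁, hc₂⟩ := hcrt _ _ ht₁ ht₂ hdiff
    refine localDatum_core H hG0 hG n hg0 hg0 hη hη' (kt := c) hcu fun k hk => ?_
    rcases hk12 k hk with rfl | rfl
    · have h1 : OneU (V k) (c / (Φ a₁ / a₁ ^ Q)) :=
        oneU_div_of_sub (H.valuation_unit hk ht₁) hc₁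
      have h2 := oneU_frob_quot H hlam hlam ha₁u.2.2 ha₁u.2.2 (ha₁ hk) (ha₁ hk)
      have h3 := h1.mul h2
      have : c / (Φ a₁ / a₁ ^ Q) * (Φ a₁ / a₁ ^ Q / (Φ (G / g) / (G / g) ^ Q))
          = c / (Φ (G / g) / (G / g) ^ Q) := div_mul_div_cancel₀ ht₁.2.2
      rwa [this] at h3
    · have h1 : OneU (V k) (c / (Φ a₂ / a₂ ^ Q)) :=
        oneU_div_of_sub (H.valuation_unit hk ht₂) hc₂
      have h2 := oneU_frob_quot H hlam hlam ha₂u.2.2 ha₂u.2.2 (ha₂ hk) (ha₂ hk)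
      have h3 := h1.mul h2
      have : c / (Φ a₂ / a₂ ^ Q) * (Φ a₂ / a₂ ^ Q / (Φ (G / g) / (G / g) ^ Q))
          = c / (Φ (G / g) / (G / g) ^ Q) := div_mul_div_cancel₀ ht₂.2.2
      rwa [this] at h3

/-- **(g4), conclusion.**  With the S34 criterion `crit` (a function with a local datum for `m`
is a constant times an `m`-th power), the third ratio of `u₁` is a constant times an `m`-th
power. -/
theorem exists_const_mul_pow_of_threeRatios {K0 : Type*} [Field K0] [Algebra K0 F]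
    (H : FrobModel O V Thr π Φ σ Q m)
    (crit : ∀ x : F, x ≠ 0 → LocalDatum O V Thr π x m →
      ∃ (c : K0) (w : F), c ≠ 0 ∧ w ≠ 0 ∧ x = algebraMap K0 F c * w ^ m)
    {u₁ G : F} (hu₁0 : u₁ ≠ 0) (hu₁ : WeakDatum O V Thr u₁ m) (hG0 : G ≠ 0)
    (hG : ∀ k, OneU (V k) ((Φ u₁ / u₁) / G ^ m)) :
    ∃ (c : K0) (w : F), c ≠ 0 ∧ w ≠ 0 ∧
      Φ (Φ u₁ / u₁) / (Φ u₁ / u₁) ^ Q = algebraMap K0 F c * w ^ m := by
  have hu₂ : WeakDatum O V Thr (Φ u₁ / u₁) m := hu₁.ratio H
  have hu₂0 : Φ u₁ / u₁ ≠ 0 := div_ne_zero ((map_ne_zero Φ).mpr hu₁0) hu₁0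
  have hΦG : Φ G ≠ 0 := (map_ne_zero Φ).mpr hG0
  have hΨ0 : Φ G / G ^ Q ≠ 0 := div_ne_zero hΦG (pow_ne_zero _ hG0)
  have hx0 : Φ (Φ u₁ / u₁) / (Φ u₁ / u₁) ^ Q / (Φ G / G ^ Q) ^ m ≠ 0 :=
    div_ne_zero (div_ne_zero ((map_ne_zero Φ).mpr hu₂0) (pow_ne_zero _ hu₂0))
      (pow_ne_zero _ hΨ0)
  obtain ⟨c, w, hc, hw, hcw⟩ := crit _ hx0 (localDatum_of_threeRatios H hu₂ hG0 hG)
  refine ⟨c, w * (Φ G / G ^ Q), hc, mul_ne_zero hw hΨ0, ?_⟩
  rw [mul_pow, ← mul_assoc, ← hcw, div_mul_cancel₀ _ (pow_ne_zero _ hΨ0)]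

end Main

section G3

/-- **(g3), group-theoretic form.**  `S` = the subgroup `kˣ κˣᵐ` of the multiplicative group of
the common residue field, `φ` = the coefficientwise Frobenius, `a = red_∞ u₁`, `b = red_0 u₁`.
The two norm conditions `a φ(b) ∈ S` (from `α_* y = 0`) and `φ(a) b ∈ S` (from `β_* y = 0`) give
`φ² a / a ∈ S` and `φ² b / b ∈ S`. -/
theorem frob_sq_ratio_mem {M : Type*} [CommGroup M] (S : Subgroup M) (φ : M →* M)
    (hφ : ∀ x ∈ S, φ x ∈ S) {a b : M} (h1 : a * φ b ∈ S) (h2 : φ a * b ∈ S) :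
    φ (φ a) / a ∈ S ∧ φ (φ b) / b ∈ S := by
  constructor
  · have h3 := S.div_mem (hφ _ h2) h1
    have : φ (φ a * b) / (a * φ b) = φ (φ a) / a := by
      rw [map_mul, mul_div_mul_right_eq_div]
    rwa [this] at h3
  · have h3 := S.div_mem (hφ _ h1) h2
    have : φ (a * φ b) / (φ a * b) = φ (φ b) / b := by
      rw [map_mul, mul_div_mul_left_eq_div]
    rwa [this] at h3

end G3

end Fermat.Agent.S35.H46
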