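/-
S35, second clause, row G5 (instance side), helper46: ONE-CHART lemmas producing the fields of
`H46.FrobModel` in the chart vocabulary of S34 (`H21.locSubring`, `H56.valuationSubringAt`).

`B` a noetherian integrally closed domain (a chart of the model over `A''`), `F = Frac B`,
`(ΦB, Φ)` a compatible pair of automorphisms of `(B, F)` (no congruence condition), `n` a prime
(closed point of the special fibre), `p` a height-one prime (vertical prime).

* `map_mem_locSubring`            : `Φ (B_{Φ⁻¹ n}) ⊆ B_n`                       (field `hΦO`);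
* `map_mem_valuationSubringAt_iff`: `Φ V_p = V_p` for a `ΦB`-stable `p`          (field `hΦV`);
* `le_comap_iff`                  : `p ≤ Φ⁻¹ n ↔ p ≤ n`                          (field `hThr`);
* `exists_pi_mul_of_valuation_lt` : reducedness of the special fibre at `n`      (field `hrad`);
* `branch_root`                   : normal branches                              (field `hroot`);
* `exists_crt_unit`               : fibre product at a node                      (field `hnode`, CRT);
* `not_unitIn_frob_sub_pow`       : Frobenius on the residue field at a fixed rational point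
                                                                                 (field `hnode`, FROB).
-/
import Mathlib
import Fermat.Agent.S34.H21_ModelHypCharts
import Fermat.Agent.S35.H46_ThreeRatios

set_option autoImplicit false
set_option linter.unusedSectionVars false
set_option linter.style.haveILetI false

namespace Fermat.Agent.S35.H46

open Fermat.Agent.S34 Fermat.Agent.S34.H47

section OneChart

variable {B F : Type*} [CommRing B] [IsDomain B] [Field F] [Algebra B F] [IsFractionRing B F]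

theorem algebraMap_ne_zero_of_not_mem {p : Ideal B} {b : B} (hb : b ∉ p) :
    algebraMap B F b ≠ 0 := by
  intro h
  have : b = 0 := (IsFractionRing.injective B F) (by rw [h, map_zero])
  exact hb (this ▸ p.zero_mem)

/-- compatibility of the inverses. -/
theorem symm_compat {ΦB : B ≃+* B} {Φ : F ≃+* F}
    (hΦ : ∀ b, Φ (algebraMap B F b) = algebraMap B F (ΦB b)) (b : B) :
    Φ.symm (algebraMap B F b) = algebraMap B F (ΦB.symm b) := by
  apply Φ.injective
  rw [RingEquiv.apply_symm_apply, hΦ, RingEquiv.apply_symm_apply]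

/-- **(hΦO)** `Φ` maps the local ring at `Φ⁻¹ n` into the local ring at `n`. -/
theorem map_mem_locSubring {ΦB : B ≃+* B} {Φ : F ≃+* F}
    (hΦ : ∀ b, Φ (algebraMap B F b) = algebraMap B F (ΦB b)) (n : Ideal B) [hn : n.IsPrime]
    {x : F}
    (hx : haveI : (n.comap (ΦB : B →+* B)).IsPrime := Ideal.comap_isPrime _ _
      x ∈ H21.locSubring (F := F) (n.comap (ΦB : B →+* B))) :
    Φ x ∈ H21.locSubring (F := F) n := by
  obtain ⟨a, s, hs, has⟩ := hx
  refine ⟨ΦB a, ΦB s, hs, ?_⟩
  rw [← hΦ, ← hΦ, ← map_mul, has]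

/-- a non-unit of the local ring: numerator in `n`, denominator outside. -/
theorem not_unitIn_of_num_mem (n : Ideal B) [hn : n.IsPrime] {y : F} {z w : B} (hz : z ∈ n)
    (hw : w ∉ n) (hy : y * algebraMap B F w = algebraMap B F z) :
    ¬ UnitIn (H21.locSubring (F := F) n) y := by
  rw [H21.unitIn_locSubring_iff]
  rintro ⟨a', b', ha', hb', hab'⟩
  -- `a' w = z b'`
  have h1 : algebraMap B F (a' * w) = algebraMap B F (z * b') := by
    rw [map_mul, map_mul, ← hab', ← hy]; ring
  have h2 : a' * w = z * b' := (IsFractionRing.injective B F) h1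
  have h3 : a' * w ∈ n := h2 ▸ n.mul_mem_right _ hz
  exact (hn.mem_or_mem h3).elim ha' hw

/-- an element of the local ring which is not a unit has its numerator in `n`. -/
theorem num_mem_of_not_unitIn (n : Ideal B) [hn : n.IsPrime] {y : F} {z w : B}
    (hw : w ∉ n) (hy : y * algebraMap B F w = algebraMap B F z)
    (hu : ¬ UnitIn (H21.locSubring (F := F) n) y) : z ∈ n := by
  by_contra hz
  apply hu
  rw [H21.unitIn_locSubring_iff]
  exact ⟨z, w, hz, hw, hy⟩

section DVR

variable [IsNoetherianRing B] [IsIntegrallyClosed B]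

/-- `v_p (b) = 1` for `b ∉ p`. -/
theorem valuation_algebraMap_eq_one {p : Ideal B} [hp : p.IsPrime] (h1 : p.height = 1) {b : B}
    (hb : b ∉ p) :
    (H56.valuationSubringAt (K := F) p h1).valuation (algebraMap B F b) = 1 := by
  have hle : (H56.valuationSubringAt (K := F) p h1).valuation (algebraMap B F b) ≤ 1 :=
    ((H56.valuationSubringAt (K := F) p h1).valuation_le_one_iff _).mpr
      (H56.algebraMap_mem_valuationSubringAt h1 b)
  rcases lt_or_eq_of_le hle with h | h
  · exact absurd ((H56.algebraMap_mem_nonunits_iff h1 b).mp h) hb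
  · exact h

/-- `v_p (a / s) < 1` for `a ∈ p`, `s ∉ p`. -/
theorem valuation_lt_one_of_num_mem {p : Ideal B} [hp : p.IsPrime] (h1 : p.height = 1) {y : F}
    {a s : B} (ha : a ∈ p) (hs : s ∉ p) (hy : y * algebraMap B F s = algebraMap B F a) :
    (H56.valuationSubringAt (K := F) p h1).valuation y < 1 := by
  have h2 := (H56.algebraMap_mem_nonunits_iff (K := F) h1 a).mpr ha
  rw [← hy, map_mul, valuation_algebraMap_eq_one h1 hs, mul_one] at h2
  exact h2

/-- the numerator of an element of `B_n` of valuation `< 1` at `p ≤ n` lies in `p`. -/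
theorem num_mem_of_valuation_lt_one {p : Ideal B} [hp : p.IsPrime] (h1 : p.height = 1) {y : F}
    {a s : B} (hs : s ∉ p) (hy : y * algebraMap B F s = algebraMap B F a)
    (hv : (H56.valuationSubringAt (K := F) p h1).valuation y < 1) : a ∈ p := by
  rw [← H56.algebraMap_mem_nonunits_iff (K := F) h1 a, ← hy, map_mul,
    valuation_algebraMap_eq_one h1 hs, mul_one]
  exact hv

/-- **(hΦV)** `Φ` fixes the valuation ring of a `ΦB`-stable height-one prime. -/
theorem map_mem_valuationSubringAt_iff {ΦB : B ≃+* B} {Φ : F ≃+* F}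
    (hΦ : ∀ b, Φ (algebraMap B F b) = algebraMap B F (ΦB b)) (p : Ideal B) [hp : p.IsPrime]
    (h1 : p.height = 1) (hstab : ∀ b, ΦB b ∈ p ↔ b ∈ p) (x : F) :
    Φ x ∈ H56.valuationSubringAt (K := F) p h1 ↔ x ∈ H56.valuationSubringAt (K := F) p h1 := by
  rw [H56.mem_valuationSubringAt, H56.mem_valuationSubringAt]
  constructor
  · rintro ⟨a, b, hb, hab⟩
    refine ⟨ΦB.symm a, ΦB.symm b, fun h => hb ?_, ?_⟩
    · have := (hstab (ΦB.symm b)).mpr h
      rwa [RingEquiv.apply_symm_apply] at this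
    · rw [← symm_compat hΦ, ← symm_compat hΦ, ← hab, map_mul, RingEquiv.symm_apply_apply]
  · rintro ⟨a, b, hb, hab⟩
    refine ⟨ΦB a, ΦB b, fun h => hb ((hstab b).mp h), ?_⟩
    rw [← hΦ, ← hΦ, ← map_mul, hab]

end DVR

/-- **(hThr)** a `ΦB`-stable prime lies in `Φ⁻¹ n` iff it lies in `n`. -/
theorem le_comap_iff {ΦB : B ≃+* B} (p n : Ideal B) (hstab : ∀ b, ΦB b ∈ p ↔ b ∈ p) :
    p ≤ n.comap (ΦB : B →+* B) ↔ p ≤ n := by
  constructor
  · intro h b hb
    have h1 : ΦB.symm b ∈ p := by
      rw [← hstab, RingEquiv.apply_symm_apply]; exact hb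
    have h2 := h h1
    rw [Ideal.mem_comap] at h2
    simpa using h2
  · intro h b hb
    rw [Ideal.mem_comap]
    exact h ((hstab b).mpr hb)

section Rad

variable [IsNoetherianRing B] [IsIntegrallyClosed B]

/-- **(hrad)** reducedness of the special fibre at `n`, from `hred` / `hsat` of the chart:
an element of `B_n` lying in the maximal ideal of every vertical valuation ring through `n`
lies in `π B_n`. -/
theorem exists_pi_mul_of_valuation_lt {κ : Type*} [Finite κ] (P : κ → Ideal B)
    [hP : ∀ k, (P k).IsPrime] (hh : ∀ k, (P k).height = 1) (π : B)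
    (hred : ∀ k, ∀ b ∈ P k, ∃ s, s ∉ P k ∧ π ∣ s * b)
    (hsat : ∀ b : B, (∀ k, ∃ s, s ∉ P k ∧ π ∣ s * b) → π ∣ b)
    (n : Ideal B) [hn : n.IsPrime] {x : F} (hx : x ∈ H21.locSubring (F := F) n)
    (hv : ∀ k, P k ≤ n → (H56.valuationSubringAt (K := F) (P k) (hh k)).valuation x < 1) :
    ∃ a s : B, s ∉ n ∧ x * algebraMap B F s = algebraMap B F π * algebraMap B F a := by
  classical
  haveI := Fintype.ofFinite κ
  obtain ⟨a₀, s₀, hs₀, has₀⟩ := hx
  -- auxiliary elements of the vertical primes not through `n`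
  have haux : ∀ k, ∃ t : B, t ∉ n ∧ (¬ P k ≤ n → t ∈ P k) := by
    intro k
    by_cases hk : P k ≤ n
    · exact ⟨1, (Ideal.ne_top_iff_one n).mp hn.ne_top, fun h => absurd hk h⟩
    · obtain ⟨t, htP, htn⟩ := Set.not_subset.mp hk
      exact ⟨t, htn, fun _ => htP⟩
  choose t htn htP using haux
  set T : B := ∏ k, t k with hT
  have hTn : T ∉ n := by
    rw [hT]
    intro h
    obtain ⟨k, -, hk⟩ := (hn.prod_mem_iff).mp h
    exact htn k hk
  have hall : ∀ k, a₀ * T ∈ P k := by
    intro k
    by_cases hk : P k ≤ n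
    · have hs₀' : s₀ ∉ P k := fun h => hs₀ (hk h)
      exact (P k).mul_mem_right _ (num_mem_of_valuation_lt_one (hh k) hs₀' has₀ (hv k hk))
    · refine (P k).mul_mem_left _ ?_
      obtain ⟨c, hc⟩ := Finset.dvd_prod_of_mem t (Finset.mem_univ k)
      rw [hT, hc]
      exact (P k).mul_mem_right _ (htP k hk)
  obtain ⟨c, hc⟩ := hsat (a₀ * T) fun k => hred k _ (hall k)
  refine ⟨c, s₀ * T, fun h => (hn.mem_or_mem h).elim hs₀ hTn, ?_⟩
  rw [map_mul, ← mul_assoc, has₀, ← map_mul, ← map_mul, hc]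

end Rad

section Branch

variable [IsNoetherianRing B] [IsIntegrallyClosed B]

/-- **(hroot)** normal branches: `red : B → D` onto an integrally closed domain with kernel the
vertical prime `p ≤ n`.  If `x ^ m ≡ e` on the branch with `e ∈ (B_n)ˣ`, then `x ≡ a` on the branch
for some `a ∈ (B_n)ˣ`. -/
theorem branch_root {D : Type*} [CommRing D] [IsDomain D] [IsIntegrallyClosed D]
    (red : B →+* D) (hsurj : Function.Surjective red) (p : Ideal B) [hp : p.IsPrime]
    (h1 : p.height = 1) (hker : ∀ b, red b = 0 ↔ b ∈ p) (n : Ideal B) [hn : n.IsPrime]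
    (hpn : p ≤ n) {m : ℕ} (hm : 0 < m) {x e : F}
    (he : UnitIn (H21.locSubring (F := F) n) e)
    (hx : OneU (H56.valuationSubringAt (K := F) p h1) (x ^ m / e)) :
    ∃ a, UnitIn (H21.locSubring (F := F) n) a ∧
      OneU (H56.valuationSubringAt (K := F) p h1) (x / a) := by
  set V := H56.valuationSubringAt (K := F) p h1 with hV
  -- `e = c / d`
  obtain ⟨c, d, hc, hd, hcd⟩ := H21.unitIn_locSubring_iff.mp he
  have hcp : c ∉ p := fun h => hc (hpn h)
  have hdp : d ∉ p := fun h => hd (hpn h)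
  have hc0 : algebraMap B F c ≠ 0 := algebraMap_ne_zero_of_not_mem hcp
  have hd0 : algebraMap B F d ≠ 0 := algebraMap_ne_zero_of_not_mem hdp
  have hee : e = algebraMap B F c / algebraMap B F d := by
    rw [← hcd]; field_simp
  have hve : V.valuation e = 1 := by
    rw [hee, map_div₀, valuation_algebraMap_eq_one h1 hcp, valuation_algebraMap_eq_one h1 hdp,
      div_one]
  -- `x` is a unit at `p`
  have hvx : V.valuation x = 1 := by
    have h2 := hx.valuation_eq_one
    rw [map_div₀, hve, div_one, map_pow] at h2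
    exact (pow_eq_one_iff_of_nonneg zero_le hm.ne').mp h2
  obtain ⟨a₀, b₀, ha₀, hb₀, hab₀⟩ := (H56.valuation_eq_one_iff h1).mp hvx
  have ha₀0 : algebraMap B F a₀ ≠ 0 := algebraMap_ne_zero_of_not_mem ha₀
  have hb₀0 : algebraMap B F b₀ ≠ 0 := algebraMap_ne_zero_of_not_mem hb₀
  have hxx : x = algebraMap B F a₀ / algebraMap B F b₀ := by
    rw [← hab₀]; field_simp
  -- the congruence in `B`
  have hcong : a₀ ^ m * d - c * b₀ ^ m ∈ p := by
    refine num_mem_of_valuation_lt_one h1 (s := c * b₀ ^ m) ?_ ?_ hx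
    · intro h
      rcases hp.mem_or_mem h with h | h
      · exact hcp h
      · exact hb₀ (hp.mem_of_pow_mem m h)
    · rw [hxx, hee]
      simp only [map_sub, map_mul, map_pow, div_pow]
      field_simp
  have hredeq : red a₀ ^ m * red d = red c * red b₀ ^ m := by
    have := (hker _).mpr hcong
    rw [map_sub, map_mul, map_mul, map_pow, map_pow, sub_eq_zero] at this
    exact this
  -- the branch
  have hkerle : RingHom.ker red ≤ n := fun b hb => hpn ((hker b).mp hb)
  haveI hnbar : (Ideal.map red n).IsPrime := Ideal.map_isPrime_of_surjective hsurj hkerle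
  have hmem : ∀ b, red b ∈ Ideal.map red n ↔ b ∈ n := by
    intro b
    constructor
    · intro h
      obtain ⟨b', hb'n, hb'⟩ := (Ideal.mem_map_iff_of_surjective red hsurj).mp h
      have : b - b' ∈ n := hkerle (by rw [RingHom.mem_ker, map_sub, hb', sub_self])
      have h2 := n.add_mem this hb'n
      rwa [sub_add_cancel] at h2
    · exact Ideal.mem_map_of_mem red
  have hr0 : ∀ b, b ∉ p → algebraMap D (FractionRing D) (red b) ≠ 0 := by
    intro b hb h
    have : red b = 0 := (IsFractionRing.injective D (FractionRing D)) (by rw [h, map_zero])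
    exact hb ((hker b).mp this)
  set ξ : FractionRing D := algebraMap D (FractionRing D) (red a₀) / algebraMap D (FractionRing D) (red b₀) with hξ
  have hξ0 : ξ ≠ 0 := div_ne_zero (hr0 a₀ ha₀) (hr0 b₀ hb₀)
  have hξm : ξ ^ m * algebraMap D (FractionRing D) (red d) = algebraMap D (FractionRing D) (red c) := by
    have h3 := congrArg (algebraMap D (FractionRing D)) hredeq
    simp only [map_mul, map_pow] at h3
    rw [hξ, div_pow]
    have := pow_ne_zero m (hr0 b₀ hb₀)
    field_simp
    rw [h3, mul_comm]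
  have hξmem : ξ ∈ H21.locSubring (F := FractionRing D) (Ideal.map red n) :=
    H21.locSubring_root_closed _ hm ⟨red c, red d, fun h => hd ((hmem d).mp h), hξm⟩
  have hξinv : ξ⁻¹ ∈ H21.locSubring (F := FractionRing D) (Ideal.map red n) := by
    refine H21.locSubring_root_closed _ hm ⟨red d, red c, fun h => hc ((hmem c).mp h), ?_⟩
    rw [inv_pow]
    have h4 : ξ ^ m ≠ 0 := pow_ne_zero m hξ0
    have h5 := hr0 d hdp
    rw [← hξm]
    field_simp
  obtain ⟨a', s', hs', has'⟩ := hξmem
  obtain ⟨a'', s'', hs'', has''⟩ := hξinv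
  obtain ⟨a₁, rfl⟩ := hsurj a'
  obtain ⟨s₁, rfl⟩ := hsurj s'
  obtain ⟨a₂, rfl⟩ := hsurj a''
  obtain ⟨s₂, rfl⟩ := hsurj s''
  have hs₁ : s₁ ∉ n := fun h => hs' ((hmem s₁).mpr h)
  have hs₂ : s₂ ∉ n := fun h => hs'' ((hmem s₂).mpr h)
  -- `a₁ a₂ ≡ s₁ s₂` modulo `p`
  have h6 : algebraMap D (FractionRing D) (red (a₁ * a₂)) = algebraMap D (FractionRing D) (red (s₁ * s₂)) := by
    simp only [map_mul]
    rw [← has', ← has'']
    field_simp
  have h7 : a₁ * a₂ - s₁ * s₂ ∈ p := by
    rw [← hker, map_sub, sub_eq_zero]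
    exact (IsFractionRing.injective D (FractionRing D)) h6
  have ha₁ : a₁ ∉ n := by
    intro h
    have h8 : s₁ * s₂ ∈ n := by
      have := n.sub_mem (n.mul_mem_right a₂ h) (hpn h7)
      rwa [sub_sub_cancel] at this
    exact (hn.mem_or_mem h8).elim hs₁ hs₂
  have hs₁0 : algebraMap B F s₁ ≠ 0 := algebraMap_ne_zero_of_not_mem hs₁
  have ha₁0 : algebraMap B F a₁ ≠ 0 := algebraMap_ne_zero_of_not_mem ha₁
  refine ⟨algebraMap B F a₁ / algebraMap B F s₁, ?_, ?_⟩
  · rw [H21.unitIn_locSubring_iff]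
    exact ⟨a₁, s₁, ha₁, hs₁, by field_simp⟩
  · -- `x / a - 1 = (a₀ s₁ - a₁ b₀) / (a₁ b₀)`
    have h9 : a₀ * s₁ - a₁ * b₀ ∈ p := by
      rw [← hker, map_sub, sub_eq_zero]
      apply IsFractionRing.injective D (FractionRing D)
      simp only [map_mul]
      rw [← has', hξ]
      have := hr0 b₀ hb₀
      field_simp
    unfold OneU
    refine valuation_lt_one_of_num_mem h1 h9 (s := a₁ * b₀) ?_ ?_
    · intro h
      rcases hp.mem_or_mem h with h | h
      · exact ha₁ (hpn h)
      · exact hb₀ h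
    · rw [hxx]
      simp only [map_sub, map_mul]
      field_simp

/-- `branch_root` with `D = B ⧸ p`. -/
theorem branch_root_quot (p : Ideal B) [hp : p.IsPrime] (h1 : p.height = 1)
    [IsIntegrallyClosed (B ⧸ p)] (n : Ideal B) [hn : n.IsPrime] (hpn : p ≤ n) {m : ℕ}
    (hm : 0 < m) {x e : F} (he : UnitIn (H21.locSubring (F := F) n) e)
    (hx : OneU (H56.valuationSubringAt (K := F) p h1) (x ^ m / e)) :
    ∃ a, UnitIn (H21.locSubring (F := F) n) a ∧
      OneU (H56.valuationSubringAt (K := F) p h1) (x / a) :=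
  branch_root (Ideal.Quotient.mk p) Ideal.Quotient.mk_surjective p h1
    (fun _ => Ideal.Quotient.eq_zero_iff_mem) n hpn hm he hx

end Branch

section Node

variable [IsNoetherianRing B] [IsIntegrallyClosed B]

/-- **(hnode, CRT)** at a node `n` of two vertical primes `p₁, p₂ ≤ n` with
`n B_n = (p₁ + p₂) B_n`: two units of `B_n` congruent modulo `n B_n` are the two branch
restrictions of one unit of `B_n`. -/
theorem exists_crt_unit (n : Ideal B) [hn : n.IsPrime] (p₁ p₂ : Ideal B) [hp₁ : p₁.IsPrime]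
    [hp₂ : p₂.IsPrime] (h₁ : p₁.height = 1) (h₂ : p₂.height = 1) (hp₁n : p₁ ≤ n) (hp₂n : p₂ ≤ n)
    (hnode : ∀ z ∈ n, ∃ t, t ∉ n ∧ t * z ∈ p₁ ⊔ p₂) {a b : F}
    (ha : UnitIn (H21.locSubring (F := F) n) a) (hb : UnitIn (H21.locSubring (F := F) n) b)
    (hab : ¬ UnitIn (H21.locSubring (F := F) n) (a - b)) :
    ∃ c, UnitIn (H21.locSubring (F := F) n) c ∧
      (H56.valuationSubringAt (K := F) p₁ h₁).valuation (c - a) < 1 ∧
      (H56.valuationSubringAt (K := F) p₂ h₂).valuation (c - b) < 1 := by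
  obtain ⟨z, s, hs, hzs⟩ := (H21.locSubring (F := F) n).sub_mem ha.1 hb.1
  have hz : z ∈ n := num_mem_of_not_unitIn n hs hzs hab
  obtain ⟨t, ht, htz⟩ := hnode z hz
  obtain ⟨q₁, hq₁, q₂, hq₂, hq⟩ := Submodule.mem_sup.mp htz
  have hts : t * s ∉ n := fun h => (hn.mem_or_mem h).elim ht hs
  have hts0 : algebraMap B F (t * s) ≠ 0 := algebraMap_ne_zero_of_not_mem hts
  set y : F := algebraMap B F q₁ / algebraMap B F (t * s) with hy
  have hyts : y * algebraMap B F (t * s) = algebraMap B F q₁ := by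
    rw [hy, div_mul_cancel₀ _ hts0]
  have hnegy : (-y) * algebraMap B F (t * s) = algebraMap B F (-q₁) := by
    rw [neg_mul, hyts, map_neg]
  have hymem : -y ∈ H21.locSubring (F := F) n := ⟨-q₁, t * s, hts, hnegy⟩
  have hynu : ¬ UnitIn (H21.locSubring (F := F) n) (-y) :=
    not_unitIn_of_num_mem n (n.neg_mem (hp₁n hq₁)) hts hnegy
  refine ⟨a + -y, H21.locSubring_local n ha hymem hynu, ?_, ?_⟩
  · have : a + -y - a = -y := by ring
    rw [this]
    exact valuation_lt_one_of_num_mem h₁ (p₁.neg_mem hq₁) (fun h => hts (hp₁n h)) hnegy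
  · refine valuation_lt_one_of_num_mem h₂ hq₂ (fun h => hts (hp₂n h)) (s := t * s) ?_
    have h3 : (a - b) * algebraMap B F (t * s) = algebraMap B F (q₁ + q₂) := by
      rw [hq, map_mul, map_mul, ← hzs]; ring
    have : (a + -y - b) * algebraMap B F (t * s)
        = (a - b) * algebraMap B F (t * s) - y * algebraMap B F (t * s) := by ring
    rw [this, h3, hyts, map_add, add_sub_cancel_left]

/-- **(hnode, FROB)** at a `ΦB`-fixed closed point `n` whose residue field is the residue field
of the base `R₀`, on which `ΦB` induces `r ↦ r ^ Q`: `Φ a ≡ a ^ Q` modulo `n B_n`. -/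
theorem not_unitIn_frob_sub_pow {R₀ : Type*} [CommRing R₀] [Algebra R₀ B] {ΦB : B ≃+* B}
    {Φ : F ≃+* F} (hΦ : ∀ b, Φ (algebraMap B F b) = algebraMap B F (ΦB b)) (n : Ideal B)
    [hn : n.IsPrime] (hfix : ∀ b, ΦB b ∈ n ↔ b ∈ n) (Q : ℕ)
    (hrat : ∀ b : B, ∃ r : R₀, b - algebraMap R₀ B r ∈ n)
    (hfrob : ∀ r : R₀, ΦB (algebraMap R₀ B r) - algebraMap R₀ B r ^ Q ∈ n)
    {a : F} (ha : UnitIn (H21.locSubring (F := F) n) a) :
    ¬ UnitIn (H21.locSubring (F := F) n) (Φ a - a ^ Q) := by
  -- Step 1: `ΦB b ≡ b ^ Q` modulo `n`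
  have hB : ∀ b : B, ΦB b - b ^ Q ∈ n := by
    intro b
    obtain ⟨r, hr⟩ := hrat b
    have h1 : ΦB (b - algebraMap R₀ B r) ∈ n := (hfix _).mpr hr
    have h2 : b ^ Q - algebraMap R₀ B r ^ Q ∈ n := by
      obtain ⟨c, hc⟩ := sub_dvd_pow_sub_pow b (algebraMap R₀ B r) Q
      rw [hc]
      exact n.mul_mem_right _ hr
    have h3 : ΦB b - b ^ Q = ΦB (b - algebraMap R₀ B r)
        + (ΦB (algebraMap R₀ B r) - algebraMap R₀ B r ^ Q)
        - (b ^ Q - algebraMap R₀ B r ^ Q) := by
      rw [map_sub]; ring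
    rw [h3]
    exact n.sub_mem (n.add_mem h1 (hfrob r)) h2
  -- Step 2
  obtain ⟨b, s, hb, hs, hbs⟩ := H21.unitIn_locSubring_iff.mp ha
  have hs0 : algebraMap B F s ≠ 0 := algebraMap_ne_zero_of_not_mem hs
  have hΦs : ΦB s ∉ n := fun h => hs ((hfix s).mp h)
  have hΦs0 : algebraMap B F (ΦB s) ≠ 0 := algebraMap_ne_zero_of_not_mem hΦs
  have haa : a = algebraMap B F b / algebraMap B F s := by
    rw [← hbs]; field_simp
  have hΦa : Φ a = algebraMap B F (ΦB b) / algebraMap B F (ΦB s) := by
    rw [haa, map_div₀, hΦ, hΦ]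
  refine not_unitIn_of_num_mem n (z := ΦB b * s ^ Q - b ^ Q * ΦB s) (w := ΦB s * s ^ Q) ?_ ?_ ?_
  · have : ΦB b * s ^ Q - b ^ Q * ΦB s = (ΦB b - b ^ Q) * s ^ Q - b ^ Q * (ΦB s - s ^ Q) := by
      ring
    rw [this]
    exact n.sub_mem (n.mul_mem_right _ (hB b)) (n.mul_mem_left _ (hB s))
  · intro h
    rcases hn.mem_or_mem h with h | h
    · exact hΦs h
    · exact hs (hn.mem_of_pow_mem Q h)
  · rw [hΦa, haa]
    simp only [map_sub, map_mul, map_pow, div_pow]
    field_simp

end Node

end OneChart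

end Fermat.Agent.S35.H46
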