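/-
S35, second clause, row G5 (instance side), helper46: **`H46.FrobModel` for the two-chart model of
S34**, i.e. at `O := H21.ptO B₁ B₂ π`, `V k := H56.valuationSubringAt (P₁ k)`,
`Thr := H21.primeThr P₁ P₂` - the data at which `H69.kummer_descent_pow` is stated.

* `ChartFrob` : the per-chart hypotheses (compatible automorphism `ΦB` of the chart, stable
  vertical primes, `hred`/`hsat`, normal branches, closed points smooth or `Φ`-fixed rational
  nodes);
* `frobModel_of_chart` : one chart;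
* `frobModel_of_charts` : two charts.
-/
import Mathlib
import Fermat.Agent.S35.H46_FrobModelChart

set_option autoImplicit false
set_option linter.unusedSectionVars false
set_option linter.style.haveILetI false

namespace Fermat.Agent.S35.H46

open Fermat.Agent.S34 Fermat.Agent.S34.H47

section OneChart

variable {R B F : Type*} [CommRing R] [CommRing B] [IsDomain B] [Field F] [Algebra R B]
  [Algebra B F] [Algebra R F] [IsScalarTower R B F] [IsFractionRing B F]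

/-- Closed points of the special fibre of the chart `B`. -/
def Pt (B : Type*) [CommRing B] [Algebra R B] (π : R) : Type _ :=
  {n : Ideal B // n.IsMaximal ∧ algebraMap R B π ∈ n}

/-- The local ring at a closed point, inside `F`. -/
noncomputable def ptO₁ (F : Type*) [Field F] [Algebra B F] [IsFractionRing B F] (π : R) :
    Pt (R := R) B π → Subring F :=
  fun n => haveI := n.2.1.isPrime; H21.locSubring (F := F) n.1

/-- The action of `ΦB` on closed points: `n ↦ ΦB⁻¹ n`. -/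
def sigmaPt {π : R} (ΦB : B ≃+* B) (hΦπ : algebraMap R B π ∣ ΦB (algebraMap R B π)) :
    Pt (R := R) B π → Pt (R := R) B π :=
  fun n => ⟨n.1.comap (ΦB : B →+* B),
    haveI := n.2.1
    Ideal.comap_isMaximal_of_surjective (ΦB : B →+* B) ΦB.surjective, by
    rw [Ideal.mem_comap]
    obtain ⟨c, hc⟩ := hΦπ
    show ΦB (algebraMap R B π) ∈ n.1
    rw [hc]
    exact n.1.mul_mem_right _ n.2.2⟩

variable [IsNoetherianRing B] [IsIntegrallyClosed B]

/-- **Per-chart hypotheses.** -/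
structure ChartFrob {κ : Type*} (P : κ → Ideal B) (π : R) (Φ : F ≃+* F) (ΦB : B ≃+* B)
    (ΦR : R →+* R) (Q : ℕ) : Prop where
  /-- `ΦB` is the restriction of `Φ` to the chart -/
  hΦ : ∀ b : B, Φ (algebraMap B F b) = algebraMap B F (ΦB b)
  /-- `Φ π` is a multiple of `π` -/
  hΦπ : algebraMap R B π ∣ ΦB (algebraMap R B π)
  /-- `ΦB` is `ΦR`-semilinear -/
  hΦR : ∀ r : R, ΦB (algebraMap R B r) = algebraMap R B (ΦR r)
  /-- the vertical primes are `ΦB`-stable -/
  hstab : ∀ k b, ΦB b ∈ P k ↔ b ∈ P k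
  hred : ∀ k, ∀ b ∈ P k, ∃ s, s ∉ P k ∧ algebraMap R B π ∣ s * b
  hsat : ∀ b : B, (∀ k, ∃ s, s ∉ P k ∧ algebraMap R B π ∣ s * b) → algebraMap R B π ∣ b
  /-- the components of the special fibre are normal -/
  hbranch : ∀ k, IsIntegrallyClosed (B ⧸ P k)
  /-- every closed point is on one component, or is a `ΦB`-fixed rational node of two -/
  hnode : ∀ n : Ideal B, n.IsMaximal → algebraMap R B π ∈ n →
    (∃ k₀, ∀ k, P k ≤ n → k = k₀) ∨
    (n.comap (ΦB : B →+* B) = n ∧ ∃ k₁ k₂, P k₁ ≤ n ∧ P k₂ ≤ n ∧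
      (∀ k, P k ≤ n → k = k₁ ∨ k = k₂) ∧
      (∀ z ∈ n, ∃ t, t ∉ n ∧ t * z ∈ P k₁ ⊔ P k₂) ∧
      ∀ b : B, ∃ r : R, b - algebraMap R B r ∈ n)

/-- **`FrobModel` for one chart.** -/
theorem frobModel_of_chart {κ : Type*} [Finite κ] (P : κ → Ideal B) [hP : ∀ k, (P k).IsPrime]
    (hh : ∀ k, (P k).height = 1) (V : κ → ValuationSubring F)
    (hV : ∀ k, V k = H56.valuationSubringAt (K := F) (P k) (hh k)) (π : R) (Φ : F ≃+* F)
    (ΦB : B ≃+* B) (ΦR : R →+* R) (Q m : ℕ) (hm : 0 < m)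
    (C : ChartFrob (F := F) P π Φ ΦB ΦR Q) (hFrobR : ∀ r : R, π ∣ ΦR r - r ^ Q) :
    FrobModel (ptO₁ (B := B) F π) V (fun n k => P k ≤ n.1) π Φ (sigmaPt ΦB C.hΦπ) Q m where
  hOV := by
    intro n k hk x hx
    haveI := n.2.1.isPrime
    rw [hV k, H56.mem_valuationSubringAt]
    obtain ⟨a, s, hs, has⟩ := hx
    exact ⟨a, s, fun h => hs (hk h), has⟩
  hOloc := by
    intro n a b ha hb hbu
    haveI := n.2.1.isPrime
    exact H21.locSubring_local n.1 ha hb hbu
  hΦO := by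
    intro n x hx
    haveI := n.2.1.isPrime
    exact map_mem_locSubring C.hΦ n.1 hx
  hΦV := by
    intro k x
    rw [hV k]
    exact map_mem_valuationSubringAt_iff C.hΦ (P k) (hh k) (C.hstab k) x
  hThr := by
    intro n k
    exact le_comap_iff (P k) n.1 (C.hstab k)
  hrad := by
    intro n x hx hv
    haveI := n.2.1.isPrime
    obtain ⟨a, s, hs, has⟩ := exists_pi_mul_of_valuation_lt P hh (algebraMap R B π) C.hred C.hsat
      n.1 hx (fun k hk => by rw [← hV k]; exact hv k hk)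
    have hs0 : algebraMap B F s ≠ 0 := algebraMap_ne_zero_of_not_mem hs
    refine ⟨algebraMap B F a / algebraMap B F s, ⟨a, s, hs, div_mul_cancel₀ _ hs0⟩, ?_⟩
    rw [IsScalarTower.algebraMap_apply R B F, mul_div_assoc', ← has, mul_div_assoc, div_self hs0,
      mul_one]
  hroot := by
    intro n k hk x e he hx
    haveI := n.2.1.isPrime
    haveI := C.hbranch k
    rw [hV k] at hx ⊢
    exact branch_root_quot (P k) (hh k) n.1 hk hm he hx
  hnode := by
    intro n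
    haveI := n.2.1.isPrime
    rcases C.hnode n.1 n.2.1 n.2.2 with ⟨k₀, hk₀⟩ | ⟨hfix, k₁, k₂, hk₁, hk₂, hk12, hloc, hrat⟩
    · exact Or.inl ⟨k₀, hk₀⟩
    · refine Or.inr ⟨Subtype.ext hfix, k₁, k₂, hk12, ?_, ?_⟩
      · intro a b ha hb hab
        rw [hV k₁, hV k₂]
        exact exists_crt_unit n.1 (P k₁) (P k₂) (hh k₁) (hh k₂) hk₁ hk₂ hloc ha hb hab
      · intro a ha
        refine not_unitIn_frob_sub_pow (R₀ := R) C.hΦ n.1 ?_ Q hrat ?_ ha
        · intro b
          have h1 : b ∈ n.1.comap (ΦB : B →+* B) ↔ b ∈ n.1 := by rw [hfix]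
          exact h1
        · intro r
          rw [C.hΦR, ← map_pow, ← map_sub]
          obtain ⟨c, hc⟩ := hFrobR r
          rw [hc, map_mul]
          exact n.1.mul_mem_right _ n.2.2

end OneChart

section Glue

variable {R F : Type*} [CommRing R] [Field F] [Algebra R F]
  {ν₁ ν₂ κ : Type*} {O₁ : ν₁ → Subring F} {O₂ : ν₂ → Subring F} {V : κ → ValuationSubring F}
  {Thr₁ : ν₁ → κ → Prop} {Thr₂ : ν₂ → κ → Prop} {π : R} {Φ : F ≃+* F} {σ₁ : ν₁ → ν₁}
  {σ₂ : ν₂ → ν₂} {Q m : ℕ}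

/-- Gluing two `FrobModel`s with the same vertical valuations along a disjoint union of closed
points. -/
theorem FrobModel.sum (H₁ : FrobModel O₁ V Thr₁ π Φ σ₁ Q m) (H₂ : FrobModel O₂ V Thr₂ π Φ σ₂ Q m) :
    FrobModel (Sum.elim O₁ O₂) V (Sum.elim Thr₁ Thr₂) π Φ (Sum.map σ₁ σ₂) Q m where
  hOV := by
    rintro (n | n)
    · exact H₁.hOV n
    · exact H₂.hOV n
  hOloc := by
    rintro (n | n)
    · exact H₁.hOloc n
    · exact H₂.hOloc n
  hΦO := by
    rintro (n | n)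
    · exact H₁.hΦO n
    · exact H₂.hΦO n
  hΦV := H₁.hΦV
  hThr := by
    rintro (n | n)
    · exact H₁.hThr n
    · exact H₂.hThr n
  hrad := by
    rintro (n | n)
    · exact H₁.hrad n
    · exact H₂.hrad n
  hroot := by
    rintro (n | n)
    · exact H₁.hroot n
    · exact H₂.hroot n
  hnode := by
    rintro (n | n)
    · rcases H₁.hnode n with h | ⟨hσ, h⟩
      · exact Or.inl h
      · exact Or.inr ⟨congrArg Sum.inl hσ, h⟩
    · rcases H₂.hnode n with h | ⟨hσ, h⟩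
      · exact Or.inl h
      · exact Or.inr ⟨congrArg Sum.inr hσ, h⟩

end Glue

section TwoCharts

variable {R F : Type*} [CommRing R] [IsDomain R] [IsDiscreteValuationRing R]
  [Field F] [Algebra R F]
  {B₁ B₂ : Subalgebra R F} [IsFractionRing B₁ F] [IsFractionRing B₂ F]
  [IsNoetherianRing B₁] [IsNoetherianRing B₂] [IsIntegrallyClosed B₁] [IsIntegrallyClosed B₂]
  {κ : Type*} [Finite κ] {π : R}
  {P₁ : κ → Ideal B₁} {P₂ : κ → Ideal B₂}

/-- **`FrobModel` for the two-chart model**, at the data of `H69.kummer_descent_pow`: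
`O = H21.ptO B₁ B₂ π`, `V k = H56.valuationSubringAt (P₁ k)`, `Thr = H21.primeThr P₁ P₂`. -/
theorem frobModel_of_charts [hP₁ : ∀ k, (P₁ k).IsPrime] [hP₂ : ∀ k, (P₂ k).IsPrime]
    (hh₁ : ∀ k, (P₁ k).height = 1) (hh₂ : ∀ k, (P₂ k).height = 1)
    (hVeq : ∀ k, H56.valuationSubringAt (K := F) (P₁ k) (hh₁ k)
      = H56.valuationSubringAt (K := F) (P₂ k) (hh₂ k))
    (Φ : F ≃+* F) (ΦB₁ : B₁ ≃+* B₁) (ΦB₂ : B₂ ≃+* B₂) (ΦR : R →+* R) (Q m : ℕ) (hm : 0 < m)
    (C₁ : ChartFrob (F := F) P₁ π Φ ΦB₁ ΦR Q) (C₂ : ChartFrob (F := F) P₂ π Φ ΦB₂ ΦR Q)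
    (hFrobR : ∀ r : R, π ∣ ΦR r - r ^ Q) :
    FrobModel (H21.ptO B₁ B₂ π) (fun k => H56.valuationSubringAt (K := F) (P₁ k) (hh₁ k))
      (H21.primeThr (π := π) P₁ P₂) π Φ
      (Sum.map (sigmaPt ΦB₁ C₁.hΦπ) (sigmaPt ΦB₂ C₂.hΦπ)) Q m :=
  FrobModel.sum
    (frobModel_of_chart P₁ hh₁ _ (fun _ => rfl) π Φ ΦB₁ ΦR Q m hm C₁ hFrobR)
    (frobModel_of_chart P₂ hh₂ _ hVeq π Φ ΦB₂ ΦR Q m hm C₂ hFrobR)

end TwoCharts

end Fermat.Agent.S35.H46
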