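/-
S35, second clause, rows G2 → G5 (adapter), helper46: the chart-form output of the RATIO LEMMA
(helper8 `H8.exists_ratio_of_node` / `exists_ratio_of_smooth`, helper12 `H12.isUnitAt_ratio`,
helper18 `H18.exists_ratio_decomp`: at every closed point `n` of a chart,
`u * b = g ^ m * a` with `a, b ∉ n` and `g` a unit at the vertical height-one primes through `n`)
is a `H46.WeakDatum` at the data `(H21.ptO, H56.valuationSubringAt (P₁ k), H21.primeThr)` of
`H69.kummer_descent_pow`.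
-/
import Mathlib
import Fermat.Agent.S35.H46_FrobModelCharts

set_option autoImplicit false
set_option linter.unusedSectionVars false
set_option linter.style.haveILetI false

namespace Fermat.Agent.S35.H46

open Fermat.Agent.S34 Fermat.Agent.S34.H47

section OneChart

variable {B F : Type*} [CommRing B] [IsDomain B] [Field F] [Algebra B F] [IsFractionRing B F]
  [IsNoetherianRing B] [IsIntegrallyClosed B]

/-- The chart form of the local factorisation `u = η g ^ m`. -/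
def ChartWeakAt (ϖ : B) (n : Ideal B) (u : F) (m : ℕ) : Prop :=
  ∃ g : F, g ≠ 0 ∧
    (∃ a b : B, a ∉ n ∧ b ∉ n ∧ u * algebraMap B F b = g ^ m * algebraMap B F a) ∧
    ∀ P : Ideal B, P.IsPrime → P.height = 1 → P ≤ n → ϖ ∈ P → H56.IsUnitAt P g

/-- chart form ⟹ the two clauses of `WeakDatum` at `n`. -/
theorem ChartWeakAt.weak {κ : Type*} (P : κ → Ideal B) [hP : ∀ k, (P k).IsPrime]
    (hh : ∀ k, (P k).height = 1) {ϖ : B} (hϖ : ∀ k, ϖ ∈ P k) (V : κ → ValuationSubring F)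
    (hV : ∀ k, V k = H56.valuationSubringAt (K := F) (P k) (hh k)) {n : Ideal B} [hn : n.IsPrime]
    {u : F} {m : ℕ} (h : ChartWeakAt ϖ n u m) :
    ∃ g : F, g ≠ 0 ∧ (∀ k, P k ≤ n → (V k).valuation g = 1) ∧
      UnitIn (H21.locSubring (F := F) n) (u / g ^ m) := by
  obtain ⟨g, hg0, ⟨a, b, ha, hb, hab⟩, hvert⟩ := h
  refine ⟨g, hg0, fun k hk => ?_, ?_⟩
  · rw [hV k, H56.valuation_eq_one_iff]
    exact hvert (P k) (hP k) (hh k) hk (hϖ k)
  · rw [H21.unitIn_locSubring_iff]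
    refine ⟨a, b, ha, hb, ?_⟩
    have hgm : g ^ m ≠ 0 := pow_ne_zero m hg0
    rw [div_mul_eq_mul_div, hab, mul_comm, mul_div_assoc, div_self hgm, mul_one]

end OneChart

section TwoCharts

variable {R F : Type*} [CommRing R] [IsDomain R] [IsDiscreteValuationRing R]
  [Field F] [Algebra R F]
  {B₁ B₂ : Subalgebra R F} [IsFractionRing B₁ F] [IsFractionRing B₂ F]
  [IsNoetherianRing B₁] [IsNoetherianRing B₂] [IsIntegrallyClosed B₁] [IsIntegrallyClosed B₂]
  {κ : Type*} {π : R} {P₁ : κ → Ideal B₁} {P₂ : κ → Ideal B₂}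

/-- **`WeakDatum` at the two-chart model** from the chart-form ratio lemma at every closed point
of both charts. -/
theorem weakDatum_of_charts [hP₁ : ∀ k, (P₁ k).IsPrime] [hP₂ : ∀ k, (P₂ k).IsPrime]
    (hh₁ : ∀ k, (P₁ k).height = 1) (hh₂ : ∀ k, (P₂ k).height = 1)
    (hVeq : ∀ k, H56.valuationSubringAt (K := F) (P₁ k) (hh₁ k)
      = H56.valuationSubringAt (K := F) (P₂ k) (hh₂ k))
    (hπ₁ : ∀ k, algebraMap R B₁ π ∈ P₁ k) (hπ₂ : ∀ k, algebraMap R B₂ π ∈ P₂ k)
    {u : F} {m : ℕ}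
    (h₁ : ∀ n : Ideal B₁, n.IsMaximal → algebraMap R B₁ π ∈ n →
      ChartWeakAt (F := F) (algebraMap R B₁ π) n u m)
    (h₂ : ∀ n : Ideal B₂, n.IsMaximal → algebraMap R B₂ π ∈ n →
      ChartWeakAt (F := F) (algebraMap R B₂ π) n u m) :
    WeakDatum (H21.ptO B₁ B₂ π) (fun k => H56.valuationSubringAt (K := F) (P₁ k) (hh₁ k))
      (H21.primeThr (π := π) P₁ P₂) u m := by
  rintro (n | n)
  · haveI := n.2.1.isPrime
    exact (h₁ n.1 n.2.1 n.2.2).weak P₁ hh₁ hπ₁ _ (fun _ => rfl)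
  · haveI := n.2.1.isPrime
    exact (h₂ n.1 n.2.1 n.2.2).weak P₂ hh₂ hπ₂ _ hVeq

end TwoCharts

end Fermat.Agent.S35.H46
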