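/-
helper8 — S35 row G2 (a): the RATIO LEMMA (g1) in helper56's chart form.

`B` a noetherian integrally closed domain (a chart `B_i''`), `K = Frac B`, `π ∈ B`,
`(sB, s)` a compatible pair of automorphisms of `B` and `K` which is NOT assumed trivial
mod `π` (a Frobenius lift, or its square): it moves the closed point `n' := n.comap sB` to `n`,
and it stabilises the vertical height-one primes through `n`.

`w` (resp. `w'`) a local equation at `n` (resp. `n'`) of the divisor `D`, `div f = m D`: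
`f / w ^ m` is a unit at every horizontal height-one prime `≤ n` (resp. `f / w' ^ m` at those
`≤ n'`).  If `w' / w` is a unit at the vertical height-one primes `≤ n` (smooth point: both are
units there; node: `n' = n`, `w' = w`), then

  `s f / f = η * (s w' / w) ^ m`,  `η := s (f / w' ^ m) / (f / w ^ m) ∈ (B_n)ˣ`,

and `s w' / w` is a unit at the vertical height-one primes `≤ n`.
All statements "in the field" (`IsUnitAt`), no `Localization`.
-/
import Mathlib
import Fermat.Agent.S34.H56_LocalDatum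

set_option autoImplicit false
set_option linter.unusedSectionVars false
set_option linter.style.haveILetI false

namespace Fermat.Agent.S35.H8

open Fermat.Agent.S34.H56 Fermat.Agent.CA.H42

variable {B K : Type*} [CommRing B] [IsDomain B] [Field K] [Algebra B K] [IsFractionRing B K]

/-- A unit plus an element of `p B_p` is a unit at `p`. -/
theorem isUnitAt_add_of_mem {p : Ideal B} [hp : p.IsPrime] {x y : K} (hx : IsUnitAt p x)
    (hy : ∃ c d : B, c ∈ p ∧ d ∉ p ∧ y * algebraMap B K d = algebraMap B K c) :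
    IsUnitAt p (x + y) := by
  obtain ⟨a, b, ha, hb, hab⟩ := hx
  obtain ⟨c, d, hc, hd, hcd⟩ := hy
  refine ⟨a * d + c * b, b * d, fun h => ?_, fun h => ?_, ?_⟩
  · have h1 : a * d ∈ p := by
      have : a * d = (a * d + c * b) - c * b := by ring
      rw [this]; exact Ideal.sub_mem _ h (Ideal.mul_mem_right _ _ hc)
    exact (Ideal.IsPrime.mem_or_mem hp h1).elim ha hd
  · exact (Ideal.IsPrime.mem_or_mem hp h).elim hb hd
  · rw [map_add, map_mul, map_mul, map_mul, ← hab, ← hcd]; ring

/-- Transport of `IsUnitAt` along a compatible pair of automorphisms, both directions. -/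
theorem isUnitAt_map_iff {sB : B ≃+* B} {s : K ≃+* K}
    (hs : ∀ b, s (algebraMap B K b) = algebraMap B K (sB b)) {p : Ideal B} {x : K} :
    IsUnitAt p (s x) ↔ IsUnitAt (p.comap (sB : B →+* B)) x := by
  constructor
  · rintro ⟨a, b, ha, hb, hab⟩
    refine ⟨sB.symm a, sB.symm b, ?_, ?_, ?_⟩
    · intro h
      have h' : sB (sB.symm a) ∈ p := h
      rw [RingEquiv.apply_symm_apply] at h'
      exact ha h'
    · intro h
      have h' : sB (sB.symm b) ∈ p := h
      rw [RingEquiv.apply_symm_apply] at h'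
      exact hb h'
    · apply s.injective
      rw [map_mul, hs, hs, RingEquiv.apply_symm_apply, RingEquiv.apply_symm_apply, hab]
  · exact IsUnitAt.map hs

/-- A horizontal prime is moved to a horizontal prime as soon as `sB π` and `π` are
associated. -/
theorem notMem_comap_of_associated {π : B} (sB : B ≃+* B) (hπ : Associated (sB π) π)
    (p : Ideal B) (hπp : π ∉ p) : π ∉ p.comap (sB : B →+* B) := by
  intro h
  have h2 : sB π ∈ p := h
  obtain ⟨u, hu⟩ := hπ
  exact hπp (hu ▸ Ideal.mul_mem_right _ _ h2)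

/-- A vertical prime is moved to a vertical prime. -/
theorem mem_comap_of_associated {π : B} (sB : B ≃+* B) (hπ : Associated (sB π) π)
    (p : Ideal B) (hπp : π ∈ p) : π ∈ p.comap (sB : B →+* B) := by
  show sB π ∈ p
  obtain ⟨u, hu⟩ := hπ.symm
  exact hu ▸ Ideal.mul_mem_right _ _ hπp

/-- A stable prime below `n` is below `n.comap sB`. -/
theorem le_comap_of_stable (sB : B ≃+* B) {P n : Ideal B} (hst : Stable sB P) (hPn : P ≤ n) :
    P ≤ n.comap (sB : B →+* B) := by
  intro b hb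
  show sB b ∈ n
  exact hPn ((hst b).mpr hb)

section Main

variable [IsNoetherianRing B] [IsIntegrallyClosed B]

/-- **RATIO LEMMA (g1), unit part.**  `η := s (f / w' ^ m) / (f / w ^ m)` is a unit at `n`. -/
theorem isUnitAt_ratio (n : Ideal B) [hn : n.IsPrime] (π : B)
    (sB : B ≃+* B) (s : K ≃+* K)
    (hs : ∀ b, s (algebraMap B K b) = algebraMap B K (sB b))
    (hπ : Associated (sB π) π)
    (hstab : ∀ P : Ideal B, P.IsPrime → P.height = 1 → P ≤ n → π ∈ P → Stable sB P)
    (f w w' : K) (hf : f ≠ 0) (hw : w ≠ 0) (hw' : w' ≠ 0) (m : ℕ)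
    (hhor : ∀ p : Ideal B, p.IsPrime → p.height = 1 → p ≤ n → π ∉ p → IsUnitAt p (f / w ^ m))
    (hhor' : ∀ p : Ideal B, p.IsPrime → p.height = 1 → p ≤ n.comap (sB : B →+* B) → π ∉ p →
      IsUnitAt p (f / w' ^ m))
    (hvert : ∀ P : Ideal B, P.IsPrime → P.height = 1 → P ≤ n → π ∈ P → IsUnitAt P (w' / w)) :
    IsUnitAt n (s (f / w' ^ m) / (f / w ^ m)) := by
  set η : K := f / w ^ m with hη
  set η' : K := f / w' ^ m with hη'
  have hη0 : η ≠ 0 := div_ne_zero hf (pow_ne_zero _ hw)
  have hη'0 : η' ≠ 0 := div_ne_zero hf (pow_ne_zero _ hw')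
  have hsη'0 : s η' ≠ 0 := (map_ne_zero s).mpr hη'0
  refine isUnitAt_of_forall_height_one_le n _ (fun p hp h1 hle => ?_) (div_ne_zero hsη'0 hη0)
  haveI := hp
  by_cases hπp : π ∈ p
  · -- vertical prime: `s η' / η = (s η' / η') * (η' / η)`, `η' / η = ((w' / w) ^ m)⁻¹`
    have hst := hstab p hp h1 hle hπp
    have h1' : IsUnitAt p (s η' / η') :=
      isUnitAt_map_div_self_of_stable p h1 sB s hs hst η' hη'0
    have h2 : IsUnitAt p (η' / η) := by
      have e : η' / η = ((w' / w) ^ m)⁻¹ := by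
        rw [hη, hη', div_pow]; field_simp
      rw [e]
      exact ((hvert p hp h1 hle hπp).pow m).inv
    have e : s η' / η = s η' / η' * (η' / η) := by field_simp
    rw [e]; exact h1'.mul h2
  · -- horizontal prime
    have hp' : (p.comap (sB : B →+* B)).IsPrime := Ideal.comap_isPrime _ _
    have h1' : (p.comap (sB : B →+* B)).height = 1 := by
      have := RingEquiv.height_comap sB p
      rw [← h1, ← this]; rfl
    have hle' : p.comap (sB : B →+* B) ≤ n.comap (sB : B →+* B) := Ideal.comap_mono hle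
    have hπ' : π ∉ p.comap (sB : B →+* B) := notMem_comap_of_associated sB hπ p hπp
    exact (IsUnitAt.map hs (hhor' _ hp' h1' hle' hπ')).div (hhor p hp h1 hle hπp)

/-- **RATIO LEMMA (g1), `g`-part.**  `g := s w' / w` is a unit at every vertical height-one
prime `≤ n`. -/
theorem isUnitAt_ratio_eq (n : Ideal B) (π : B)
    (sB : B ≃+* B) (s : K ≃+* K)
    (hs : ∀ b, s (algebraMap B K b) = algebraMap B K (sB b))
    (hstab : ∀ P : Ideal B, P.IsPrime → P.height = 1 → P ≤ n → π ∈ P → Stable sB P)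
    (w w' : K) (hw : w ≠ 0) (hw' : w' ≠ 0)
    (hvert : ∀ P : Ideal B, P.IsPrime → P.height = 1 → P ≤ n → π ∈ P → IsUnitAt P (w' / w))
    (P : Ideal B) (hP : P.IsPrime) (h1 : P.height = 1) (hPn : P ≤ n) (hπP : π ∈ P) :
    IsUnitAt P (s w' / w) := by
  haveI := hP
  have h1' : IsUnitAt P (s w' / w') :=
    isUnitAt_map_div_self_of_stable P h1 sB s hs (hstab P hP h1 hPn hπP) w' hw'
  have e : s w' / w = s w' / w' * (w' / w) := by field_simp
  rw [e]; exact h1'.mul (hvert P hP h1 hPn hπP)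

/-- The field identity behind the ratio lemma. -/
theorem ratio_identity (s : K ≃+* K) {f w w' : K} (m : ℕ) (hf : f ≠ 0) (hw : w ≠ 0)
    (hw' : w' ≠ 0) :
    s f / f = s (f / w' ^ m) / (f / w ^ m) * (s w' / w) ^ m := by
  have h1 : s w' ≠ 0 := (map_ne_zero s).mpr hw'
  rw [map_div₀, map_pow, div_pow]
  field_simp

/-- **RATIO LEMMA (g1), chart form.**  `s f / f = (a / b) * (s w' / w) ^ m` with `a, b ∉ n`,
and `s w' / w` is a unit at the vertical height-one primes `≤ n`. -/
theorem ratio_chart (n : Ideal B) [hn : n.IsPrime] (π : B)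
    (sB : B ≃+* B) (s : K ≃+* K)
    (hs : ∀ b, s (algebraMap B K b) = algebraMap B K (sB b))
    (hπ : Associated (sB π) π)
    (hstab : ∀ P : Ideal B, P.IsPrime → P.height = 1 → P ≤ n → π ∈ P → Stable sB P)
    (f w w' : K) (hf : f ≠ 0) (hw : w ≠ 0) (hw' : w' ≠ 0) (m : ℕ)
    (hhor : ∀ p : Ideal B, p.IsPrime → p.height = 1 → p ≤ n → π ∉ p → IsUnitAt p (f / w ^ m))
    (hhor' : ∀ p : Ideal B, p.IsPrime → p.height = 1 → p ≤ n.comap (sB : B →+* B) → π ∉ p →
      IsUnitAt p (f / w' ^ m))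
    (hvert : ∀ P : Ideal B, P.IsPrime → P.height = 1 → P ≤ n → π ∈ P → IsUnitAt P (w' / w)) :
    (∃ a b : B, a ∉ n ∧ b ∉ n ∧
      s f / f * algebraMap B K b = (s w' / w) ^ m * algebraMap B K a) ∧
    ∀ P : Ideal B, P.IsPrime → P.height = 1 → P ≤ n → π ∈ P → IsUnitAt P (s w' / w) := by
  refine ⟨?_, fun P hP h1 hPn hπP =>
    isUnitAt_ratio_eq n π sB s hs hstab w w' hw hw' hvert P hP h1 hPn hπP⟩
  obtain ⟨a, b, ha, hb, hab⟩ :=
    isUnitAt_ratio n π sB s hs hπ hstab f w w' hf hw hw' m hhor hhor' hvert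
  refine ⟨a, b, ha, hb, ?_⟩
  rw [ratio_identity s m hf hw hw', mul_right_comm, hab, mul_comm]

/-- **Next ratio**, with a weight `Q` (`Q = 1`: `u₂ = s u₁ / u₁`; `Q = q²`:
`u₃ = s u₂ / u₂ ^ Q`).  If `u = η g ^ m` at `n` and `u = η' g' ^ m` at `n' = n.comap sB`, then
`s u / u ^ Q = (s η' / η ^ Q) * (s g' / g ^ Q) ^ m` with `s η' / η ^ Q` a unit at `n`. -/
theorem ratio_step (n : Ideal B) [hn : n.IsPrime] (sB : B ≃+* B) (s : K ≃+* K)
    (hs : ∀ b, s (algebraMap B K b) = algebraMap B K (sB b))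
    {u η η' g g' : K} (m Q : ℕ) (hη : IsUnitAt n η)
    (hη' : IsUnitAt (n.comap (sB : B →+* B)) η') (hg : g ≠ 0)
    (hu : u = η * g ^ m) (hu' : u = η' * g' ^ m) :
    s u / u ^ Q = s η' / η ^ Q * (s g' / g ^ Q) ^ m ∧ IsUnitAt n (s η' / η ^ Q) := by
  refine ⟨?_, (IsUnitAt.map hs hη').div (hη.pow Q)⟩
  have hη0 := hη.ne_zero
  have e1 : s u = s η' * s g' ^ m := by rw [hu', map_mul, map_pow]
  have e2 : u ^ Q = η ^ Q * (g ^ Q) ^ m := by rw [hu, mul_pow, ← pow_mul, ← pow_mul, mul_comm m Q]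
  rw [e1, e2, div_pow]
  field_simp

/-- The `g`-part of `ratio_step` at a stable (vertical) prime. -/
theorem isUnitAt_ratio_step (P : Ideal B) [hP : P.IsPrime] (sB : B ≃+* B) (s : K ≃+* K)
    (hs : ∀ b, s (algebraMap B K b) = algebraMap B K (sB b)) (hst : Stable sB P)
    {g g' : K} (Q : ℕ) (hg : IsUnitAt P g) (hg' : IsUnitAt P g') :
    IsUnitAt P (s g' / g ^ Q) := by
  have hc : P.comap (sB : B →+* B) = P := by
    ext b; exact hst b
  have : IsUnitAt (P.comap (sB : B →+* B)) g' := by rw [hc]; exact hg'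
  exact (IsUnitAt.map hs this).div (hg.pow Q)

end Main

end Fermat.Agent.S35.H8
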