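/-
helper8 — S35 row G2 (b): LOCAL EQUATIONS from places and coordinate functions, and the
ratio lemma (g1) in the Place vocabulary of helper3's dictionary (`S34/H3_PlaceChart`).

This is the construction inside helper56's `H56.local_datum_of_places` WITHOUT the `Stable`
filter (a Frobenius lift fixes no horizontal point, so every zero/pole of `f` in the residue
tube of `n` needs a coordinate function; the 'never served' points are avoided by moving the
divisor).

* `exists_localEq_of_places` : `w_n = ∏ ω_j ^ k_j` with `f / w_n ^ m` a unit at every horizontal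
  height-one prime `≤ n`; `w_n` is a unit at every prime of a prescribed set `𝒱` at which all
  the coordinate functions are units (smooth point: the vertical prime through `n`).
* `exists_ratio_of_places_fixed` : `n.comap sB = n` (node): `s f / f = η g ^ m`.
* `exists_ratio_of_places_smooth` : coordinates at `n` and at `n.comap sB` which are units at the
  vertical primes: `s f / f = η g ^ m`.
In both, `η ∈ (B_n)ˣ` ("in the field": `a / b`, `a, b ∉ n`) and `g` is a unit at the vertical
height-one primes `≤ n`.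
-/
import Mathlib
import Fermat.Agent.S34.H56_LocalDatumPlaces
import Fermat.Agent.S35.H8_RatioLemma

set_option autoImplicit false
set_option linter.unusedSectionVars false
set_option linter.style.haveILetI false

namespace Fermat.Agent.S35.H8

open Polynomial Fermat.Agent.S34.H3 Fermat.Agent.S34.H56 Fermat.Agent.CA.H42 AlgebraicCurve

variable {R k B F : Type*} [CommRing R] [IsDomain R] [Field k] [Algebra R k]
  [CommRing B] [IsDomain B] [Field F] [Algebra B F] [IsFractionRing B F]
  [Algebra R B] [Algebra k F] [Algebra R F] [IsScalarTower R B F] [IsScalarTower R k F]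
  [IsNoetherianRing B] [IsIntegrallyClosed B]

/-- **LOCAL EQUATION at `n`** of the divisor `(1/m) div f` from coordinate functions. -/
theorem exists_localEq_of_places (π : R) (hπ : π ≠ 0) [IsLocalization.Away π k] (J : B)
    (hint : ∀ b : B, (aeval (R := R) J : R[X] →ₐ[R] B).toRingHom.IsIntegralElem b)
    (n : Ideal B)
    (f : F) (hf0 : f ≠ 0) (m : ℕ)
    (hdiv : ∀ w : Place k F, (m : ℤ) ∣ w.ord f)
    (hfin : {w : Place k F | w.ord f ≠ 0}.Finite)
    (𝒱 : Set (Ideal B)) (h𝒱 : ∀ P ∈ 𝒱, P.IsPrime)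
    (hcoord : ∀ w : Place k F, w.ord f ≠ 0 →
      ∀ hB : (∀ b : B, algebraMap B F b ∈ w.toValuationSubring),
        centre w.toValuationSubring hB ≤ n →
        ∃ ω : F, ω ≠ 0 ∧ w.ord ω = 1 ∧
          (∀ p : Ideal B, p.IsPrime → p.height = 1 → p ≤ n → algebraMap R B π ∉ p →
            p ≠ centre w.toValuationSubring hB → IsUnitAt p ω) ∧
          ∀ P ∈ 𝒱, IsUnitAt P ω) :
    ∃ w : F, w ≠ 0 ∧
      (∀ p : Ideal B, p.IsPrime → p.height = 1 → p ≤ n → algebraMap R B π ∉ p →
        IsUnitAt p (f / w ^ m)) ∧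
      ∀ P ∈ 𝒱, IsUnitAt P w := by
  classical
  -- the relevant places
  let Rel : Place k F → Prop := fun w =>
    ∃ hB : (∀ b : B, algebraMap B F b ∈ w.toValuationSubring),
      centre w.toValuationSubring hB ≤ n
  let S : Finset (Place k F) := hfin.toFinset.filter Rel
  have hS : ∀ w, w ∈ S ↔ w.ord f ≠ 0 ∧ Rel w := fun w => by
    simp only [S, Finset.mem_filter, Set.Finite.mem_toFinset, Set.mem_ofPred_eq]
  let q : Place k F → Ideal B := fun w =>
    if hB : (∀ b : B, algebraMap B F b ∈ w.toValuationSubring) then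
      centre w.toValuationSubring hB else ⊥
  have hq : ∀ w (hB : ∀ b : B, algebraMap B F b ∈ w.toValuationSubring),
      q w = centre w.toValuationSubring hB := fun w hB => dif_pos hB
  -- choice of the coordinate functions
  have hcoord' : ∀ w : Place k F, ∃ ω : F, w ∈ S → ω ≠ 0 ∧ w.ord ω = 1 ∧
      (∀ p : Ideal B, p.IsPrime → p.height = 1 → p ≤ n → algebraMap R B π ∉ p →
        p ≠ q w → IsUnitAt p ω) ∧ ∀ P ∈ 𝒱, IsUnitAt P ω := by
    intro w
    by_cases hw : w ∈ S
    · obtain ⟨hord, hB, hcn⟩ := (hS w).mp hw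
      obtain ⟨ω, h0, h1, h2, h3⟩ := hcoord w hord hB hcn
      exact ⟨ω, fun _ => ⟨h0, h1, by rw [hq w hB]; exact h2, h3⟩⟩
    · exact ⟨1, fun h => absurd h hw⟩
  choose ω hω using hcoord'
  let kk : Place k F → ℤ := fun w => w.ord f / m
  refine ⟨∏ j ∈ S, ω j ^ kk j, ?_, ?_, ?_⟩
  · exact Finset.prod_ne_zero_iff.mpr fun j hj => zpow_ne_zero _ (hω j hj).1
  · intro p hp h1 hpn hπp
    haveI := hp
    refine isUnitAt_div_localEq S q ?_ ω kk f m p
      (fun w hw hne => (hω w hw).2.2.1 p hp h1 hpn hπp hne) ?_ ?_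
    · -- injectivity of the centre
      intro w hw w' hw' hqq
      obtain ⟨-, hB, -⟩ := (hS w).mp hw
      obtain ⟨-, hB', -⟩ := (hS w').mp hw'
      rw [hq w hB, hq w' hB'] at hqq
      apply Place.ext
      ext x
      rw [mem_place_iff_memAt_centre π hπ J hint w hB,
        mem_place_iff_memAt_centre π hπ J hint w' hB', hqq]
    · -- orders at the points of `S`
      intro w hw hpw
      obtain ⟨-, hB, -⟩ := (hS w).mp hw
      haveI := centre_isPrime w.toValuationSubring hB
      obtain ⟨h1c, hv⟩ := eq_placeOfHorizontalPrime_centre π hπ J hint w hB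
      have hwV : w.toValuationSubring =
          valuationSubringAt (K := F) (centre w.toValuationSubring hB) h1c :=
        congrArg Place.toValuationSubring hv
      have hk : w.ord f = m * kk w := (Int.mul_ediv_cancel' (hdiv w)).symm
      have := isUnitAt_div_pow_of_ord w (centre w.toValuationSubring hB) h1c hwV (hω w hw).1 hf0
        (hω w hw).2.1 (kk w) m hk
      rw [hpw, hq w hB]
      exact this
    · -- the other horizontal primes
      intro hne
      by_contra hcon
      have hord : (placeOfHorizontalPrime (k := k) π p h1 hπp).ord f ≠ 0 := fun h0 =>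
        hcon ((ord_placeOfHorizontalPrime_eq_zero_iff π p h1 hπp hf0).mp h0)
      have hB : ∀ b : B, algebraMap B F b ∈
          (placeOfHorizontalPrime (k := k) π p h1 hπp).toValuationSubring :=
        fun b => algebraMap_mem_valuationSubringAt h1 b
      have hc : centre (placeOfHorizontalPrime (k := k) π p h1 hπp).toValuationSubring hB = p :=
        centre_placeOfPrime p h1 _
      have hmem : placeOfHorizontalPrime (k := k) π p h1 hπp ∈ S := by
        rw [hS]
        exact ⟨hord, hB, by rw [hc]; exact hpn⟩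
      exact hne _ hmem (by rw [hq _ hB, hc])
  · intro P hP
    haveI := h𝒱 P hP
    exact IsUnitAt.prod S _ fun j hj => ((hω j hj).2.2.2 P hP).zpow _

/-- **RATIO LEMMA (g1), Place vocabulary, fixed point** (`n.comap sB = n`, e.g. a node). -/
theorem exists_ratio_of_places_fixed (π : R) (hπ : π ≠ 0) [IsLocalization.Away π k] (J : B)
    (hint : ∀ b : B, (aeval (R := R) J : R[X] →ₐ[R] B).toRingHom.IsIntegralElem b)
    (n : Ideal B) [hn : n.IsPrime]
    (sB : B ≃+* B) (s : F ≃+* F)
    (hs : ∀ b, s (algebraMap B F b) = algebraMap B F (sB b))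
    (hsπ : Associated (sB (algebraMap R B π)) (algebraMap R B π))
    (hstab : ∀ P : Ideal B, P.IsPrime → P.height = 1 → P ≤ n → algebraMap R B π ∈ P →
      Stable sB P)
    (hfix : n.comap (sB : B →+* B) = n)
    (f : F) (hf0 : f ≠ 0) (m : ℕ)
    (hdiv : ∀ w : Place k F, (m : ℤ) ∣ w.ord f)
    (hfin : {w : Place k F | w.ord f ≠ 0}.Finite)
    (hcoord : ∀ w : Place k F, w.ord f ≠ 0 →
      ∀ hB : (∀ b : B, algebraMap B F b ∈ w.toValuationSubring),
        centre w.toValuationSubring hB ≤ n →
        ∃ ω : F, ω ≠ 0 ∧ w.ord ω = 1 ∧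
          ∀ p : Ideal B, p.IsPrime → p.height = 1 → p ≤ n → algebraMap R B π ∉ p →
            p ≠ centre w.toValuationSubring hB → IsUnitAt p ω) :
    ∃ g : F, g ≠ 0 ∧
      (∃ a b : B, a ∉ n ∧ b ∉ n ∧ s f / f * algebraMap B F b = g ^ m * algebraMap B F a) ∧
      ∀ P : Ideal B, P.IsPrime → P.height = 1 → P ≤ n → algebraMap R B π ∈ P →
        IsUnitAt P g := by
  obtain ⟨w, hw0, hhor, -⟩ := exists_localEq_of_places π hπ J hint n f hf0 m hdiv hfin ∅
    (fun P hP => absurd hP (Set.notMem_empty P))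
    (fun w hord hB hcn => by
      obtain ⟨ω, h0, h1, h2⟩ := hcoord w hord hB hcn
      exact ⟨ω, h0, h1, h2, fun P hP => absurd hP (Set.notMem_empty P)⟩)
  have hvert : ∀ P : Ideal B, P.IsPrime → P.height = 1 → P ≤ n → algebraMap R B π ∈ P →
      IsUnitAt P (w / w) := fun P hP _ _ _ => by
    haveI := hP
    rw [div_self hw0]; exact IsUnitAt.one P
  obtain ⟨h1, h2⟩ := ratio_chart n (algebraMap R B π) sB s hs hsπ hstab f w w hf0 hw0 hw0 m hhor
    (by rw [hfix]; exact hhor) hvert
  exact ⟨s w / w, div_ne_zero ((map_ne_zero s).mpr hw0) hw0, h1, h2⟩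

/-- **RATIO LEMMA (g1), Place vocabulary, smooth points**: the coordinate functions at `n` and at
`n' = n.comap sB` are units at the vertical height-one primes through `n`, resp. `n'`. -/
theorem exists_ratio_of_places_smooth (π : R) (hπ : π ≠ 0) [IsLocalization.Away π k] (J : B)
    (hint : ∀ b : B, (aeval (R := R) J : R[X] →ₐ[R] B).toRingHom.IsIntegralElem b)
    (n : Ideal B) [hn : n.IsPrime]
    (sB : B ≃+* B) (s : F ≃+* F)
    (hs : ∀ b, s (algebraMap B F b) = algebraMap B F (sB b))
    (hsπ : Associated (sB (algebraMap R B π)) (algebraMap R B π))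
    (hstab : ∀ P : Ideal B, P.IsPrime → P.height = 1 → P ≤ n → algebraMap R B π ∈ P →
      Stable sB P)
    (f : F) (hf0 : f ≠ 0) (m : ℕ)
    (hdiv : ∀ w : Place k F, (m : ℤ) ∣ w.ord f)
    (hfin : {w : Place k F | w.ord f ≠ 0}.Finite)
    (hcoord : ∀ n₁ : Ideal B, n₁ = n ∨ n₁ = n.comap (sB : B →+* B) →
      ∀ w : Place k F, w.ord f ≠ 0 →
      ∀ hB : (∀ b : B, algebraMap B F b ∈ w.toValuationSubring),
        centre w.toValuationSubring hB ≤ n₁ →
        ∃ ω : F, ω ≠ 0 ∧ w.ord ω = 1 ∧
          (∀ p : Ideal B, p.IsPrime → p.height = 1 → p ≤ n₁ → algebraMap R B π ∉ p →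
            p ≠ centre w.toValuationSubring hB → IsUnitAt p ω) ∧
          ∀ P : Ideal B, P.IsPrime → P.height = 1 → P ≤ n₁ → algebraMap R B π ∈ P →
            IsUnitAt P ω) :
    ∃ g : F, g ≠ 0 ∧
      (∃ a b : B, a ∉ n ∧ b ∉ n ∧ s f / f * algebraMap B F b = g ^ m * algebraMap B F a) ∧
      ∀ P : Ideal B, P.IsPrime → P.height = 1 → P ≤ n → algebraMap R B π ∈ P →
        IsUnitAt P g := by
  let 𝒱 : Ideal B → Set (Ideal B) := fun n₁ =>
    {P | P.IsPrime ∧ P.height = 1 ∧ P ≤ n₁ ∧ algebraMap R B π ∈ P}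
  have key : ∀ n₁ : Ideal B, n₁ = n ∨ n₁ = n.comap (sB : B →+* B) →
      ∃ w : F, w ≠ 0 ∧
        (∀ p : Ideal B, p.IsPrime → p.height = 1 → p ≤ n₁ → algebraMap R B π ∉ p →
          IsUnitAt p (f / w ^ m)) ∧
        ∀ P ∈ 𝒱 n₁, IsUnitAt P w := by
    intro n₁ hn₁
    refine exists_localEq_of_places π hπ J hint n₁ f hf0 m hdiv hfin (𝒱 n₁) (fun P hP => hP.1)
      (fun w hord hB hcn => ?_)
    obtain ⟨ω, h0, h1, h2, h3⟩ := hcoord n₁ hn₁ w hord hB hcn
    exact ⟨ω, h0, h1, h2, fun P hP => h3 P hP.1 hP.2.1 hP.2.2.1 hP.2.2.2⟩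
  obtain ⟨w, hw0, hhor, hwV⟩ := key n (Or.inl rfl)
  obtain ⟨w', hw'0, hhor', hw'V⟩ := key _ (Or.inr rfl)
  have hvert : ∀ P : Ideal B, P.IsPrime → P.height = 1 → P ≤ n → algebraMap R B π ∈ P →
      IsUnitAt P (w' / w) := fun P hP h1 hPn hπP => by
    haveI := hP
    have hPn' : P ≤ n.comap (sB : B →+* B) :=
      le_comap_of_stable sB (hstab P hP h1 hPn hπP) hPn
    exact (hw'V P ⟨hP, h1, hPn', hπP⟩).div (hwV P ⟨hP, h1, hPn, hπP⟩)
  obtain ⟨h1, h2⟩ := ratio_chart n (algebraMap R B π) sB s hs hsπ hstab f w w' hf0 hw0 hw'0 m hhor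
    hhor' hvert
  exact ⟨s w' / w, div_ne_zero ((map_ne_zero s).mpr hw'0) hw0, h1, h2⟩

/-- **Smooth points: the coordinate function is a unit at the vertical prime.**
`O = B_n`, `𝔪_O = (x, ϖ)`, `P < n` a prime with `ϖ, β ∈ P O`.  Then `x - β` is a unit at `P`.
(With `ϖ = π`, `β = x(P₀)` for a point `P₀` of the residue tube of `n`: the coordinate function
`ω = x - β` of `H56.exists_coord_of_served` in the smooth case `y = 0`.) -/
theorem isUnitAt_sub_of_smooth (n : Ideal B) [hn : n.IsPrime] (O : Type*) [CommRing O]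
    [Algebra B O] [IsLocalization.AtPrime O n] [Algebra O F] [IsScalarTower B O F]
    [IsLocalRing O]
    (P : Ideal B) [hP : P.IsPrime] (hPn : P ≤ n) (hne : P ≠ n) (x ϖ β : O)
    (hϖ : ϖ ∈ P.map (algebraMap B O)) (hβ : β ∈ P.map (algebraMap B O))
    (hmax : IsLocalRing.maximalIdeal O ≤ Ideal.span {x, ϖ}) :
    IsUnitAt P (algebraMap O F (x - β)) := by
  obtain ⟨⟨a, e⟩, hae⟩ := IsLocalization.surj n.primeCompl (x - β)
  have heP : (e : B) ∉ P := fun h => e.2 (hPn h)
  refine ⟨a, e, ?_, heP, ?_⟩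
  · intro haP
    -- then `x ∈ P O`, so `𝔪_O ≤ P O` and `n ≤ P`
    have hdisj : Disjoint (n.primeCompl : Set B) (P : Set B) := by
      rw [Set.disjoint_left]
      intro b hb hbP
      exact hb (hPn hbP)
    have h1 : (x - β) * algebraMap B O e ∈ P.map (algebraMap B O) := by
      have : (x - β) * algebraMap B O e = algebraMap B O a := hae
      rw [this]; exact Ideal.mem_map_of_mem _ haP
    have hu : IsUnit (algebraMap B O (e : B)) := IsLocalization.map_units O e
    have h2 : x - β ∈ P.map (algebraMap B O) := by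
      obtain ⟨v, hv⟩ := hu
      have : x - β = (x - β) * algebraMap B O e * ((v⁻¹ : Oˣ) : O) := by
        rw [mul_assoc, ← hv, Units.mul_inv, mul_one]
      rw [this]; exact Ideal.mul_mem_right _ _ h1
    have h3 : x ∈ P.map (algebraMap B O) := by
      have : x = (x - β) + β := by ring
      rw [this]; exact Ideal.add_mem _ h2 hβ
    have h4 : IsLocalRing.maximalIdeal O ≤ P.map (algebraMap B O) := by
      refine hmax.trans (Ideal.span_le.mpr ?_)
      intro z hz
      rcases hz with rfl | hz
      · exact h3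
      · rw [Set.mem_singleton_iff] at hz
        rw [hz]; exact hϖ
    have h5 : n ≤ P := by
      have h6 := Ideal.comap_mono (f := algebraMap B O) h4
      rw [show Ideal.comap (algebraMap B O) (IsLocalRing.maximalIdeal O) = n from
          IsLocalization.AtPrime.under_maximalIdeal O n,
        show Ideal.comap (algebraMap B O) (P.map (algebraMap B O)) = P from
          IsLocalization.comap_map_of_isPrime_disjoint n.primeCompl O hP hdisj] at h6
      exact h6
    exact hne (le_antisymm hPn h5)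
  · have := congrArg (algebraMap O F) hae
    rwa [map_mul, ← IsScalarTower.algebraMap_apply, ← IsScalarTower.algebraMap_apply] at this

end Fermat.Agent.S35.H8
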