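/-
helper8 — S35 row G2 (c), abstract part: the NEVER SERVED points of a node.

For ONE fixed Morse tower `(xs, ys)` at a node of the `A₁`-chart (helper47's
`CA.H47_ServedOrStable`), a point `P : O →ₐ[A₁] A'` is *never served* if `q ^ (N+1)` divides both
`P (xs N)` and `P (ys N)` for every `N`.  In S34 these points are inertia-stable and are dropped;
for a Frobenius lift they are avoided by moving the divisor, and for that one needs:

* `eq_of_neverServed` : there is AT MOST ONE never served point (values in a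
  noetherian local ring `A'` with `q ∈ 𝔪_{A'}`).

Mathlib + `CA.H47_ServedOrStable` only.
-/
import Mathlib
import Fermat.Agent.CA.H47_ServedOrStable

set_option autoImplicit false

namespace Fermat.Agent.S35.H8

open IsLocalRing Fermat.Agent.CA.H47

variable {A₁ O A' : Type*} [CommRing A₁] [CommRing O] [Algebra A₁ O] [CommRing A']
  [Algebra A₁ A']

/-- `P` is never served by the tower `(xs, ys)`. -/
def NeverServed (q : A₁) (xs ys : ℕ → O) (P : O →ₐ[A₁] A') : Prop :=
  ∀ N, ¬ Served q xs ys P N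

theorem NeverServed.dvd {q : A₁} {xs ys : ℕ → O} {P : O →ₐ[A₁] A'}
    (h : NeverServed q xs ys P) (N : ℕ) :
    algebraMap A₁ A' q ^ (N + 1) ∣ P (xs N) ∧ algebraMap A₁ A' q ^ (N + 1) ∣ P (ys N) := by
  by_contra hcon
  exact h N (not_and_or.mp hcon)

theorem neverServed_or_served (q : A₁) (xs ys : ℕ → O) (P : O →ₐ[A₁] A') :
    NeverServed q xs ys P ∨ ∃ N, Served q xs ys P N := by
  by_cases h : ∃ N, Served q xs ys P N
  · exact Or.inr h
  · exact Or.inl fun N hN => h ⟨N, hN⟩

/-- Two never served points agree modulo every power of `q`. -/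
theorem dvd_sub_of_neverServed {q : A₁} {x y : O} {xs ys Gs : ℕ → O} {cs : ℕ → A₁}
    (hT : IsMorseTower q x y xs ys Gs cs) (hgen : GenBy q ![x, y]) (P Q : O →ₐ[A₁] A')
    (hP : NeverServed q xs ys P) (hQ : NeverServed q xs ys Q) (N : ℕ) (b : O) :
    algebraMap A₁ A' q ^ (N + 1) ∣ P b - Q b := by
  have hM := (hT N).1
  obtain ⟨hPx, hPy⟩ := hP.dvd N
  obtain ⟨hQx, hQy⟩ := hQ.dvd N
  obtain ⟨a, c', d, hb⟩ := (hM.genBy hgen).pow (N + 1) b
  rw [Fin.sum_univ_two] at hb
  simp only [Matrix.cons_val_zero, Matrix.cons_val_one] at hb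
  have : P b - Q b = algebraMap A₁ A' q ^ (N + 1) * (P c' - Q c')
      + (P (xs N) * P (d 0) - Q (xs N) * Q (d 0))
      + (P (ys N) * P (d 1) - Q (ys N) * Q (d 1)) := by
    rw [hb]; simp only [map_add, map_mul, map_pow, AlgHom.commutes]; ring
  rw [this]
  exact dvd_add (dvd_add (Dvd.intro _ rfl)
    (dvd_sub (Dvd.dvd.mul_right hPx _) (Dvd.dvd.mul_right hQx _)))
    (dvd_sub (Dvd.dvd.mul_right hPy _) (Dvd.dvd.mul_right hQy _))

/-- **At most one never served point per node and tower.** -/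
theorem eq_of_neverServed [IsLocalRing A'] [IsNoetherianRing A']
    {q : A₁} {x y : O} {xs ys Gs : ℕ → O} {cs : ℕ → A₁}
    (hT : IsMorseTower q x y xs ys Gs cs) (hgen : GenBy q ![x, y])
    (hq : algebraMap A₁ A' q ∈ maximalIdeal A') (P Q : O →ₐ[A₁] A')
    (hP : NeverServed q xs ys P) (hQ : NeverServed q xs ys Q) : P = Q := by
  refine AlgHom.ext fun b => ?_
  have hmem : ∀ N : ℕ, P b - Q b ∈ maximalIdeal A' ^ (N + 1) := by
    intro N
    obtain ⟨t, ht⟩ := dvd_sub_of_neverServed hT hgen P Q hP hQ N b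
    rw [ht]
    exact Ideal.mul_mem_right _ _ (Ideal.pow_mem_pow hq _)
  have hbot : (⨅ i, maximalIdeal A' ^ i) = ⊥ :=
    Ideal.iInf_pow_eq_bot_of_isLocalRing _ (IsLocalRing.maximalIdeal.isMaximal A').ne_top
  have : P b - Q b ∈ (⨅ i, maximalIdeal A' ^ i) := by
    rw [Ideal.mem_iInf]
    intro i
    cases i with
    | zero => simp
    | succ i => exact hmem i
  rw [hbot, Ideal.mem_bot, sub_eq_zero] at this
  exact this

/-- Never-servedness is insensitive to an injective extension `A' → A''` of the value ring in which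
divisibility by powers of `q` can be tested (e.g. `cutOver A E ⊆ cutOver A E'`). -/
theorem neverServed_comp_iff {A'' : Type*} [CommRing A''] [Algebra A₁ A''] (j : A' →ₐ[A₁] A'')
    {q' : A₁} (hj : ∀ (N : ℕ) (z : A'), algebraMap A₁ A'' q' ^ (N + 1) ∣ j z →
      algebraMap A₁ A' q' ^ (N + 1) ∣ z)
    (xs ys : ℕ → O) (P : O →ₐ[A₁] A') :
    NeverServed q' xs ys (j.comp P) ↔ NeverServed q' xs ys P := by
  have key : ∀ (N : ℕ) (z : A'), algebraMap A₁ A'' q' ^ (N + 1) ∣ j z ↔
      algebraMap A₁ A' q' ^ (N + 1) ∣ z := by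
    intro N z
    refine ⟨hj N z, fun ⟨t, ht⟩ => ⟨j t, ?_⟩⟩
    rw [ht, map_mul, map_pow, AlgHom.commutes]
  unfold NeverServed Served
  simp only [AlgHom.comp_apply, key]

end Fermat.Agent.S35.H8
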