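/-
helper8 — S35 row G2 (c), instance-near part: the provider of `hcoord` for the ratio lemma (g1)
from the L1 output, for an automorphism which is NOT trivial mod `π` (a Frobenius lift).

Same setting and notation as helper56's `S34/H56_CoordGlue` (`A₁`, `R = A''`, `B₁`, `B = B₁[R]`,
`n`, `n₁ = n ∩ B₁`, `O₁ = (B₁)_{n₁}`, `O = B_n`).  Differences with S34:
* no automorphism enters: the alternative to "has a coordinate function" is "never served by the
  FIXED Morse tower" (instead of "inertia-stable");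
* at a smooth point the coordinate function is ALSO a unit at the vertical primes through `n`
  (needed by `H8.exists_ratio_of_places_smooth`);
* `place_eq_of_neverServed` : at most one place of degree one in the residue tube of a node is
  never served (so the set `Esc` to be avoided by the moving lemma is finite).
-/
import Mathlib
import Fermat.Agent.S34.H56_CoordGlue
import Fermat.Agent.S35.H8_NeverServed
import Fermat.Agent.S35.H8_LocalEqPlaces

set_option autoImplicit false
set_option linter.unusedSectionVars false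
set_option linter.style.haveILetI false

namespace Fermat.Agent.S35.H8

open Polynomial IsLocalRing Fermat.Agent.S34.H3 Fermat.Agent.S34.H56 Fermat.Agent.CA.H42
  AlgebraicCurve
open Fermat.Agent.CA

variable {A₁ : Type*} [CommRing A₁]
variable {R k B F : Type*} [CommRing R] [IsDomain R] [Field k] [Algebra R k]
  [CommRing B] [IsDomain B] [Field F] [Algebra B F] [IsFractionRing B F]
  [Algebra R B] [Algebra k F] [Algebra R F] [IsScalarTower R B F] [IsScalarTower R k F]
  [IsNoetherianRing B] [IsIntegrallyClosed B]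
variable [Algebra A₁ R]
variable {B₁ : Type*} [CommRing B₁] [Algebra A₁ B₁] [Algebra B₁ B]
variable (n₁ : Ideal B₁) [hn₁p : n₁.IsPrime] (O₁ : Type*) [CommRing O₁] [Algebra B₁ O₁]
  [IsLocalization.AtPrime O₁ n₁] [Algebra A₁ O₁] [IsScalarTower A₁ B₁ O₁] [IsLocalRing O₁]
variable (n : Ideal B) [hn : n.IsMaximal] (O : Type*) [CommRing O] [Algebra B O]
  [IsLocalization.AtPrime O n] [Algebra R O] [IsScalarTower R B O]
  [Algebra O F] [IsScalarTower B O F] [IsNoetherianRing O] [IsLocalRing O]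

section Point

/-- The extended point maps `𝔪_O` into `(π)`. -/
theorem dvd_pointExt_of_mem (π : R) (hπu : ¬ IsUnit π) (hRloc : ∀ r : R, ¬ π ∣ r → IsUnit r)
    (ev : B →ₐ[R] R) (hevn : ∀ b ∈ n, π ∣ ev b) (hu : ∀ b, b ∉ n → IsUnit (ev b))
    (z : O) (hz : z ∈ maximalIdeal O) : π ∣ pointExt n O ev hu z := by
  by_contra hnd
  have hzu : IsUnit (pointExt n O ev hu z) := hRloc _ hnd
  obtain ⟨⟨a, s⟩, has⟩ := IsLocalization.surj n.primeCompl z
  have h2 : pointExt n O ev hu z * ev s = ev a := by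
    have := congrArg (pointExt n O ev hu) has
    rwa [map_mul, pointExt_algebraMap, pointExt_algebraMap] at this
  have han : a ∉ n := by
    intro han
    have h3 : π ∣ ev a := hevn a han
    rw [← h2] at h3
    have h4 : IsUnit (pointExt n O ev hu z * ev s) := hzu.mul (hu s s.2)
    exact hπu (isUnit_of_dvd_unit h3 h4)
  have hau : IsUnit (algebraMap B O a) :=
    IsLocalization.map_units O (⟨a, han⟩ : n.primeCompl)
  rw [← has] at hau
  exact (mem_maximalIdeal z).mp hz (isUnit_of_mul_isUnit_left hau)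

include n₁ in
/-- A local `A₁`-point of `O₁` is determined by its restriction to `B₁`. -/
theorem algHom_ext_of_algebraMap {A' : Type*} [CommRing A'] [Algebra A₁ A']
    (P Q : O₁ →ₐ[A₁] A') (h : ∀ b : B₁, P (algebraMap B₁ O₁ b) = Q (algebraMap B₁ O₁ b)) :
    P = Q := by
  have : (P : O₁ →+* A') = (Q : O₁ →+* A') :=
    IsLocalization.ringHom_ext n₁.primeCompl (RingHom.ext h)
  exact AlgHom.ext fun z => RingHom.congr_fun this z

end Point

section Smooth

include O in
/-- **Smooth point, with the vertical clause** (auxiliary model `O` of `B_n`). -/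
theorem exists_coord_of_smooth_vert_aux (π : R) (hπ : π ≠ 0) (hπu : ¬ IsUnit π)
    (hRloc : ∀ r : R, ¬ π ∣ r → IsUnit r) (hdvr : ∀ r : R, r ≠ 0 → ∃ e : ℕ, r ∣ π ^ e)
    [IsLocalization.Away π k] (J : B)
    (hint : ∀ b : B, (aeval (R := R) J : R[X] →ₐ[R] B).toRingHom.IsIntegralElem b)
    (q : A₁) (hπq : π ∣ algebraMap A₁ R q)
    (hπn : algebraMap R B π ∈ n)
    (hcomp : ∀ a : A₁, algebraMap B₁ B (algebraMap A₁ B₁ a) = algebraMap R B (algebraMap A₁ R a))
    (hn₁ : n.comap (algebraMap B₁ B) = n₁)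
    (hnn : n ≤ Ideal.map (algebraMap B₁ B) n₁ ⊔ Ideal.span {algebraMap R B π})
    (τ : O₁) (hτm : τ ∈ maximalIdeal O₁)
    (hmax₁ : maximalIdeal O₁ ≤ Ideal.span {algebraMap A₁ O₁ q, τ})
    (w : Place k F) (hB : ∀ b : B, algebraMap B F b ∈ w.toValuationSubring)
    (hcn : centre w.toValuationSubring hB ≤ n)
    (ev : B →ₐ[R] R) (hev0 : ∀ b, ev b = 0 ↔ b ∈ centre w.toValuationSubring hB)
    (hevn : ∀ b ∈ n, π ∣ ev b) :
    ∃ ω : F, ω ≠ 0 ∧ w.ord ω = 1 ∧
      (∀ p : Ideal B, p.IsPrime → p.height = 1 → p ≤ n → algebraMap R B π ∉ p →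
        p ≠ centre w.toValuationSubring hB → IsUnitAt p ω) ∧
      ∀ P : Ideal B, P.IsPrime → P.height = 1 → P ≤ n → algebraMap R B π ∈ P →
        IsUnitAt P ω := by
  set φ := locMap n₁ O₁ n O hn₁ with hφ
  set hu := isUnit_ev_of_notMem π hπu hRloc n ev hevn with hhu
  have hπO : algebraMap R O π ∈ maximalIdeal O := by
    rw [IsScalarTower.algebraMap_apply R B O, IsLocalization.AtPrime.to_map_mem_maximal_iff O n]
    exact hπn
  have hφq : φ (algebraMap A₁ O₁ q) = algebraMap R O (algebraMap A₁ R q) :=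
    locMap_algebraMap_base n₁ O₁ n O hn₁ hcomp q
  have hmapm := map_locMap_maximalIdeal_le n₁ O₁ n O hn₁
  have hτm' : φ τ ∈ maximalIdeal O := hmapm (Ideal.mem_map_of_mem _ hτm)
  have hmax0 : maximalIdeal O ≤ Ideal.span {φ τ, algebraMap R O π} := by
    refine (maximalIdeal_le_map_locMap_sup n₁ O₁ n O hn₁ π hnn).trans ?_
    refine sup_le ?_ ?_
    · refine (Ideal.map_mono hmax₁).trans ?_
      rw [Ideal.map_span, Ideal.span_le]
      rintro _ ⟨z, hz, rfl⟩
      simp only [Set.mem_insert_iff, Set.mem_singleton_iff] at hz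
      rcases hz with rfl | rfl
      · rw [hφq]
        obtain ⟨d, hd⟩ := hπq
        rw [hd, map_mul]
        exact Ideal.mul_mem_right _ _ (Ideal.subset_span (Or.inr rfl))
      · exact Ideal.subset_span (Or.inl rfl)
    · rw [Ideal.span_le]
      rintro _ rfl
      exact Ideal.subset_span (Or.inr rfl)
  -- the coordinate: `t := φ τ` or `φ τ + π`
  obtain ⟨t, htm, hmax2, hβe⟩ : ∃ t : O, t ∈ maximalIdeal O ∧
      maximalIdeal O ≤ Ideal.span {t, algebraMap R O π} ∧
      ∃ e : ℕ, pointExt n O ev hu t ∣ π ^ e := by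
    by_cases h0 : pointExt n O ev hu (φ τ) = 0
    · refine ⟨φ τ + algebraMap R O π, Ideal.add_mem _ hτm' hπO, hmax0.trans ?_, 1, ?_⟩
      · rw [Ideal.span_le]
        intro z hz
        simp only [Set.mem_insert_iff, Set.mem_singleton_iff] at hz
        have hπ' : algebraMap R O π ∈
            Ideal.span {φ τ + algebraMap R O π, algebraMap R O π} :=
          Ideal.subset_span (Or.inr rfl)
        rcases hz with rfl | rfl
        · have h2 := Ideal.sub_mem _
            (Ideal.subset_span (show φ τ + algebraMap R O π ∈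
              ({φ τ + algebraMap R O π, algebraMap R O π} : Set O) from Or.inl rfl)) hπ'
          rwa [add_sub_cancel_right] at h2
        · exact hπ'
      · rw [map_add, h0, zero_add, AlgHom.commutes, pow_one]
        exact dvd_refl _
    · exact ⟨φ τ, hτm', hmax0, hdvr _ h0⟩
  have hmax : maximalIdeal O ≤ Ideal.span {t, 0, algebraMap R O π} := by
    refine hmax2.trans (Ideal.span_mono ?_)
    intro z hz
    simp only [Set.mem_insert_iff, Set.mem_singleton_iff] at hz ⊢
    tauto
  -- the explicit coordinate function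
  haveI hcp := centre_isPrime w.toValuationSubring hB
  obtain ⟨h1c, hv⟩ := eq_placeOfHorizontalPrime_centre π hπ J hint w hB
  have hwV : w.toValuationSubring =
      valuationSubringAt (K := F) (centre w.toValuationSubring hB) h1c :=
    congrArg Place.toValuationSubring hv
  have hker : RingHom.ker (ev : B →+* R) = centre w.toValuationSubring hB := by
    ext b
    rw [RingHom.mem_ker]
    exact hev0 b
  have hker1 : (RingHom.ker (ev : B →+* R)).height = 1 := by rw [hker]; exact h1c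
  have hPOm := dvd_pointExt_of_mem n O π hπu hRloc ev hevn hu
  have hx := hPOm t htm
  have hy : π ∣ pointExt n O ev hu (0 : O) := by rw [map_zero]; exact dvd_zero _
  have hxy : t * (0 : O) = algebraMap R O 0 + algebraMap R O (pointExt n O ev hu t * 0) * 0 := by
    simp
  set ω0 : O := t - algebraMap R O (pointExt n O ev hu t) with hω0
  have hω0ker : pointExt n O ev hu ω0 = 0 := by
    rw [hω0, map_sub, AlgHom.commutes]
    simp
  have hgen : ∀ b ∈ centre w.toValuationSubring hB, ∃ d : F,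
      MemAt (centre w.toValuationSubring hB) d ∧ algebraMap B F b = algebraMap O F ω0 * d := by
    intro b hb
    have hb0 : ev b = 0 := (hev0 b).mpr hb
    obtain ⟨d, hd, hde⟩ := exists_eq_mul_of_mem_ker (K := F) n O ev hu (by rw [hker]; exact hcn)
      t 0 0 0 0 π hxy (dvd_zero _) hπ hπO hmax hx hy hβe b hb0
    rw [hker] at hd
    exact ⟨d, hd, hde⟩
  have hnotunit : ¬ IsUnitAt (centre w.toValuationSubring hB) (algebraMap O F ω0) := by
    rintro ⟨a', b', ha', hb', hab'⟩
    obtain ⟨⟨a, s⟩, has⟩ := IsLocalization.surj n.primeCompl ω0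
    have hac : a ∈ centre w.toValuationSubring hB := by
      rw [← hev0]
      have := congrArg (pointExt n O ev hu) has
      rw [map_mul, hω0ker, zero_mul, pointExt_algebraMap] at this
      exact this.symm
    have hF : algebraMap O F ω0 * algebraMap B F s = algebraMap B F a := by
      have := congrArg (algebraMap O F) has
      rwa [map_mul, ← IsScalarTower.algebraMap_apply, ← IsScalarTower.algebraMap_apply] at this
    have h5 : algebraMap B F (a * b') = algebraMap B F (a' * s) := by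
      rw [map_mul, map_mul, ← hF, ← hab']; ring
    have h6 : a * b' = a' * s := (IsFractionRing.injective B F) h5
    have h7 : a' * s ∈ centre w.toValuationSubring hB := h6 ▸ Ideal.mul_mem_right _ _ hac
    rcases Ideal.IsPrime.mem_or_mem hcp h7 with h | h
    · exact ha' h
    · exact s.2 (hcn h)
  have hord : w.ord (algebraMap O F ω0) = 1 :=
    ord_eq_one_of_generates w (centre w.toValuationSubring hB) h1c hwV _
      (memAt_algebraMap_of_le n O _ hcn ω0) hnotunit hgen
  refine ⟨algebraMap O F ω0, ?_, hord, ?_, ?_⟩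
  · intro h0
    rw [h0, Place.ord_zero] at hord
    exact zero_ne_one hord
  · intro p hp h1 hpn hπp hne
    haveI := hp
    exact isUnitAt_coord_sub n O ev hu t 0 0 0 0 π hxy (dvd_zero _) hπ hπO hmax hx hy hβe p h1 hpn
      hπp hker1 (by rw [hker]; exact hne)
  · -- the vertical clause
    intro P hP h1P hPn hπP
    haveI := hP
    haveI hnp : n.IsPrime := hn.isPrime
    -- `P ≠ n` because the horizontal centre of `w` lies strictly below `n`
    have hne : P ≠ n := by
      intro hPn'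
      have hπc : algebraMap R B π ∉ centre w.toValuationSubring hB :=
        algebraMap_notMem_centre π hπ w hB
      have hlt : centre w.toValuationSubring hB < n :=
        lt_of_le_of_ne hcn fun h => hπc (h ▸ hπn)
      have := Ideal.height_add_one_le_of_lt_of_isPrime hlt
      rw [h1c, ← hPn', h1P] at this
      exact absurd this (by decide)
    have hϖ : algebraMap R O π ∈ P.map (algebraMap B O) := by
      rw [IsScalarTower.algebraMap_apply R B O]
      exact Ideal.mem_map_of_mem _ hπP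
    have hβ : algebraMap R O (pointExt n O ev hu t) ∈ P.map (algebraMap B O) := by
      obtain ⟨d, hd⟩ := hx
      rw [hd, map_mul]
      exact Ideal.mul_mem_right _ _ hϖ
    exact isUnitAt_sub_of_smooth n O P hPn hne t (algebraMap R O π)
      (algebraMap R O (pointExt n O ev hu t)) hϖ hβ hmax2

end Smooth

section Node

variable [IsLocalRing R] [IsNoetherianRing R]

include O in
/-- **Node: never served by the fixed tower, or a coordinate function** (auxiliary model `O` of
`B_n`).  No automorphism enters. -/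
theorem exists_coord_or_neverServed_of_node_aux (π : R) (hπ : π ≠ 0) (hπu : ¬ IsUnit π)
    (hRloc : ∀ r : R, ¬ π ∣ r → IsUnit r) (hdvr : ∀ r : R, r ≠ 0 → ∃ e : ℕ, r ∣ π ^ e)
    (htot : ∀ a b : R, a ∣ b ∨ b ∣ a)
    [IsLocalization.Away π k] (J : B)
    (hint : ∀ b : B, (aeval (R := R) J : R[X] →ₐ[R] B).toRingHom.IsIntegralElem b)
    (q : A₁) (hq0 : algebraMap A₁ R q ≠ 0) (hπq : π ∣ algebraMap A₁ R q)
    (hπn : algebraMap R B π ∈ n)
    (hcomp : ∀ a : A₁, algebraMap B₁ B (algebraMap A₁ B₁ a) = algebraMap R B (algebraMap A₁ R a))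
    (hn₁ : n.comap (algebraMap B₁ B) = n₁)
    (hnn : n ≤ Ideal.map (algebraMap B₁ B) n₁ ⊔ Ideal.span {algebraMap R B π})
    (x y : O₁) (xs ys Gs : ℕ → O₁) (cs : ℕ → A₁)
    (hT : H47.IsMorseTower q x y xs ys Gs cs)
    (hxm : x ∈ maximalIdeal O₁) (hym : y ∈ maximalIdeal O₁)
    (hmax₁ : maximalIdeal O₁ ≤ Ideal.span {algebraMap A₁ O₁ q, x, y})
    (w : Place k F) (hB : ∀ b : B, algebraMap B F b ∈ w.toValuationSubring)
    (hcn : centre w.toValuationSubring hB ≤ n)
    (ev : B →ₐ[R] R) (hev0 : ∀ b, ev b = 0 ↔ b ∈ centre w.toValuationSubring hB)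
    (hevn : ∀ b ∈ n, π ∣ ev b) :
    NeverServed q xs ys (pointExt₁ n₁ O₁ n O hn₁ hcomp ev
        (isUnit_ev_of_notMem π hπu hRloc n ev hevn)) ∨
    ∃ ω : F, ω ≠ 0 ∧ w.ord ω = 1 ∧
      ∀ p : Ideal B, p.IsPrime → p.height = 1 → p ≤ n → algebraMap R B π ∉ p →
        p ≠ centre w.toValuationSubring hB → IsUnitAt p ω := by
  have hu := isUnit_ev_of_notMem π hπu hRloc n ev hevn
  have hqO₁ : algebraMap A₁ O₁ q ∈ maximalIdeal O₁ := by
    rw [IsScalarTower.algebraMap_apply A₁ B₁ O₁,
      IsLocalization.AtPrime.to_map_mem_maximal_iff O₁ n₁, ← hn₁]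
    show algebraMap B₁ B (algebraMap A₁ B₁ q) ∈ n
    rw [hcomp]
    obtain ⟨d, hd⟩ := hπq
    rw [hd, map_mul]
    exact Ideal.mul_mem_right _ _ hπn
  -- the level data
  have hlev : ∀ N, xs N ∈ maximalIdeal O₁ ∧ ys N ∈ maximalIdeal O₁ ∧
      maximalIdeal O₁ ≤ Ideal.span {algebraMap A₁ O₁ q, xs N, ys N} := by
    intro N
    obtain ⟨⟨⟨u, hu'⟩, ⟨v, hv⟩, -⟩, -, -⟩ := hT N
    refine ⟨?_, ?_, hmax₁.trans ?_⟩
    · rw [hu']
      exact Ideal.add_mem _ hxm (Ideal.mul_mem_right _ _ hqO₁)
    · rw [hv]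
      exact Ideal.add_mem _ hym (Ideal.mul_mem_right _ _ hqO₁)
    · rw [Ideal.span_le]
      intro z hz
      simp only [Set.mem_insert_iff, Set.mem_singleton_iff] at hz
      have hq' : algebraMap A₁ O₁ q ∈
          Ideal.span {algebraMap A₁ O₁ q, xs N, ys N} := Ideal.subset_span (Or.inl rfl)
      rcases hz with rfl | rfl | rfl
      · exact hq'
      · have : z = xs N - algebraMap A₁ O₁ q * u := by rw [hu']; ring
        rw [this]
        exact Ideal.sub_mem _ (Ideal.subset_span (Or.inr (Or.inl rfl)))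
          (Ideal.mul_mem_right _ _ hq')
      · have : z = ys N - algebraMap A₁ O₁ q * v := by rw [hv]; ring
        rw [this]
        exact Ideal.sub_mem _ (Ideal.subset_span (Or.inr (Or.inr rfl)))
          (Ideal.mul_mem_right _ _ hq')
  rcases neverServed_or_served q xs ys (pointExt₁ n₁ O₁ n O hn₁ hcomp ev hu) with h | ⟨N, hN⟩
  · exact Or.inl h
  · right
    obtain ⟨hxN, hyN, hmaxN⟩ := hlev N
    obtain ⟨-, -, hmul⟩ := (hT N).1
    rcases hN with hN | hN
    · exact exists_coord_of_level n₁ O₁ n O π hπ hπu hRloc hdvr htot J hint q hq0 hπq hπn hcomp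
        hn₁ hnn w hB hcn ev hev0 hevn (xs N) (ys N) (Gs N) (cs N) N hmul hxN hyN hmaxN hN
    · refine exists_coord_of_level n₁ O₁ n O π hπ hπu hRloc hdvr htot J hint q hq0 hπq hπn hcomp
        hn₁ hnn w hB hcn ev hev0 hevn (ys N) (xs N) (Gs N) (cs N) N (by rw [mul_comm]; exact hmul)
        hyN hxN ?_ hN
      refine hmaxN.trans (le_of_eq ?_)
      congr 1
      ext z
      simp only [Set.mem_insert_iff, Set.mem_singleton_iff]
      tauto

end Node

section Final

variable [IsDiscreteValuationRing R] [IsFractionRing R k]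

/-- `w` is an **escape place** at the node `n` for the fixed tower `(xs, ys)` at `n₁ = n ∩ B₁`:
a place centred in the residue tube of `n` whose evaluation point is never served. -/
def IsEscapeAt (R : Type*) [CommRing R] [IsDomain R] [Algebra R k] [Algebra R B] [Algebra R F]
    [IsScalarTower R B F] [IsScalarTower R k F] [Algebra A₁ R]
    (B₁ : Type*) [CommRing B₁] [Algebra A₁ B₁] [Algebra B₁ B] (O₁ : Type*) [CommRing O₁]
    [Algebra B₁ O₁] [Algebra A₁ O₁] (n : Ideal B)
    (q : A₁) (xs ys : ℕ → O₁) (w : Place k F) : Prop :=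
  ∃ hB : (∀ b : B, algebraMap B F b ∈ w.toValuationSubring),
    centre w.toValuationSubring hB ≤ n ∧
    ∃ (ev : B →ₐ[R] R) (P₁ : O₁ →ₐ[A₁] R),
      (∀ b, ev b = 0 ↔ b ∈ centre w.toValuationSubring hB) ∧
      (∀ b : B₁, P₁ (algebraMap B₁ O₁ b) = ev (algebraMap B₁ B b)) ∧
      NeverServed q xs ys P₁

/-- **At most one escape place per node.** -/
theorem IsEscapeAt.eq (π : R) (hπ : Irreducible π) (J : B)
    (hint : ∀ b : B, (aeval (R := R) J : R[X] →ₐ[R] B).toRingHom.IsIntegralElem b)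
    (q : A₁) (hπq : π ∣ algebraMap A₁ R q)
    (hgenR : Algebra.adjoin B₁ (Set.range (algebraMap R B)) = ⊤)
    {x y : O₁} {xs ys Gs : ℕ → O₁} {cs : ℕ → A₁}
    (hT : H47.IsMorseTower q x y xs ys Gs cs) (hgen : H47.GenBy q ![x, y])
    {w w' : Place k F} (h : IsEscapeAt R B₁ O₁ n q xs ys w) (h' : IsEscapeAt R B₁ O₁ n q xs ys w') :
    w = w' := by
  haveI := isLocalization_away_of_dvr (k := k) hπ
  obtain ⟨hB, -, ev, P₁, hev0, hP₁, hN⟩ := h
  obtain ⟨hB', -, ev', P₁', hev0', hP₁', hN'⟩ := h'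
  have hqm : algebraMap A₁ R q ∈ maximalIdeal R := by
    rw [mem_maximalIdeal, mem_nonunits_iff]
    intro hu
    exact hπ.not_isUnit (isUnit_of_dvd_unit hπq hu)
  have hPP : P₁ = P₁' := eq_of_neverServed hT hgen hqm P₁ P₁' hN hN'
  have hev : ∀ b : B, ev b = ev' b := by
    intro b
    have hb : b ∈ Algebra.adjoin B₁ (Set.range (algebraMap R B)) := by rw [hgenR]; trivial
    induction hb using Algebra.adjoin_induction with
    | mem z hz =>
      obtain ⟨a, rfl⟩ := hz
      rw [AlgHom.commutes, AlgHom.commutes]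
    | algebraMap b₁ =>
      rw [← hP₁, ← hP₁', hPP]
    | add z₁ z₂ _ _ h₁ h₂ => rw [map_add, map_add, h₁, h₂]
    | mul z₁ z₂ _ _ h₁ h₂ => rw [map_mul, map_mul, h₁, h₂]
  have hcc : centre w.toValuationSubring hB = centre w'.toValuationSubring hB' := by
    ext b
    rw [← hev0, ← hev0', hev]
  apply Place.ext
  ext z
  rw [mem_place_iff_memAt_centre π hπ.ne_zero J hint w hB,
    mem_place_iff_memAt_centre π hπ.ne_zero J hint w' hB', hcc]

/-- **Node: escape place, or a coordinate function.** -/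
theorem isEscapeAt_or_exists_coord_of_node (π : R) (hπ : Irreducible π) (J : B)
    (hint : ∀ b : B, (aeval (R := R) J : R[X] →ₐ[R] B).toRingHom.IsIntegralElem b)
    (q : A₁) (hq0 : algebraMap A₁ R q ≠ 0) (hπq : π ∣ algebraMap A₁ R q)
    (hπn : algebraMap R B π ∈ n)
    (hcomp : ∀ a : A₁, algebraMap B₁ B (algebraMap A₁ B₁ a) = algebraMap R B (algebraMap A₁ R a))
    (hn₁ : n.comap (algebraMap B₁ B) = n₁)
    (hnn : n ≤ Ideal.map (algebraMap B₁ B) n₁ ⊔ Ideal.span {algebraMap R B π})
    (x y : O₁) (xs ys Gs : ℕ → O₁) (cs : ℕ → A₁)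
    (hT : H47.IsMorseTower q x y xs ys Gs cs)
    (hxm : x ∈ maximalIdeal O₁) (hym : y ∈ maximalIdeal O₁)
    (hmax₁ : maximalIdeal O₁ ≤ Ideal.span {algebraMap A₁ O₁ q, x, y})
    (w : Place k F) (hdeg : w.deg = 1)
    (hB : ∀ b : B, algebraMap B F b ∈ w.toValuationSubring)
    (hcn : centre w.toValuationSubring hB ≤ n) :
    IsEscapeAt R B₁ O₁ n q xs ys w ∨
    ∃ ω : F, ω ≠ 0 ∧ w.ord ω = 1 ∧
      ∀ p : Ideal B, p.IsPrime → p.height = 1 → p ≤ n → algebraMap R B π ∉ p →
        p ≠ centre w.toValuationSubring hB → IsUnitAt p ω := by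
  haveI := isLocalization_away_of_dvr (k := k) hπ
  have hπ0 := hπ.ne_zero
  have hπu := hπ.not_isUnit
  have hRloc := isUnit_of_not_dvd_of_dvr hπ
  have hdvr := exists_dvd_pow_of_dvr hπ
  obtain ⟨ev, hev0, hevn, -⟩ := exists_eval_of_rational π (IsFractionRing.injective R k)
    (hval_of_dvr hπ) (fun c hc => IsIntegrallyClosed.algebraMap_eq_of_integral hc) J hint w hB
    (hrat_of_deg_eq_one w hdeg) n hn.ne_top hcn hπn
  letI : Algebra (Localization.AtPrime n) F :=
    (IsLocalization.lift (M := n.primeCompl) (S := Localization.AtPrime n) (g := algebraMap B F)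
      (fun y => IsUnit.mk0 _ (by
        have : (y : B) ≠ 0 := fun h => y.2 (h ▸ n.zero_mem)
        exact (map_ne_zero_iff _ (IsFractionRing.injective B F)).mpr this))).toAlgebra
  haveI : IsScalarTower B (Localization.AtPrime n) F :=
    IsScalarTower.of_algebraMap_eq fun b => (IsLocalization.lift_eq _ b).symm
  haveI : IsNoetherianRing (Localization.AtPrime n) :=
    IsLocalization.isNoetherianRing n.primeCompl _ inferInstance
  rcases exists_coord_or_neverServed_of_node_aux n₁ O₁ n (Localization.AtPrime n) π hπ0 hπu hRloc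
    hdvr ValuationRing.dvd_total J hint q hq0 hπq hπn hcomp hn₁ hnn x y xs ys Gs cs hT hxm hym
    hmax₁ w hB hcn ev hev0 hevn with h | h
  · exact Or.inl ⟨hB, hcn, ev, _, hev0,
      pointExt₁_algebraMap n₁ O₁ n (Localization.AtPrime n) hn₁ hcomp ev _, h⟩
  · exact Or.inr h

/-- **Smooth point: a coordinate function which is a unit at the vertical primes.** -/
theorem exists_coord_of_smooth_vert (π : R) (hπ : Irreducible π) (J : B)
    (hint : ∀ b : B, (aeval (R := R) J : R[X] →ₐ[R] B).toRingHom.IsIntegralElem b)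
    (q : A₁) (hπq : π ∣ algebraMap A₁ R q)
    (hπn : algebraMap R B π ∈ n)
    (hcomp : ∀ a : A₁, algebraMap B₁ B (algebraMap A₁ B₁ a) = algebraMap R B (algebraMap A₁ R a))
    (hn₁ : n.comap (algebraMap B₁ B) = n₁)
    (hnn : n ≤ Ideal.map (algebraMap B₁ B) n₁ ⊔ Ideal.span {algebraMap R B π})
    (τ : O₁) (hτm : τ ∈ maximalIdeal O₁)
    (hmax₁ : maximalIdeal O₁ ≤ Ideal.span {algebraMap A₁ O₁ q, τ})
    (w : Place k F) (hdeg : w.deg = 1)
    (hB : ∀ b : B, algebraMap B F b ∈ w.toValuationSubring)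
    (hcn : centre w.toValuationSubring hB ≤ n) :
    ∃ ω : F, ω ≠ 0 ∧ w.ord ω = 1 ∧
      (∀ p : Ideal B, p.IsPrime → p.height = 1 → p ≤ n → algebraMap R B π ∉ p →
        p ≠ centre w.toValuationSubring hB → IsUnitAt p ω) ∧
      ∀ P : Ideal B, P.IsPrime → P.height = 1 → P ≤ n → algebraMap R B π ∈ P →
        IsUnitAt P ω := by
  haveI := isLocalization_away_of_dvr (k := k) hπ
  have hπ0 := hπ.ne_zero
  have hπu := hπ.not_isUnit
  have hRloc := isUnit_of_not_dvd_of_dvr hπ
  have hdvr := exists_dvd_pow_of_dvr hπ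
  obtain ⟨ev, hev0, hevn, -⟩ := exists_eval_of_rational π (IsFractionRing.injective R k)
    (hval_of_dvr hπ) (fun c hc => IsIntegrallyClosed.algebraMap_eq_of_integral hc) J hint w hB
    (hrat_of_deg_eq_one w hdeg) n hn.ne_top hcn hπn
  letI : Algebra (Localization.AtPrime n) F :=
    (IsLocalization.lift (M := n.primeCompl) (S := Localization.AtPrime n) (g := algebraMap B F)
      (fun y => IsUnit.mk0 _ (by
        have : (y : B) ≠ 0 := fun h => y.2 (h ▸ n.zero_mem)
        exact (map_ne_zero_iff _ (IsFractionRing.injective B F)).mpr this))).toAlgebra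
  haveI : IsScalarTower B (Localization.AtPrime n) F :=
    IsScalarTower.of_algebraMap_eq fun b => (IsLocalization.lift_eq _ b).symm
  haveI : IsNoetherianRing (Localization.AtPrime n) :=
    IsLocalization.isNoetherianRing n.primeCompl _ inferInstance
  exact exists_coord_of_smooth_vert_aux n₁ O₁ n (Localization.AtPrime n) π hπ0 hπu hRloc hdvr J
    hint q hπq hπn hcomp hn₁ hnn τ hτm hmax₁ w hB hcn ev hev0 hevn

/-- **RATIO LEMMA (g1) at a fixed node, from the L1 output.**  `n.comap sB = n`; the zeros and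
poles of `f` avoid the (at most one) escape place of the node. -/
theorem exists_ratio_of_node (π : R) (hπ : Irreducible π) (J : B)
    (hint : ∀ b : B, (aeval (R := R) J : R[X] →ₐ[R] B).toRingHom.IsIntegralElem b)
    (q : A₁) (hq0 : algebraMap A₁ R q ≠ 0) (hπq : π ∣ algebraMap A₁ R q)
    (hπn : algebraMap R B π ∈ n)
    (hcomp : ∀ a : A₁, algebraMap B₁ B (algebraMap A₁ B₁ a) = algebraMap R B (algebraMap A₁ R a))
    (hn₁ : n.comap (algebraMap B₁ B) = n₁)
    (hnn : n ≤ Ideal.map (algebraMap B₁ B) n₁ ⊔ Ideal.span {algebraMap R B π})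
    (sB : B ≃+* B) (s : F ≃+* F)
    (hs : ∀ b, s (algebraMap B F b) = algebraMap B F (sB b))
    (hsπ : Associated (sB (algebraMap R B π)) (algebraMap R B π))
    (hstab : ∀ P : Ideal B, P.IsPrime → P.height = 1 → P ≤ n → algebraMap R B π ∈ P →
      Stable sB P)
    (hfix : n.comap (sB : B →+* B) = n)
    (x y : O₁) (xs ys Gs : ℕ → O₁) (cs : ℕ → A₁)
    (hT : H47.IsMorseTower q x y xs ys Gs cs)
    (hxm : x ∈ maximalIdeal O₁) (hym : y ∈ maximalIdeal O₁)
    (hmax₁ : maximalIdeal O₁ ≤ Ideal.span {algebraMap A₁ O₁ q, x, y})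
    (f : F) (hf0 : f ≠ 0) (m : ℕ)
    (hdiv : ∀ w : Place k F, (m : ℤ) ∣ w.ord f)
    (hdeg : ∀ w : Place k F, w.ord f ≠ 0 → w.deg = 1)
    (hfin : {w : Place k F | w.ord f ≠ 0}.Finite)
    (hesc : ∀ w : Place k F, w.ord f ≠ 0 → ¬ IsEscapeAt R B₁ O₁ n q xs ys w) :
    ∃ g : F, g ≠ 0 ∧
      (∃ a b : B, a ∉ n ∧ b ∉ n ∧ s f / f * algebraMap B F b = g ^ m * algebraMap B F a) ∧
      ∀ P : Ideal B, P.IsPrime → P.height = 1 → P ≤ n → algebraMap R B π ∈ P →
        IsUnitAt P g := by
  haveI := isLocalization_away_of_dvr (k := k) hπ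
  haveI := hn.isPrime
  refine exists_ratio_of_places_fixed π hπ.ne_zero J hint n sB s hs hsπ hstab hfix f hf0 m hdiv hfin
    fun w hw hB hcn => ?_
  rcases isEscapeAt_or_exists_coord_of_node n₁ O₁ n π hπ J hint q hq0 hπq hπn hcomp hn₁ hnn x y
    xs ys Gs cs hT hxm hym hmax₁ w (hdeg w hw) hB hcn with h | h
  · exact absurd h (hesc w hw)
  · exact h

/-- **RATIO LEMMA (g1) at a smooth point, from the L1 output.**  Both `n` and `n' = n.comap sB`
are smooth points (`𝔪 = (q, τ)` resp. `(q, τ')` in the local rings of the `A₁`-chart). -/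
theorem exists_ratio_of_smooth (π : R) (hπ : Irreducible π) (J : B)
    (hint : ∀ b : B, (aeval (R := R) J : R[X] →ₐ[R] B).toRingHom.IsIntegralElem b)
    (q : A₁) (hπq : π ∣ algebraMap A₁ R q)
    (hπn : algebraMap R B π ∈ n)
    (hcomp : ∀ a : A₁, algebraMap B₁ B (algebraMap A₁ B₁ a) = algebraMap R B (algebraMap A₁ R a))
    (sB : B ≃+* B) (s : F ≃+* F)
    (hs : ∀ b, s (algebraMap B F b) = algebraMap B F (sB b))
    (hsπ : Associated (sB (algebraMap R B π)) (algebraMap R B π))
    (hstab : ∀ P : Ideal B, P.IsPrime → P.height = 1 → P ≤ n → algebraMap R B π ∈ P →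
      Stable sB P)
    (hn₁ : n.comap (algebraMap B₁ B) = n₁)
    (hnn : n ≤ Ideal.map (algebraMap B₁ B) n₁ ⊔ Ideal.span {algebraMap R B π})
    (τ : O₁) (hτm : τ ∈ maximalIdeal O₁)
    (hmax₁ : maximalIdeal O₁ ≤ Ideal.span {algebraMap A₁ O₁ q, τ})
    (n₁' : Ideal B₁) [hn₁p' : n₁'.IsPrime] (O₁' : Type*) [CommRing O₁'] [Algebra B₁ O₁']
    [IsLocalization.AtPrime O₁' n₁'] [Algebra A₁ O₁'] [IsScalarTower A₁ B₁ O₁'] [IsLocalRing O₁']
    (hn₁' : (n.comap (sB : B →+* B)).comap (algebraMap B₁ B) = n₁')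
    (hnn' : n.comap (sB : B →+* B) ≤
      Ideal.map (algebraMap B₁ B) n₁' ⊔ Ideal.span {algebraMap R B π})
    (τ' : O₁') (hτm' : τ' ∈ maximalIdeal O₁')
    (hmax₁' : maximalIdeal O₁' ≤ Ideal.span {algebraMap A₁ O₁' q, τ'})
    (f : F) (hf0 : f ≠ 0) (m : ℕ)
    (hdiv : ∀ w : Place k F, (m : ℤ) ∣ w.ord f)
    (hdeg : ∀ w : Place k F, w.ord f ≠ 0 → w.deg = 1)
    (hfin : {w : Place k F | w.ord f ≠ 0}.Finite) :
    ∃ g : F, g ≠ 0 ∧
      (∃ a b : B, a ∉ n ∧ b ∉ n ∧ s f / f * algebraMap B F b = g ^ m * algebraMap B F a) ∧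
      ∀ P : Ideal B, P.IsPrime → P.height = 1 → P ≤ n → algebraMap R B π ∈ P →
        IsUnitAt P g := by
  haveI := isLocalization_away_of_dvr (k := k) hπ
  haveI := hn.isPrime
  haveI hn' : (n.comap (sB : B →+* B)).IsMaximal :=
    Ideal.comap_isMaximal_of_surjective (sB : B →+* B) sB.surjective
  have hπn' : algebraMap R B π ∈ n.comap (sB : B →+* B) :=
    mem_comap_of_associated sB hsπ n hπn
  refine exists_ratio_of_places_smooth π hπ.ne_zero J hint n sB s hs hsπ hstab f hf0 m hdiv hfin ?_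
  rintro n₂ (rfl | rfl) w hw hB hcn
  · exact exists_coord_of_smooth_vert n₁ O₁ n₂ π hπ J hint q hπq hπn hcomp hn₁ hnn τ hτm hmax₁ w
      (hdeg w hw) hB hcn
  · exact exists_coord_of_smooth_vert n₁' O₁' (n.comap (sB : B →+* B)) π hπ J hint q hπq hπn' hcomp
      hn₁' hnn' τ' hτm' hmax₁' w (hdeg w hw) hB hcn

end Final

end Fermat.Agent.S35.H8
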