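/-
helper8 — S35 node (E2) of the G-side integration map: the chart package for a FROBENIUS-type
automorphism and `H46.ChartWeakAt` at every closed point of a chart (the S35 twin of helper61's
`H61.ChartPkg` / `ChartPkg.chartDatum` and helper56's `H56.local_datum_of_L1`).

Same binder block as `S35/H8_CoordGlueFrob` (`A₁`, `R = A''`, `k`, `B₁`, `B = B₁[R]`, `F`).

* `SmoothAt q n₁`, `NodeAt q n₁` : the two alternatives of the L1 output (`H61.L1At q n₁` is
  `SmoothAt q n₁ ∨ NodeAt q n₁`, definitionally); `NodeTowerAt q n₁ xs ys` : `(xs, ys)` is a Morse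
  tower at the node `n₁`; `NodeAt.exists_tower`;
* `smoothAt_comap` : smoothness is transported by an automorphism `sB₁` of `B₁` fixing `q`;
* `hL1_refined` : from helper83's `TwoComponents` at the `A₁`-chart: a closed point is smooth, or it
  lies on BOTH components and is a node (`L1At` alone does not say on which components the
  point lies);
* `ChartPkgFrob` : the chart package (no `sB b - b ∈ (π)`; the chart automorphism preserves the
  `A₁`-chart, `sB ∘ incl = incl ∘ sB₁`, and fixes the closed points over the nodes);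
* `ChartPkgFrob.chartWeakAt` : **`H46.ChartWeakAt (algebraMap R B π) n (s f / f) m` at every closed
  point `n ∋ π`**, for `f` admissible whose zeros and poles avoid the escape place of the node
  (for the tower given by the caller);
* `weakDatum_of_pkgs` : the two charts glued: `H46.WeakDatum` at `(H21.ptO, valuationSubringAt,
  H21.primeThr)` (`H46.weakDatum_of_charts`).
-/
import Mathlib
import Fermat.Agent.S35.H8_CoordGlueFrob
import Fermat.Agent.S35.H46_WeakDatumCharts
import Fermat.Agent.S34.H83_L1Inst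

set_option autoImplicit false
set_option linter.unusedSectionVars false
set_option linter.style.haveILetI false

namespace Fermat.Agent.S35.H8

open Polynomial IsLocalRing Fermat.Agent.S34.H3 Fermat.Agent.S34.H56 Fermat.Agent.CA.H42
  AlgebraicCurve
open Fermat.Agent.CA Fermat.Agent.S34 Fermat.Agent.S18
open scoped IntermediateField

/-! ### The two alternatives of L1 and Morse towers at a node -/

section L1Shapes

variable {A₁ B₁ : Type*} [CommRing A₁] [CommRing B₁] [Algebra A₁ B₁]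

/-- smooth alternative of the L1 output at `n₁`: `𝔪 = (q, τ)` in `O₁ = (B₁)_{n₁}`. -/
def SmoothAt (q : A₁) (n₁ : Ideal B₁) [n₁.IsPrime] : Prop :=
  ∃ τ : Localization.AtPrime n₁, τ ∈ maximalIdeal (Localization.AtPrime n₁) ∧
    maximalIdeal (Localization.AtPrime n₁) ≤
      Ideal.span {algebraMap A₁ (Localization.AtPrime n₁) q, τ}

/-- node alternative of the L1 output at `n₁`: `𝔪 = (q, x, y)`, `x y ∈ q O₁`, `NodeDec`. -/
def NodeAt (q : A₁) (n₁ : Ideal B₁) [n₁.IsPrime] : Prop :=
  ∃ x y : Localization.AtPrime n₁,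
    (∃ G, x * y = algebraMap A₁ (Localization.AtPrime n₁) q * G) ∧
    x ∈ maximalIdeal (Localization.AtPrime n₁) ∧ y ∈ maximalIdeal (Localization.AtPrime n₁) ∧
    maximalIdeal (Localization.AtPrime n₁) ≤
      Ideal.span {algebraMap A₁ (Localization.AtPrime n₁) q, x, y} ∧
    H38.NodeDec (algebraMap A₁ (Localization.AtPrime n₁)).range
      (algebraMap A₁ (Localization.AtPrime n₁) q) x y

/-- `(xs, ys)` is a Morse tower at the node `n₁` (the tower which defines the escape place). -/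
def NodeTowerAt (q : A₁) (n₁ : Ideal B₁) [n₁.IsPrime]
    (xs ys : ℕ → Localization.AtPrime n₁) : Prop :=
  ∃ (x y : Localization.AtPrime n₁) (Gs : ℕ → Localization.AtPrime n₁) (cs : ℕ → A₁),
    H47.IsMorseTower q x y xs ys Gs cs ∧ H47.GenBy q ![x, y] ∧
    x ∈ maximalIdeal (Localization.AtPrime n₁) ∧ y ∈ maximalIdeal (Localization.AtPrime n₁) ∧
    maximalIdeal (Localization.AtPrime n₁) ≤
      Ideal.span {algebraMap A₁ (Localization.AtPrime n₁) q, x, y}

theorem NodeAt.exists_tower {q : A₁} {n₁ : Ideal B₁} [n₁.IsPrime] (h : NodeAt q n₁) :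
    ∃ xs ys, NodeTowerAt q n₁ xs ys := by
  obtain ⟨x, y, hxy, hxm, hym, hmax, hdec⟩ := h
  have hgen := H47.genBy_of_nodeDec hdec
  obtain ⟨xs, ys, Gs, cs, hT⟩ := H47.exists_morseTower hgen hxy
  exact ⟨xs, ys, x, y, Gs, cs, hT, hgen, hxm, hym, hmax⟩

/-- Smoothness is transported by an automorphism of the chart fixing `q`. -/
theorem smoothAt_comap (q : A₁) (sB₁ : B₁ ≃+* B₁)
    (hsq : sB₁ (algebraMap A₁ B₁ q) = algebraMap A₁ B₁ q)
    (n₁ : Ideal B₁) [n₁.IsPrime] (n₁' : Ideal B₁) [n₁'.IsPrime]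
    (hn' : n₁' = n₁.comap (sB₁ : B₁ →+* B₁)) (h : SmoothAt q n₁) : SmoothAt q n₁' := by
  obtain ⟨τ, hτ, hmax⟩ := h
  have hn'' : n₁' = n₁.comap sB₁ := by rw [hn', Ideal.comap_coe]
  let e : Localization.AtPrime n₁' ≃+* Localization.AtPrime n₁ :=
    Localization.localRingEquiv n₁' n₁ sB₁ hn''
  have heq : e (algebraMap A₁ (Localization.AtPrime n₁') q) =
      algebraMap A₁ (Localization.AtPrime n₁) q := by
    rw [IsScalarTower.algebraMap_apply A₁ B₁ (Localization.AtPrime n₁'),
      IsScalarTower.algebraMap_apply A₁ B₁ (Localization.AtPrime n₁)]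
    have h1 : e (algebraMap B₁ (Localization.AtPrime n₁') (algebraMap A₁ B₁ q)) =
        algebraMap B₁ (Localization.AtPrime n₁) (sB₁ (algebraMap A₁ B₁ q)) :=
      Localization.localRingHom_to_map (I := n₁') n₁ (sB₁ : B₁ →+* B₁) hn' _
    rw [h1, hsq]
  have hmem : ∀ z : Localization.AtPrime n₁', z ∈ maximalIdeal (Localization.AtPrime n₁') ↔
      e z ∈ maximalIdeal (Localization.AtPrime n₁) := by
    intro z
    rw [mem_maximalIdeal, mem_maximalIdeal, mem_nonunits_iff, mem_nonunits_iff]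
    exact not_congr ⟨fun hu => hu.map e, fun hu => by simpa using hu.map e.symm⟩
  refine ⟨e.symm τ, (hmem _).mpr (by rw [RingEquiv.apply_symm_apply]; exact hτ), fun z hz => ?_⟩
  have h1 := hmax ((hmem z).mp hz)
  rw [Ideal.mem_span_pair] at h1 ⊢
  obtain ⟨a, b, hab⟩ := h1
  refine ⟨e.symm a, e.symm b, ?_⟩
  apply e.injective
  rw [map_add, map_mul, map_mul, RingEquiv.apply_symm_apply, RingEquiv.apply_symm_apply,
    RingEquiv.apply_symm_apply, heq, hab]

end L1Shapes

/-! ### Refined L1 from `TwoComponents`: smooth, or a node ON BOTH COMPONENTS -/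

section Refined

variable {A₁ : Type*} [CommRing A₁] [IsDomain A₁] [IsNoetherianRing A₁] [IsIntegrallyClosed A₁]
  {K₁ : Type*} [Field K₁] [Algebra A₁ K₁] [IsFractionRing A₁ K₁]
  {F : Type*} [Field F] [Algebra A₁ F] [Algebra K₁ F] [IsScalarTower A₁ K₁ F]
  {k Fk : Type*} [Field k] [IsAlgClosed k] [Field Fk] [Algebra k Fk]

/-- **Refined L1 at a closed point of the special fibre of an `A₁`-chart**: the point is smooth,
or it lies on both components and is a node. -/
theorem hL1_refined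
    (u : F) (htr : Transcendental K₁ u) [FiniteDimensional K₁⟮u⟯ F] [Algebra.IsSeparable K₁⟮u⟯ F]
    (w : Fk) (hw : Transcendental k w) [FiniteDimensional k⟮w⟯ Fk] [Algebra.IsSeparable k⟮w⟯ Fk]
    (res : A₁ →+* k) (hsurj : Function.Surjective res) (qA : A₁)
    (hker : ∀ a : A₁, res a = 0 → qA ∣ a)
    {BM : Type*} [CommRing BM]
    {red₁ red₂ : ↥(H40.chartB A₁ u) →+* ↥(integralClosure (Algebra.adjoin k {w}) Fk)}
    {ι V : BM →+* ↥(H40.chartB A₁ u)}
    {rbar : BM →+* ↥(integralClosure (Algebra.adjoin k {w}) Fk)}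
    {W : ↥(integralClosure (Algebra.adjoin k {w}) Fk) →+*
      ↥(integralClosure (Algebra.adjoin k {w}) Fk)} {q : ℕ}
    (h : H83.TwoComponents red₁ red₂ ι V rbar W q (algebraMap A₁ ↥(H40.chartB A₁ u) qA))
    (hq : 2 ≤ q)
    (n : Ideal ↥(H40.chartB A₁ u)) [hn : n.IsMaximal]
    (hqn : algebraMap A₁ ↥(H40.chartB A₁ u) qA ∈ n) :
    SmoothAt qA n ∨
      ((RingHom.ker red₁ ≤ n ∧ RingHom.ker red₂ ≤ n) ∧ NodeAt qA n) := by
  by_cases hk : RingHom.ker red₁ ≤ n ∧ RingHom.ker red₂ ≤ n
  · rcases h.hL1_chart (K₁ := K₁) u htr w hw res hsurj qA hker hq n hqn with hs | hnd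
    · exact Or.inl hs
    · exact Or.inr ⟨hk, hnd⟩
  · left
    have hqO : algebraMap ↥(H40.chartB A₁ u) (Localization.AtPrime n)
        (algebraMap A₁ ↥(H40.chartB A₁ u) qA) = algebraMap A₁ (Localization.AtPrime n) qA :=
      (IsScalarTower.algebraMap_apply A₁ ↥(H40.chartB A₁ u) (Localization.AtPrime n) qA).symm
    have hmem : ∀ z ∈ n, algebraMap ↥(H40.chartB A₁ u) (Localization.AtPrime n) z ∈
        maximalIdeal (Localization.AtPrime n) := fun z hz =>
      (IsLocalization.AtPrime.to_map_mem_maximal_iff (Localization.AtPrime n) n z).2 hz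
    rcases h.local_output_chart (K₁ := K₁) u htr w hw res hsurj qA hker hq n hqn with
      ⟨τ, hτ, hmax, -⟩ | ⟨x, y, hx, hy, hxn, hyn, -, hmax, -⟩
    · rw [hqO] at hmax
      exact ⟨_, hmem τ hτ, hmax⟩
    · rw [hqO] at hmax
      -- an element of one kernel outside `n` kills the other coordinate modulo `q`
      have key : ∀ (v z : ↥(H40.chartB A₁ u)), v ∉ n →
          v * z ∈ Ideal.span {algebraMap A₁ ↥(H40.chartB A₁ u) qA} →
          algebraMap ↥(H40.chartB A₁ u) (Localization.AtPrime n) z ∈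
            Ideal.span {algebraMap A₁ (Localization.AtPrime n) qA} := by
        intro v z hv hvz
        obtain ⟨c, hc⟩ := Ideal.mem_span_singleton'.mp hvz
        have hvu : IsUnit (algebraMap ↥(H40.chartB A₁ u) (Localization.AtPrime n) v) :=
          IsLocalization.map_units (Localization.AtPrime n) (⟨v, hv⟩ : n.primeCompl)
        obtain ⟨vu, hvu'⟩ := hvu
        rw [Ideal.mem_span_singleton']
        refine ⟨(↑vu⁻¹ : Localization.AtPrime n) *
          algebraMap ↥(H40.chartB A₁ u) (Localization.AtPrime n) c, ?_⟩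
        have h1 : algebraMap ↥(H40.chartB A₁ u) (Localization.AtPrime n) c *
            algebraMap A₁ (Localization.AtPrime n) qA =
            (vu : Localization.AtPrime n) *
              algebraMap ↥(H40.chartB A₁ u) (Localization.AtPrime n) z := by
          rw [hvu', ← hqO, ← map_mul, ← map_mul, hc]
        rw [mul_assoc, h1, ← mul_assoc, Units.inv_mul, one_mul]
      rw [not_and_or] at hk
      rcases hk with hk | hk
      · -- `ker red₁ ⊄ n`: `y ∈ q O`, `τ := x`
        obtain ⟨v, hv1, hvn⟩ := Set.not_subset.mp hk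
        have hvy : v * y ∈ Ideal.span {algebraMap A₁ ↥(H40.chartB A₁ u) qA} :=
          h.hinf _ (by rw [map_mul, (RingHom.mem_ker).mp hv1, zero_mul])
            (by rw [map_mul, hy, mul_zero])
        have hyq := key v y hvn hvy
        refine ⟨_, hmem x hxn, hmax.trans ?_⟩
        rw [Ideal.span_le]
        rintro z (rfl | rfl | rfl)
        · exact Ideal.subset_span (Set.mem_insert _ _)
        · exact Ideal.subset_span (Set.mem_insert_of_mem _ rfl)
        · exact Ideal.span_mono (Set.singleton_subset_iff.mpr (Set.mem_insert _ _)) hyq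
      · -- `ker red₂ ⊄ n`: `x ∈ q O`, `τ := y`
        obtain ⟨v, hv2, hvn⟩ := Set.not_subset.mp hk
        have hvx : v * x ∈ Ideal.span {algebraMap A₁ ↥(H40.chartB A₁ u) qA} :=
          h.hinf _ (by rw [map_mul, hx, mul_zero])
            (by rw [map_mul, (RingHom.mem_ker).mp hv2, zero_mul])
        have hxq := key v x hvn hvx
        refine ⟨_, hmem y hyn, hmax.trans ?_⟩
        rw [Ideal.span_le]
        rintro z (rfl | rfl | rfl)
        · exact Ideal.subset_span (Set.mem_insert _ _)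
        · exact Ideal.span_mono (Set.singleton_subset_iff.mpr (Set.mem_insert _ _)) hxq
        · exact Ideal.subset_span (Set.mem_insert_of_mem _ rfl)

end Refined

/-! ### The chart package for a Frobenius-type automorphism -/

variable {A₁ : Type*} [CommRing A₁]
variable {R k B F : Type*} [CommRing R] [IsDomain R] [Field k] [Algebra R k]
  [CommRing B] [IsDomain B] [Field F] [Algebra B F] [IsFractionRing B F]
  [Algebra R B] [Algebra k F] [Algebra R F] [IsScalarTower R B F] [IsScalarTower R k F]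
  [IsNoetherianRing B] [IsIntegrallyClosed B]
variable [Algebra A₁ R]
variable {B₁ : Type*} [CommRing B₁] [Algebra A₁ B₁] [Algebra B₁ B]

/-- **The chart package, Frobenius version**: everything node (E2) needs about ONE chart
`B = chartB A'' J^(±1)` over `R = A''`, sitting over the `A₁`-chart `B₁`, and about the chart
automorphism `sB` induced by `s` (`= Ψ = Φ ∘ Φ`, `Φ` the action of a Frobenius element):
`sB` preserves the image of `B₁` (acting there as `sB₁`, which fixes `q`), maps `π` to an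
associate, stabilises the vertical primes, and fixes the closed points over the nodes
(`IsNode n₁`; instance: `n₁` contains both `ker red₁` and `ker red₂`). -/
structure ChartPkgFrob (k : Type*) [Field k] [Algebra R k] [Algebra k F] [IsScalarTower R k F]
    (B₁ : Type*) [CommRing B₁] [Algebra A₁ B₁] [Algebra B₁ B]
    (π : R) (q : A₁) (J : B) (sB₁ : B₁ ≃+* B₁) (sB : B ≃+* B) (s : F ≃+* F)
    (IsNode : Ideal B₁ → Prop) : Prop where
  /-- the chart is integral over `R[J]` -/
  hint : ∀ b : B, (aeval (R := R) J : R[X] →ₐ[R] B).toRingHom.IsIntegralElem b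
  hq0 : algebraMap A₁ R q ≠ 0
  hπq : π ∣ algebraMap A₁ R q
  /-- the two structure maps `A₁ → B` agree -/
  hcomp : ∀ a : A₁, algebraMap B₁ B (algebraMap A₁ B₁ a) = algebraMap R B (algebraMap A₁ R a)
  /-- `B = B₁[R]` -/
  hgenR : Algebra.adjoin B₁ (Set.range (algebraMap R B)) = ⊤
  /-- every closed point of the special fibre of `B` is `(n₁, π)` -/
  hnn : ∀ n : Ideal B, n.IsMaximal → algebraMap R B π ∈ n →
    n ≤ Ideal.map (algebraMap B₁ B) (n.comap (algebraMap B₁ B)) ⊔
      Ideal.span {algebraMap R B π}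
  /-- its contraction to the `A₁`-chart is a closed point -/
  hmax : ∀ n : Ideal B, n.IsMaximal → algebraMap R B π ∈ n →
    (n.comap (algebraMap B₁ B)).IsMaximal
  /-- the chart automorphism -/
  hs : ∀ b, s (algebraMap B F b) = algebraMap B F (sB b)
  hsπ : Associated (sB (algebraMap R B π)) (algebraMap R B π)
  hstab : ∀ P : Ideal B, P.IsPrime → P.height = 1 → algebraMap R B π ∈ P → Stable sB P
  hsB₁ : ∀ b : B₁, sB (algebraMap B₁ B b) = algebraMap B₁ B (sB₁ b)
  hsq : sB₁ (algebraMap A₁ B₁ q) = algebraMap A₁ B₁ q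
  /-- refined L1 at every closed point of the special fibre of the `A₁`-chart -/
  hL1 : ∀ (n₁ : Ideal B₁) [n₁.IsMaximal], algebraMap A₁ B₁ q ∈ n₁ →
    SmoothAt q n₁ ∨ (IsNode n₁ ∧ NodeAt q n₁)
  /-- the closed points over the nodes are fixed -/
  hfix : ∀ n : Ideal B, n.IsMaximal → algebraMap R B π ∈ n →
    IsNode (n.comap (algebraMap B₁ B)) → n.comap (sB : B →+* B) = n

variable [IsDiscreteValuationRing R] [IsFractionRing R k]

/-- **`ChartWeakAt` at every closed point of the chart** (node (E2)): for `f` admissible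
(`m ∣ ord_w f`, zeros and poles of degree one, finite support) whose zeros and poles are not the
escape place of the node for the tower `(xs, ys)` chosen by the caller,
`s f / f = (a / b) g ^ m` with `a, b ∉ n` and `g` a unit at the vertical primes through `n`. -/
theorem ChartPkgFrob.chartWeakAt {π : R} (hπ : Irreducible π) {q : A₁} {J : B}
    {sB₁ : B₁ ≃+* B₁} {sB : B ≃+* B} {s : F ≃+* F} {IsNode : Ideal B₁ → Prop}
    (H : ChartPkgFrob k B₁ π q J sB₁ sB s IsNode)
    (n : Ideal B) [hn : n.IsMaximal] (hπn : algebraMap R B π ∈ n)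
    (f : F) (hf0 : f ≠ 0) (m : ℕ)
    (hdiv : ∀ w : Place k F, (m : ℤ) ∣ w.ord f)
    (hdeg : ∀ w : Place k F, w.ord f ≠ 0 → w.deg = 1)
    (hfin : {w : Place k F | w.ord f ≠ 0}.Finite)
    (hesc : IsNode (n.comap (algebraMap B₁ B)) →
      ∃ xs ys, NodeTowerAt q (n.comap (algebraMap B₁ B)) xs ys ∧
        ∀ w : Place k F, w.ord f ≠ 0 →
          ¬ IsEscapeAt R B₁ (Localization.AtPrime (n.comap (algebraMap B₁ B))) n q xs ys w) :
    H46.ChartWeakAt (F := F) (algebraMap R B π) n (s f / f) m := by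
  haveI hmax₁ := H.hmax n hn hπn
  have hq₁ : algebraMap A₁ B₁ q ∈ n.comap (algebraMap B₁ B) := by
    obtain ⟨c, hc⟩ := H.hπq
    show algebraMap B₁ B (algebraMap A₁ B₁ q) ∈ n
    rw [H.hcomp, hc, map_mul]
    exact n.mul_mem_right _ hπn
  have hstab : ∀ P : Ideal B, P.IsPrime → P.height = 1 → P ≤ n → algebraMap R B π ∈ P →
      Stable sB P := fun P hP h1 _ hπP => H.hstab P hP h1 hπP
  rcases H.hL1 (n.comap (algebraMap B₁ B)) hq₁ with hsm | ⟨hnode, hnd⟩
  · -- smooth point; the point `n' = n.comap sB` is smooth as well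
    obtain ⟨τ, hτm, hτmax⟩ := hsm
    have hn' : (n.comap (sB : B →+* B)).IsMaximal :=
      Ideal.comap_isMaximal_of_surjective (sB : B →+* B) sB.surjective
    have hπn' : algebraMap R B π ∈ n.comap (sB : B →+* B) :=
      mem_comap_of_associated sB H.hsπ n hπn
    haveI hmax₁' := H.hmax _ hn' hπn'
    have hcomap : (n.comap (sB : B →+* B)).comap (algebraMap B₁ B) =
        (n.comap (algebraMap B₁ B)).comap (sB₁ : B₁ →+* B₁) := by
      ext b
      simp only [Ideal.mem_comap, RingHom.coe_coe, H.hsB₁]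
    obtain ⟨τ', hτm', hτmax'⟩ := smoothAt_comap q sB₁ H.hsq (n.comap (algebraMap B₁ B))
      ((n.comap (sB : B →+* B)).comap (algebraMap B₁ B)) hcomap ⟨τ, hτm, hτmax⟩
    exact exists_ratio_of_smooth (n.comap (algebraMap B₁ B))
      (Localization.AtPrime (n.comap (algebraMap B₁ B))) n π hπ J H.hint q H.hπq hπn H.hcomp sB s
      H.hs H.hsπ hstab rfl (H.hnn n hn hπn) τ hτm hτmax
      ((n.comap (sB : B →+* B)).comap (algebraMap B₁ B))
      (Localization.AtPrime ((n.comap (sB : B →+* B)).comap (algebraMap B₁ B))) rfl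
      (H.hnn _ hn' hπn') τ' hτm' hτmax' f hf0 m hdiv hdeg hfin
  · -- node
    obtain ⟨xs, ys, ⟨x, y, Gs, cs, hT, -, hxm, hym, hmaxO⟩, hesc'⟩ := hesc hnode
    exact exists_ratio_of_node (n.comap (algebraMap B₁ B))
      (Localization.AtPrime (n.comap (algebraMap B₁ B))) n π hπ J H.hint q H.hq0 H.hπq hπn H.hcomp
      rfl (H.hnn n hn hπn) sB s H.hs H.hsπ hstab (H.hfix n hn hπn hnode) x y xs ys Gs cs hT hxm hym
      hmaxO f hf0 m hdiv hdeg hfin hesc'

/-! ### The two charts glued -/

section TwoCharts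

variable {A₁ : Type*} [CommRing A₁]
variable {R K F : Type*} [CommRing R] [IsDomain R] [IsDiscreteValuationRing R]
  [Field K] [Algebra R K] [IsFractionRing R K] [Field F] [Algebra R F] [Algebra K F]
  [IsScalarTower R K F] [Algebra A₁ R]
  {C₁ C₂ : Subalgebra R F} [IsFractionRing C₁ F] [IsFractionRing C₂ F]
  [IsNoetherianRing C₁] [IsNoetherianRing C₂] [IsIntegrallyClosed C₁] [IsIntegrallyClosed C₂]
  {κ : Type*} {π : R} {P₁ : κ → Ideal C₁} {P₂ : κ → Ideal C₂}

/-- **Node (E2): `H46.WeakDatum` for `u₁ = s f / f` at the two-chart model** from the two chart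
packages, for `f` admissible whose zeros and poles avoid the escape places of the nodes of both
charts. -/
theorem weakDatum_of_pkgs [hP₁ : ∀ k, (P₁ k).IsPrime] [hP₂ : ∀ k, (P₂ k).IsPrime]
    (hh₁ : ∀ k, (P₁ k).height = 1) (hh₂ : ∀ k, (P₂ k).height = 1)
    (hVeq : ∀ k, H56.valuationSubringAt (K := F) (P₁ k) (hh₁ k)
      = H56.valuationSubringAt (K := F) (P₂ k) (hh₂ k))
    (hπ₁ : ∀ k, algebraMap R C₁ π ∈ P₁ k) (hπ₂ : ∀ k, algebraMap R C₂ π ∈ P₂ k)
    (hπ : Irreducible π) {q : A₁} (s : F ≃+* F)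
    {B₁₁ : Type*} [CommRing B₁₁] [Algebra A₁ B₁₁] [Algebra B₁₁ C₁] {J₁ : C₁}
    {sB₁₁ : B₁₁ ≃+* B₁₁} {sC₁ : C₁ ≃+* C₁} {IsNode₁ : Ideal B₁₁ → Prop}
    (H₁ : ChartPkgFrob K B₁₁ π q J₁ sB₁₁ sC₁ s IsNode₁)
    {B₁₂ : Type*} [CommRing B₁₂] [Algebra A₁ B₁₂] [Algebra B₁₂ C₂] {J₂ : C₂}
    {sB₁₂ : B₁₂ ≃+* B₁₂} {sC₂ : C₂ ≃+* C₂} {IsNode₂ : Ideal B₁₂ → Prop}
    (H₂ : ChartPkgFrob K B₁₂ π q J₂ sB₁₂ sC₂ s IsNode₂)
    (f : F) (hf0 : f ≠ 0) (m : ℕ)
    (hdiv : ∀ w : Place K F, (m : ℤ) ∣ w.ord f)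
    (hdeg : ∀ w : Place K F, w.ord f ≠ 0 → w.deg = 1)
    (hfin : {w : Place K F | w.ord f ≠ 0}.Finite)
    (hesc₁ : ∀ (n : Ideal C₁) [n.IsMaximal], algebraMap R C₁ π ∈ n →
      IsNode₁ (n.comap (algebraMap B₁₁ C₁)) →
      ∃ xs ys, NodeTowerAt q (n.comap (algebraMap B₁₁ C₁)) xs ys ∧
        ∀ w : Place K F, w.ord f ≠ 0 →
          ¬ IsEscapeAt R B₁₁ (Localization.AtPrime (n.comap (algebraMap B₁₁ C₁))) n q xs ys w)
    (hesc₂ : ∀ (n : Ideal C₂) [n.IsMaximal], algebraMap R C₂ π ∈ n →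
      IsNode₂ (n.comap (algebraMap B₁₂ C₂)) →
      ∃ xs ys, NodeTowerAt q (n.comap (algebraMap B₁₂ C₂)) xs ys ∧
        ∀ w : Place K F, w.ord f ≠ 0 →
          ¬ IsEscapeAt R B₁₂ (Localization.AtPrime (n.comap (algebraMap B₁₂ C₂))) n q xs ys w) :
    H46.WeakDatum (H21.ptO C₁ C₂ π) (fun k => H56.valuationSubringAt (K := F) (P₁ k) (hh₁ k))
      (H21.primeThr (π := π) P₁ P₂) (s f / f) m := by
  refine H46.weakDatum_of_charts hh₁ hh₂ hVeq hπ₁ hπ₂ (fun n hn hπn => ?_) (fun n hn hπn => ?_)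
  · haveI := hn
    exact H₁.chartWeakAt hπ n hπn f hf0 m hdiv hdeg hfin (hesc₁ n hπn)
  · haveI := hn
    exact H₂.chartWeakAt hπ n hπn f hf0 m hdiv hdeg hfin (hesc₂ n hπn)

end TwoCharts

end Fermat.Agent.S35.H8
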