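/-
helper8 — S35 node (E2), CONCRETE instance of `H8.ChartPkgFrob` (one per chart) at
`A₁ = A0 A ℓ`, `R = A'' = cutOver A E`, `k = E`, `F = F_E = fullC ↥E N`,
`B₁ = chartB A₁ J₁`, `B = chartB A'' J_E` (`J_E = bc J₁`), the S35 twin of helper56's
`S34/H56_ChartPkgInst.chartPkg_of_chartBC`.

Hypotheses left (each in its producer's shape):
* `hcl`  — helper40 `(a)'`: `chartB A'' J_E ⊆ closure (bc (chartB A₁ J₁) ∪ A'')`;
* `s sB sB₁ hsB hsB₁ hsπ hstab` — the chart automorphisms of row G1 (helper27 `chartActE`,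
  `chartActA0`, `chartActE_chartMapE`, `dvd_chartActE_pi`, `CA.H27.stable_of_mem_minimalPrimes`);
* `hL1` — `H8.hL1_refined` (from the `A₁`-level `TwoComponents`);
* `hfix` — helper84 `node_comap_eq`.
-/
import Mathlib
import Fermat.Agent.CA.H56_BaseChangeIdeal
import Fermat.Agent.S34.H95_ChartBCGen
import Fermat.Agent.S35.H8_WeakDatumInst

set_option autoImplicit false
set_option linter.unusedSectionVars false
set_option linter.style.haveILetI false
set_option synthInstance.maxHeartbeats 400000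

noncomputable section

namespace Fermat.Agent.S35.H8

open Polynomial ModularCurve HahnSeries IntermediateField IsLocalRing
open Fermat.Agent.S18 Fermat.Agent.S18.H45 Fermat.Agent.S34.H95 Fermat.Agent.S34

local notation "Qbar" => AlgebraicClosure ℚ

variable {A : ValuationSubring Qbar} {ℓ : ℕ} (hℓ : ℓ.Prime) (hA : A.LiesOverPrime ℓ)
variable (E : IntermediateField (unrCyclo ℓ) Qbar) (N : ℕ) [NeZero N]
variable (J₁ : modularFunctionFieldFullC (unrCyclo ℓ) N)
  (J_E : modularFunctionFieldFullC ↥E N) (h : baseChangeE E N J₁ = J_E)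

include hℓ hA in
theorem natCast_A0_cutOver_ne_zero' :
    algebraMap (A0 A ℓ) (cutOver A E) ((ℓ : ℕ) : A0 A ℓ) ≠ 0 := by
  rw [map_natCast]
  intro h0
  have h1 := congrArg (fun z : cutOver A E => ((z : E) : Qbar)) h0
  have h2 : ((((ℓ : ℕ) : cutOver A E) : E) : Qbar) = (ℓ : Qbar) := by
    push_cast
    rfl
  simp only [h2] at h1
  have h3 : ((ℓ : ℕ) : Qbar) ≠ 0 := Nat.cast_ne_zero.mpr hℓ.ne_zero
  exact h3 (by simpa using h1)

include hℓ hA in
theorem dvd_natCast_A0_cutOver' (π : cutOver A E)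
    (hmax : maximalIdeal (cutOver A E) = Ideal.span {π}) :
    π ∣ algebraMap (A0 A ℓ) (cutOver A E) ((ℓ : ℕ) : A0 A ℓ) := by
  rw [map_natCast]
  have := natCast_mem_maximalIdeal_cutOver hℓ hA E
  rwa [hmax, Ideal.mem_span_singleton] at this

include hℓ hA in
/-- **The Frobenius chart package at the concrete types.** -/
theorem chartPkgFrob_of_chartBC
    [IsNoetherianRing ↥(H40.chartB (cutOver A E) J_E)]
    [IsIntegrallyClosed ↥(H40.chartB (cutOver A E) J_E)]
    [IsFractionRing ↥(H40.chartB (cutOver A E) J_E) (modularFunctionFieldFullC ↥E N)]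
    (π : cutOver A E) (hmax : maximalIdeal (cutOver A E) = Ideal.span {π})
    (hcl : ∀ z : modularFunctionFieldFullC ↥E N, z ∈ H40.chartB (cutOver A E) J_E →
      z ∈ Subring.closure
        (Set.range (fun b : ↥(H40.chartB (A0 A ℓ) J₁) =>
            baseChangeE E N (b : modularFunctionFieldFullC (unrCyclo ℓ) N)) ∪
          Set.range (algebraMap (cutOver A E) (modularFunctionFieldFullC ↥E N))))
    (s : modularFunctionFieldFullC ↥E N ≃+* modularFunctionFieldFullC ↥E N)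
    (sB : ↥(H40.chartB (cutOver A E) J_E) ≃+* ↥(H40.chartB (cutOver A E) J_E))
    (sB₁ : ↥(H40.chartB (A0 A ℓ) J₁) ≃+* ↥(H40.chartB (A0 A ℓ) J₁))
    (hsB : ∀ x : ↥(H40.chartB (cutOver A E) J_E),
      s (x : modularFunctionFieldFullC ↥E N) = (sB x : modularFunctionFieldFullC ↥E N))
    (hsB₁ : ∀ b : ↥(H40.chartB (A0 A ℓ) J₁),
      sB (chartBC (A := A) E N J₁ J_E h b) = chartBC (A := A) E N J₁ J_E h (sB₁ b))
    (hsπ : Associated
      (sB (algebraMap (cutOver A E) ↥(H40.chartB (cutOver A E) J_E) π))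
      (algebraMap (cutOver A E) ↥(H40.chartB (cutOver A E) J_E) π))
    (hstab : ∀ P : Ideal ↥(H40.chartB (cutOver A E) J_E), P.IsPrime → P.height = 1 →
      algebraMap (cutOver A E) ↥(H40.chartB (cutOver A E) J_E) π ∈ P → H56.Stable sB P)
    (IsNode : Ideal ↥(H40.chartB (A0 A ℓ) J₁) → Prop)
    (hL1 : ∀ (n₁ : Ideal ↥(H40.chartB (A0 A ℓ) J₁)) [n₁.IsMaximal],
      algebraMap (A0 A ℓ) ↥(H40.chartB (A0 A ℓ) J₁) ((ℓ : ℕ) : A0 A ℓ) ∈ n₁ →
        SmoothAt ((ℓ : ℕ) : A0 A ℓ) n₁ ∨ (IsNode n₁ ∧ NodeAt ((ℓ : ℕ) : A0 A ℓ) n₁))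
    (hfix : letI := (chartBC (A := A) E N J₁ J_E h).toAlgebra
      ∀ n : Ideal ↥(H40.chartB (cutOver A E) J_E), n.IsMaximal →
        algebraMap (cutOver A E) ↥(H40.chartB (cutOver A E) J_E) π ∈ n →
        IsNode (n.comap (algebraMap ↥(H40.chartB (A0 A ℓ) J₁) ↥(H40.chartB (cutOver A E) J_E))) →
        n.comap (sB : ↥(H40.chartB (cutOver A E) J_E) →+* ↥(H40.chartB (cutOver A E) J_E)) = n) :
    letI := (chartBC (A := A) E N J₁ J_E h).toAlgebra
    ChartPkgFrob ↥E ↥(H40.chartB (A0 A ℓ) J₁) π ((ℓ : ℕ) : A0 A ℓ)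
      (coordB (R := cutOver A E) J_E) sB₁ sB s IsNode := by
  letI := (chartBC (A := A) E N J₁ J_E h).toAlgebra
  have hcomp : ∀ a : A0 A ℓ,
      algebraMap ↥(H40.chartB (A0 A ℓ) J₁) ↥(H40.chartB (cutOver A E) J_E)
        (algebraMap (A0 A ℓ) ↥(H40.chartB (A0 A ℓ) J₁) a) =
      algebraMap (cutOver A E) ↥(H40.chartB (cutOver A E) J_E)
        (algebraMap (A0 A ℓ) (cutOver A E) a) := chartBC_algebraMap E N J₁ J_E h
  have hgenR := adjoin_chartBC_eq_top (A := A) E N J₁ J_E h hcl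
  have h1 := exists_A0_add_mul hℓ hA E π hmax
  exact
    { hint := hint_chartB J_E
      hq0 := natCast_A0_cutOver_ne_zero' hℓ hA E
      hπq := dvd_natCast_A0_cutOver' hℓ hA E π hmax
      hcomp := hcomp
      hgenR := hgenR
      hnn := fun n _ hπn => CA.H56.le_map_comap_sup_span π hcomp hgenR h1 n hπn
      hmax := fun n hn hπn => by
        haveI := hn
        exact CA.H56.comap_isMaximal π hcomp hgenR h1 n hπn
      hs := fun b => hsB b
      hsπ := hsπ
      hstab := hstab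
      hsB₁ := hsB₁
      hsq := by rw [map_natCast, map_natCast]
      hL1 := hL1
      hfix := hfix }

end Fermat.Agent.S35.H8
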