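/-
helper18 — S35 row DESC35: **descent of `(GEO-fn)` from `Qbar` to the finite Galois-stable levels
`E / K1`** (the S35 twin of helper34's `S34.H34.uFn_of_uFnE`).

`K1 := H45.unrCyclo l`, `E : IntermediateField K1 Qbar` finite Galois over `K1` and stable under the
whole of `Gal(Qbar / ℚ)` (helper45's `exists_finite_galois_stable_ge`), `F_E(N) :=
modularFunctionFieldFullC ↥E N`, `H99.toBar ↥E N : F_E(N) →+* FN N`.

* `GeoFnE M0 q E φ r m T` : the level-`E` form of helper86's `(GEO-fn)` (`H86.GeoFnJ`), conclusion at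
  the `Qbar` level: for `f ∈ F_E(M0 q)` admissible (helper61's `H61.Admissible ↥E f m`), with
  `ord_v f = 0` at the places `v ∈ T` of `FN (M0 q)`, and both norms `N_α f`, `N_β f` (helper16's
  `degAlgebra` / `vAlgebra` structures at level `E`) in `E^× · F_E(M0)^{× m}`, the function
  `u₃ = g² u₂ / u₂ ^ (r²)`, `u₂ = g² u₁ / u₁`, `u₁ = g² f / f` of `FN (M0 q)` lies in
  `Qbar · FN(M0 q)^{× m}`.
* `GeoFnE' M0 q E hE φ r m T` : the same with the conclusion at level `E`, for helper45's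
  coefficientwise action `Φ = H45.galActFullC E hE (M0 q) φ`; `geoFnE_of_geoFnE'`.
* `geoFnJ_of_geoFnE` : if `GeoFnE` holds for every finite Galois, Galois-stable `E / K1` containing
  a prescribed finite set `S'` of constants, then `H86.GeoFnJ M0 q φ r m T` holds.
* `exists_above_not_mem` : the places of `F_E / E` in the support of `div f` lie under places of
  `FN / Qbar` outside `T`.
-/
import Mathlib
import Fermat.Agent.S34.H34_DescTwin
import Fermat.Agent.S34.H61_ChainSkeleton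
import Fermat.Agent.S18.H45_DecompBase
import Fermat.Agent.S35.H18_NormDesc
import Fermat.Agent.S35.H86_Pushforward

set_option autoImplicit false
set_option linter.unusedSectionVars false
set_option linter.style.haveILetI false
set_option synthInstance.maxHeartbeats 400000

noncomputable section

namespace Fermat.Agent.S35.H18

open ModularCurve AlgebraicCurve HahnSeries IntermediateField
open Fermat.Agent.S18 Fermat.Agent.S34

local notation "Qbar" => AlgebraicClosure ℚ
local notation "GQ" => (AlgebraicClosure ℚ ≃ₐ[ℚ] AlgebraicClosure ℚ)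

/-! ### the `E`-level form of `ratk` -/

section RatE

variable {F : Type*} [Field F]

/-- `ratE Φ k u = Φ (Φ u) / u ^ k` : the level-`E` twin of helper86's `H86.ratk`. -/
def ratE (Φ : F ≃+* F) (k : ℕ) (u : F) : F := Φ (Φ u) / u ^ k

theorem ratE_one (Φ : F ≃+* F) (u : F) : ratE Φ 1 u = Φ (Φ u) / u := by
  rw [ratE, pow_one]

theorem ratE_ne_zero (Φ : F ≃+* F) (k : ℕ) {u : F} (hu : u ≠ 0) : ratE Φ k u ≠ 0 := by
  rw [ratE]
  exact div_ne_zero ((map_ne_zero Φ).mpr ((map_ne_zero Φ).mpr hu)) (pow_ne_zero _ hu)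

end RatE

variable (M0 q : ℕ) [NeZero M0] [NeZero q]

/-! ### the level-`E` statements -/

section Level

variable {l : ℕ} (E : IntermediateField (H45.unrCyclo l) Qbar)

/-- **The level-`E` form of `(GEO-fn)`**, conclusion at the `Qbar` level. -/
def GeoFnE (φ : GQ) (r m : ℕ) (T : Set (Place Qbar (S24.FN (M0 * q)))) : Prop :=
  ∀ f : modularFunctionFieldFullC ↥E (M0 * q), H61.Admissible ↥E f m →
    (∀ v ∈ T, v.ord (H99.toBar ↥E (M0 * q) f) = 0) →
    (∃ (c : ↥E) (h : modularFunctionFieldFullC ↥E M0), c ≠ 0 ∧ h ≠ 0 ∧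
      (letI := H16.degAlgebra ↥E M0 (M0 * q) (dvd_mul_right M0 q);
        Algebra.norm (modularFunctionFieldFullC ↥E M0) f) =
          algebraMap ↥E (modularFunctionFieldFullC ↥E M0) c * h ^ m) →
    (∃ (c : ↥E) (h : modularFunctionFieldFullC ↥E M0), c ≠ 0 ∧ h ≠ 0 ∧
      (letI := S35.H16.vAlgebra ↥E q M0 (M0 * q) (dvd_of_eq (mul_comm q M0));
        Algebra.norm (modularFunctionFieldFullC ↥E M0) f) =
          algebraMap ↥E (modularFunctionFieldFullC ↥E M0) c * h ^ m) →
    ∃ (c : Qbar) (w : S24.FN (M0 * q)), w ≠ 0 ∧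
      H86.ratk (arithmeticGalois (L := Qbar) (modularFunctionFieldFull (M0 * q)) φ) (r ^ 2)
        (H86.ratk (arithmeticGalois (L := Qbar) (modularFunctionFieldFull (M0 * q)) φ) 1
          (H86.ratk (arithmeticGalois (L := Qbar) (modularFunctionFieldFull (M0 * q)) φ) 1
            (H99.toBar ↥E (M0 * q) f))) =
        algebraMap Qbar (S24.FN (M0 * q)) c * w ^ m

variable (hE : ∀ (τ : GQ) (x : Qbar), x ∈ E → τ x ∈ E)

/-- **The level-`E` form of `(GEO-fn)`**, conclusion at level `E`, for the coefficientwise action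
`Φ = H45.galActFullC E hE (M0 q) φ` of `φ ∈ Gal(Qbar / ℚ)` on `F_E(M0 q)`. -/
def GeoFnE' (φ : GQ) (r m : ℕ) (T : Set (Place Qbar (S24.FN (M0 * q)))) : Prop :=
  ∀ f : modularFunctionFieldFullC ↥E (M0 * q), H61.Admissible ↥E f m →
    (∀ v ∈ T, v.ord (H99.toBar ↥E (M0 * q) f) = 0) →
    (∃ (c : ↥E) (h : modularFunctionFieldFullC ↥E M0), c ≠ 0 ∧ h ≠ 0 ∧
      (letI := H16.degAlgebra ↥E M0 (M0 * q) (dvd_mul_right M0 q);
        Algebra.norm (modularFunctionFieldFullC ↥E M0) f) =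
          algebraMap ↥E (modularFunctionFieldFullC ↥E M0) c * h ^ m) →
    (∃ (c : ↥E) (h : modularFunctionFieldFullC ↥E M0), c ≠ 0 ∧ h ≠ 0 ∧
      (letI := S35.H16.vAlgebra ↥E q M0 (M0 * q) (dvd_of_eq (mul_comm q M0));
        Algebra.norm (modularFunctionFieldFullC ↥E M0) f) =
          algebraMap ↥E (modularFunctionFieldFullC ↥E M0) c * h ^ m) →
    ∃ (c : ↥E) (w : modularFunctionFieldFullC ↥E (M0 * q)), w ≠ 0 ∧
      ratE (H45.galActFullC E hE (M0 * q) φ) (r ^ 2)
        (ratE (H45.galActFullC E hE (M0 * q) φ) 1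
          (ratE (H45.galActFullC E hE (M0 * q) φ) 1 f)) =
        algebraMap ↥E (modularFunctionFieldFullC ↥E (M0 * q)) c * w ^ m

/-- `toBar` intertwines `ratE` for `H45.galActFullC` with helper86's `ratk` for the arithmetic
Galois action. -/
theorem toBar_ratE (N : ℕ) [NeZero N] (φ : GQ) (k : ℕ) (u : modularFunctionFieldFullC ↥E N) :
    H99.toBar ↥E N (ratE (H45.galActFullC E hE N φ) k u) =
      H86.ratk (arithmeticGalois (L := Qbar) (modularFunctionFieldFull N) φ) k
        (H99.toBar ↥E N u) := by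
  rw [ratE, H86.ratk, map_div₀, map_pow, H45.toBar_galActFullC_smul,
    H45.toBar_galActFullC_smul]

/-- The level-`E` conclusion implies the `Qbar`-level conclusion. -/
theorem geoFnE_of_geoFnE' (φ : GQ) (r m : ℕ) (T : Set (Place Qbar (S24.FN (M0 * q))))
    (H : GeoFnE' M0 q E hE φ r m T) : GeoFnE M0 q E φ r m T := by
  intro f hf hT hα hβ
  obtain ⟨c, w, hw, hrel⟩ := H f hf hT hα hβ
  refine ⟨algebraMap ↥E Qbar c, H99.toBar ↥E (M0 * q) w, (_root_.map_ne_zero _).mpr hw, ?_⟩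
  have h1 := congrArg (H99.toBar ↥E (M0 * q)) hrel
  rw [toBar_ratE, toBar_ratE, toBar_ratE, map_mul, map_pow, H99.toBar_algebraMap] at h1
  exact h1

end Level

/-! ### the places of `F_E / E` in the support of `div f` avoid `T` -/

section Avoid

variable {l : ℕ} (E : IntermediateField (H45.unrCyclo l) Qbar) (N : ℕ) [NeZero N]

/-- If `ord_v f = 0` at all `v ∈ T`, then every place `w` of `F_E / E` with `ord_w f ≠ 0` lies under
a place `v ∉ T` of `FN N / Qbar`. -/
theorem exists_above_not_mem (T : Set (Place Qbar (S24.FN N)))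
    (f : modularFunctionFieldFullC ↥E N)
    (hT : ∀ v ∈ T, v.ord (H99.toBar ↥E N f) = 0)
    (w : Place ↥E (modularFunctionFieldFullC ↥E N)) (hw : w.ord f ≠ 0) :
    ∃ (v : Place Qbar (S24.FN N)) (e : ℕ), v ∉ T ∧ 0 < e ∧
      (∀ x : modularFunctionFieldFullC ↥E N, v.ord (H99.toBar ↥E N x) = e * w.ord x) ∧
      (∀ x : modularFunctionFieldFullC ↥E N,
        x ∈ w.toValuationSubring ↔ H99.toBar ↥E N x ∈ v.toValuationSubring) := by
  obtain ⟨v, e, he, hve, hmem⟩ := H34.exists_place_above N E w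
  refine ⟨v, e, fun hvT => hw ?_, he, hve, hmem⟩
  have h1 := hve f
  rw [hT v hvT] at h1
  have he' : (e : ℤ) ≠ 0 := by exact_mod_cast he.ne'
  exact (mul_eq_zero.mp h1.symm).resolve_left he'

end Avoid

/-! ### the descent -/

section Descent

variable {l : ℕ}

/-- **[DESC35]**: if the level-`E` statement `GeoFnE` holds for every finite Galois `E / K1` which is
stable under `Gal(Qbar / ℚ)` and contains the finite set `S'`, then helper86's `(GEO-fn)`
(`H86.GeoFnJ M0 q φ r m T`) holds on `FN (M0 q) / Qbar`. -/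
theorem geoFnJ_of_geoFnE (hq : q.Prime) (hqM : ¬ q ∣ M0) (φ : GQ) (r m : ℕ)
    (T : Set (Place Qbar (S24.FN (M0 * q)))) (S' : Finset Qbar)
    (H : ∀ (E : IntermediateField (H45.unrCyclo l) Qbar)
      [FiniteDimensional (H45.unrCyclo l) E] [IsGalois (H45.unrCyclo l) E],
      (∀ (τ : GQ) (x : Qbar), x ∈ E → τ x ∈ E) → (∀ x ∈ S', x ∈ E) →
      GeoFnE M0 q E φ r m T) :
    H86.GeoFnJ M0 q φ r m T := by
  classical
  rintro f D hf hD - hT ⟨cα, hα, hcα, hhα, hnα⟩ ⟨cβ, hβ, hcβ, hhβ, hnβ⟩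
  obtain ⟨S₀, h₀⟩ := H34.exists_finset_forall_mem_range_toBar (M0 * q) l f
  obtain ⟨Sα, hSα⟩ := H34.exists_finset_forall_mem_range_toBar M0 l hα
  obtain ⟨Sβ, hSβ⟩ := H34.exists_finset_forall_mem_range_toBar M0 l hβ
  choose S hS using fun v => H34.exists_finset_place (M0 * q) l v
  obtain ⟨E, hEfd, hEgal, hEst, hES⟩ := H45.exists_finite_galois_stable_ge l
    (S' ∪ (S₀ ∪ (Sα ∪ (Sβ ∪ ({cα, cβ} ∪ D.support.biUnion S)))))
  haveI := hEfd
  haveI := hEgal
  have hS' : ∀ x ∈ S', x ∈ E := fun x hx => hES x (Finset.mem_union_left _ hx)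
  have hES₀ : ∀ x ∈ S₀, x ∈ E := fun x hx =>
    hES x (Finset.mem_union_right _ (Finset.mem_union_left _ hx))
  have hESα : ∀ x ∈ Sα, x ∈ E := fun x hx =>
    hES x (Finset.mem_union_right _ (Finset.mem_union_right _ (Finset.mem_union_left _ hx)))
  have hESβ : ∀ x ∈ Sβ, x ∈ E := fun x hx =>
    hES x (Finset.mem_union_right _ (Finset.mem_union_right _ (Finset.mem_union_right _
      (Finset.mem_union_left _ hx))))
  have hEc : ∀ x ∈ ({cα, cβ} : Finset Qbar), x ∈ E := fun x hx =>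
    hES x (Finset.mem_union_right _ (Finset.mem_union_right _ (Finset.mem_union_right _
      (Finset.mem_union_right _ (Finset.mem_union_left _ hx)))))
  have hESD : ∀ x ∈ D.support.biUnion S, x ∈ E := fun x hx =>
    hES x (Finset.mem_union_right _ (Finset.mem_union_right _ (Finset.mem_union_right _
      (Finset.mem_union_right _ (Finset.mem_union_right _ hx)))))
  have hcαE : cα ∈ E := hEc cα (by simp)
  have hcβE : cβ ∈ E := hEc cβ (by simp)
  obtain ⟨fE, rfl⟩ := h₀ E hES₀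
  obtain ⟨hαE, rfl⟩ := hSα E hESα
  obtain ⟨hβE, rfl⟩ := hSβ E hESβ
  have hfE : fE ≠ 0 := fun h => hf (by rw [h, map_zero])
  have hhαE : hαE ≠ 0 := fun h => hhα (by rw [h, map_zero])
  have hhβE : hβE ≠ 0 := fun h => hhβ (by rw [h, map_zero])
  have hlev := H34.level_hyps (M0 * q) E m fE D hD (fun v hv => hS v E (fun a ha => hESD a
    (Finset.mem_biUnion.mpr ⟨v, Finsupp.mem_support_iff.mpr hv, ha⟩)))
  have hadm : H61.Admissible ↥E fE m := ⟨hfE, hlev.1, hlev.2.1, hlev.2.2⟩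
  have hTE : ∀ v ∈ T, v.ord (H99.toBar ↥E (M0 * q) fE) = 0 := by
    intro v hv
    rw [hD v, hT v hv, mul_zero]
  -- the norm identities descend
  have hαrel : ∃ (c : ↥E) (h : modularFunctionFieldFullC ↥E M0), c ≠ 0 ∧ h ≠ 0 ∧
      (letI := H16.degAlgebra ↥E M0 (M0 * q) (dvd_mul_right M0 q);
        Algebra.norm (modularFunctionFieldFullC ↥E M0) fE) =
          algebraMap ↥E (modularFunctionFieldFullC ↥E M0) c * h ^ m := by
    refine ⟨⟨cα, hcαE⟩, hαE, fun h => hcα (congrArg Subtype.val h), hhαE, ?_⟩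
    apply H99.toBar_injective ↥E M0
    rw [toBar_norm_alpha ↥E M0 q hq hqM fE, map_mul, map_pow, H99.toBar_algebraMap]
    exact hnα
  have hβrel : ∃ (c : ↥E) (h : modularFunctionFieldFullC ↥E M0), c ≠ 0 ∧ h ≠ 0 ∧
      (letI := S35.H16.vAlgebra ↥E q M0 (M0 * q) (dvd_of_eq (mul_comm q M0));
        Algebra.norm (modularFunctionFieldFullC ↥E M0) fE) =
          algebraMap ↥E (modularFunctionFieldFullC ↥E M0) c * h ^ m := by
    refine ⟨⟨cβ, hcβE⟩, hβE, fun h => hcβ (congrArg Subtype.val h), hhβE, ?_⟩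
    apply H99.toBar_injective ↥E M0
    rw [toBar_norm_beta ↥E M0 q hq hqM fE, map_mul, map_pow, H99.toBar_algebraMap]
    exact hnβ
  exact H E hEst hS' fE hadm hTE hαrel hβrel

/-- **[DESC35]**, level-`E` conclusion form. -/
theorem geoFnJ_of_geoFnE' (hq : q.Prime) (hqM : ¬ q ∣ M0) (φ : GQ) (r m : ℕ)
    (T : Set (Place Qbar (S24.FN (M0 * q)))) (S' : Finset Qbar)
    (H : ∀ (E : IntermediateField (H45.unrCyclo l) Qbar)
      [FiniteDimensional (H45.unrCyclo l) E] [IsGalois (H45.unrCyclo l) E]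
      (hE : ∀ (τ : GQ) (x : Qbar), x ∈ E → τ x ∈ E), (∀ x ∈ S', x ∈ E) →
      GeoFnE' M0 q E hE φ r m T) :
    H86.GeoFnJ M0 q φ r m T :=
  geoFnJ_of_geoFnE M0 q hq hqM φ r m T S' (fun E _ _ hE hS' =>
    geoFnE_of_geoFnE' M0 q E hE φ r m T (H E hE hS'))

end Descent

end Fermat.Agent.S35.H18
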