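/-
helper8 — S35 node (E2), the hypothesis `hE2₁` / `hE2₂` of helper18's `H18.geoFnE'_inst` VERBATIM
from a Frobenius chart package (`H8.ChartPkgFrob`, `H8.chartPkgFrob_of_chartBC`) and the avoided
set `T` (helper54's `escT`): the places of `FN N / Qbar` outside `T` lie above no escape place.
-/
import Mathlib
import Fermat.Agent.S35.H18_Desc35
import Fermat.Agent.S35.H8_WeakDatumInst

set_option autoImplicit false
set_option linter.unusedSectionVars false
set_option linter.style.haveILetI false
set_option synthInstance.maxHeartbeats 400000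

noncomputable section

namespace Fermat.Agent.S35.H8

open ModularCurve AlgebraicCurve HahnSeries IntermediateField IsLocalRing
open Fermat.Agent.S18 Fermat.Agent.S34

local notation "Qbar" => AlgebraicClosure ℚ

variable {A₁ : Type*} [CommRing A₁]
variable {l : ℕ} (E : IntermediateField (H45.unrCyclo l) Qbar) (N : ℕ) [NeZero N]
variable {R B : Type*} [CommRing R] [IsDomain R] [IsDiscreteValuationRing R]
  [Algebra R ↥E] [IsFractionRing R ↥E]
  [CommRing B] [IsDomain B] [Algebra B (modularFunctionFieldFullC ↥E N)]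
  [IsFractionRing B (modularFunctionFieldFullC ↥E N)]
  [Algebra R B] [Algebra R (modularFunctionFieldFullC ↥E N)]
  [IsScalarTower R B (modularFunctionFieldFullC ↥E N)]
  [IsScalarTower R ↥E (modularFunctionFieldFullC ↥E N)]
  [IsNoetherianRing B] [IsIntegrallyClosed B]
variable [Algebra A₁ R]
variable {B₁ : Type*} [CommRing B₁] [Algebra A₁ B₁] [Algebra B₁ B]

/-- **Node (E2) in the consumer shape of `H18.geoFnE'_inst`** (`hE2₁`, `hE2₂`): for `f` admissible
with `ord_v f = 0` at the places `v ∈ T`, the chart-form factorisation of `Φ (Φ f) / f` at every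
closed point of the chart.  `hT` : above an escape place (of degree one) of a node, for the tower
of that node, there are only places of `T` (`T := escT`, by definition). -/
theorem chartWeakAt_of_avoid {π : R} (hπ : Irreducible π) {q : A₁} {J : B}
    {sB₁ : B₁ ≃+* B₁} {sB : B ≃+* B}
    (Phi : modularFunctionFieldFullC ↥E N ≃+* modularFunctionFieldFullC ↥E N)
    {IsNode : Ideal B₁ → Prop}
    (H : ChartPkgFrob ↥E B₁ π q J sB₁ sB (Phi.trans Phi) IsNode)
    (T : Set (Place Qbar (S24.FN N)))
    (hT : ∀ (n : Ideal B) [n.IsMaximal], algebraMap R B π ∈ n →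
      IsNode (n.comap (algebraMap B₁ B)) →
      ∃ xs ys, NodeTowerAt q (n.comap (algebraMap B₁ B)) xs ys ∧
        ∀ (w : Place ↥E (modularFunctionFieldFullC ↥E N)) (v : Place Qbar (S24.FN N)),
          v ∉ T → w.deg = 1 →
          (∀ x : modularFunctionFieldFullC ↥E N,
            x ∈ w.toValuationSubring ↔ H99.toBar ↥E N x ∈ v.toValuationSubring) →
          ¬ IsEscapeAt R B₁ (Localization.AtPrime (n.comap (algebraMap B₁ B))) n q xs ys w)
    (m' : ℕ) :
    ∀ f : modularFunctionFieldFullC ↥E N, H61.Admissible ↥E f m' →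
      (∀ v ∈ T, v.ord (H99.toBar ↥E N f) = 0) →
      ∀ m : Ideal B, m.IsMaximal → algebraMap R B π ∈ m →
        H46.ChartWeakAt (F := modularFunctionFieldFullC ↥E N) (algebraMap R B π) m
          (Phi (Phi f) / f) m' := by
  intro f hadm hav m hm hπm
  obtain ⟨hf0, hdiv, hdeg, hfin⟩ := hadm
  haveI := hm
  refine H.chartWeakAt hπ m hπm f hf0 m' hdiv hdeg hfin fun hnode => ?_
  obtain ⟨xs, ys, htw, hT'⟩ := hT m hπm hnode
  refine ⟨xs, ys, htw, fun w hw hesc => ?_⟩
  obtain ⟨v, e, hvT, -, -, hmem⟩ := H18.exists_above_not_mem E N T f hav w hw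
  exact hT' w v hvT (hdeg w hw) hmem hesc

end Fermat.Agent.S35.H8
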