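/-
helper8 — S35 row (G2c-inst): the escape set `Esc` at the `Qbar` level is finite.

Level data (as in `S35/H8_CoordGlueFrob`): `A₁` the base DVR, `R = A'' = cutOver A E`, `k = E`,
`B₁` the `A₁`-chart, `B = B₁[R]` the chart over `R`, `F = F_E`, `O₁ = (B₁)_{n₁}` with its fixed
Morse tower `(xs, ys)`.  `Qbar` level: `Kb = Qbar`, `Fb = FN N`, `Ab` = the valuation ring of
`Qbar`, `j : R → Ab`, `ι : Ab → Kb`, `β : B₁ → Fb` (all independent of the level `E`).

* `IsEscBar β ι q xs ys v` : the LEVEL-INDEPENDENT escape predicate on places `v` of `Fb / Kb`: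
  the evaluation of `B₁` at `v` is an `Ab`-valued point of `O₁` which is never served;
* `isEscBar_of_isEscapeAt` : a place above an escape place of ANY level is `IsEscBar`;
* `above_of_forall_valuation_lt_one` : a place `v'` of `Fb / Kb` at which every `b ∈ B` is congruent
  to the constant `ev b` lies above the place `w` of `F / k` with centre `ker ev`;
* `eq_of_isEscapeAt_of_isEscBar` : **uniqueness** : if `v` lies above an escape place `w` of degree
  one of SOME level and `v'` is `IsEscBar` (for the same chart, node and tower), then `v = v'`;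
* `eq_of_isEscapeAt_of_isEscapeAt` : the two-level form (both places above escape places, of two
  possibly different levels): `Esc` at the `Qbar` level has at most one element per node;
* `finite_of_forall_exists_subsingleton` : the (trivial) wrapper giving finiteness over a finite
  index set of (chart, node);
* `algebra_adjoin_eq_top_of_intermediateField_adjoin` : `F' = K'(F)`, `K' / K` algebraic, give
  `F' = K'[F]` (the hypothesis `hgenF`).
-/
import Mathlib
import Fermat.Agent.S35.H8_CoordGlueFrob
import Fermat.Agent.S35.H8_PlaceExtUnique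

set_option autoImplicit false
set_option linter.unusedSectionVars false
set_option linter.style.haveILetI false

namespace Fermat.Agent.S35.H8

open Polynomial IsLocalRing Fermat.Agent.S34.H3 Fermat.Agent.S34.H56 Fermat.Agent.CA.H42
  AlgebraicCurve
open Fermat.Agent.CA

section Abstract

variable {A₁ O A' : Type*} [CommRing A₁] [CommRing O] [Algebra A₁ O] [CommRing A']
  [Algebra A₁ A']

/-- never-servedness persists along a change of the value ring. -/
theorem NeverServed.comp {A'' : Type*} [CommRing A''] [Algebra A₁ A''] {q : A₁} {xs ys : ℕ → O}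
    {P : O →ₐ[A₁] A'} (h : NeverServed q xs ys P) (j : A' →ₐ[A₁] A'') :
    NeverServed q xs ys (j.comp P) := by
  intro N hN
  obtain ⟨⟨a, ha⟩, ⟨b, hb⟩⟩ := h.dvd N
  rcases hN with hN | hN
  · exact hN ⟨j a, by rw [AlgHom.comp_apply, ha, map_mul, map_pow, AlgHom.commutes]⟩
  · exact hN ⟨j b, by rw [AlgHom.comp_apply, hb, map_mul, map_pow, AlgHom.commutes]⟩

/-- two never served points with values in a `q`-adically separated ring coincide. -/
theorem eq_of_neverServed_of_sep {q : A₁} {x y : O} {xs ys Gs : ℕ → O} {cs : ℕ → A₁}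
    (hT : H47.IsMorseTower q x y xs ys Gs cs) (hgen : H47.GenBy q ![x, y])
    (hsep : ∀ z : A', (∀ N : ℕ, algebraMap A₁ A' q ^ (N + 1) ∣ z) → z = 0)
    (P Q : O →ₐ[A₁] A') (hP : NeverServed q xs ys P) (hQ : NeverServed q xs ys Q) : P = Q := by
  refine AlgHom.ext fun b => ?_
  rw [← sub_eq_zero]
  exact hsep _ fun N => dvd_sub_of_neverServed hT hgen P Q hP hQ N b

end Abstract

section Val

variable {L : Type*} [Field L] (V : ValuationSubring L)

theorem valuation_add_lt_one {a b : L} (ha : V.valuation a < 1) (hb : V.valuation b < 1) :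
    V.valuation (a + b) < 1 := Valuation.map_add_lt _ ha hb

theorem valuation_mul_lt_one {a b : L} (ha : V.valuation a ≤ 1) (hb : V.valuation b < 1) :
    V.valuation (a * b) < 1 := by
  rw [map_mul]
  exact mul_lt_one_of_nonneg_of_lt_one_right ha zero_le hb

/-- `a ≡ e` modulo the maximal ideal and `e ∈ V` give `a ∈ V`. -/
theorem valuation_le_one_of_sub {a e : L} (he : V.valuation e ≤ 1) (h : V.valuation (a - e) < 1) :
    V.valuation a ≤ 1 := by
  have : a = e + (a - e) := by ring
  rw [this]
  exact (Valuation.map_add _ _ _).trans (max_le he h.le)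

/-- `a ≡ e` modulo the maximal ideal and `e` a unit give `a` a unit. -/
theorem valuation_eq_one_of_sub {a e : L} (he : V.valuation e = 1) (h : V.valuation (a - e) < 1) :
    V.valuation a = 1 := by
  have : a = e + (a - e) := by ring
  rw [this, Valuation.map_add_eq_of_lt_left _ (by rw [he]; exact h), he]

end Val

section Bridge

variable {K F K' F' : Type*} [Field K] [Field F] [Algebra K F] [Field K'] [Field F']
  [Algebra K' F'] [Algebra K K'] [Algebra F F'] [Algebra K F'] [IsScalarTower K F F']
  [IsScalarTower K K' F']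

/-- **From field generation to ring generation** (the hypothesis `hgen` of
`eq_of_above_of_deg_eq_one`): if `K' / K` is algebraic and `F' = K'(F)` then `F' = K'[F]`. -/
theorem algebra_adjoin_eq_top_of_intermediateField_adjoin [Algebra.IsAlgebraic K K']
    (h : IntermediateField.adjoin K' (Set.range (algebraMap F F')) = ⊤) :
    Algebra.adjoin K' (Set.range (algebraMap F F')) = ⊤ := by
  have halg : ∀ x ∈ Set.range (algebraMap K' F'), IsAlgebraic F x := by
    rintro _ ⟨c, rfl⟩
    have h0 : IsAlgebraic K c := Algebra.IsAlgebraic.isAlgebraic c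
    have h1 : IsAlgebraic K (algebraMap K' F' c) := h0.algebraMap
    exact h1.tower_top F
  have hfield := IntermediateField.adjoin_toSubalgebra_of_isAlgebraic halg
  have hring : (Algebra.adjoin K' (Set.range (algebraMap F F'))).toSubring =
      (Algebra.adjoin F (Set.range (algebraMap K' F'))).toSubring := by
    rw [Algebra.adjoin_eq_ring_closure, Algebra.adjoin_eq_ring_closure, Set.union_comm]
  have hinv : ∀ z ∈ Algebra.adjoin K' (Set.range (algebraMap F F')),
      z⁻¹ ∈ Algebra.adjoin K' (Set.range (algebraMap F F')) := by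
    intro z hz
    have hz' : z ∈ (Algebra.adjoin F (Set.range (algebraMap K' F'))).toSubring := by
      rw [← hring]; exact hz
    have hz'' : z ∈ (IntermediateField.adjoin F (Set.range (algebraMap K' F'))).toSubalgebra := by
      rw [hfield]; exact hz'
    have h3 : z⁻¹ ∈ (IntermediateField.adjoin F (Set.range (algebraMap K' F'))).toSubalgebra :=
      (IntermediateField.adjoin F (Set.range (algebraMap K' F'))).inv_mem hz''
    rw [hfield] at h3
    have h4 : z⁻¹ ∈ (Algebra.adjoin F (Set.range (algebraMap K' F'))).toSubring := h3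
    rw [← hring] at h4
    exact h4
  rw [eq_top_iff]
  intro z _
  let S : IntermediateField K' F' :=
    { Algebra.adjoin K' (Set.range (algebraMap F F')) with inv_mem' := hinv }
  have hS : IntermediateField.adjoin K' (Set.range (algebraMap F F')) ≤ S :=
    IntermediateField.adjoin_le_iff.mpr fun x hx => Algebra.subset_adjoin hx
  have : z ∈ S := hS (by rw [h]; trivial)
  exact this

end Bridge

variable {A₁ : Type*} [CommRing A₁]
variable {R k B F : Type*} [CommRing R] [IsDomain R] [Field k] [Algebra R k]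
  [CommRing B] [IsDomain B] [Field F] [Algebra B F] [IsFractionRing B F]
  [Algebra R B] [Algebra k F] [Algebra R F] [IsScalarTower R B F] [IsScalarTower R k F]
  [IsNoetherianRing B] [IsIntegrallyClosed B]
variable [Algebra A₁ R]
variable {B₁ : Type*} [CommRing B₁] [Algebra A₁ B₁] [Algebra B₁ B]
variable {O₁ : Type*} [CommRing O₁] [Algebra B₁ O₁] [Algebra A₁ O₁]
variable {Kb Fb Ab : Type*} [Field Kb] [Field Fb] [Algebra Kb Fb] [CommRing Ab] [Algebra A₁ Ab]
  [Algebra k Kb] [Algebra F Fb] [Algebra k Fb] [IsScalarTower k F Fb] [IsScalarTower k Kb Fb]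

/-- **The level-independent escape predicate** on places `v` of `Fb / Kb` (`= FN N / Qbar`):
the evaluation of the `A₁`-chart `B₁` at `v` is (the restriction of) an `Ab`-valued point of `O₁`
which is never served by the fixed tower `(xs, ys)`. -/
def IsEscBar (β : B₁ →+* Fb) (ι : Ab →+* Kb) (q : A₁) (xs ys : ℕ → O₁) (v : Place Kb Fb) : Prop :=
  ∃ P : O₁ →ₐ[A₁] Ab, NeverServed q xs ys P ∧
    ∀ b : B₁, v.toValuationSubring.valuation
      (β b - algebraMap Kb Fb (ι (P (algebraMap B₁ O₁ b)))) < 1

/-- the elements of the maximal ideal of `𝒪_w` go to the maximal ideal of `𝒪_v`, `v` above `w`. -/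
theorem valuation_algebraMap_lt_one_of_above (w : Place k F) (v : Place Kb Fb)
    (hvw : ∀ x : F, x ∈ w.toValuationSubring ↔ algebraMap F Fb x ∈ v.toValuationSubring)
    {x : F} (hx : w.toValuationSubring.valuation x < 1) :
    v.toValuationSubring.valuation (algebraMap F Fb x) < 1 := by
  by_cases hx0 : x = 0
  · rw [hx0, map_zero, map_zero]; exact zero_lt_one
  by_contra hge
  rw [not_lt] at hge
  have hx' : algebraMap F Fb x ≠ 0 := (_root_.map_ne_zero _).mpr hx0
  have h1 : v.toValuationSubring.valuation (algebraMap F Fb x⁻¹) ≤ 1 := by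
    rw [map_inv₀, map_inv₀]
    exact inv_le_one_of_one_le₀ hge
  have h2 : x⁻¹ ∈ w.toValuationSubring :=
    (hvw _).mpr ((v.toValuationSubring.valuation_le_one_iff _).mp h1)
  have h3 : w.toValuationSubring.valuation x⁻¹ ≤ 1 :=
    (w.toValuationSubring.valuation_le_one_iff _).mpr h2
  rw [map_inv₀] at h3
  have h4 : 1 ≤ w.toValuationSubring.valuation x := by
    have hv0 : w.toValuationSubring.valuation x ≠ 0 := (Valuation.ne_zero_iff _).mpr hx0
    exact (one_le_inv₀ (zero_lt_iff.mpr (inv_ne_zero hv0))).mpr h3 |>.trans_eq (inv_inv _)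
  exact absurd hx (not_lt.mpr h4)

/-- **(T) A place above an escape place of any level is `IsEscBar`.** -/
theorem isEscBar_of_isEscapeAt (n : Ideal B) (q : A₁) (xs ys : ℕ → O₁)
    (β : B₁ →+* Fb) (hβ : ∀ b, β b = algebraMap F Fb (algebraMap B F (algebraMap B₁ B b)))
    (ι : Ab →+* Kb) (j : R →ₐ[A₁] Ab)
    (hj : ∀ r, ι (j r) = algebraMap k Kb (algebraMap R k r))
    (w : Place k F) (v : Place Kb Fb)
    (hvw : ∀ x : F, x ∈ w.toValuationSubring ↔ algebraMap F Fb x ∈ v.toValuationSubring)
    (h : IsEscapeAt R B₁ O₁ n q xs ys w) : IsEscBar β ι q xs ys v := by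
  obtain ⟨hB, -, ev, P₁, hev0, hP₁, hN⟩ := h
  refine ⟨j.comp P₁, hN.comp j, fun b => ?_⟩
  set b' := algebraMap B₁ B b with hb'
  have hmem : b' - algebraMap R B (ev b') ∈ centre w.toValuationSubring hB := by
    rw [← hev0, map_sub, AlgHom.commutes, Algebra.algebraMap_self_apply, sub_self]
  have hlt := valuation_algebraMap_lt_one_of_above w v hvw (mem_centre.mp hmem)
  have hrew : β b - algebraMap Kb Fb (ι ((j.comp P₁) (algebraMap B₁ O₁ b))) =
      algebraMap F Fb (algebraMap B F (b' - algebraMap R B (ev b'))) := by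
    rw [hβ, AlgHom.comp_apply, hP₁, hj, ← IsScalarTower.algebraMap_apply k Kb Fb,
      IsScalarTower.algebraMap_apply k F Fb, ← IsScalarTower.algebraMap_apply R k F,
      IsScalarTower.algebraMap_apply R B F, map_sub, map_sub]
  rw [hrew]
  exact hlt

/-- **(L1)** A place `v'` of `Fb / Kb` at which every `b ∈ B` is congruent to the constant `ev b`
lies above the place `w` of `F / k` whose centre is `ker ev`. -/
theorem above_of_forall_valuation_lt_one (π : R) (hπ : π ≠ 0) [IsLocalization.Away π k] (J : B)
    (hint : ∀ b : B, (aeval (R := R) J : R[X] →ₐ[R] B).toRingHom.IsIntegralElem b)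
    (hinjR : Function.Injective (algebraMap R k))
    (w : Place k F) (hB : ∀ b : B, algebraMap B F b ∈ w.toValuationSubring)
    (ev : B →ₐ[R] R) (hev0 : ∀ b, ev b = 0 ↔ b ∈ centre w.toValuationSubring hB)
    (v' : Place Kb Fb)
    (hv' : ∀ b : B, v'.toValuationSubring.valuation
      (algebraMap F Fb (algebraMap B F b) - algebraMap k Fb (algebraMap R k (ev b))) < 1) :
    ∀ x : F, x ∈ w.toValuationSubring ↔ algebraMap F Fb x ∈ v'.toValuationSubring := by
  set V' := v'.toValuationSubring with hV'
  -- constants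
  have hconst : ∀ c : k, V'.valuation (algebraMap k Fb c) ≤ 1 := by
    intro c
    rw [IsScalarTower.algebraMap_apply k Kb Fb]
    exact (V'.valuation_le_one_iff _).mpr (v'.algebraMap_mem' _)
  have hconst1 : ∀ c : k, c ≠ 0 → V'.valuation (algebraMap k Fb c) = 1 := by
    intro c hc
    refine le_antisymm (hconst c) ?_
    have h1 := hconst c⁻¹
    rw [map_inv₀, map_inv₀] at h1
    have hv0 : V'.valuation (algebraMap k Fb c) ≠ 0 :=
      (Valuation.ne_zero_iff _).mpr ((_root_.map_ne_zero _).mpr hc)
    exact (one_le_inv₀ (zero_lt_iff.mpr (inv_ne_zero hv0))).mpr h1 |>.trans_eq (inv_inv _)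
  -- the chart lies in `V'`; elements outside the centre are units, elements inside nonunits
  have hBV : ∀ b : B, V'.valuation (algebraMap F Fb (algebraMap B F b)) ≤ 1 := fun b =>
    valuation_le_one_of_sub V' (hconst _) (hv' b)
  have hunit : ∀ b : B, b ∉ centre w.toValuationSubring hB →
      V'.valuation (algebraMap F Fb (algebraMap B F b)) = 1 := by
    intro b hb
    have h0 : ev b ≠ 0 := fun h => hb ((hev0 b).mp h)
    have h1 : algebraMap R k (ev b) ≠ 0 := fun h => h0 (hinjR (by rw [h, map_zero]))
    exact valuation_eq_one_of_sub V' (hconst1 _ h1) (hv' b)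
  have hnon : ∀ b : B, b ∈ centre w.toValuationSubring hB →
      V'.valuation (algebraMap F Fb (algebraMap B F b)) < 1 := by
    intro b hb
    have h := hv' b
    rwa [(hev0 b).mpr hb, map_zero, map_zero, sub_zero] at h
  have hsne : ∀ s : B, s ∉ centre w.toValuationSubring hB → algebraMap B F s ≠ 0 := by
    intro s hs h0
    apply hs
    have : s = 0 := (IsFractionRing.injective B F) (by rw [h0, map_zero])
    rw [this]; exact zero_mem _
  -- the two key implications
  have hle : ∀ x : F, x ∈ w.toValuationSubring → V'.valuation (algebraMap F Fb x) ≤ 1 := by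
    intro x hx
    obtain ⟨a, s, hs, hxs⟩ := (mem_place_iff_memAt_centre π hπ J hint w hB x).mp hx
    have h1 : V'.valuation (algebraMap F Fb x) * V'.valuation (algebraMap F Fb (algebraMap B F s)) =
        V'.valuation (algebraMap F Fb (algebraMap B F a)) := by
      rw [← map_mul, ← map_mul, hxs]
    rw [hunit s hs, mul_one] at h1
    rw [h1]; exact hBV a
  have hlt : ∀ x : F, w.toValuationSubring.valuation x < 1 →
      V'.valuation (algebraMap F Fb x) < 1 := by
    intro x hx
    have hxw : x ∈ w.toValuationSubring := (w.toValuationSubring.valuation_le_one_iff _).mp hx.le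
    obtain ⟨a, s, hs, hxs⟩ := (mem_place_iff_memAt_centre π hπ J hint w hB x).mp hxw
    have ha : a ∈ centre w.toValuationSubring hB := by
      rw [mem_centre, ← hxs, map_mul]
      exact mul_lt_one_of_nonneg_of_lt_one_left zero_le hx
        ((w.toValuationSubring.valuation_le_one_iff _).mpr (hB s))
    have h1 : V'.valuation (algebraMap F Fb x) * V'.valuation (algebraMap F Fb (algebraMap B F s)) =
        V'.valuation (algebraMap F Fb (algebraMap B F a)) := by
      rw [← map_mul, ← map_mul, hxs]
    rw [hunit s hs, mul_one] at h1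
    rw [h1]; exact hnon a ha
  intro x
  refine ⟨fun hx => (V'.valuation_le_one_iff _).mp (hle x hx), fun hx => ?_⟩
  by_contra hxw
  have hx0 : x ≠ 0 := fun h => hxw (h ▸ zero_mem _)
  have hinv : w.toValuationSubring.valuation x⁻¹ < 1 := by
    have h1 : ¬ w.toValuationSubring.valuation x ≤ 1 := fun h =>
      hxw ((w.toValuationSubring.valuation_le_one_iff _).mp h)
    rw [not_le] at h1
    rw [map_inv₀]
    exact inv_lt_one_of_one_lt₀ h1
  have h2 := hlt _ hinv
  rw [map_inv₀, map_inv₀] at h2
  have h3 : V'.valuation (algebraMap F Fb x) ≤ 1 := (V'.valuation_le_one_iff _).mpr hx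
  have hv0 : V'.valuation (algebraMap F Fb x) ≠ 0 :=
    (Valuation.ne_zero_iff _).mpr ((_root_.map_ne_zero _).mpr hx0)
  have h4 : 1 ≤ (V'.valuation (algebraMap F Fb x))⁻¹ :=
    (one_le_inv₀ (zero_lt_iff.mpr hv0)).mpr h3
  exact absurd h2 (not_lt.mpr h4)

section Final

variable [IsDiscreteValuationRing R] [IsFractionRing R k]

/-- **(Uq) Uniqueness at the `Qbar` level.**  `v` above an escape place `w` of degree one of the
level `(R, k, B, F)`; `v'` any `IsEscBar` place (same chart `B₁`, node `O₁`, tower).  Then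
`v = v'`. -/
theorem eq_of_isEscapeAt_of_isEscBar (n : Ideal B) (π : R) (hπ : Irreducible π) (J : B)
    (hint : ∀ b : B, (aeval (R := R) J : R[X] →ₐ[R] B).toRingHom.IsIntegralElem b)
    (q : A₁)
    (hgenR : Algebra.adjoin B₁ (Set.range (algebraMap R B)) = ⊤)
    {x y : O₁} {xs ys Gs : ℕ → O₁} {cs : ℕ → A₁}
    (hT : H47.IsMorseTower q x y xs ys Gs cs) (hgen : H47.GenBy q ![x, y])
    (hsep : ∀ z : Ab, (∀ N : ℕ, algebraMap A₁ Ab q ^ (N + 1) ∣ z) → z = 0)
    (hgenF : Algebra.adjoin Kb (Set.range (algebraMap F Fb)) = ⊤)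
    (β : B₁ →+* Fb) (hβ : ∀ b, β b = algebraMap F Fb (algebraMap B F (algebraMap B₁ B b)))
    (ι : Ab →+* Kb) (j : R →ₐ[A₁] Ab)
    (hj : ∀ r, ι (j r) = algebraMap k Kb (algebraMap R k r))
    (w : Place k F) (hdeg : w.deg = 1) (v : Place Kb Fb)
    (hvw : ∀ x : F, x ∈ w.toValuationSubring ↔ algebraMap F Fb x ∈ v.toValuationSubring)
    (h : IsEscapeAt R B₁ O₁ n q xs ys w)
    (v' : Place Kb Fb) (h' : IsEscBar β ι q xs ys v') : v = v' := by
  haveI := isLocalization_away_of_dvr (k := k) hπ
  obtain ⟨hB, -, ev, P₁, hev0, hP₁, hN⟩ := h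
  obtain ⟨P', hN', hval'⟩ := h'
  have hPP : j.comp P₁ = P' := eq_of_neverServed_of_sep hT hgen hsep _ _ (hN.comp j) hN'
  set V' := v'.toValuationSubring with hV'
  have hconst : ∀ c : k, V'.valuation (algebraMap k Fb c) ≤ 1 := by
    intro c
    rw [IsScalarTower.algebraMap_apply k Kb Fb]
    exact (V'.valuation_le_one_iff _).mpr (v'.algebraMap_mem' _)
  have hkey : ∀ b : B, V'.valuation
      (algebraMap F Fb (algebraMap B F b) - algebraMap k Fb (algebraMap R k (ev b))) < 1 := by
    intro b
    have hb : b ∈ Algebra.adjoin B₁ (Set.range (algebraMap R B)) := by rw [hgenR]; trivial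
    induction hb using Algebra.adjoin_induction with
    | mem z hz =>
      obtain ⟨r, rfl⟩ := hz
      rw [AlgHom.commutes, Algebra.algebraMap_self_apply, ← IsScalarTower.algebraMap_apply R B F,
        IsScalarTower.algebraMap_apply R k F, ← IsScalarTower.algebraMap_apply k F Fb, sub_self,
        map_zero]
      exact zero_lt_one
    | algebraMap b₁ =>
      have h1 := hval' b₁
      rw [← hPP, AlgHom.comp_apply, hP₁, hj, hβ, ← IsScalarTower.algebraMap_apply k Kb Fb] at h1
      exact h1
    | add z₁ z₂ _ _ h₁ h₂ =>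
      have : algebraMap F Fb (algebraMap B F (z₁ + z₂)) -
          algebraMap k Fb (algebraMap R k (ev (z₁ + z₂))) =
          (algebraMap F Fb (algebraMap B F z₁) - algebraMap k Fb (algebraMap R k (ev z₁))) +
          (algebraMap F Fb (algebraMap B F z₂) - algebraMap k Fb (algebraMap R k (ev z₂))) := by
        simp only [map_add]; ring
      rw [this]
      exact valuation_add_lt_one V' h₁ h₂
    | mul z₁ z₂ _ _ h₁ h₂ =>
      have : algebraMap F Fb (algebraMap B F (z₁ * z₂)) -
          algebraMap k Fb (algebraMap R k (ev (z₁ * z₂))) =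
          algebraMap F Fb (algebraMap B F z₁) *
            (algebraMap F Fb (algebraMap B F z₂) - algebraMap k Fb (algebraMap R k (ev z₂))) +
          algebraMap k Fb (algebraMap R k (ev z₂)) *
            (algebraMap F Fb (algebraMap B F z₁) - algebraMap k Fb (algebraMap R k (ev z₁))) := by
        simp only [map_mul]; ring
      rw [this]
      exact valuation_add_lt_one V'
        (valuation_mul_lt_one V' (valuation_le_one_of_sub V' (hconst _) h₁) h₂)
        (valuation_mul_lt_one V' (hconst _) h₁)
  have hv'w := above_of_forall_valuation_lt_one π hπ.ne_zero J hint (IsFractionRing.injective R k)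
    w hB ev hev0 v' hkey
  exact eq_of_above_of_deg_eq_one hgenF w hdeg v v' hvw hv'w

/-- **Two levels.**  `v` above an escape place `w` (degree one) of the level `(R, k, B, F)`, `v'`
above an escape place `w'` of the level `(R', k', B', F')`, for the same chart `B₁`, node `O₁` and
tower: then `v = v'`.  (`Esc` at the `Qbar` level has at most one element per node.) -/
theorem eq_of_isEscapeAt_of_isEscapeAt
    {R' k' B' F' : Type*} [CommRing R'] [IsDomain R'] [Field k'] [Algebra R' k']
    [CommRing B'] [IsDomain B'] [Field F'] [Algebra B' F'] [IsFractionRing B' F']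
    [Algebra R' B'] [Algebra k' F'] [Algebra R' F'] [IsScalarTower R' B' F']
    [IsScalarTower R' k' F'] [IsNoetherianRing B'] [IsIntegrallyClosed B']
    [Algebra A₁ R'] [Algebra B₁ B']
    [Algebra k' Kb] [Algebra F' Fb] [Algebra k' Fb] [IsScalarTower k' F' Fb]
    [IsScalarTower k' Kb Fb]
    (n : Ideal B) (π : R) (hπ : Irreducible π) (J : B)
    (hint : ∀ b : B, (aeval (R := R) J : R[X] →ₐ[R] B).toRingHom.IsIntegralElem b)
    (q : A₁)
    (hgenR : Algebra.adjoin B₁ (Set.range (algebraMap R B)) = ⊤)
    {x y : O₁} {xs ys Gs : ℕ → O₁} {cs : ℕ → A₁}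
    (hT : H47.IsMorseTower q x y xs ys Gs cs) (hgen : H47.GenBy q ![x, y])
    (hsep : ∀ z : Ab, (∀ N : ℕ, algebraMap A₁ Ab q ^ (N + 1) ∣ z) → z = 0)
    (hgenF : Algebra.adjoin Kb (Set.range (algebraMap F Fb)) = ⊤)
    (β : B₁ →+* Fb) (hβ : ∀ b, β b = algebraMap F Fb (algebraMap B F (algebraMap B₁ B b)))
    (ι : Ab →+* Kb) (j : R →ₐ[A₁] Ab)
    (hj : ∀ r, ι (j r) = algebraMap k Kb (algebraMap R k r))
    (w : Place k F) (hdeg : w.deg = 1) (v : Place Kb Fb)
    (hvw : ∀ x : F, x ∈ w.toValuationSubring ↔ algebraMap F Fb x ∈ v.toValuationSubring)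
    (h : IsEscapeAt R B₁ O₁ n q xs ys w)
    (n' : Ideal B')
    (hβ' : ∀ b, β b = algebraMap F' Fb (algebraMap B' F' (algebraMap B₁ B' b)))
    (j' : R' →ₐ[A₁] Ab) (hj' : ∀ r, ι (j' r) = algebraMap k' Kb (algebraMap R' k' r))
    (w' : Place k' F') (v' : Place Kb Fb)
    (hv'w' : ∀ x : F', x ∈ w'.toValuationSubring ↔ algebraMap F' Fb x ∈ v'.toValuationSubring)
    (h' : IsEscapeAt R' B₁ O₁ n' q xs ys w') : v = v' :=
  eq_of_isEscapeAt_of_isEscBar n π hπ J hint q hgenR hT hgen hsep hgenF β hβ ι j hj w hdeg v hvw h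
    v' (isEscBar_of_isEscapeAt n' q xs ys β hβ' ι j' hj' w' v' hv'w' h')

end Final

section Finite

/-- a set all of whose elements satisfy one of finitely many "at most one" predicates is finite. -/
theorem finite_of_forall_exists_subsingleton {α ι : Type*} [Finite ι] (T : Set α)
    (p : ι → α → Prop) (hT : ∀ a ∈ T, ∃ i, p i a)
    (hp : ∀ i, ∀ a ∈ T, ∀ a' ∈ T, p i a → p i a' → a = a') : T.Finite := by
  classical
  have hsub : T ⊆ ⋃ i : ι, {a | a ∈ T ∧ p i a} := by
    intro a ha
    obtain ⟨i, hi⟩ := hT a ha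
    exact Set.mem_iUnion.mpr ⟨i, ha, hi⟩
  refine Set.Finite.subset (Set.finite_iUnion fun i => ?_) hsub
  apply Set.Subsingleton.finite
  rintro a ⟨ha, hpa⟩ a' ⟨ha', hpa'⟩
  exact hp i a ha a' ha' hpa hpa'

end Finite

end Fermat.Agent.S35.H8
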