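/-
helper8 — S35 row (G2c-inst), instance-level inputs of `S35/H8_EscFinite`:

* `algebra_adjoin_range_toBar_eq_top` : `FN N = Qbar[F_L]` (ring generation) for `L ⊆ Qbar`
  algebraic, with `F_L = modularFunctionFieldFullC L N → FN N` the `toBar` algebra structure
  (`= hgenF` of `H8.eq_of_isEscapeAt_of_isEscBar` / `hgen` of `H8.eq_of_above_of_deg_eq_one`);
* `eq_of_above_toBar` : a place of degree one of `F_L / L` lies under at most one place of
  `FN N / Qbar`, and `ord_toBar_eq_of_above` : without ramification.
-/
import Mathlib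
import Fermat.Agent.S18.H99_F1Basics
import Fermat.Agent.S35.H8_EscFinite

set_option autoImplicit false
set_option linter.unusedSectionVars false
set_option linter.style.haveILetI false

namespace Fermat.Agent.S35.H8

open AlgebraicCurve ModularCurve Fermat.Agent.S18

variable (L : Type*) [Field L] [Algebra L S24.Qbar] (N : ℕ) [NeZero N]
  [Algebra L (S24.FN N)] [IsScalarTower L S24.Qbar (S24.FN N)]

/-- `FN N` is generated AS A RING over `Qbar` by the image of `F_L` (`L ⊆ Qbar` algebraic). -/
theorem algebra_adjoin_range_toBar_eq_top [Algebra.IsAlgebraic L S24.Qbar] :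
    Algebra.adjoin S24.Qbar (Set.range (H99.toBar L N)) = ⊤ := by
  letI := H99.toBarAlgebra L N
  haveI := H99.isScalarTower_toBar L N
  exact algebra_adjoin_eq_top_of_intermediateField_adjoin (K := L)
    (F := modularFunctionFieldFullC L N) (K' := S24.Qbar) (F' := S24.FN N)
    (H99.adjoin_range_toBar_eq_top L N)

/-- **A place of degree one of `F_L / L` lies under at most one place of `FN N / Qbar`.** -/
theorem eq_of_above_toBar [Algebra.IsAlgebraic L S24.Qbar]
    (w : Place L (modularFunctionFieldFullC L N)) (hdeg : w.deg = 1)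
    (v v' : Place S24.Qbar (S24.FN N))
    (hvw : ∀ x, x ∈ w.toValuationSubring ↔ H99.toBar L N x ∈ v.toValuationSubring)
    (hv'w : ∀ x, x ∈ w.toValuationSubring ↔ H99.toBar L N x ∈ v'.toValuationSubring) :
    v = v' := by
  letI := H99.toBarAlgebra L N
  haveI := H99.isScalarTower_toBar L N
  exact eq_of_above_of_deg_eq_one (K := L) (algebra_adjoin_range_toBar_eq_top L N) w hdeg v v'
    hvw hv'w

/-- and above a place of degree one there is no ramification: `ord_v (toBar x) = ord_w x`. -/
theorem ord_toBar_eq_of_above [Algebra.IsAlgebraic L S24.Qbar]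
    (w : Place L (modularFunctionFieldFullC L N)) (hdeg : w.deg = 1)
    (v : Place S24.Qbar (S24.FN N))
    (hvw : ∀ x, x ∈ w.toValuationSubring ↔ H99.toBar L N x ∈ v.toValuationSubring)
    (x : modularFunctionFieldFullC L N) : v.ord (H99.toBar L N x) = w.ord x := by
  letI := H99.toBarAlgebra L N
  haveI := H99.isScalarTower_toBar L N
  exact ord_algebraMap_eq_of_above (K := L) (algebra_adjoin_range_toBar_eq_top L N) w hdeg v hvw x

end Fermat.Agent.S35.H8
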