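import Mathlib
import Fermat.Agent.S35.H8_EscInst
import Fermat.Agent.S35.H8_E2Final
import Fermat.Agent.S35.H8_ChartPkgFrobInst
import Fermat.Agent.S35.H18_SepA

/-!
S35 / (E5) (helper16, backup twin of helper54's `H54_EscT`): the CONCRETE escape set `escTChart` of
one chart at the `Qbar` level, its finiteness, and the consumer hypothesis `hT` of helper8's
`H8.chartWeakAt_of_avoid`.
-/

set_option autoImplicit false
set_option linter.unusedSectionVars false
set_option linter.style.haveILetI false
set_option synthInstance.maxHeartbeats 400000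

noncomputable section

namespace Fermat.Agent.S35.H16

open Polynomial ModularCurve AlgebraicCurve HahnSeries IntermediateField IsLocalRing
open Fermat.Agent.S18 Fermat.Agent.S18.H45 Fermat.Agent.S34.H95 Fermat.Agent.S34
open Fermat.Agent.S35.H8

local notation "Qbar" => AlgebraicClosure ℚ

variable {A : ValuationSubring Qbar} {ℓ : ℕ} (hℓ : ℓ.Prime) (hA : A.LiesOverPrime ℓ)
variable (N : ℕ) [NeZero N] (J₁ : modularFunctionFieldFullC (unrCyclo ℓ) N)

/-! ### the chosen Morse tower at a node of the `A₁`-chart -/

section Tower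

variable {A₁ B₁ : Type*} [CommRing A₁] [CommRing B₁] [Algebra A₁ B₁]

/-- The chosen tower at `n₁` (junk unless a `NodeTowerAt` exists). -/
def towerX (q : A₁) (n₁ : Ideal B₁) [n₁.IsPrime] : ℕ → Localization.AtPrime n₁ :=
  open Classical in
  if h : ∃ xs ys, NodeTowerAt q n₁ xs ys then Classical.choose h else fun _ => 0

/-- The chosen tower at `n₁` (junk unless a `NodeTowerAt` exists). -/
def towerY (q : A₁) (n₁ : Ideal B₁) [n₁.IsPrime] : ℕ → Localization.AtPrime n₁ :=
  open Classical in
  if h : ∃ xs ys, NodeTowerAt q n₁ xs ys then Classical.choose (Classical.choose_spec h)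
  else fun _ => 0

theorem nodeTowerAt_tower {q : A₁} {n₁ : Ideal B₁} [n₁.IsPrime]
    (h : ∃ xs ys, NodeTowerAt q n₁ xs ys) :
    NodeTowerAt q n₁ (towerX q n₁) (towerY q n₁) := by
  unfold towerX towerY
  rw [dif_pos h, dif_pos h]
  exact Classical.choose_spec (Classical.choose_spec h)

/-- the node alternative of the L1 output gives a tower. -/
theorem nodeTowerAt_tower_of_nodeAt {q : A₁} {n₁ : Ideal B₁} [n₁.IsPrime] (h : NodeAt q n₁) :
    NodeTowerAt q n₁ (towerX q n₁) (towerY q n₁) :=
  nodeTowerAt_tower h.exists_tower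

end Tower

/-! ### the level data and the escape set of one chart -/

section EscT

local notation "A₁" => A0 A ℓ
set_option quotPrecheck false in
local notation "B₁" => ↥(H40.chartB (A0 A ℓ) J₁)
local notation "qA" => ((ℓ : ℕ) : A0 A ℓ)

/-- What the escape set needs to know about a level `E`: finite over `K₁`, the `E`-level chart is a
noetherian integrally closed domain with fraction field `F_E`, and helper40's `(a)'`. -/
structure EscLevel (E : IntermediateField (unrCyclo ℓ) Qbar) : Prop where
  fd : FiniteDimensional (unrCyclo ℓ) E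
  noeth : IsNoetherianRing ↥(H40.chartB (cutOver A E) (baseChangeE E N J₁))
  intcl : IsIntegrallyClosed ↥(H40.chartB (cutOver A E) (baseChangeE E N J₁))
  frac : IsFractionRing ↥(H40.chartB (cutOver A E) (baseChangeE E N J₁))
    (modularFunctionFieldFullC ↥E N)
  hcl : ∀ z : modularFunctionFieldFullC ↥E N,
    z ∈ H40.chartB (cutOver A E) (baseChangeE E N J₁) →
      z ∈ Subring.closure
        (Set.range (fun b : ↥(H40.chartB (A0 A ℓ) J₁) =>
            baseChangeE E N (b : modularFunctionFieldFullC (unrCyclo ℓ) N)) ∪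
          Set.range (algebraMap (cutOver A E) (modularFunctionFieldFullC ↥E N)))

/-- The escape places above the `A₁`-node `n₁` (for its chosen tower): the places of `FN N / Qbar`
lying above an escape place of degree one of SOME level `E`. -/
def escAt (n₁ : Ideal B₁) [n₁.IsPrime] : Set (Place Qbar (S24.FN N)) :=
  {v | ∃ (E : IntermediateField (unrCyclo ℓ) Qbar) (_ : EscLevel (A := A) N J₁ E),
      letI := (chartBC (A := A) E N J₁ (baseChangeE E N J₁) rfl).toAlgebra
      ∃ (n : Ideal ↥(H40.chartB (cutOver A E) (baseChangeE E N J₁)))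
        (w : Place ↥E (modularFunctionFieldFullC ↥E N)),
        w.deg = 1 ∧
        (∀ x : modularFunctionFieldFullC ↥E N,
          x ∈ w.toValuationSubring ↔ H99.toBar ↥E N x ∈ v.toValuationSubring) ∧
        IsEscapeAt (cutOver A E) B₁ (Localization.AtPrime n₁) n qA
          (towerX qA n₁) (towerY qA n₁) w}

/-- The escape set of the chart `J₁`, for the node predicate `IsNode`. -/
def escTChart (IsNode : Ideal B₁ → Prop) : Set (Place Qbar (S24.FN N)) :=
  {v | ∃ (n₁ : Ideal B₁) (_ : n₁.IsMaximal), IsNode n₁ ∧
    haveI : n₁.IsPrime := Ideal.IsMaximal.isPrime ‹_›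
    v ∈ escAt (A := A) N J₁ n₁}

end EscT

end Fermat.Agent.S35.H16
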