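import Mathlib
import Fermat.Agent.S35.H16_EscT

/-!
S35 / (E5) (helper16): the escape set `escTChart N J₁ IsNode` is finite: at most one place of
`FN N / Qbar` per node of the `A₁`-chart (helper8's `H8.eq_of_isEscapeAt_of_isEscapeAt` at two
levels `E`, `E'`).
-/

set_option autoImplicit false
set_option linter.unusedSectionVars false
set_option linter.style.haveILetI false
set_option synthInstance.maxHeartbeats 400000
set_option maxHeartbeats 3200000

noncomputable section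

namespace Fermat.Agent.S35.H16

open Polynomial ModularCurve AlgebraicCurve HahnSeries IntermediateField IsLocalRing
open Fermat.Agent.S18 Fermat.Agent.S18.H45 Fermat.Agent.S34.H95 Fermat.Agent.S34
open Fermat.Agent.S35.H8

local notation "Qbar" => AlgebraicClosure ℚ

variable {A : ValuationSubring Qbar} {ℓ : ℕ} (hℓ : ℓ.Prime) (hA : A.LiesOverPrime ℓ)
variable (N : ℕ) [NeZero N] (J₁ : modularFunctionFieldFullC (unrCyclo ℓ) N)

/-- `A₁ → A` as an algebra (local instance). -/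
abbrev algebraA0A : Algebra (A0 A ℓ) ↥A := (inclA0 A ℓ).toAlgebra

/-- `A'' = A ∩ E → A` as an `A₁`-algebra map. -/
def inclCutOverAlgHom (E : IntermediateField (unrCyclo ℓ) Qbar) :
    letI := algebraA0A (A := A) (ℓ := ℓ)
    cutOver A E →ₐ[A0 A ℓ] ↥A :=
  letI := algebraA0A (A := A) (ℓ := ℓ)
  { inclCutOver A E with commutes' := fun _ => rfl }

/-- The evaluation of the `A₁`-chart in `FN N`. -/
def betaBar : ↥(H40.chartB (A0 A ℓ) J₁) →+* S24.FN N :=
  (H99.toBar (unrCyclo ℓ) N).comp (H40.chartB (A0 A ℓ) J₁).val.toRingHom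

theorem betaBar_apply (b : ↥(H40.chartB (A0 A ℓ) J₁)) :
    betaBar (A := A) N J₁ b =
      H99.toBar (unrCyclo ℓ) N (b : modularFunctionFieldFullC (unrCyclo ℓ) N) := rfl

include hℓ hA in
/-- `A` is `ℓ`-adically separated, in the shape `hsep` of `H8.eq_of_isEscapeAt_of_isEscBar`. -/
theorem hsep_A :
    letI := algebraA0A (A := A) (ℓ := ℓ)
    ∀ z : ↥A, (∀ n : ℕ, algebraMap (A0 A ℓ) ↥A ((ℓ : ℕ) : A0 A ℓ) ^ (n + 1) ∣ z) → z = 0 := by
  letI := algebraA0A (A := A) (ℓ := ℓ)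
  intro z hz
  refine H18.sep_valuationSubring hℓ hA z fun n => ?_
  have h := hz n
  rwa [map_natCast] at h

include hℓ hA in
/-- **At most one escape place of `FN N / Qbar` above a node of the `A₁`-chart.** -/
theorem escAt_subsingleton (n₁ : Ideal ↥(H40.chartB (A0 A ℓ) J₁)) [n₁.IsPrime]
    (hnode : ∃ xs ys, NodeTowerAt ((ℓ : ℕ) : A0 A ℓ) n₁ xs ys) :
    (escAt (A := A) N J₁ n₁).Subsingleton := by
  rintro v ⟨E, L, hv⟩ v' ⟨E', L', hv'⟩
  letI iE := (chartBC (A := A) E N J₁ (baseChangeE E N J₁) rfl).toAlgebra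
  letI iE' := (chartBC (A := A) E' N J₁ (baseChangeE E' N J₁) rfl).toAlgebra
  obtain ⟨n, w, hdeg, habove, hesc⟩ := hv
  obtain ⟨n', w', -, habove', hesc'⟩ := hv'
  haveI := L.fd
  haveI := L'.fd
  haveI := isDiscreteValuationRing_cutOver hℓ hA E
  haveI := L.noeth
  haveI := L.intcl
  haveI := L.frac
  haveI := L'.noeth
  haveI := L'.intcl
  haveI := L'.frac
  letI := H99.toBarAlgebra ↥E N
  haveI := H99.isScalarTower_toBar ↥E N
  letI := H99.toBarAlgebra ↥E' N
  haveI := H99.isScalarTower_toBar ↥E' N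
  letI := algebraA0A (A := A) (ℓ := ℓ)
  obtain ⟨π, hπ⟩ := IsDiscreteValuationRing.exists_irreducible (cutOver A E)
  obtain ⟨x, y, Gs, cs, hT, hgen, -, -, -⟩ := nodeTowerAt_tower hnode
  have hgenR := adjoin_chartBC_eq_top (A := A) E N J₁ (baseChangeE E N J₁) rfl L.hcl
  have hgenF := H8.algebra_adjoin_range_toBar_eq_top ↥E N
  have hβ : ∀ b : ↥(H40.chartB (A0 A ℓ) J₁), betaBar (A := A) N J₁ b =
      algebraMap (modularFunctionFieldFullC ↥E N) (S24.FN N)
        (algebraMap ↥(H40.chartB (cutOver A E) (baseChangeE E N J₁))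
          (modularFunctionFieldFullC ↥E N)
          (algebraMap ↥(H40.chartB (A0 A ℓ) J₁)
            ↥(H40.chartB (cutOver A E) (baseChangeE E N J₁)) b)) :=
    fun b => (toBar_baseChangeE E N (b : modularFunctionFieldFullC (unrCyclo ℓ) N)).symm
  have hβ' : ∀ b : ↥(H40.chartB (A0 A ℓ) J₁), betaBar (A := A) N J₁ b =
      algebraMap (modularFunctionFieldFullC ↥E' N) (S24.FN N)
        (algebraMap ↥(H40.chartB (cutOver A E') (baseChangeE E' N J₁))
          (modularFunctionFieldFullC ↥E' N)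
          (algebraMap ↥(H40.chartB (A0 A ℓ) J₁)
            ↥(H40.chartB (cutOver A E') (baseChangeE E' N J₁)) b)) :=
    fun b => (toBar_baseChangeE E' N (b : modularFunctionFieldFullC (unrCyclo ℓ) N)).symm
  have k1 := H8.eq_of_isEscapeAt_of_isEscapeAt (R := cutOver A E) (k := ↥E)
    (B := ↥(H40.chartB (cutOver A E) (baseChangeE E N J₁))) (F := modularFunctionFieldFullC ↥E N)
    (B₁ := ↥(H40.chartB (A0 A ℓ) J₁)) (O₁ := Localization.AtPrime n₁)
    (Kb := Qbar) (Fb := S24.FN N) (Ab := ↥A)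
    (R' := cutOver A E') (k' := ↥E')
    (B' := ↥(H40.chartB (cutOver A E') (baseChangeE E' N J₁)))
    (F' := modularFunctionFieldFullC ↥E' N)
    n π hπ (coordB (R := cutOver A E) (baseChangeE E N J₁)) (hint_chartB _)
    ((ℓ : ℕ) : A0 A ℓ) hgenR hT hgen (hsep_A hℓ hA) hgenF
  have k2 := k1 (betaBar (A := A) N J₁) hβ A.subtype (inclCutOverAlgHom (A := A) E)
    (fun _ => rfl) w hdeg v habove hesc
  exact k2 n' hβ' (inclCutOverAlgHom (A := A) E') (fun _ => rfl) w' v' habove' hesc'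

include hℓ hA in
/-- **The escape set of one chart is finite**, as soon as the `A₁`-chart has finitely many nodes. -/
theorem escTChart_finite (IsNode : Ideal ↥(H40.chartB (A0 A ℓ) J₁) → Prop)
    (htower : ∀ (n₁ : Ideal ↥(H40.chartB (A0 A ℓ) J₁)) [n₁.IsPrime], IsNode n₁ →
      ∃ xs ys, NodeTowerAt ((ℓ : ℕ) : A0 A ℓ) n₁ xs ys)
    (hfin : {n₁ : Ideal ↥(H40.chartB (A0 A ℓ) J₁) | n₁.IsMaximal ∧ IsNode n₁}.Finite) :
    (escTChart (A := A) N J₁ IsNode).Finite := by
  classical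
  haveI : Finite {n₁ : Ideal ↥(H40.chartB (A0 A ℓ) J₁) // n₁.IsMaximal ∧ IsNode n₁} :=
    hfin.to_subtype
  refine H8.finite_of_forall_exists_subsingleton
    (ι := {n₁ : Ideal ↥(H40.chartB (A0 A ℓ) J₁) // n₁.IsMaximal ∧ IsNode n₁}) _
    (fun x v => haveI : x.1.IsPrime := x.2.1.isPrime; v ∈ escAt (A := A) N J₁ x.1) ?_ ?_
  · rintro v ⟨n₁, hmax, hnode, hv⟩
    exact ⟨⟨n₁, hmax, hnode⟩, hv⟩
  · rintro x v - v' - hv hv'
    haveI : x.1.IsPrime := x.2.1.isPrime
    exact escAt_subsingleton hℓ hA N J₁ x.1 (htower x.1 x.2.2) hv hv'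

end Fermat.Agent.S35.H16
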