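import Mathlib
import Fermat.Agent.S35.H16_EscT

/-!
S35 / (E5) (helper16): the consumer hypothesis `hT` of helper8's `H8.chartWeakAt_of_avoid` for any
`T ⊇ escTChart` (by definition of `escTChart`).
-/

set_option autoImplicit false
set_option linter.unusedSectionVars false
set_option linter.style.haveILetI false
set_option synthInstance.maxHeartbeats 400000
set_option maxHeartbeats 3200000

noncomputable section

namespace Fermat.Agent.S35.H16

open Polynomial ModularCurve AlgebraicCurve HahnSeries IntermediateField IsLocalRing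
open Fermat.Agent.S18 Fermat.Agent.S18.H45 Fermat.Agent.S34.H95 Fermat.Agent.S34
open Fermat.Agent.S35.H8

local notation "Qbar" => AlgebraicClosure ℚ

variable {A : ValuationSubring Qbar} {ℓ : ℕ} (hℓ : ℓ.Prime) (hA : A.LiesOverPrime ℓ)
variable (N : ℕ) [NeZero N] (J₁ : modularFunctionFieldFullC (unrCyclo ℓ) N)

include hℓ hA in
/-- **The hypothesis `hT` of `H8.chartWeakAt_of_avoid`**, for any `T ⊇ escTChart N J₁ IsNode`. -/
theorem hT_of_escTChart_subset (IsNode : Ideal ↥(H40.chartB (A0 A ℓ) J₁) → Prop)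
    (htower : ∀ (n₁ : Ideal ↥(H40.chartB (A0 A ℓ) J₁)) [n₁.IsPrime], IsNode n₁ →
      ∃ xs ys, NodeTowerAt ((ℓ : ℕ) : A0 A ℓ) n₁ xs ys)
    (E : IntermediateField (unrCyclo ℓ) Qbar) (L : EscLevel (A := A) N J₁ E)
    (π : cutOver A E) (hmax : maximalIdeal (cutOver A E) = Ideal.span {π})
    (T : Set (Place Qbar (S24.FN N))) (hsub : escTChart (A := A) N J₁ IsNode ⊆ T) :
    letI := (chartBC (A := A) E N J₁ (baseChangeE E N J₁) rfl).toAlgebra
    ∀ (n : Ideal ↥(H40.chartB (cutOver A E) (baseChangeE E N J₁))) [n.IsMaximal],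
      algebraMap (cutOver A E) ↥(H40.chartB (cutOver A E) (baseChangeE E N J₁)) π ∈ n →
      IsNode (n.comap (algebraMap ↥(H40.chartB (A0 A ℓ) J₁)
        ↥(H40.chartB (cutOver A E) (baseChangeE E N J₁)))) →
      ∃ xs ys, NodeTowerAt ((ℓ : ℕ) : A0 A ℓ) (n.comap (algebraMap ↥(H40.chartB (A0 A ℓ) J₁)
          ↥(H40.chartB (cutOver A E) (baseChangeE E N J₁)))) xs ys ∧
        ∀ (w : Place ↥E (modularFunctionFieldFullC ↥E N)) (v : Place Qbar (S24.FN N)),
          v ∉ T → w.deg = 1 →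
          (∀ x : modularFunctionFieldFullC ↥E N,
            x ∈ w.toValuationSubring ↔ H99.toBar ↥E N x ∈ v.toValuationSubring) →
          ¬ IsEscapeAt (cutOver A E) ↥(H40.chartB (A0 A ℓ) J₁)
            (Localization.AtPrime (n.comap (algebraMap ↥(H40.chartB (A0 A ℓ) J₁)
              ↥(H40.chartB (cutOver A E) (baseChangeE E N J₁))))) n ((ℓ : ℕ) : A0 A ℓ) xs ys w := by
  letI := (chartBC (A := A) E N J₁ (baseChangeE E N J₁) rfl).toAlgebra
  intro n hn hπn hnode
  have hcomp : ∀ a : A0 A ℓ,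
      algebraMap ↥(H40.chartB (A0 A ℓ) J₁) ↥(H40.chartB (cutOver A E) (baseChangeE E N J₁))
        (algebraMap (A0 A ℓ) ↥(H40.chartB (A0 A ℓ) J₁) a) =
      algebraMap (cutOver A E) ↥(H40.chartB (cutOver A E) (baseChangeE E N J₁))
        (algebraMap (A0 A ℓ) (cutOver A E) a) :=
    chartBC_algebraMap E N J₁ (baseChangeE E N J₁) rfl
  have hgenR := adjoin_chartBC_eq_top (A := A) E N J₁ (baseChangeE E N J₁) rfl L.hcl
  have h1 := exists_A0_add_mul hℓ hA E π hmax
  have hmax₁ : (n.comap (algebraMap ↥(H40.chartB (A0 A ℓ) J₁)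
      ↥(H40.chartB (cutOver A E) (baseChangeE E N J₁)))).IsMaximal :=
    CA.H56.comap_isMaximal π hcomp hgenR h1 n hπn
  refine ⟨towerX _ _, towerY _ _, nodeTowerAt_tower (htower _ hnode), ?_⟩
  intro w v hvT hdeg habove hesc
  exact hvT (hsub ⟨_, hmax₁, hnode, E, L, n, w, hdeg, habove, hesc⟩)

end Fermat.Agent.S35.H16
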