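import Mathlib
import Fermat.Agent.S35.H16_EscTConsumer

/-!
S35 / (E5) (helper16): `hT_of_escTChart_subset` in the `(J_E, h : baseChangeE E N J₁ = J_E)` form of
helper8's `H8.chartPkgFrob_of_chartBC / hE2_of_twoComponents` (e.g. `J_E := H95.JK ↥E N ℓ hqN`,
`h := H95.baseChangeE_JK ..`), with the level data as instance binders + `hcl`.
-/

set_option autoImplicit false
set_option linter.unusedSectionVars false
set_option linter.style.haveILetI false
set_option synthInstance.maxHeartbeats 400000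
set_option maxHeartbeats 3200000

noncomputable section

namespace Fermat.Agent.S35.H16

open Polynomial ModularCurve AlgebraicCurve HahnSeries IntermediateField IsLocalRing
open Fermat.Agent.S18 Fermat.Agent.S18.H45 Fermat.Agent.S34.H95 Fermat.Agent.S34
open Fermat.Agent.S35.H8

local notation "Qbar" => AlgebraicClosure ℚ

variable {A : ValuationSubring Qbar} {ℓ : ℕ} (hℓ : ℓ.Prime) (hA : A.LiesOverPrime ℓ)
variable (N : ℕ) [NeZero N] (J₁ : modularFunctionFieldFullC (unrCyclo ℓ) N)

include hℓ hA in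
/-- **`hT` of `H8.chartWeakAt_of_avoid / hE2_of_twoComponents`**, `(J_E, h)` form. -/
theorem hT_of_escTChart_subset_JE (IsNode : Ideal ↥(H40.chartB (A0 A ℓ) J₁) → Prop)
    (htower : ∀ (n₁ : Ideal ↥(H40.chartB (A0 A ℓ) J₁)) [n₁.IsPrime], IsNode n₁ →
      ∃ xs ys, NodeTowerAt ((ℓ : ℕ) : A0 A ℓ) n₁ xs ys)
    (E : IntermediateField (unrCyclo ℓ) Qbar) [FiniteDimensional (unrCyclo ℓ) E]
    (J_E : modularFunctionFieldFullC ↥E N) (h : baseChangeE E N J₁ = J_E)
    [IsNoetherianRing ↥(H40.chartB (cutOver A E) J_E)]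
    [IsIntegrallyClosed ↥(H40.chartB (cutOver A E) J_E)]
    [IsFractionRing ↥(H40.chartB (cutOver A E) J_E) (modularFunctionFieldFullC ↥E N)]
    (π : cutOver A E) (hmax : maximalIdeal (cutOver A E) = Ideal.span {π})
    (hcl : ∀ z : modularFunctionFieldFullC ↥E N, z ∈ H40.chartB (cutOver A E) J_E →
      z ∈ Subring.closure
        (Set.range (fun b : ↥(H40.chartB (A0 A ℓ) J₁) =>
            baseChangeE E N (b : modularFunctionFieldFullC (unrCyclo ℓ) N)) ∪
          Set.range (algebraMap (cutOver A E) (modularFunctionFieldFullC ↥E N))))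
    (T : Set (Place Qbar (S24.FN N))) (hsub : escTChart (A := A) N J₁ IsNode ⊆ T) :
    letI := (chartBC (A := A) E N J₁ J_E h).toAlgebra
    ∀ (n : Ideal ↥(H40.chartB (cutOver A E) J_E)) [n.IsMaximal],
      algebraMap (cutOver A E) ↥(H40.chartB (cutOver A E) J_E) π ∈ n →
      IsNode (n.comap (algebraMap ↥(H40.chartB (A0 A ℓ) J₁)
        ↥(H40.chartB (cutOver A E) J_E))) →
      ∃ xs ys, NodeTowerAt ((ℓ : ℕ) : A0 A ℓ) (n.comap (algebraMap ↥(H40.chartB (A0 A ℓ) J₁)
          ↥(H40.chartB (cutOver A E) J_E))) xs ys ∧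
        ∀ (w : Place ↥E (modularFunctionFieldFullC ↥E N)) (v : Place Qbar (S24.FN N)),
          v ∉ T → w.deg = 1 →
          (∀ x : modularFunctionFieldFullC ↥E N,
            x ∈ w.toValuationSubring ↔ H99.toBar ↥E N x ∈ v.toValuationSubring) →
          ¬ IsEscapeAt (cutOver A E) ↥(H40.chartB (A0 A ℓ) J₁)
            (Localization.AtPrime (n.comap (algebraMap ↥(H40.chartB (A0 A ℓ) J₁)
              ↥(H40.chartB (cutOver A E) J_E)))) n ((ℓ : ℕ) : A0 A ℓ) xs ys w := by
  subst h
  exact hT_of_escTChart_subset hℓ hA N J₁ IsNode htower E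
    ⟨inferInstance, inferInstance, inferInstance, inferInstance, hcl⟩ π hmax T hsub

end Fermat.Agent.S35.H16
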