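/-
helper18 — S35 row GEO-TOP-E, part 1: **the dictionary between the canonical vertical index
`H3.VertIdx J π` of the S34 criterion and a `Bool`-indexed pair of vertical primes** (helper84's
`H84.vertTC red₁ red₂ = fun k => cond k (ker red₁) (ker red₂)` of a `TwoComponents` chart).

The S34 criterion `H3.kummer_descent_pow_of_reduced` (= `crit` of helper46's
`H46.exists_const_mul_pow_of_threeRatios`) is stated for the families `H3.vertP₁ J π`,
`H3.vertP₂ J π` indexed by the vertical primes of the overlap chart `B₁₂ = chart12 R J`; the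
`FrobModel` producers (`H84.chartFrob_of_twoComponents`, `H46.frobModel_of_charts`) index the two
components by `Bool`.  If each chart has exactly two vertical primes and no vertical prime
contains `J^{±1}`, then `H3.VertIdx J π ≃ Bool`, compatibly with both charts.

* `vertComap_injective` : contraction along a localisation is injective on vertical primes;
* `exists_vertIdx_equiv_bool` : one chart, `vertP₁ J π k = cond (e k) p q`;
* `exists_vertIdx_equiv_bool₂` : both charts with the same `e`, given that the valuation rings of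
  the two families agree (`H21.valuationSubringAt_eq`) and `V_p = V_p'`, `V_q = V_q'`.
-/
import Mathlib
import Fermat.Agent.S34.H3_VerticalSingle

set_option autoImplicit false
set_option linter.unusedSectionVars false
set_option linter.style.haveILetI false

namespace Fermat.Agent.S35.H18

open Fermat.Agent.S18 Fermat.Agent.S34

universe v

section Comap

variable {R : Type*} [CommRing R] {F : Type*} [Field F] [Algebra R F]
variable {B C : Subalgebra R F} (hBC : B ≤ C) (u : ↥B)
  (hloc : @IsLocalization.Away ↥B _ u ↥C _ (Subalgebra.inclusion hBC).toRingHom.toAlgebra)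
  (π : R)

include hloc in
/-- Contraction along the localisation `B → C = B[1/u]` is injective on the vertical primes. -/
theorem vertComap_injective :
    Function.Injective (H3.vertComap hBC π : H3.Vert (algebraMap R ↥C π) → Ideal ↥B) := by
  intro k k' h
  let _ : Algebra ↥B ↥C := (Subalgebra.inclusion hBC).toRingHom.toAlgebra
  have hloc' : IsLocalization (Submonoid.powers u) ↥C := hloc
  have h1 : ((k : Ideal ↥C).comap (algebraMap ↥B ↥C)).map (algebraMap ↥B ↥C) = (k : Ideal ↥C) :=
    IsLocalization.map_under (Submonoid.powers u) ↥C _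
  have h2 : ((k' : Ideal ↥C).comap (algebraMap ↥B ↥C)).map (algebraMap ↥B ↥C) =
      (k' : Ideal ↥C) := IsLocalization.map_under (Submonoid.powers u) ↥C _
  have h3 : (k : Ideal ↥C).comap (algebraMap ↥B ↥C) = (k' : Ideal ↥C).comap (algebraMap ↥B ↥C) := h
  apply Subtype.ext
  rw [← h1, ← h2, h3]

end Comap

section OneChart

variable {R : Type*} [CommRing R] {F : Type*} [Field F] [Algebra R F]
variable {B C : Subalgebra R F} (hBC : B ≤ C) (u : ↥B)
  (hloc : @IsLocalization.Away ↥B _ u ↥C _ (Subalgebra.inclusion hBC).toRingHom.toAlgebra)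
  (π : R)

include hloc in
/-- **One chart.**  If `B` has exactly the two vertical primes `p ≠ q` and `u` lies in neither,
then the vertical primes of `C = B[1/u]` are indexed by `Bool`: `k ∩ B = cond (e k) p q`. -/
theorem exists_equiv_bool_of_two (p q : Ideal ↥B)
    (hp : p ∈ (Ideal.span {algebraMap R ↥B π} : Ideal ↥B).minimalPrimes)
    (hq : q ∈ (Ideal.span {algebraMap R ↥B π} : Ideal ↥B).minimalPrimes) (hpq : p ≠ q)
    (hall : ∀ P ∈ (Ideal.span {algebraMap R ↥B π} : Ideal ↥B).minimalPrimes, P = p ∨ P = q)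
    (hup : u ∉ p) (huq : u ∉ q) :
    ∃ e : H3.Vert (algebraMap R ↥C π) ≃ Bool, ∀ k, H3.vertComap hBC π k = cond (e k) p q := by
  classical
  have hinj := vertComap_injective hBC u hloc π
  have hmem := fun k => H3.vertComap_mem_minimalPrimes hBC u hloc π k
  obtain ⟨kp, hkp⟩ := H3.exists_vertComap_eq hBC u hloc π ⟨p, hp⟩ hup
  obtain ⟨kq, hkq⟩ := H3.exists_vertComap_eq hBC u hloc π ⟨q, hq⟩ huq
  have hkp' : H3.vertComap hBC π kp = p := hkp
  have hkq' : H3.vertComap hBC π kq = q := hkq
  let f : H3.Vert (algebraMap R ↥C π) → Bool := fun k => decide (H3.vertComap hBC π k = p)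
  have hf : ∀ k, H3.vertComap hBC π k = cond (f k) p q := by
    intro k
    by_cases h : H3.vertComap hBC π k = p
    · have : f k = true := decide_eq_true h
      rw [this]; exact h
    · have : f k = false := decide_eq_false h
      rw [this]
      exact (hall _ (hmem k)).resolve_left h
  have hbij : Function.Bijective f := by
    constructor
    · intro k k' hkk'
      apply hinj
      rw [hf k, hf k', hkk']
    · intro b
      cases b
      · refine ⟨kq, decide_eq_false ?_⟩
        rw [hkq']; exact fun h => hpq h.symm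
      · exact ⟨kp, decide_eq_true hkp'⟩
  exact ⟨Equiv.ofBijective f hbij, hf⟩

end OneChart

section TwoCharts

variable {R : Type*} [CommRing R] [IsDomain R] [IsDiscreteValuationRing R]
  {K : Type*} [Field K] [Algebra R K] [IsFractionRing R K]
  {F : Type v} [Field F] [Algebra R F] [Algebra K F] [IsScalarTower R K F]

/-- **One chart of the two-chart model.**  If the chart `B₁ = chartB R J` has exactly two vertical
primes `p ≠ q`, neither containing `J`, then `H3.VertIdx J π ≃ Bool` with
`H3.vertP₁ J π k = cond (e k) p q`. -/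
theorem exists_vertIdx_equiv_bool (J : F) (hJ0 : J ≠ 0) (π : R)
    (p q : Ideal ↥(H40.chartB R J))
    (hp : p ∈ (Ideal.span {algebraMap R ↥(H40.chartB R J) π}).minimalPrimes)
    (hq : q ∈ (Ideal.span {algebraMap R ↥(H40.chartB R J) π}).minimalPrimes) (hpq : p ≠ q)
    (hall : ∀ P ∈ (Ideal.span {algebraMap R ↥(H40.chartB R J) π}).minimalPrimes, P = p ∨ P = q)
    (hJp : (⟨J, H40.self_mem_chartB J⟩ : ↥(H40.chartB R J)) ∉ p)
    (hJq : (⟨J, H40.self_mem_chartB J⟩ : ↥(H40.chartB R J)) ∉ q) :
    ∃ e : H3.VertIdx J π ≃ Bool, ∀ k, H3.vertP₁ J π k = cond (e k) p q :=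
  exists_equiv_bool_of_two (H83.chartB_le_chart12 (R := R) J) _
    (H3.isLocalization_chart12 (R := R) J hJ0) π p q hp hq hpq hall hJp hJq

/-- The same for the second chart `B₂ = chartB R J⁻¹`. -/
theorem exists_vertIdx_equiv_bool_inv (J : F) (hJ0 : J ≠ 0) (π : R)
    (p q : Ideal ↥(H40.chartB R J⁻¹))
    (hp : p ∈ (Ideal.span {algebraMap R ↥(H40.chartB R J⁻¹) π}).minimalPrimes)
    (hq : q ∈ (Ideal.span {algebraMap R ↥(H40.chartB R J⁻¹) π}).minimalPrimes) (hpq : p ≠ q)
    (hall : ∀ P ∈ (Ideal.span {algebraMap R ↥(H40.chartB R J⁻¹) π}).minimalPrimes,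
      P = p ∨ P = q)
    (hJp : (⟨J⁻¹, H40.self_mem_chartB J⁻¹⟩ : ↥(H40.chartB R J⁻¹)) ∉ p)
    (hJq : (⟨J⁻¹, H40.self_mem_chartB J⁻¹⟩ : ↥(H40.chartB R J⁻¹)) ∉ q) :
    ∃ e : H3.VertIdx J π ≃ Bool, ∀ k, H3.vertP₂ J π k = cond (e k) p q :=
  exists_equiv_bool_of_two (H83.chartB_inv_le_chart12 (R := R) J) _
    (H3.isLocalization_chart12_inv (R := R) J hJ0) π p q hp hq hpq hall hJp hJq


section Val

variable {B : Type*} [CommRing B] [IsDomain B] {K : Type*} [Field K] [Algebra B K]
  [IsFractionRing B K] [IsNoetherianRing B] [IsIntegrallyClosed B]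

/-- `V_p` only depends on `p`. -/
theorem valuationSubringAt_congr {p p' : Ideal B} [hp : p.IsPrime] [hp' : p'.IsPrime]
    (h : p = p') (h1 : p.height = 1) (h1' : p'.height = 1) :
    H56.valuationSubringAt (K := K) p h1 = H56.valuationSubringAt (K := K) p' h1' := by
  subst h; rfl

/-- A height-one prime is determined by its valuation ring. -/
theorem eq_of_valuationSubringAt_eq {p p' : Ideal B} [hp : p.IsPrime] [hp' : p'.IsPrime]
    (h1 : p.height = 1) (h1' : p'.height = 1)
    (h : H56.valuationSubringAt (K := K) p h1 = H56.valuationSubringAt (K := K) p' h1') :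
    p = p' := by
  ext b
  rw [← H56.algebraMap_mem_nonunits_iff (K := K) h1 b,
    ← H56.algebraMap_mem_nonunits_iff (K := K) h1' b]
  exact H21.valuation_lt_one_congr h _

end Val

/-- **Both charts, one index.**  If the first chart has exactly two vertical primes `p ≠ q`
(neither containing `J`), every vertical prime of the second chart is `p'` or `q'`, the valuation
rings of the canonical families agree (`hVeq`, = `H21.valuationSubringAt_eq`), and `V_p = V_p'`,
`V_q = V_q'` (both are the valuation ring of the same place), then `H3.VertIdx J π ≃ Bool`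
compatibly with both charts. -/
theorem exists_vertIdx_equiv_bool₂ (J : F) (hJ0 : J ≠ 0) (π : R)
    [IsFractionRing ↥(H40.chartB R J) F] [IsFractionRing ↥(H40.chartB R J⁻¹) F]
    [IsNoetherianRing ↥(H40.chartB R J)] [IsIntegrallyClosed ↥(H40.chartB R J)]
    [IsNoetherianRing ↥(H40.chartB R J⁻¹)] [IsIntegrallyClosed ↥(H40.chartB R J⁻¹)]
    (hh₁ : ∀ k : H3.VertIdx J π, (H3.vertP₁ J π k).height = 1)
    (hh₂ : ∀ k : H3.VertIdx J π, (H3.vertP₂ J π k).height = 1)
    (hVeq : ∀ k : H3.VertIdx J π,
      H56.valuationSubringAt (K := F) (H3.vertP₁ J π k) (hh₁ k) =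
        H56.valuationSubringAt (K := F) (H3.vertP₂ J π k) (hh₂ k))
    (p q : Ideal ↥(H40.chartB R J)) [p.IsPrime] [q.IsPrime]
    (hp : p ∈ (Ideal.span {algebraMap R ↥(H40.chartB R J) π}).minimalPrimes)
    (hq : q ∈ (Ideal.span {algebraMap R ↥(H40.chartB R J) π}).minimalPrimes) (hpq : p ≠ q)
    (hall : ∀ P ∈ (Ideal.span {algebraMap R ↥(H40.chartB R J) π}).minimalPrimes, P = p ∨ P = q)
    (hJp : (⟨J, H40.self_mem_chartB J⟩ : ↥(H40.chartB R J)) ∉ p)
    (hJq : (⟨J, H40.self_mem_chartB J⟩ : ↥(H40.chartB R J)) ∉ q)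
    (p' q' : Ideal ↥(H40.chartB R J⁻¹)) [p'.IsPrime] [q'.IsPrime]
    (hall' : ∀ P ∈ (Ideal.span {algebraMap R ↥(H40.chartB R J⁻¹) π}).minimalPrimes,
      P = p' ∨ P = q')
    (hph : p.height = 1) (hqh : q.height = 1) (hph' : p'.height = 1) (hqh' : q'.height = 1)
    (hVp : H56.valuationSubringAt (K := F) p hph = H56.valuationSubringAt (K := F) p' hph')
    (hVq : H56.valuationSubringAt (K := F) q hqh = H56.valuationSubringAt (K := F) q' hqh') :
    ∃ e : H3.VertIdx J π ≃ Bool, (∀ k, H3.vertP₁ J π k = cond (e k) p q) ∧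
      ∀ k, H3.vertP₂ J π k = cond (e k) p' q' := by
  obtain ⟨e, he⟩ := exists_vertIdx_equiv_bool (R := R) J hJ0 π p q hp hq hpq hall hJp hJq
  refine ⟨e, he, fun k => ?_⟩
  have hVpq : H56.valuationSubringAt (K := F) p hph ≠ H56.valuationSubringAt (K := F) q hqh :=
    fun h => hpq (eq_of_valuationSubringAt_eq hph hqh h)
  have h2 := hall' _ (H3.vertComap_mem_minimalPrimes (H83.chartB_inv_le_chart12 (R := R) J) _
    (H3.isLocalization_chart12_inv (R := R) J hJ0) π k)
  have h1 := he k
  cases hek : e k with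
  | true =>
    rw [hek] at h1
    replace h1 : H3.vertP₁ J π k = p := h1
    show H3.vertP₂ J π k = p'
    rcases h2 with h2 | h2
    · exact h2
    · exfalso
      apply hVpq
      rw [hVq, ← valuationSubringAt_congr (K := F) h2 (hh₂ k) hqh', ← hVeq k,
        valuationSubringAt_congr (K := F) h1 (hh₁ k) hph]
  | false =>
    rw [hek] at h1
    replace h1 : H3.vertP₁ J π k = q := h1
    show H3.vertP₂ J π k = q'
    rcases h2 with h2 | h2
    · exfalso
      apply hVpq
      rw [hVp, ← valuationSubringAt_congr (K := F) h2 (hh₂ k) hph', ← hVeq k,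
        valuationSubringAt_congr (K := F) h1 (hh₁ k) hqh]
    · exact h2

end TwoCharts

end Fermat.Agent.S35.H18
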