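/-
helper84 — S35 rows G4/G2, abstract input on top of `S34.H83_L0Target.TwoComponents` only.

`TwoComponents red₁ red₂ ι V rbar W q qB` : the special fibre of the chart `B` has two components,
both identified with the level-`M` special fibre ring `R`.  A *node* is a maximal ideal `n` of `B`
containing both `ker red₁` and `ker red₂`.

* `node_map_mem` / `node_stable` : every node is stable under any endomorphism `ΦB` of `B` which
  is compatible with `red₁` through an endomorphism `ΦR` of `R` satisfying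
  `W (W (ΦR r)) = r ^ Q` (instance: `ΦR` = coefficientwise `q²`-Frobenius, `W r = (φ̄⁻¹ r) ^ q`,
  `Q = q²`).  No supersingular theory: `𝔪_a ≤ comap (W ∘ W) 𝔪_a` from the degeneracy maps.
* `nodes_finite` : there are finitely many nodes, as soon as the two components are different
  (`∃ z, red₁ z = 0 ∧ red₂ z ≠ 0`) and `R` is a Dedekind domain.
-/
import Mathlib
import Fermat.Agent.S34.H83_L0Target

set_option autoImplicit false

namespace Fermat.Agent.S35.H84

open Fermat.Agent.S34.H83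

variable {B R BM : Type*} [CommRing B] [CommRing R] [CommRing BM]
  {red₁ red₂ : B →+* R} {ι V : BM →+* B} {rbar : BM →+* R} {W : R →+* R} {q : ℕ} {qB : B}

/-- `n = comap red₁ (map red₁ n)` for an ideal containing the kernel of the surjection `red₁`. -/
theorem mem_of_red_mem_map {red : B →+* R} (hred : Function.Surjective red) (n : Ideal B)
    (hker : RingHom.ker red ≤ n) {z : B} (hz : red z ∈ n.map red) : z ∈ n := by
  rw [Ideal.mem_map_iff_of_surjective red hred] at hz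
  obtain ⟨y, hy, hyz⟩ := hz
  have : z - y ∈ RingHom.ker red := by rw [RingHom.mem_ker, map_sub, hyz, sub_self]
  have h2 := n.add_mem (hker this) hy
  rwa [sub_add_cancel] at h2

/-- At a node, `𝔪_a := red₁ n` is stable under `W ∘ W`. -/
theorem node_WW_mem (h : TwoComponents red₁ red₂ ι V rbar W q qB) (n : Ideal B)
    (h1 : RingHom.ker red₁ ≤ n) (h2 : RingHom.ker red₂ ≤ n) {r : R} (hr : r ∈ n.map red₁) :
    W (W r) ∈ n.map red₁ := by
  obtain ⟨ψ, rfl⟩ := h.hrbar r
  -- `ι ψ ∈ n`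
  have hι : ι ψ ∈ n := mem_of_red_mem_map h.hred₁ n h1 (by rw [h.h1ι]; exact hr)
  -- `W (rbar ψ) ∈ 𝔪_b`
  have hb : W (rbar ψ) ∈ n.map red₂ := by
    rw [← h.h2ι]; exact Ideal.mem_map_of_mem _ hι
  obtain ⟨ψ₂, hψ₂⟩ := h.hrbar (W (rbar ψ))
  have hV : V ψ₂ ∈ n := mem_of_red_mem_map h.hred₂ n h2 (by rw [h.h2V, hψ₂]; exact hb)
  have := Ideal.mem_map_of_mem red₁ hV
  rwa [h.h1V, hψ₂] at this

/-- **Nodes are `Φ`-stable (forward direction).** -/
theorem node_map_mem (h : TwoComponents red₁ red₂ ι V rbar W q qB) (n : Ideal B)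
    (hn : n.IsMaximal) (h1 : RingHom.ker red₁ ≤ n) (h2 : RingHom.ker red₂ ≤ n)
    (ΦB : B →+* B) (ΦR : R →+* R) (h1Φ : ∀ z, red₁ (ΦB z) = ΦR (red₁ z))
    {Q : ℕ} (hQ : 0 < Q) (hW : ∀ r, W (W (ΦR r)) = r ^ Q) {z : B} (hz : z ∈ n) :
    ΦB z ∈ n := by
  -- `𝔪_a` is maximal
  have hmax : (n.map red₁).IsMaximal := by
    refine Ideal.map_eq_top_or_isMaximal_of_surjective red₁ h.hred₁ hn |>.resolve_left ?_
    intro htop
    have h1mem : (1 : R) ∈ n.map red₁ := by rw [htop]; trivial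
    have : (1 : B) ∈ n := mem_of_red_mem_map h.hred₁ n h1 (by rw [map_one]; exact h1mem)
    exact hn.ne_top ((Ideal.eq_top_iff_one _).mpr this)
  -- `𝔪_a = comap (W ∘ W) 𝔪_a`
  have hle : n.map red₁ ≤ (n.map red₁).comap (W.comp W) := fun r hr =>
    node_WW_mem h n h1 h2 hr
  have hprime : ((n.map red₁).comap (W.comp W)).IsPrime :=
    Ideal.comap_isPrime _ _
  have heq : n.map red₁ = (n.map red₁).comap (W.comp W) :=
    hmax.eq_of_le hprime.ne_top hle
  apply mem_of_red_mem_map h.hred₁ n h1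
  rw [h1Φ, heq, Ideal.mem_comap, RingHom.comp_apply, hW]
  exact Ideal.pow_mem_of_mem _ (Ideal.mem_map_of_mem _ hz) Q hQ

/-- **Nodes are `Φ`-stable**: for an automorphism `ΦB`, `z ∈ n ↔ ΦB z ∈ n`. -/
theorem node_stable (h : TwoComponents red₁ red₂ ι V rbar W q qB) (n : Ideal B)
    (hn : n.IsMaximal) (h1 : RingHom.ker red₁ ≤ n) (h2 : RingHom.ker red₂ ≤ n)
    (ΦB : B ≃+* B) (ΦR : R →+* R) (h1Φ : ∀ z, red₁ (ΦB z) = ΦR (red₁ z))
    {Q : ℕ} (hQ : 0 < Q) (hW : ∀ r, W (W (ΦR r)) = r ^ Q) (z : B) :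
    ΦB z ∈ n ↔ z ∈ n := by
  have hle : n ≤ n.comap (ΦB : B →+* B) := fun z hz =>
    node_map_mem h n hn h1 h2 (ΦB : B →+* B) ΦR h1Φ hQ hW hz
  have hprime : (n.comap (ΦB : B →+* B)).IsPrime := Ideal.comap_isPrime _ _
  have heq : n = n.comap (ΦB : B →+* B) := hn.eq_of_le hprime.ne_top hle
  constructor
  · intro hz
    rw [heq]; exact hz
  · intro hz
    exact hle hz

/-- `n.comap ΦB = n` at a node. -/
theorem node_comap_eq (h : TwoComponents red₁ red₂ ι V rbar W q qB) (n : Ideal B)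
    (hn : n.IsMaximal) (h1 : RingHom.ker red₁ ≤ n) (h2 : RingHom.ker red₂ ≤ n)
    (ΦB : B ≃+* B) (ΦR : R →+* R) (h1Φ : ∀ z, red₁ (ΦB z) = ΦR (red₁ z))
    {Q : ℕ} (hQ : 0 < Q) (hW : ∀ r, W (W (ΦR r)) = r ^ Q) :
    n.comap (ΦB : B →+* B) = n := by
  ext z
  rw [Ideal.mem_comap]
  exact node_stable h n hn h1 h2 ΦB ΦR h1Φ hQ hW z

/-- **Nodes are finite.** -/
theorem nodes_finite [IsDedekindDomain R]
    (h : TwoComponents red₁ red₂ ι V rbar W q qB)
    (hne : ∃ z, red₁ z = 0 ∧ red₂ z ≠ 0) :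
    {n : Ideal B | n.IsMaximal ∧ RingHom.ker red₁ ≤ n ∧ RingHom.ker red₂ ≤ n}.Finite := by
  obtain ⟨z₀, hz₁, hz₂⟩ := hne
  -- the nodes inject (via `map red₂`) into the primes of `R` containing `red₂ z₀ ≠ 0`
  have hfin : {p : Ideal R | p.IsPrime ∧ red₂ z₀ ∈ p}.Finite := by
    have hI : Ideal.span {red₂ z₀} ≠ ⊥ := by
      rw [Ne, Ideal.span_singleton_eq_bot]; exact hz₂
    have := Ideal.finite_factors hI
    -- `Ideal.finite_factors : {v : HeightOneSpectrum R | v.asIdeal ∣ I}.Finite`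
    refine Set.Finite.subset ((this.image fun v => v.asIdeal).union (Set.finite_singleton ⊥)) ?_
    rintro p ⟨hp, hmem⟩
    by_cases hp0 : p = ⊥
    · right; exact hp0
    · left
      refine ⟨⟨p, hp, hp0⟩, ?_, rfl⟩
      show p ∣ Ideal.span {red₂ z₀}
      rw [Ideal.dvd_iff_le, Ideal.span_le]
      intro x hx
      rw [Set.mem_singleton_iff] at hx
      rw [hx]; exact hmem
  refine Set.Finite.of_finite_image (f := fun n : Ideal B => n.map red₂) (hfin.subset ?_) ?_
  · rintro _ ⟨n, ⟨hn, h1, h2⟩, rfl⟩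
    refine ⟨?_, ?_⟩
    · have hmax : (n.map red₂).IsMaximal := by
        refine Ideal.map_eq_top_or_isMaximal_of_surjective red₂ h.hred₂ hn |>.resolve_left ?_
        intro htop
        have h1mem : (1 : R) ∈ n.map red₂ := by rw [htop]; trivial
        have : (1 : B) ∈ n := mem_of_red_mem_map h.hred₂ n h2 (by rw [map_one]; exact h1mem)
        exact hn.ne_top ((Ideal.eq_top_iff_one _).mpr this)
      exact hmax.isPrime
    · exact Ideal.mem_map_of_mem _ (h1 (by rw [RingHom.mem_ker]; exact hz₁))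
  · rintro n ⟨-, -, h2⟩ n' ⟨-, -, h2'⟩ hnn'
    have hnn'' : n.map red₂ = n'.map red₂ := hnn'
    ext z
    constructor
    · intro hz
      exact mem_of_red_mem_map h.hred₂ n' h2' (hnn'' ▸ Ideal.mem_map_of_mem _ hz)
    · intro hz
      exact mem_of_red_mem_map h.hred₂ n h2 (hnn''.symm ▸ Ideal.mem_map_of_mem _ hz)

end Fermat.Agent.S35.H84
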