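/-
S35 / row G4 (helper84): **`H46.ChartFrob` from `H83.TwoComponents`.**

`ChartFrob P π Φ ΦB ΦA Q` (helper46, `S35/H46_FrobModelCharts`) is the per-chart hypothesis
package from which `H46.frobModel_of_chart(s)` produces the `FrobModel` consumed by the abstract
three-ratio theorem.  Here all its fields are derived from helper83's L0 → L1 interface
`TwoComponents red₁ red₂ ι V rbar W q (algebraMap A B π)` (the special fibre of the chart `B` has
two components, both identified with the Dedekind branch ring `D`) together with the Frobenius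
compatibilities of row G1:

* `hstab`  : from `red_k ∘ ΦB = ΦD_k ∘ red_k`, `ΦD_k` injective;
* `hred`, `hsat` : from `ker red₁ ∩ ker red₂ ⊆ (π)` and `D` a domain;
* `hbranch` : `B ⧸ ker red_k ≃ D` is Dedekind;
* `hnode` : a closed point lies on one component, or on both; in the second case it is
  `ΦB`-fixed (`H84.node_comap_eq`) and `𝔪_n = (π, x, y)` locally with `x ∈ ker red₁`,
  `y ∈ ker red₂` (`H83.locGen_node`).

The vertical primes are indexed by `Bool`: `vertTC red₁ red₂ true = ker red₁`,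
`vertTC red₁ red₂ false = ker red₂`; `chartFrob_reindex` transports along any bijection.
Also: `vertTC` are primes of height one, and they are the only primes minimal over `(π)`.
-/
import Mathlib
import Fermat.Agent.S35.H46_FrobModelCharts
import Fermat.Agent.S35.H84_Nodes
import Fermat.Agent.S34.H83_L0Target
import Fermat.Agent.CA.H42_KrullDvr

set_option autoImplicit false
set_option linter.unusedSectionVars false

namespace Fermat.Agent.S35.H84

open Fermat.Agent.S34 Fermat.Agent.S34.H83 Fermat.Agent.S35.H46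

/-- the two vertical primes of a chart with two components. -/
def vertTC {B D : Type*} [CommRing B] [CommRing D] (red₁ red₂ : B →+* D) : Bool → Ideal B :=
  fun k => cond k (RingHom.ker red₁) (RingHom.ker red₂)

section Basic

variable {B D : Type*} [CommRing B] [CommRing D] (red₁ red₂ : B →+* D)

@[simp] theorem vertTC_true : vertTC red₁ red₂ true = RingHom.ker red₁ := rfl

@[simp] theorem vertTC_false : vertTC red₁ red₂ false = RingHom.ker red₂ := rfl

instance vertTC_isPrime [IsDomain D] (k : Bool) : (vertTC red₁ red₂ k).IsPrime := by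
  cases k
  · exact RingHom.ker_isPrime red₂
  · exact RingHom.ker_isPrime red₁

end Basic

section Height

variable {B D BM : Type*} [CommRing B] [IsDomain B] [CommRing D] [IsDomain D] [CommRing BM]
  {red₁ red₂ : B →+* D} {ι V : BM →+* B} {rbar : BM →+* D} {W : D →+* D} {q : ℕ} {πB : B}

/-- a prime containing `π` contains one of the two vertical primes. -/
theorem vertTC_le_of_mem (h : TwoComponents red₁ red₂ ι V rbar W q πB) (p : Ideal B)
    [hp : p.IsPrime] (hπ : πB ∈ p) : RingHom.ker red₁ ≤ p ∨ RingHom.ker red₂ ≤ p := by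
  by_contra hcon
  rw [not_or] at hcon
  obtain ⟨h1, h2⟩ := hcon
  obtain ⟨a, ha, hap⟩ := Set.not_subset.mp h1
  obtain ⟨b, hb, hbp⟩ := Set.not_subset.mp h2
  have hab : a * b ∈ Ideal.span {πB} :=
    h.hinf _ (by rw [map_mul, (RingHom.mem_ker).mp ha, zero_mul])
      (by rw [map_mul, (RingHom.mem_ker).mp hb, mul_zero])
  have : a * b ∈ p := (Ideal.span_singleton_le_iff_mem p).mpr hπ hab
  rcases hp.mem_or_mem this with h' | h'
  · exact hap h'
  · exact hbp h'

/-- `ker red₁` is minimal over `(π)`. -/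
theorem ker_red₁_mem_minimalPrimes (h : TwoComponents red₁ red₂ ι V rbar W q πB)
    (hπ₁ : red₁ πB = 0) (hne₂ : ∃ z, red₂ z = 0 ∧ red₁ z ≠ 0) :
    RingHom.ker red₁ ∈ (Ideal.span {πB}).minimalPrimes := by
  refine ⟨⟨RingHom.ker_isPrime red₁, ?_⟩, ?_⟩
  · rw [Ideal.span_singleton_le_iff_mem]
    exact (RingHom.mem_ker).mpr hπ₁
  · rintro p ⟨hp, hπp⟩ hle
    haveI := hp
    rcases vertTC_le_of_mem h p ((Ideal.span_singleton_le_iff_mem p).mp hπp) with h1 | h2
    · exact h1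
    · exfalso
      obtain ⟨z, hz2, hz1⟩ := hne₂
      exact hz1 ((RingHom.mem_ker).mp (hle (h2 ((RingHom.mem_ker).mpr hz2))))

/-- `ker red₂` is minimal over `(π)`. -/
theorem ker_red₂_mem_minimalPrimes (h : TwoComponents red₁ red₂ ι V rbar W q πB)
    (hπ₂ : red₂ πB = 0) (hne₁ : ∃ z, red₁ z = 0 ∧ red₂ z ≠ 0) :
    RingHom.ker red₂ ∈ (Ideal.span {πB}).minimalPrimes := by
  refine ⟨⟨RingHom.ker_isPrime red₂, ?_⟩, ?_⟩
  · rw [Ideal.span_singleton_le_iff_mem]
    exact (RingHom.mem_ker).mpr hπ₂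
  · rintro p ⟨hp, hπp⟩ hle
    haveI := hp
    rcases vertTC_le_of_mem h p ((Ideal.span_singleton_le_iff_mem p).mp hπp) with h1 | h2
    · exfalso
      obtain ⟨z, hz1, hz2⟩ := hne₁
      exact hz2 ((RingHom.mem_ker).mp (hle (h1 ((RingHom.mem_ker).mpr hz1))))
    · exact h2

/-- the minimal primes over `(π)` are exactly the two vertical primes. -/
theorem eq_vertTC_of_mem_minimalPrimes (h : TwoComponents red₁ red₂ ι V rbar W q πB)
    (hπ₁ : red₁ πB = 0) (hπ₂ : red₂ πB = 0) {p : Ideal B}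
    (hp : p ∈ (Ideal.span {πB}).minimalPrimes) : ∃ k, p = vertTC red₁ red₂ k := by
  haveI := hp.1.1
  rcases vertTC_le_of_mem h p ((Ideal.span_singleton_le_iff_mem p).mp hp.1.2) with h1 | h2
  · refine ⟨true, le_antisymm (hp.2 ⟨RingHom.ker_isPrime red₁, ?_⟩ h1) h1⟩
    rw [Ideal.span_singleton_le_iff_mem]
    exact (RingHom.mem_ker).mpr hπ₁
  · refine ⟨false, le_antisymm (hp.2 ⟨RingHom.ker_isPrime red₂, ?_⟩ h2) h2⟩
    rw [Ideal.span_singleton_le_iff_mem]
    exact (RingHom.mem_ker).mpr hπ₂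

/-- the vertical primes have height one. -/
theorem height_vertTC [IsNoetherianRing B] (h : TwoComponents red₁ red₂ ι V rbar W q πB)
    (hπ0 : πB ≠ 0) (hπ₁ : red₁ πB = 0) (hπ₂ : red₂ πB = 0)
    (hne₁ : ∃ z, red₁ z = 0 ∧ red₂ z ≠ 0) (hne₂ : ∃ z, red₂ z = 0 ∧ red₁ z ≠ 0) (k : Bool) :
    (vertTC red₁ red₂ k).height = 1 := by
  cases k
  · exact CA.H42.height_eq_one_of_mem_minimalPrimes_span hπ0
      (ker_red₂_mem_minimalPrimes h hπ₂ hne₁)
  · exact CA.H42.height_eq_one_of_mem_minimalPrimes_span hπ0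
      (ker_red₁_mem_minimalPrimes h hπ₁ hne₂)

end Height

section Reindex

variable {R B F : Type*} [CommRing R] [CommRing B] [IsDomain B] [Field F] [Algebra R B]
  [Algebra B F] [Algebra R F] [IsScalarTower R B F] [IsFractionRing B F]
  [IsNoetherianRing B] [IsIntegrallyClosed B]

/-- transport of `ChartFrob` along a bijection of the index types. -/
theorem chartFrob_reindex {κ κ' : Type*} {P : κ → Ideal B} {π : R} {Φ : F ≃+* F}
    {ΦB : B ≃+* B} {ΦR : R →+* R} {Q : ℕ} (C : ChartFrob (F := F) P π Φ ΦB ΦR Q)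
    (e : κ' ≃ κ) : ChartFrob (F := F) (fun k' => P (e k')) π Φ ΦB ΦR Q where
  hΦ := C.hΦ
  hΦπ := C.hΦπ
  hΦR := C.hΦR
  hstab := fun k' b => C.hstab (e k') b
  hred := fun k' b hb => C.hred (e k') b hb
  hsat := fun b hb => C.hsat b fun k => by
    obtain ⟨s, hs, hd⟩ := hb (e.symm k)
    refine ⟨s, ?_, hd⟩
    simpa using hs
  hbranch := fun k' => C.hbranch (e k')
  hnode := fun n hn hπn => by
    rcases C.hnode n hn hπn with ⟨k₀, hk₀⟩ | ⟨hfix, k₁, k₂, h1, h2, hall, hgen, hrat⟩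
    · refine Or.inl ⟨e.symm k₀, fun k' hk' => ?_⟩
      rw [← hk₀ (e k') hk', Equiv.symm_apply_apply]
    · refine Or.inr ⟨hfix, e.symm k₁, e.symm k₂, by simpa using h1, by simpa using h2,
        fun k' hk' => ?_, by simpa using hgen, hrat⟩
      rcases hall (e k') hk' with h | h
      · exact Or.inl (by rw [← h, Equiv.symm_apply_apply])
      · exact Or.inr (by rw [← h, Equiv.symm_apply_apply])

end Reindex

section Main

variable {A B F : Type*} [CommRing A] [CommRing B] [IsDomain B] [Field F] [Algebra A B]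
  [Algebra B F] [Algebra A F] [IsScalarTower A B F] [IsFractionRing B F]
  [IsNoetherianRing B] [IsIntegrallyClosed B]
  {D BM : Type*} [CommRing D] [IsDedekindDomain D] [CommRing BM]
  {red₁ red₂ : B →+* D} {ι V : BM →+* B} {rbar : BM →+* D} {W : D →+* D} {q : ℕ} {π : A}

/-- `hred` at the first component. -/
theorem hred_ker_red₁ (h : TwoComponents red₁ red₂ ι V rbar W q (algebraMap A B π))
    (hne₂ : ∃ z, red₂ z = 0 ∧ red₁ z ≠ 0) (b : B) (hb : b ∈ RingHom.ker red₁) :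
    ∃ s, s ∉ RingHom.ker red₁ ∧ algebraMap A B π ∣ s * b := by
  obtain ⟨z, hz2, hz1⟩ := hne₂
  refine ⟨z, fun hz => hz1 ((RingHom.mem_ker).mp hz), ?_⟩
  exact Ideal.mem_span_singleton.mp
    (h.hinf _ (by rw [map_mul, (RingHom.mem_ker).mp hb, mul_zero]) (by rw [map_mul, hz2, zero_mul]))

/-- `hred` at the second component. -/
theorem hred_ker_red₂ (h : TwoComponents red₁ red₂ ι V rbar W q (algebraMap A B π))
    (hne₁ : ∃ z, red₁ z = 0 ∧ red₂ z ≠ 0) (b : B) (hb : b ∈ RingHom.ker red₂) :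
    ∃ s, s ∉ RingHom.ker red₂ ∧ algebraMap A B π ∣ s * b := by
  obtain ⟨z, hz1, hz2⟩ := hne₁
  refine ⟨z, fun hz => hz2 ((RingHom.mem_ker).mp hz), ?_⟩
  exact Ideal.mem_span_singleton.mp
    (h.hinf _ (by rw [map_mul, hz1, zero_mul]) (by rw [map_mul, (RingHom.mem_ker).mp hb, mul_zero]))

/-- `hsat`. -/
theorem hsat_vertTC (h : TwoComponents red₁ red₂ ι V rbar W q (algebraMap A B π))
    (hπ₁ : red₁ (algebraMap A B π) = 0) (hπ₂ : red₂ (algebraMap A B π) = 0) (b : B)
    (hb : ∀ k, ∃ s, s ∉ vertTC red₁ red₂ k ∧ algebraMap A B π ∣ s * b) :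
    algebraMap A B π ∣ b := by
  obtain ⟨s₁, hs₁, c₁, hc₁⟩ := hb true
  obtain ⟨s₂, hs₂, c₂, hc₂⟩ := hb false
  have h1 : red₁ b = 0 := by
    have := congrArg red₁ hc₁
    rw [map_mul, map_mul, hπ₁, zero_mul] at this
    rcases mul_eq_zero.mp this with h' | h'
    · exact absurd ((RingHom.mem_ker).mpr h') hs₁
    · exact h'
  have h2 : red₂ b = 0 := by
    have := congrArg red₂ hc₂
    rw [map_mul, map_mul, hπ₂, zero_mul] at this
    rcases mul_eq_zero.mp this with h' | h'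
    · exact absurd ((RingHom.mem_ker).mpr h') hs₂
    · exact h'
  exact Ideal.mem_span_singleton.mp (h.hinf b h1 h2)

/-- `hbranch`: the components are normal. -/
theorem isIntegrallyClosed_quot_ker {red : B →+* D} (hred : Function.Surjective red) :
    IsIntegrallyClosed (B ⧸ RingHom.ker red) :=
  IsIntegrallyClosed.of_equiv (RingHom.quotientKerEquivOfSurjective hred).symm

/-- the node alternative of `hnode`. -/
theorem node_gen (h : TwoComponents red₁ red₂ ι V rbar W q (algebraMap A B π))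
    (hπ₁ : red₁ (algebraMap A B π) = 0) (hq : 2 ≤ q) (hD : ¬ IsField D)
    (n : Ideal B) (hn : n.IsMaximal)
    (hk₁ : RingHom.ker red₁ ≤ n) (hk₂ : RingHom.ker red₂ ≤ n) :
    ∀ z ∈ n, ∃ t, t ∉ n ∧ t * z ∈ RingHom.ker red₁ ⊔ RingHom.ker red₂ := by
  have hk₁' : ∀ z : B, red₁ z = 0 → z ∈ n := fun z hz => hk₁ ((RingHom.mem_ker).mpr hz)
  have hk₂' : ∀ z : B, red₂ z = 0 → z ∈ n := fun z hz => hk₂ ((RingHom.mem_ker).mpr hz)
  have hmax : ∀ (red : B →+* D), Function.Surjective red → (∀ z : B, red z = 0 → z ∈ n) →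
      (Ideal.map red n).IsMaximal ∧ Ideal.map red n ≠ ⊥ := by
    intro red hred hker
    have h1 : (Ideal.map red n).IsMaximal := by
      rcases Ideal.map_eq_top_or_isMaximal_of_surjective red hred hn with h' | h'
      · exfalso
        have : (1 : B) ∈ n := (mem_iff_map_mem hred n hker 1).2 (by rw [h']; trivial)
        exact hn.ne_top ((Ideal.eq_top_iff_one n).2 this)
      · exact h'
    exact ⟨h1, Ring.ne_bot_of_isMaximal_of_not_isField h1 hD⟩
  obtain ⟨hm₁, h0₁⟩ := hmax red₁ h.hred₁ hk₁'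
  obtain ⟨hm₂, h0₂⟩ := hmax red₂ h.hred₂ hk₂'
  have hn₁ := mem_iff_map_mem h.hred₁ n hk₁'
  have hn₂ := mem_iff_map_mem h.hred₂ n hk₂'
  obtain ⟨θ₂, hθ₂, hθ₂'⟩ := exists_mem_not_mem_sq hm₂.isPrime h0₂
  obtain ⟨θ₁, hθ₁, hθ₁'⟩ := exists_mem_not_mem_sq hm₁.isPrime h0₁
  obtain ⟨x, hx₁, hx₂, hx₂'⟩ := exists_mem_ker_uniformizer' (red₁ := red₁) (red₂ := red₂)
    h.hroot h.h1ι h.h1V h.h2ι h.h2V h.hrbar hq n _ _ hm₁.isPrime hn₁ hn₂ hθ₂ hθ₂'
  obtain ⟨y, hy₂, hy₁, hy₁'⟩ := exists_mem_ker_uniformizer' (red₁ := red₂) (red₂ := red₁)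
    (ι := V) (V := ι) h.hroot h.h2V h.h2ι h.h1V h.h1ι h.hrbar hq n _ _ hm₂.isPrime hn₂ hn₁
    hθ₁ hθ₁'
  obtain ⟨-, -, -, hgen⟩ := locGen_node h.hred₁ h.hred₂ h.hinf n _ _ hm₁.isPrime hm₂.isPrime
    hn₁ hn₂ hx₁ hx₂ hx₂' hy₂ hy₁ hy₁'
  intro z hz
  obtain ⟨t, ht, htz⟩ := hgen z hz
  refine ⟨t, ht, ?_⟩
  have hle : Ideal.span {algebraMap A B π, x, y} ≤ RingHom.ker red₁ ⊔ RingHom.ker red₂ := by
    rw [Ideal.span_le]
    intro w hw
    simp only [Set.mem_insert_iff, Set.mem_singleton_iff] at hw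
    rcases hw with rfl | rfl | rfl
    · exact Ideal.mem_sup_left ((RingHom.mem_ker).mpr hπ₁)
    · exact Ideal.mem_sup_left ((RingHom.mem_ker).mpr hx₁)
    · exact Ideal.mem_sup_right ((RingHom.mem_ker).mpr hy₂)
  exact hle htz

/-- **`ChartFrob` from `TwoComponents` and the Frobenius compatibilities.** -/
theorem chartFrob_of_twoComponents
    (h : TwoComponents red₁ red₂ ι V rbar W q (algebraMap A B π))
    (hπ₁ : red₁ (algebraMap A B π) = 0) (hπ₂ : red₂ (algebraMap A B π) = 0)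
    (hne₁ : ∃ z, red₁ z = 0 ∧ red₂ z ≠ 0) (hne₂ : ∃ z, red₂ z = 0 ∧ red₁ z ≠ 0)
    (hq : 2 ≤ q) (hD : ¬ IsField D)
    (Φ : F ≃+* F) (ΦB : B ≃+* B) (ΦA : A →+* A) {Q : ℕ} (hQ : 0 < Q)
    (hΦ : ∀ b : B, Φ (algebraMap B F b) = algebraMap B F (ΦB b))
    (hΦA : ∀ r : A, ΦB (algebraMap A B r) = algebraMap A B (ΦA r))
    (hΦπ : π ∣ ΦA π)
    (ΦD₁ ΦD₂ : D →+* D) (hinj₁ : Function.Injective ΦD₁) (hinj₂ : Function.Injective ΦD₂)
    (h1Φ : ∀ z, red₁ (ΦB z) = ΦD₁ (red₁ z)) (h2Φ : ∀ z, red₂ (ΦB z) = ΦD₂ (red₂ z))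
    (hW : ∀ r, W (W (ΦD₁ r)) = r ^ Q)
    (hrat : ∀ n : Ideal B, n.IsMaximal → RingHom.ker red₁ ≤ n → RingHom.ker red₂ ≤ n →
      ∀ b : B, ∃ r : A, b - algebraMap A B r ∈ n) :
    ChartFrob (F := F) (vertTC red₁ red₂) π Φ ΦB ΦA Q where
  hΦ := hΦ
  hΦπ := by
    obtain ⟨c, hc⟩ := hΦπ
    exact ⟨algebraMap A B c, by rw [hΦA, hc, map_mul]⟩
  hΦR := hΦA
  hstab := by
    intro k b
    cases k
    · show ΦB b ∈ RingHom.ker red₂ ↔ b ∈ RingHom.ker red₂
      rw [RingHom.mem_ker, RingHom.mem_ker, h2Φ, map_eq_zero_iff ΦD₂ hinj₂]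
    · show ΦB b ∈ RingHom.ker red₁ ↔ b ∈ RingHom.ker red₁
      rw [RingHom.mem_ker, RingHom.mem_ker, h1Φ, map_eq_zero_iff ΦD₁ hinj₁]
  hred := by
    intro k b hb
    cases k
    · exact hred_ker_red₂ h hne₁ b hb
    · exact hred_ker_red₁ h hne₂ b hb
  hsat := hsat_vertTC h hπ₁ hπ₂
  hbranch := by
    intro k
    cases k
    · exact isIntegrallyClosed_quot_ker h.hred₂
    · exact isIntegrallyClosed_quot_ker h.hred₁
  hnode := by
    intro n hn hπn
    by_cases hk₁ : RingHom.ker red₁ ≤ n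
    · by_cases hk₂ : RingHom.ker red₂ ≤ n
      · refine Or.inr ⟨node_comap_eq h n hn hk₁ hk₂ ΦB ΦD₁ h1Φ hQ hW, true, false, hk₁, hk₂,
          fun k _ => ?_, node_gen h hπ₁ hq hD n hn hk₁ hk₂, hrat n hn hk₁ hk₂⟩
        cases k
        · exact Or.inr rfl
        · exact Or.inl rfl
      · refine Or.inl ⟨true, fun k hk => ?_⟩
        cases k
        · exact absurd hk hk₂
        · rfl
    · refine Or.inl ⟨false, fun k hk => ?_⟩
      cases k
      · rfl
      · exact absurd hk hk₁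

end Main

end Fermat.Agent.S35.H84
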