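/-
helper18 — S35 row GEO-TOP-E, part 2 (generic core): **the three-ratio theorem at the canonical
vertical family of the S34 criterion.**

Generic two-chart model `(R, K, F, J)` of S34 (`B₁ = chartB R J`, `B₂ = chartB R J⁻¹`), an
automorphism `Ψ` of `F` (in the application `Ψ = Φ ∘ Φ`, `Φ` the coefficientwise action of a
Frobenius lift, `Q = q ^ 2`).

* `exists_const_mul_pow_of_chartFrob` : `crit := H3.kummer_descent_pow_of_reduced` (reduced special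
  fibres `hrad₁ hrad₂`, `hJ₁ hJ₂`) + `H46.frobModel_of_charts` (two `H46.ChartFrob` packages at the
  canonical families `H3.vertP₁ J π`, `H3.vertP₂ J π`) + `H46.weakDatum_of_charts` (chart-form
  ratio lemma for `u₁` at all closed points of both charts) + the `(g3)` block `hG`
  ⟹ `Ψ u₂ / u₂ ^ Q = c · w ^ (l ^ k)`, `u₂ = Ψ u₁ / u₁`
  (`H46.exists_const_mul_pow_of_threeRatios`).
* `exists_const_mul_pow_of_chartFrob_bool` : the same with the two `ChartFrob` packages and the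
  `(g3)` block stated for `Bool`-indexed pairs of vertical primes `(p₁, q₁)` of `B₁`, `(p₂, q₂)` of
  `B₂` (helper84's `H84.vertTC red₁ red₂`), via the dictionary `H18.exists_vertIdx_equiv_bool₂`.
-/
import Mathlib
import Fermat.Agent.S35.H18_VertDict
import Fermat.Agent.S34.H3_VertPkg
import Fermat.Agent.S35.H46_WeakDatumCharts
import Fermat.Agent.S35.H84_ChartFrobTC

set_option autoImplicit false
set_option linter.unusedSectionVars false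
set_option linter.style.haveILetI false

open Polynomial IntermediateField Fermat.Agent.S18 Fermat.Agent.S34

namespace Fermat.Agent.S35.H18

universe v

section Core

variable {R : Type*} [CommRing R] [IsDomain R] [IsDiscreteValuationRing R]
  {K : Type*} [Field K] [Algebra R K] [IsFractionRing R K]
  {F : Type v} [Field F] [Algebra R F] [Algebra K F] [IsScalarTower R K F]

/-- The valuation rings of the two canonical vertical families agree (reduced special fibres):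
the `hVeq` of `H46.frobModel_of_charts` / `H46.weakDatum_of_charts` at the canonical families. -/
theorem vert_valuationSubringAt_eq
    (J : F) (htr : Transcendental K J) [FiniteDimensional K⟮J⟯ F] [Algebra.IsSeparable K⟮J⟯ F]
    [IsFractionRing ↥(H40.chartB R J) F] [IsFractionRing ↥(H40.chartB R J⁻¹) F]
    [IsNoetherianRing ↥(H40.chartB R J)] [IsIntegrallyClosed ↥(H40.chartB R J)]
    [IsNoetherianRing ↥(H40.chartB R J⁻¹)] [IsIntegrallyClosed ↥(H40.chartB R J⁻¹)]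
    (π : R) (hπ : Irreducible π)
    (hrad₁ : ∀ b : ↥(H40.chartB R J),
      (∃ n : ℕ, algebraMap R ↥(H40.chartB R J) π ∣ b ^ n) →
        algebraMap R ↥(H40.chartB R J) π ∣ b)
    (hrad₂ : ∀ b : ↥(H40.chartB R J⁻¹),
      (∃ n : ℕ, algebraMap R ↥(H40.chartB R J⁻¹) π ∣ b ^ n) →
        algebraMap R ↥(H40.chartB R J⁻¹) π ∣ b)
    (hh₁ : ∀ k : H3.VertIdx J π, (H3.vertP₁ J π k).height = 1)
    (hh₂ : ∀ k : H3.VertIdx J π, (H3.vertP₂ J π k).height = 1) (k : H3.VertIdx J π) :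
    H56.valuationSubringAt (K := F) (H3.vertP₁ J π k) (hh₁ k)
      = H56.valuationSubringAt (K := F) (H3.vertP₂ J π k) (hh₂ k) := by
  have hJ0 : J ≠ 0 := fun h => htr (h ▸ isAlgebraic_zero)
  have hloc12 := H3.isLocalization_chart12 (R := R) J hJ0
  have hloc12' := H3.isLocalization_chart12_inv (R := R) J hJ0
  have hmin₁ := H3.vertComap_mem_minimalPrimes (H83.chartB_le_chart12 (R := R) J) _ hloc12 π k
  have hmin₂ :=
    H3.vertComap_mem_minimalPrimes (H83.chartB_inv_le_chart12 (R := R) J) _ hloc12' π k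
  haveI := k.isPrime
  have hF₁₂ : IsFractionRing ↥(H83.chart12 R J) F :=
    H69.isFractionRing_chart12 (R := R) (K := K) J
  exact H21.valuationSubringAt_eq K hπ (H83.chartB_le_chart12 (R := R) J)
    (H83.chartB_inv_le_chart12 (R := R) J) (H3.vertP₁ J π k) (H3.vertP₂ J π k)
    (k : Ideal ↥(H83.chart12 R J)) (hh₁ k) (hh₂ k)
    (H3.algebraMap_mem_vertComap _ π k) (H3.algebraMap_mem_vertComap _ π k) k.mem
    (fun s hs h => hs ((H3.mem_vertComap _ π k s).2 h))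
    (fun s hs h => hs ((H3.mem_vertComap _ π k s).2 h))
    (H3.vert_hred hrad₁ ⟨_, hmin₁⟩) (H3.vert_hred hrad₂ ⟨_, hmin₂⟩)

/-- **GEO core, canonical vertical family.** -/
theorem exists_const_mul_pow_of_chartFrob
    (J : F) (htr : Transcendental K J) [FiniteDimensional K⟮J⟯ F] [Algebra.IsSeparable K⟮J⟯ F]
    [IsFractionRing ↥(H40.chartB R J) F] [IsFractionRing ↥(H40.chartB R J⁻¹) F]
    [IsNoetherianRing ↥(H40.chartB R J)] [IsIntegrallyClosed ↥(H40.chartB R J)]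
    [IsNoetherianRing ↥(H40.chartB R J⁻¹)] [IsIntegrallyClosed ↥(H40.chartB R J⁻¹)]
    (hcl : ∀ z : F, IsAlgebraic K z → z ∈ (algebraMap K F).range)
    (π : R) (hπ : Irreducible π)
    {l : ℕ} (hl : l.Prime) (hlu : IsUnit ((l : ℕ) : R)) {ζ : R} (hζ : IsPrimitiveRoot ζ l)
    (hroot : ∀ r : R, IsUnit r → ∃ γ : R, IsUnit γ ∧ π ∣ γ ^ l * r - 1)
    (hrad₁ : ∀ b : ↥(H40.chartB R J),
      (∃ n : ℕ, algebraMap R ↥(H40.chartB R J) π ∣ b ^ n) →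
        algebraMap R ↥(H40.chartB R J) π ∣ b)
    (hrad₂ : ∀ b : ↥(H40.chartB R J⁻¹),
      (∃ n : ℕ, algebraMap R ↥(H40.chartB R J⁻¹) π ∣ b ^ n) →
        algebraMap R ↥(H40.chartB R J⁻¹) π ∣ b)
    (hJ₁ : ∀ P : H3.Vert (algebraMap R ↥(H40.chartB R J) π),
      (⟨J, H40.self_mem_chartB J⟩ : ↥(H40.chartB R J)) ∉ (P : Ideal ↥(H40.chartB R J)))
    (hJ₂ : ∀ P : H3.Vert (algebraMap R ↥(H40.chartB R J⁻¹) π),
      (⟨J⁻¹, H40.self_mem_chartB J⁻¹⟩ : ↥(H40.chartB R J⁻¹)) ∉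
        (P : Ideal ↥(H40.chartB R J⁻¹)))
    (Ψ : F ≃+* F) (ΨB₁ : ↥(H40.chartB R J) ≃+* ↥(H40.chartB R J))
    (ΨB₂ : ↥(H40.chartB R J⁻¹) ≃+* ↥(H40.chartB R J⁻¹)) (ΨR : R →+* R) (Q : ℕ)
    (C₁ : H46.ChartFrob (F := F) (H3.vertP₁ J π) π Ψ ΨB₁ ΨR Q)
    (C₂ : H46.ChartFrob (F := F) (H3.vertP₂ J π) π Ψ ΨB₂ ΨR Q)
    (hFrobR : ∀ r : R, π ∣ ΨR r - r ^ Q)
    (k : ℕ) {u₁ G : F} (hu₁0 : u₁ ≠ 0)
    (h₁ : ∀ n : Ideal ↥(H40.chartB R J), n.IsMaximal → algebraMap R ↥(H40.chartB R J) π ∈ n →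
      H46.ChartWeakAt (F := F) (algebraMap R ↥(H40.chartB R J) π) n u₁ (l ^ k))
    (h₂ : ∀ n : Ideal ↥(H40.chartB R J⁻¹), n.IsMaximal →
      algebraMap R ↥(H40.chartB R J⁻¹) π ∈ n →
      H46.ChartWeakAt (F := F) (algebraMap R ↥(H40.chartB R J⁻¹) π) n u₁ (l ^ k))
    (hG0 : G ≠ 0)
    (hG : ∀ (i : H3.VertIdx J π) (h1 : (H3.vertP₁ J π i).height = 1),
      H47.OneU (H56.valuationSubringAt (K := F) (H3.vertP₁ J π i) h1)
        ((Ψ u₁ / u₁) / G ^ (l ^ k))) :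
    ∃ (c : K) (w : F), c ≠ 0 ∧ w ≠ 0 ∧
      Ψ (Ψ u₁ / u₁) / (Ψ u₁ / u₁) ^ Q = algebraMap K F c * w ^ (l ^ k) := by
  have hh₁ := H3.height_vertP₁ (R := R) (K := K) J htr π hπ
  have hh₂ := H3.height_vertP₂ (R := R) (K := K) J htr π hπ
  haveI hfin : Finite (H3.VertIdx (R := R) J π) := H3.finite_vertIdx (K := K) J htr π
  have hVeq := vert_valuationSubringAt_eq (R := R) (K := K) J htr π hπ hrad₁ hrad₂ hh₁ hh₂
  have hm : 0 < l ^ k := pow_pos hl.pos k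
  have HF := H46.frobModel_of_charts (F := F) hh₁ hh₂ hVeq Ψ ΨB₁ ΨB₂ ΨR Q (l ^ k) hm C₁ C₂ hFrobR
  have hW := H46.weakDatum_of_charts (F := F) (π := π) hh₁ hh₂ hVeq
    (fun i => H3.algebraMap_mem_vertComap _ π i) (fun i => H3.algebraMap_mem_vertComap _ π i)
    h₁ h₂
  exact H46.exists_const_mul_pow_of_threeRatios (K0 := K) HF
    (fun x hx hx' => H3.kummer_descent_pow_of_reduced J htr π hπ hcl hl hlu hζ hroot hrad₁ hrad₂
      hJ₁ hJ₂ hh₁ k x hx hx')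
    hu₁0 hW hG0 (fun i => hG i (hh₁ i))

/-- **GEO core, `Bool`-indexed vertical primes.**  Each chart has exactly two vertical primes
(`p₁ ≠ q₁` in `B₁`, `p₂`, `q₂` in `B₂`), with `V_{p₁} = V_{p₂}` and `V_{q₁} = V_{q₂}`; the two
`ChartFrob` packages are given at the families `cond · p₁ q₁`, `cond · p₂ q₂`
(= helper84's `H84.vertTC red₁ red₂`). -/
theorem exists_const_mul_pow_of_chartFrob_bool
    (J : F) (htr : Transcendental K J) [FiniteDimensional K⟮J⟯ F] [Algebra.IsSeparable K⟮J⟯ F]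
    [IsFractionRing ↥(H40.chartB R J) F] [IsFractionRing ↥(H40.chartB R J⁻¹) F]
    [IsNoetherianRing ↥(H40.chartB R J)] [IsIntegrallyClosed ↥(H40.chartB R J)]
    [IsNoetherianRing ↥(H40.chartB R J⁻¹)] [IsIntegrallyClosed ↥(H40.chartB R J⁻¹)]
    (hcl : ∀ z : F, IsAlgebraic K z → z ∈ (algebraMap K F).range)
    (π : R) (hπ : Irreducible π)
    {l : ℕ} (hl : l.Prime) (hlu : IsUnit ((l : ℕ) : R)) {ζ : R} (hζ : IsPrimitiveRoot ζ l)
    (hroot : ∀ r : R, IsUnit r → ∃ γ : R, IsUnit γ ∧ π ∣ γ ^ l * r - 1)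
    (hrad₁ : ∀ b : ↥(H40.chartB R J),
      (∃ n : ℕ, algebraMap R ↥(H40.chartB R J) π ∣ b ^ n) →
        algebraMap R ↥(H40.chartB R J) π ∣ b)
    (hrad₂ : ∀ b : ↥(H40.chartB R J⁻¹),
      (∃ n : ℕ, algebraMap R ↥(H40.chartB R J⁻¹) π ∣ b ^ n) →
        algebraMap R ↥(H40.chartB R J⁻¹) π ∣ b)
    (p₁ q₁ : Ideal ↥(H40.chartB R J)) [p₁.IsPrime] [q₁.IsPrime]
    (p₂ q₂ : Ideal ↥(H40.chartB R J⁻¹)) [p₂.IsPrime] [q₂.IsPrime]
    (hp₁ : p₁ ∈ (Ideal.span {algebraMap R ↥(H40.chartB R J) π}).minimalPrimes)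
    (hq₁ : q₁ ∈ (Ideal.span {algebraMap R ↥(H40.chartB R J) π}).minimalPrimes) (hpq₁ : p₁ ≠ q₁)
    (hall₁ : ∀ P ∈ (Ideal.span {algebraMap R ↥(H40.chartB R J) π}).minimalPrimes,
      P = p₁ ∨ P = q₁)
    (hall₂ : ∀ P ∈ (Ideal.span {algebraMap R ↥(H40.chartB R J⁻¹) π}).minimalPrimes,
      P = p₂ ∨ P = q₂)
    (hJp₁ : (⟨J, H40.self_mem_chartB J⟩ : ↥(H40.chartB R J)) ∉ p₁)
    (hJq₁ : (⟨J, H40.self_mem_chartB J⟩ : ↥(H40.chartB R J)) ∉ q₁)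
    (hJp₂ : (⟨J⁻¹, H40.self_mem_chartB J⁻¹⟩ : ↥(H40.chartB R J⁻¹)) ∉ p₂)
    (hJq₂ : (⟨J⁻¹, H40.self_mem_chartB J⁻¹⟩ : ↥(H40.chartB R J⁻¹)) ∉ q₂)
    (hph₁ : p₁.height = 1) (hqh₁ : q₁.height = 1) (hph₂ : p₂.height = 1) (hqh₂ : q₂.height = 1)
    (hVp : H56.valuationSubringAt (K := F) p₁ hph₁ = H56.valuationSubringAt (K := F) p₂ hph₂)
    (hVq : H56.valuationSubringAt (K := F) q₁ hqh₁ = H56.valuationSubringAt (K := F) q₂ hqh₂)
    (Ψ : F ≃+* F) (ΨB₁ : ↥(H40.chartB R J) ≃+* ↥(H40.chartB R J))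
    (ΨB₂ : ↥(H40.chartB R J⁻¹) ≃+* ↥(H40.chartB R J⁻¹)) (ΨR : R →+* R) (Q : ℕ)
    (C₁ : H46.ChartFrob (F := F) (fun b : Bool => cond b p₁ q₁) π Ψ ΨB₁ ΨR Q)
    (C₂ : H46.ChartFrob (F := F) (fun b : Bool => cond b p₂ q₂) π Ψ ΨB₂ ΨR Q)
    (hFrobR : ∀ r : R, π ∣ ΨR r - r ^ Q)
    (k : ℕ) {u₁ G : F} (hu₁0 : u₁ ≠ 0)
    (h₁ : ∀ n : Ideal ↥(H40.chartB R J), n.IsMaximal → algebraMap R ↥(H40.chartB R J) π ∈ n →
      H46.ChartWeakAt (F := F) (algebraMap R ↥(H40.chartB R J) π) n u₁ (l ^ k))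
    (h₂ : ∀ n : Ideal ↥(H40.chartB R J⁻¹), n.IsMaximal →
      algebraMap R ↥(H40.chartB R J⁻¹) π ∈ n →
      H46.ChartWeakAt (F := F) (algebraMap R ↥(H40.chartB R J⁻¹) π) n u₁ (l ^ k))
    (hG0 : G ≠ 0)
    (hGp : H47.OneU (H56.valuationSubringAt (K := F) p₁ hph₁) ((Ψ u₁ / u₁) / G ^ (l ^ k)))
    (hGq : H47.OneU (H56.valuationSubringAt (K := F) q₁ hqh₁) ((Ψ u₁ / u₁) / G ^ (l ^ k))) :
    ∃ (c : K) (w : F), c ≠ 0 ∧ w ≠ 0 ∧
      Ψ (Ψ u₁ / u₁) / (Ψ u₁ / u₁) ^ Q = algebraMap K F c * w ^ (l ^ k) := by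
  have hJ0 : J ≠ 0 := fun h => htr (h ▸ isAlgebraic_zero)
  have hh₁ := H3.height_vertP₁ (R := R) (K := K) J htr π hπ
  have hh₂ := H3.height_vertP₂ (R := R) (K := K) J htr π hπ
  have hVeq := vert_valuationSubringAt_eq (R := R) (K := K) J htr π hπ hrad₁ hrad₂ hh₁ hh₂
  obtain ⟨e, he₁, he₂⟩ := exists_vertIdx_equiv_bool₂ (R := R) J hJ0 π hh₁ hh₂ hVeq
    p₁ q₁ hp₁ hq₁ hpq₁ hall₁ hJp₁ hJq₁ p₂ q₂ hall₂ hph₁ hqh₁ hph₂ hqh₂ hVp hVq
  have hf₁ : (fun k' : H3.VertIdx J π => (fun b : Bool => cond b p₁ q₁) (e k')) =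
      H3.vertP₁ J π := funext fun k' => (he₁ k').symm
  have hf₂ : (fun k' : H3.VertIdx J π => (fun b : Bool => cond b p₂ q₂) (e k')) =
      H3.vertP₂ J π := funext fun k' => (he₂ k').symm
  have C₁' : H46.ChartFrob (F := F) (H3.vertP₁ J π) π Ψ ΨB₁ ΨR Q :=
    hf₁ ▸ H84.chartFrob_reindex C₁ e
  have C₂' : H46.ChartFrob (F := F) (H3.vertP₂ J π) π Ψ ΨB₂ ΨR Q :=
    hf₂ ▸ H84.chartFrob_reindex C₂ e
  have hJ₁ : ∀ P : H3.Vert (algebraMap R ↥(H40.chartB R J) π),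
      (⟨J, H40.self_mem_chartB J⟩ : ↥(H40.chartB R J)) ∉ (P : Ideal ↥(H40.chartB R J)) := by
    intro P
    rcases hall₁ P.1 P.2 with h | h
    · rw [h]; exact hJp₁
    · rw [h]; exact hJq₁
  have hJ₂ : ∀ P : H3.Vert (algebraMap R ↥(H40.chartB R J⁻¹) π),
      (⟨J⁻¹, H40.self_mem_chartB J⁻¹⟩ : ↥(H40.chartB R J⁻¹)) ∉
        (P : Ideal ↥(H40.chartB R J⁻¹)) := by
    intro P
    rcases hall₂ P.1 P.2 with h | h
    · rw [h]; exact hJp₂
    · rw [h]; exact hJq₂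
  refine exists_const_mul_pow_of_chartFrob (R := R) (K := K) J htr hcl π hπ hl hlu hζ hroot
    hrad₁ hrad₂ hJ₁ hJ₂ Ψ ΨB₁ ΨB₂ ΨR Q C₁' C₂' hFrobR k hu₁0 h₁ h₂ hG0 (fun i h1 => ?_)
  have hi := he₁ i
  cases hei : e i with
  | true =>
    rw [hei] at hi
    replace hi : H3.vertP₁ J π i = p₁ := hi
    rw [valuationSubringAt_congr (K := F) hi h1 hph₁]
    exact hGp
  | false =>
    rw [hei] at hi
    replace hi : H3.vertP₁ J π i = q₁ := hi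
    rw [valuationSubringAt_congr (K := F) hi h1 hqh₁]
    exact hGq

end Core

end Fermat.Agent.S35.H18
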