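/-
helper18 — S35 row GEO-TOP-E, part 2b (generic core): **the three-ratio theorem from the
`TwoComponents` structures of the two charts.**

`exists_const_mul_pow_of_twoComponents` = `H18.exists_const_mul_pow_of_chartFrob_bool` with

* the two vertical primes of each chart := `ker red₁`, `ker red₂` of an `H83.TwoComponents`
  structure on the chart; minimality, exhaustion and height one come from helper84's
  `H84_ChartFrobTC`;
* `hrad₁ hrad₂` := `H3.hrad_of_twoComponents` (reduced special fibres are part of `TwoComponents`);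
* `C₁ C₂ : H46.ChartFrob` := helper84's `chartFrob_of_twoComponents` from the G1 facts
  (`hΨ`, `hΨR`, `hΨπ`, the semilinear reductions `h1Ψ h2Ψ`, `hW`);
* the rationality of the nodes (`hrat`) discharged: `R / π` is algebraically closed and the charts
  are of finite type over `R` (`H83.hres_of_residue`).
-/
import Mathlib
import Fermat.Agent.S35.H18_GeoCore
import Fermat.Agent.S34.H3_RadTransfer
import Fermat.Agent.S34.H83_L1Inst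

set_option autoImplicit false
set_option linter.unusedSectionVars false
set_option linter.style.haveILetI false

open Polynomial IntermediateField IsLocalRing Fermat.Agent.S18 Fermat.Agent.S34

namespace Fermat.Agent.S35.H18

universe v

section Generic

variable {R : Type*} [CommRing R] [IsDomain R] [IsDiscreteValuationRing R]
  {K : Type*} [Field K] [Algebra R K] [IsFractionRing R K]
  {F : Type v} [Field F] [Algebra R F] [Algebra K F] [IsScalarTower R K F]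

/-- The second chart is of finite type over the base as well. -/
theorem finiteType_chartB_inv (J : F) (htr : Transcendental K J) [FiniteDimensional K⟮J⟯ F]
    [Algebra.IsSeparable K⟮J⟯ F] : Algebra.FiniteType R ↥(H40.chartB R J⁻¹) := by
  have htr' : Transcendental K J⁻¹ := fun h => htr (by simpa using h.inv)
  have e : K⟮J⁻¹⟯ = K⟮J⟯ := by
    apply le_antisymm
    · rw [IntermediateField.adjoin_simple_le_iff]
      exact inv_mem (IntermediateField.mem_adjoin_simple_self K J)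
    · rw [IntermediateField.adjoin_simple_le_iff]
      have := inv_mem (IntermediateField.mem_adjoin_simple_self K J⁻¹)
      rwa [inv_inv] at this
  have hfdinv : FiniteDimensional K⟮J⁻¹⟯ F := by rw [e]; infer_instance
  have hsepinv : Algebra.IsSeparable K⟮J⁻¹⟯ F := by rw [e]; infer_instance
  exact H83.finiteType_chartB (R := R) (K := K) J⁻¹ htr'

variable (K) in
include K in
/-- A nonzero element of the base stays nonzero in a chart. -/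
theorem algebraMap_chart_ne_zero (B : Subalgebra R F) {π : R} (hπ : π ≠ 0) :
    algebraMap R ↥B π ≠ 0 := fun h => by
  have h1 : algebraMap R F π = 0 := by
    rw [IsScalarTower.algebraMap_apply R ↥B F, h, map_zero]
  rw [IsScalarTower.algebraMap_apply R K F] at h1
  have h2 : algebraMap R K π = 0 := (algebraMap K F).injective (by rw [h1, map_zero])
  exact hπ (IsFractionRing.injective R K (by rw [h2, map_zero]))

omit [IsDomain R] [IsDiscreteValuationRing R] in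
/-- Rationality of the closed points of the special fibre of a finite-type `R`-algebra, `R` a local
ring with algebraically closed residue field and `maximalIdeal R = (π)`. -/
theorem exists_sub_mem_of_isAlgClosed_residue [IsLocalRing R] {B : Type*} [CommRing B]
    [Algebra R B] [Algebra.FiniteType R B] [IsAlgClosed (ResidueField R)] {π : R}
    (hmax : maximalIdeal R = Ideal.span {π}) (n : Ideal B) [n.IsMaximal]
    (hπn : algebraMap R B π ∈ n) (b : B) : ∃ r : R, b - algebraMap R B r ∈ n := by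
  refine H83.hres_of_residue (residue R) residue_surjective n (fun a ha => ?_) b
  have ha' : a ∈ maximalIdeal R := (residue_eq_zero_iff a).mp ha
  rw [hmax, Ideal.mem_span_singleton] at ha'
  obtain ⟨c, rfl⟩ := ha'
  rw [map_mul]
  exact n.mul_mem_right _ hπn

/-- **GEO core from the two `TwoComponents` packages.** -/
theorem exists_const_mul_pow_of_twoComponents
    (J : F) (htr : Transcendental K J) [FiniteDimensional K⟮J⟯ F] [Algebra.IsSeparable K⟮J⟯ F]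
    [IsFractionRing ↥(H40.chartB R J) F] [IsFractionRing ↥(H40.chartB R J⁻¹) F]
    [IsNoetherianRing ↥(H40.chartB R J)] [IsIntegrallyClosed ↥(H40.chartB R J)]
    [IsNoetherianRing ↥(H40.chartB R J⁻¹)] [IsIntegrallyClosed ↥(H40.chartB R J⁻¹)]
    [IsAlgClosed (ResidueField R)]
    (hcl : ∀ z : F, IsAlgebraic K z → z ∈ (algebraMap K F).range)
    (π : R) (hmax : maximalIdeal R = Ideal.span {π}) (hπ : Irreducible π)
    {l : ℕ} (hl : l.Prime) (hlu : IsUnit ((l : ℕ) : R)) {ζ : R} (hζ : IsPrimitiveRoot ζ l)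
    (hroot : ∀ r : R, IsUnit r → ∃ γ : R, IsUnit γ ∧ π ∣ γ ^ l * r - 1)
    -- chart 1
    {D₁ BM₁ : Type*} [CommRing D₁] [IsDedekindDomain D₁] [CommRing BM₁]
    {red₁₁ red₁₂ : ↥(H40.chartB R J) →+* D₁} {ι₁ V₁ : BM₁ →+* ↥(H40.chartB R J)}
    {rbar₁ : BM₁ →+* D₁} {W₁ : D₁ →+* D₁} {e₁ : ℕ}
    (TC₁ : H83.TwoComponents red₁₁ red₁₂ ι₁ V₁ rbar₁ W₁ e₁ (algebraMap R ↥(H40.chartB R J) π))
    (hπ₁₁ : red₁₁ (algebraMap R ↥(H40.chartB R J) π) = 0)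
    (hπ₁₂ : red₁₂ (algebraMap R ↥(H40.chartB R J) π) = 0)
    (hne₁₁ : ∃ z, red₁₁ z = 0 ∧ red₁₂ z ≠ 0) (hne₁₂ : ∃ z, red₁₂ z = 0 ∧ red₁₁ z ≠ 0)
    (he₁ : 2 ≤ e₁) (hD₁ : ¬ IsField D₁)
    (hJ₁₁ : red₁₁ (⟨J, H40.self_mem_chartB J⟩ : ↥(H40.chartB R J)) ≠ 0)
    (hJ₁₂ : red₁₂ (⟨J, H40.self_mem_chartB J⟩ : ↥(H40.chartB R J)) ≠ 0)
    -- chart 2
    {D₂ BM₂ : Type*} [CommRing D₂] [IsDedekindDomain D₂] [CommRing BM₂]
    {red₂₁ red₂₂ : ↥(H40.chartB R J⁻¹) →+* D₂} {ι₂ V₂ : BM₂ →+* ↥(H40.chartB R J⁻¹)}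
    {rbar₂ : BM₂ →+* D₂} {W₂ : D₂ →+* D₂} {e₂ : ℕ}
    (TC₂ : H83.TwoComponents red₂₁ red₂₂ ι₂ V₂ rbar₂ W₂ e₂
      (algebraMap R ↥(H40.chartB R J⁻¹) π))
    (hπ₂₁ : red₂₁ (algebraMap R ↥(H40.chartB R J⁻¹) π) = 0)
    (hπ₂₂ : red₂₂ (algebraMap R ↥(H40.chartB R J⁻¹) π) = 0)
    (hne₂₁ : ∃ z, red₂₁ z = 0 ∧ red₂₂ z ≠ 0) (hne₂₂ : ∃ z, red₂₂ z = 0 ∧ red₂₁ z ≠ 0)
    (he₂ : 2 ≤ e₂) (hD₂ : ¬ IsField D₂)
    (hJ₂₁ : red₂₁ (⟨J⁻¹, H40.self_mem_chartB J⁻¹⟩ : ↥(H40.chartB R J⁻¹)) ≠ 0)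
    (hJ₂₂ : red₂₂ (⟨J⁻¹, H40.self_mem_chartB J⁻¹⟩ : ↥(H40.chartB R J⁻¹)) ≠ 0)
    -- the first (second) components of the two charts are the same place
    (hVp : ∀ [(RingHom.ker red₁₁).IsPrime] [(RingHom.ker red₂₁).IsPrime]
      (h1 : (RingHom.ker red₁₁).height = 1) (h2 : (RingHom.ker red₂₁).height = 1),
      H56.valuationSubringAt (K := F) (RingHom.ker red₁₁) h1 =
        H56.valuationSubringAt (K := F) (RingHom.ker red₂₁) h2)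
    (hVq : ∀ [(RingHom.ker red₁₂).IsPrime] [(RingHom.ker red₂₂).IsPrime]
      (h1 : (RingHom.ker red₁₂).height = 1) (h2 : (RingHom.ker red₂₂).height = 1),
      H56.valuationSubringAt (K := F) (RingHom.ker red₁₂) h1 =
        H56.valuationSubringAt (K := F) (RingHom.ker red₂₂) h2)
    -- G1 facts
    (Ψ : F ≃+* F) (ΨB₁ : ↥(H40.chartB R J) ≃+* ↥(H40.chartB R J))
    (ΨB₂ : ↥(H40.chartB R J⁻¹) ≃+* ↥(H40.chartB R J⁻¹)) (ΨR : R →+* R) {Q : ℕ} (hQ : 0 < Q)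
    (hΨ₁ : ∀ b : ↥(H40.chartB R J),
      Ψ (algebraMap ↥(H40.chartB R J) F b) = algebraMap ↥(H40.chartB R J) F (ΨB₁ b))
    (hΨ₂ : ∀ b : ↥(H40.chartB R J⁻¹),
      Ψ (algebraMap ↥(H40.chartB R J⁻¹) F b) = algebraMap ↥(H40.chartB R J⁻¹) F (ΨB₂ b))
    (hΨR₁ : ∀ r : R, ΨB₁ (algebraMap R ↥(H40.chartB R J) r) =
      algebraMap R ↥(H40.chartB R J) (ΨR r))
    (hΨR₂ : ∀ r : R, ΨB₂ (algebraMap R ↥(H40.chartB R J⁻¹) r) =
      algebraMap R ↥(H40.chartB R J⁻¹) (ΨR r))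
    (hΨπ : π ∣ ΨR π)
    (ΨD₁₁ ΨD₁₂ : D₁ →+* D₁) (hinj₁₁ : Function.Injective ΨD₁₁) (hinj₁₂ : Function.Injective ΨD₁₂)
    (h1Ψ₁ : ∀ z, red₁₁ (ΨB₁ z) = ΨD₁₁ (red₁₁ z)) (h2Ψ₁ : ∀ z, red₁₂ (ΨB₁ z) = ΨD₁₂ (red₁₂ z))
    (hW₁ : ∀ r, W₁ (W₁ (ΨD₁₁ r)) = r ^ Q)
    (ΨD₂₁ ΨD₂₂ : D₂ →+* D₂) (hinj₂₁ : Function.Injective ΨD₂₁) (hinj₂₂ : Function.Injective ΨD₂₂)
    (h1Ψ₂ : ∀ z, red₂₁ (ΨB₂ z) = ΨD₂₁ (red₂₁ z)) (h2Ψ₂ : ∀ z, red₂₂ (ΨB₂ z) = ΨD₂₂ (red₂₂ z))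
    (hW₂ : ∀ r, W₂ (W₂ (ΨD₂₁ r)) = r ^ Q)
    (hFrobR : ∀ r : R, π ∣ ΨR r - r ^ Q)
    (k : ℕ) {u₁ : F} (hu₁0 : u₁ ≠ 0)
    -- (E2)
    (h₁ : ∀ n : Ideal ↥(H40.chartB R J), n.IsMaximal → algebraMap R ↥(H40.chartB R J) π ∈ n →
      H46.ChartWeakAt (F := F) (algebraMap R ↥(H40.chartB R J) π) n u₁ (l ^ k))
    (h₂ : ∀ n : Ideal ↥(H40.chartB R J⁻¹), n.IsMaximal →
      algebraMap R ↥(H40.chartB R J⁻¹) π ∈ n →
      H46.ChartWeakAt (F := F) (algebraMap R ↥(H40.chartB R J⁻¹) π) n u₁ (l ^ k))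
    -- (E3)
    (hG : ∀ [(RingHom.ker red₁₁).IsPrime] [(RingHom.ker red₁₂).IsPrime]
      (h1 : (RingHom.ker red₁₁).height = 1) (h2 : (RingHom.ker red₁₂).height = 1),
      ∃ G : F, G ≠ 0 ∧
        H47.OneU (H56.valuationSubringAt (K := F) (RingHom.ker red₁₁) h1)
          ((Ψ u₁ / u₁) / G ^ (l ^ k)) ∧
        H47.OneU (H56.valuationSubringAt (K := F) (RingHom.ker red₁₂) h2)
          ((Ψ u₁ / u₁) / G ^ (l ^ k))) :
    ∃ (c : K) (w : F), c ≠ 0 ∧ w ≠ 0 ∧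
      Ψ (Ψ u₁ / u₁) / (Ψ u₁ / u₁) ^ Q = algebraMap K F c * w ^ (l ^ k) := by
  haveI hft₁ : Algebra.FiniteType R ↥(H40.chartB R J) :=
    H83.finiteType_chartB (R := R) (K := K) J htr
  haveI hft₂ : Algebra.FiniteType R ↥(H40.chartB R J⁻¹) :=
    finiteType_chartB_inv (R := R) (K := K) J htr
  haveI hp₁₁ : (RingHom.ker red₁₁).IsPrime := RingHom.ker_isPrime red₁₁
  haveI hp₁₂ : (RingHom.ker red₁₂).IsPrime := RingHom.ker_isPrime red₁₂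
  haveI hp₂₁ : (RingHom.ker red₂₁).IsPrime := RingHom.ker_isPrime red₂₁
  haveI hp₂₂ : (RingHom.ker red₂₂).IsPrime := RingHom.ker_isPrime red₂₂
  have hπ0₁ := algebraMap_chart_ne_zero (R := R) K (H40.chartB R J) hπ.ne_zero
  have hπ0₂ := algebraMap_chart_ne_zero (R := R) K (H40.chartB R J⁻¹) hπ.ne_zero
  have hh₁ := H84.height_vertTC TC₁ hπ0₁ hπ₁₁ hπ₁₂ hne₁₁ hne₁₂
  have hh₂ := H84.height_vertTC TC₂ hπ0₂ hπ₂₁ hπ₂₂ hne₂₁ hne₂₂
  have hph₁ : (RingHom.ker red₁₁).height = 1 := hh₁ true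
  have hqh₁ : (RingHom.ker red₁₂).height = 1 := hh₁ false
  have hph₂ : (RingHom.ker red₂₁).height = 1 := hh₂ true
  have hqh₂ : (RingHom.ker red₂₂).height = 1 := hh₂ false
  have hpq₁ : RingHom.ker red₁₁ ≠ RingHom.ker red₁₂ := by
    obtain ⟨z, hz1, hz2⟩ := hne₁₁
    intro h
    have : z ∈ RingHom.ker red₁₂ := h ▸ (RingHom.mem_ker).mpr hz1
    exact hz2 ((RingHom.mem_ker).mp this)
  have hall₁ : ∀ P ∈ (Ideal.span {algebraMap R ↥(H40.chartB R J) π}).minimalPrimes,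
      P = RingHom.ker red₁₁ ∨ P = RingHom.ker red₁₂ := by
    intro P hP
    obtain ⟨k, hk⟩ := H84.eq_vertTC_of_mem_minimalPrimes TC₁ hπ₁₁ hπ₁₂ hP
    cases k
    · exact Or.inr hk
    · exact Or.inl hk
  have hall₂ : ∀ P ∈ (Ideal.span {algebraMap R ↥(H40.chartB R J⁻¹) π}).minimalPrimes,
      P = RingHom.ker red₂₁ ∨ P = RingHom.ker red₂₂ := by
    intro P hP
    obtain ⟨k, hk⟩ := H84.eq_vertTC_of_mem_minimalPrimes TC₂ hπ₂₁ hπ₂₂ hP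
    cases k
    · exact Or.inr hk
    · exact Or.inl hk
  have hrat₁ : ∀ m : Ideal ↥(H40.chartB R J), m.IsMaximal → RingHom.ker red₁₁ ≤ m →
      RingHom.ker red₁₂ ≤ m →
      ∀ b : ↥(H40.chartB R J), ∃ r : R, b - algebraMap R ↥(H40.chartB R J) r ∈ m :=
    fun m hm h1 _ b =>
      haveI := hm
      exists_sub_mem_of_isAlgClosed_residue hmax m (h1 ((RingHom.mem_ker).mpr hπ₁₁)) b
  have hrat₂ : ∀ m : Ideal ↥(H40.chartB R J⁻¹), m.IsMaximal → RingHom.ker red₂₁ ≤ m →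
      RingHom.ker red₂₂ ≤ m →
      ∀ b : ↥(H40.chartB R J⁻¹), ∃ r : R, b - algebraMap R ↥(H40.chartB R J⁻¹) r ∈ m :=
    fun m hm h1 _ b =>
      haveI := hm
      exists_sub_mem_of_isAlgClosed_residue hmax m (h1 ((RingHom.mem_ker).mpr hπ₂₁)) b
  have C₁ := H84.chartFrob_of_twoComponents (F := F) TC₁ hπ₁₁ hπ₁₂ hne₁₁ hne₁₂ he₁ hD₁
    Ψ ΨB₁ ΨR hQ hΨ₁ hΨR₁ hΨπ ΨD₁₁ ΨD₁₂ hinj₁₁ hinj₁₂ h1Ψ₁ h2Ψ₁ hW₁ hrat₁
  have C₂ := H84.chartFrob_of_twoComponents (F := F) TC₂ hπ₂₁ hπ₂₂ hne₂₁ hne₂₂ he₂ hD₂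
    Ψ ΨB₂ ΨR hQ hΨ₂ hΨR₂ hΨπ ΨD₂₁ ΨD₂₂ hinj₂₁ hinj₂₂ h1Ψ₂ h2Ψ₂ hW₂ hrat₂
  obtain ⟨G, hG0, hGp, hGq⟩ := hG hph₁ hqh₁
  exact exists_const_mul_pow_of_chartFrob_bool (R := R) (K := K) J htr hcl π hπ hl hlu hζ hroot
    (H3.hrad_of_twoComponents TC₁ hπ₁₁ hπ₁₂) (H3.hrad_of_twoComponents TC₂ hπ₂₁ hπ₂₂)
    (RingHom.ker red₁₁) (RingHom.ker red₁₂) (RingHom.ker red₂₁) (RingHom.ker red₂₂)
    (H84.ker_red₁_mem_minimalPrimes TC₁ hπ₁₁ hne₁₂) (H84.ker_red₂_mem_minimalPrimes TC₁ hπ₁₂ hne₁₁)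
    hpq₁ hall₁ hall₂
    (fun h => hJ₁₁ ((RingHom.mem_ker).mp h)) (fun h => hJ₁₂ ((RingHom.mem_ker).mp h))
    (fun h => hJ₂₁ ((RingHom.mem_ker).mp h)) (fun h => hJ₂₂ ((RingHom.mem_ker).mp h))
    hph₁ hqh₁ hph₂ hqh₂ (hVp hph₁ hph₂) (hVq hqh₁ hqh₂) Ψ ΨB₁ ΨB₂ ΨR Q C₁ C₂ hFrobR k hu₁0
    h₁ h₂ hG0 hGp hGq

end Generic

end Fermat.Agent.S35.H18
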