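/-
S35, second clause (helper46): an automorphism preserving a discrete valuation ring preserves the
valuation, so every ratio `Φ x / x` is a unit.  Used for `u₁ = Φ f / f` at the two vertical
valuations (input `ha hb` of `H46.g3_residues`) and for `ΦM h / h`, `ΦM c / c` at the Gauss
valuation of level `M` (inputs `hc hh` of `H46.hasRes_norm_ratio`).
-/
import Mathlib
import Fermat.Agent.S35.H46_ThreeRatios

set_option autoImplicit false

namespace Fermat.Agent.S35.H46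

open Fermat.Agent.S34.H47

variable {F : Type*} [Field F]

/-- `v (Φ x / x) = 1` for an automorphism `Φ` with `Φ V = V`, when `V` has a uniformiser `ϖ`
(in the sense of `H47.ModelHyp.hVdvr`) with `Φ ϖ / ϖ` a unit. -/
theorem valuation_map_div_self_eq_one (V : ValuationSubring F) (Φ : F ≃+* F)
    (hΦV : ∀ x, Φ x ∈ V ↔ x ∈ V) {ϖ : F} (hϖ0 : ϖ ≠ 0)
    (hdvr : ∀ x : F, x ≠ 0 → ∃ e : ℤ, V.valuation (x * ϖ ^ (-e)) = 1)
    (hΦϖ : V.valuation (Φ ϖ / ϖ) = 1) {x : F} (hx : x ≠ 0) :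
    V.valuation (Φ x / x) = 1 := by
  obtain ⟨e, he⟩ := hdvr x hx
  set w : F := x * ϖ ^ (-e) with hw
  have hw0 : w ≠ 0 := mul_ne_zero hx (zpow_ne_zero _ hϖ0)
  have hΦϖ0 : Φ ϖ ≠ 0 := (map_ne_zero Φ).mpr hϖ0
  have hxw : x = w * ϖ ^ e := by
    rw [hw, mul_assoc, ← zpow_add₀ hϖ0, neg_add_cancel, zpow_zero, mul_one]
  have hΦx : Φ x = Φ w * Φ ϖ ^ e := by
    conv_lhs => rw [hxw]
    rw [map_mul, map_zpow₀]
  have hrat : Φ x / x = Φ w / w * (Φ ϖ / ϖ) ^ e := by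
    rw [hΦx, div_zpow]
    conv_lhs => rw [hxw]
    have h1 : ϖ ^ e ≠ 0 := zpow_ne_zero _ hϖ0
    field_simp
  rw [hrat, map_mul, map_zpow₀, hΦϖ, one_zpow, mul_one, map_div₀, he,
    valuation_map_eq_one hΦV he, div_one]

/-- Consequently a unit of `V` (`1`-unit class irrelevant): `Φ x / x ∈ V` and `(Φ x / x)⁻¹ ∈ V`. -/
theorem map_div_self_mem (V : ValuationSubring F) (Φ : F ≃+* F)
    (hΦV : ∀ x, Φ x ∈ V ↔ x ∈ V) {ϖ : F} (hϖ0 : ϖ ≠ 0)
    (hdvr : ∀ x : F, x ≠ 0 → ∃ e : ℤ, V.valuation (x * ϖ ^ (-e)) = 1)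
    (hΦϖ : V.valuation (Φ ϖ / ϖ) = 1) {x : F} (hx : x ≠ 0) :
    Φ x / x ∈ V ∧ (Φ x / x)⁻¹ ∈ V := by
  have h := valuation_map_div_self_eq_one V Φ hΦV hϖ0 hdvr hΦϖ hx
  refine ⟨(V.valuation_le_one_iff _).mp h.le, (V.valuation_le_one_iff _).mp ?_⟩
  rw [map_inv₀, h, inv_one]

end Fermat.Agent.S35.H46
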