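/-
S35, second clause, node (E3) (helper46): the inputs `hu` of `H46.exists_hG_of_places` from the chart
hypotheses `H46.ChartFrob`: for an automorphism `Φ` restricting to a chart automorphism `ΦB` with
`ΦB`-stable vertical primes, `Φ f / f` is a unit at every vertical valuation ring.
-/
import Mathlib
import Fermat.Agent.S35.H46_FrobModelCharts
import Fermat.Agent.S35.H46_RatioUnit

set_option autoImplicit false
set_option linter.unusedSectionVars false

namespace Fermat.Agent.S35.H46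

open Fermat.Agent.S34 Fermat.Agent.S34.H47

section Unit

variable {R B F : Type*} [CommRing R] [CommRing B] [IsDomain B] [Field F] [Algebra R B]
  [Algebra B F] [Algebra R F] [IsScalarTower R B F] [IsFractionRing B F]
  [IsNoetherianRing B] [IsIntegrallyClosed B]

/-- `ΦB π = π c` with `c ∉ P k`: the cofactor is a unit at every vertical prime. -/
theorem exists_cofactor_not_mem {κ : Type*} {P : κ → Ideal B} [∀ k, (P k).IsPrime] {π : R}
    {Φ : F ≃+* F} {ΦB : B ≃+* B} {ΦR : R →+* R} {Q : ℕ}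
    (C : ChartFrob (F := F) P π Φ ΦB ΦR Q) (hπP : ∀ k, algebraMap R B π ∈ P k)
    (hπ0 : algebraMap R B π ≠ 0) :
    ∃ c : B, ΦB (algebraMap R B π) = algebraMap R B π * c ∧ ∀ k, c ∉ P k := by
  obtain ⟨c, hc⟩ := C.hΦπ
  refine ⟨c, hc, fun k hck => ?_⟩
  -- `ΦB⁻¹ π ∈ P k`
  have h1 : ΦB.symm (algebraMap R B π) ∈ P k := by
    rw [← C.hstab k, RingEquiv.apply_symm_apply]
    exact hπP k
  obtain ⟨s, hs, d, hd⟩ := C.hred k _ h1
  -- apply `ΦB`: `ΦB s * π = ΦB π * ΦB d = π * c * ΦB d`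
  have h2 := congrArg ΦB hd
  rw [map_mul, RingEquiv.apply_symm_apply, map_mul, hc] at h2
  have h3 : algebraMap R B π * ΦB s = algebraMap R B π * (c * ΦB d) := by
    rw [mul_comm, h2]; ring
  have h4 : ΦB s = c * ΦB d := mul_left_cancel₀ hπ0 h3
  have h5 : ΦB s ∈ P k := by rw [h4]; exact (P k).mul_mem_right _ hck
  exact hs ((C.hstab k s).mp h5)

/-- **`hu`**: `Φ f / f` is a unit of the valuation ring of every vertical prime. -/
theorem valuation_ratio_eq_one_of_chartFrob {κ : Type*} {P : κ → Ideal B}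
    [hP : ∀ k, (P k).IsPrime] (hh : ∀ k, (P k).height = 1) {π : R}
    {Φ : F ≃+* F} {ΦB : B ≃+* B} {ΦR : R →+* R} {Q : ℕ}
    (C : ChartFrob (F := F) P π Φ ΦB ΦR Q) (hπP : ∀ k, algebraMap R B π ∈ P k)
    (hπ0 : algebraMap R B π ≠ 0) {f : F} (hf : f ≠ 0) (k : κ) :
    (H56.valuationSubringAt (K := F) (P k) (hh k)).valuation (Φ f / f) = 1 := by
  set ϖ : F := algebraMap B F (algebraMap R B π) with hϖ
  have hinj := IsFractionRing.injective B F
  have hϖ0 : ϖ ≠ 0 := fun h0 => hπ0 (hinj (h0.trans (map_zero _).symm))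
  obtain ⟨c, hc, hck⟩ := exists_cofactor_not_mem C hπP hπ0
  have hΦϖ : (H56.valuationSubringAt (K := F) (P k) (hh k)).valuation (Φ ϖ / ϖ) = 1 := by
    have h1 : Φ ϖ / ϖ = algebraMap B F c := by
      rw [hϖ, C.hΦ, hc, map_mul, mul_comm, mul_div_assoc, div_self hϖ0, mul_one]
    rw [h1, H56.valuation_eq_one_iff]
    exact H56.isUnitAt_algebraMap (hck k) (hP k).ne_top
  exact valuation_map_div_self_eq_one _ Φ
    (map_mem_valuationSubringAt_iff C.hΦ (P k) (hh k) (C.hstab k)) hϖ0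
    (fun x hx => H21.exists_zpow_valuation_eq_one (P k) (hh k) (hπP k) (C.hred k) hx) hΦϖ hf

end Unit

end Fermat.Agent.S35.H46
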