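/-
S35 / rows G4, (E1) (helper84): **the two components of `H83.TwoComponents` are automatically
different**, so the hypotheses `hne₁ hne₂` of `H84.chartFrob_of_twoComponents`, `H84.height_vertTC`,
`H84.nodes_finite`, ... can be dropped as soon as the branch ring `D` is a Dedekind domain which is
not a field and `2 ≤ q`.

For a uniformiser `θ ∈ 𝔞 ∖ 𝔞²` of `D` at a maximal ideal, `r'` with `r' ^ q = W θ`, `rbar ψ = r'`,
`rbar ψ' = θ`, the element `z = ι ψ ^ q - V ψ'` has `red₁ z = 0` and `red₂ z = (W r') ^ q - θ ≠ 0`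
(a `q`-th power lying in `𝔞` lies in `𝔞²`).
-/
import Mathlib
import Fermat.Agent.S35.H84_ChartFrobTC

set_option autoImplicit false
set_option linter.unusedSectionVars false

namespace Fermat.Agent.S35.H84

open Fermat.Agent.S34 Fermat.Agent.S34.H83 Fermat.Agent.S35.H46

section Ne

variable {B D BM : Type*} [CommRing B] [CommRing D] [IsDedekindDomain D] [CommRing BM]
  {red₁ red₂ : B →+* D} {ι V : BM →+* B} {rbar : BM →+* D} {W : D →+* D} {q : ℕ} {πB : B}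

/-- a uniformiser at some maximal ideal of a Dedekind domain which is not a field is not of the
form `s ^ q - 0`, more precisely `s ^ q ≠ θ` for all `s`. -/
theorem exists_not_pow (hq : 2 ≤ q) (hD : ¬ IsField D) : ∃ θ : D, ∀ s : D, s ^ q ≠ θ := by
  obtain ⟨𝔞, h𝔞⟩ := Ideal.exists_maximal D
  have h0 : 𝔞 ≠ ⊥ := Ring.ne_bot_of_isMaximal_of_not_isField h𝔞 hD
  obtain ⟨θ, hθ, hθ2⟩ := exists_mem_not_mem_sq h𝔞.isPrime h0
  refine ⟨θ, fun s hs => hθ2 ?_⟩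
  have hs𝔞 : s ∈ 𝔞 := h𝔞.isPrime.mem_of_pow_mem q (by rw [hs]; exact hθ)
  have h3 : q = 2 + (q - 2) := by omega
  rw [← hs, h3, pow_add]
  exact Ideal.mul_mem_right _ _ (Ideal.pow_mem_pow hs𝔞 2)

/-- **The second component is not contained in the first.** -/
theorem exists_red₁_eq_zero_red₂_ne_zero (h : TwoComponents red₁ red₂ ι V rbar W q πB)
    (hq : 2 ≤ q) (hD : ¬ IsField D) : ∃ z, red₁ z = 0 ∧ red₂ z ≠ 0 := by
  obtain ⟨θ, hθ⟩ := exists_not_pow (D := D) hq hD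
  obtain ⟨r', hr'⟩ := h.hroot θ
  obtain ⟨ψ, hψ⟩ := h.hrbar r'
  obtain ⟨ψ', hψ'⟩ := h.hrbar θ
  refine ⟨ι ψ ^ q - V ψ', ?_, ?_⟩
  · rw [map_sub, map_pow, h.h1ι, h.h1V, hψ, hψ', hr', sub_self]
  · rw [map_sub, map_pow, h.h2ι, h.h2V, hψ, hψ', sub_ne_zero]
    exact hθ _

/-- **The first component is not contained in the second.** -/
theorem exists_red₂_eq_zero_red₁_ne_zero (h : TwoComponents red₁ red₂ ι V rbar W q πB)
    (hq : 2 ≤ q) (hD : ¬ IsField D) : ∃ z, red₂ z = 0 ∧ red₁ z ≠ 0 := by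
  obtain ⟨θ, hθ⟩ := exists_not_pow (D := D) hq hD
  obtain ⟨r', hr'⟩ := h.hroot θ
  obtain ⟨ψ, hψ⟩ := h.hrbar r'
  obtain ⟨ψ', hψ'⟩ := h.hrbar θ
  refine ⟨V ψ ^ q - ι ψ', ?_, ?_⟩
  · rw [map_sub, map_pow, h.h2V, h.h2ι, hψ, hψ', hr', sub_self]
  · rw [map_sub, map_pow, h.h1V, h.h1ι, hψ, hψ', sub_ne_zero]
    exact hθ _

/-- the two vertical primes are different. -/
theorem ker_red₁_ne_ker_red₂ (h : TwoComponents red₁ red₂ ι V rbar W q πB)
    (hq : 2 ≤ q) (hD : ¬ IsField D) : RingHom.ker red₁ ≠ RingHom.ker red₂ := by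
  obtain ⟨z, hz1, hz2⟩ := exists_red₁_eq_zero_red₂_ne_zero h hq hD
  intro heq
  have : z ∈ RingHom.ker red₂ := heq ▸ (RingHom.mem_ker).mpr hz1
  exact hz2 ((RingHom.mem_ker).mp this)

/-- `nodes_finite` without `hne`. -/
theorem nodes_finite' (h : TwoComponents red₁ red₂ ι V rbar W q πB) (hq : 2 ≤ q)
    (hD : ¬ IsField D) :
    {n : Ideal B | n.IsMaximal ∧ RingHom.ker red₁ ≤ n ∧ RingHom.ker red₂ ≤ n}.Finite :=
  nodes_finite h (exists_red₁_eq_zero_red₂_ne_zero h hq hD)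

end Ne

section Main

variable {A B F : Type*} [CommRing A] [CommRing B] [IsDomain B] [Field F] [Algebra A B]
  [Algebra B F] [Algebra A F] [IsScalarTower A B F] [IsFractionRing B F]
  [IsNoetherianRing B] [IsIntegrallyClosed B]
  {D BM : Type*} [CommRing D] [IsDedekindDomain D] [CommRing BM]
  {red₁ red₂ : B →+* D} {ι V : BM →+* B} {rbar : BM →+* D} {W : D →+* D} {q : ℕ} {π : A}

/-- `height_vertTC` without `hne`. -/
theorem height_vertTC' (h : TwoComponents red₁ red₂ ι V rbar W q (algebraMap A B π))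
    (hπ0 : algebraMap A B π ≠ 0) (hπ₁ : red₁ (algebraMap A B π) = 0)
    (hπ₂ : red₂ (algebraMap A B π) = 0) (hq : 2 ≤ q) (hD : ¬ IsField D) (k : Bool) :
    (vertTC red₁ red₂ k).height = 1 :=
  height_vertTC h hπ0 hπ₁ hπ₂ (exists_red₁_eq_zero_red₂_ne_zero h hq hD)
    (exists_red₂_eq_zero_red₁_ne_zero h hq hD) k

/-- **`chartFrob_of_twoComponents` without `hne₁ hne₂`.** -/
theorem chartFrob_of_twoComponents'
    (h : TwoComponents red₁ red₂ ι V rbar W q (algebraMap A B π))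
    (hπ₁ : red₁ (algebraMap A B π) = 0) (hπ₂ : red₂ (algebraMap A B π) = 0)
    (hq : 2 ≤ q) (hD : ¬ IsField D)
    (Φ : F ≃+* F) (ΦB : B ≃+* B) (ΦA : A →+* A) {Q : ℕ} (hQ : 0 < Q)
    (hΦ : ∀ b : B, Φ (algebraMap B F b) = algebraMap B F (ΦB b))
    (hΦA : ∀ r : A, ΦB (algebraMap A B r) = algebraMap A B (ΦA r))
    (hΦπ : π ∣ ΦA π)
    (ΦD₁ ΦD₂ : D →+* D) (hinj₁ : Function.Injective ΦD₁) (hinj₂ : Function.Injective ΦD₂)
    (h1Φ : ∀ z, red₁ (ΦB z) = ΦD₁ (red₁ z)) (h2Φ : ∀ z, red₂ (ΦB z) = ΦD₂ (red₂ z))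
    (hW : ∀ r, W (W (ΦD₁ r)) = r ^ Q)
    (hrat : ∀ n : Ideal B, n.IsMaximal → RingHom.ker red₁ ≤ n → RingHom.ker red₂ ≤ n →
      ∀ b : B, ∃ r : A, b - algebraMap A B r ∈ n) :
    ChartFrob (F := F) (vertTC red₁ red₂) π Φ ΦB ΦA Q :=
  chartFrob_of_twoComponents h hπ₁ hπ₂ (exists_red₁_eq_zero_red₂_ne_zero h hq hD)
    (exists_red₂_eq_zero_red₁_ne_zero h hq hD) hq hD Φ ΦB ΦA hQ hΦ hΦA hΦπ ΦD₁ ΦD₂ hinj₁ hinj₂
    h1Φ h2Φ hW hrat

end Main

end Fermat.Agent.S35.H84
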