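/-
helper18 — S35 row GEO-TOP-E, final assembly, part B (generic): **the units `hunit` of helper46's
`H46.hE3_level` from the `TwoComponents` structure and the G1 facts.**

`hunit_of_twoComponents` : for a chart `B` with an `H83.TwoComponents` structure whose vertical
primes are `ker red₁`, `ker red₂`, and an automorphism `Ψ` of the function field with the G1 facts
(`hΨ hΨR hΨπ`, semilinear reductions `h1Ψ h2Ψ`, `hW`), the ratio `Ψ f / f` is a unit at both
vertical valuation rings (helper84's `chartFrob_of_twoComponents'` + helper46's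
`valuation_ratio_eq_one_of_chartFrob`; the rationality of the nodes is discharged by
`H18.exists_sub_mem_of_isAlgClosed_residue`).
-/
import Mathlib
import Fermat.Agent.S35.H18_GeoCoreTC
import Fermat.Agent.S35.H84_TwoCompNe
import Fermat.Agent.S35.H46_G3Unit

set_option autoImplicit false
set_option linter.unusedSectionVars false
set_option linter.style.haveILetI false

open IsLocalRing Fermat.Agent.S18 Fermat.Agent.S34

namespace Fermat.Agent.S35.H18

section Generic

variable {R B F : Type*} [CommRing R] [IsLocalRing R] [IsAlgClosed (ResidueField R)]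
  [CommRing B] [IsDomain B] [Field F] [Algebra R B] [Algebra B F] [Algebra R F]
  [IsScalarTower R B F] [IsFractionRing B F] [IsNoetherianRing B] [IsIntegrallyClosed B]
  [Algebra.FiniteType R B]
  {D BM : Type*} [CommRing D] [IsDedekindDomain D] [CommRing BM]
  {red₁ red₂ : B →+* D} {ι V : BM →+* B} {rbar : BM →+* D} {W : D →+* D} {e : ℕ} {π : R}

/-- **`hunit`**: `Ψ f / f` is a unit at the two vertical valuation rings of the chart. -/
theorem hunit_of_twoComponents (hmax : maximalIdeal R = Ideal.span {π})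
    (TC : H83.TwoComponents red₁ red₂ ι V rbar W e (algebraMap R B π))
    (hπ0 : algebraMap R B π ≠ 0)
    (hπ₁ : red₁ (algebraMap R B π) = 0) (hπ₂ : red₂ (algebraMap R B π) = 0)
    (he : 2 ≤ e) (hD : ¬ IsField D)
    (Ψ : F ≃+* F) (ΨB : B ≃+* B) (ΨR : R →+* R) {Q : ℕ} (hQ : 0 < Q)
    (hΨ : ∀ b : B, Ψ (algebraMap B F b) = algebraMap B F (ΨB b))
    (hΨR : ∀ r : R, ΨB (algebraMap R B r) = algebraMap R B (ΨR r))
    (hΨπ : π ∣ ΨR π)
    (ΨD₁ ΨD₂ : D →+* D) (hinj₁ : Function.Injective ΨD₁) (hinj₂ : Function.Injective ΨD₂)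
    (h1Ψ : ∀ z, red₁ (ΨB z) = ΨD₁ (red₁ z)) (h2Ψ : ∀ z, red₂ (ΨB z) = ΨD₂ (red₂ z))
    (hW : ∀ r, W (W (ΨD₁ r)) = r ^ Q) :
    ∀ [(RingHom.ker red₁).IsPrime] [(RingHom.ker red₂).IsPrime]
      (h1 : (RingHom.ker red₁).height = 1) (h2 : (RingHom.ker red₂).height = 1)
      (f : F), f ≠ 0 →
      (H56.valuationSubringAt (K := F) (RingHom.ker red₁) h1).valuation (Ψ f / f) = 1 ∧
        (H56.valuationSubringAt (K := F) (RingHom.ker red₂) h2).valuation (Ψ f / f) = 1 := by
  intro _ _ h1 h2 f hf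
  have hrat : ∀ m : Ideal B, m.IsMaximal → RingHom.ker red₁ ≤ m → RingHom.ker red₂ ≤ m →
      ∀ b : B, ∃ r : R, b - algebraMap R B r ∈ m := fun m hm hk1 _ b =>
    haveI := hm
    exists_sub_mem_of_isAlgClosed_residue hmax m (hk1 ((RingHom.mem_ker).mpr hπ₁)) b
  have C := H84.chartFrob_of_twoComponents' (F := F) TC hπ₁ hπ₂ he hD Ψ ΨB ΨR hQ hΨ hΨR hΨπ
    ΨD₁ ΨD₂ hinj₁ hinj₂ h1Ψ h2Ψ hW hrat
  have hh := H84.height_vertTC' TC hπ0 hπ₁ hπ₂ he hD
  have hπP : ∀ k, algebraMap R B π ∈ H84.vertTC red₁ red₂ k := by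
    intro k
    cases k
    · exact (RingHom.mem_ker).mpr hπ₂
    · exact (RingHom.mem_ker).mpr hπ₁
  exact ⟨H46.valuation_ratio_eq_one_of_chartFrob hh C hπP hπ0 hf true,
    H46.valuation_ratio_eq_one_of_chartFrob hh C hπP hπ0 hf false⟩

end Generic

end Fermat.Agent.S35.H18
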