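/-
helper18 — S35 row GEO-TOP-E, final wrapper: **the hypothesis `(GEO)` of helper57's
`H57.s35_of_geo`, VERBATIM, from the level-`E` statements `H18.GeoFnE'`** at every finite Galois,
`Gal(Qbar / ℚ)`-stable `E / K1` (`K1 = H45.unrCyclo q`) containing a finite set `S'` of constants.

`geo_of_geoFnE'` = `H18.geoFnJ_of_geoFnE'` (DESC35) under the binders of `s35_of_geo`.  With
`H18.geoFnE'_of_twoComponents` (`S35/H18_GeoTopTC.lean`) the hypothesis is the instance package at
one `E`.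
-/
import Mathlib
import Fermat.Agent.S35.H18_Desc35

set_option autoImplicit false
set_option linter.unusedSectionVars false
set_option synthInstance.maxHeartbeats 400000

noncomputable section

namespace Fermat.Agent.S35.H18

open ModularCurve AlgebraicCurve IntermediateField
open Fermat.Agent.S18 Fermat.Agent.S34

local notation "Qbar" => AlgebraicClosure ℚ
local notation "GQ" => (AlgebraicClosure ℚ ≃ₐ[ℚ] AlgebraicClosure ℚ)

/-- **`(GEO)` in the shape of `H57.s35_of_geo`** from the level-`E` statements. -/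
theorem geo_of_geoFnE'
    (h : ∀ (M0 q : ℕ) [NeZero M0] [NeZero q], q.Prime → ¬ q ∣ M0 → ∀ p : ℕ, p.Prime → p ≠ q →
      ∀ A : ValuationSubring Qbar, A.LiesOverPrime q → ∀ φ : GQ, A.IsFrobeniusAt φ q →
        ∀ n : ℕ, ∃ (T : Set (Place Qbar (modularFunctionFieldBar (M0 * q)))) (S' : Finset Qbar),
          T.Finite ∧
          ∀ (E : IntermediateField (H45.unrCyclo q) Qbar)
            [FiniteDimensional (H45.unrCyclo q) E] [IsGalois (H45.unrCyclo q) E]
            (hE : ∀ (τ : GQ) (x : Qbar), x ∈ E → τ x ∈ E), (∀ x ∈ S', x ∈ E) →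
            GeoFnE' M0 q E hE φ q (p ^ n) T) :
    ∀ (M0 q : ℕ) [NeZero M0] [NeZero q], q.Prime → ¬ q ∣ M0 → ∀ p : ℕ, p.Prime → p ≠ q →
      ∀ A : ValuationSubring Qbar, A.LiesOverPrime q → ∀ φ : GQ, A.IsFrobeniusAt φ q →
        ∀ n : ℕ, ∃ T : Set (Place Qbar (modularFunctionFieldBar (M0 * q))), T.Finite ∧
          H86.GeoFnJ M0 q φ q (p ^ n) T := by
  intro M0 q _ _ hq hqM p hp hpq A hA φ hφ n
  obtain ⟨T, S', hT, H⟩ := h M0 q hq hqM p hp hpq A hA φ hφ n
  exact ⟨T, hT, geoFnJ_of_geoFnE' M0 q hq hqM φ q (p ^ n) T S' H⟩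

end Fermat.Agent.S35.H18
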