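/-
helper18 — S35 row GEO-TOP-E: **the level seam `q * M0` ↔ `M0 * q`.**

The consumer side (`H86.GeoFnJ M0 q`, helper57's `s35_of_geo`, `H18.GeoFnE'`) lives at the level
`M0 * q`; every L0-based producer lives at the level `ℓ * M` (= `q * M0`).  `M0 * q` and `q * M0`
are not definitionally equal, so `fullC ↥E (M0 * q)` and `fullC ↥E (q * M0)` are different types.

* `GeoFnEN M0 q N hM0N hqM0N E hE φ r m T` : `H18.GeoFnE'` at a VARIABLE level `N` (with
  `hM0N : M0 ∣ N`, `hqM0N : q * M0 ∣ N` for helper16's `degAlgebra` / `vAlgebra`);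
  `geoFnE'_iff_geoFnEN` : at `N = M0 * q` it is `GeoFnE'` (by `Iff.rfl`).
* `exists_geoFnEN_of_level_eq` : the statement "there are finite `T`, `S'` with `GeoFnEN` at every
  good `E`" transports along an equality of levels `N = N'` (`subst`).
* `geo_of_geoFnEN` : the hypothesis `(GEO)` of `H57.s35_of_geo` from the statements at the level
  `q * M0`.
-/
import Mathlib
import Fermat.Agent.S35.H18_GeoFinal

set_option autoImplicit false
set_option linter.unusedSectionVars false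
set_option linter.style.haveILetI false
set_option synthInstance.maxHeartbeats 400000

noncomputable section

namespace Fermat.Agent.S35.H18

open ModularCurve AlgebraicCurve IntermediateField
open Fermat.Agent.S18 Fermat.Agent.S34

local notation "Qbar" => AlgebraicClosure ℚ
local notation "GQ" => (AlgebraicClosure ℚ ≃ₐ[ℚ] AlgebraicClosure ℚ)

/-- `H18.GeoFnE'` at a variable level `N`. -/
def GeoFnEN (M0 q N : ℕ) [NeZero M0] [NeZero q] [NeZero N] (hM0N : M0 ∣ N) (hqM0N : q * M0 ∣ N)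
    {l : ℕ} (E : IntermediateField (H45.unrCyclo l) Qbar)
    (hE : ∀ (τ : GQ) (x : Qbar), x ∈ E → τ x ∈ E) (φ : GQ) (r m : ℕ)
    (T : Set (Place Qbar (S24.FN N))) : Prop :=
  ∀ f : modularFunctionFieldFullC ↥E N, H61.Admissible ↥E f m →
    (∀ v ∈ T, v.ord (H99.toBar ↥E N f) = 0) →
    (∃ (c : ↥E) (h : modularFunctionFieldFullC ↥E M0), c ≠ 0 ∧ h ≠ 0 ∧
      (letI := H16.degAlgebra ↥E M0 N hM0N;
        Algebra.norm (modularFunctionFieldFullC ↥E M0) f) =
          algebraMap ↥E (modularFunctionFieldFullC ↥E M0) c * h ^ m) →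
    (∃ (c : ↥E) (h : modularFunctionFieldFullC ↥E M0), c ≠ 0 ∧ h ≠ 0 ∧
      (letI := S35.H16.vAlgebra ↥E q M0 N hqM0N;
        Algebra.norm (modularFunctionFieldFullC ↥E M0) f) =
          algebraMap ↥E (modularFunctionFieldFullC ↥E M0) c * h ^ m) →
    ∃ (c : ↥E) (w : modularFunctionFieldFullC ↥E N), w ≠ 0 ∧
      ratE (H45.galActFullC E hE N φ) (r ^ 2)
        (ratE (H45.galActFullC E hE N φ) 1
          (ratE (H45.galActFullC E hE N φ) 1 f)) =
        algebraMap ↥E (modularFunctionFieldFullC ↥E N) c * w ^ m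

/-- At the level `M0 * q` the variable-level statement is `GeoFnE'`. -/
theorem geoFnE'_iff_geoFnEN (M0 q : ℕ) [NeZero M0] [NeZero q] {l : ℕ}
    (E : IntermediateField (H45.unrCyclo l) Qbar)
    (hE : ∀ (τ : GQ) (x : Qbar), x ∈ E → τ x ∈ E) (φ : GQ) (r m : ℕ)
    (T : Set (Place Qbar (S24.FN (M0 * q)))) :
    GeoFnE' M0 q E hE φ r m T ↔
      GeoFnEN M0 q (M0 * q) (dvd_mul_right M0 q) (dvd_of_eq (mul_comm q M0)) E hE φ r m T :=
  Iff.rfl

/-- Transport of the existence of the finite sets `T`, `S'` along an equality of levels. -/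
theorem exists_geoFnEN_of_level_eq (M0 q : ℕ) [NeZero M0] [NeZero q] {N N' : ℕ} [NeZero N]
    [NeZero N'] (hN : N = N') (hM0N : M0 ∣ N) (hqM0N : q * M0 ∣ N) (hM0N' : M0 ∣ N')
    (hqM0N' : q * M0 ∣ N') {l : ℕ} (φ : GQ) (r m : ℕ)
    (H : ∃ (T : Set (Place Qbar (S24.FN N))) (S' : Finset Qbar), T.Finite ∧
      ∀ (E : IntermediateField (H45.unrCyclo l) Qbar)
        [FiniteDimensional (H45.unrCyclo l) E] [IsGalois (H45.unrCyclo l) E]
        (hE : ∀ (τ : GQ) (x : Qbar), x ∈ E → τ x ∈ E), (∀ x ∈ S', x ∈ E) →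
        GeoFnEN M0 q N hM0N hqM0N E hE φ r m T) :
    ∃ (T : Set (Place Qbar (S24.FN N'))) (S' : Finset Qbar), T.Finite ∧
      ∀ (E : IntermediateField (H45.unrCyclo l) Qbar)
        [FiniteDimensional (H45.unrCyclo l) E] [IsGalois (H45.unrCyclo l) E]
        (hE : ∀ (τ : GQ) (x : Qbar), x ∈ E → τ x ∈ E), (∀ x ∈ S', x ∈ E) →
        GeoFnEN M0 q N' hM0N' hqM0N' E hE φ r m T := by
  subst hN
  exact H

/-- **`(GEO)` in the shape of `H57.s35_of_geo` from the statements at the producers' level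
`q * M0`.** -/
theorem geo_of_geoFnEN
    (h : ∀ (M0 q : ℕ) [NeZero M0] [NeZero q], q.Prime → ¬ q ∣ M0 → ∀ p : ℕ, p.Prime → p ≠ q →
      ∀ A : ValuationSubring Qbar, A.LiesOverPrime q → ∀ φ : GQ, A.IsFrobeniusAt φ q →
        ∀ n : ℕ, ∃ (T : Set (Place Qbar (S24.FN (q * M0)))) (S' : Finset Qbar),
          T.Finite ∧
          ∀ (E : IntermediateField (H45.unrCyclo q) Qbar)
            [FiniteDimensional (H45.unrCyclo q) E] [IsGalois (H45.unrCyclo q) E]
            (hE : ∀ (τ : GQ) (x : Qbar), x ∈ E → τ x ∈ E), (∀ x ∈ S', x ∈ E) →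
            GeoFnEN M0 q (q * M0) (dvd_mul_left M0 q) dvd_rfl E hE φ q (p ^ n) T) :
    ∀ (M0 q : ℕ) [NeZero M0] [NeZero q], q.Prime → ¬ q ∣ M0 → ∀ p : ℕ, p.Prime → p ≠ q →
      ∀ A : ValuationSubring Qbar, A.LiesOverPrime q → ∀ φ : GQ, A.IsFrobeniusAt φ q →
        ∀ n : ℕ, ∃ T : Set (Place Qbar (modularFunctionFieldBar (M0 * q))), T.Finite ∧
          H86.GeoFnJ M0 q φ q (p ^ n) T := by
  refine geo_of_geoFnE' (fun M0 q _ _ hq hqM p hp hpq A hA φ hφ n => ?_)
  exact exists_geoFnEN_of_level_eq M0 q (mul_comm q M0) (dvd_mul_left M0 q) dvd_rfl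
    (dvd_mul_right M0 q) (dvd_of_eq (mul_comm q M0)) φ q (p ^ n) (h M0 q hq hqM p hp hpq A hA φ hφ n)

end Fermat.Agent.S35.H18
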