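/-
helper18 — S35 row GEO-TOP-E, part 5: **`geoFnE'_of_twoComponents` at a VARIABLE level `N`.**

VERBATIM `H18.geoFnE'_of_twoComponents` (`S35/H18_GeoTopTC.lean`) with the level `M0 * q` replaced
by a variable `N` and the three divisibilities `hqN : q ∣ N`, `hM0N : M0 ∣ N`,
`hqM0N : q * M0 ∣ N` as hypotheses; conclusion `H18.GeoFnEN M0 q N hM0N hqM0N E hE φ q (p ^ n) T`
(`S35/H18_GeoLevel.lean`).  At `N := q * M0` (the level of the L0-based producers) this feeds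
`H18.geo_of_geoFnEN`.
-/
import Mathlib
import Fermat.Agent.S35.H18_GeoLevel
import Fermat.Agent.S35.H18_GeoCoreTC
import Fermat.Agent.S34.H61_MiddleCutOver

set_option autoImplicit false
set_option linter.unusedSectionVars false
set_option linter.style.haveILetI false
set_option synthInstance.maxHeartbeats 400000
set_option maxHeartbeats 3200000

noncomputable section

namespace Fermat.Agent.S35.H18

open ModularCurve AlgebraicCurve HahnSeries IntermediateField IsLocalRing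
open Fermat.Agent.S18 Fermat.Agent.S18.H45 Fermat.Agent.S34

local notation "Qbar" => AlgebraicClosure ℚ
local notation "GQ" => (AlgebraicClosure ℚ ≃ₐ[ℚ] AlgebraicClosure ℚ)



variable {A : ValuationSubring Qbar} {q : ℕ} [NeZero q] (hq : q.Prime) (hA : A.LiesOverPrime q)
variable (E : IntermediateField (unrCyclo q) Qbar) [FiniteDimensional (unrCyclo q) E]
variable (hE : ∀ (τ : GQ) (x : Qbar), x ∈ E → τ x ∈ E)
variable (M0 : ℕ) [NeZero M0] (N : ℕ) [NeZero N] (hqN : q ∣ N) (hM0N : M0 ∣ N)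
  (hqM0N : q * M0 ∣ N)

set_option quotPrecheck false

local notation "JE" => (H95.JK ↥E N q hqN)
local notation "FE" => ↥(modularFunctionFieldFullC ↥E N)
local notation "FEM" => ↥(modularFunctionFieldFullC ↥E M0)
local notation "RE" => ↥(cutOver A E)
local notation "B₁E" => ↥(H40.chartB (cutOver A E) JE)
local notation "B₂E" => ↥(H40.chartB (cutOver A E) JE⁻¹)

include hq hA in
/-- **`GeoFnE'` at the concrete types from the two `E`-level `TwoComponents` packages.** -/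
theorem geoFnEN_of_twoComponents
    [IsFractionRing B₁E FE] [IsFractionRing B₂E FE]
    [IsNoetherianRing B₁E] [IsIntegrallyClosed B₁E]
    [IsNoetherianRing B₂E] [IsIntegrallyClosed B₂E]
    {p : ℕ} (hp : p.Prime) (hpq : p ≠ q) (φ : GQ) (n : ℕ)
    (T : Set (Place Qbar (S24.FN N)))
    (π : RE) (hmax : maximalIdeal RE = Ideal.span {π})
    -- chart 1
    {D₁ BM₁ : Type*} [CommRing D₁] [IsDedekindDomain D₁] [CommRing BM₁]
    {red₁₁ red₁₂ : B₁E →+* D₁} {ι₁ V₁ : BM₁ →+* B₁E} {rbar₁ : BM₁ →+* D₁} {W₁ : D₁ →+* D₁}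
    {e₁ : ℕ}
    (TC₁ : H83.TwoComponents red₁₁ red₁₂ ι₁ V₁ rbar₁ W₁ e₁ (algebraMap RE B₁E π))
    (hπ₁₁ : red₁₁ (algebraMap RE B₁E π) = 0) (hπ₁₂ : red₁₂ (algebraMap RE B₁E π) = 0)
    (hne₁₁ : ∃ z, red₁₁ z = 0 ∧ red₁₂ z ≠ 0) (hne₁₂ : ∃ z, red₁₂ z = 0 ∧ red₁₁ z ≠ 0)
    (he₁ : 2 ≤ e₁) (hD₁ : ¬ IsField D₁)
    (hJ₁₁ : red₁₁ (⟨JE, H40.self_mem_chartB _⟩ : B₁E) ≠ 0)
    (hJ₁₂ : red₁₂ (⟨JE, H40.self_mem_chartB _⟩ : B₁E) ≠ 0)
    -- chart 2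
    {D₂ BM₂ : Type*} [CommRing D₂] [IsDedekindDomain D₂] [CommRing BM₂]
    {red₂₁ red₂₂ : B₂E →+* D₂} {ι₂ V₂ : BM₂ →+* B₂E} {rbar₂ : BM₂ →+* D₂} {W₂ : D₂ →+* D₂}
    {e₂ : ℕ}
    (TC₂ : H83.TwoComponents red₂₁ red₂₂ ι₂ V₂ rbar₂ W₂ e₂ (algebraMap RE B₂E π))
    (hπ₂₁ : red₂₁ (algebraMap RE B₂E π) = 0) (hπ₂₂ : red₂₂ (algebraMap RE B₂E π) = 0)
    (hne₂₁ : ∃ z, red₂₁ z = 0 ∧ red₂₂ z ≠ 0) (hne₂₂ : ∃ z, red₂₂ z = 0 ∧ red₂₁ z ≠ 0)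
    (he₂ : 2 ≤ e₂) (hD₂ : ¬ IsField D₂)
    (hJ₂₁ : red₂₁ (⟨JE⁻¹, H40.self_mem_chartB _⟩ : B₂E) ≠ 0)
    (hJ₂₂ : red₂₂ (⟨JE⁻¹, H40.self_mem_chartB _⟩ : B₂E) ≠ 0)
    -- the first (second) components of the two charts are the same place
    (hVp : ∀ [(RingHom.ker red₁₁).IsPrime] [(RingHom.ker red₂₁).IsPrime]
      (h1 : (RingHom.ker red₁₁).height = 1) (h2 : (RingHom.ker red₂₁).height = 1),
      H56.valuationSubringAt (K := FE) (RingHom.ker red₁₁) h1 =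
        H56.valuationSubringAt (K := FE) (RingHom.ker red₂₁) h2)
    (hVq : ∀ [(RingHom.ker red₁₂).IsPrime] [(RingHom.ker red₂₂).IsPrime]
      (h1 : (RingHom.ker red₁₂).height = 1) (h2 : (RingHom.ker red₂₂).height = 1),
      H56.valuationSubringAt (K := FE) (RingHom.ker red₁₂) h1 =
        H56.valuationSubringAt (K := FE) (RingHom.ker red₂₂) h2)
    -- G1 facts
    (ΨB₁ : B₁E ≃+* B₁E) (ΨB₂ : B₂E ≃+* B₂E) (ΨR : RE →+* RE)
    (hΨ₁ : ∀ b : B₁E, galActFullC E hE N φ (galActFullC E hE N φ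
      (algebraMap B₁E FE b)) = algebraMap B₁E FE (ΨB₁ b))
    (hΨ₂ : ∀ b : B₂E, galActFullC E hE N φ (galActFullC E hE N φ
      (algebraMap B₂E FE b)) = algebraMap B₂E FE (ΨB₂ b))
    (hΨR₁ : ∀ r : RE, ΨB₁ (algebraMap RE B₁E r) = algebraMap RE B₁E (ΨR r))
    (hΨR₂ : ∀ r : RE, ΨB₂ (algebraMap RE B₂E r) = algebraMap RE B₂E (ΨR r))
    (hΨπ : π ∣ ΨR π)
    (ΨD₁₁ ΨD₁₂ : D₁ →+* D₁) (hinj₁₁ : Function.Injective ΨD₁₁) (hinj₁₂ : Function.Injective ΨD₁₂)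
    (h1Ψ₁ : ∀ z, red₁₁ (ΨB₁ z) = ΨD₁₁ (red₁₁ z)) (h2Ψ₁ : ∀ z, red₁₂ (ΨB₁ z) = ΨD₁₂ (red₁₂ z))
    (hW₁ : ∀ r, W₁ (W₁ (ΨD₁₁ r)) = r ^ (q ^ 2))
    (ΨD₂₁ ΨD₂₂ : D₂ →+* D₂) (hinj₂₁ : Function.Injective ΨD₂₁) (hinj₂₂ : Function.Injective ΨD₂₂)
    (h1Ψ₂ : ∀ z, red₂₁ (ΨB₂ z) = ΨD₂₁ (red₂₁ z)) (h2Ψ₂ : ∀ z, red₂₂ (ΨB₂ z) = ΨD₂₂ (red₂₂ z))
    (hW₂ : ∀ r, W₂ (W₂ (ΨD₂₁ r)) = r ^ (q ^ 2))
    (hFrobR : ∀ r : RE, π ∣ ΨR r - r ^ (q ^ 2))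
    -- (E2)
    (hE2₁ : ∀ f : FE, H61.Admissible ↥E f (p ^ n) →
      (∀ v ∈ T, v.ord (H99.toBar ↥E N f) = 0) →
      ∀ m : Ideal B₁E, m.IsMaximal → algebraMap RE B₁E π ∈ m →
        H46.ChartWeakAt (F := FE) (algebraMap RE B₁E π) m
          (galActFullC E hE N φ (galActFullC E hE N φ f) / f) (p ^ n))
    (hE2₂ : ∀ f : FE, H61.Admissible ↥E f (p ^ n) →
      (∀ v ∈ T, v.ord (H99.toBar ↥E N f) = 0) →
      ∀ m : Ideal B₂E, m.IsMaximal → algebraMap RE B₂E π ∈ m →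
        H46.ChartWeakAt (F := FE) (algebraMap RE B₂E π) m
          (galActFullC E hE N φ (galActFullC E hE N φ f) / f) (p ^ n))
    -- (E3)
    (hE3 : ∀ f : FE, H61.Admissible ↥E f (p ^ n) →
      (∀ v ∈ T, v.ord (H99.toBar ↥E N f) = 0) →
      (∃ (c : ↥E) (h : FEM), c ≠ 0 ∧ h ≠ 0 ∧
        (letI := H16.degAlgebra ↥E M0 N hM0N;
          Algebra.norm FEM f) = algebraMap ↥E FEM c * h ^ (p ^ n)) →
      (∃ (c : ↥E) (h : FEM), c ≠ 0 ∧ h ≠ 0 ∧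
        (letI := S35.H16.vAlgebra ↥E q M0 N hqM0N;
          Algebra.norm FEM f) = algebraMap ↥E FEM c * h ^ (p ^ n)) →
      ∀ [(RingHom.ker red₁₁).IsPrime] [(RingHom.ker red₁₂).IsPrime]
        (h1 : (RingHom.ker red₁₁).height = 1) (h2 : (RingHom.ker red₁₂).height = 1),
      ∃ G : FE, G ≠ 0 ∧
        H47.OneU (H56.valuationSubringAt (K := FE) (RingHom.ker red₁₁) h1)
          (ratE (galActFullC E hE N φ) 1 (ratE (galActFullC E hE N φ) 1 f) /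
            G ^ (p ^ n)) ∧
        H47.OneU (H56.valuationSubringAt (K := FE) (RingHom.ker red₁₂) h2)
          (ratE (galActFullC E hE N φ) 1 (ratE (galActFullC E hE N φ) 1 f) /
            G ^ (p ^ n))) :
    GeoFnEN M0 q N hM0N hqM0N E hE φ q (p ^ n) T := by
  haveI := isDiscreteValuationRing_cutOver hq hA E
  haveI := isAlgClosed_residueField_cutOver hq hA E
  haveI := H95.finiteDimensional_JK ↥E N q hqN
    (H99.natCast_ne_zero₀ N ↥E)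
  haveI := H95.isSeparable_JK ↥E N q hqN
  have htr := H95.transcendental_JK ↥E N q hqN
  have hπ : Irreducible π := irreducible_of_maximalIdeal_cutOver_eq hq hA E hmax
  have hnd : ¬ q ∣ p := fun h => hpq ((Nat.prime_dvd_prime_iff_eq hq hp).mp h).symm
  obtain ⟨ζ, hζ⟩ := H47.exists_isPrimitiveRoot_cutOver (A := A) E hp.ne_zero hnd
  have hpu := H47.isUnit_natCast_cutOver hq hA E hnd
  have hcl : ∀ z : FE, IsAlgebraic ↥E z → z ∈ (algebraMap ↥E FE).range := fun z hz =>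
    Fermat.Agent.CA.H92.mem_range_of_isAlgebraic_intermediateField
      (modularFunctionFieldFullC ↥E N) z hz
  have hQ : 0 < q ^ 2 := pow_pos hq.pos 2
  intro f hadm hT hα hβ
  have hf0 : f ≠ 0 := hadm.1
  have hu₁0 : ratE (galActFullC E hE N φ) 1 f ≠ 0 := ratE_ne_zero _ 1 hf0
  have h₁ := hE2₁ f hadm hT
  have h₂ := hE2₂ f hadm hT
  rw [← ratE_one] at h₁ h₂
  haveI hp₁₁ : (RingHom.ker red₁₁).IsPrime := RingHom.ker_isPrime red₁₁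
  haveI hp₁₂ : (RingHom.ker red₁₂).IsPrime := RingHom.ker_isPrime red₁₂
  have h3 : ∀ (h1 : (RingHom.ker red₁₁).height = 1) (h2 : (RingHom.ker red₁₂).height = 1),
      ∃ G : FE, G ≠ 0 ∧
        H47.OneU (H56.valuationSubringAt (K := FE) (RingHom.ker red₁₁) h1)
          ((galActFullC E hE N φ (galActFullC E hE N φ
            (ratE (galActFullC E hE N φ) 1 f)) /
              ratE (galActFullC E hE N φ) 1 f) / G ^ (p ^ n)) ∧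
        H47.OneU (H56.valuationSubringAt (K := FE) (RingHom.ker red₁₂) h2)
          ((galActFullC E hE N φ (galActFullC E hE N φ
            (ratE (galActFullC E hE N φ) 1 f)) /
              ratE (galActFullC E hE N φ) 1 f) / G ^ (p ^ n)) := by
    intro h1 h2
    have h4 := hE3 f hadm hT hα hβ h1 h2
    rw [ratE_one (galActFullC E hE N φ) (ratE (galActFullC E hE N φ) 1 f)] at h4
    exact h4
  obtain ⟨c, w, -, hw, hrel⟩ := exists_const_mul_pow_of_twoComponents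
    (R := RE) (K := ↥E) JE htr hcl π hmax hπ hp hpu hζ
    (fun r hr => H47.exists_root_mod hmax hp.pos r hr)
    TC₁ hπ₁₁ hπ₁₂ hne₁₁ hne₁₂ he₁ hD₁ hJ₁₁ hJ₁₂
    TC₂ hπ₂₁ hπ₂₂ hne₂₁ hne₂₂ he₂ hD₂ hJ₂₁ hJ₂₂ hVp hVq
    ((galActFullC E hE N φ).trans (galActFullC E hE N φ)) ΨB₁ ΨB₂ ΨR hQ
    hΨ₁ hΨ₂ hΨR₁ hΨR₂ hΨπ ΨD₁₁ ΨD₁₂ hinj₁₁ hinj₁₂ h1Ψ₁ h2Ψ₁ hW₁
    ΨD₂₁ ΨD₂₂ hinj₂₁ hinj₂₂ h1Ψ₂ h2Ψ₂ hW₂ hFrobR n hu₁0 h₁ h₂ (fun h1 h2 => h3 h1 h2)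
  refine ⟨c, w, hw, ?_⟩
  rw [ratE, ratE_one (galActFullC E hE N φ) (ratE (galActFullC E hE N φ) 1 f)]
  exact hrel

end Fermat.Agent.S35.H18
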