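import Mathlib
import Fermat.Agent.S35.H84_ChartFrobTC

/-!
# S35 / E1-CF, generic part (helper27): `ChartFrob` on a base-changed chart

`B₁` a chart over a small DVR, `B` the chart over a bigger DVR `A` (uniformiser `π`) with the same
special fibre: `ψ : B₁ →+* B`, `B = ψ(B₁) + π B` (`hdec`).  For a two-component structure
`TwoComponents red₁ red₂ ..` on `B` and an automorphism `ΦB` of `B` which restricts to `Φ₁` on `B₁`,
the intertwining `red_k ∘ ΦB = ΦD ∘ red_k` only has to be checked on `ψ(B₁)`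
(`map_of_extends`); `chartFrob_of_twoComponents_descend` is `H84.chartFrob_of_twoComponents` with
that reduction built in.
-/

set_option autoImplicit false
set_option linter.unusedSectionVars false

namespace Fermat.Agent.S35.H27

open Fermat.Agent.S34 Fermat.Agent.S34.H83 Fermat.Agent.S35.H46

section Extends

variable {B₁ B D : Type*} [CommRing B₁] [CommRing B] [CommRing D]

/-- **intertwining passes from `ψ(B₁)` to `B = ψ(B₁) + π B`** for any ring hom `ρ` killing `π`. -/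
theorem map_of_extends (ψ : B₁ →+* B) (π : B)
    (hdec : ∀ z : B, ∃ b : B₁, ∃ z' : B, z = ψ b + π * z')
    (ρ : B →+* D) (hρπ : ρ π = 0)
    (Φ : B →+* B) (Φ₁ : B₁ →+* B₁) (PhiD : D →+* D)
    (hΦψ : ∀ b, Φ (ψ b) = ψ (Φ₁ b)) (hΦπ : π ∣ Φ π)
    (hint : ∀ b, ρ (ψ (Φ₁ b)) = PhiD (ρ (ψ b))) (z : B) :
    ρ (Φ z) = PhiD (ρ z) := by
  obtain ⟨b, z', rfl⟩ := hdec z
  obtain ⟨c, hc⟩ := hΦπ
  have h1 : ρ (Φ (ψ b + π * z')) = ρ (ψ (Φ₁ b)) := by
    rw [map_add, map_mul, hΦψ, hc, map_add, map_mul, map_mul, hρπ, zero_mul, zero_mul, add_zero]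
  have h2 : ρ (ψ b + π * z') = ρ (ψ b) := by
    rw [map_add, map_mul, hρπ, zero_mul, add_zero]
  rw [h1, h2, hint]

/-- a ring hom killing `π` is determined by its restriction to `ψ(B₁)`. -/
theorem eq_of_extends (ψ : B₁ →+* B) (π : B)
    (hdec : ∀ z : B, ∃ b : B₁, ∃ z' : B, z = ψ b + π * z')
    (ρ ρ' : B →+* D) (hρπ : ρ π = 0) (hρ'π : ρ' π = 0)
    (h : ∀ b, ρ (ψ b) = ρ' (ψ b)) : ρ = ρ' := by
  ext z
  obtain ⟨b, z', rfl⟩ := hdec z
  rw [map_add, map_mul, hρπ, zero_mul, add_zero, map_add, map_mul, hρ'π, zero_mul, add_zero, h]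

end Extends

section Ne

variable {B D BM : Type*} [CommRing B] [CommRing D] [CommRing BM]
  {red₁ red₂ : B →+* D} {ι V : BM →+* B} {rbar : BM →+* D} {W : D →+* D} {q : ℕ} {qB : B}

/-- **the two components are distinct**: as soon as `W ∘ W` moves some element of `D`, each
reduction kills an element which the other does not. -/
theorem exists_ne_of_twoComponents (h : TwoComponents red₁ red₂ ι V rbar W q qB) (r : D)
    (hr : W (W r) ≠ r) :
    (∃ z, red₁ z = 0 ∧ red₂ z ≠ 0) ∧ (∃ z, red₂ z = 0 ∧ red₁ z ≠ 0) := by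
  obtain ⟨ψ, rfl⟩ := h.hrbar r
  obtain ⟨ψ', hψ'⟩ := h.hrbar (W (rbar ψ))
  refine ⟨⟨V ψ - ι ψ', ?_, ?_⟩, ⟨ι ψ - V ψ', ?_, ?_⟩⟩
  · rw [map_sub, h.h1V, h.h1ι, hψ', sub_self]
  · rw [map_sub, h.h2V, h.h2ι, hψ']
    exact fun h0 => hr (sub_eq_zero.mp h0).symm
  · rw [map_sub, h.h2ι, h.h2V, hψ', sub_self]
  · rw [map_sub, h.h1ι, h.h1V, hψ']
    exact fun h0 => hr (sub_eq_zero.mp h0).symm

end Ne

section Main

variable {A B F : Type*} [CommRing A] [CommRing B] [IsDomain B] [Field F] [Algebra A B]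
  [Algebra B F] [Algebra A F] [IsScalarTower A B F] [IsFractionRing B F]
  [IsNoetherianRing B] [IsIntegrallyClosed B]
  {D BM B₁ : Type*} [CommRing D] [IsDedekindDomain D] [CommRing BM] [CommRing B₁]
  {red₁ red₂ : B →+* D} {ι V : BM →+* B} {rbar : BM →+* D} {W : D →+* D} {q : ℕ} {π : A}

/-- **`ChartFrob` from `TwoComponents` on a base-changed chart**: the intertwining of the two
reductions with `ΦB` is only required on the image of the small chart `B₁`. -/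
theorem chartFrob_of_twoComponents_descend
    (h : TwoComponents red₁ red₂ ι V rbar W q (algebraMap A B π))
    (hπ₁ : red₁ (algebraMap A B π) = 0) (hπ₂ : red₂ (algebraMap A B π) = 0)
    (hne₁ : ∃ z, red₁ z = 0 ∧ red₂ z ≠ 0) (hne₂ : ∃ z, red₂ z = 0 ∧ red₁ z ≠ 0)
    (hq : 2 ≤ q) (hD : ¬ IsField D)
    (Φ : F ≃+* F) (ΦB : B ≃+* B) (ΦA : A →+* A) {Q : ℕ} (hQ : 0 < Q)
    (hΦ : ∀ b : B, Φ (algebraMap B F b) = algebraMap B F (ΦB b))
    (hΦA : ∀ r : A, ΦB (algebraMap A B r) = algebraMap A B (ΦA r))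
    (hΦπ : π ∣ ΦA π)
    (ψ : B₁ →+* B)
    (hdec : ∀ z : B, ∃ b : B₁, ∃ z' : B, z = ψ b + algebraMap A B π * z')
    (Φ₁ : B₁ →+* B₁) (hΦψ : ∀ b, ΦB (ψ b) = ψ (Φ₁ b))
    (ΦD : D →+* D) (hinj : Function.Injective ΦD)
    (hint₁ : ∀ b, red₁ (ψ (Φ₁ b)) = ΦD (red₁ (ψ b)))
    (hint₂ : ∀ b, red₂ (ψ (Φ₁ b)) = ΦD (red₂ (ψ b)))
    (hW : ∀ r, W (W (ΦD r)) = r ^ Q)
    (hrat : ∀ n : Ideal B, n.IsMaximal → RingHom.ker red₁ ≤ n → RingHom.ker red₂ ≤ n →
      ∀ b : B, ∃ r : A, b - algebraMap A B r ∈ n) :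
    ChartFrob (F := F) (H84.vertTC red₁ red₂) π Φ ΦB ΦA Q := by
  have hΦπB : algebraMap A B π ∣ (ΦB : B →+* B) (algebraMap A B π) := by
    obtain ⟨c, hc⟩ := hΦπ
    exact ⟨algebraMap A B c, by rw [RingHom.coe_coe, hΦA, hc, map_mul]⟩
  exact H84.chartFrob_of_twoComponents h hπ₁ hπ₂ hne₁ hne₂ hq hD Φ ΦB ΦA hQ hΦ hΦA hΦπ ΦD ΦD
    hinj hinj
    (map_of_extends ψ (algebraMap A B π) hdec red₁ hπ₁ (ΦB : B →+* B) Φ₁ ΦD hΦψ hΦπB hint₁)
    (map_of_extends ψ (algebraMap A B π) hdec red₂ hπ₂ (ΦB : B →+* B) Φ₁ ΦD hΦψ hΦπB hint₂)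
    hW hrat

end Main

end Fermat.Agent.S35.H27
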