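import Mathlib
import Fermat.Agent.S18.H45_DecompBase

/-!
# S35 / G1c (helper27): semilinear automorphisms acting on the charts `chartB R J`

Generic (`R` a commutative ring, `F` a field, `[Algebra R F]`), on top of helper45's
`H45.map_mem_chartB_of_semilinear`:

* `chartHom s sR hs J hJ : ↥(chartB R J) →+* ↥(chartB R J)` for a ring endomorphism `s` of `F`,
  semilinear over `sR : R →+* R`, fixing the chart coordinate `J`;
* `chartEquiv s sR hs J hJ : ↥(chartB R J) ≃+* ↥(chartB R J)` for automorphisms;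
* the `S35.H46.ChartFrob` fields `hΦ` (`algebraMap_chartEquiv`), `hΦR` (`chartEquiv_algebraMap`),
  `hΦπ` (`dvd_chartEquiv_algebraMap`);
* `intClosureHom` : the same on `↥(integralClosure (Algebra.adjoin k {w}) Fk)` (the target ring
  `R` of `S34.H83.TwoComponents`), = `PhiR`;
* `red_chartHom` : the chart-level intertwining `red (ΦB b) = PhiR (red b)` from a reduction `redO`
  defined on a bigger subring `O ⊇ B` with values in a field `κ ⊇ incl Fk`
  (shape of `S34.H55.twoComponents_of_incl`).
-/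

set_option autoImplicit false
set_option linter.unusedSectionVars false

noncomputable section

namespace Fermat.Agent.S35.H27

open Fermat.Agent.S18

section Generic

variable {R : Type*} [CommRing R] {F : Type*} [Field F] [Algebra R F]

/-- a semilinear ring endomorphism of `F` fixing `J` acts on the chart `chartB R J`. -/
def chartHom (s : F →+* F) (sR : R →+* R)
    (hs : ∀ r : R, s (algebraMap R F r) = algebraMap R F (sR r)) (J : F) (hJ : s J = J) :
    ↥(H40.chartB R J) →+* ↥(H40.chartB R J) where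
  toFun b := ⟨s (b : F), by
    have := H45.map_mem_chartB_of_semilinear s sR hs J b.2
    rwa [hJ] at this⟩
  map_one' := Subtype.ext (map_one s)
  map_mul' _ _ := Subtype.ext (map_mul s _ _)
  map_zero' := Subtype.ext (map_zero s)
  map_add' _ _ := Subtype.ext (map_add s _ _)

@[simp] theorem coe_chartHom (s : F →+* F) (sR : R →+* R)
    (hs : ∀ r : R, s (algebraMap R F r) = algebraMap R F (sR r)) (J : F) (hJ : s J = J)
    (b : ↥(H40.chartB R J)) : ((chartHom s sR hs J hJ b : ↥(H40.chartB R J)) : F) = s (b : F) :=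
  rfl

theorem chartHom_algebraMap (s : F →+* F) (sR : R →+* R)
    (hs : ∀ r : R, s (algebraMap R F r) = algebraMap R F (sR r)) (J : F) (hJ : s J = J) (r : R) :
    chartHom s sR hs J hJ (algebraMap R ↥(H40.chartB R J) r) =
      algebraMap R ↥(H40.chartB R J) (sR r) :=
  Subtype.ext (hs r)

/-- a semilinear ring automorphism of `F` fixing `J` acts on the chart `chartB R J`. -/
def chartEquiv (s : F ≃+* F) (sR : R ≃+* R)
    (hs : ∀ r : R, s (algebraMap R F r) = algebraMap R F (sR r)) (J : F) (hJ : s J = J) :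
    ↥(H40.chartB R J) ≃+* ↥(H40.chartB R J) where
  toFun b := ⟨s (b : F), by
    have := (H45.map_mem_chartB_iff_of_semilinear s sR hs J (b : F)).2 b.2
    rwa [hJ] at this⟩
  invFun b := ⟨s.symm (b : F), by
    have h : s (s.symm (b : F)) ∈ H40.chartB R (s J) := by
      rw [RingEquiv.apply_symm_apply, hJ]; exact b.2
    exact (H45.map_mem_chartB_iff_of_semilinear s sR hs J _).1 h⟩
  left_inv _ := Subtype.ext (s.symm_apply_apply _)
  right_inv _ := Subtype.ext (s.apply_symm_apply _)
  map_mul' _ _ := Subtype.ext (map_mul s _ _)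
  map_add' _ _ := Subtype.ext (map_add s _ _)

@[simp] theorem coe_chartEquiv (s : F ≃+* F) (sR : R ≃+* R)
    (hs : ∀ r : R, s (algebraMap R F r) = algebraMap R F (sR r)) (J : F) (hJ : s J = J)
    (b : ↥(H40.chartB R J)) : ((chartEquiv s sR hs J hJ b : ↥(H40.chartB R J)) : F) = s (b : F) :=
  rfl

@[simp] theorem coe_chartEquiv_symm (s : F ≃+* F) (sR : R ≃+* R)
    (hs : ∀ r : R, s (algebraMap R F r) = algebraMap R F (sR r)) (J : F) (hJ : s J = J)
    (b : ↥(H40.chartB R J)) :
    (((chartEquiv s sR hs J hJ).symm b : ↥(H40.chartB R J)) : F) = s.symm (b : F) :=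
  rfl

/-- **`hΦ`**: `s (algebraMap B F b) = algebraMap B F (ΦB b)`. -/
theorem algebraMap_chartEquiv (s : F ≃+* F) (sR : R ≃+* R)
    (hs : ∀ r : R, s (algebraMap R F r) = algebraMap R F (sR r)) (J : F) (hJ : s J = J)
    (b : ↥(H40.chartB R J)) :
    s (algebraMap ↥(H40.chartB R J) F b) =
      algebraMap ↥(H40.chartB R J) F (chartEquiv s sR hs J hJ b) :=
  rfl

/-- **`hΦR`**: on constants `ΦB` is `sR`. -/
theorem chartEquiv_algebraMap (s : F ≃+* F) (sR : R ≃+* R)
    (hs : ∀ r : R, s (algebraMap R F r) = algebraMap R F (sR r)) (J : F) (hJ : s J = J) (r : R) :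
    chartEquiv s sR hs J hJ (algebraMap R ↥(H40.chartB R J) r) =
      algebraMap R ↥(H40.chartB R J) (sR r) :=
  Subtype.ext (hs r)

/-- **`hΦπ`**: `π ∣ ΦB π` when `π ∣ sR π`. -/
theorem dvd_chartEquiv_algebraMap (s : F ≃+* F) (sR : R ≃+* R)
    (hs : ∀ r : R, s (algebraMap R F r) = algebraMap R F (sR r)) (J : F) (hJ : s J = J) {π : R}
    (hπ : π ∣ sR π) :
    algebraMap R ↥(H40.chartB R J) π ∣
      chartEquiv s sR hs J hJ (algebraMap R ↥(H40.chartB R J) π) := by
  rw [chartEquiv_algebraMap]
  exact (algebraMap R ↥(H40.chartB R J)).map_dvd hπ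

end Generic

section IntClosure

variable {k : Type*} [CommRing k] {Fk : Type*} [Field Fk] [Algebra k Fk]

/-- a semilinear ring endomorphism of `Fk` fixing `w` acts on the integral closure of `k[w]`. -/
def intClosureHom (s : Fk →+* Fk) (sk : k →+* k)
    (hs : ∀ c : k, s (algebraMap k Fk c) = algebraMap k Fk (sk c)) (w : Fk) (hw : s w = w) :
    ↥(integralClosure (Algebra.adjoin k {w}) Fk) →+*
      ↥(integralClosure (Algebra.adjoin k {w}) Fk) where
  toFun b := ⟨s (b : Fk), by
    have hb : (b : Fk) ∈ H40.chartB k w := b.2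
    have := H45.map_mem_chartB_of_semilinear s sk hs w hb
    rw [hw] at this
    exact this⟩
  map_one' := Subtype.ext (map_one s)
  map_mul' _ _ := Subtype.ext (map_mul s _ _)
  map_zero' := Subtype.ext (map_zero s)
  map_add' _ _ := Subtype.ext (map_add s _ _)

@[simp] theorem coe_intClosureHom (s : Fk →+* Fk) (sk : k →+* k)
    (hs : ∀ c : k, s (algebraMap k Fk c) = algebraMap k Fk (sk c)) (w : Fk) (hw : s w = w)
    (b : ↥(integralClosure (Algebra.adjoin k {w}) Fk)) :
    ((intClosureHom s sk hs w hw b : ↥(integralClosure (Algebra.adjoin k {w}) Fk)) : Fk) =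
      s (b : Fk) := rfl

theorem intClosureHom_injective (s : Fk →+* Fk) (sk : k →+* k)
    (hs : ∀ c : k, s (algebraMap k Fk c) = algebraMap k Fk (sk c)) (w : Fk) (hw : s w = w) :
    Function.Injective (intClosureHom s sk hs w hw) := fun a b h => by
  apply Subtype.ext
  exact s.injective (congrArg Subtype.val h)

end IntClosure

section Intertwine

variable {R0 : Type*} [CommRing R0] {F : Type*} [Field F] [Algebra R0 F]
  {k : Type*} [CommRing k] {Fk : Type*} [Field Fk] [Algebra k Fk] {κ : Type*} [Field κ]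

/-- **chart-level intertwining** (`red (ΦB b) = PhiR (red b)`), in the output shape of
`S34.H55.twoComponents_of_incl`: the chart reduction `red` is the restriction of a reduction
`redO : O →+* κ` of a bigger subring `O ⊇ B`, read in `Fk` through an injective `incl : Fk → κ`. -/
theorem red_chartHom {u : F} {w : Fk}
    (red : ↥(H40.chartB R0 u) →+* ↥(integralClosure (Algebra.adjoin k {w}) Fk))
    (incl : Fk →+* κ) (O : Subring F) (redO : O →+* κ)
    (hBO : ∀ b : ↥(H40.chartB R0 u), (b : F) ∈ O)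
    (hspec : ∀ (b : ↥(H40.chartB R0 u)) (h : (b : F) ∈ O),
      incl ((red b : ↥(integralClosure (Algebra.adjoin k {w}) Fk)) : Fk) = redO ⟨b, h⟩)
    (ΦB : ↥(H40.chartB R0 u) →+* ↥(H40.chartB R0 u)) (Φ : F →+* F)
    (hΦB : ∀ b, ((ΦB b : ↥(H40.chartB R0 u)) : F) = Φ (b : F))
    (τ : κ →+* κ)
    (hres : ∀ (y : F) (hy : y ∈ O) (hy' : Φ y ∈ O), redO ⟨Φ y, hy'⟩ = τ (redO ⟨y, hy⟩))
    (PhiR : ↥(integralClosure (Algebra.adjoin k {w}) Fk) →+*
      ↥(integralClosure (Algebra.adjoin k {w}) Fk))
    (hPhiR : ∀ r, incl ((PhiR r : ↥(integralClosure (Algebra.adjoin k {w}) Fk)) : Fk) =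
      τ (incl (r : Fk)))
    (b : ↥(H40.chartB R0 u)) : red (ΦB b) = PhiR (red b) := by
  apply Subtype.ext
  apply incl.injective
  have h1 : ((ΦB b : ↥(H40.chartB R0 u)) : F) ∈ O := hBO (ΦB b)
  have h2 : Φ (b : F) ∈ O := by rw [← hΦB]; exact h1
  rw [hspec (ΦB b) h1, hPhiR, hspec b (hBO b), ← hres (b : F) (hBO b) h2]
  congr 1
  exact Subtype.ext (hΦB b)

end Intertwine

end Fermat.Agent.S35.H27
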