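import Mathlib
import Fermat.Agent.S35.H27_ChartAct
import Fermat.Agent.S34.H95_CoordJInst
import Fermat.Agent.S34.H70_ChartPkgGlue

/-!
# S35 / G1c (helper27): the decomposition group acting on the concrete charts

`φ ∈ A.decompositionSubgroup ℚ`, `K₁ = unrCyclo ℓ`, `A₁ = A0 A ℓ`, `E ⊇ K₁` Galois-stable,
`A'' = cutOver A E`, `J₁ : fullC K₁ N` a chart coordinate fixed by the coefficientwise action
(e.g. `H95.JK K₁ N q hq = j·j_q` or its inverse: `coeffRingAut_JK`, `coeffRingAut_JK_inv`).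

* `chartActA0 φ hφ J₁ hJ₁ : ↥(chartB A₁ J₁) ≃+* ↥(chartB A₁ J₁)`  (`= ΦB₁`);
* `chartActE  E hE φ hφ J₁ hJ₁ : ↥(chartB A'' (baseChangeE E N J₁)) ≃+* _`  (`= ΦB''`), on the
  chart over `A''` in EXACTLY the coordinate `baseChangeE E N J₁` used by helper70's `chartMapE`;
* `chartActE_chartMapE` : `ΦB'' ∘ ψ = ψ ∘ ΦB₁` for `ψ = H70.chartMapE E N J₁`
  (the hypothesis `hΦψ` of `CA.H27.redE_map` / `stable_of_mem_minimalPrimes`);
* the `S35.H46.ChartFrob` fields at `ΦB''`: `hΦ` (`galActFullC_algebraMap_chartActE`), `hΦR`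
  (`chartActE_algebraMap`), `hΦπ` (`dvd_chartActE_pi`), and the Frobenius congruences
  `dvd_galActCutOver_sub_pow` (`Q = ℓ`), `dvd_galActCutOver_sq_sub_pow` (`Φ = φ²`, `Q = ℓ²`).
-/

set_option autoImplicit false
set_option linter.unusedSectionVars false
set_option linter.style.haveILetI false
set_option synthInstance.maxHeartbeats 400000

noncomputable section

namespace Fermat.Agent.S35.H27

open ModularCurve IsLocalRing Fermat.Agent.S18 Fermat.Agent.S18.H45 Fermat.Agent.S34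

local notation "Qbar" => AlgebraicClosure ℚ

/-! ### the coefficientwise action fixes `J = j · j_q` -/

section JK

variable (K : Type) [Field K] (N : ℕ) [NeZero N] (q : ℕ) [NeZero q] (hq : q ∣ N)

theorem coeffRingAut_JK (σ : K ≃+* K) :
    S37.H53.coeffRingAut K N σ (H95.JK K N q hq) = H95.JK K N q hq := by
  apply Subtype.ext
  rw [S37.H53.coe_coeffRingAut_apply, H95.coe_JK, map_mul, coeffMap_qExpand, coeffMap_jqModC]

theorem coeffRingAut_JK_inv (σ : K ≃+* K) :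
    S37.H53.coeffRingAut K N σ (H95.JK K N q hq)⁻¹ = (H95.JK K N q hq)⁻¹ := by
  rw [map_inv₀, coeffRingAut_JK]

end JK

variable {A : ValuationSubring Qbar} {ℓ : ℕ}

/-! ### the `A₁`-level chart -/

section A0

variable (N : ℕ) [NeZero N]

theorem coeffRingAut_algebraMap_A0 (φ : Qbar ≃ₐ[ℚ] Qbar) (hφ : φ ∈ A.decompositionSubgroup ℚ)
    (a : A0 A ℓ) :
    S37.H53.coeffRingAut (unrCyclo ℓ) N (galActK1 ℓ φ)
        (algebraMap (A0 A ℓ) (modularFunctionFieldFullC (unrCyclo ℓ) N) a) =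
      algebraMap (A0 A ℓ) (modularFunctionFieldFullC (unrCyclo ℓ) N) (galActA0 φ hφ a) :=
  S37.H53.coeffRingAut_algebraMap (unrCyclo ℓ) N (galActK1 ℓ φ) (a : unrCyclo ℓ)

/-- **`ΦB₁`**: the decomposition group acts on the chart over `A₁`. -/
def chartActA0 (φ : Qbar ≃ₐ[ℚ] Qbar) (hφ : φ ∈ A.decompositionSubgroup ℚ)
    (J₁ : modularFunctionFieldFullC (unrCyclo ℓ) N)
    (hJ₁ : S37.H53.coeffRingAut (unrCyclo ℓ) N (galActK1 ℓ φ) J₁ = J₁) :
    ↥(H40.chartB (A0 A ℓ) J₁) ≃+* ↥(H40.chartB (A0 A ℓ) J₁) :=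
  chartEquiv (S37.H53.coeffRingAut (unrCyclo ℓ) N (galActK1 ℓ φ)) (galActA0 φ hφ)
    (coeffRingAut_algebraMap_A0 N φ hφ) J₁ hJ₁

@[simp] theorem coe_chartActA0 (φ : Qbar ≃ₐ[ℚ] Qbar) (hφ : φ ∈ A.decompositionSubgroup ℚ)
    (J₁ : modularFunctionFieldFullC (unrCyclo ℓ) N)
    (hJ₁ : S37.H53.coeffRingAut (unrCyclo ℓ) N (galActK1 ℓ φ) J₁ = J₁)
    (b : ↥(H40.chartB (A0 A ℓ) J₁)) :
    ((chartActA0 N φ hφ J₁ hJ₁ b : ↥(H40.chartB (A0 A ℓ) J₁)) :
      modularFunctionFieldFullC (unrCyclo ℓ) N) =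
      S37.H53.coeffRingAut (unrCyclo ℓ) N (galActK1 ℓ φ) b := rfl

end A0

/-! ### the `A''`-level chart -/

section E

variable (E : IntermediateField (unrCyclo ℓ) Qbar)
variable (hE : ∀ (τ : Qbar ≃ₐ[ℚ] Qbar) (x : Qbar), x ∈ E → τ x ∈ E)
variable (N : ℕ) [NeZero N]

/-- the coefficientwise actions at the levels `K₁` and `E` are compatible along `baseChangeE`. -/
theorem galActFullC_baseChangeE (τ : Qbar ≃ₐ[ℚ] Qbar)
    (x : modularFunctionFieldFullC (unrCyclo ℓ) N) :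
    galActFullC E hE N τ (baseChangeE E N x) =
      baseChangeE E N (S37.H53.coeffRingAut (unrCyclo ℓ) N (galActK1 ℓ τ) x) := by
  apply Subtype.ext
  rw [coe_galActFullC, coe_baseChangeE, coe_baseChangeE, S37.H53.coe_coeffRingAut_apply,
    coeffMap_coeffMap, coeffMap_coeffMap]
  refine coeffMap_congr (RingHom.ext fun c => ?_) _
  exact galActE_algebraMap E hE τ c

theorem galActFullC_baseChangeE_of_fixed (τ : Qbar ≃ₐ[ℚ] Qbar)
    {J₁ : modularFunctionFieldFullC (unrCyclo ℓ) N}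
    (hJ₁ : S37.H53.coeffRingAut (unrCyclo ℓ) N (galActK1 ℓ τ) J₁ = J₁) :
    galActFullC E hE N τ (baseChangeE E N J₁) = baseChangeE E N J₁ := by
  rw [galActFullC_baseChangeE, hJ₁]

set_option maxHeartbeats 3200000 in
/-- **`ΦB''`**: the decomposition group acts on the chart over `A'' = cutOver A E`. -/
def chartActE (φ : Qbar ≃ₐ[ℚ] Qbar) (hφ : φ ∈ A.decompositionSubgroup ℚ)
    (J₁ : modularFunctionFieldFullC (unrCyclo ℓ) N)
    (hJ₁ : S37.H53.coeffRingAut (unrCyclo ℓ) N (galActK1 ℓ φ) J₁ = J₁) :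
    ↥(H40.chartB (cutOver A E) (baseChangeE E N J₁)) ≃+*
      ↥(H40.chartB (cutOver A E) (baseChangeE E N J₁)) :=
  chartEquiv (galActFullC E hE N φ) (galActCutOver E hE φ hφ)
    (galActFullC_algebraMap_cutOver E hE N φ hφ) (baseChangeE E N J₁)
    (galActFullC_baseChangeE_of_fixed E hE N φ hJ₁)

@[simp] theorem coe_chartActE (φ : Qbar ≃ₐ[ℚ] Qbar) (hφ : φ ∈ A.decompositionSubgroup ℚ)
    (J₁ : modularFunctionFieldFullC (unrCyclo ℓ) N)
    (hJ₁ : S37.H53.coeffRingAut (unrCyclo ℓ) N (galActK1 ℓ φ) J₁ = J₁)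
    (b : ↥(H40.chartB (cutOver A E) (baseChangeE E N J₁))) :
    ((chartActE E hE N φ hφ J₁ hJ₁ b : ↥(H40.chartB (cutOver A E) (baseChangeE E N J₁))) :
      modularFunctionFieldFullC ↥E N) = galActFullC E hE N φ b := rfl

set_option maxHeartbeats 3200000 in
/-- **`hΦ`** of `ChartFrob` at `ΦB''`. -/
theorem galActFullC_algebraMap_chartActE (φ : Qbar ≃ₐ[ℚ] Qbar)
    (hφ : φ ∈ A.decompositionSubgroup ℚ) (J₁ : modularFunctionFieldFullC (unrCyclo ℓ) N)
    (hJ₁ : S37.H53.coeffRingAut (unrCyclo ℓ) N (galActK1 ℓ φ) J₁ = J₁)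
    (b : ↥(H40.chartB (cutOver A E) (baseChangeE E N J₁))) :
    galActFullC E hE N φ
        (algebraMap ↥(H40.chartB (cutOver A E) (baseChangeE E N J₁))
          (modularFunctionFieldFullC ↥E N) b) =
      algebraMap ↥(H40.chartB (cutOver A E) (baseChangeE E N J₁))
        (modularFunctionFieldFullC ↥E N) (chartActE E hE N φ hφ J₁ hJ₁ b) := rfl

set_option maxHeartbeats 3200000 in
/-- **`hΦR`** of `ChartFrob` at `ΦB''` (`ΦR = galActCutOver`). -/
theorem chartActE_algebraMap (φ : Qbar ≃ₐ[ℚ] Qbar) (hφ : φ ∈ A.decompositionSubgroup ℚ)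
    (J₁ : modularFunctionFieldFullC (unrCyclo ℓ) N)
    (hJ₁ : S37.H53.coeffRingAut (unrCyclo ℓ) N (galActK1 ℓ φ) J₁ = J₁) (r : cutOver A E) :
    chartActE E hE N φ hφ J₁ hJ₁
        (algebraMap (cutOver A E) ↥(H40.chartB (cutOver A E) (baseChangeE E N J₁)) r) =
      algebraMap (cutOver A E) ↥(H40.chartB (cutOver A E) (baseChangeE E N J₁))
        (galActCutOver E hE φ hφ r) :=
  chartEquiv_algebraMap _ _ _ _ _ r

/-- a uniformiser of `A''` divides its image under the decomposition group. -/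
theorem dvd_galActCutOver_pi (φ : Qbar ≃ₐ[ℚ] Qbar) (hφ : φ ∈ A.decompositionSubgroup ℚ)
    (π : cutOver A E) (hπ : maximalIdeal (cutOver A E) = Ideal.span {π}) :
    π ∣ galActCutOver E hE φ hφ π := by
  have h1 : π ∈ maximalIdeal (cutOver A E) := by
    rw [hπ]; exact Ideal.mem_span_singleton_self π
  have h2 : galActCutOver E hE φ hφ π ∈ maximalIdeal (cutOver A E) :=
    (galActCutOver_mem_maximalIdeal_iff E hE φ hφ π).2 h1
  rw [hπ, Ideal.mem_span_singleton] at h2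
  exact h2

set_option maxHeartbeats 3200000 in
/-- **`hΦπ`** of `ChartFrob` at `ΦB''`. -/
theorem dvd_chartActE_pi (φ : Qbar ≃ₐ[ℚ] Qbar) (hφ : φ ∈ A.decompositionSubgroup ℚ)
    (J₁ : modularFunctionFieldFullC (unrCyclo ℓ) N)
    (hJ₁ : S37.H53.coeffRingAut (unrCyclo ℓ) N (galActK1 ℓ φ) J₁ = J₁)
    (π : cutOver A E) (hπ : maximalIdeal (cutOver A E) = Ideal.span {π}) :
    algebraMap (cutOver A E) ↥(H40.chartB (cutOver A E) (baseChangeE E N J₁)) π ∣
      chartActE E hE N φ hφ J₁ hJ₁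
        (algebraMap (cutOver A E) ↥(H40.chartB (cutOver A E) (baseChangeE E N J₁)) π) :=
  dvd_chartEquiv_algebraMap _ _ _ _ _ (dvd_galActCutOver_pi E hE φ hφ π hπ)

set_option maxHeartbeats 3200000 in
/-- **`hΦψ`**: `ΦB'' ∘ ψ = ψ ∘ ΦB₁` along helper70's chart map `ψ = chartMapE E N J₁`. -/
theorem chartActE_chartMapE (φ : Qbar ≃ₐ[ℚ] Qbar) (hφ : φ ∈ A.decompositionSubgroup ℚ)
    (J₁ : modularFunctionFieldFullC (unrCyclo ℓ) N)
    (hJ₁ : S37.H53.coeffRingAut (unrCyclo ℓ) N (galActK1 ℓ φ) J₁ = J₁)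
    (b : ↥(H40.chartB (A0 A ℓ) J₁)) :
    chartActE E hE N φ hφ J₁ hJ₁ (H70.chartMapE (A := A) E N J₁ b) =
      H70.chartMapE (A := A) E N J₁ (chartActA0 N φ hφ J₁ hJ₁ b) := by
  apply Subtype.ext
  rw [coe_chartActE, H70.coe_chartMapE, H70.coe_chartMapE, coe_chartActA0]
  exact galActFullC_baseChangeE E hE N φ _

/-! ### Frobenius congruences on the constants `A''` -/

/-- **`hFrobR`, `Q = ℓ`**: `π ∣ φ r - r ^ ℓ` for a Frobenius element `φ`. -/
theorem dvd_galActCutOver_sub_pow {φ : Qbar ≃ₐ[ℚ] Qbar} (hF : A.IsFrobeniusAt φ ℓ)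
    (π : cutOver A E) (hπ : maximalIdeal (cutOver A E) = Ideal.span {π}) (r : cutOver A E) :
    π ∣ galActCutOver E hE φ hF.mem_decompositionSubgroup r - r ^ ℓ := by
  have h := galActCutOver_sub_pow_mem_of_isFrobeniusAt E hE hF r
  rw [hπ, Ideal.mem_span_singleton] at h
  exact h

/-- **`hFrobR`, `Φ = φ²`, `Q = ℓ²`**: `π ∣ φ (φ r) - r ^ (ℓ ^ 2)` for a Frobenius element `φ`. -/
theorem dvd_galActCutOver_sq_sub_pow {φ : Qbar ≃ₐ[ℚ] Qbar} (hF : A.IsFrobeniusAt φ ℓ)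
    (π : cutOver A E) (hπ : maximalIdeal (cutOver A E) = Ideal.span {π}) (r : cutOver A E) :
    π ∣ galActCutOver E hE φ hF.mem_decompositionSubgroup
        (galActCutOver E hE φ hF.mem_decompositionSubgroup r) - r ^ (ℓ ^ 2) := by
  have h1 := galActCutOver_sub_pow_mem_of_isFrobeniusAt E hE hF
    (galActCutOver E hE φ hF.mem_decompositionSubgroup r)
  have h2 := galActCutOver_sub_pow_mem_of_isFrobeniusAt E hE hF r
  -- `φ(φ r) - (φ r)^ℓ ∈ m` and `(φ r)^ℓ - (r^ℓ)^ℓ ∈ m`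
  have h3 : (galActCutOver E hE φ hF.mem_decompositionSubgroup r) ^ ℓ - (r ^ ℓ) ^ ℓ ∈
      maximalIdeal (cutOver A E) := by
    have hdvd := sub_dvd_pow_sub_pow
      (galActCutOver E hE φ hF.mem_decompositionSubgroup r) (r ^ ℓ) ℓ
    obtain ⟨c, hc⟩ := hdvd
    rw [hc]
    exact Ideal.mul_mem_right _ _ h2
  have h4 := Ideal.add_mem _ h1 h3
  have h5 : galActCutOver E hE φ hF.mem_decompositionSubgroup
        (galActCutOver E hE φ hF.mem_decompositionSubgroup r) -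
          galActCutOver E hE φ hF.mem_decompositionSubgroup r ^ ℓ +
        (galActCutOver E hE φ hF.mem_decompositionSubgroup r ^ ℓ - (r ^ ℓ) ^ ℓ) =
      galActCutOver E hE φ hF.mem_decompositionSubgroup
        (galActCutOver E hE φ hF.mem_decompositionSubgroup r) - r ^ (ℓ ^ 2) := by
    rw [pow_two, pow_mul]; ring
  rw [h5, hπ, Ideal.mem_span_singleton] at h4
  exact h4

end E

end Fermat.Agent.S35.H27
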