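import Mathlib
import Fermat.Agent.S18.H92_GaussModel

/-!
# S35 / G1b (helper27): coefficientwise automorphisms preserve the Gauss valuation ring

Setting of `S18.H92_GaussModel`: `T : TwoGen A π` (`A` a valuation subring of `L`, `π : A →+* k`).
Let `σ : L →+* L`, `σA : A →+* A`, `σk : k →+* k` with `σ a = σA a` on `A`, `π ∘ σA = σk ∘ π`, and
assume that the two generators `x, y ∈ A((q))` are fixed by the coefficientwise action of `σA`
(e.g. they have coefficients in `ℤ`).  Then the coefficientwise action `coeffMap σ` on `L((q))`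

* maps the Gauss unit ball `T.ball` into itself (`coeffMap_mem_ball`), and
* commutes with the reduction: `resFun (coeffMap σ f) = coeffMap σk (resFun f)`
  (`resFun_coeffMap`).

Packaged on `T.unitBall F hF` for a ring endomorphism `s` of the function field `F` inducing
`coeffMap σ` on `q`-expansions: `map_mem_unitBall`, `coe_resHom_map`.
-/

set_option autoImplicit false

noncomputable section

namespace Fermat.Agent.S35.H27

open ModularCurve Polynomial Fermat.Agent.S18.H92

variable {L : Type*} [Field L] {k : Type*} [Field k] {A : ValuationSubring L} {π : A →+* k}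
  (T : TwoGen A π)

section Basic

variable (σ : L →+* L) (σA : A →+* A) (σk : k →+* k)

theorem up_coeffMap (hσA : ∀ a : A, σ (a : L) = (σA a : L)) (z : LaurentSeries A) :
    coeffMap σ (up A z) = up A (coeffMap σA z) := by
  ext n
  simp only [coeffMap_coeff]
  exact hσA _

theorem red_coeffMap (hσk : ∀ a : A, π (σA a) = σk (π a)) (z : LaurentSeries A) :
    coeffMap π (coeffMap σA z) = coeffMap σk (coeffMap π z) := by
  ext n
  simp only [coeffMap_coeff]
  exact hσk _

include T in
theorem coeffMap_mem_RA (hx : coeffMap σA T.x = T.x) (hy : coeffMap σA T.y = T.y)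
    {a : LaurentSeries A} (ha : a ∈ T.RA) : coeffMap σA a ∈ T.RA := by
  obtain ⟨P, rfl⟩ := ha
  refine ⟨P.map (Polynomial.mapRingHom σA), ?_⟩
  rw [coeffMap_ev2, hx, hy]

/-- **the coefficientwise action preserves the Gauss ball.** -/
theorem coeffMap_mem_ball (hσA : ∀ a : A, σ (a : L) = (σA a : L))
    (hσk : ∀ a : A, π (σA a) = σk (π a))
    (hx : coeffMap σA T.x = T.x) (hy : coeffMap σA T.y = T.y)
    {f : LaurentSeries L} (hf : f ∈ T.ball) : coeffMap σ f ∈ T.ball := by
  obtain ⟨a, ha, b, hb, hb0, h⟩ := hf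
  refine ⟨coeffMap σA a, coeffMap_mem_RA T σA hx hy ha, coeffMap σA b,
    coeffMap_mem_RA T σA hx hy hb, ?_, ?_⟩
  · show coeffMap π (coeffMap σA b) ≠ 0
    rw [red_coeffMap σA σk hσk]
    exact (map_ne_zero (coeffMap σk)).2 hb0
  · rw [← up_coeffMap σ σA hσA, ← up_coeffMap σ σA hσA, ← map_mul, h]

/-- **reduction commutes with the coefficientwise action.** -/
theorem resFun_coeffMap (hσA : ∀ a : A, σ (a : L) = (σA a : L))
    (hσk : ∀ a : A, π (σA a) = σk (π a))
    (hx : coeffMap σA T.x = T.x) (hy : coeffMap σA T.y = T.y)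
    {f : LaurentSeries L} (hf : f ∈ T.ball) :
    T.resFun (coeffMap σ f) = coeffMap σk (T.resFun f) := by
  have hmem := coeffMap_mem_ball T σ σA σk hσA hσk hx hy hf
  obtain ⟨a, ha, b, hb, hb0, h⟩ := hf
  have hb0' : T.red (coeffMap σA b) ≠ 0 := by
    show coeffMap π (coeffMap σA b) ≠ 0
    rw [red_coeffMap σA σk hσk]
    exact (map_ne_zero (coeffMap σk)).2 hb0
  have h' : coeffMap σ f * up A (coeffMap σA b) = up A (coeffMap σA a) := by
    rw [← up_coeffMap σ σA hσA, ← up_coeffMap σ σA hσA, ← map_mul, h]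
  rw [T.resFun_eq hb0' h' hmem, T.resFun_eq hb0 h ⟨a, ha, b, hb, hb0, h⟩, map_div₀]
  show coeffMap π (coeffMap σA a) / coeffMap π (coeffMap σA b) = _
  rw [red_coeffMap σA σk hσk, red_coeffMap σA σk hσk]

end Basic

section Package

variable (F : IntermediateField L (LaurentSeries L)) (hF : F = T.FL)
variable (Fb : IntermediateField k (LaurentSeries k)) (hFb : Fb = T.Fk)
variable (σ : L →+* L) (σA : A →+* A) (σk : k →+* k)

/-- **`s (V) ⊆ V`** for a ring endomorphism `s` of `F` acting coefficientwise through `σ`. -/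
theorem map_mem_unitBall (s : F →+* F)
    (hs : ∀ f : F, ((s f : F) : LaurentSeries L) = coeffMap σ (f : LaurentSeries L))
    (hσA : ∀ a : A, σ (a : L) = (σA a : L)) (hσk : ∀ a : A, π (σA a) = σk (π a))
    (hx : coeffMap σA T.x = T.x) (hy : coeffMap σA T.y = T.y)
    {f : F} (hf : f ∈ T.unitBall F hF) : s f ∈ T.unitBall F hF := by
  rw [TwoGen.mem_unitBall, hs]
  exact coeffMap_mem_ball T σ σA σk hσA hσk hx hy hf

/-- **`res (s f) = σk · res f`** (coefficientwise on the residue side). -/
theorem coe_resHom_map (s : F →+* F)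
    (hs : ∀ f : F, ((s f : F) : LaurentSeries L) = coeffMap σ (f : LaurentSeries L))
    (hσA : ∀ a : A, σ (a : L) = (σA a : L)) (hσk : ∀ a : A, π (σA a) = σk (π a))
    (hx : coeffMap σA T.x = T.x) (hy : coeffMap σA T.y = T.y)
    {f : F} (hf : f ∈ T.unitBall F hF) :
    ((T.resHom F hF Fb hFb ⟨s f, map_mem_unitBall T F hF σ σA σk s hs hσA hσk hx hy hf⟩ : Fb) :
        LaurentSeries k) =
      coeffMap σk ((T.resHom F hF Fb hFb ⟨f, hf⟩ : Fb) : LaurentSeries k) := by
  rw [TwoGen.coe_resHom, TwoGen.coe_resHom]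
  show T.resFun ((s f : F) : LaurentSeries L) = _
  rw [hs]
  exact resFun_coeffMap T σ σA σk hσA hσk hx hy hf

end Package

end Fermat.Agent.S35.H27
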