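import Mathlib
import Fermat.Agent.S34.H16_L0Places
import Fermat.Agent.CA.H27_PlaceAut
import Fermat.Agent.S35.H27_GaussAut
import Fermat.Agent.S37.H53_Frob

/-!
# S35 / G1b (helper27): the coefficientwise Galois action on the two L0 places

`σ` a ring automorphism of `L₁ = unrCyclo ℓ` preserving `A₁ = A0 A ℓ` (through `σA`) and inducing
`σk` on `kA` through `H45.resA0`.  The coefficientwise action `S37.H53.coeffRingAut L₁ _ σ`

* preserves the level-`M` Gauss ring `V_M = H92.VM` and commutes with its reduction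
  (`coeffRingAut_mem_VM`, `resM_galVM`);
* preserves each of the two places `P_∞`, `P_0` of `F_N = fullC L₁ (ℓ M)` over `V_M`
  (`S34.H16.nonempty_placeInfty/_placeZero`), and the reductions intertwine it with the
  coefficientwise action of `σk` on `kA((t))`
  (`placeInfty_map_mem`, `placeInfty_res1_map`, `placeZero_map_mem`, `placeZero_res1_map`).

For a Frobenius lift `σ = φ` one takes `σk = (· ^ ℓ)`: `red_k ∘ φ = φ̄ ∘ red_k`.
-/

set_option autoImplicit false
set_option linter.unusedSectionVars false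
set_option linter.style.haveILetI false
set_option synthInstance.maxHeartbeats 400000

noncomputable section

namespace Fermat.Agent.S35.H27

open ModularCurve Polynomial IsLocalRing Fermat.Agent.S28
open Fermat.Agent.S18 Fermat.Agent.S34.H92 Fermat.Agent.S34.H16

local notation "Qbar" => AlgebraicClosure ℚ

section FrobPlaces

variable (M : ℕ) [NeZero M] {ℓ : ℕ} [hℓ : Fact ℓ.Prime] (hℓM : ¬ ℓ ∣ M)
  (A : ValuationSubring Qbar) (hA : A.LiesOverPrime ℓ)

local notation "kA" => IsLocalRing.ResidueField A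
local notation "A₁" => H45.A0 A ℓ
local notation "L₁" => H45.unrCyclo ℓ
local notation "FM" => modularFunctionFieldFullC (H45.unrCyclo ℓ) M
local notation "FN" => modularFunctionFieldFullC (H45.unrCyclo ℓ) (ℓ * M)
local notation "V" => VM M hℓM A hA

/-- The data of a ring automorphism of `L₁` preserving `A₁` and inducing `σk` on `kA`. -/
structure GalData where
  /-- the automorphism of `L₁` -/
  σ : L₁ ≃+* L₁
  /-- its restriction to `A₁` -/
  σA : A₁ →+* A₁
  /-- the induced endomorphism of the residue field `kA` -/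
  σk : kA →+* kA
  hσA : ∀ a : A₁, σ (a : L₁) = (σA a : L₁)
  hσk : ∀ a : A₁, H45.resA0 A ℓ (σA a) = σk (H45.resA0 A ℓ a)

variable {A} (G : GalData (ℓ := ℓ) A)

/-! ### the level-`M` Gauss ring -/

/-- the coefficientwise action of `σ` preserves `V_M`. -/
theorem coeffRingAut_mem_VM {f : FM} (hf : f ∈ V) : S37.H53.coeffRingAut L₁ M G.σ f ∈ V :=
  map_mem_unitBall (twoGenA0 M hℓM A hA) FM (twoGenA0_FL M hℓM A hA) (G.σ : L₁ →+* L₁) G.σA G.σk
    (S37.H53.coeffRingAut L₁ M G.σ : FM →+* FM) (fun _ => rfl) G.hσA G.hσk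
    (coeffMap_jqModC G.σA) (coeffMap_jqNModC G.σA M) hf

/-- the restriction of the coefficientwise action to `V_M`. -/
def galVM : V →+* V where
  toFun f := ⟨S37.H53.coeffRingAut L₁ M G.σ (f : FM), coeffRingAut_mem_VM M hℓM hA G f.2⟩
  map_one' := Subtype.ext (map_one _)
  map_mul' _ _ := Subtype.ext (map_mul _ _ _)
  map_zero' := Subtype.ext (map_zero _)
  map_add' _ _ := Subtype.ext (map_add _ _ _)

theorem coe_galVM (f : V) :
    ((galVM M hℓM hA G f : V) : FM) = S37.H53.coeffRingAut L₁ M G.σ (f : FM) := rfl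

/-- **`res_M ∘ σ = σk ∘ res_M`** (coefficientwise on `kA((t))`). -/
theorem resM_galVM (f : V) :
    resM M hℓM A hA (galVM M hℓM hA G f) = coeffMap G.σk (resM M hℓM A hA f) := by
  have h := coe_resHom_map (twoGenA0 M hℓM A hA) FM (twoGenA0_FL M hℓM A hA)
    (modularFunctionFieldFullC kA M) (twoGenA0_Fk M hℓM A hA)
    (G.σ : L₁ →+* L₁) G.σA G.σk (S37.H53.coeffRingAut L₁ M G.σ : FM →+* FM) (fun _ => rfl)
    G.hσA G.hσk (coeffMap_jqModC G.σA) (coeffMap_jqNModC G.σA M) f.2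
  rw [resM_apply, resM_apply]
  exact h

/-! ### the two places of `F_N` over `V_M` -/

/-- compatibility of the coefficientwise actions at levels `M` and `ℓ M` along `V_M → F_N`. -/
theorem coeffRingAut_algebraMap_VM :
    letI := degAlgebra L₁ M (ℓ * M) (dvd_level M)
    letI := algebraVMFN M hℓM A hA
    ∀ a : V, S37.H53.coeffRingAut L₁ (ℓ * M) G.σ (algebraMap V FN a) =
      algebraMap V FN (galVM M hℓM hA G a) := by
  letI := degAlgebra L₁ M (ℓ * M) (dvd_level M)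
  letI := algebraVMFN M hℓM A hA
  intro a
  apply Subtype.ext
  rfl

/-- the coefficientwise action fixes `j_N`. -/
theorem coeffRingAut_jNK (σ : L₁ ≃+* L₁) (N : ℕ) [NeZero N] :
    S37.H53.coeffRingAut L₁ N σ (S18.H16.jNK L₁ N) = S18.H16.jNK L₁ N := by
  apply Subtype.ext
  rw [S37.H53.coe_coeffRingAut_apply, S18.H16.coe_jNK, coeffMap_qExpand, coeffMap_jqModC]

/-- the residue of `j_M` has coefficients in the prime field. -/
theorem coeffMap_resM_jMV (σk : kA →+* kA) :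
    coeffMap σk (resM M hℓM A hA (jMV M hℓM A hA)) = resM M hℓM A hA (jMV M hℓM A hA) := by
  rw [resM_jMV, coeffMap_qExpand, coeffMap_jqModC]

/-- **`σ (V_∞) ⊆ V_∞`.** -/
theorem placeInfty_map_mem :
    letI := degAlgebra L₁ M (ℓ * M) (dvd_level M)
    letI := algebraVMFN M hℓM A hA
    ∀ (P : CA.H99.PlaceOver (L := FN) ((ℓ : ℕ) : V) (S18.H16.jNK L₁ (ℓ * M))
      (resM M hℓM A hA) (resM M hℓM A hA (jMV M hℓM A hA) ^ ℓ)) {y : FN},
      y ∈ P.O1 → S37.H53.coeffRingAut L₁ (ℓ * M) G.σ y ∈ P.O1 := by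
  letI := degAlgebra L₁ M (ℓ * M) (dvd_level M)
  letI := algebraVMFN M hℓM A hA
  intro P y hy
  exact CA.H27.PlaceOver.map_mem P (S37.H53.coeffRingAut L₁ (ℓ * M) G.σ : FN →+* FN)
    (galVM M hℓM hA G) (coeffRingAut_algebraMap_VM M hℓM hA G)
    (coeffRingAut_jNK G.σ (ℓ * M)) (coeffMap G.σk)
    (fun a => (resM_galVM M hℓM hA G a).symm)
    (by rw [map_pow, coeffMap_resM_jMV]) hy

/-- **`red_∞ ∘ σ = σk ∘ red_∞`.** -/
theorem placeInfty_res1_map :
    letI := degAlgebra L₁ M (ℓ * M) (dvd_level M)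
    letI := algebraVMFN M hℓM A hA
    ∀ (P : CA.H99.PlaceOver (L := FN) ((ℓ : ℕ) : V) (S18.H16.jNK L₁ (ℓ * M))
      (resM M hℓM A hA) (resM M hℓM A hA (jMV M hℓM A hA) ^ ℓ)) {y : FN}
      (hy : y ∈ P.O1) (hy' : S37.H53.coeffRingAut L₁ (ℓ * M) G.σ y ∈ P.O1),
      P.res1 ⟨S37.H53.coeffRingAut L₁ (ℓ * M) G.σ y, hy'⟩ = coeffMap G.σk (P.res1 ⟨y, hy⟩) := by
  letI := degAlgebra L₁ M (ℓ * M) (dvd_level M)
  letI := algebraVMFN M hℓM A hA
  intro P y hy hy'
  exact CA.H27.PlaceOver.res1_map P (S37.H53.coeffRingAut L₁ (ℓ * M) G.σ : FN →+* FN)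
    (galVM M hℓM hA G) (coeffRingAut_algebraMap_VM M hℓM hA G)
    (coeffRingAut_jNK G.σ (ℓ * M)) (coeffMap G.σk)
    (fun a => (resM_galVM M hℓM hA G a).symm)
    (by rw [map_pow, coeffMap_resM_jMV]) hy

theorem iotaZero_galVM (a : V) :
    coeffMap G.σk (iotaZero M hℓM A hA a) = iotaZero M hℓM A hA (galVM M hℓM hA G a) := by
  rw [iotaZero_apply, iotaZero_apply, coeffMap_qExpand, resM_galVM]

/-- **`σ (V_0) ⊆ V_0`.** -/
theorem placeZero_map_mem :
    letI := degAlgebra L₁ M (ℓ * M) (dvd_level M)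
    letI := algebraVMFN M hℓM A hA
    ∀ (P : CA.H99.PlaceOver (L := FN) ((ℓ : ℕ) : V) (S18.H16.jNK L₁ (ℓ * M))
      (iotaZero M hℓM A hA) (resM M hℓM A hA (jMV M hℓM A hA))) {y : FN},
      y ∈ P.O1 → S37.H53.coeffRingAut L₁ (ℓ * M) G.σ y ∈ P.O1 := by
  letI := degAlgebra L₁ M (ℓ * M) (dvd_level M)
  letI := algebraVMFN M hℓM A hA
  intro P y hy
  exact CA.H27.PlaceOver.map_mem P (S37.H53.coeffRingAut L₁ (ℓ * M) G.σ : FN →+* FN)
    (galVM M hℓM hA G) (coeffRingAut_algebraMap_VM M hℓM hA G)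
    (coeffRingAut_jNK G.σ (ℓ * M)) (coeffMap G.σk)
    (iotaZero_galVM M hℓM hA G) (coeffMap_resM_jMV M hℓM hA G.σk) hy

/-- **`red_0 ∘ σ = σk ∘ red_0`.** -/
theorem placeZero_res1_map :
    letI := degAlgebra L₁ M (ℓ * M) (dvd_level M)
    letI := algebraVMFN M hℓM A hA
    ∀ (P : CA.H99.PlaceOver (L := FN) ((ℓ : ℕ) : V) (S18.H16.jNK L₁ (ℓ * M))
      (iotaZero M hℓM A hA) (resM M hℓM A hA (jMV M hℓM A hA))) {y : FN}
      (hy : y ∈ P.O1) (hy' : S37.H53.coeffRingAut L₁ (ℓ * M) G.σ y ∈ P.O1),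
      P.res1 ⟨S37.H53.coeffRingAut L₁ (ℓ * M) G.σ y, hy'⟩ = coeffMap G.σk (P.res1 ⟨y, hy⟩) := by
  letI := degAlgebra L₁ M (ℓ * M) (dvd_level M)
  letI := algebraVMFN M hℓM A hA
  intro P y hy hy'
  exact CA.H27.PlaceOver.res1_map P (S37.H53.coeffRingAut L₁ (ℓ * M) G.σ : FN →+* FN)
    (galVM M hℓM hA G) (coeffRingAut_algebraMap_VM M hℓM hA G)
    (coeffRingAut_jNK G.σ (ℓ * M)) (coeffMap G.σk)
    (iotaZero_galVM M hℓM hA G) (coeffMap_resM_jMV M hℓM hA G.σk) hy

end FrobPlaces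

end Fermat.Agent.S35.H27
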