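import Mathlib
import Fermat.Agent.S35.H27_FrobPlaces
import Fermat.Agent.S18.H45_DecompBase

/-!
# S35 / G1b (helper27): `GalData` from the decomposition group (bridge to `S18.H45_DecompBase`)

* `galDataOfDecomp φ hφ`   : `σ = galActK1 ℓ φ`, `σA = galActA0 φ hφ`, `σk` = the action of
  `⟨φ, hφ⟩` on the residue field `kA`;
* `galDataOfFrobenius hF`  : for `hF : A.IsFrobeniusAt φ ℓ`, `σk = frobenius kA ℓ`.

With these, `S35.H27.placeInfty_res1_map` / `placeZero_res1_map` read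
`red_k (φ y) = coeffMap (frobenius kA ℓ) (red_k y)`.
-/

set_option autoImplicit false
set_option linter.unusedSectionVars false
set_option linter.style.haveILetI false
set_option synthInstance.maxHeartbeats 400000

noncomputable section

namespace Fermat.Agent.S35.H27

open ModularCurve IsLocalRing Fermat.Agent.S18

local notation "Qbar" => AlgebraicClosure ℚ

variable {ℓ : ℕ} [hℓ : Fact ℓ.Prime] {A : ValuationSubring Qbar}

local notation "kA" => IsLocalRing.ResidueField A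

/-- `GalData` attached to an element of the decomposition group of `A`. -/
def galDataOfDecomp (φ : Qbar ≃ₐ[ℚ] Qbar) (hφ : φ ∈ A.decompositionSubgroup ℚ) :
    GalData (ℓ := ℓ) A where
  σ := H45.galActK1 ℓ φ
  σA := (H45.galActA0 (ℓ := ℓ) φ hφ : H45.A0 A ℓ ≃+* H45.A0 A ℓ)
  σk := MulSemiringAction.toRingHom (A.decompositionSubgroup ℚ) kA ⟨φ, hφ⟩
  hσA := fun _ => rfl
  hσk := fun a => H45.resA0_galActA0 φ hφ a

@[simp] theorem galDataOfDecomp_σ (φ : Qbar ≃ₐ[ℚ] Qbar) (hφ : φ ∈ A.decompositionSubgroup ℚ) :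
    (galDataOfDecomp (ℓ := ℓ) φ hφ).σ = H45.galActK1 ℓ φ := rfl

/-- `GalData` attached to a Frobenius element at `ℓ`: the residue action is `x ↦ x ^ ℓ`. -/
def galDataOfFrobenius (hA : A.LiesOverPrime ℓ) {φ : Qbar ≃ₐ[ℚ] Qbar}
    (hF : A.IsFrobeniusAt φ ℓ) : GalData (ℓ := ℓ) A :=
  haveI : CharP kA ℓ := Fermat.Agent.S18.H92.charP_residueField A hA
  { σ := H45.galActK1 ℓ φ
    σA := (H45.galActA0 (ℓ := ℓ) φ hF.mem_decompositionSubgroup : H45.A0 A ℓ ≃+* H45.A0 A ℓ)
    σk := frobenius kA ℓ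
    hσA := fun _ => rfl
    hσk := fun a => by
      rw [frobenius_def]
      exact H45.resA0_galActA0_of_isFrobeniusAt hF a }

@[simp] theorem galDataOfFrobenius_σ (hA : A.LiesOverPrime ℓ) {φ : Qbar ≃ₐ[ℚ] Qbar}
    (hF : A.IsFrobeniusAt φ ℓ) : (galDataOfFrobenius hA hF).σ = H45.galActK1 ℓ φ := rfl

theorem galDataOfFrobenius_σk (hA : A.LiesOverPrime ℓ) {φ : Qbar ≃ₐ[ℚ] Qbar}
    (hF : A.IsFrobeniusAt φ ℓ) :
    haveI : CharP kA ℓ := Fermat.Agent.S18.H92.charP_residueField A hA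
    (galDataOfFrobenius hA hF).σk = frobenius kA ℓ := rfl

end Fermat.Agent.S35.H27
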