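import Mathlib
import Fermat.Agent.S35.H27_ChartActInst
import Fermat.Agent.S35.H27_FrobPlacesInst
import Fermat.Agent.S18.H11_IfaceMain

/-!
# S35 / G1c (helper27): chart-level intertwining at the `A₁`-level L0 charts

For the two L0 places `P_∞`, `P_0` of `F_N = fullC K₁ (ℓ M)` over `V_M` (`S34.H16_L0Places`), a chart
`B₁ = chartB A₁ u` (`u` fixed by the coefficientwise action) contained in the valuation ring of the
place, and a chart reduction `red : B₁ →+* R`, `R = integralClosure kA[w] (fullC kA M)`, which is the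
restriction of the place reduction (`hspec`, the output shape of `S34.H55.twoComponents_of_incl`
with `incl = (fullC kA M).val`):

  `red (ΦB₁ b) = PhiR (red b)`,  `ΦB₁ = chartActA0 φ`, `PhiR = resRingHom σk w`

(`red_chartActA0_infty`, `red_chartActA0_zero`).  These are the hypotheses `hint₁ hint₂` of
`CA.H27.stable_of_mem_minimalPrimes` / `redE_map` and `h1Phi` of `S35.H84.node_comap_eq`.
-/

set_option autoImplicit false
set_option linter.unusedSectionVars false
set_option linter.style.haveILetI false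
set_option synthInstance.maxHeartbeats 400000

noncomputable section

namespace Fermat.Agent.S35.H27

open ModularCurve IsLocalRing Fermat.Agent.S28
open Fermat.Agent.S18 Fermat.Agent.S34.H92 Fermat.Agent.S34.H16

local notation "Qbar" => AlgebraicClosure ℚ

/-! ### `PhiR`: the coefficientwise action on the residue ring `R` -/

section PhiR

variable (k : Type) [Field k] (M : ℕ) [NeZero M]

/-- **`PhiR`**: the coefficientwise action of `σk : k ≃+* k` on
`R = integralClosure k[w] (fullC k M)`, for `w` with coefficients fixed by `σk`. -/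
def resRingHom (σk : k ≃+* k) (w : modularFunctionFieldFullC k M)
    (hw : S37.H53.coeffRingAut k M σk w = w) :
    ↥(integralClosure (Algebra.adjoin k {w}) (modularFunctionFieldFullC k M)) →+*
      ↥(integralClosure (Algebra.adjoin k {w}) (modularFunctionFieldFullC k M)) :=
  intClosureHom (S37.H53.coeffRingAut k M σk : modularFunctionFieldFullC k M →+* _)
    (σk : k →+* k) (S37.H53.coeffRingAut_algebraMap k M σk) w hw

theorem coe_resRingHom (σk : k ≃+* k) (w : modularFunctionFieldFullC k M)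
    (hw : S37.H53.coeffRingAut k M σk w = w)
    (r : ↥(integralClosure (Algebra.adjoin k {w}) (modularFunctionFieldFullC k M))) :
    (((resRingHom k M σk w hw r :
        ↥(integralClosure (Algebra.adjoin k {w}) (modularFunctionFieldFullC k M))) :
      modularFunctionFieldFullC k M) : LaurentSeries k) =
      coeffMap (σk : k →+* k) ((r : modularFunctionFieldFullC k M) : LaurentSeries k) := rfl

theorem resRingHom_injective (σk : k ≃+* k) (w : modularFunctionFieldFullC k M)
    (hw : S37.H53.coeffRingAut k M σk w = w) : Function.Injective (resRingHom k M σk w hw) :=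
  intClosureHom_injective _ _ _ _ _

/-- the coefficientwise action fixes `j` on the residue side. -/
theorem coeffRingAut_jK (σk : k ≃+* k) :
    S37.H53.coeffRingAut k M σk (S18.H16.jK k M) = S18.H16.jK k M := by
  apply Subtype.ext
  rw [S37.H53.coe_coeffRingAut_apply, S18.H16.coe_jK, coeffMap_jqModC]

theorem coeffRingAut_jK_inv (σk : k ≃+* k) :
    S37.H53.coeffRingAut k M σk (S18.H16.jK k M)⁻¹ = (S18.H16.jK k M)⁻¹ := by
  rw [map_inv₀, coeffRingAut_jK]

end PhiR

section Charts

variable (M : ℕ) [NeZero M] {ℓ : ℕ} [hℓ : Fact ℓ.Prime] (hℓM : ¬ ℓ ∣ M)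
  {A : ValuationSubring Qbar} (hA : A.LiesOverPrime ℓ)

local notation "kA" => IsLocalRing.ResidueField A
local notation "A₁" => H45.A0 A ℓ
local notation "L₁" => H45.unrCyclo ℓ
local notation "FkM" => modularFunctionFieldFullC (IsLocalRing.ResidueField A) M
local notation "FN" => modularFunctionFieldFullC (H45.unrCyclo ℓ) (ℓ * M)
local notation "V" => VM M hℓM A hA

variable (φ : Qbar ≃ₐ[ℚ] Qbar) (hφ : φ ∈ A.decompositionSubgroup ℚ)

/-- the `GalData` of `φ` with the residue automorphism `σk`. -/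
def galDataOfEquiv (σk : IsLocalRing.ResidueField A ≃+* IsLocalRing.ResidueField A)
    (hσk : ∀ a : H45.A0 A ℓ,
      H45.resA0 A ℓ (H45.galActA0 φ hφ a) = σk (H45.resA0 A ℓ a)) : GalData (ℓ := ℓ) A where
  σ := H45.galActK1 ℓ φ
  σA := (H45.galActA0 (ℓ := ℓ) φ hφ : A₁ ≃+* A₁)
  σk := (σk : kA →+* kA)
  hσA := fun _ => rfl
  hσk := hσk

set_option maxHeartbeats 1600000 in
/-- **chart-level intertwining at `P_∞`.** -/
theorem red_chartActA0_infty
    (σk : IsLocalRing.ResidueField A ≃+* IsLocalRing.ResidueField A)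
    (hσk : ∀ a : H45.A0 A ℓ,
      H45.resA0 A ℓ (H45.galActA0 φ hφ a) = σk (H45.resA0 A ℓ a)) :
    letI := degAlgebra L₁ M (ℓ * M) (dvd_level M)
    letI := algebraVMFN M hℓM A hA
    ∀ (P : CA.H99.PlaceOver (L := FN) ((ℓ : ℕ) : V) (S18.H16.jNK L₁ (ℓ * M))
      (resM M hℓM A hA) (resM M hℓM A hA (jMV M hℓM A hA) ^ ℓ))
      (u : FN) (hu : S37.H53.coeffRingAut L₁ (ℓ * M) (H45.galActK1 ℓ φ) u = u)
      (w : FkM) (hw : S37.H53.coeffRingAut kA M σk w = w)
      (red : ↥(H40.chartB A₁ u) →+* ↥(integralClosure (Algebra.adjoin kA {w}) FkM))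
      (_hBO : ∀ b : ↥(H40.chartB A₁ u), (b : FN) ∈ P.O1)
      (_hspec : ∀ (b : ↥(H40.chartB A₁ u)) (h : (b : FN) ∈ P.O1),
        (((red b : ↥(integralClosure (Algebra.adjoin kA {w}) FkM)) : FkM) : LaurentSeries kA) =
          P.res1 ⟨b, h⟩)
      (b : ↥(H40.chartB A₁ u)),
      red (chartActA0 (ℓ * M) φ hφ u hu b) = resRingHom kA M σk w hw (red b) := by
  letI := degAlgebra L₁ M (ℓ * M) (dvd_level M)
  letI := algebraVMFN M hℓM A hA
  intro P u hu w hw red hBO hspec b
  exact red_chartHom red (algebraMap FkM (LaurentSeries kA)) P.O1 P.res1 hBO hspec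
    ((chartActA0 (ℓ * M) φ hφ u hu : ↥(H40.chartB A₁ u) ≃+* ↥(H40.chartB A₁ u)) :
      ↥(H40.chartB A₁ u) →+* ↥(H40.chartB A₁ u))
    (S37.H53.coeffRingAut L₁ (ℓ * M) (H45.galActK1 ℓ φ) : FN →+* FN) (fun _ => rfl)
    (coeffMap (σk : kA →+* kA))
    (fun y hy hy' => placeInfty_res1_map M hℓM hA (galDataOfEquiv φ hφ σk hσk) P hy hy')
    (resRingHom kA M σk w hw) (fun _ => rfl) b

set_option maxHeartbeats 1600000 in
/-- **chart-level intertwining at `P_0`.** -/
theorem red_chartActA0_zero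
    (σk : IsLocalRing.ResidueField A ≃+* IsLocalRing.ResidueField A)
    (hσk : ∀ a : H45.A0 A ℓ,
      H45.resA0 A ℓ (H45.galActA0 φ hφ a) = σk (H45.resA0 A ℓ a)) :
    letI := degAlgebra L₁ M (ℓ * M) (dvd_level M)
    letI := algebraVMFN M hℓM A hA
    ∀ (P : CA.H99.PlaceOver (L := FN) ((ℓ : ℕ) : V) (S18.H16.jNK L₁ (ℓ * M))
      (iotaZero M hℓM A hA) (resM M hℓM A hA (jMV M hℓM A hA)))
      (u : FN) (hu : S37.H53.coeffRingAut L₁ (ℓ * M) (H45.galActK1 ℓ φ) u = u)
      (w : FkM) (hw : S37.H53.coeffRingAut kA M σk w = w)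
      (red : ↥(H40.chartB A₁ u) →+* ↥(integralClosure (Algebra.adjoin kA {w}) FkM))
      (_hBO : ∀ b : ↥(H40.chartB A₁ u), (b : FN) ∈ P.O1)
      (_hspec : ∀ (b : ↥(H40.chartB A₁ u)) (h : (b : FN) ∈ P.O1),
        (((red b : ↥(integralClosure (Algebra.adjoin kA {w}) FkM)) : FkM) : LaurentSeries kA) =
          P.res1 ⟨b, h⟩)
      (b : ↥(H40.chartB A₁ u)),
      red (chartActA0 (ℓ * M) φ hφ u hu b) = resRingHom kA M σk w hw (red b) := by
  letI := degAlgebra L₁ M (ℓ * M) (dvd_level M)
  letI := algebraVMFN M hℓM A hA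
  intro P u hu w hw red hBO hspec b
  exact red_chartHom red (algebraMap FkM (LaurentSeries kA)) P.O1 P.res1 hBO hspec
    ((chartActA0 (ℓ * M) φ hφ u hu : ↥(H40.chartB A₁ u) ≃+* ↥(H40.chartB A₁ u)) :
      ↥(H40.chartB A₁ u) →+* ↥(H40.chartB A₁ u))
    (S37.H53.coeffRingAut L₁ (ℓ * M) (H45.galActK1 ℓ φ) : FN →+* FN) (fun _ => rfl)
    (coeffMap (σk : kA →+* kA))
    (fun y hy hy' => placeZero_res1_map M hℓM hA (galDataOfEquiv φ hφ σk hσk) P hy hy')
    (resRingHom kA M σk w hw) (fun _ => rfl) b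

/-! ### the Frobenius case: `σk = frobeniusEquiv kA ℓ` -/

/-- the Frobenius automorphism of the (algebraically closed) residue field `kA`. -/
def frobEquivResidue (hA : A.LiesOverPrime ℓ) :
    IsLocalRing.ResidueField A ≃+* IsLocalRing.ResidueField A :=
  haveI : CharP (IsLocalRing.ResidueField A) ℓ := Fermat.Agent.S18.H92.charP_residueField A hA
  haveI : IsAlgClosed (IsLocalRing.ResidueField A) := S18.H11.isAlgClosed_residueField A
  frobeniusEquiv (IsLocalRing.ResidueField A) ℓ

theorem frobEquivResidue_apply (hA : A.LiesOverPrime ℓ) (x : IsLocalRing.ResidueField A) :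
    frobEquivResidue hA x = x ^ ℓ := by
  haveI : CharP (IsLocalRing.ResidueField A) ℓ := Fermat.Agent.S18.H92.charP_residueField A hA
  haveI : IsAlgClosed (IsLocalRing.ResidueField A) := S18.H11.isAlgClosed_residueField A
  exact frobeniusEquiv_apply (IsLocalRing.ResidueField A) ℓ x

/-- **`hσk` for a Frobenius element**: `res (φ a) = Frob (res a)`. -/
theorem resA0_galActA0_eq_frobEquivResidue (hA : A.LiesOverPrime ℓ) {φ : Qbar ≃ₐ[ℚ] Qbar}
    (hF : A.IsFrobeniusAt φ ℓ) (a : H45.A0 A ℓ) :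
    H45.resA0 A ℓ (H45.galActA0 φ hF.mem_decompositionSubgroup a) =
      frobEquivResidue hA (H45.resA0 A ℓ a) := by
  rw [frobEquivResidue_apply]
  exact H45.resA0_galActA0_of_isFrobeniusAt hF a

end Charts

end Fermat.Agent.S35.H27
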