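import Mathlib
import Fermat.Agent.S35.H27_ChartFrobGen
import Fermat.Agent.S35.H27_ChartRedInst
import Fermat.Agent.S34.H55_L0Final
import Fermat.Agent.S34.H83_L1Inst
import Fermat.Agent.S34.H95_ChartBC

/-!
# S35 / E1-CF (helper27): `H46.ChartFrob` for `Ψ = Φ ∘ Φ` at the `E`-level charts

`φ` a Frobenius element at `A` (over `ℓ`), `Φ = galActFullC E hE (ℓ M) φ`, `Ψ = Φ.trans Φ`,
`Q = ℓ ^ 2`.  For a chart coordinate `u ∈ F_N = fullC K₁ (ℓ M)` fixed by the coefficientwise action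
(`u = J = j · j_ℓ` or `J⁻¹`), `uE = baseChangeE u`, `B'' = chartB (cutOver A E) uE`:

* `chartActJ`, `psiB` : `Φ` and `Ψ` restricted to `B''`; `psiR` : `Ψ` on `A'' = cutOver A E`;
* `frobLin_frobLin_coeffRingAut` : `Fr (Fr (σ (σ x))) = x ^ (ℓ ^ 2)` on `fullC kA M`
  (`Fr = t ↦ t ^ ℓ`, `σ =` coefficientwise Frobenius): the hypothesis `hW` of
  `H84.chartFrob_of_twoComponents`;
* `chartFrobE_of_twoComponents` : `ChartFrob (vertTC red₁'' red₂'') π Ψ ΨB ΨR (ℓ ^ 2)` from ANY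
  `E`-level `H83.TwoComponents red₁'' red₂'' ..` on `B''` whose reductions extend those of the
  `A₁`-level L0 output (`H55.twoComponents_JK(_inv)`, restrictions of the two place reductions).
-/

set_option autoImplicit false
set_option linter.unusedSectionVars false
set_option linter.style.haveILetI false
set_option synthInstance.maxHeartbeats 400000

noncomputable section

namespace Fermat.Agent.S35.H27

open ModularCurve IsLocalRing Fermat.Agent.S28
open Fermat.Agent.S18 Fermat.Agent.S18.H45 Fermat.Agent.S34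

local notation "Qbar" => AlgebraicClosure ℚ

/-! ### `Φ`, `Ψ` on an arbitrary `E`-level chart with fixed coordinate -/

section ActJ

variable {A : ValuationSubring Qbar} {ℓ : ℕ}
variable (E : IntermediateField (unrCyclo ℓ) Qbar)
variable (hE : ∀ (τ : Qbar ≃ₐ[ℚ] Qbar) (x : Qbar), x ∈ E → τ x ∈ E)
variable (N : ℕ) [NeZero N]

set_option maxHeartbeats 3200000 in
/-- the decomposition group acts on the chart `chartB A'' J`, `J` any fixed coordinate. -/
def chartActJ (φ : Qbar ≃ₐ[ℚ] Qbar) (hφ : φ ∈ A.decompositionSubgroup ℚ)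
    (J : modularFunctionFieldFullC ↥E N) (hJ : galActFullC E hE N φ J = J) :
    ↥(H40.chartB (cutOver A E) J) ≃+* ↥(H40.chartB (cutOver A E) J) :=
  chartEquiv (galActFullC E hE N φ) (galActCutOver E hE φ hφ)
    (galActFullC_algebraMap_cutOver E hE N φ hφ) J hJ

@[simp] theorem coe_chartActJ (φ : Qbar ≃ₐ[ℚ] Qbar) (hφ : φ ∈ A.decompositionSubgroup ℚ)
    (J : modularFunctionFieldFullC ↥E N) (hJ : galActFullC E hE N φ J = J)
    (b : ↥(H40.chartB (cutOver A E) J)) :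
    ((chartActJ E hE N φ hφ J hJ b : ↥(H40.chartB (cutOver A E) J)) :
      modularFunctionFieldFullC ↥E N) = galActFullC E hE N φ b := rfl

/-- **`ΨB`** `= ΦB ∘ ΦB`. -/
def psiB (φ : Qbar ≃ₐ[ℚ] Qbar) (hφ : φ ∈ A.decompositionSubgroup ℚ)
    (J : modularFunctionFieldFullC ↥E N) (hJ : galActFullC E hE N φ J = J) :
    ↥(H40.chartB (cutOver A E) J) ≃+* ↥(H40.chartB (cutOver A E) J) :=
  (chartActJ E hE N φ hφ J hJ).trans (chartActJ E hE N φ hφ J hJ)

@[simp] theorem coe_psiB (φ : Qbar ≃ₐ[ℚ] Qbar) (hφ : φ ∈ A.decompositionSubgroup ℚ)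
    (J : modularFunctionFieldFullC ↥E N) (hJ : galActFullC E hE N φ J = J)
    (b : ↥(H40.chartB (cutOver A E) J)) :
    ((psiB E hE N φ hφ J hJ b : ↥(H40.chartB (cutOver A E) J)) :
      modularFunctionFieldFullC ↥E N) = galActFullC E hE N φ (galActFullC E hE N φ b) := rfl

/-- **`ΨR`** `= ΦR ∘ ΦR` on `A'' = cutOver A E`. -/
def psiR (φ : Qbar ≃ₐ[ℚ] Qbar) (hφ : φ ∈ A.decompositionSubgroup ℚ) :
    ↥(cutOver A E) →+* ↥(cutOver A E) :=
  (((galActCutOver E hE φ hφ).trans (galActCutOver E hE φ hφ) :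
    ↥(cutOver A E) ≃+* ↥(cutOver A E)) : ↥(cutOver A E) →+* ↥(cutOver A E))

@[simp] theorem psiR_apply (φ : Qbar ≃ₐ[ℚ] Qbar) (hφ : φ ∈ A.decompositionSubgroup ℚ)
    (r : ↥(cutOver A E)) :
    psiR E hE φ hφ r = galActCutOver E hE φ hφ (galActCutOver E hE φ hφ r) := rfl

/-- **`hFrobR`** for `ΨR`, `Q = ℓ ^ 2`. -/
theorem dvd_psiR_sub_pow {φ : Qbar ≃ₐ[ℚ] Qbar} (hF : A.IsFrobeniusAt φ ℓ)
    (π : cutOver A E) (hπ : maximalIdeal (cutOver A E) = Ideal.span {π}) (r : cutOver A E) :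
    π ∣ psiR E hE φ hF.mem_decompositionSubgroup r - r ^ (ℓ ^ 2) :=
  dvd_galActCutOver_sq_sub_pow E hE hF π hπ r

/-- `π ∣ ΨR π`. -/
theorem dvd_psiR_pi (φ : Qbar ≃ₐ[ℚ] Qbar) (hφ : φ ∈ A.decompositionSubgroup ℚ)
    (π : cutOver A E) (hπ : maximalIdeal (cutOver A E) = Ideal.span {π}) :
    π ∣ psiR E hE φ hφ π := by
  obtain ⟨c, hc⟩ := dvd_galActCutOver_pi E hE φ hφ π hπ
  rw [psiR_apply, hc, map_mul]
  exact Dvd.dvd.mul_right (dvd_galActCutOver_pi E hE φ hφ π hπ) _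

set_option maxHeartbeats 3200000 in
/-- **`hΦR`** for `ΨB`. -/
theorem psiB_algebraMap (φ : Qbar ≃ₐ[ℚ] Qbar) (hφ : φ ∈ A.decompositionSubgroup ℚ)
    (J : modularFunctionFieldFullC ↥E N) (hJ : galActFullC E hE N φ J = J) (r : cutOver A E) :
    psiB E hE N φ hφ J hJ (algebraMap (cutOver A E) ↥(H40.chartB (cutOver A E) J) r) =
      algebraMap (cutOver A E) ↥(H40.chartB (cutOver A E) J) (psiR E hE φ hφ r) := by
  show chartActJ E hE N φ hφ J hJ (chartActJ E hE N φ hφ J hJ _) = _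
  rw [chartActJ, chartEquiv_algebraMap, chartEquiv_algebraMap]
  rfl

set_option maxHeartbeats 3200000 in
/-- **`hΦπ`** for `ΨB`. -/
theorem dvd_psiB_pi (φ : Qbar ≃ₐ[ℚ] Qbar) (hφ : φ ∈ A.decompositionSubgroup ℚ)
    (J : modularFunctionFieldFullC ↥E N) (hJ : galActFullC E hE N φ J = J)
    (π : cutOver A E) (hπ : maximalIdeal (cutOver A E) = Ideal.span {π}) :
    algebraMap (cutOver A E) ↥(H40.chartB (cutOver A E) J) π ∣
      psiB E hE N φ hφ J hJ (algebraMap (cutOver A E) ↥(H40.chartB (cutOver A E) J) π) := by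
  obtain ⟨c, hc⟩ := dvd_psiR_pi E hE φ hφ π hπ
  rw [psiB_algebraMap, hc, map_mul]
  exact dvd_mul_right _ _

end ActJ

/-! ### the residue side: `Fr ∘ Fr ∘ σ ∘ σ = (·) ^ (ℓ ^ 2)` -/

section Residue

variable (k : Type) [Field k] (ℓ : ℕ) [hℓ : Fact ℓ.Prime] [CharP k ℓ] (M : ℕ) [NeZero M]

/-- `Fr (σ x) = x ^ ℓ` for `σ` the coefficientwise Frobenius. -/
theorem frobLin_coeffRingAut (σk : k ≃+* k) (hσk : ∀ c, σk c = c ^ ℓ)
    (x : modularFunctionFieldFullC k M) :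
    H36.frobLin k ℓ M (S37.H53.coeffRingAut k M σk x) = x ^ ℓ := by
  haveI : NeZero ℓ := ⟨hℓ.out.ne_zero⟩
  apply Subtype.ext
  rw [H36.coe_frobLin, S37.H53.coe_coeffRingAut_apply, SubmonoidClass.coe_pow,
    S37.H59.pow_char_eq_qExpand_frobenius ℓ]
  congr 1
  refine coeffMap_congr (RingHom.ext fun c => ?_) _
  rw [RingHom.coe_coe, hσk, frobenius_def]

/-- `Fr` commutes with the coefficientwise action. -/
theorem frobLin_coeffRingAut_comm (σk : k ≃+* k) (x : modularFunctionFieldFullC k M) :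
    H36.frobLin k ℓ M (S37.H53.coeffRingAut k M σk x) =
      S37.H53.coeffRingAut k M σk (H36.frobLin k ℓ M x) := by
  haveI : NeZero ℓ := ⟨hℓ.out.ne_zero⟩
  apply Subtype.ext
  rw [H36.coe_frobLin, S37.H53.coe_coeffRingAut_apply, S37.H53.coe_coeffRingAut_apply,
    H36.coe_frobLin, coeffMap_qExpand]

/-- **`Fr (Fr (σ (σ x))) = x ^ (ℓ ^ 2)`.** -/
theorem frobLin_frobLin_coeffRingAut (σk : k ≃+* k) (hσk : ∀ c, σk c = c ^ ℓ)
    (x : modularFunctionFieldFullC k M) :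
    H36.frobLin k ℓ M (H36.frobLin k ℓ M
      (S37.H53.coeffRingAut k M σk (S37.H53.coeffRingAut k M σk x))) = x ^ (ℓ ^ 2) := by
  rw [frobLin_coeffRingAut k ℓ M σk hσk, map_pow, frobLin_coeffRingAut k ℓ M σk hσk, ← pow_mul,
    pow_two]

end Residue

/-! ### the main theorem -/

section Main

variable (M : ℕ) [NeZero M] {ℓ : ℕ} [hℓ : Fact ℓ.Prime] (hℓM : ¬ ℓ ∣ M)
  {A : ValuationSubring Qbar} (hA : A.LiesOverPrime ℓ)

local notation "kA" => IsLocalRing.ResidueField A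
local notation "A₁" => H45.A0 A ℓ
local notation "L₁" => H45.unrCyclo ℓ
local notation "FkM" => modularFunctionFieldFullC (IsLocalRing.ResidueField A) M
local notation "FN" => modularFunctionFieldFullC (H45.unrCyclo ℓ) (ℓ * M)

/-- `Fr (Fr (σ (σ x))) = x ^ (ℓ ^ 2)` at `kA`, `Fr = H55.FrM`. -/
theorem FrM_FrM_coeffRingAut (x : FkM) :
    H55.FrM M A hA (H55.FrM M A hA
      (S37.H53.coeffRingAut kA M (frobEquivResidue hA)
        (S37.H53.coeffRingAut kA M (frobEquivResidue hA) x))) = x ^ (ℓ ^ 2) := by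
  haveI : CharP kA ℓ := S18.H92.charP_residueField A hA
  exact frobLin_frobLin_coeffRingAut kA ℓ M (frobEquivResidue hA) (frobEquivResidue_apply hA) x

/-- **`hW`**: `W (W (PhiD (PhiD r))) = r ^ (ℓ ^ 2)` on `D = integralClosure kA[w] (fullC kA M)`. -/
theorem WR_WR_resRingHom (w : FkM)
    (hw : S37.H53.coeffRingAut kA M (frobEquivResidue hA) w = w)
    (hFrw : H55.FrM M A hA w = w ^ ℓ)
    (r : ↥(integralClosure (Algebra.adjoin kA {w}) FkM)) :
    H55.WR (H55.FrM M A hA) ℓ hFrw (H55.WR (H55.FrM M A hA) ℓ hFrw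
      (resRingHom kA M (frobEquivResidue hA) w hw
        (resRingHom kA M (frobEquivResidue hA) w hw r))) = r ^ (ℓ ^ 2) := by
  apply Subtype.ext
  exact FrM_FrM_coeffRingAut M hA (r : FkM)

/-- the coordinate `w` as an element of `D = integralClosure kA[w] (fullC kA M)`. -/
def wD (w : FkM) : ↥(integralClosure (Algebra.adjoin kA {w}) FkM) :=
  ⟨w, isIntegral_algebraMap (R := ↥(Algebra.adjoin kA {w}))
    (x := ⟨w, Algebra.subset_adjoin (Set.mem_singleton w)⟩)⟩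

/-- `W ∘ W` moves `w` (transcendental). -/
theorem WR_WR_ne (w : FkM) (hFrw : H55.FrM M A hA w = w ^ ℓ) (hwtr : Transcendental kA w) :
    H55.WR (H55.FrM M A hA) ℓ hFrw (H55.WR (H55.FrM M A hA) ℓ hFrw (wD M w)) ≠ wD M w := by
  intro h
  have h1 : H55.FrM M A hA (H55.FrM M A hA w) = w :=
    congrArg (fun z : ↥(integralClosure (Algebra.adjoin kA {w}) FkM) => (z : FkM)) h
  rw [hFrw, map_pow, hFrw, ← pow_mul] at h1
  -- `w ^ (ℓ * ℓ) = w` contradicts transcendence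
  have h2 : 1 < ℓ * ℓ := by
    have := hℓ.out.two_le
    nlinarith
  apply hwtr
  refine ⟨Polynomial.X ^ (ℓ * ℓ) - Polynomial.X, FiniteField.X_pow_card_sub_X_ne_zero kA h2, ?_⟩
  simp only [map_sub, map_pow, Polynomial.aeval_X]
  rw [h1, sub_self]

/-- the `A₁`-chart lies in the valuation ring of a place containing its coordinate. -/
theorem chartB_le_PO1 {ι' : ↥(H92.VM M hℓM A hA) →+* LaurentSeries kA} {θb : LaurentSeries kA}
    (P : H55.PlaceGen M hℓM A hA ι' θb)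
    (hconst : ∀ r : A₁, algebraMap A₁ FN r ∈ H55.PO1 M hℓM A hA P) {u : FN}
    (hu : u ∈ H55.PO1 M hℓM A hA P) (b : ↥(H40.chartB A₁ u)) :
    (b : FN) ∈ H55.PO1 M hℓM A hA P :=
  S18.H55T.mem_of_isIntegral_adjoin_of_closed _ (H55.PO1_closed M hℓM A hA P) hconst hu
    (H40.mem_chartB.1 b.2)

end Main

/-! ### the intertwining at the `E`-level charts and `ChartFrob` -/

section MainE

variable (M : ℕ) [NeZero M] {ℓ : ℕ} [hℓ : Fact ℓ.Prime] (hℓM : ¬ ℓ ∣ M)
  {A : ValuationSubring Qbar} (hA : A.LiesOverPrime ℓ)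
variable (E : IntermediateField (unrCyclo ℓ) Qbar) [FiniteDimensional (unrCyclo ℓ) E]
variable (hE : ∀ (τ : Qbar ≃ₐ[ℚ] Qbar) (x : Qbar), x ∈ E → τ x ∈ E)

local notation "kA" => IsLocalRing.ResidueField A
local notation "A₁" => H45.A0 A ℓ
local notation "L₁" => H45.unrCyclo ℓ
local notation "FkM" => modularFunctionFieldFullC (IsLocalRing.ResidueField A) M
local notation "FN" => modularFunctionFieldFullC (H45.unrCyclo ℓ) (ℓ * M)
set_option quotPrecheck false in
local notation "FE" => modularFunctionFieldFullC (↥E) (ℓ * M)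

set_option maxHeartbeats 3200000 in
/-- **two-step intertwining at the `A₁`-level**, at `P_∞`. -/
theorem red_chartActA0_sq_infty {φ : Qbar ≃ₐ[ℚ] Qbar} (hF : A.IsFrobeniusAt φ ℓ)
    (Pi : H55.PlaceInf M hℓM A hA)
    (u : FN) (hu : S37.H53.coeffRingAut L₁ (ℓ * M) (galActK1 ℓ φ) u = u)
    (hui : u ∈ H55.PO1 M hℓM A hA Pi)
    (w : FkM) (hw : S37.H53.coeffRingAut kA M (frobEquivResidue hA) w = w)
    (red : ↥(H40.chartB A₁ u) →+* ↥(integralClosure (Algebra.adjoin kA {w}) FkM))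
    (hspec : ∀ (b : ↥(H40.chartB A₁ u)) (h : (b : FN) ∈ H55.PO1 M hℓM A hA Pi),
      H55.inclk M A ((red b : ↥(integralClosure (Algebra.adjoin kA {w}) FkM)) : FkM) =
        H55.Pres1 M hℓM A hA Pi ⟨b, h⟩)
    (b : ↥(H40.chartB A₁ u)) :
    red (chartActA0 (ℓ * M) φ hF.mem_decompositionSubgroup u hu
        (chartActA0 (ℓ * M) φ hF.mem_decompositionSubgroup u hu b)) =
      resRingHom kA M (frobEquivResidue hA) w hw
        (resRingHom kA M (frobEquivResidue hA) w hw (red b)) := by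
  have k := red_chartActA0_infty M hℓM hA φ hF.mem_decompositionSubgroup (frobEquivResidue hA)
    (resA0_galActA0_eq_frobEquivResidue hA hF)
  have hBO : ∀ b : ↥(H40.chartB A₁ u), (b : FN) ∈ H55.PO1 M hℓM A hA Pi :=
    chartB_le_PO1 M hℓM hA Pi (fun r => (H55.hconsti M hℓM A hA Pi r).1) hui
  have k1 := k Pi u hu w hw red hBO (fun b h => hspec b h)
  rw [k1, k1]

set_option maxHeartbeats 3200000 in
/-- **two-step intertwining at the `A₁`-level**, at `P_0`. -/
theorem red_chartActA0_sq_zero {φ : Qbar ≃ₐ[ℚ] Qbar} (hF : A.IsFrobeniusAt φ ℓ)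
    (P0 : H55.PlaceZero M hℓM A hA)
    (u : FN) (hu : S37.H53.coeffRingAut L₁ (ℓ * M) (galActK1 ℓ φ) u = u)
    (hu0 : u ∈ H55.PO1 M hℓM A hA P0)
    (w : FkM) (hw : S37.H53.coeffRingAut kA M (frobEquivResidue hA) w = w)
    (red : ↥(H40.chartB A₁ u) →+* ↥(integralClosure (Algebra.adjoin kA {w}) FkM))
    (hspec : ∀ (b : ↥(H40.chartB A₁ u)) (h : (b : FN) ∈ H55.PO1 M hℓM A hA P0),
      H55.inclk M A ((red b : ↥(integralClosure (Algebra.adjoin kA {w}) FkM)) : FkM) =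
        H55.Pres1 M hℓM A hA P0 ⟨b, h⟩)
    (b : ↥(H40.chartB A₁ u)) :
    red (chartActA0 (ℓ * M) φ hF.mem_decompositionSubgroup u hu
        (chartActA0 (ℓ * M) φ hF.mem_decompositionSubgroup u hu b)) =
      resRingHom kA M (frobEquivResidue hA) w hw
        (resRingHom kA M (frobEquivResidue hA) w hw (red b)) := by
  have k := red_chartActA0_zero M hℓM hA φ hF.mem_decompositionSubgroup (frobEquivResidue hA)
    (resA0_galActA0_eq_frobEquivResidue hA hF)
  have hBO : ∀ b : ↥(H40.chartB A₁ u), (b : FN) ∈ H55.PO1 M hℓM A hA P0 :=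
    chartB_le_PO1 M hℓM hA P0 (fun r => (H55.hconst0 M hℓM A hA P0 r).1) hu0
  have k1 := k P0 u hu w hw red hBO (fun b h => hspec b h)
  rw [k1, k1]

set_option maxHeartbeats 3200000 in
include hA in
/-- **`B'' = ψ(B₁) + π B''`** for `ψ = H95.chartBC`, from helper40's `(a)'` (`hcl`). -/
theorem exists_chartBC_add_mul (u : FN) (uE : FE) (huE : baseChangeE E (ℓ * M) u = uE)
    (π : cutOver A E) (hπ : maximalIdeal (cutOver A E) = Ideal.span {π})
    (hcl : ∀ z : FE, z ∈ H40.chartB (cutOver A E) uE →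
      z ∈ Subring.closure
        (Set.range (fun b : ↥(H40.chartB A₁ u) => baseChangeE E (ℓ * M) (b : FN)) ∪
          Set.range (algebraMap (cutOver A E) FE)))
    (z : ↥(H40.chartB (cutOver A E) uE)) :
    ∃ b : ↥(H40.chartB A₁ u), ∃ z' : ↥(H40.chartB (cutOver A E) uE),
      z = H95.chartBC (A := A) E (ℓ * M) u uE huE b +
        algebraMap (cutOver A E) ↥(H40.chartB (cutOver A E) uE) π * z' := by
  subst huE
  letI := H70.algChartE (A := A) E (ℓ * M) u
  have hgenR := H70.hgenR_of_forall_mem_closure (A := A) E (ℓ * M) u hcl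
  exact H70.exists_add_mul_of_adjoin_eq_top π (H70.hcomp_inst (A := A) E (ℓ * M) u)
    (H70.h1_inst hℓ.out hA E π hπ) hgenR z

set_option maxHeartbeats 3200000 in
/-- `ΨB ∘ ψ = ψ ∘ Ψ₁` along `ψ = H95.chartBC`. -/
theorem psiB_chartBC (φ : Qbar ≃ₐ[ℚ] Qbar) (hφ : φ ∈ A.decompositionSubgroup ℚ)
    (u : FN) (hu : S37.H53.coeffRingAut L₁ (ℓ * M) (galActK1 ℓ φ) u = u)
    (uE : FE) (huE : baseChangeE E (ℓ * M) u = uE)
    (huEfix : galActFullC E hE (ℓ * M) φ uE = uE) (b : ↥(H40.chartB A₁ u)) :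
    psiB E hE (ℓ * M) φ hφ uE huEfix (H95.chartBC (A := A) E (ℓ * M) u uE huE b) =
      H95.chartBC (A := A) E (ℓ * M) u uE huE
        (chartActA0 (ℓ * M) φ hφ u hu (chartActA0 (ℓ * M) φ hφ u hu b)) := by
  apply Subtype.ext
  show galActFullC E hE (ℓ * M) φ (galActFullC E hE (ℓ * M) φ
      (baseChangeE E (ℓ * M) (b : FN))) = baseChangeE E (ℓ * M) _
  rw [galActFullC_baseChangeE, galActFullC_baseChangeE]
  rfl

set_option maxHeartbeats 3200000 in
/-- **`h1Ψ`**: the first reduction of an `E`-level chart intertwines `ΨB` with `PhiD ∘ PhiD`,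
as soon as it extends the restriction of the `P_∞`-reduction to the `A₁`-chart. -/
theorem red_psiB_infty {φ : Qbar ≃ₐ[ℚ] Qbar} (hF : A.IsFrobeniusAt φ ℓ)
    (Pi : H55.PlaceInf M hℓM A hA)
    (u : FN) (hu : S37.H53.coeffRingAut L₁ (ℓ * M) (galActK1 ℓ φ) u = u)
    (hui : u ∈ H55.PO1 M hℓM A hA Pi)
    (w : FkM) (hw : S37.H53.coeffRingAut kA M (frobEquivResidue hA) w = w)
    (red : ↥(H40.chartB A₁ u) →+* ↥(integralClosure (Algebra.adjoin kA {w}) FkM))
    (hspec : ∀ (b : ↥(H40.chartB A₁ u)) (h : (b : FN) ∈ H55.PO1 M hℓM A hA Pi),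
      H55.inclk M A ((red b : ↥(integralClosure (Algebra.adjoin kA {w}) FkM)) : FkM) =
        H55.Pres1 M hℓM A hA Pi ⟨b, h⟩)
    (uE : FE) (huE : baseChangeE E (ℓ * M) u = uE)
    (huEfix : galActFullC E hE (ℓ * M) φ uE = uE)
    (π : cutOver A E) (hπ : maximalIdeal (cutOver A E) = Ideal.span {π})
    (hcl : ∀ z : FE, z ∈ H40.chartB (cutOver A E) uE →
      z ∈ Subring.closure
        (Set.range (fun b : ↥(H40.chartB A₁ u) => baseChangeE E (ℓ * M) (b : FN)) ∪
          Set.range (algebraMap (cutOver A E) FE)))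
    (red'' : ↥(H40.chartB (cutOver A E) uE) →+*
      ↥(integralClosure (Algebra.adjoin kA {w}) FkM))
    (hcomp : ∀ b, red'' (H95.chartBC (A := A) E (ℓ * M) u uE huE b) = red b)
    (hπ'' : red'' (algebraMap (cutOver A E) ↥(H40.chartB (cutOver A E) uE) π) = 0)
    (z : ↥(H40.chartB (cutOver A E) uE)) :
    red'' (psiB E hE (ℓ * M) φ hF.mem_decompositionSubgroup uE huEfix z) =
      resRingHom kA M (frobEquivResidue hA) w hw
        (resRingHom kA M (frobEquivResidue hA) w hw (red'' z)) := by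
  have hφ := hF.mem_decompositionSubgroup
  have hΦπB : algebraMap (cutOver A E) ↥(H40.chartB (cutOver A E) uE) π ∣
      (psiB E hE (ℓ * M) φ hφ uE huEfix : ↥(H40.chartB (cutOver A E) uE) →+* _)
        (algebraMap (cutOver A E) ↥(H40.chartB (cutOver A E) uE) π) :=
    dvd_psiB_pi E hE (ℓ * M) φ hφ uE huEfix π hπ
  exact map_of_extends (H95.chartBC (A := A) E (ℓ * M) u uE huE)
    (algebraMap (cutOver A E) ↥(H40.chartB (cutOver A E) uE) π)
    (exists_chartBC_add_mul M hA E u uE huE π hπ hcl) red'' hπ''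
    (psiB E hE (ℓ * M) φ hφ uE huEfix : ↥(H40.chartB (cutOver A E) uE) →+* _)
    (((chartActA0 (ℓ * M) φ hφ u hu).trans (chartActA0 (ℓ * M) φ hφ u hu) :
      ↥(H40.chartB A₁ u) ≃+* ↥(H40.chartB A₁ u)) : ↥(H40.chartB A₁ u) →+* ↥(H40.chartB A₁ u))
    ((resRingHom kA M (frobEquivResidue hA) w hw).comp
      (resRingHom kA M (frobEquivResidue hA) w hw))
    (fun b => psiB_chartBC M E hE φ hφ u hu uE huE huEfix b) hΦπB
    (fun b => by
      rw [hcomp, hcomp]
      exact red_chartActA0_sq_infty M hℓM hA hF Pi u hu hui w hw red hspec b) z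

set_option maxHeartbeats 3200000 in
/-- **`h2Ψ`**: the same for the second reduction (`P_0`). -/
theorem red_psiB_zero {φ : Qbar ≃ₐ[ℚ] Qbar} (hF : A.IsFrobeniusAt φ ℓ)
    (P0 : H55.PlaceZero M hℓM A hA)
    (u : FN) (hu : S37.H53.coeffRingAut L₁ (ℓ * M) (galActK1 ℓ φ) u = u)
    (hu0 : u ∈ H55.PO1 M hℓM A hA P0)
    (w : FkM) (hw : S37.H53.coeffRingAut kA M (frobEquivResidue hA) w = w)
    (red : ↥(H40.chartB A₁ u) →+* ↥(integralClosure (Algebra.adjoin kA {w}) FkM))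
    (hspec : ∀ (b : ↥(H40.chartB A₁ u)) (h : (b : FN) ∈ H55.PO1 M hℓM A hA P0),
      H55.inclk M A ((red b : ↥(integralClosure (Algebra.adjoin kA {w}) FkM)) : FkM) =
        H55.Pres1 M hℓM A hA P0 ⟨b, h⟩)
    (uE : FE) (huE : baseChangeE E (ℓ * M) u = uE)
    (huEfix : galActFullC E hE (ℓ * M) φ uE = uE)
    (π : cutOver A E) (hπ : maximalIdeal (cutOver A E) = Ideal.span {π})
    (hcl : ∀ z : FE, z ∈ H40.chartB (cutOver A E) uE →
      z ∈ Subring.closure
        (Set.range (fun b : ↥(H40.chartB A₁ u) => baseChangeE E (ℓ * M) (b : FN)) ∪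
          Set.range (algebraMap (cutOver A E) FE)))
    (red'' : ↥(H40.chartB (cutOver A E) uE) →+*
      ↥(integralClosure (Algebra.adjoin kA {w}) FkM))
    (hcomp : ∀ b, red'' (H95.chartBC (A := A) E (ℓ * M) u uE huE b) = red b)
    (hπ'' : red'' (algebraMap (cutOver A E) ↥(H40.chartB (cutOver A E) uE) π) = 0)
    (z : ↥(H40.chartB (cutOver A E) uE)) :
    red'' (psiB E hE (ℓ * M) φ hF.mem_decompositionSubgroup uE huEfix z) =
      resRingHom kA M (frobEquivResidue hA) w hw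
        (resRingHom kA M (frobEquivResidue hA) w hw (red'' z)) := by
  have hφ := hF.mem_decompositionSubgroup
  have hΦπB : algebraMap (cutOver A E) ↥(H40.chartB (cutOver A E) uE) π ∣
      (psiB E hE (ℓ * M) φ hφ uE huEfix : ↥(H40.chartB (cutOver A E) uE) →+* _)
        (algebraMap (cutOver A E) ↥(H40.chartB (cutOver A E) uE) π) :=
    dvd_psiB_pi E hE (ℓ * M) φ hφ uE huEfix π hπ
  exact map_of_extends (H95.chartBC (A := A) E (ℓ * M) u uE huE)
    (algebraMap (cutOver A E) ↥(H40.chartB (cutOver A E) uE) π)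
    (exists_chartBC_add_mul M hA E u uE huE π hπ hcl) red'' hπ''
    (psiB E hE (ℓ * M) φ hφ uE huEfix : ↥(H40.chartB (cutOver A E) uE) →+* _)
    (((chartActA0 (ℓ * M) φ hφ u hu).trans (chartActA0 (ℓ * M) φ hφ u hu) :
      ↥(H40.chartB A₁ u) ≃+* ↥(H40.chartB A₁ u)) : ↥(H40.chartB A₁ u) →+* ↥(H40.chartB A₁ u))
    ((resRingHom kA M (frobEquivResidue hA) w hw).comp
      (resRingHom kA M (frobEquivResidue hA) w hw))
    (fun b => psiB_chartBC M E hE φ hφ u hu uE huE huEfix b) hΦπB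
    (fun b => by
      rw [hcomp, hcomp]
      exact red_chartActA0_sq_zero M hℓM hA hF P0 u hu hu0 w hw red hspec b) z

end MainE

end Fermat.Agent.S35.H27
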