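import Mathlib
import Fermat.Agent.S35.H27_ChartFrobE
import Fermat.Agent.S34.H55_L0Consumed
import Fermat.Agent.S34.H40_BaseChangeJK

/-!
# S35 / E1 (helper27): the G1 facts of `H18.geoFnEN_of_twoComponents` at the pinned charts

Level `N = ℓ * M` (`ℓ ∤ M`), `J₁ = H55.JN M = j · j_ℓ ∈ fullC K₁ N`, `J_E = H95.JK ↥E N ℓ _`,
`B₁E = chartB (cutOver A E) J_E`, `B₂E = chartB (cutOver A E) J_E⁻¹`, `φ` a Frobenius element at `A`,
`Φ = galActFullC E hE N φ`.  With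

* `ΨB₁ := psiB_JK`, `ΨB₂ := psiB_JK_inv`, `ΨR := psiR E hE φ _`,
* `ΨD₁ := psiD_jK`, `ΨD₂ := psiD_jK_inv` (coefficientwise Frobenius twice on
  `D₁ = integralClosure kA[j̄] (fullC kA M)`, `D₂ = integralClosure kA[j̄⁻¹] (fullC kA M)`),

the hypotheses `hΨ_i hΨR_i hΨπ hinj_ik h1Ψ_i h2Ψ_i hW_i hFrobR` of helper18's
`H18.geoFnEN_of_twoComponents` (at `N := ℓ * M`) are:

* `hΨ_i`   : `fun _ => rfl` (`algebraMap_psiB_JK`, `algebraMap_psiB_JK_inv`);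
* `hΨR_i`  : `psiB_algebraMap`;  `hΨπ` : `dvd_psiR_pi`;  `hFrobR` : `dvd_psiR_sub_pow`;
* `hinj_ik`: `psiD_jK_injective`, `psiD_jK_inv_injective`;
* `hW_i`   : `WR_WR_psiD_jK`, `WR_WR_psiD_jK_inv`;
* `h1Ψ_i h2Ψ_i` : `red_psiB_JK_infty`, `red_psiB_JK_zero`, `red_psiB_JK_inv_infty`,
  `red_psiB_JK_inv_zero`, for ANY `E`-level reductions `red''` extending (along `H95.chartBC`)
  the `A₁`-level reductions of `H55.twoComponents_JK(_inv)` and killing `π`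
  (= the output of helper70's `H70.exists_twoComponents_chartBC`).
-/

set_option autoImplicit false
set_option linter.unusedSectionVars false
set_option linter.style.haveILetI false
set_option synthInstance.maxHeartbeats 400000

noncomputable section

namespace Fermat.Agent.S35.H27

open ModularCurve IsLocalRing Fermat.Agent.S28
open Fermat.Agent.S18 Fermat.Agent.S18.H45 Fermat.Agent.S34

local notation "Qbar" => AlgebraicClosure ℚ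

/-- `Φ` fixes `J_E = j · j_q`. -/
theorem galActFullC_JK {ℓ : ℕ} (E : IntermediateField (unrCyclo ℓ) Qbar)
    (hE : ∀ (τ : Qbar ≃ₐ[ℚ] Qbar) (x : Qbar), x ∈ E → τ x ∈ E)
    (N : ℕ) [NeZero N] (q : ℕ) [NeZero q] (hq : q ∣ N) (τ : Qbar ≃ₐ[ℚ] Qbar) :
    galActFullC E hE N τ (H95.JK ↥E N q hq) = H95.JK ↥E N q hq :=
  coeffRingAut_JK ↥E N q hq (galActE E hE τ)

/-- `Φ` fixes `J_E⁻¹`. -/
theorem galActFullC_JK_inv {ℓ : ℕ} (E : IntermediateField (unrCyclo ℓ) Qbar)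
    (hE : ∀ (τ : Qbar ≃ₐ[ℚ] Qbar) (x : Qbar), x ∈ E → τ x ∈ E)
    (N : ℕ) [NeZero N] (q : ℕ) [NeZero q] (hq : q ∣ N) (τ : Qbar ≃ₐ[ℚ] Qbar) :
    galActFullC E hE N τ (H95.JK ↥E N q hq)⁻¹ = (H95.JK ↥E N q hq)⁻¹ :=
  coeffRingAut_JK_inv ↥E N q hq (galActE E hE τ)

section JK

variable (M : ℕ) [NeZero M] {ℓ : ℕ} [hℓ : Fact ℓ.Prime] (hℓM : ¬ ℓ ∣ M)
  {A : ValuationSubring Qbar} (hA : A.LiesOverPrime ℓ)
variable (E : IntermediateField (unrCyclo ℓ) Qbar) [FiniteDimensional (unrCyclo ℓ) E]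
variable (hE : ∀ (τ : Qbar ≃ₐ[ℚ] Qbar) (x : Qbar), x ∈ E → τ x ∈ E)

local notation "kA" => IsLocalRing.ResidueField A
local notation "A₁" => H45.A0 A ℓ
local notation "L₁" => H45.unrCyclo ℓ
local notation "FkM" => modularFunctionFieldFullC (IsLocalRing.ResidueField A) M
local notation "FN" => modularFunctionFieldFullC (H45.unrCyclo ℓ) (ℓ * M)
set_option quotPrecheck false in
local notation "FE" => modularFunctionFieldFullC (↥E) (ℓ * M)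
set_option quotPrecheck false in
local notation "JE" => H95.JK (↥E) (ℓ * M) ℓ (Dvd.intro M rfl)
local notation "D₁" => integralClosure
  (Algebra.adjoin (IsLocalRing.ResidueField A) {S18.H16.jK (IsLocalRing.ResidueField A) M})
  (modularFunctionFieldFullC (IsLocalRing.ResidueField A) M)
local notation "D₂" => integralClosure
  (Algebra.adjoin (IsLocalRing.ResidueField A) {(S18.H16.jK (IsLocalRing.ResidueField A) M)⁻¹})
  (modularFunctionFieldFullC (IsLocalRing.ResidueField A) M)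

/-! ### the data -/

/-- **`ΨB₁`** on `B₁E = chartB (cutOver A E) J_E`. -/
def psiB_JK (φ : Qbar ≃ₐ[ℚ] Qbar) (hφ : φ ∈ A.decompositionSubgroup ℚ) :
    ↥(H40.chartB (cutOver A E) JE) ≃+* ↥(H40.chartB (cutOver A E) JE) :=
  psiB E hE (ℓ * M) φ hφ JE (galActFullC_JK E hE (ℓ * M) ℓ (Dvd.intro M rfl) φ)

/-- **`ΨB₂`** on `B₂E = chartB (cutOver A E) J_E⁻¹`. -/
def psiB_JK_inv (φ : Qbar ≃ₐ[ℚ] Qbar) (hφ : φ ∈ A.decompositionSubgroup ℚ) :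
    ↥(H40.chartB (cutOver A E) JE⁻¹) ≃+* ↥(H40.chartB (cutOver A E) JE⁻¹) :=
  psiB E hE (ℓ * M) φ hφ JE⁻¹ (galActFullC_JK_inv E hE (ℓ * M) ℓ (Dvd.intro M rfl) φ)

/-- **`hΨ₁`**. -/
theorem algebraMap_psiB_JK (φ : Qbar ≃ₐ[ℚ] Qbar) (hφ : φ ∈ A.decompositionSubgroup ℚ)
    (b : ↥(H40.chartB (cutOver A E) JE)) :
    galActFullC E hE (ℓ * M) φ (galActFullC E hE (ℓ * M) φ
      (algebraMap ↥(H40.chartB (cutOver A E) JE) FE b)) =
      algebraMap ↥(H40.chartB (cutOver A E) JE) FE (psiB_JK M E hE φ hφ b) := rfl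

/-- **`hΨ₂`**. -/
theorem algebraMap_psiB_JK_inv (φ : Qbar ≃ₐ[ℚ] Qbar) (hφ : φ ∈ A.decompositionSubgroup ℚ)
    (b : ↥(H40.chartB (cutOver A E) JE⁻¹)) :
    galActFullC E hE (ℓ * M) φ (galActFullC E hE (ℓ * M) φ
      (algebraMap ↥(H40.chartB (cutOver A E) JE⁻¹) FE b)) =
      algebraMap ↥(H40.chartB (cutOver A E) JE⁻¹) FE (psiB_JK_inv M E hE φ hφ b) := rfl

/-- **`ΨD₁`**: coefficientwise Frobenius twice on `D₁`. -/
def psiD_jK : ↥D₁ →+* ↥D₁ :=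
  (resRingHom kA M (frobEquivResidue hA) (S18.H16.jK kA M)
      (coeffRingAut_jK kA M (frobEquivResidue hA))).comp
    (resRingHom kA M (frobEquivResidue hA) (S18.H16.jK kA M)
      (coeffRingAut_jK kA M (frobEquivResidue hA)))

/-- **`ΨD₂`**: coefficientwise Frobenius twice on `D₂`. -/
def psiD_jK_inv : ↥D₂ →+* ↥D₂ :=
  (resRingHom kA M (frobEquivResidue hA) (S18.H16.jK kA M)⁻¹
      (coeffRingAut_jK_inv kA M (frobEquivResidue hA))).comp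
    (resRingHom kA M (frobEquivResidue hA) (S18.H16.jK kA M)⁻¹
      (coeffRingAut_jK_inv kA M (frobEquivResidue hA)))

theorem psiD_jK_injective : Function.Injective (psiD_jK M hA) :=
  (resRingHom_injective kA M (frobEquivResidue hA) (S18.H16.jK kA M)
      (coeffRingAut_jK kA M (frobEquivResidue hA))).comp
    (resRingHom_injective kA M (frobEquivResidue hA) (S18.H16.jK kA M)
      (coeffRingAut_jK kA M (frobEquivResidue hA)))

theorem psiD_jK_inv_injective : Function.Injective (psiD_jK_inv M hA) :=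
  (resRingHom_injective kA M (frobEquivResidue hA) (S18.H16.jK kA M)⁻¹
      (coeffRingAut_jK_inv kA M (frobEquivResidue hA))).comp
    (resRingHom_injective kA M (frobEquivResidue hA) (S18.H16.jK kA M)⁻¹
      (coeffRingAut_jK_inv kA M (frobEquivResidue hA)))

/-- **`hW₁`**. -/
theorem WR_WR_psiD_jK (r : ↥D₁) :
    H55.WR (H55.FrM M A hA) ℓ (H55.hFrx M A hA)
      (H55.WR (H55.FrM M A hA) ℓ (H55.hFrx M A hA) (psiD_jK M hA r)) = r ^ (ℓ ^ 2) :=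
  WR_WR_resRingHom M hA _ _ _ r

/-- **`hW₂`**. -/
theorem WR_WR_psiD_jK_inv (r : ↥D₂) :
    H55.WR (H55.FrM M A hA) ℓ (H55.hFrx_inv M A hA)
      (H55.WR (H55.FrM M A hA) ℓ (H55.hFrx_inv M A hA) (psiD_jK_inv M hA r)) = r ^ (ℓ ^ 2) :=
  WR_WR_resRingHom M hA _ _ _ r

/-! ### `h1Ψ`, `h2Ψ` at the two pinned charts -/

set_option maxHeartbeats 3200000 in
include hℓM hA in
/-- helper40's `(a)'` at `J`, one direction (`hcl` of `red_psiB_infty`). -/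
theorem hcl_JK (z : FE) (hz : z ∈ H40.chartB (cutOver A E) JE) :
    z ∈ Subring.closure
      (Set.range (fun b : ↥(H40.chartB A₁ (H55.JN M (ℓ := ℓ))) =>
          baseChangeE E (ℓ * M) (b : FN)) ∪
        Set.range (algebraMap (cutOver A E) FE)) :=
  (H40.mem_chartB_JK_iff hℓ.out hA E (ℓ * M) ℓ (Dvd.intro M rfl)
    (H55.hradB₁_final M hℓM A hA) z).mp hz

set_option maxHeartbeats 3200000 in
include hℓM hA in
/-- helper40's `(a)'` at `J⁻¹`, one direction. -/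
theorem hcl_JK_inv (z : FE) (hz : z ∈ H40.chartB (cutOver A E) JE⁻¹) :
    z ∈ Subring.closure
      (Set.range (fun b : ↥(H40.chartB A₁ (H55.JN M (ℓ := ℓ))⁻¹) =>
          baseChangeE E (ℓ * M) (b : FN)) ∪
        Set.range (algebraMap (cutOver A E) FE)) :=
  (H40.mem_chartB_JK_inv_iff hℓ.out hA E (ℓ * M) ℓ (Dvd.intro M rfl)
    (H55.hradB₂_final M hℓM A hA) z).mp hz

set_option maxHeartbeats 3200000 in
/-- **`h1Ψ₁`** (chart `J`, component `P_∞`). -/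
theorem red_psiB_JK_infty {φ : Qbar ≃ₐ[ℚ] Qbar} (hF : A.IsFrobeniusAt φ ℓ)
    (Pi : H55.PlaceInf M hℓM A hA)
    (red : ↥(H40.chartB A₁ (H55.JN M (ℓ := ℓ))) →+* ↥D₁)
    (hspec : ∀ (b : ↥(H40.chartB A₁ (H55.JN M (ℓ := ℓ))))
      (h : (b : FN) ∈ H55.PO1 M hℓM A hA Pi),
      H55.inclk M A ((red b : ↥D₁) : FkM) = H55.Pres1 M hℓM A hA Pi ⟨b, h⟩)
    (π : cutOver A E) (hπ : maximalIdeal (cutOver A E) = Ideal.span {π})
    (red'' : ↥(H40.chartB (cutOver A E) JE) →+* ↥D₁)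
    (hcomp : ∀ b, red'' (H95.chartBC (A := A) E (ℓ * M) (H55.JN M (ℓ := ℓ)) JE
      (H95.baseChangeE_JK E (ℓ * M) ℓ (Dvd.intro M rfl)) b) = red b)
    (hπ'' : red'' (algebraMap (cutOver A E) ↥(H40.chartB (cutOver A E) JE) π) = 0)
    (z : ↥(H40.chartB (cutOver A E) JE)) :
    red'' (psiB_JK M E hE φ hF.mem_decompositionSubgroup z) = psiD_jK M hA (red'' z) :=
  red_psiB_infty M hℓM hA E hE hF Pi (H55.JN M (ℓ := ℓ))
    (coeffRingAut_JK L₁ (ℓ * M) ℓ (Dvd.intro M rfl) (galActK1 ℓ φ))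
    (S34.H99.hu_hw_JK_infty M hℓM A hA Pi).fst
    (S18.H16.jK kA M) (coeffRingAut_jK kA M (frobEquivResidue hA)) red hspec JE
    (H95.baseChangeE_JK E (ℓ * M) ℓ (Dvd.intro M rfl))
    (galActFullC_JK E hE (ℓ * M) ℓ (Dvd.intro M rfl) φ) π hπ
    (hcl_JK M hℓM hA E) red'' hcomp hπ'' z

set_option maxHeartbeats 3200000 in
/-- **`h2Ψ₁`** (chart `J`, component `P_0`). -/
theorem red_psiB_JK_zero {φ : Qbar ≃ₐ[ℚ] Qbar} (hF : A.IsFrobeniusAt φ ℓ)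
    (P0 : H55.PlaceZero M hℓM A hA)
    (red : ↥(H40.chartB A₁ (H55.JN M (ℓ := ℓ))) →+* ↥D₁)
    (hspec : ∀ (b : ↥(H40.chartB A₁ (H55.JN M (ℓ := ℓ))))
      (h : (b : FN) ∈ H55.PO1 M hℓM A hA P0),
      H55.inclk M A ((red b : ↥D₁) : FkM) = H55.Pres1 M hℓM A hA P0 ⟨b, h⟩)
    (π : cutOver A E) (hπ : maximalIdeal (cutOver A E) = Ideal.span {π})
    (red'' : ↥(H40.chartB (cutOver A E) JE) →+* ↥D₁)
    (hcomp : ∀ b, red'' (H95.chartBC (A := A) E (ℓ * M) (H55.JN M (ℓ := ℓ)) JE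
      (H95.baseChangeE_JK E (ℓ * M) ℓ (Dvd.intro M rfl)) b) = red b)
    (hπ'' : red'' (algebraMap (cutOver A E) ↥(H40.chartB (cutOver A E) JE) π) = 0)
    (z : ↥(H40.chartB (cutOver A E) JE)) :
    red'' (psiB_JK M E hE φ hF.mem_decompositionSubgroup z) = psiD_jK M hA (red'' z) :=
  red_psiB_zero M hℓM hA E hE hF P0 (H55.JN M (ℓ := ℓ))
    (coeffRingAut_JK L₁ (ℓ * M) ℓ (Dvd.intro M rfl) (galActK1 ℓ φ))
    (S34.H99.hu_hw_JK_zero M hℓM A hA P0).fst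
    (S18.H16.jK kA M) (coeffRingAut_jK kA M (frobEquivResidue hA)) red hspec JE
    (H95.baseChangeE_JK E (ℓ * M) ℓ (Dvd.intro M rfl))
    (galActFullC_JK E hE (ℓ * M) ℓ (Dvd.intro M rfl) φ) π hπ
    (hcl_JK M hℓM hA E) red'' hcomp hπ'' z

set_option maxHeartbeats 3200000 in
/-- **`h1Ψ₂`** (chart `J⁻¹`, component `P_∞`). -/
theorem red_psiB_JK_inv_infty {φ : Qbar ≃ₐ[ℚ] Qbar} (hF : A.IsFrobeniusAt φ ℓ)
    (Pi : H55.PlaceInf M hℓM A hA)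
    (red : ↥(H40.chartB A₁ (H55.JN M (ℓ := ℓ))⁻¹) →+* ↥D₂)
    (hspec : ∀ (b : ↥(H40.chartB A₁ (H55.JN M (ℓ := ℓ))⁻¹))
      (h : (b : FN) ∈ H55.PO1 M hℓM A hA Pi),
      H55.inclk M A ((red b : ↥D₂) : FkM) = H55.Pres1 M hℓM A hA Pi ⟨b, h⟩)
    (π : cutOver A E) (hπ : maximalIdeal (cutOver A E) = Ideal.span {π})
    (red'' : ↥(H40.chartB (cutOver A E) JE⁻¹) →+* ↥D₂)
    (hcomp : ∀ b, red'' (H95.chartBC (A := A) E (ℓ * M) (H55.JN M (ℓ := ℓ))⁻¹ JE⁻¹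
      (H95.baseChangeE_JK_inv E (ℓ * M) ℓ (Dvd.intro M rfl)) b) = red b)
    (hπ'' : red'' (algebraMap (cutOver A E) ↥(H40.chartB (cutOver A E) JE⁻¹) π) = 0)
    (z : ↥(H40.chartB (cutOver A E) JE⁻¹)) :
    red'' (psiB_JK_inv M E hE φ hF.mem_decompositionSubgroup z) =
      psiD_jK_inv M hA (red'' z) :=
  red_psiB_infty M hℓM hA E hE hF Pi (H55.JN M (ℓ := ℓ))⁻¹
    (coeffRingAut_JK_inv L₁ (ℓ * M) ℓ (Dvd.intro M rfl) (galActK1 ℓ φ))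
    (S34.H99.hu_hw_JK_inv_infty M hℓM A hA Pi).fst
    (S18.H16.jK kA M)⁻¹ (coeffRingAut_jK_inv kA M (frobEquivResidue hA)) red hspec JE⁻¹
    (H95.baseChangeE_JK_inv E (ℓ * M) ℓ (Dvd.intro M rfl))
    (galActFullC_JK_inv E hE (ℓ * M) ℓ (Dvd.intro M rfl) φ) π hπ
    (hcl_JK_inv M hℓM hA E) red'' hcomp hπ'' z

set_option maxHeartbeats 3200000 in
/-- **`h2Ψ₂`** (chart `J⁻¹`, component `P_0`). -/
theorem red_psiB_JK_inv_zero {φ : Qbar ≃ₐ[ℚ] Qbar} (hF : A.IsFrobeniusAt φ ℓ)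
    (P0 : H55.PlaceZero M hℓM A hA)
    (red : ↥(H40.chartB A₁ (H55.JN M (ℓ := ℓ))⁻¹) →+* ↥D₂)
    (hspec : ∀ (b : ↥(H40.chartB A₁ (H55.JN M (ℓ := ℓ))⁻¹))
      (h : (b : FN) ∈ H55.PO1 M hℓM A hA P0),
      H55.inclk M A ((red b : ↥D₂) : FkM) = H55.Pres1 M hℓM A hA P0 ⟨b, h⟩)
    (π : cutOver A E) (hπ : maximalIdeal (cutOver A E) = Ideal.span {π})
    (red'' : ↥(H40.chartB (cutOver A E) JE⁻¹) →+* ↥D₂)
    (hcomp : ∀ b, red'' (H95.chartBC (A := A) E (ℓ * M) (H55.JN M (ℓ := ℓ))⁻¹ JE⁻¹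
      (H95.baseChangeE_JK_inv E (ℓ * M) ℓ (Dvd.intro M rfl)) b) = red b)
    (hπ'' : red'' (algebraMap (cutOver A E) ↥(H40.chartB (cutOver A E) JE⁻¹) π) = 0)
    (z : ↥(H40.chartB (cutOver A E) JE⁻¹)) :
    red'' (psiB_JK_inv M E hE φ hF.mem_decompositionSubgroup z) =
      psiD_jK_inv M hA (red'' z) :=
  red_psiB_zero M hℓM hA E hE hF P0 (H55.JN M (ℓ := ℓ))⁻¹
    (coeffRingAut_JK_inv L₁ (ℓ * M) ℓ (Dvd.intro M rfl) (galActK1 ℓ φ))
    (S34.H99.hu_hw_JK_inv_zero M hℓM A hA P0).fst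
    (S18.H16.jK kA M)⁻¹ (coeffRingAut_jK_inv kA M (frobEquivResidue hA)) red hspec JE⁻¹
    (H95.baseChangeE_JK_inv E (ℓ * M) ℓ (Dvd.intro M rfl))
    (galActFullC_JK_inv E hE (ℓ * M) ℓ (Dvd.intro M rfl) φ) π hπ
    (hcl_JK_inv M hℓM hA E) red'' hcomp hπ'' z

end JK

end Fermat.Agent.S35.H27
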