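/-
S35, second clause, step (g3) of helper57's blueprint, ABSTRACT ASSEMBLY (helper46; Mathlib + the definition of `H47.OneU`).

The meeting point of the rows G1b (reduction intertwines `φ` and `φbar`), G3 (norm reduction
(g2)), G6/DESC35 (`N_α f = c h ^ m`, `N_β f = c' h' ^ m`): for `u₁ = Φ f / f`, `u₂ = Φ u₁ / u₁`
(`Φ = φ²`), the residues of `u₂` at the two vertical places lie in the subgroup
`S = kˣ κˣᵐ` of the multiplicative group of the common residue field.

Vocabulary: a `ResPlace F κF` is a subring `O1 ⊆ F` with a reduction `res : O1 →+* κF` such that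
elements with non-zero residue are invertible in `O1` (e.g. `CA.H99.PlaceOver`: fields `O1`,
`res1`, `inv_mem`).  `P.HasRes y s` : "`y ∈ O1` has residue `s ∈ κFˣ`".
-/
import Mathlib
import Fermat.Agent.S34.H47_KummerInduct

set_option autoImplicit false

namespace Fermat.Agent.S35.H46

/-- A subring with a reduction map whose non-vanishing detects units. -/
structure ResPlace (F κF : Type*) [Field F] [Field κF] where
  /-- the ring -/
  O1 : Subring F
  /-- its reduction map -/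
  res : O1 →+* κF
  inv_mem : ∀ (y : F) (hy : y ∈ O1), res ⟨y, hy⟩ ≠ 0 → y⁻¹ ∈ O1

namespace ResPlace

variable {F κF : Type*} [Field F] [Field κF] (P : ResPlace F κF)

/-- `y` lies in the ring and has the (non-zero) residue `s`. -/
def HasRes (y : F) (s : κFˣ) : Prop := ∃ h : y ∈ P.O1, P.res ⟨y, h⟩ = (s : κF)

variable {P}

theorem HasRes.unique {y : F} {s s' : κFˣ} (h : P.HasRes y s) (h' : P.HasRes y s') : s = s' := by
  obtain ⟨h1, h2⟩ := h
  obtain ⟨_, h4⟩ := h'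
  exact Units.ext (h2.symm.trans h4)

theorem hasRes_one : P.HasRes 1 1 :=
  ⟨P.O1.one_mem, by rw [Units.val_one]; exact map_one P.res⟩

theorem HasRes.mul {y z : F} {s t : κFˣ} (hy : P.HasRes y s) (hz : P.HasRes z t) :
    P.HasRes (y * z) (s * t) := by
  obtain ⟨h1, h2⟩ := hy
  obtain ⟨h3, h4⟩ := hz
  refine ⟨P.O1.mul_mem h1 h3, ?_⟩
  have : (⟨y * z, P.O1.mul_mem h1 h3⟩ : P.O1) = ⟨y, h1⟩ * ⟨z, h3⟩ := rfl
  rw [this, map_mul, h2, h4, Units.val_mul]

theorem HasRes.inv {y : F} {s : κFˣ} (hy : P.HasRes y s) : P.HasRes y⁻¹ s⁻¹ := by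
  obtain ⟨h1, h2⟩ := hy
  have hne : P.res ⟨y, h1⟩ ≠ 0 := by rw [h2]; exact s.ne_zero
  have hinv : y⁻¹ ∈ P.O1 := P.inv_mem y h1 hne
  refine ⟨hinv, ?_⟩
  have hy0 : y ≠ 0 := by
    rintro rfl
    apply hne
    have : (⟨0, h1⟩ : P.O1) = 0 := rfl
    rw [this, map_zero]
  have hmul : (⟨y, h1⟩ : P.O1) * ⟨y⁻¹, hinv⟩ = 1 := Subtype.ext (mul_inv_cancel₀ hy0)
  have h3 := congrArg P.res hmul
  rw [map_mul, map_one, h2] at h3
  rw [Units.val_inv_eq_inv_val]
  exact eq_inv_of_mul_eq_one_right h3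

theorem HasRes.div {y z : F} {s t : κFˣ} (hy : P.HasRes y s) (hz : P.HasRes z t) :
    P.HasRes (y / z) (s / t) := by
  rw [div_eq_mul_inv, div_eq_mul_inv]; exact hy.mul hz.inv

theorem HasRes.pow {y : F} {s : κFˣ} (hy : P.HasRes y s) (n : ℕ) : P.HasRes (y ^ n) (s ^ n) := by
  induction n with
  | zero => rw [pow_zero, pow_zero]; exact hasRes_one
  | succ n ih => rw [pow_succ, pow_succ]; exact ih.mul hy

theorem HasRes.ne_zero {y : F} {s : κFˣ} (hy : P.HasRes y s) : y ≠ 0 := by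
  obtain ⟨h1, h2⟩ := hy
  rintro rfl
  have : (⟨0, h1⟩ : P.O1) = 0 := rfl
  rw [this, map_zero] at h2
  exact s.ne_zero h2.symm

end ResPlace

section Assembly

variable {F FM κF : Type*} [Field F] [Field FM] [Field κF]

/-- the norm of the ratio `Φ f / f` when `N f = c h ^ m`. -/
theorem hasRes_norm_ratio {PM : ResPlace FM κF} (Φ : F ≃+* F) (ΦM : FM ≃+* FM) (N : F →* FM)
    (hNΦ : ∀ x, N (Φ x) = ΦM (N x)) {f : F} (hf : f ≠ 0) {c h : FM} {m : ℕ}
    (hc0 : c ≠ 0) (hh0 : h ≠ 0) (hnorm : N f = c * h ^ m) {rc rh : κFˣ}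
    (hc : PM.HasRes (ΦM c / c) rc) (hh : PM.HasRes (ΦM h / h) rh) :
    PM.HasRes (N (Φ f / f)) (rc * rh ^ m) := by
  have h1 : N (Φ f / f) = ΦM c / c * (ΦM h / h) ^ m := by
    have hNf : N f ≠ 0 := by rw [hnorm]; exact mul_ne_zero hc0 (pow_ne_zero m hh0)
    have h2 : N (Φ f / f) * N f = N (Φ f) := by
      rw [← map_mul, div_mul_cancel₀ _ hf]
    have h3 : N (Φ f / f) = N (Φ f) / N f := by
      rw [← h2, mul_div_assoc, div_self hNf, mul_one]
    rw [h3, hNΦ, hnorm, map_mul, map_pow, div_pow]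
    field_simp
  rw [h1]
  exact hc.mul (hh.pow m)

/-- **(g3), abstract assembly.**  `Pinf, P0` the two vertical places of `F`, `PM` the Gauss place
of `FM`; `Φ` (resp. `ΦM`) acts on residues through `φb ∘ φb`; `(g2)`: the reductions of the two
norms of a unit `u` at both places are `resinf u * φb (res0 u)` and `φb (resinf u) * res0 u`.
If the reductions of the two norms of `u₁` lie in a `φb`-stable subgroup `S`, then so do the
residues of `u₂ = Φ u₁ / u₁` at both places. -/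
theorem g3_residues {Pinf P0 : ResPlace F κF} {PM : ResPlace FM κF} (Φ : F ≃+* F)
    (φb : κF →+* κF) (Nα Nβ : F →* FM) (S : Subgroup κFˣ)
    (hSφ : ∀ s ∈ S, Units.map (φb : κF →* κF) s ∈ S)
    (hΦinf : ∀ y s, Pinf.HasRes y s →
      Pinf.HasRes (Φ y) (Units.map (φb : κF →* κF) (Units.map (φb : κF →* κF) s)))
    (hΦ0 : ∀ y s, P0.HasRes y s →
      P0.HasRes (Φ y) (Units.map (φb : κF →* κF) (Units.map (φb : κF →* κF) s)))
    (g2α : ∀ u sinf s0, Pinf.HasRes u sinf → P0.HasRes u s0 →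
      PM.HasRes (Nα u) (sinf * Units.map (φb : κF →* κF) s0))
    (g2β : ∀ u sinf s0, Pinf.HasRes u sinf → P0.HasRes u s0 →
      PM.HasRes (Nβ u) (Units.map (φb : κF →* κF) sinf * s0))
    {u₁ : F} {a b sα sβ : κFˣ} (ha : Pinf.HasRes u₁ a) (hb : P0.HasRes u₁ b)
    (hα : PM.HasRes (Nα u₁) sα) (hβ : PM.HasRes (Nβ u₁) sβ) (hsα : sα ∈ S) (hsβ : sβ ∈ S) :
    (∃ s ∈ S, Pinf.HasRes (Φ u₁ / u₁) s) ∧ ∃ s ∈ S, P0.HasRes (Φ u₁ / u₁) s := by
  set τ : κFˣ →* κFˣ := Units.map (φb : κF →* κF) with hτ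
  have h1 : a * τ b ∈ S := by
    rw [(g2α u₁ a b ha hb).unique hα]; exact hsα
  have h2 : τ a * b ∈ S := by
    rw [(g2β u₁ a b ha hb).unique hβ]; exact hsβ
  have h3 : τ (τ a) / a ∈ S := by
    have := S.div_mem (hSφ _ h2) h1
    rwa [map_mul, mul_div_mul_right_eq_div] at this
  have h4 : τ (τ b) / b ∈ S := by
    have := S.div_mem (hSφ _ h1) h2
    rwa [map_mul, mul_div_mul_left_eq_div] at this
  exact ⟨⟨_, h3, (hΦinf u₁ a ha).div ha⟩, ⟨_, h4, (hΦ0 u₁ b hb).div hb⟩⟩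

/-- **(g3), root extraction**: if every element of `S` is the `m`-th power of a residue of `P`,
a function whose residue lies in `S` is, modulo `1`-units of `P`, the `m`-th power of a unit. -/
theorem exists_root_of_hasRes {P : ResPlace F κF} (S : Subgroup κFˣ) {m : ℕ}
    (hroot : ∀ s ∈ S, ∃ (G : F) (t : κFˣ), P.HasRes G t ∧ t ^ m = s) {u : F} {s : κFˣ}
    (hs : s ∈ S) (hu : P.HasRes u s) :
    ∃ (G : F) (t : κFˣ), P.HasRes G t ∧ P.HasRes (u / G ^ m) 1 := by
  obtain ⟨G, t, hG, ht⟩ := hroot s hs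
  refine ⟨G, t, hG, ?_⟩
  have := hu.div (hG.pow m)
  rwa [ht, div_self'] at this

end Assembly

section Bridge

open Fermat.Agent.S34.H47

variable {F κF : Type*} [Field F] [Field κF]

/-- residue `1` ⟹ `1`-unit of the valuation ring, when `O1 ⊆ V` and the kernel of the reduction
lies in the maximal ideal of `V`. -/
theorem oneU_of_hasRes_one {P : ResPlace F κF} {V : ValuationSubring F}
    (hker : ∀ (y : F) (hy : y ∈ P.O1), P.res ⟨y, hy⟩ = 0 → V.valuation y < 1) {x : F}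
    (h : P.HasRes x 1) : OneU V x := by
  obtain ⟨h1, h2⟩ := h
  unfold OneU
  refine hker (x - 1) (P.O1.sub_mem h1 P.O1.one_mem) ?_
  have : (⟨x - 1, P.O1.sub_mem h1 P.O1.one_mem⟩ : P.O1) = ⟨x, h1⟩ - 1 := rfl
  rw [this, map_sub, map_one, h2, Units.val_one, sub_self]

/-- non-zero residue ⟹ unit of the valuation ring, when `O1 ⊆ V`. -/
theorem valuation_eq_one_of_hasRes {P : ResPlace F κF} {V : ValuationSubring F}
    (hV : ∀ y, y ∈ P.O1 → y ∈ V) {G : F} {t : κFˣ} (h : P.HasRes G t) : V.valuation G = 1 := by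
  have h1 : V.valuation G ≤ 1 := (V.valuation_le_one_iff _).mpr (hV _ h.1)
  have h2 : V.valuation G⁻¹ ≤ 1 := (V.valuation_le_one_iff _).mpr (hV _ h.inv.1)
  rw [map_inv₀] at h2
  have hv0 : 0 < V.valuation G := zero_lt_iff.mpr ((Valuation.ne_zero_iff _).mpr h.ne_zero)
  exact le_antisymm h1 ((inv_le_one₀ hv0).mp h2)

/-- **(g3) output in the form consumed by `H62.exists_simultaneous_root` /
`H46.localDatum_of_threeRatios`.** -/
theorem exists_root_oneU {P : ResPlace F κF} {V : ValuationSubring F}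
    (hV : ∀ y, y ∈ P.O1 → y ∈ V)
    (hker : ∀ (y : F) (hy : y ∈ P.O1), P.res ⟨y, hy⟩ = 0 → V.valuation y < 1)
    (S : Subgroup κFˣ) {m : ℕ}
    (hroot : ∀ s ∈ S, ∃ (G : F) (t : κFˣ), P.HasRes G t ∧ t ^ m = s) {u : F} {s : κFˣ}
    (hs : s ∈ S) (hu : P.HasRes u s) :
    ∃ G : F, V.valuation G = 1 ∧ OneU V (u / G ^ m) := by
  obtain ⟨G, t, hG, h1⟩ := exists_root_of_hasRes S hroot hs hu
  exact ⟨G, valuation_eq_one_of_hasRes hV hG, oneU_of_hasRes_one hker h1⟩

end Bridge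

end Fermat.Agent.S35.H46
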