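/-
S35, second clause, node (E3) of helper57's integration map (helper46): the statement `hG`
consumed by `H46.exists_const_mul_pow_of_threeRatios`, assembled from the landed shapes

* (g2α)/(g2β)  : `S35.H16.g2alpha_gen / g2beta_gen` (helper16), verbatim the hypotheses `g2α g2β`;
* G1b twice    : `red_k (Ψ y) = φb (φb (red_k y))` (helper27's `placeInfty/placeZero_res1_map`);
* the norm conditions of `H18.GeoFnE'` through `H46.hasRes_norm_ratio` (`hα hβ hsα hsβ`);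
* the bridge chart valuation ring = place (helper84's `H84_VertPlace`): `hOinf hO0 hkerinf hker0`.

Vocabulary fixed here:
* `P.resUnits : Subgroup κFˣ` : the non-zero residues of a `ResPlace` (units of the TRUE residue
  field of the place, inside the big field `κF`);
* `kummerS ιk PM m = ιk(kˣ) · (PM.resUnits) ^ m` : the subgroup `S` of (g3).
-/
import Mathlib
import Fermat.Agent.S35.H46_G3Assembly

set_option autoImplicit false

namespace Fermat.Agent.S35.H46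

open Fermat.Agent.S34.H47

namespace ResPlace

variable {F κF : Type*} [Field F] [Field κF] (P : ResPlace F κF)

/-- The non-zero residues of the place: the units of its true residue field, as a subgroup of the
units of the big field. -/
def resUnits : Subgroup κFˣ where
  carrier := {s | ∃ y, P.HasRes y s}
  mul_mem' := by
    rintro s t ⟨y, hy⟩ ⟨z, hz⟩
    exact ⟨y * z, hy.mul hz⟩
  one_mem' := ⟨1, hasRes_one⟩
  inv_mem' := by
    rintro s ⟨y, hy⟩
    exact ⟨y⁻¹, hy.inv⟩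

theorem mem_resUnits {s : κFˣ} : s ∈ P.resUnits ↔ ∃ y, P.HasRes y s := Iff.rfl

variable {P}

theorem HasRes.mem_resUnits {y : F} {s : κFˣ} (h : P.HasRes y s) : s ∈ P.resUnits := ⟨y, h⟩

/-- a unit of a valuation ring `V` with `O1 = V` has a non-zero residue. -/
theorem exists_hasRes_of_valuation_eq_one {V : ValuationSubring F}
    (hPV : ∀ y, y ∈ P.O1 ↔ y ∈ V) {y : F} (hy : V.valuation y = 1) : ∃ s, P.HasRes y s := by
  have h1 : y ∈ P.O1 := (hPV y).mpr ((V.valuation_le_one_iff y).mp hy.le)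
  have h2 : y⁻¹ ∈ P.O1 := by
    refine (hPV _).mpr ((V.valuation_le_one_iff _).mp ?_)
    rw [map_inv₀, hy, inv_one]
  have hy0 : y ≠ 0 := by
    rintro rfl
    rw [map_zero] at hy
    exact zero_ne_one hy
  have hmul : (⟨y, h1⟩ : P.O1) * ⟨y⁻¹, h2⟩ = 1 := Subtype.ext (mul_inv_cancel₀ hy0)
  have h3 := congrArg P.res hmul
  rw [map_mul, map_one] at h3
  have hne : P.res ⟨y, h1⟩ ≠ 0 := left_ne_zero_of_mul_eq_one h3
  exact ⟨Units.mk0 _ hne, h1, rfl⟩

end ResPlace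

section KummerS

variable {FM κF k : Type*} [Field FM] [Field κF] [Field k]

/-- **The subgroup `S = kˣ · κˣᵐ` of (g3)**: constants times `m`-th powers of non-zero residues
of the place `PM`. -/
def kummerS (ιk : k →+* κF) (PM : ResPlace FM κF) (m : ℕ) : Subgroup κFˣ :=
  (Units.map (ιk : k →* κF)).range ⊔ PM.resUnits.map (powMonoidHom m)

theorem mem_kummerS {ιk : k →+* κF} {PM : ResPlace FM κF} {m : ℕ} {s : κFˣ} :
    s ∈ kummerS ιk PM m ↔
      ∃ (c : kˣ) (t : κFˣ), t ∈ PM.resUnits ∧ s = Units.map (ιk : k →* κF) c * t ^ m := by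
  unfold kummerS
  rw [Subgroup.mem_sup]
  constructor
  · rintro ⟨y, ⟨c, rfl⟩, z, ⟨t, ht, rfl⟩, rfl⟩
    exact ⟨c, t, ht, rfl⟩
  · rintro ⟨c, t, ht, rfl⟩
    exact ⟨_, ⟨c, rfl⟩, _, ⟨t, ht, rfl⟩, rfl⟩

/-- the producer shape: constant residue times the `m`-th power of a residue. -/
theorem mul_pow_mem_kummerS {ιk : k →+* κF} {PM : ResPlace FM κF} {m : ℕ} (c : kˣ) {t : κFˣ}
    (ht : t ∈ PM.resUnits) : Units.map (ιk : k →* κF) c * t ^ m ∈ kummerS ιk PM m :=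
  mem_kummerS.mpr ⟨c, t, ht, rfl⟩

/-- `S` is stable under `φb` when `φb` acts on constants through `σk` and preserves the residue
field of `PM`. -/
theorem map_mem_kummerS {ιk : k →+* κF} {PM : ResPlace FM κF} {m : ℕ} (φb : κF →+* κF)
    (σk : k →+* k) (hφbk : ∀ c : k, φb (ιk c) = ιk (σk c))
    (hφbM : ∀ t ∈ PM.resUnits, Units.map (φb : κF →* κF) t ∈ PM.resUnits) {s : κFˣ}
    (hs : s ∈ kummerS ιk PM m) : Units.map (φb : κF →* κF) s ∈ kummerS ιk PM m := by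
  obtain ⟨c, t, ht, rfl⟩ := mem_kummerS.mp hs
  rw [map_mul, map_pow]
  have h1 : Units.map (φb : κF →* κF) (Units.map (ιk : k →* κF) c)
      = Units.map (ιk : k →* κF) (Units.map (σk : k →* k) c) := by
    apply Units.ext
    simp only [Units.coe_map, MonoidHom.coe_coe]
    exact hφbk _
  rw [h1]
  exact mul_pow_mem_kummerS _ (hφbM t ht)

end KummerS

section Main

variable {F FM κF k : Type*} [Field F] [Field FM] [Field κF] [Field k]

/-- every element of `S` is the `m`-th power of a residue of `P`, as soon as constants have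
`m`-th roots and the constants and the residues of `PM` are residues of `P`. -/
theorem exists_root_of_mem_kummerS {P : ResPlace F κF} {PM : ResPlace FM κF} {ιk : k →+* κF}
    {m : ℕ} (hkroot : ∀ c : kˣ, ∃ c0 : kˣ, c0 ^ m = c)
    (hkP : ∀ c : kˣ, Units.map (ιk : k →* κF) c ∈ P.resUnits)
    (hMP : ∀ t ∈ PM.resUnits, t ∈ P.resUnits) {s : κFˣ} (hs : s ∈ kummerS ιk PM m) :
    ∃ (G : F) (t : κFˣ), P.HasRes G t ∧ t ^ m = s := by
  obtain ⟨c, t, ht, rfl⟩ := mem_kummerS.mp hs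
  obtain ⟨c0, rfl⟩ := hkroot c
  obtain ⟨y, hy⟩ := hkP c0
  obtain ⟨z, hz⟩ := hMP t ht
  exact ⟨y * z, _, hy.mul hz, by rw [mul_pow, map_pow]⟩

/-- **(E3), residue form.**  `Ψ = φ²` on `F`, acting on residues at the two vertical places
through `φb ∘ φb`; `(g2α) (g2β)`; the residues of the two norms of `u₁` lie in
`S = kummerS ιk PM m`.  Then at both places `u₂ = Ψ u₁ / u₁` is, modulo `1`-units, the `m`-th
power of a unit. -/
theorem g3_roots {Pinf P0 : ResPlace F κF} {PM : ResPlace FM κF} (ιk : k →+* κF) (σk : k →+* k)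
    (Ψ : F ≃+* F) (φb : κF →+* κF) (Nα Nβ : F →* FM) (m : ℕ)
    (hkroot : ∀ c : kˣ, ∃ c0 : kˣ, c0 ^ m = c)
    (hφbk : ∀ c : k, φb (ιk c) = ιk (σk c))
    (hkinf : ∀ c : kˣ, Units.map (ιk : k →* κF) c ∈ Pinf.resUnits)
    (hk0 : ∀ c : kˣ, Units.map (ιk : k →* κF) c ∈ P0.resUnits)
    (hMinf : ∀ t ∈ PM.resUnits, t ∈ Pinf.resUnits) (hM0 : ∀ t ∈ PM.resUnits, t ∈ P0.resUnits)
    (hφbM : ∀ t ∈ PM.resUnits, Units.map (φb : κF →* κF) t ∈ PM.resUnits)
    (hΨinf : ∀ y s, Pinf.HasRes y s →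
      Pinf.HasRes (Ψ y) (Units.map (φb : κF →* κF) (Units.map (φb : κF →* κF) s)))
    (hΨ0 : ∀ y s, P0.HasRes y s →
      P0.HasRes (Ψ y) (Units.map (φb : κF →* κF) (Units.map (φb : κF →* κF) s)))
    (g2α : ∀ u sinf s0, Pinf.HasRes u sinf → P0.HasRes u s0 →
      PM.HasRes (Nα u) (sinf * Units.map (φb : κF →* κF) s0))
    (g2β : ∀ u sinf s0, Pinf.HasRes u sinf → P0.HasRes u s0 →
      PM.HasRes (Nβ u) (Units.map (φb : κF →* κF) sinf * s0))
    {u₁ : F} {a b sα sβ : κFˣ} (ha : Pinf.HasRes u₁ a) (hb : P0.HasRes u₁ b)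
    (hα : PM.HasRes (Nα u₁) sα) (hβ : PM.HasRes (Nβ u₁) sβ)
    (hsα : sα ∈ kummerS ιk PM m) (hsβ : sβ ∈ kummerS ιk PM m) :
    (∃ (G : F) (t : κFˣ), Pinf.HasRes G t ∧ Pinf.HasRes ((Ψ u₁ / u₁) / G ^ m) 1) ∧
      ∃ (G : F) (t : κFˣ), P0.HasRes G t ∧ P0.HasRes ((Ψ u₁ / u₁) / G ^ m) 1 := by
  obtain ⟨⟨s₁, hs₁, h₁⟩, ⟨s₂, hs₂, h₂⟩⟩ :=
    g3_residues Ψ φb Nα Nβ (kummerS ιk PM m)
      (fun s hs => map_mem_kummerS φb σk hφbk hφbM hs) hΨinf hΨ0 g2α g2β ha hb hα hβ hsα hsβ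
  exact ⟨exists_root_of_hasRes (kummerS ιk PM m)
      (fun s hs => exists_root_of_mem_kummerS hkroot hkinf hMinf hs) hs₁ h₁,
    exists_root_of_hasRes (kummerS ιk PM m)
      (fun s hs => exists_root_of_mem_kummerS hkroot hk0 hM0 hs) hs₂ h₂⟩

/-- **the producer of `hα hsα` (resp. `hβ hsβ`)** from a norm condition `N f = c h ^ m` of
`H18.GeoFnE'`: the residue of `ΨM c / c` is a constant (helper45: `ΨM c / c` is a unit of the base
DVR), the residue of `ΨM h / h` is a non-zero residue (`H46.valuation_map_div_self_eq_one`). -/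
theorem exists_mem_kummerS_norm_ratio {PM : ResPlace FM κF} (ιk : k →+* κF) (Ψ : F ≃+* F)
    (ΨM : FM ≃+* FM) (N : F →* FM) (hNΨ : ∀ x, N (Ψ x) = ΨM (N x)) {f : F} (hf : f ≠ 0)
    {c h : FM} {m : ℕ} (hc0 : c ≠ 0) (hh0 : h ≠ 0) (hnorm : N f = c * h ^ m) {rc : kˣ}
    (hc : PM.HasRes (ΨM c / c) (Units.map (ιk : k →* κF) rc)) {rh : κFˣ}
    (hh : PM.HasRes (ΨM h / h) rh) :
    ∃ s ∈ kummerS ιk PM m, PM.HasRes (N (Ψ f / f)) s :=
  ⟨_, mul_pow_mem_kummerS rc hh.mem_resUnits,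
    hasRes_norm_ratio Ψ ΨM N hNΨ hf hc0 hh0 hnorm hc hh⟩

/-- **(E3) = `hG` per vertical component**, in the vocabulary of `H62.exists_simultaneous_root`:
`V true`, `V false` the valuation rings of the two vertical components (on the chart side
`H56.valuationSubringAt (P₁ k)`), identified with the places `Pinf`, `P0` (`hOinf hO0`, from
`H84.valuationSubringAt_eq_place`); `ha hb` in valuation form (from `H46.valuation_map_div_self_eq_one`). -/
theorem g3_roots_oneU {Pinf P0 : ResPlace F κF} {PM : ResPlace FM κF} (V : Bool → ValuationSubring F)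
    (hOinf : ∀ y, y ∈ Pinf.O1 ↔ y ∈ V true) (hO0 : ∀ y, y ∈ P0.O1 ↔ y ∈ V false)
    (hkerinf : ∀ (y : F) (hy : y ∈ Pinf.O1), Pinf.res ⟨y, hy⟩ = 0 → (V true).valuation y < 1)
    (hker0 : ∀ (y : F) (hy : y ∈ P0.O1), P0.res ⟨y, hy⟩ = 0 → (V false).valuation y < 1)
    (ιk : k →+* κF) (σk : k →+* k)
    (Ψ : F ≃+* F) (φb : κF →+* κF) (Nα Nβ : F →* FM) (m : ℕ)
    (hkroot : ∀ c : kˣ, ∃ c0 : kˣ, c0 ^ m = c)
    (hφbk : ∀ c : k, φb (ιk c) = ιk (σk c))
    (hkinf : ∀ c : kˣ, Units.map (ιk : k →* κF) c ∈ Pinf.resUnits)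
    (hk0 : ∀ c : kˣ, Units.map (ιk : k →* κF) c ∈ P0.resUnits)
    (hMinf : ∀ t ∈ PM.resUnits, t ∈ Pinf.resUnits) (hM0 : ∀ t ∈ PM.resUnits, t ∈ P0.resUnits)
    (hφbM : ∀ t ∈ PM.resUnits, Units.map (φb : κF →* κF) t ∈ PM.resUnits)
    (hΨinf : ∀ y s, Pinf.HasRes y s →
      Pinf.HasRes (Ψ y) (Units.map (φb : κF →* κF) (Units.map (φb : κF →* κF) s)))
    (hΨ0 : ∀ y s, P0.HasRes y s →
      P0.HasRes (Ψ y) (Units.map (φb : κF →* κF) (Units.map (φb : κF →* κF) s)))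
    (g2α : ∀ u sinf s0, Pinf.HasRes u sinf → P0.HasRes u s0 →
      PM.HasRes (Nα u) (sinf * Units.map (φb : κF →* κF) s0))
    (g2β : ∀ u sinf s0, Pinf.HasRes u sinf → P0.HasRes u s0 →
      PM.HasRes (Nβ u) (Units.map (φb : κF →* κF) sinf * s0))
    {u₁ : F} (ha : (V true).valuation u₁ = 1) (hb : (V false).valuation u₁ = 1)
    {sα sβ : κFˣ} (hα : PM.HasRes (Nα u₁) sα) (hβ : PM.HasRes (Nβ u₁) sβ)
    (hsα : sα ∈ kummerS ιk PM m) (hsβ : sβ ∈ kummerS ιk PM m) :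
    ∀ j : Bool, ∃ G : F, (V j).valuation G = 1 ∧ OneU (V j) ((Ψ u₁ / u₁) / G ^ m) := by
  obtain ⟨a, ha'⟩ := ResPlace.exists_hasRes_of_valuation_eq_one hOinf ha
  obtain ⟨b, hb'⟩ := ResPlace.exists_hasRes_of_valuation_eq_one hO0 hb
  obtain ⟨⟨G₁, t₁, hG₁, h₁⟩, ⟨G₂, t₂, hG₂, h₂⟩⟩ :=
    g3_roots ιk σk Ψ φb Nα Nβ m hkroot hφbk hkinf hk0 hMinf hM0 hφbM hΨinf hΨ0 g2α g2β
      ha' hb' hα hβ hsα hsβ
  intro j
  cases j with
  | true =>
    exact ⟨G₁, valuation_eq_one_of_hasRes (fun y hy => (hOinf y).mp hy) hG₁,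
      oneU_of_hasRes_one hkerinf h₁⟩
  | false =>
    exact ⟨G₂, valuation_eq_one_of_hasRes (fun y hy => (hO0 y).mp hy) hG₂,
      oneU_of_hasRes_one hker0 h₂⟩

end Main

end Fermat.Agent.S35.H46
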