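/-
S35, row G5 (abstract core), helper62: the three Frobenius ratios `(g3)+(g4)` of helper57's
blueprint, in the abstract setting of `S34.H47_KummerInduct`.

Setting of `H47`: a field `F` over a "DVR" `R` (uniformiser `π`), local subrings `O n ⊆ F`
(the local rings of the model at the closed points of the special fibre), valuation subrings
`V k` (the vertical valuations), `Thr n k` = "`V k` passes through `n`".
NEW: a ring automorphism `Φ : F ≃+* F` (`= φ ^ 2`, `φ` a Frobenius lift), the induced map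
`ρ : ν → ν` on closed points (`Φ (O (ρ n)) = O n`), and `Q` (`= q ^ 2`).

Everything is phrased inside `F`: "`red_k x = red_k y`" is `OneU (V k) (x / y)`.

* `frob_sq_ratio_mem`  : abstract `(g3)`.
* `localDatum_of_ratio` : abstract `(g4)`: if `u₂ = η_n g_n ^ m` locally (`η_n` a unit of `O n`,
  `g_n` a unit at the vertical valuations through `n`) and `u₂ ≡ G_k ^ m` at every `V k`, then
  `Φ u₂ / u₂ ^ Q / Ψ ^ m` has a local datum (in the sense of `H47.LocalDatum`) for a suitable `Ψ`.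
* `exists_const_mul_pow_of_ratio` : with the model hypotheses and the Kummer step of
  `H47.exists_pow_of_localDatum`: `Φ u₂ / u₂ ^ Q = c * w ^ (l ^ k)`.
-/
import Mathlib
import Fermat.Agent.S34.H47_KummerInduct

set_option autoImplicit false

namespace Fermat.Agent.S35.H62

open Fermat.Agent.S34.H47

/-! ### Abstract `(g3)` -/

section G3

variable {κ : Type*} [Field κ]

/-- **Abstract `(g3)`.**  `τ` an endomorphism of the field `κ`, `H ≤ κˣ` a `τ`-stable subgroup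
(`k^× κ^{× m}`).  If `A * τ B ∈ H` and `B * τ A ∈ H` then `τ² A / A ∈ H`. -/
theorem frob_sq_ratio_mem (τ : κ →+* κ) (H : Subgroup κˣ)
    (hτ : ∀ x ∈ H, Units.map (τ : κ →* κ) x ∈ H) {A B : κˣ}
    (h1 : A * Units.map (τ : κ →* κ) B ∈ H) (h2 : B * Units.map (τ : κ →* κ) A ∈ H) :
    Units.map (τ : κ →* κ) (Units.map (τ : κ →* κ) A) / A ∈ H := by
  have h3 := H.div_mem (hτ _ h2) h1
  have : Units.map (τ : κ →* κ) (B * Units.map (τ : κ →* κ) A) / (A * Units.map (τ : κ →* κ) B)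
      = Units.map (τ : κ →* κ) (Units.map (τ : κ →* κ) A) / A := by
    rw [map_mul, div_eq_div_iff_mul_eq_mul]
    ac_rfl
  rwa [this] at h3

end G3

/-! ### Local subrings of a field -/

section Loc

variable {F : Type*} [Field F]

/-- The local-ring property of a subring of `F` (shape of `H47.ModelHyp.hOloc`). -/
def IsLoc (S : Subring F) : Prop :=
  ∀ a b : F, UnitIn S a → b ∈ S → ¬ UnitIn S b → UnitIn S (a + b)

theorem unitIn_one (S : Subring F) : UnitIn S (1 : F) :=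
  ⟨S.one_mem, by rw [inv_one]; exact S.one_mem, one_ne_zero⟩

theorem unitIn_neg {S : Subring F} {a : F} (h : UnitIn S a) : UnitIn S (-a) :=
  ⟨S.neg_mem h.1, by rw [inv_neg]; exact S.neg_mem h.2.1, neg_ne_zero.mpr h.2.2⟩

theorem unitIn_div {S : Subring F} {a b : F} (ha : UnitIn S a) (hb : UnitIn S b) :
    UnitIn S (a / b) := by
  rw [div_eq_mul_inv]; exact ha.mul hb.inv

theorem not_unitIn_add {S : Subring F} (hS : IsLoc S) {a b : F} (hb : b ∈ S)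
    (ha' : ¬ UnitIn S a) (hb' : ¬ UnitIn S b) : ¬ UnitIn S (a + b) := by
  intro h
  have h1 := hS (a + b) (-b) h (S.neg_mem hb) (fun h' => hb' (by simpa using unitIn_neg h'))
  rw [add_neg_cancel_right] at h1
  exact ha' h1

theorem not_unitIn_sub {S : Subring F} (hS : IsLoc S) {a b : F} (hb : b ∈ S)
    (ha' : ¬ UnitIn S a) (hb' : ¬ UnitIn S b) : ¬ UnitIn S (a - b) := by
  rw [sub_eq_add_neg]
  exact not_unitIn_add hS (S.neg_mem hb) ha' (fun h' => hb' (by simpa using unitIn_neg h'))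

theorem not_unitIn_mul {S : Subring F} {a s : F} (ha : a ∈ S) (hs : s ∈ S)
    (ha' : ¬ UnitIn S a) : ¬ UnitIn S (a * s) := by
  intro h
  apply ha'
  have ha0 : a ≠ 0 := left_ne_zero_of_mul h.2.2
  have hs0 : s ≠ 0 := right_ne_zero_of_mul h.2.2
  refine ⟨ha, ?_, ha0⟩
  have : a⁻¹ = s * (a * s)⁻¹ := by
    field_simp
  rw [this]
  exact S.mul_mem hs h.2.1

end Loc

/-! ### Automorphisms preserving a valuation subring -/

section ValAut

variable {F : Type*} [Field F] {A : ValuationSubring F} {Φ : F ≃+* F}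

theorem symm_mem_iff (h : ∀ x, Φ x ∈ A ↔ x ∈ A) (x : F) : Φ.symm x ∈ A ↔ x ∈ A := by
  have := h (Φ.symm x)
  rw [RingEquiv.apply_symm_apply] at this
  exact this.symm

theorem valuation_map_lt_one (h : ∀ x, Φ x ∈ A ↔ x ∈ A) {x : F} (hx : A.valuation x < 1) :
    A.valuation (Φ x) < 1 := by
  by_cases hx0 : x = 0
  · rw [hx0, map_zero, map_zero]; exact zero_lt_one
  · have hΦ0 : Φ x ≠ 0 := (map_ne_zero Φ).mpr hx0
    by_contra hcon
    rw [not_lt] at hcon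
    have hpos : 0 < A.valuation (Φ x) := zero_lt_iff.mpr ((Valuation.ne_zero_iff _).mpr hΦ0)
    have h1 : A.valuation (Φ x)⁻¹ ≤ 1 := by
      rw [map_inv₀]; exact (inv_le_one₀ hpos).mpr hcon
    have h2 : Φ x⁻¹ ∈ A := by
      rw [map_inv₀]; exact (A.valuation_le_one_iff _).mp h1
    have h3 : A.valuation x⁻¹ ≤ 1 := (A.valuation_le_one_iff _).mpr ((h _).mp h2)
    rw [map_inv₀] at h3
    have hpos' : 0 < A.valuation x := zero_lt_iff.mpr ((Valuation.ne_zero_iff _).mpr hx0)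
    exact absurd ((inv_le_one₀ hpos').mp h3) (not_le.mpr hx)

theorem valuation_map_eq_one (h : ∀ x, Φ x ∈ A ↔ x ∈ A) {x : F} (hx : A.valuation x = 1) :
    A.valuation (Φ x) = 1 := by
  refine le_antisymm ((A.valuation_le_one_iff _).mpr ((h x).mpr
    ((A.valuation_le_one_iff _).mp hx.le))) ?_
  by_contra hcon
  rw [not_le] at hcon
  have := valuation_map_lt_one (Φ := Φ.symm) (symm_mem_iff h) hcon
  rw [RingEquiv.symm_apply_apply, hx] at this
  exact lt_irrefl _ this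

theorem oneU_map (h : ∀ x, Φ x ∈ A ↔ x ∈ A) {x : F} (hx : OneU A x) : OneU A (Φ x) := by
  unfold OneU at *
  have : Φ x - 1 = Φ (x - 1) := by rw [map_sub, map_one]
  rw [this]
  exact valuation_map_lt_one h hx

end ValAut

/-! ### The Frobenius hypotheses and abstract `(g4)` -/

section G4

variable {R F : Type*} [CommRing R] [Field F] [Algebra R F]
variable {ν κ : Type*} (O : ν → Subring F) (V : κ → ValuationSubring F) (Thr : ν → κ → Prop)
  (π : R)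

/-- **The interface** rows G1/G2/G4 produce: `Φ = φ ^ 2` permutes the closed points through
`ρ`, fixes the vertical valuations; the special fibre is reduced (`hsat`) with normal branches
(`hbranch`), the local ring modulo `π` is the fibre product of the branches (`hlift`), points
with two branches are `Φ`-fixed with `Φ ℓ ≡ ℓ ^ Q` modulo the maximal ideal (`hfix`), and the
vertical valuations are independent (`happrox`). -/
structure FrobHyp (Φ : F ≃+* F) (ρ : ν → ν) (Q m : ℕ) : Prop where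
  hΦO : ∀ n x, Φ x ∈ O n ↔ x ∈ O (ρ n)
  hΦV : ∀ k x, Φ x ∈ V k ↔ x ∈ V k
  hΦThr : ∀ n k, Thr n k → Thr (ρ n) k
  hOV : ∀ n k, Thr n k → ∀ x ∈ O n, x ∈ V k
  hOloc : ∀ n, IsLoc (O n)
  /-- the special fibre is reduced at `n` -/
  hsat : ∀ n (x : F), x ∈ O n → (∀ k, Thr n k → (V k).valuation x < 1) → PiIn π (O n) x
  /-- the branches through `n` are normal -/
  hbranch : ∀ n k, Thr n k → ∀ y e : F, (V k).valuation y = 1 → UnitIn (O n) e →
    OneU (V k) (y ^ m / e) → ∃ ℓ : F, UnitIn (O n) ℓ ∧ OneU (V k) (y / ℓ)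
  /-- `O n / π` is the fibre product of the branches through `n` -/
  hlift : ∀ n (e : κ → F), (∀ k, Thr n k → UnitIn (O n) (e k)) →
    (∀ k k', Thr n k → Thr n k' → ¬ UnitIn (O n) (e k - e k')) →
    ∃ t : F, UnitIn (O n) t ∧ ∀ k, Thr n k → OneU (V k) (t / e k)
  /-- points with two branches are `Φ`-fixed, and `Φ` is the `Q`-Frobenius on their residue
  field -/
  hfix : ∀ n k k', Thr n k → Thr n k' → k ≠ k' →
    ρ n = n ∧ ∀ ℓ : F, UnitIn (O n) ℓ → ¬ UnitIn (O n) (Φ ℓ / ℓ ^ Q - 1)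
  /-- the vertical valuations are independent -/
  happrox : ∀ x : κ → F, (∀ k, (V k).valuation (x k) = 1) →
    ∃ Ψ : F, Ψ ≠ 0 ∧ ∀ k, OneU (V k) (Ψ / x k)

variable {O V Thr π}

theorem FrobHyp.unitIn_map {Φ : F ≃+* F} {ρ : ν → ν} {Q m : ℕ} (H : FrobHyp O V Thr π Φ ρ Q m)
    {n : ν} {x : F} (hx : UnitIn (O (ρ n)) x) : UnitIn (O n) (Φ x) :=
  ⟨(H.hΦO n x).mpr hx.1, by rw [← map_inv₀]; exact (H.hΦO n _).mpr hx.2.1,
    (map_ne_zero Φ).mpr hx.2.2⟩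

/-- The local factorisation passes to the ratio `Φ u / u`  (second application of `(g1)`). -/
theorem FrobHyp.ratio_loc {Φ : F ≃+* F} {ρ : ν → ν} {Q m : ℕ} (H : FrobHyp O V Thr π Φ ρ Q m)
    {u : F}
    (hloc : ∀ n, ∃ η g : F, UnitIn (O n) η ∧ g ≠ 0 ∧ (∀ k, Thr n k → (V k).valuation g = 1) ∧
      u = η * g ^ m) :
    ∀ n, ∃ η g : F, UnitIn (O n) η ∧ g ≠ 0 ∧ (∀ k, Thr n k → (V k).valuation g = 1) ∧
      Φ u / u = η * g ^ m := by
  intro n
  obtain ⟨η', g', hη', hg'0, hg'V, hu'⟩ := hloc (ρ n)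
  obtain ⟨η, g, hη, hg0, hgV, hu⟩ := hloc n
  refine ⟨Φ η' / η, Φ g' / g, unitIn_div (H.unitIn_map hη') hη,
    div_ne_zero ((map_ne_zero Φ).mpr hg'0) hg0, fun k hk => ?_, ?_⟩
  · rw [map_div₀, valuation_map_eq_one (H.hΦV k) (hg'V k (H.hΦThr n k hk)), hgV k hk, div_one]
  · have hη0 := hη.2.2
    have h1 : Φ u = Φ η' * Φ g' ^ m := by rw [hu', map_mul, map_pow]
    have h2 : Φ u / u = (Φ η' * Φ g' ^ m) / (η * g ^ m) := by rw [h1, ← hu]
    rw [h2, div_pow]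
    field_simp

/-- field identity behind `ε_n ∈ O n`. -/
theorem ratio_identity_unit {u Φu g Φg' kt Ψ η Φη' : F} {Q m : ℕ} (hg : g ≠ 0) (hΦg' : Φg' ≠ 0)
    (hkt : kt ≠ 0) (hΨ : Ψ ≠ 0) (hη : η ≠ 0)
    (hu : u = η * g ^ m) (hΦu : Φu = Φη' * Φg' ^ m) :
    Φu / u ^ Q / Ψ ^ m / (kt * Φg' / g ^ Q / Ψ) ^ m = Φη' / η ^ Q / kt ^ m := by
  subst hu hΦu
  simp only [div_pow, mul_pow, ← pow_mul]
  have h2 : g ^ (Q * m) = g ^ (m * Q) := by rw [mul_comm]
  rw [h2]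
  field_simp

/-- field identity behind `ε_n ≡ 1` on the branch `k`. -/
theorem ratio_identity_oneU {u Φu g Φg' kt Ψ G ΦG ℓ Φℓ' : F} {Q m : ℕ} (hu : u ≠ 0)
    (hg : g ≠ 0) (hΦg' : Φg' ≠ 0) (hkt : kt ≠ 0) (hΨ : Ψ ≠ 0) (hG : G ≠ 0) (hΦG : ΦG ≠ 0)
    (hℓ : ℓ ≠ 0) (hΦℓ' : Φℓ' ≠ 0) :
    Φu / u ^ Q / Ψ ^ m / (kt * Φg' / g ^ Q / Ψ) ^ m
      = (Φu / ΦG ^ m) * (ΦG / Φg' / Φℓ') ^ m /
          ((u / G ^ m) ^ Q * (G / g / ℓ) ^ (m * Q) * (kt / (Φℓ' / ℓ ^ Q)) ^ m) := by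
  simp only [div_pow, mul_pow, ← pow_mul]
  have h2 : g ^ (Q * m) = g ^ (m * Q) := by rw [mul_comm]
  have h3 : ℓ ^ (Q * m) = ℓ ^ (m * Q) := by rw [mul_comm]
  rw [h2, h3]
  field_simp

/-- field identity behind `ψ_n ≡ 1` on the branch `k`. -/
theorem ratio_identity_psi {g Φg' kt Ψ G ΦG ℓ Φℓ' : F} {Q : ℕ}
    (hg : g ≠ 0) (hΦg' : Φg' ≠ 0) (hΨ : Ψ ≠ 0) (hG : G ≠ 0) (hΦG : ΦG ≠ 0)
    (hℓ : ℓ ≠ 0) (hΦℓ' : Φℓ' ≠ 0) :
    kt * Φg' / g ^ Q / Ψ
      = (kt / (Φℓ' / ℓ ^ Q)) * (G / g / ℓ) ^ Q / ((Ψ / (ΦG / G ^ Q)) * (ΦG / Φg' / Φℓ')) := by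
  simp only [div_pow]
  field_simp

/-- **Abstract `(g4)`.**  If `u = η_n g_n ^ m` locally (`η_n` a unit of `O n`, `g_n` a unit at
the vertical valuations through `n`) and `u ≡ G_k ^ m` at every vertical valuation, then
`Φ u / u ^ Q / Ψ ^ m` has a local datum for the exponent `m`, for a suitable `Ψ ≠ 0`. -/
theorem FrobHyp.localDatum_of_ratio {Φ : F ≃+* F} {ρ : ν → ν} {Q m : ℕ}
    (H : FrobHyp O V Thr π Φ ρ Q m) {u : F} (hu0 : u ≠ 0)
    (hloc : ∀ n, ∃ η g : F, UnitIn (O n) η ∧ g ≠ 0 ∧ (∀ k, Thr n k → (V k).valuation g = 1) ∧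
      u = η * g ^ m)
    (hG : ∀ k, ∃ G : F, (V k).valuation G = 1 ∧ OneU (V k) (u / G ^ m)) :
    ∃ Ψ : F, Ψ ≠ 0 ∧ LocalDatum O V Thr π (Φ u / u ^ Q / Ψ ^ m) m := by
  classical
  choose η g hη hg0 hgV hu using hloc
  choose G hGV hGu using hG
  have hG0 : ∀ k, G k ≠ 0 := fun k h => by
    have := hGV k
    rw [h, map_zero] at this
    exact zero_ne_one this
  -- the branch units `ℓ n k`
  have key : ∀ n k, ∃ ℓ : F, UnitIn (O n) ℓ ∧ (Thr n k → OneU (V k) (G k / g n / ℓ)) := by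
    intro n k
    by_cases hnk : Thr n k
    · have hy : (V k).valuation (G k / g n) = 1 := by
        rw [map_div₀, hGV k, hgV n k hnk, div_one]
      have h1 : OneU (V k) ((G k / g n) ^ m / η n) := by
        have hη0 := (hη n).2.2
        have : (G k / g n) ^ m / η n = (η n * g n ^ m / G k ^ m)⁻¹ := by
          have := hg0 n
          have := hG0 k
          rw [div_pow]
          field_simp
        rw [this, ← hu n]
        exact (hGu k).inv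
      obtain ⟨ℓ, hℓ, hℓ1⟩ := H.hbranch n k hnk _ _ hy (hη n) h1
      exact ⟨ℓ, hℓ, fun _ => hℓ1⟩
    · exact ⟨1, unitIn_one _, fun h => absurd h hnk⟩
  choose ℓ hℓu hℓ1 using key
  -- the units `e n k = Φ ℓ_{n'} / ℓ_n ^ Q`
  obtain ⟨e, he⟩ : ∃ e : ν → κ → F, ∀ n k, e n k = Φ (ℓ (ρ n) k) / ℓ n k ^ Q :=
    ⟨_, fun _ _ => rfl⟩
  have heu : ∀ n k, UnitIn (O n) (e n k) := fun n k => by
    rw [he]
    exact unitIn_div (H.unitIn_map (hℓu (ρ n) k)) ((hℓu n k).pow Q)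
  have hcompat : ∀ n k k', Thr n k → Thr n k' → ¬ UnitIn (O n) (e n k - e n k') := by
    intro n k k' hk hk'
    by_cases hkk : k = k'
    · subst hkk
      rw [sub_self]
      exact fun h => h.2.2 rfl
    · obtain ⟨hρ, hfix⟩ := H.hfix n k k' hk hk' hkk
      have h1 : ¬ UnitIn (O n) (e n k - 1) := by
        rw [he, hρ]; exact hfix _ (hℓu n k)
      have h2 : ¬ UnitIn (O n) (e n k' - 1) := by
        rw [he, hρ]; exact hfix _ (hℓu n k')
      have : e n k - e n k' = (e n k - 1) - (e n k' - 1) := by ring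
      rw [this]
      exact not_unitIn_sub (H.hOloc n) ((O n).sub_mem (heu n k').1 (O n).one_mem) h1 h2
  have hkt : ∀ n, ∃ t : F, UnitIn (O n) t ∧ ∀ k, Thr n k → OneU (V k) (t / e n k) :=
    fun n => H.hlift n (e n) (fun k _ => heu n k) (hcompat n)
  choose kt hktu hkt1 using hkt
  -- the global correction `Ψ`
  have hxV : ∀ k, (V k).valuation (Φ (G k) / G k ^ Q) = 1 := by
    intro k
    rw [map_div₀, map_pow, valuation_map_eq_one (H.hΦV k) (hGV k), hGV k, one_pow, div_one]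
  obtain ⟨Ψ, hΨ0, hΨ⟩ := H.happrox (fun k => Φ (G k) / G k ^ Q) hxV
  refine ⟨Ψ, hΨ0, fun n => ?_⟩
  have hΦg0 : Φ (g (ρ n)) ≠ 0 := (map_ne_zero Φ).mpr (hg0 (ρ n))
  have hkt0 : kt n ≠ 0 := (hktu n).2.2
  refine ⟨kt n * Φ (g (ρ n)) / g n ^ Q / Ψ,
    div_ne_zero (div_ne_zero (mul_ne_zero hkt0 hΦg0) (pow_ne_zero _ (hg0 n))) hΨ0, ?_, ?_⟩
  · -- `ε_n - 1 ∈ π O n`
    have hΦu : Φ u = Φ (η (ρ n)) * Φ (g (ρ n)) ^ m := by
      conv_lhs => rw [hu (ρ n)]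
      rw [map_mul, map_pow]
    have hε : Φ u / u ^ Q / Ψ ^ m / (kt n * Φ (g (ρ n)) / g n ^ Q / Ψ) ^ m
        = Φ (η (ρ n)) / η n ^ Q / kt n ^ m :=
      ratio_identity_unit (hg0 n) hΦg0 hkt0 hΨ0 (hη n).2.2 (hu n) hΦu
    have hεu : UnitIn (O n) (Φ (η (ρ n)) / η n ^ Q / kt n ^ m) :=
      unitIn_div (unitIn_div (H.unitIn_map (hη (ρ n))) ((hη n).pow Q)) ((hktu n).pow m)
    refine H.hsat n _ ((O n).sub_mem (by rw [hε]; exact hεu.1) (O n).one_mem) fun k hk => ?_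
    have hk' : Thr (ρ n) k := H.hΦThr n k hk
    have hℓ0 : ℓ n k ≠ 0 := (hℓu n k).2.2
    have hΦℓ0 : Φ (ℓ (ρ n) k) ≠ 0 := (map_ne_zero Φ).mpr (hℓu (ρ n) k).2.2
    have hΦG0 : Φ (G k) ≠ 0 := (map_ne_zero Φ).mpr (hG0 k)
    rw [ratio_identity_oneU (G := G k) (ΦG := Φ (G k)) (ℓ := ℓ n k) (Φℓ' := Φ (ℓ (ρ n) k))
      hu0 (hg0 n) hΦg0 hkt0 hΨ0 (hG0 k) hΦG0 hℓ0 hΦℓ0]
    have hc : OneU (V k) (Φ u / Φ (G k) ^ m) := by
      have := oneU_map (H.hΦV k) (hGu k)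
      rwa [map_div₀, map_pow] at this
    have ha : OneU (V k) (Φ (G k) / Φ (g (ρ n)) / Φ (ℓ (ρ n) k)) := by
      have := oneU_map (H.hΦV k) (hℓ1 (ρ n) k hk')
      rwa [map_div₀, map_div₀] at this
    have ht : OneU (V k) (kt n / (Φ (ℓ (ρ n) k) / ℓ n k ^ Q)) := by
      have := hkt1 n k hk
      rwa [he] at this
    exact (hc.mul (ha.pow m)).div ((((hGu k).pow Q).mul ((hℓ1 n k hk).pow (m * Q))).mul
      (ht.pow m))
  · -- `ψ_n ≡ 1` on the branches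
    intro k hk
    have hk' : Thr (ρ n) k := H.hΦThr n k hk
    have hℓ0 : ℓ n k ≠ 0 := (hℓu n k).2.2
    have hΦℓ0 : Φ (ℓ (ρ n) k) ≠ 0 := (map_ne_zero Φ).mpr (hℓu (ρ n) k).2.2
    have hΦG0 : Φ (G k) ≠ 0 := (map_ne_zero Φ).mpr (hG0 k)
    rw [ratio_identity_psi (G := G k) (ΦG := Φ (G k)) (ℓ := ℓ n k) (Φℓ' := Φ (ℓ (ρ n) k))
      (hg0 n) hΦg0 hΨ0 (hG0 k) hΦG0 hℓ0 hΦℓ0]
    have ha : OneU (V k) (Φ (G k) / Φ (g (ρ n)) / Φ (ℓ (ρ n) k)) := by
      have := oneU_map (H.hΦV k) (hℓ1 (ρ n) k hk')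
      rwa [map_div₀, map_div₀] at this
    have ht : OneU (V k) (kt n / (Φ (ℓ (ρ n) k) / ℓ n k ^ Q)) := by
      have := hkt1 n k hk
      rwa [he] at this
    exact (ht.mul ((hℓ1 n k hk).pow Q)).div ((hΨ k).mul ha)

end G4

/-! ### Producing the interface: `hlift`, `hfix`, and the residue bridge -/

section Produce

variable {R F : Type*} [CommRing R] [Field F] [Algebra R F]
variable {κ : Type*} {S : Subring F} {V : κ → ValuationSubring F} {T : κ → Prop}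

/-- a non-unit of `S ⊆ V k` criterion: valuation `< 1` at a valuation ring containing `S`. -/
theorem not_unitIn_of_lt {A : ValuationSubring F} (hSA : ∀ x ∈ S, x ∈ A) {d : F}
    (hd : A.valuation d < 1) : ¬ UnitIn S d := by
  rintro ⟨-, hinv, hd0⟩
  have h1 : A.valuation d⁻¹ ≤ 1 := (A.valuation_le_one_iff _).mpr (hSA _ hinv)
  have h2 : A.valuation d * A.valuation d⁻¹ = 1 := by
    rw [← map_mul, mul_inv_cancel₀ hd0, map_one]
  have : A.valuation d * A.valuation d⁻¹ < 1 := by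
    calc _ ≤ A.valuation d * 1 := mul_le_mul_right h1 _
      _ < 1 := by rwa [mul_one]
  rw [h2] at this
  exact lt_irrefl _ this

theorem valuation_eq_one_of_unitIn {A : ValuationSubring F} (hSA : ∀ x ∈ S, x ∈ A) {d : F}
    (hd : UnitIn S d) : A.valuation d = 1 := by
  refine le_antisymm ((A.valuation_le_one_iff _).mpr (hSA _ hd.1)) ?_
  by_contra hlt
  exact not_unitIn_of_lt hSA (not_le.mp hlt) hd

/-- `hlift` at a point with at most one branch. -/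
theorem lift_of_unique_branch (hT : ∀ k k', T k → T k' → k = k') (e : κ → F)
    (he : ∀ k, T k → UnitIn S (e k)) :
    ∃ t : F, UnitIn S t ∧ ∀ k, T k → OneU (V k) (t / e k) := by
  by_cases h : ∃ k, T k
  · obtain ⟨k₀, hk₀⟩ := h
    refine ⟨e k₀, he k₀ hk₀, fun k hk => ?_⟩
    rw [hT k k₀ hk hk₀, div_self (he k₀ hk₀).2.2]
    exact OneU.one
  · exact ⟨1, unitIn_one S, fun k hk => absurd ⟨k, hk⟩ h⟩

/-- `hlift` at a point with exactly two branches `k₁ ≠ k₂` whose maximal ideal is the sum of the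
two branch primes (`O n / π` = fibre product of the two branches over the residue field). -/
theorem lift_of_two_branches (hS : IsLoc S) {k₁ k₂ : κ} (hT : ∀ k, T k → k = k₁ ∨ k = k₂)
    (hSV₁ : ∀ x ∈ S, x ∈ V k₁) (hSV₂ : ∀ x ∈ S, x ∈ V k₂)
    (hsum : ∀ x ∈ S, ¬ UnitIn S x → ∃ p₁ ∈ S, ∃ p₂ ∈ S, x = p₁ + p₂ ∧
      (V k₁).valuation p₁ < 1 ∧ (V k₂).valuation p₂ < 1)
    (e : κ → F) (he₁ : UnitIn S (e k₁)) (he₂ : UnitIn S (e k₂))
    (hcompat : ¬ UnitIn S (e k₁ - e k₂)) :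
    ∃ t : F, UnitIn S t ∧ ∀ k, T k → OneU (V k) (t / e k) := by
  obtain ⟨p₁, hp₁, p₂, hp₂, hsum', hv₁, hv₂⟩ :=
    hsum _ (S.sub_mem he₁.1 he₂.1) hcompat
  have hnu₁ : ¬ UnitIn S (-p₁) := fun h =>
    not_unitIn_of_lt hSV₁ hv₁ (by simpa using unitIn_neg h)
  have ht : UnitIn S (e k₁ + -p₁) := hS _ _ he₁ (S.neg_mem hp₁) hnu₁
  refine ⟨e k₁ + -p₁, ht, fun k hk => ?_⟩
  rcases hT k hk with rfl | rfl
  · have h0 := he₁.2.2
    refine oneU_of_sub (t := -p₁ / e k) (by field_simp; ring) ?_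
    rw [map_div₀, Valuation.map_neg, valuation_eq_one_of_unitIn hSV₁ he₁, div_one]
    exact hv₁
  · have h0 := he₂.2.2
    have h1 : e k₁ + -p₁ = e k + p₂ := by linear_combination hsum'
    refine oneU_of_sub (t := p₂ / e k) (by rw [h1]; field_simp; ring) ?_
    rw [map_div₀, valuation_eq_one_of_unitIn hSV₂ he₂, div_one]
    exact hv₂

/-- `hfix` at a `Φ`-fixed point whose residue field is that of `R` (`O n = R + 𝔪_n`), `Φ` being
the `Q`-Frobenius on `R / π`. -/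
theorem not_unitIn_frob_ratio (hS : IsLoc S) {Φ : F ≃+* F} {Q : ℕ} {π : R}
    (hΦS : ∀ x, Φ x ∈ S ↔ x ∈ S) (hRS : ∀ r : R, algebraMap R F r ∈ S)
    (hπ : ¬ UnitIn S (algebraMap R F π))
    (hrat : ∀ x ∈ S, ∃ r : R, ¬ UnitIn S (x - algebraMap R F r))
    (hFrob : ∀ r : R, ∃ s : R, Φ (algebraMap R F r) = algebraMap R F (r ^ Q + π * s))
    {ℓ : F} (hℓ : UnitIn S ℓ) : ¬ UnitIn S (Φ ℓ / ℓ ^ Q - 1) := by
  obtain ⟨r, hr⟩ := hrat ℓ hℓ.1
  set c : F := algebraMap R F r with hc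
  set μ : F := ℓ - c with hμ
  have hμS : μ ∈ S := S.sub_mem hℓ.1 (hRS r)
  -- `Φ μ` is a non-unit of `S`
  have hΦμ : ¬ UnitIn S (Φ μ) := by
    rintro ⟨-, h2, h3⟩
    apply hr
    refine ⟨hμS, ?_, (map_ne_zero Φ).mp h3⟩
    rw [← map_inv₀] at h2
    exact (hΦS _).mp h2
  have hΦμS : Φ μ ∈ S := (hΦS _).mpr hμS
  obtain ⟨s, hs⟩ := hFrob r
  -- `Φ ℓ - ℓ ^ Q` is a non-unit
  have hdecomp : Φ ℓ - ℓ ^ Q
      = (Φ μ + algebraMap R F π * algebraMap R F s) + (c ^ Q - ℓ ^ Q) := by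
    have : ℓ = μ + c := by rw [hμ]; ring
    conv_lhs => rw [this, map_add, hs, map_add, map_mul, map_pow]
    rw [← hc, ← this]
    ring
  have h1 : ¬ UnitIn S (algebraMap R F π * algebraMap R F s) :=
    not_unitIn_mul (hRS π) (hRS s) hπ
  have h2 : ¬ UnitIn S (c ^ Q - ℓ ^ Q) := by
    have hfac : c ^ Q - ℓ ^ Q = -μ * ∑ i ∈ Finset.range Q, c ^ i * ℓ ^ (Q - 1 - i) := by
      have := (Commute.all c ℓ).mul_geom_sum₂ Q
      rw [hμ, ← this]; ring
    rw [hfac]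
    refine not_unitIn_mul (S.neg_mem hμS) (S.sum_mem fun i _ =>
      S.mul_mem (S.pow_mem (hRS r) i) (S.pow_mem hℓ.1 _)) fun h => hr ?_
    simpa using unitIn_neg h
  have h3 : ¬ UnitIn S (Φ ℓ - ℓ ^ Q) := by
    rw [hdecomp]
    exact not_unitIn_add hS (S.sub_mem (S.pow_mem (hRS r) Q) (S.pow_mem hℓ.1 Q))
      (not_unitIn_add hS (S.mul_mem (hRS π) (hRS s)) hΦμ h1) h2
  have h4 : Φ ℓ / ℓ ^ Q - 1 = (Φ ℓ - ℓ ^ Q) * (ℓ ^ Q)⁻¹ := by
    have := pow_ne_zero Q hℓ.2.2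
    field_simp
  rw [h4]
  exact not_unitIn_mul (S.sub_mem ((hΦS _).mpr hℓ.1) (S.pow_mem hℓ.1 Q)) (hℓ.pow Q).2.1 h3

/-- **Residue bridge** for `(g3)`: a residue map `red : V →+* kap` (surjective, kernel the
maximal ideal) and `red u = G ^ m` give `Gt` with `v Gt = 1` and `u ≡ Gt ^ m`. -/
theorem exists_oneU_of_residue {A : ValuationSubring F} {kap : Type*} [Field kap]
    (red : A →+* kap) (hsurj : Function.Surjective red)
    (hker : ∀ x : A, red x = 0 ↔ A.valuation (x : F) < 1) {u : F} (hu : A.valuation u = 1)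
    {G : kap} {m : ℕ} (h : red ⟨u, (A.valuation_le_one_iff u).mp hu.le⟩ = G ^ m) :
    ∃ Gt : F, A.valuation Gt = 1 ∧ OneU A (u / Gt ^ m) := by
  have hker' : ∀ (x : F) (hx : x ∈ A), red ⟨x, hx⟩ = 0 → A.valuation x < 1 :=
    fun x hx h0 => (hker ⟨x, hx⟩).mp h0
  rcases Nat.eq_zero_or_pos m with hm | hm
  · subst hm
    refine ⟨1, map_one _, ?_⟩
    rw [pow_zero, div_one]
    have hdiff : red (⟨u, (A.valuation_le_one_iff u).mp hu.le⟩ - 1) = 0 := by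
      rw [map_sub, map_one, h, pow_zero, sub_self]
    exact (hker _).mp hdiff
  obtain ⟨Gt, hGt⟩ := hsurj G
  have hu' : red ⟨u, (A.valuation_le_one_iff u).mp hu.le⟩ ≠ 0 := by
    intro h0
    have := hker' u _ h0
    rw [hu] at this
    exact lt_irrefl _ this
  have hG0 : G ≠ 0 := by
    rintro rfl
    rw [zero_pow hm.ne'] at h
    exact hu' h
  have hGtv : A.valuation (Gt : F) = 1 := by
    refine le_antisymm ((A.valuation_le_one_iff _).mpr Gt.2) ?_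
    by_contra hlt
    have := (hker Gt).mpr (not_le.mp hlt)
    rw [hGt] at this
    exact hG0 this
  refine ⟨Gt, hGtv, ?_⟩
  have hGt0 : (Gt : F) ≠ 0 := by
    intro h0
    rw [h0, map_zero] at hGtv
    exact zero_ne_one hGtv
  have hdiff : red (⟨u, (A.valuation_le_one_iff u).mp hu.le⟩ - Gt ^ m) = 0 := by
    rw [map_sub, map_pow, hGt, h, sub_self]
  have hlt := (hker _).mp hdiff
  refine oneU_of_sub (t := (u - (Gt : F) ^ m) / (Gt : F) ^ m) (by field_simp) ?_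
  rw [map_div₀, map_pow, hGtv, one_pow, div_one]
  simpa using hlt

end Produce

/-! ### The composition with the induction of `H47` -/

section Top

variable {R K0 F : Type*} [CommRing R] [Field K0] [Field F] [Algebra R K0] [Algebra R F]
  [Algebra K0 F] [IsScalarTower R K0 F]
variable {ν κ : Type*} {O : ν → Subring F} {V : κ → ValuationSubring F} {Thr : ν → κ → Prop}
  {π : R}

/-- **Abstract G5, composed.**  Model hypotheses + the Kummer step (both exactly as in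
`H47.exists_pow_of_localDatum`) + the Frobenius interface: if `u = η_n g_n ^ (l ^ k)` locally and
`u ≡ G_k ^ (l ^ k)` on the vertical valuations, then `Φ u / u ^ Q` is a constant times an
`l ^ k`-th power.  (With `u = Φ u₁ / u₁`, `u₁ = Φ f / f`: `(Φ - Q)(Φ - 1)² f ∈ K^× F^{× m}`.) -/
theorem exists_const_mul_pow_of_ratio {l : ℕ} {ζ : R} (HM : ModelHyp K0 O V Thr π l ζ)
    (hK : ∀ u : F, u ≠ 0 → LocalDatum O V Thr π u l →
      ∃ (c : K0) (g : F), u = algebraMap K0 F c * g ^ l)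
    {Φ : F ≃+* F} {ρ : ν → ν} {Q : ℕ} (k : ℕ) (H : FrobHyp O V Thr π Φ ρ Q (l ^ k))
    {u : F} (hu0 : u ≠ 0)
    (hloc : ∀ n, ∃ η g : F, UnitIn (O n) η ∧ g ≠ 0 ∧ (∀ i, Thr n i → (V i).valuation g = 1) ∧
      u = η * g ^ (l ^ k))
    (hG : ∀ i, ∃ G : F, (V i).valuation G = 1 ∧ OneU (V i) (u / G ^ (l ^ k))) :
    ∃ (c : K0) (w : F), c ≠ 0 ∧ w ≠ 0 ∧ Φ u / u ^ Q = algebraMap K0 F c * w ^ (l ^ k) := by
  obtain ⟨Ψ, hΨ0, hdat⟩ := H.localDatum_of_ratio hu0 hloc hG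
  have hΦu0 : Φ u ≠ 0 := (map_ne_zero Φ).mpr hu0
  have hu3 : Φ u / u ^ Q / Ψ ^ (l ^ k) ≠ 0 :=
    div_ne_zero (div_ne_zero hΦu0 (pow_ne_zero _ hu0)) (pow_ne_zero _ hΨ0)
  obtain ⟨c, w, hc, hw, h⟩ := exists_pow_of_localDatum HM hK k _ hu3 hdat
  refine ⟨c, w * Ψ, hc, mul_ne_zero hw hΨ0, ?_⟩
  rw [mul_pow, ← mul_assoc, ← h]
  field_simp

/-- The same with the three ratios spelled out: `u₁ = η_n g_n ^ m` locally (output of `(g1)` for
`u₁ = Φ f / f`), `u₂ := Φ u₁ / u₁ ≡ G_k ^ m` on the vertical valuations (output of `(g3)`), then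
`u₃ := Φ u₂ / u₂ ^ Q = c * w ^ m`. -/
theorem exists_const_mul_pow_of_three_ratios {l : ℕ} {ζ : R} (HM : ModelHyp K0 O V Thr π l ζ)
    (hK : ∀ u : F, u ≠ 0 → LocalDatum O V Thr π u l →
      ∃ (c : K0) (g : F), u = algebraMap K0 F c * g ^ l)
    {Φ : F ≃+* F} {ρ : ν → ν} {Q : ℕ} (k : ℕ) (H : FrobHyp O V Thr π Φ ρ Q (l ^ k))
    {u₁ : F} (hu0 : u₁ ≠ 0)
    (hloc : ∀ n, ∃ η g : F, UnitIn (O n) η ∧ g ≠ 0 ∧ (∀ i, Thr n i → (V i).valuation g = 1) ∧
      u₁ = η * g ^ (l ^ k))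
    (hG : ∀ i, ∃ G : F, (V i).valuation G = 1 ∧ OneU (V i) (Φ u₁ / u₁ / G ^ (l ^ k))) :
    ∃ (c : K0) (w : F), c ≠ 0 ∧ w ≠ 0 ∧
      Φ (Φ u₁ / u₁) / (Φ u₁ / u₁) ^ Q = algebraMap K0 F c * w ^ (l ^ k) :=
  exists_const_mul_pow_of_ratio HM hK k H
    (div_ne_zero ((map_ne_zero Φ).mpr hu0) hu0) (H.ratio_loc hloc) hG

end Top

end Fermat.Agent.S35.H62
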