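/-
S35 / (g3) wiring bridge (helper84).

The chart-side of S35 (`FrobHyp` / `FrobModel`, helper62 / helper46) speaks about the valuation
subrings `H56.valuationSubringAt p h1` of the vertical primes `p = ker red_k` of a chart `B`,
while the norm reduction `(g2)` (helper16 / helper42) and the Frobenius compatibility (helper27)
speak about the two places `P : CA.H99.PlaceOver ϖ θ ι θb`.  This file identifies the two:

* `valuationSubringAt_le_of_units`, `valuationSubringAt_eq_of_centre` : GENERIC.  If a valuation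
  subring `W` of `K = Frac B` contains `B` and has centre `p` on `B`, then
  `H56.valuationSubringAt p h1 = W` (no rank-one argument: `W` dominates `B_p`).
* `place_valuation_lt_one_iff`, `place_valuation_eq_one_iff` : the valuation of
  `P.toValuationSubring` in terms of `P.res1`.
* `placeResField` (the range of `res1`, a subfield of the big field), `placeResHom`
  (`P.toValuationSubring →+* placeResField P`), surjective with kernel the maximal ideal: exactly the
  inputs `red hsurj hker` of `S35.H62.exists_oneU_of_residue`.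
* `valuationSubringAt_ker_eq_place` : for a reduction `red : B →+* R'` with
  `red b = 0 ↔ P.res1 b = 0`: `H56.valuationSubringAt (ker red) h1 = P.toValuationSubring`.
* `exists_oneU_of_place_residue` : `(g3)` bridge in the mixed vocabulary.
-/
import Mathlib
import Fermat.Agent.S34.H56_PrimeVal
import Fermat.Agent.CA.H99_TwoPlacesThm
import Fermat.Agent.S35.H62_ThreeRatios

set_option autoImplicit false
set_option linter.unusedSectionVars false

namespace Fermat.Agent.S35.H84

open Polynomial Fermat.Agent.S34 Fermat.Agent.S34.H47 Fermat.Agent.CA.H99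

/-! ### Generic: a valuation subring with centre `p` is `B_p` -/

section Generic

variable {B K : Type*} [CommRing B] [IsDomain B] [Field K] [Algebra B K] [IsFractionRing B K]
  [IsNoetherianRing B] [IsIntegrallyClosed B]

/-- `B_p ≤ W` as soon as `B ⊆ W` and the elements of `B` outside `p` are units of `W`. -/
theorem valuationSubringAt_le_of_units (p : Ideal B) [hp : p.IsPrime] (h1 : p.height = 1)
    (W : ValuationSubring K)
    (hunit : ∀ b : B, b ∉ p → W.valuation (algebraMap B K b) = 1)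
    (hBW : ∀ b : B, algebraMap B K b ∈ W) :
    H56.valuationSubringAt (K := K) p h1 ≤ W := by
  intro x hx
  obtain ⟨a, b, hb, hab⟩ := (H56.mem_valuationSubringAt h1).mp hx
  have hvb := hunit b hb
  have hva : W.valuation (algebraMap B K a) ≤ 1 := (W.valuation_le_one_iff _).mpr (hBW a)
  have : W.valuation x = W.valuation (algebraMap B K a) := by
    rw [← hab, map_mul, hvb, mul_one]
  exact (W.valuation_le_one_iff x).mp (this ▸ hva)

/-- **A valuation subring with centre `p` on `B` is `B_p`.** -/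
theorem valuationSubringAt_eq_of_centre (p : Ideal B) [hp : p.IsPrime] (h1 : p.height = 1)
    (W : ValuationSubring K) (hBW : ∀ b : B, algebraMap B K b ∈ W)
    (hcentre : ∀ b : B, b ∈ p ↔ W.valuation (algebraMap B K b) < 1) :
    H56.valuationSubringAt (K := K) p h1 = W := by
  have hunit : ∀ b : B, b ∉ p → W.valuation (algebraMap B K b) = 1 := by
    intro b hb
    refine le_antisymm ((W.valuation_le_one_iff _).mpr (hBW b)) (not_lt.mp ?_)
    exact fun h => hb ((hcentre b).mpr h)
  refine le_antisymm (valuationSubringAt_le_of_units p h1 W hunit hBW) ?_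
  intro x hxW
  by_contra hxV
  -- `x⁻¹ ∈ B_p`
  have hxi : x⁻¹ ∈ H56.valuationSubringAt (K := K) p h1 :=
    ((H56.valuationSubringAt (K := K) p h1).mem_or_inv_mem x).resolve_left hxV
  obtain ⟨a, b, hb, hab⟩ := (H56.mem_valuationSubringAt h1).mp hxi
  have hx0 : x ≠ 0 := by
    rintro rfl
    exact hxV (H56.valuationSubringAt (K := K) p h1).zero_mem
  -- `a ∈ p`: otherwise `x = b / a ∈ B_p`
  have ha : a ∈ p := by
    by_contra ha
    apply hxV
    refine (H56.mem_valuationSubringAt h1).mpr ⟨b, a, ha, ?_⟩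
    rw [← hab]
    field_simp
  have hva : W.valuation (algebraMap B K a) < 1 := (hcentre a).mp ha
  have hvb := hunit b hb
  have hvx : W.valuation x⁻¹ < 1 := by
    have : W.valuation x⁻¹ = W.valuation (algebraMap B K a) := by
      rw [← hab, map_mul, hvb, mul_one]
    rw [this]
    exact hva
  have hvx1 : W.valuation x ≤ 1 := (W.valuation_le_one_iff x).mpr hxW
  have hv0 : W.valuation x ≠ 0 := (Valuation.ne_zero_iff _).mpr hx0
  rw [map_inv₀, inv_lt_one₀ (zero_lt_iff.mpr hv0)] at hvx
  exact absurd hvx1 (not_le.mpr hvx)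

end Generic

/-! ### The valuation and the residue field of a `PlaceOver` -/

section Place

variable {O : Type*} [CommRing O] {L : Type*} [Field L] [Algebra O L] {Fk : Type*} [Field Fk]
  {ϖ : O} {θ : L} {ι : O →+* Fk} {θb : Fk} (P : PlaceOver ϖ θ ι θb)

theorem place_mem_toValuationSubring {y : L} : y ∈ P.toValuationSubring ↔ y ∈ P.O1 :=
  Iff.rfl

/-- the residue of a unit of `O1` is non-zero. -/
theorem place_res1_ne_zero_of_inv_mem {y : L} (hy : y ∈ P.O1) (hyi : y⁻¹ ∈ P.O1)
    (hy0 : y ≠ 0) : P.res1 ⟨y, hy⟩ ≠ 0 := by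
  intro h
  have h1 : (⟨y, hy⟩ : P.O1) * ⟨y⁻¹, hyi⟩ = 1 := Subtype.ext (mul_inv_cancel₀ hy0)
  have h2 := congrArg P.res1 h1
  rw [map_mul, h, zero_mul, map_one] at h2
  exact zero_ne_one h2

/-- `v(y) < 1 ↔ y ∈ O1` with residue `0`. -/
theorem place_valuation_lt_one_iff (y : L) :
    P.toValuationSubring.valuation y < 1 ↔ ∃ hy : y ∈ P.O1, P.res1 ⟨y, hy⟩ = 0 := by
  constructor
  · intro h
    have hy : y ∈ P.O1 := (P.toValuationSubring.valuation_le_one_iff y).mp h.le
    refine ⟨hy, ?_⟩
    by_contra hne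
    have hyi : y⁻¹ ∈ P.O1 := P.inv_mem y hy hne
    have h2 : P.toValuationSubring.valuation y⁻¹ ≤ 1 :=
      (P.toValuationSubring.valuation_le_one_iff _).mpr hyi
    have hy0 : y ≠ 0 := by
      rintro rfl
      exact hne (by
        have : (⟨0, hy⟩ : P.O1) = 0 := rfl
        rw [this, map_zero])
    have hv0 : P.toValuationSubring.valuation y ≠ 0 := (Valuation.ne_zero_iff _).mpr hy0
    rw [map_inv₀, inv_le_one₀ (zero_lt_iff.mpr hv0)] at h2
    exact absurd h (not_lt.mpr h2)
  · rintro ⟨hy, h0⟩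
    have hle : P.toValuationSubring.valuation y ≤ 1 :=
      (P.toValuationSubring.valuation_le_one_iff y).mpr hy
    refine lt_of_le_of_ne hle ?_
    intro h1
    have hy0 : y ≠ 0 := by
      rintro rfl
      rw [map_zero] at h1
      exact zero_ne_one h1
    have hyi : y⁻¹ ∈ P.O1 := by
      refine (P.toValuationSubring.valuation_le_one_iff _).mp ?_
      rw [map_inv₀, h1, inv_one]
    exact place_res1_ne_zero_of_inv_mem P hy hyi hy0 h0

/-- `v(y) = 1 ↔ y ∈ O1` with non-zero residue. -/
theorem place_valuation_eq_one_iff (y : L) :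
    P.toValuationSubring.valuation y = 1 ↔ ∃ hy : y ∈ P.O1, P.res1 ⟨y, hy⟩ ≠ 0 := by
  constructor
  · intro h
    have hy : y ∈ P.O1 := (P.toValuationSubring.valuation_le_one_iff y).mp h.le
    refine ⟨hy, fun h0 => ?_⟩
    have := (place_valuation_lt_one_iff P y).mpr ⟨hy, h0⟩
    rw [h] at this
    exact lt_irrefl _ this
  · rintro ⟨hy, hne⟩
    have hle : P.toValuationSubring.valuation y ≤ 1 :=
      (P.toValuationSubring.valuation_le_one_iff y).mpr hy
    refine le_antisymm hle (not_lt.mp fun hlt => ?_)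
    obtain ⟨hy', h0⟩ := (place_valuation_lt_one_iff P y).mp hlt
    exact hne h0

/-- The residue field of the place: the range of `res1`, a SUBFIELD of the big field `Fk`. -/
def placeResField : Subfield Fk where
  toSubring := P.res1.range
  inv_mem' := by
    rintro _ ⟨⟨y, hy⟩, rfl⟩
    by_cases h0 : P.res1 ⟨y, hy⟩ = 0
    · rw [h0, inv_zero]
      exact Subring.zero_mem _
    · have hyi : y⁻¹ ∈ P.O1 := P.inv_mem y hy h0
      refine ⟨⟨y⁻¹, hyi⟩, ?_⟩
      have hy0 : y ≠ 0 := by
        rintro rfl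
        exact h0 (by
          have : (⟨0, hy⟩ : P.O1) = 0 := rfl
          rw [this, map_zero])
      have h1 : (⟨y, hy⟩ : P.O1) * ⟨y⁻¹, hyi⟩ = 1 := Subtype.ext (mul_inv_cancel₀ hy0)
      have h2 := congrArg P.res1 h1
      rw [map_mul, map_one] at h2
      exact (eq_inv_of_mul_eq_one_right h2)

theorem mem_placeResField {z : Fk} : z ∈ placeResField P ↔ ∃ x : P.O1, P.res1 x = z :=
  Iff.rfl

theorem res1_mem_placeResField (x : P.O1) : P.res1 x ∈ placeResField P := ⟨x, rfl⟩

/-- The residue map onto the residue field. -/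
def placeResHom : P.toValuationSubring →+* placeResField P where
  toFun x := ⟨P.res1 ⟨(x : L), x.2⟩, res1_mem_placeResField P _⟩
  map_one' := Subtype.ext (by
    show P.res1 (1 : P.O1) = 1
    exact map_one _)
  map_mul' x y := Subtype.ext (by
    show P.res1 ((⟨(x : L), x.2⟩ : P.O1) * ⟨(y : L), y.2⟩) = P.res1 ⟨(x : L), x.2⟩ * P.res1 ⟨(y : L), y.2⟩
    exact map_mul _ _ _)
  map_zero' := Subtype.ext (by
    show P.res1 (0 : P.O1) = 0
    exact map_zero _)
  map_add' x y := Subtype.ext (by
    show P.res1 ((⟨(x : L), x.2⟩ : P.O1) + ⟨(y : L), y.2⟩) = P.res1 ⟨(x : L), x.2⟩ + P.res1 ⟨(y : L), y.2⟩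
    exact map_add _ _ _)

@[simp] theorem coe_placeResHom (x : P.toValuationSubring) :
    ((placeResHom P x : placeResField P) : Fk) = P.res1 ⟨(x : L), x.2⟩ := rfl

theorem placeResHom_surjective : Function.Surjective (placeResHom P) := by
  rintro ⟨_, ⟨⟨y, hy⟩, rfl⟩⟩
  exact ⟨⟨y, hy⟩, rfl⟩

theorem placeResHom_eq_zero_iff (x : P.toValuationSubring) :
    placeResHom P x = 0 ↔ P.toValuationSubring.valuation (x : L) < 1 := by
  rw [place_valuation_lt_one_iff P]
  constructor
  · intro h
    exact ⟨x.2, congrArg Subtype.val h⟩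
  · rintro ⟨_, h⟩
    exact Subtype.ext h

/-- `OneU` at the place `⇔` residue `1`. -/
theorem place_oneU_iff (x : L) :
    OneU P.toValuationSubring x ↔ ∃ hx : x ∈ P.O1, P.res1 ⟨x, hx⟩ = 1 := by
  unfold OneU
  rw [place_valuation_lt_one_iff P]
  constructor
  · rintro ⟨h, h0⟩
    have hx : x ∈ P.O1 := by
      have := P.O1.add_mem h P.O1.one_mem
      rwa [sub_add_cancel] at this
    refine ⟨hx, ?_⟩
    have h1 : (⟨x - 1, h⟩ : P.O1) = ⟨x, hx⟩ - 1 := rfl
    rw [h1, map_sub, map_one, sub_eq_zero] at h0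
    exact h0
  · rintro ⟨hx, h1⟩
    refine ⟨P.O1.sub_mem hx P.O1.one_mem, ?_⟩
    have h2 : (⟨x - 1, P.O1.sub_mem hx P.O1.one_mem⟩ : P.O1) = ⟨x, hx⟩ - 1 := rfl
    rw [h2, map_sub, map_one, h1, sub_self]

end Place

/-! ### The bridge -/

section Bridge

variable {O : Type*} [CommRing O] {L : Type*} [Field L] [Algebra O L] {Fk : Type*} [Field Fk]
  {ϖ : O} {θ : L} {ι : O →+* Fk} {θb : Fk} (P : PlaceOver ϖ θ ι θb)
  {B : Type*} [CommRing B] [IsDomain B] [Algebra B L] [IsFractionRing B L]
  [IsNoetherianRing B] [IsIntegrallyClosed B]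

/-- **The valuation ring of the vertical prime `ker red` is the place `P`.** -/
theorem valuationSubringAt_ker_eq_place {R' : Type*} [CommRing R'] (red : B →+* R')
    [hk : (RingHom.ker red).IsPrime] (h1 : (RingHom.ker red).height = 1)
    (hB : ∀ b : B, algebraMap B L b ∈ P.O1)
    (hred : ∀ b : B, red b = 0 ↔ P.res1 ⟨algebraMap B L b, hB b⟩ = 0) :
    H56.valuationSubringAt (K := L) (RingHom.ker red) h1 = P.toValuationSubring := by
  refine valuationSubringAt_eq_of_centre _ h1 _ hB fun b => ?_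
  rw [RingHom.mem_ker, hred b, place_valuation_lt_one_iff P]
  exact ⟨fun h => ⟨hB b, h⟩, fun ⟨_, h⟩ => h⟩

/-- the same for an arbitrary prime `p` with `b ∈ p ↔ res1 b = 0`. -/
theorem valuationSubringAt_eq_place (p : Ideal B) [hp : p.IsPrime] (h1 : p.height = 1)
    (hB : ∀ b : B, algebraMap B L b ∈ P.O1)
    (hred : ∀ b : B, b ∈ p ↔ P.res1 ⟨algebraMap B L b, hB b⟩ = 0) :
    H56.valuationSubringAt (K := L) p h1 = P.toValuationSubring := by
  refine valuationSubringAt_eq_of_centre _ h1 _ hB fun b => ?_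
  rw [hred b, place_valuation_lt_one_iff P]
  exact ⟨fun h => ⟨hB b, h⟩, fun ⟨_, h⟩ => h⟩

/-- `OneU` at the chart valuation ring `⇔` residue `1` at the place. -/
theorem chart_oneU_iff (p : Ideal B) [hp : p.IsPrime] (h1 : p.height = 1)
    (hB : ∀ b : B, algebraMap B L b ∈ P.O1)
    (hred : ∀ b : B, b ∈ p ↔ P.res1 ⟨algebraMap B L b, hB b⟩ = 0) (x : L) :
    OneU (H56.valuationSubringAt (K := L) p h1) x ↔ ∃ hx : x ∈ P.O1, P.res1 ⟨x, hx⟩ = 1 := by
  rw [valuationSubringAt_eq_place P p h1 hB hred]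
  exact place_oneU_iff P x

/-- valuation `1` at the chart valuation ring `⇔` non-zero residue at the place. -/
theorem chart_valuation_eq_one_iff (p : Ideal B) [hp : p.IsPrime] (h1 : p.height = 1)
    (hB : ∀ b : B, algebraMap B L b ∈ P.O1)
    (hred : ∀ b : B, b ∈ p ↔ P.res1 ⟨algebraMap B L b, hB b⟩ = 0) (x : L) :
    (H56.valuationSubringAt (K := L) p h1).valuation x = 1 ↔
      ∃ hx : x ∈ P.O1, P.res1 ⟨x, hx⟩ ≠ 0 := by
  rw [valuationSubringAt_eq_place P p h1 hB hred]
  exact place_valuation_eq_one_iff P x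

/-- membership in the chart valuation ring `⇔` membership in the place. -/
theorem chart_mem_iff (p : Ideal B) [hp : p.IsPrime] (h1 : p.height = 1)
    (hB : ∀ b : B, algebraMap B L b ∈ P.O1)
    (hred : ∀ b : B, b ∈ p ↔ P.res1 ⟨algebraMap B L b, hB b⟩ = 0) (x : L) :
    x ∈ H56.valuationSubringAt (K := L) p h1 ↔ x ∈ P.O1 := by
  rw [valuationSubringAt_eq_place P p h1 hB hred]
  exact Iff.rfl

/-- **`(g3)` bridge, place form.** If `u ∈ O1` has residue `c ^ m` with `c` a residue
(`c = res1 g`), then `u ≡ Gt ^ m` at the place, with `Gt` a unit of the place. -/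
theorem exists_oneU_of_place_residue {u : L} (hu : u ∈ P.O1) {G : Fk} (hG : G ∈ placeResField P)
    {m : ℕ} (hu0 : P.res1 ⟨u, hu⟩ ≠ 0) (h : P.res1 ⟨u, hu⟩ = G ^ m) :
    ∃ Gt : L, P.toValuationSubring.valuation Gt = 1 ∧
      OneU P.toValuationSubring (u / Gt ^ m) := by
  have huv : P.toValuationSubring.valuation u = 1 := (place_valuation_eq_one_iff P u).mpr ⟨hu, hu0⟩
  refine H62.exists_oneU_of_residue (A := P.toValuationSubring) (placeResHom P) (placeResHom_surjective P)
    (placeResHom_eq_zero_iff P) huv (G := ⟨G, hG⟩) (m := m) ?_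
  exact Subtype.ext h

/-- **`(g3)` bridge, chart form**: the same at `H56.valuationSubringAt p h1`. -/
theorem exists_oneU_of_chart_residue (p : Ideal B) [hp : p.IsPrime] (h1 : p.height = 1)
    (hB : ∀ b : B, algebraMap B L b ∈ P.O1)
    (hred : ∀ b : B, b ∈ p ↔ P.res1 ⟨algebraMap B L b, hB b⟩ = 0)
    {u : L} (hu : u ∈ P.O1) {G : Fk} (hG : G ∈ placeResField P)
    {m : ℕ} (hu0 : P.res1 ⟨u, hu⟩ ≠ 0) (h : P.res1 ⟨u, hu⟩ = G ^ m) :
    ∃ Gt : L, (H56.valuationSubringAt (K := L) p h1).valuation Gt = 1 ∧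
      OneU (H56.valuationSubringAt (K := L) p h1) (u / Gt ^ m) := by
  rw [valuationSubringAt_eq_place P p h1 hB hred]
  exact exists_oneU_of_place_residue P hu hG hu0 h

end Bridge

end Fermat.Agent.S35.H84
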