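/-
S35 / node (VB) of the G-side integration map (helper6): **the vertical block** of
`H18.geoFnE'_inst` and the four bridge hypotheses `hOinf hO0 hkerinf hker0` of
`H46.g3_roots_oneU`, GENERIC form.

From helper83's interface `H83.TwoComponents red₁ red₂ ι V rbar W q (algebraMap A B π)` on a
chart `B` (+ a coordinate `c` of the lower chart with `W (rbar c) = rbar c ^ q`, `rbar c` not a
root of `X ^ (q²) - X`):

* `ker red₁`, `ker red₂` are exactly the primes minimal over `(π)`, they are distinct, of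
  height one, and the coordinate `ι c * V c` lies in neither;
* if moreover `red_k b = 0 ↔ P_k.res1 b = 0` for two places `P∞ P₀ : CA.H99.PlaceOver ..`
  (helper85's `hred`), the valuation rings of the vertical primes are the two places
  (so they agree between the two charts), and `hOinf hO0 hkerinf hker0` hold literally.
-/
import Mathlib
import Fermat.Agent.S35.H84_ChartFrobTC
import Fermat.Agent.S35.H84_VertPlace
import Fermat.Agent.S35.H46_G3Inst

set_option autoImplicit false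
set_option linter.unusedSectionVars false

namespace Fermat.Agent.S35.H6

open Fermat.Agent.S34 Fermat.Agent.S34.H83 Fermat.Agent.S35.H84 Fermat.Agent.CA.H99

/-! ### one chart: the two vertical primes -/

section Chart

variable {B D BM : Type*} [CommRing B] [IsDomain B] [CommRing D] [IsDomain D] [CommRing BM]
  {red₁ red₂ : B →+* D} {ι V : BM →+* B} {rbar : BM →+* D} {W : D →+* D} {q : ℕ} {πB : B}

/-- `hne₂` of `H84`: an element of `ker red₂` outside `ker red₁` ... from a coordinate. -/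
theorem exists_red₁_eq_zero_red₂_ne_zero (h : TwoComponents red₁ red₂ ι V rbar W q πB)
    (c : BM) (hWc : W (rbar c) = rbar c ^ q) (hc2 : rbar c ^ (q * q) ≠ rbar c) :
    ∃ z, red₁ z = 0 ∧ red₂ z ≠ 0 := by
  refine ⟨ι c ^ q - V c, ?_, ?_⟩
  · rw [map_sub, map_pow, h.h1ι, h.h1V, hWc, sub_self]
  · rw [map_sub, map_pow, h.h2ι, h.h2V, hWc, ← pow_mul]
    exact sub_ne_zero.mpr hc2

theorem exists_red₂_eq_zero_red₁_ne_zero (h : TwoComponents red₁ red₂ ι V rbar W q πB)
    (c : BM) (hWc : W (rbar c) = rbar c ^ q) (hc2 : rbar c ^ (q * q) ≠ rbar c) :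
    ∃ z, red₂ z = 0 ∧ red₁ z ≠ 0 := by
  refine ⟨V c ^ q - ι c, ?_, ?_⟩
  · rw [map_sub, map_pow, h.h2ι, h.h2V, hWc, sub_self]
  · rw [map_sub, map_pow, h.h1ι, h.h1V, hWc, ← pow_mul]
    exact sub_ne_zero.mpr hc2

/-- the two vertical primes are distinct. -/
theorem ker_red₁_ne_ker_red₂ (h : TwoComponents red₁ red₂ ι V rbar W q πB)
    (c : BM) (hWc : W (rbar c) = rbar c ^ q) (hc2 : rbar c ^ (q * q) ≠ rbar c) :
    RingHom.ker red₁ ≠ RingHom.ker red₂ := by
  obtain ⟨z, hz1, hz2⟩ := exists_red₁_eq_zero_red₂_ne_zero h c hWc hc2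
  intro he
  have : z ∈ RingHom.ker red₂ := he ▸ (RingHom.mem_ker.mpr hz1)
  exact hz2 (RingHom.mem_ker.mp this)

/-- the coordinate `ι c * V c` of the chart lies in neither vertical prime. -/
theorem coord_notMem_ker_red₁ (h : TwoComponents red₁ red₂ ι V rbar W q πB)
    (c : BM) (hWc : W (rbar c) = rbar c ^ q) (hc0 : rbar c ≠ 0) :
    ι c * V c ∉ RingHom.ker red₁ := by
  rw [RingHom.mem_ker, map_mul, h.h1ι, h.h1V, hWc]
  exact mul_ne_zero hc0 (pow_ne_zero _ hc0)

theorem coord_notMem_ker_red₂ (h : TwoComponents red₁ red₂ ι V rbar W q πB)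
    (c : BM) (hWc : W (rbar c) = rbar c ^ q) (hc0 : rbar c ≠ 0) :
    ι c * V c ∉ RingHom.ker red₂ := by
  rw [RingHom.mem_ker, map_mul, h.h2ι, h.h2V, hWc]
  exact mul_ne_zero (pow_ne_zero _ hc0) hc0

/-- **The vertical block of one chart**: everything `H18.geoFnE'_inst` asks about
`p := ker red₁`, `q := ker red₂` of one chart. -/
theorem vertBlock_chart [IsNoetherianRing B] (h : TwoComponents red₁ red₂ ι V rbar W q πB)
    (hπ0 : πB ≠ 0) (hπ₁ : red₁ πB = 0) (hπ₂ : red₂ πB = 0)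
    (c : BM) (hWc : W (rbar c) = rbar c ^ q) (hc0 : rbar c ≠ 0)
    (hc2 : rbar c ^ (q * q) ≠ rbar c) :
    RingHom.ker red₁ ∈ (Ideal.span {πB}).minimalPrimes ∧
    RingHom.ker red₂ ∈ (Ideal.span {πB}).minimalPrimes ∧
    RingHom.ker red₁ ≠ RingHom.ker red₂ ∧
    (∀ P ∈ (Ideal.span {πB}).minimalPrimes, P = RingHom.ker red₁ ∨ P = RingHom.ker red₂) ∧
    (RingHom.ker red₁).height = 1 ∧ (RingHom.ker red₂).height = 1 ∧
    ι c * V c ∉ RingHom.ker red₁ ∧ ι c * V c ∉ RingHom.ker red₂ := by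
  have hne₁ := exists_red₁_eq_zero_red₂_ne_zero h c hWc hc2
  have hne₂ := exists_red₂_eq_zero_red₁_ne_zero h c hWc hc2
  refine ⟨ker_red₁_mem_minimalPrimes h hπ₁ hne₂, ker_red₂_mem_minimalPrimes h hπ₂ hne₁,
    ker_red₁_ne_ker_red₂ h c hWc hc2, ?_, height_vertTC h hπ0 hπ₁ hπ₂ hne₁ hne₂ true,
    height_vertTC h hπ0 hπ₁ hπ₂ hne₁ hne₂ false, coord_notMem_ker_red₁ h c hWc hc0,
    coord_notMem_ker_red₂ h c hWc hc0⟩
  intro P hP
  obtain ⟨k, hk⟩ := eq_vertTC_of_mem_minimalPrimes h hπ₁ hπ₂ hP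
  cases k
  · exact Or.inr hk
  · exact Or.inl hk

end Chart

/-! ### the bridge to the two places -/

section Bridge

variable {O : Type*} [CommRing O] {L : Type*} [Field L] [Algebra O L] {Fk : Type*} [Field Fk]
  {ϖ : O} {θ : L} {ι : O →+* Fk} {θb : Fk} (P : PlaceOver ϖ θ ι θb)
  {B : Type*} [CommRing B] [IsDomain B] [Algebra B L] [IsFractionRing B L]
  [IsNoetherianRing B] [IsIntegrallyClosed B]

/-- `hOinf` / `hO0` of `H46.g3_roots_oneU`, literal shape. -/
theorem mem_resPlace_iff (p : Ideal B) [hp : p.IsPrime] (h1 : p.height = 1)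
    (hB : ∀ b : B, algebraMap B L b ∈ P.O1)
    (hred : ∀ b : B, b ∈ p ↔ P.res1 ⟨algebraMap B L b, hB b⟩ = 0) (y : L) :
    y ∈ (H46.ResPlace.mk P.O1 P.res1 P.inv_mem).O1 ↔
      y ∈ H56.valuationSubringAt (K := L) p h1 :=
  (chart_mem_iff P p h1 hB hred y).symm

/-- `hkerinf` / `hker0` of `H46.g3_roots_oneU`, literal shape. -/
theorem valuation_lt_one_of_res_eq_zero (p : Ideal B) [hp : p.IsPrime] (h1 : p.height = 1)
    (hB : ∀ b : B, algebraMap B L b ∈ P.O1)
    (hred : ∀ b : B, b ∈ p ↔ P.res1 ⟨algebraMap B L b, hB b⟩ = 0)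
    (y : L) (hy : y ∈ (H46.ResPlace.mk P.O1 P.res1 P.inv_mem).O1)
    (h0 : (H46.ResPlace.mk P.O1 P.res1 P.inv_mem).res ⟨y, hy⟩ = 0) :
    (H56.valuationSubringAt (K := L) p h1).valuation y < 1 := by
  rw [valuationSubringAt_eq_place P p h1 hB hred, place_valuation_lt_one_iff P]
  exact ⟨hy, h0⟩

/-- two charts of the same field whose vertical primes reduce to the same place have the same
valuation ring there (`hVp` / `hVq` of `H18.geoFnE'_inst`). -/
theorem valuationSubringAt_eq_of_place {B' : Type*} [CommRing B'] [IsDomain B'] [Algebra B' L]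
    [IsFractionRing B' L] [IsNoetherianRing B'] [IsIntegrallyClosed B']
    (p : Ideal B) [hp : p.IsPrime] (h1 : p.height = 1)
    (hB : ∀ b : B, algebraMap B L b ∈ P.O1)
    (hred : ∀ b : B, b ∈ p ↔ P.res1 ⟨algebraMap B L b, hB b⟩ = 0)
    (p' : Ideal B') [hp' : p'.IsPrime] (h1' : p'.height = 1)
    (hB' : ∀ b : B', algebraMap B' L b ∈ P.O1)
    (hred' : ∀ b : B', b ∈ p' ↔ P.res1 ⟨algebraMap B' L b, hB' b⟩ = 0) :
    H56.valuationSubringAt (K := L) p h1 = H56.valuationSubringAt (K := L) p' h1' :=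
  (valuationSubringAt_eq_place P p h1 hB hred).trans
    (valuationSubringAt_eq_place P p' h1' hB' hred').symm

end Bridge

end Fermat.Agent.S35.H6
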