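/-
S35 / L0 package (helper55): the side facts of the A₁-level `H83.TwoComponents` structures of
`S34.H55_L0Final`, packaged with NO hypothesis:

* generic: `sep₁_of_twoComponents`, `sep₂_of_twoComponents` (`∃ z, red₁ z = 0 ∧ red₂ z ≠ 0` and the
  symmetric statement) from a coordinate `ψ₀` with `W (rbar ψ₀) = rbar ψ₀ ^ q`,
  `rbar ψ₀ ^ (q * q) ≠ rbar ψ₀`;
* concrete: `chart_le_PO1` (chart ⊆ place ring), and `exists_twoComponents_pkg`:
  ONE pair of places `P∞`, `P₀` and, for each of the two charts `chartB A₁ J^{±1}`, reductions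
  `red₁ red₂` with the `TwoComponents` structure, `incl ∘ red_k = res_k` on the whole chart,
  `red_k b = 0 ↔ res_k b = 0`, `red_k ℓ = 0`, and the two separating elements.
-/
import Fermat.Agent.S34.H55_L0Final
import Fermat.Agent.S34.H83_L1Inst
import Fermat.Agent.S18.H16_FKGen

set_option autoImplicit false
set_option linter.unusedSectionVars false
set_option linter.style.haveILetI false
set_option synthInstance.maxHeartbeats 400000

noncomputable section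

namespace Fermat.Agent.S35.H55

open ModularCurve Polynomial IsLocalRing Fermat.Agent.S28
open Fermat.Agent.S18 Fermat.Agent.S34 Fermat.Agent.S34.H92 Fermat.Agent.S34.H16
open Fermat.Agent.S34.H55

local notation "Qbar" => AlgebraicClosure ℚ

/-! ### Generic: the two vertical primes are incomparable -/

section Generic

variable {B R BM : Type*} [CommRing B] [CommRing R] [CommRing BM]
  {red₁ red₂ : B →+* R} {ι V : BM →+* B} {rbar : BM →+* R} {W : R →+* R} {q : ℕ} {qB : B}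

theorem sep₁_of_twoComponents (h : H83.TwoComponents red₁ red₂ ι V rbar W q qB) (ψ₀ : BM)
    (hW : W (rbar ψ₀) = rbar ψ₀ ^ q) (hne : (rbar ψ₀ ^ q) ^ q ≠ rbar ψ₀) :
    ∃ z : B, red₁ z = 0 ∧ red₂ z ≠ 0 := by
  refine ⟨ι ψ₀ ^ q - V ψ₀, ?_, ?_⟩
  · rw [map_sub, map_pow, h.h1ι, h.h1V, hW, sub_self]
  · rw [map_sub, map_pow, h.h2ι, h.h2V, hW]
    exact sub_ne_zero.mpr hne

theorem sep₂_of_twoComponents (h : H83.TwoComponents red₁ red₂ ι V rbar W q qB) (ψ₀ : BM)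
    (hW : W (rbar ψ₀) = rbar ψ₀ ^ q) (hne : (rbar ψ₀ ^ q) ^ q ≠ rbar ψ₀) :
    ∃ z : B, red₂ z = 0 ∧ red₁ z ≠ 0 := by
  refine ⟨V ψ₀ ^ q - ι ψ₀, ?_, ?_⟩
  · rw [map_sub, map_pow, h.h2ι, h.h2V, hW, sub_self]
  · rw [map_sub, map_pow, h.h1ι, h.h1V, hW]
    exact sub_ne_zero.mpr hne

end Generic

/-- a transcendental element is not a root of `X ^ (q * q) - X`, `q ≥ 2`. -/
theorem pow_pow_ne_self_of_transcendental {k Fk : Type*} [Field k] [Field Fk] [Algebra k Fk]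
    {w : Fk} (hw : Transcendental k w) {q : ℕ} (hq : 2 ≤ q) : (w ^ q) ^ q ≠ w := by
  intro h
  apply hw
  refine ⟨(X : k[X]) ^ (q * q) - X, ?_, ?_⟩
  · exact FiniteField.X_pow_card_sub_X_ne_zero k (by nlinarith)
  · rw [map_sub, map_pow, aeval_X, pow_mul, h, sub_self]

section L0Pkg

variable (M : ℕ) [NeZero M] {ℓ : ℕ} [hℓ : Fact ℓ.Prime] (hℓM : ¬ ℓ ∣ M)
  (A : ValuationSubring Qbar) (hA : A.LiesOverPrime ℓ)

local notation "kA" => IsLocalRing.ResidueField A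
local notation "A₁" => H45.A0 A ℓ
local notation "L₁" => H45.unrCyclo ℓ
local notation "FM" => modularFunctionFieldFullC (H45.unrCyclo ℓ) M
local notation "FN" => modularFunctionFieldFullC (H45.unrCyclo ℓ) (ℓ * M)
local notation "FkM" => modularFunctionFieldFullC (IsLocalRing.ResidueField A) M

/-- a chart `chartB A₁ u` with `u` in the place ring lies in the place ring. -/
theorem chart_le_PO1 {ι' : ↥(VM M hℓM A hA) →+* LaurentSeries kA} {θb : LaurentSeries kA}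
    (P : PlaceGen M hℓM A hA ι' θb)
    (hconst : ∀ r : A₁, algebraMap A₁ FN r ∈ PO1 M hℓM A hA P) {u : FN}
    (hu : u ∈ PO1 M hℓM A hA P) (b : ↥(H40.chartB A₁ u)) : (b : FN) ∈ PO1 M hℓM A hA P :=
  S18.H55T.mem_of_isIntegral_adjoin_of_closed (PO1 M hℓM A hA P) (PO1_closed M hℓM A hA P)
    hconst hu b.2

/-- **The side facts of one chart** `chartB A₁ u` with branch ring the integral closure of
`kA[w]`, for a pair of places `P∞`, `P₀` and a pair of reductions `red₁`, `red₂`. -/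
structure L0ChartFacts (Pi : PlaceInf M hℓM A hA) (P0 : PlaceZero M hℓM A hA) {u : FN}
    {w : FkM}
    (red₁ red₂ : ↥(H40.chartB A₁ u) →+* ↥(integralClosure (Algebra.adjoin kA {w}) FkM)) :
    Prop where
  /-- the chart lies in the valuation ring of `P∞` -/
  mem_inf : ∀ b : ↥(H40.chartB A₁ u), (b : FN) ∈ PO1 M hℓM A hA Pi
  /-- the chart lies in the valuation ring of `P₀` -/
  mem_zero : ∀ b : ↥(H40.chartB A₁ u), (b : FN) ∈ PO1 M hℓM A hA P0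
  /-- `red₁` is the restriction of the reduction at `P∞` -/
  res_inf : ∀ b : ↥(H40.chartB A₁ u),
    inclk M A ((red₁ b : ↥(integralClosure (Algebra.adjoin kA {w}) FkM)) : FkM) =
      Pres1 M hℓM A hA Pi ⟨b, mem_inf b⟩
  /-- `red₂` is the restriction of the reduction at `P₀` -/
  res_zero : ∀ b : ↥(H40.chartB A₁ u),
    inclk M A ((red₂ b : ↥(integralClosure (Algebra.adjoin kA {w}) FkM)) : FkM) =
      Pres1 M hℓM A hA P0 ⟨b, mem_zero b⟩
  red₁_eq_zero_iff : ∀ b : ↥(H40.chartB A₁ u),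
    red₁ b = 0 ↔ Pres1 M hℓM A hA Pi ⟨b, mem_inf b⟩ = 0
  red₂_eq_zero_iff : ∀ b : ↥(H40.chartB A₁ u),
    red₂ b = 0 ↔ Pres1 M hℓM A hA P0 ⟨b, mem_zero b⟩ = 0
  red₁_ell : red₁ (algebraMap A₁ ↥(H40.chartB A₁ u) ((ℓ : ℕ) : A₁)) = 0
  red₂_ell : red₂ (algebraMap A₁ ↥(H40.chartB A₁ u) ((ℓ : ℕ) : A₁)) = 0
  sep₁ : ∃ z : ↥(H40.chartB A₁ u), red₁ z = 0 ∧ red₂ z ≠ 0
  sep₂ : ∃ z : ↥(H40.chartB A₁ u), red₂ z = 0 ∧ red₁ z ≠ 0
  /-- the chart coordinate is a unit at both vertical primes -/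
  coord₁ : red₁ ⟨u, H40.self_mem_chartB u⟩ ≠ 0
  coord₂ : red₂ ⟨u, H40.self_mem_chartB u⟩ ≠ 0
  /-- the branch ring is not a field -/
  notField : ¬ IsField ↥(integralClosure (Algebra.adjoin kA {w}) FkM)

include hA in
theorem natCast_branch_eq_zero (w : FkM) :
    ((ℓ : ℕ) : ↥(integralClosure (Algebra.adjoin kA {w}) FkM)) = 0 := by
  haveI : CharP kA ℓ := S18.H92.charP_residueField A hA
  haveI : CharP FkM ℓ :=
    charP_of_injective_algebraMap (algebraMap kA FkM).injective ℓ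
  apply Subtype.ext
  push_cast
  exact CharP.cast_eq_zero _ ℓ

theorem l0ChartFacts_of_compat (Pi : PlaceInf M hℓM A hA) (P0 : PlaceZero M hℓM A hA)
    {u : FN} {c : FM} {w : FkM}
    (hui : u ∈ PO1 M hℓM A hA Pi) (hu0 : u ∈ PO1 M hℓM A hA P0)
    (hc : c ∈ (Mod M hℓM A hA).O1) (hcw : (Mod M hℓM A hA).res1 ⟨c, hc⟩ = w)
    (hFrw : FrM M A hA w = w ^ ℓ) (hwtr : Transcendental kA w)
    (hιint : IsIntegral (Algebra.adjoin A₁ {u}) (iotaMN M (ℓ := ℓ) c))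
    (hVint : IsIntegral (Algebra.adjoin A₁ {u}) (VMN M (ℓ := ℓ) c))
    (hucv : u = iotaMN M (ℓ := ℓ) c * VMN M (ℓ := ℓ) c)
    (red₁ red₂ : ↥(H40.chartB A₁ u) →+* ↥(integralClosure (Algebra.adjoin kA {w}) FkM))
    (h1 : ∀ (b : ↥(H40.chartB A₁ u)) (h : (b : FN) ∈ PO1 M hℓM A hA Pi),
      inclk M A ((red₁ b : ↥(integralClosure (Algebra.adjoin kA {w}) FkM)) : FkM) =
        Pres1 M hℓM A hA Pi ⟨b, h⟩)
    (h2 : ∀ (b : ↥(H40.chartB A₁ u)) (h : (b : FN) ∈ PO1 M hℓM A hA P0),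
      inclk M A ((red₂ b : ↥(integralClosure (Algebra.adjoin kA {w}) FkM)) : FkM) =
        Pres1 M hℓM A hA P0 ⟨b, h⟩)
    (hTC : H83.TwoComponents red₁ red₂
      (chartMap (iotaMN M (ℓ := ℓ)) (iotaMN_algebraMap M A) hιint)
      (chartMap (VMN M (ℓ := ℓ)) (VMN_algebraMap M A) hVint)
      (rbarB (Mod M hℓM A hA) hc hcw) (WR (FrM M A hA) ℓ hFrw) ℓ
      (algebraMap A₁ ↥(H40.chartB A₁ u) ((ℓ : ℕ) : A₁))) :
    L0ChartFacts M hℓM A hA Pi P0 red₁ red₂ := by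
  have hmi : ∀ b : ↥(H40.chartB A₁ u), (b : FN) ∈ PO1 M hℓM A hA Pi :=
    chart_le_PO1 M hℓM A hA Pi (fun r => (hconsti M hℓM A hA Pi r).1) hui
  have hm0 : ∀ b : ↥(H40.chartB A₁ u), (b : FN) ∈ PO1 M hℓM A hA P0 :=
    chart_le_PO1 M hℓM A hA P0 (fun r => (hconst0 M hℓM A hA P0 r).1) hu0
  have hzero : ∀ γ : ↥(integralClosure (Algebra.adjoin kA {w}) FkM),
      γ = 0 ↔ inclk M A (γ : FkM) = 0 := by
    intro γ
    constructor
    · intro h
      rw [h]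
      exact map_zero _
    · intro h
      apply Subtype.ext
      have hinj : Function.Injective (inclk M A) := (inclk M A).injective
      apply hinj
      exact h.trans (map_zero (inclk M A)).symm
  -- the coordinate of the level-`M` chart
  let ψ₀ : ↥(H40.chartB A₁ c) := ⟨c, H40.self_mem_chartB c⟩
  have hψ : ((rbarB (Mod M hℓM A hA) hc hcw ψ₀ :
      ↥(integralClosure (Algebra.adjoin kA {w}) FkM)) : FkM) = w := by
    rw [coe_rbarB]
    exact hcw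
  have hW : WR (FrM M A hA) ℓ hFrw (rbarB (Mod M hℓM A hA) hc hcw ψ₀) =
      rbarB (Mod M hℓM A hA) hc hcw ψ₀ ^ ℓ := by
    apply Subtype.ext
    rw [coe_WR, hψ, hFrw]
    push_cast
    rw [hψ]
  have hne : (rbarB (Mod M hℓM A hA) hc hcw ψ₀ ^ ℓ) ^ ℓ ≠ rbarB (Mod M hℓM A hA) hc hcw ψ₀ := by
    intro h
    have h' : (((rbarB (Mod M hℓM A hA) hc hcw ψ₀ ^ ℓ) ^ ℓ :
        ↥(integralClosure (Algebra.adjoin kA {w}) FkM)) : FkM) =
        ((rbarB (Mod M hℓM A hA) hc hcw ψ₀ :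
          ↥(integralClosure (Algebra.adjoin kA {w}) FkM)) : FkM) := by rw [h]
    push_cast at h'
    rw [hψ] at h'
    exact pow_pow_ne_self_of_transcendental hwtr hℓ.out.two_le h'
  have hw0 : w ≠ 0 := fun h => hwtr (h ▸ isAlgebraic_zero)
  have hψ0 : rbarB (Mod M hℓM A hA) hc hcw ψ₀ ≠ 0 := by
    intro h
    apply hw0
    rw [← hψ, h]
    rfl
  have hcoord : (⟨u, H40.self_mem_chartB u⟩ : ↥(H40.chartB A₁ u)) =
      chartMap (iotaMN M (ℓ := ℓ)) (iotaMN_algebraMap M A) hιint ψ₀ *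
        chartMap (VMN M (ℓ := ℓ)) (VMN_algebraMap M A) hVint ψ₀ :=
    Subtype.ext hucv
  refine ⟨hmi, hm0, fun b => h1 b _, fun b => h2 b _, fun b => ?_, fun b => ?_, ?_, ?_,
    sep₁_of_twoComponents hTC ψ₀ hW hne, sep₂_of_twoComponents hTC ψ₀ hW hne, ?_, ?_,
    H83.not_isField_integralClosure_adjoin w hwtr⟩
  · rw [hzero, h1 b (hmi b)]
  · rw [hzero, h2 b (hm0 b)]
  · rw [map_natCast, map_natCast]
    exact natCast_branch_eq_zero M A hA w
  · rw [map_natCast, map_natCast]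
    exact natCast_branch_eq_zero M A hA w
  · rw [hcoord, map_mul, hTC.h1ι, hTC.h1V, hW]
    exact mul_ne_zero hψ0 (pow_ne_zero _ hψ0)
  · rw [hcoord, map_mul, hTC.h2ι, hTC.h2V, hW]
    exact mul_ne_zero (pow_ne_zero _ hψ0) hψ0

/-! ### The two charts -/

theorem JN_eq_mul : JN M (ℓ := ℓ) =
    iotaMN M (ℓ := ℓ) (S18.H16.jK L₁ M) * VMN M (ℓ := ℓ) (S18.H16.jK L₁ M) := by
  apply Subtype.ext
  push_cast
  rw [coe_iotaMN, coe_VMN, S34.H95.coe_JK, S18.H16.coe_jK]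

theorem JN_inv_eq_mul : (JN M (ℓ := ℓ))⁻¹ =
    iotaMN M (ℓ := ℓ) (S18.H16.jK L₁ M)⁻¹ * VMN M (ℓ := ℓ) (S18.H16.jK L₁ M)⁻¹ := by
  rw [map_inv₀, map_inv₀, ← mul_inv, ← JN_eq_mul]

/-- **Chart 1 with all side facts.** -/
theorem exists_l0ChartFacts_JK (Pi : PlaceInf M hℓM A hA) (P0 : PlaceZero M hℓM A hA) :
    ∃ red₁ red₂ : ↥(H40.chartB A₁ (JN M (ℓ := ℓ))) →+*
        ↥(integralClosure (Algebra.adjoin kA {S18.H16.jK kA M}) FkM),
      H83.TwoComponents red₁ red₂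
        (chartMap (iotaMN M (ℓ := ℓ)) (iotaMN_algebraMap M A) (hιint1 M A))
        (chartMap (VMN M (ℓ := ℓ)) (VMN_algebraMap M A) (hVint1 M A))
        (rbarB (Mod M hℓM A hA) (Mod M hℓM A hA).x_mem (Mod M hℓM A hA).res1_x)
        (WR (FrM M A hA) ℓ (hFrx M A hA)) ℓ
        (algebraMap A₁ ↥(H40.chartB A₁ (JN M (ℓ := ℓ))) ((ℓ : ℕ) : A₁)) ∧
      L0ChartFacts M hℓM A hA Pi P0 red₁ red₂ := by
  obtain ⟨red₁, red₂, h1, h2, hTC⟩ := twoComponents_JK M hℓM A hA Pi P0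
  obtain ⟨hui, -⟩ := S34.H99.hu_hw_JK_infty M hℓM A hA Pi
  obtain ⟨hu0, -⟩ := S34.H99.hu_hw_JK_zero M hℓM A hA P0
  exact ⟨red₁, red₂, hTC, l0ChartFacts_of_compat M hℓM A hA Pi P0 hui hu0
    (Mod M hℓM A hA).x_mem (Mod M hℓM A hA).res1_x (hFrx M A hA)
    (S18.H16.transcendental_jK kA M) (hιint1 M A) (hVint1 M A) (JN_eq_mul M) red₁ red₂ h1 h2 hTC⟩

/-- **Chart 2 with all side facts.** -/
theorem exists_l0ChartFacts_JK_inv (Pi : PlaceInf M hℓM A hA) (P0 : PlaceZero M hℓM A hA) :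
    ∃ red₁ red₂ : ↥(H40.chartB A₁ (JN M (ℓ := ℓ))⁻¹) →+*
        ↥(integralClosure (Algebra.adjoin kA {(S18.H16.jK kA M)⁻¹}) FkM),
      H83.TwoComponents red₁ red₂
        (chartMap (iotaMN M (ℓ := ℓ)) (iotaMN_algebraMap M A) (hιint2 M A))
        (chartMap (VMN M (ℓ := ℓ)) (VMN_algebraMap M A) (hVint2 M A))
        (rbarB (Mod M hℓM A hA) (hc2 M hℓM A hA) (hcw2 M hℓM A hA))
        (WR (FrM M A hA) ℓ (hFrx_inv M A hA)) ℓ
        (algebraMap A₁ ↥(H40.chartB A₁ (JN M (ℓ := ℓ))⁻¹) ((ℓ : ℕ) : A₁)) ∧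
      L0ChartFacts M hℓM A hA Pi P0 red₁ red₂ := by
  obtain ⟨red₁, red₂, h1, h2, hTC⟩ := twoComponents_JK_inv M hℓM A hA Pi P0
  obtain ⟨hui, -⟩ := S34.H99.hu_hw_JK_inv_infty M hℓM A hA Pi
  obtain ⟨hu0, -⟩ := S34.H99.hu_hw_JK_inv_zero M hℓM A hA P0
  have htr : Transcendental kA (S18.H16.jK kA M)⁻¹ := fun h =>
    S18.H16.transcendental_jK kA M (IsAlgebraic.inv_iff.mp h)
  exact ⟨red₁, red₂, hTC, l0ChartFacts_of_compat M hℓM A hA Pi P0 hui hu0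
    (hc2 M hℓM A hA) (hcw2 M hℓM A hA) (hFrx_inv M A hA) htr (hιint2 M A) (hVint2 M A)
    (JN_inv_eq_mul M) red₁ red₂ h1 h2 hTC⟩

/-- **THE L0 PACKAGE, hypothesis-free**: one pair of places and, on each of the two charts, the
two-component structure with all its side facts. -/
theorem exists_l0Pkg :
    ∃ (Pi : PlaceInf M hℓM A hA) (P0 : PlaceZero M hℓM A hA),
      (∃ red₁ red₂ : ↥(H40.chartB A₁ (JN M (ℓ := ℓ))) →+*
          ↥(integralClosure (Algebra.adjoin kA {S18.H16.jK kA M}) FkM),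
        H83.TwoComponents red₁ red₂
          (chartMap (iotaMN M (ℓ := ℓ)) (iotaMN_algebraMap M A) (hιint1 M A))
          (chartMap (VMN M (ℓ := ℓ)) (VMN_algebraMap M A) (hVint1 M A))
          (rbarB (Mod M hℓM A hA) (Mod M hℓM A hA).x_mem (Mod M hℓM A hA).res1_x)
          (WR (FrM M A hA) ℓ (hFrx M A hA)) ℓ
          (algebraMap A₁ ↥(H40.chartB A₁ (JN M (ℓ := ℓ))) ((ℓ : ℕ) : A₁)) ∧
        L0ChartFacts M hℓM A hA Pi P0 red₁ red₂) ∧
      (∃ red₁ red₂ : ↥(H40.chartB A₁ (JN M (ℓ := ℓ))⁻¹) →+*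
          ↥(integralClosure (Algebra.adjoin kA {(S18.H16.jK kA M)⁻¹}) FkM),
        H83.TwoComponents red₁ red₂
          (chartMap (iotaMN M (ℓ := ℓ)) (iotaMN_algebraMap M A) (hιint2 M A))
          (chartMap (VMN M (ℓ := ℓ)) (VMN_algebraMap M A) (hVint2 M A))
          (rbarB (Mod M hℓM A hA) (hc2 M hℓM A hA) (hcw2 M hℓM A hA))
          (WR (FrM M A hA) ℓ (hFrx_inv M A hA)) ℓ
          (algebraMap A₁ ↥(H40.chartB A₁ (JN M (ℓ := ℓ))⁻¹) ((ℓ : ℕ) : A₁)) ∧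
        L0ChartFacts M hℓM A hA Pi P0 red₁ red₂) := by
  obtain ⟨D, hD, -⟩ := S18.H16.exists_modPoly_gen ℓ
  obtain ⟨Pi⟩ := nonempty_placeInfty M hℓM A hA D hD
  obtain ⟨P0⟩ := nonempty_placeZero M hℓM A hA D hD
  exact ⟨Pi, P0, exists_l0ChartFacts_JK M hℓM A hA Pi P0,
    exists_l0ChartFacts_JK_inv M hℓM A hA Pi P0⟩

end L0Pkg

end Fermat.Agent.S35.H55
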