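import Mathlib
import Fermat.Agent.CA.H79_BaseChangeFibre
import Fermat.Agent.S34.H83_L0Target

/-!
# S35, row TC-BC (helper70): `TwoComponents` for the base-changed chart `R = B·A₂`

Generic base change of helper83's L0 → L1 interface `S34.H83.TwoComponents` along
`A₁ → A₂` (`A₂` a torsion-free `A₁`-algebra with `A₂ = A₁ + π A₂`, `π A₂ ∩ A₁ = q A₁`, `π ∣ q`),
in the binder block of helper79's `CA.H79_BaseChangeFibre` (`fibreEquiv : B/q ≃ R/π` for
`R = genRing A₂ B E = B·A₂ ⊆ E`).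

* `redGen` : a ring hom `red : B → R₀` killing `q` extends to `R = genRing A₂ B E`
  (through `R/π ≃ B/q`); `redGen_algebraMap`, `redGen_constGen`, `redGen_piGen_mul`.
* `mapGen` : a ring hom `ιE : EM → E` carrying `BM` into `B` (through `ι`) and fixing the
  `A₂`-constants restricts to `genRing A₂ BM EM → genRing A₂ B E`.
* `twoComponents_genRing` : `TwoComponents` for `(B, BM)` over `A₁` gives `TwoComponents` for
  `(genRing A₂ B E, genRing A₂ BM EM)` with the same `R₀`, `W`, `q` and `qB := π`.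
* `redGen_semilinear`, `redGen_frobenius` : compatibility `red ∘ Φ = Φ_R ∘ red` passes from `B`
  to `genRing`.
* `genEquiv`, `twoComponents_of_equiv`, `twoComponents_subring` : the same for any subring `s`
  of `E` with the same elements as `genRing` (e.g. `chartB A₂ J''`).
-/

set_option autoImplicit false

namespace Fermat.Agent.S35.H70

open Fermat.Agent.CA.H79 Fermat.Agent.S34.H83

/-! ### `genRing` as a ring generated by `B` and `A₂` -/

section Gen

variable {A₂ B E : Type*} [CommRing A₂] [CommRing B] [CommRing E] [Algebra A₂ E] [Algebra B E]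

/-- The constants `A₂ → genRing A₂ B E`. -/
def constGen : A₂ →+* genRing A₂ B E :=
  (algebraMap A₂ E).codRestrict (genRing A₂ B E) (fun a => algebraMap_mem_genRing a)

@[simp] theorem coe_constGen (a : A₂) :
    ((constGen (B := B) (E := E) a : genRing A₂ B E) : E) = algebraMap A₂ E a := rfl

theorem constGen_eq_piGen (π : A₂) : constGen (B := B) (E := E) π = piGen B E π := rfl

/-- Elements of `genRing` are finite sums `∑ βᵢ aᵢ` (inside `genRing`). -/
theorem exists_sum_genRing (z : genRing A₂ B E) :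
    ∃ (n : ℕ) (β : Fin n → B) (a : Fin n → A₂),
      z = ∑ i, algebraMap B (genRing A₂ B E) (β i) * constGen (a i) := by
  obtain ⟨n, β, a, hz⟩ := exists_sum_of_mem_genRing z.2
  refine ⟨n, β, a, Subtype.ext ?_⟩
  rw [hz, AddSubmonoidClass.coe_finsetSum]
  refine Finset.sum_congr rfl fun i _ => ?_
  rw [Subalgebra.coe_mul, Subalgebra.coe_algebraMap, coe_constGen]

/-- Two ring homs out of `genRing` agreeing on `B` and on `A₂` are equal. -/
theorem genRing_ringHom_ext {R₀ : Type*} [Semiring R₀] {f g : genRing A₂ B E →+* R₀}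
    (hB : ∀ b : B, f (algebraMap B (genRing A₂ B E) b) = g (algebraMap B (genRing A₂ B E) b))
    (hA : ∀ a : A₂, f (constGen a) = g (constGen a)) : f = g := by
  refine RingHom.ext fun z => ?_
  obtain ⟨n, β, a, rfl⟩ := exists_sum_genRing z
  rw [map_sum, map_sum]
  refine Finset.sum_congr rfl fun i _ => ?_
  rw [map_mul, map_mul, hB, hA]

end Gen

/-! ### Extending a reduction map to `genRing` -/

section Single

variable {A₁ A₂ B E : Type*} [CommRing A₁] [IsDomain A₁] [IsPrincipalIdealRing A₁]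
  [CommRing A₂] [Algebra A₁ A₂] [Module.IsTorsionFree A₁ A₂]
  [CommRing B] [Algebra A₁ B]
  [CommRing E] [Algebra A₁ E] [Algebra A₂ E] [Algebra B E]
  [IsScalarTower A₁ A₂ E] [IsScalarTower A₁ B E]
  {R₀ : Type*} [CommRing R₀]

omit [IsDomain A₁] [IsPrincipalIdealRing A₁] [Module.IsTorsionFree A₁ A₂] in
/-- `R = B + π R` inside `genRing`. -/
theorem exists_eq_add_mul (π : A₂)
    (h1 : ∀ a : A₂, ∃ c : A₁, ∃ a' : A₂, a = algebraMap A₁ A₂ c + π * a')
    (z : genRing A₂ B E) :
    ∃ b : B, ∃ r' : genRing A₂ B E,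
      z = algebraMap B (genRing A₂ B E) b + piGen B E π * r' := by
  obtain ⟨b, r', hr', hrr⟩ := exists_add_mul_of_mem_genRing (A₁ := A₁) (B := B) π h1 z.2
  refine ⟨b, ⟨r', hr'⟩, Subtype.ext ?_⟩
  simp only [piGen, Subalgebra.coe_add, Subalgebra.coe_mul, Subalgebra.coe_algebraMap]
  exact hrr

omit [IsDomain A₁] [IsPrincipalIdealRing A₁] [Module.IsTorsionFree A₁ A₂] in
/-- A constant `a = c + π a'` decomposes in `genRing`. -/
theorem constGen_eq_add_mul (π : A₂) {a : A₂} {c : A₁} {a' : A₂}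
    (h : a = algebraMap A₁ A₂ c + π * a') :
    constGen (B := B) (E := E) a =
      algebraMap B (genRing A₂ B E) (algebraMap A₁ B c) + piGen B E π * constGen a' := by
  apply Subtype.ext
  simp only [piGen, Subalgebra.coe_add, Subalgebra.coe_mul, Subalgebra.coe_algebraMap,
    coe_constGen]
  rw [h, map_add, map_mul, ← IsScalarTower.algebraMap_apply A₁ A₂ E,
    ← IsScalarTower.algebraMap_apply A₁ B E]

omit [IsDomain A₁] [IsPrincipalIdealRing A₁] [CommRing A₂] [Algebra A₁ A₂]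
  [Module.IsTorsionFree A₁ A₂] [CommRing E] [Algebra A₁ E] [Algebra A₂ E] [Algebra B E]
  [IsScalarTower A₁ A₂ E] [IsScalarTower A₁ B E] in
theorem redGen_aux (q : A₁) (red : B →+* R₀) (hq : red (algebraMap A₁ B q) = 0) :
    ∀ x ∈ Ideal.span {algebraMap A₁ B q}, red x = 0 := fun x hx => by
  obtain ⟨y, rfl⟩ := Ideal.mem_span_singleton'.1 hx
  rw [map_mul, hq, mul_zero]

/-- **The extension of `red : B → R₀` (killing `q`) to `R = genRing A₂ B E`**, through
`R/π ≃ B/q`. -/
noncomputable def redGen (q : A₁) (π : A₂)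
    (h1 : ∀ a : A₂, ∃ c : A₁, ∃ a' : A₂, a = algebraMap A₁ A₂ c + π * a')
    (h2 : ∀ c : A₁, π ∣ algebraMap A₁ A₂ c → q ∣ c)
    (h3 : π ∣ algebraMap A₁ A₂ q)
    (hLD : ∀ (r : ℕ) (m : Fin r → A₂), LinearIndependent A₁ m →
      LinearIndependent B (fun l => algebraMap A₂ E (m l)))
    (red : B →+* R₀) (hq : red (algebraMap A₁ B q) = 0) : genRing A₂ B E →+* R₀ :=
  (Ideal.Quotient.lift (Ideal.span {algebraMap A₁ B q}) red (redGen_aux q red hq)).comp
    (((fibreEquiv (E := E) q π h1 h2 h3 hLD).symm :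
        (genRing A₂ B E ⧸ Ideal.span {piGen B E π}) →+* (B ⧸ Ideal.span {algebraMap A₁ B q})).comp
      (Ideal.Quotient.mk (Ideal.span {piGen B E π})))

variable (q : A₁) (π : A₂)
  (h1 : ∀ a : A₂, ∃ c : A₁, ∃ a' : A₂, a = algebraMap A₁ A₂ c + π * a')
  (h2 : ∀ c : A₁, π ∣ algebraMap A₁ A₂ c → q ∣ c)
  (h3 : π ∣ algebraMap A₁ A₂ q)
  (hLD : ∀ (r : ℕ) (m : Fin r → A₂), LinearIndependent A₁ m →
    LinearIndependent B (fun l => algebraMap A₂ E (m l)))
  (red : B →+* R₀) (hq : red (algebraMap A₁ B q) = 0)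

theorem redGen_algebraMap (b : B) :
    redGen (E := E) q π h1 h2 h3 hLD red hq (algebraMap B (genRing A₂ B E) b) = red b := by
  have h : (fibreEquiv (E := E) q π h1 h2 h3 hLD).symm
      (Ideal.Quotient.mk (Ideal.span {piGen B E π}) (algebraMap B (genRing A₂ B E) b)) =
      Ideal.Quotient.mk (Ideal.span {algebraMap A₁ B q}) b := by
    rw [RingEquiv.symm_apply_eq, fibreEquiv_mk]
  show Ideal.Quotient.lift _ red (redGen_aux q red hq)
    ((fibreEquiv (E := E) q π h1 h2 h3 hLD).symm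
      (Ideal.Quotient.mk _ (algebraMap B (genRing A₂ B E) b))) = red b
  rw [h, Ideal.Quotient.lift_mk]

theorem redGen_piGen_mul (z : genRing A₂ B E) :
    redGen (E := E) q π h1 h2 h3 hLD red hq (piGen B E π * z) = 0 := by
  have h : Ideal.Quotient.mk (Ideal.span {piGen B E π}) (piGen B E π * z) = 0 := by
    rw [Ideal.Quotient.eq_zero_iff_mem]
    exact Ideal.mul_mem_right _ _ (Ideal.mem_span_singleton_self _)
  show Ideal.Quotient.lift _ red (redGen_aux q red hq)
    ((fibreEquiv (E := E) q π h1 h2 h3 hLD).symm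
      (Ideal.Quotient.mk _ (piGen B E π * z))) = 0
  rw [h, map_zero, map_zero]

theorem redGen_piGen : redGen (E := E) q π h1 h2 h3 hLD red hq (piGen B E π) = 0 := by
  have := redGen_piGen_mul (E := E) q π h1 h2 h3 hLD red hq 1
  rwa [mul_one] at this

theorem redGen_add_mul (b : B) (r' : genRing A₂ B E) :
    redGen (E := E) q π h1 h2 h3 hLD red hq
      (algebraMap B (genRing A₂ B E) b + piGen B E π * r') = red b := by
  rw [map_add, redGen_algebraMap, redGen_piGen_mul, add_zero]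

/-- On the constants `A₂`, `redGen` is `red` of the `A₁`-part. -/
theorem redGen_constGen {a : A₂} {c : A₁} {a' : A₂} (h : a = algebraMap A₁ A₂ c + π * a') :
    redGen (E := E) q π h1 h2 h3 hLD red hq (constGen a) = red (algebraMap A₁ B c) := by
  rw [constGen_eq_add_mul π h, redGen_add_mul]

theorem redGen_surjective (hred : Function.Surjective red) :
    Function.Surjective (redGen (E := E) q π h1 h2 h3 hLD red hq) := fun r => by
  obtain ⟨b, rfl⟩ := hred r
  exact ⟨algebraMap B (genRing A₂ B E) b, redGen_algebraMap q π h1 h2 h3 hLD red hq b⟩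

/-- The kernel of `redGen`: `z ≡ b (mod π)` with `red b = 0`. -/
theorem exists_of_redGen_eq_zero {z : genRing A₂ B E}
    (hz : redGen (E := E) q π h1 h2 h3 hLD red hq z = 0) :
    ∃ b : B, ∃ r' : genRing A₂ B E, red b = 0 ∧
      z = algebraMap B (genRing A₂ B E) b + piGen B E π * r' := by
  obtain ⟨b, r', rfl⟩ := exists_eq_add_mul (A₁ := A₁) π h1 z
  rw [redGen_add_mul] at hz
  exact ⟨b, r', hz, rfl⟩

omit [IsDomain A₁] [IsPrincipalIdealRing A₁] [Module.IsTorsionFree A₁ A₂] in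
/-- `q B ⊆ π R`. -/
theorem algebraMap_mem_span_piGen (h3 : π ∣ algebraMap A₁ A₂ q) {b : B}
    (hb : b ∈ Ideal.span {algebraMap A₁ B q}) :
    algebraMap B (genRing A₂ B E) b ∈ Ideal.span {piGen B E π} := by
  obtain ⟨b', rfl⟩ := Ideal.mem_span_singleton'.1 hb
  obtain ⟨a₀, ha₀⟩ := h3
  rw [Ideal.mem_span_singleton]
  refine ⟨constGen a₀ * algebraMap B (genRing A₂ B E) b', Subtype.ext ?_⟩
  simp only [piGen, Subalgebra.coe_mul, Subalgebra.coe_algebraMap, coe_constGen]
  rw [map_mul, ← IsScalarTower.algebraMap_apply A₁ B E, IsScalarTower.algebraMap_apply A₁ A₂ E,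
    ha₀, map_mul]
  ring

/-- Semilinear compatibility passes from `B` to `genRing`. -/
theorem redGen_semilinear (ΦG : genRing A₂ B E →+* genRing A₂ B E) (ΦB : B →+* B)
    (ΦA : A₂ →+* A₂) (ΦR : R₀ →+* R₀)
    (hΦB : ∀ b : B, ΦG (algebraMap B (genRing A₂ B E) b) = algebraMap B (genRing A₂ B E) (ΦB b))
    (hΦA : ∀ a : A₂, ΦG (constGen a) = constGen (ΦA a))
    (hred : ∀ b : B, red (ΦB b) = ΦR (red b))
    (hconst : ∀ a : A₂, redGen (E := E) q π h1 h2 h3 hLD red hq (constGen (ΦA a)) =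
      ΦR (redGen (E := E) q π h1 h2 h3 hLD red hq (constGen a)))
    (z : genRing A₂ B E) :
    redGen (E := E) q π h1 h2 h3 hLD red hq (ΦG z) =
      ΦR (redGen (E := E) q π h1 h2 h3 hLD red hq z) := by
  have := genRing_ringHom_ext
    (f := (redGen (E := E) q π h1 h2 h3 hLD red hq).comp ΦG)
    (g := ΦR.comp (redGen (E := E) q π h1 h2 h3 hLD red hq))
    (fun b => by
      rw [RingHom.comp_apply, RingHom.comp_apply, hΦB, redGen_algebraMap, redGen_algebraMap,
        hred])
    (fun a => by rw [RingHom.comp_apply, RingHom.comp_apply, hΦA, hconst])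
  exact RingHom.congr_fun this z

/-- **Frobenius form**: `Φ_A a ≡ a ^ l (mod π)` on `A₂` and `Φ_R = (·)^l` on the residues of the
`A₁`-constants. -/
theorem redGen_frobenius (ΦG : genRing A₂ B E →+* genRing A₂ B E) (ΦB : B →+* B)
    (ΦA : A₂ →+* A₂) (ΦR : R₀ →+* R₀) (l : ℕ)
    (hΦB : ∀ b : B, ΦG (algebraMap B (genRing A₂ B E) b) = algebraMap B (genRing A₂ B E) (ΦB b))
    (hΦA : ∀ a : A₂, ΦG (constGen a) = constGen (ΦA a))
    (hred : ∀ b : B, red (ΦB b) = ΦR (red b))
    (hΦAl : ∀ a : A₂, ∃ a'' : A₂, ΦA a = a ^ l + π * a'')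
    (hΦRl : ∀ c : A₁, ΦR (red (algebraMap A₁ B c)) = red (algebraMap A₁ B c) ^ l)
    (z : genRing A₂ B E) :
    redGen (E := E) q π h1 h2 h3 hLD red hq (ΦG z) =
      ΦR (redGen (E := E) q π h1 h2 h3 hLD red hq z) := by
  refine redGen_semilinear q π h1 h2 h3 hLD red hq ΦG ΦB ΦA ΦR hΦB hΦA hred (fun a => ?_) z
  obtain ⟨c, a', hca⟩ := h1 a
  obtain ⟨a'', ha''⟩ := hΦAl a
  rw [redGen_constGen q π h1 h2 h3 hLD red hq hca, hΦRl, ha'']
  simp only [map_add, map_mul, map_pow]
  rw [constGen_eq_piGen (B := B) (E := E) π, redGen_piGen, zero_mul, add_zero,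
    redGen_constGen q π h1 h2 h3 hLD red hq hca]

end Single

/-! ### The degeneracy maps on `genRing` -/

section MapGen

variable {A₂ B BM E EM : Type*} [CommRing A₂] [CommRing B] [CommRing BM] [CommRing E]
  [CommRing EM] [Algebra A₂ E] [Algebra B E] [Algebra A₂ EM] [Algebra BM EM]

/-- A ring hom `ιE : EM → E` carrying `BM` into `B` (through `ι`) and fixing the `A₂`-constants
restricts to `genRing A₂ BM EM → genRing A₂ B E`. -/
def mapGen (ιE : EM →+* E) (ι : BM →+* B)
    (hιB : ∀ b : BM, ιE (algebraMap BM EM b) = algebraMap B E (ι b))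
    (hιA : ∀ a : A₂, ιE (algebraMap A₂ EM a) = algebraMap A₂ E a) :
    genRing A₂ BM EM →+* genRing A₂ B E :=
  (ιE.comp (algebraMap (genRing A₂ BM EM) EM)).codRestrict (genRing A₂ B E) (fun z => by
    obtain ⟨n, β, a, hz⟩ := exists_sum_of_mem_genRing z.2
    show ιE (z : EM) ∈ genRing A₂ B E
    rw [hz, map_sum]
    have : ∀ i : Fin n, ιE (algebraMap BM EM (β i) * algebraMap A₂ EM (a i)) =
        algebraMap B E (ι (β i)) * algebraMap A₂ E (a i) := fun i => by
      rw [map_mul, hιB, hιA]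
    simp only [this]
    exact sum_mem_genRing _ _ _)

variable (ιE : EM →+* E) (ι : BM →+* B)
  (hιB : ∀ b : BM, ιE (algebraMap BM EM b) = algebraMap B E (ι b))
  (hιA : ∀ a : A₂, ιE (algebraMap A₂ EM a) = algebraMap A₂ E a)

@[simp] theorem coe_mapGen (z : genRing A₂ BM EM) :
    ((mapGen ιE ι hιB hιA z : genRing A₂ B E) : E) = ιE (z : EM) := rfl

theorem mapGen_algebraMap (b : BM) :
    mapGen ιE ι hιB hιA (algebraMap BM (genRing A₂ BM EM) b) =
      algebraMap B (genRing A₂ B E) (ι b) :=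
  Subtype.ext (hιB b)

theorem mapGen_constGen (a : A₂) :
    mapGen ιE ι hιB hιA (constGen a) = constGen a :=
  Subtype.ext (hιA a)

end MapGen

/-! ### `TwoComponents` for `genRing` -/

section Two

variable {A₁ A₂ B BM E EM : Type*} [CommRing A₁] [IsDomain A₁] [IsPrincipalIdealRing A₁]
  [CommRing A₂] [Algebra A₁ A₂] [Module.IsTorsionFree A₁ A₂]
  [CommRing B] [Algebra A₁ B] [CommRing BM] [Algebra A₁ BM]
  [CommRing E] [Algebra A₁ E] [Algebra A₂ E] [Algebra B E]
  [IsScalarTower A₁ A₂ E] [IsScalarTower A₁ B E]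
  [CommRing EM] [Algebra A₁ EM] [Algebra A₂ EM] [Algebra BM EM]
  [IsScalarTower A₁ A₂ EM] [IsScalarTower A₁ BM EM]
  {R₀ : Type*} [CommRing R₀]

/-- **Base change of `TwoComponents`.**  `TwoComponents` for the `A₁`-charts `(B, BM)` gives
`TwoComponents` for the `A₂`-charts `(genRing A₂ B E, genRing A₂ BM EM)`, with the same target
`R₀`, the same `W` and `q`, and `qB := π`. -/
theorem twoComponents_genRing (q : A₁) (π : A₂)
    (h1 : ∀ a : A₂, ∃ c : A₁, ∃ a' : A₂, a = algebraMap A₁ A₂ c + π * a')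
    (h2 : ∀ c : A₁, π ∣ algebraMap A₁ A₂ c → q ∣ c)
    (h3 : π ∣ algebraMap A₁ A₂ q)
    (hLD : ∀ (r : ℕ) (m : Fin r → A₂), LinearIndependent A₁ m →
      LinearIndependent B (fun l => algebraMap A₂ E (m l)))
    (hLDM : ∀ (r : ℕ) (m : Fin r → A₂), LinearIndependent A₁ m →
      LinearIndependent BM (fun l => algebraMap A₂ EM (m l)))
    {red₁ red₂ : B →+* R₀} {ι V : BM →+* B} {rbar : BM →+* R₀} {W : R₀ →+* R₀} {qn : ℕ}
    (TC : TwoComponents red₁ red₂ ι V rbar W qn (algebraMap A₁ B q))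
    (hιA₁ : ∀ c : A₁, ι (algebraMap A₁ BM c) = algebraMap A₁ B c)
    (hVA₁ : ∀ c : A₁, V (algebraMap A₁ BM c) = algebraMap A₁ B c)
    (hq₁ : red₁ (algebraMap A₁ B q) = 0) (hq₂ : red₂ (algebraMap A₁ B q) = 0)
    (hqM : rbar (algebraMap A₁ BM q) = 0)
    (ιE VE : EM →+* E)
    (hιB : ∀ b : BM, ιE (algebraMap BM EM b) = algebraMap B E (ι b))
    (hιA : ∀ a : A₂, ιE (algebraMap A₂ EM a) = algebraMap A₂ E a)
    (hVB : ∀ b : BM, VE (algebraMap BM EM b) = algebraMap B E (V b))
    (hVA : ∀ a : A₂, VE (algebraMap A₂ EM a) = algebraMap A₂ E a) :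
    TwoComponents (redGen (E := E) q π h1 h2 h3 hLD red₁ hq₁)
      (redGen (E := E) q π h1 h2 h3 hLD red₂ hq₂)
      (mapGen ιE ι hιB hιA) (mapGen VE V hVB hVA)
      (redGen (E := EM) q π h1 h2 h3 hLDM rbar hqM) W qn (piGen B E π) where
  hroot := TC.hroot
  h1ι := fun ψ => by
    have := genRing_ringHom_ext
      (f := (redGen (E := E) q π h1 h2 h3 hLD red₁ hq₁).comp (mapGen ιE ι hιB hιA))
      (g := redGen (E := EM) q π h1 h2 h3 hLDM rbar hqM)
      (fun b => by
        rw [RingHom.comp_apply, mapGen_algebraMap, redGen_algebraMap, redGen_algebraMap,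
          TC.h1ι])
      (fun a => by
        obtain ⟨c, a', hca⟩ := h1 a
        rw [RingHom.comp_apply, mapGen_constGen,
          redGen_constGen q π h1 h2 h3 hLD red₁ hq₁ hca,
          redGen_constGen q π h1 h2 h3 hLDM rbar hqM hca, ← hιA₁, TC.h1ι])
    exact RingHom.congr_fun this ψ
  h1V := fun ψ => by
    have := genRing_ringHom_ext
      (f := (redGen (E := E) q π h1 h2 h3 hLD red₁ hq₁).comp (mapGen VE V hVB hVA))
      (g := W.comp (redGen (E := EM) q π h1 h2 h3 hLDM rbar hqM))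
      (fun b => by
        rw [RingHom.comp_apply, RingHom.comp_apply, mapGen_algebraMap, redGen_algebraMap,
          redGen_algebraMap, TC.h1V])
      (fun a => by
        obtain ⟨c, a', hca⟩ := h1 a
        rw [RingHom.comp_apply, RingHom.comp_apply, mapGen_constGen,
          redGen_constGen q π h1 h2 h3 hLD red₁ hq₁ hca,
          redGen_constGen q π h1 h2 h3 hLDM rbar hqM hca, ← hVA₁, TC.h1V])
    exact RingHom.congr_fun this ψ
  h2ι := fun ψ => by
    have := genRing_ringHom_ext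
      (f := (redGen (E := E) q π h1 h2 h3 hLD red₂ hq₂).comp (mapGen ιE ι hιB hιA))
      (g := W.comp (redGen (E := EM) q π h1 h2 h3 hLDM rbar hqM))
      (fun b => by
        rw [RingHom.comp_apply, RingHom.comp_apply, mapGen_algebraMap, redGen_algebraMap,
          redGen_algebraMap, TC.h2ι])
      (fun a => by
        obtain ⟨c, a', hca⟩ := h1 a
        rw [RingHom.comp_apply, RingHom.comp_apply, mapGen_constGen,
          redGen_constGen q π h1 h2 h3 hLD red₂ hq₂ hca,
          redGen_constGen q π h1 h2 h3 hLDM rbar hqM hca, ← hιA₁, TC.h2ι])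
    exact RingHom.congr_fun this ψ
  h2V := fun ψ => by
    have := genRing_ringHom_ext
      (f := (redGen (E := E) q π h1 h2 h3 hLD red₂ hq₂).comp (mapGen VE V hVB hVA))
      (g := redGen (E := EM) q π h1 h2 h3 hLDM rbar hqM)
      (fun b => by
        rw [RingHom.comp_apply, mapGen_algebraMap, redGen_algebraMap, redGen_algebraMap,
          TC.h2V])
      (fun a => by
        obtain ⟨c, a', hca⟩ := h1 a
        rw [RingHom.comp_apply, mapGen_constGen,
          redGen_constGen q π h1 h2 h3 hLD red₂ hq₂ hca,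
          redGen_constGen q π h1 h2 h3 hLDM rbar hqM hca, ← hVA₁, TC.h2V])
    exact RingHom.congr_fun this ψ
  hrbar := redGen_surjective q π h1 h2 h3 hLDM rbar hqM TC.hrbar
  hred₁ := redGen_surjective q π h1 h2 h3 hLD red₁ hq₁ TC.hred₁
  hred₂ := redGen_surjective q π h1 h2 h3 hLD red₂ hq₂ TC.hred₂
  hinf := fun z hz₁ hz₂ => by
    obtain ⟨b, r', rfl⟩ := exists_eq_add_mul (A₁ := A₁) π h1 z
    rw [redGen_add_mul] at hz₁ hz₂
    exact Ideal.add_mem _ (algebraMap_mem_span_piGen q π h3 (TC.hinf b hz₁ hz₂))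
      (Ideal.mul_mem_right _ _ (Ideal.mem_span_singleton_self _))

end Two

/-! ### Transport to a subring with the same elements -/

section Transport

variable {B B' R₀ BM BM' : Type*} [CommRing B] [CommRing B'] [CommRing R₀] [CommRing BM]
  [CommRing BM']

/-- `TwoComponents` is invariant under ring isomorphisms of the two charts. -/
theorem twoComponents_of_equiv {red₁ red₂ : B →+* R₀} {ι V : BM →+* B} {rbar : BM →+* R₀}
    {W : R₀ →+* R₀} {q : ℕ} {qB : B} (h : TwoComponents red₁ red₂ ι V rbar W q qB)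
    (e : B' ≃+* B) (eM : BM' ≃+* BM) :
    TwoComponents (red₁.comp (e : B' →+* B)) (red₂.comp (e : B' →+* B))
      ((e.symm : B →+* B').comp (ι.comp (eM : BM' →+* BM)))
      ((e.symm : B →+* B').comp (V.comp (eM : BM' →+* BM)))
      (rbar.comp (eM : BM' →+* BM)) W q (e.symm qB) where
  hroot := h.hroot
  h1ι := fun ψ => by simp [h.h1ι]
  h1V := fun ψ => by simp [h.h1V]
  h2ι := fun ψ => by simp [h.h2ι]
  h2V := fun ψ => by simp [h.h2V]
  hrbar := h.hrbar.comp eM.surjective
  hred₁ := h.hred₁.comp e.surjective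
  hred₂ := h.hred₂.comp e.surjective
  hinf := fun z hz₁ hz₂ => by
    have := h.hinf (e z) hz₁ hz₂
    obtain ⟨y, hy⟩ := Ideal.mem_span_singleton'.1 this
    rw [Ideal.mem_span_singleton']
    refine ⟨e.symm y, ?_⟩
    rw [← map_mul, hy, RingEquiv.symm_apply_apply]

variable {E : Type*} [CommRing E] {S T : Type*} [SetLike S E] [SubringClass S E] [SetLike T E]
  [SubringClass T E]

/-- Two subrings of `E` with the same elements are isomorphic. -/
def genEquiv (s : S) (t : T) (hst : ∀ z : E, z ∈ s ↔ z ∈ t) : s ≃+* t where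
  toFun x := ⟨x, (hst x).1 x.2⟩
  invFun x := ⟨x, (hst x).2 x.2⟩
  left_inv _ := rfl
  right_inv _ := rfl
  map_mul' _ _ := rfl
  map_add' _ _ := rfl

@[simp] theorem coe_genEquiv (s : S) (t : T) (hst : ∀ z : E, z ∈ s ↔ z ∈ t) (x : s) :
    ((genEquiv s t hst x : t) : E) = (x : E) := rfl

@[simp] theorem coe_genEquiv_symm (s : S) (t : T) (hst : ∀ z : E, z ∈ s ↔ z ∈ t) (x : t) :
    (((genEquiv s t hst).symm x : s) : E) = (x : E) := rfl

end Transport

/-! ### `TwoComponents` for subrings with the same elements as `genRing` -/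

section Subring

variable {A₁ A₂ B BM E EM : Type*} [CommRing A₁] [IsDomain A₁] [IsPrincipalIdealRing A₁]
  [CommRing A₂] [Algebra A₁ A₂] [Module.IsTorsionFree A₁ A₂]
  [CommRing B] [Algebra A₁ B] [CommRing BM] [Algebra A₁ BM]
  [CommRing E] [Algebra A₁ E] [Algebra A₂ E] [Algebra B E]
  [IsScalarTower A₁ A₂ E] [IsScalarTower A₁ B E]
  [CommRing EM] [Algebra A₁ EM] [Algebra A₂ EM] [Algebra BM EM]
  [IsScalarTower A₁ A₂ EM] [IsScalarTower A₁ BM EM]
  {R₀ : Type*} [CommRing R₀]
  {S SM : Type*} [SetLike S E] [SubringClass S E] [SetLike SM EM] [SubringClass SM EM]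

/-- **Base change of `TwoComponents`, subring form.**  `s ⊆ E`, `sM ⊆ EM` subrings with the same
elements as `genRing A₂ B E`, `genRing A₂ BM EM` (e.g. the `A₂`-charts `chartB A₂ J''`). -/
theorem twoComponents_subring (q : A₁) (π : A₂)
    (h1 : ∀ a : A₂, ∃ c : A₁, ∃ a' : A₂, a = algebraMap A₁ A₂ c + π * a')
    (h2 : ∀ c : A₁, π ∣ algebraMap A₁ A₂ c → q ∣ c)
    (h3 : π ∣ algebraMap A₁ A₂ q)
    (hLD : ∀ (r : ℕ) (m : Fin r → A₂), LinearIndependent A₁ m →
      LinearIndependent B (fun l => algebraMap A₂ E (m l)))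
    (hLDM : ∀ (r : ℕ) (m : Fin r → A₂), LinearIndependent A₁ m →
      LinearIndependent BM (fun l => algebraMap A₂ EM (m l)))
    {red₁ red₂ : B →+* R₀} {ι V : BM →+* B} {rbar : BM →+* R₀} {W : R₀ →+* R₀} {qn : ℕ}
    (TC : TwoComponents red₁ red₂ ι V rbar W qn (algebraMap A₁ B q))
    (hιA₁ : ∀ c : A₁, ι (algebraMap A₁ BM c) = algebraMap A₁ B c)
    (hVA₁ : ∀ c : A₁, V (algebraMap A₁ BM c) = algebraMap A₁ B c)
    (hq₁ : red₁ (algebraMap A₁ B q) = 0) (hq₂ : red₂ (algebraMap A₁ B q) = 0)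
    (hqM : rbar (algebraMap A₁ BM q) = 0)
    (ιE VE : EM →+* E)
    (hιB : ∀ b : BM, ιE (algebraMap BM EM b) = algebraMap B E (ι b))
    (hιA : ∀ a : A₂, ιE (algebraMap A₂ EM a) = algebraMap A₂ E a)
    (hVB : ∀ b : BM, VE (algebraMap BM EM b) = algebraMap B E (V b))
    (hVA : ∀ a : A₂, VE (algebraMap A₂ EM a) = algebraMap A₂ E a)
    (s : S) (hs : ∀ z : E, z ∈ s ↔ z ∈ genRing A₂ B E)
    (sM : SM) (hsM : ∀ z : EM, z ∈ sM ↔ z ∈ genRing A₂ BM EM) :
    TwoComponents
      ((redGen (E := E) q π h1 h2 h3 hLD red₁ hq₁).comp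
        (genEquiv s (genRing A₂ B E) hs : s →+* genRing A₂ B E))
      ((redGen (E := E) q π h1 h2 h3 hLD red₂ hq₂).comp
        (genEquiv s (genRing A₂ B E) hs : s →+* genRing A₂ B E))
      (((genEquiv s (genRing A₂ B E) hs).symm : genRing A₂ B E →+* s).comp
        ((mapGen ιE ι hιB hιA).comp
          (genEquiv sM (genRing A₂ BM EM) hsM : sM →+* genRing A₂ BM EM)))
      (((genEquiv s (genRing A₂ B E) hs).symm : genRing A₂ B E →+* s).comp
        ((mapGen VE V hVB hVA).comp
          (genEquiv sM (genRing A₂ BM EM) hsM : sM →+* genRing A₂ BM EM)))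
      ((redGen (E := EM) q π h1 h2 h3 hLDM rbar hqM).comp
        (genEquiv sM (genRing A₂ BM EM) hsM : sM →+* genRing A₂ BM EM))
      W qn ((genEquiv s (genRing A₂ B E) hs).symm (piGen B E π)) :=
  twoComponents_of_equiv
    (twoComponents_genRing q π h1 h2 h3 hLD hLDM TC hιA₁ hVA₁ hq₁ hq₂ hqM ιE VE hιB hιA hVB hVA)
    (genEquiv s (genRing A₂ B E) hs) (genEquiv sM (genRing A₂ BM EM) hsM)

end Subring

end Fermat.Agent.S35.H70
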