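import Mathlib
import Fermat.Agent.S35.H70_TwoComponentsBC
import Fermat.Agent.S34.H70_BaseChangeInst
import Fermat.Agent.S34.H70_ChartPkgGlue
import Fermat.Agent.CA.H79_GenTopBridge

/-!
# S35, row TC-BC (helper70): `TwoComponents` for the `A''`-charts, concrete types

`A₁ := A0 A ℓ`, `A'' := cutOver A E`, `F1(N) := fullC (unrCyclo ℓ) N`, `F_E(N) := fullC ↥E N`,
`bc := H45.baseChangeE E N`.  For chart coordinates `J₁ : F1(N)` (level `N`) and `c₁ : F1(M)`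
(level `M`), with helper40's (a)' (`GenBy`: `chartB A'' (bc J₁) = chartB A₁ J₁ · A''`) at both
levels:

* `redE` : a reduction map `red : chartB A₁ J₁ → R₀` (killing `ℓ`) extends to
  `chartB A'' (bc J₁) → R₀`; `redE_chartMapE`, `redE_algebraMap`, `redE_pi`.
* `mapE` : a ring hom `ιE : F_E(M) → F_E(N)` compatible with `ι : chartB A₁ c₁ → chartB A₁ J₁`
  and fixing the constants restricts to the `A''`-charts; `coe_mapE`.
* `twoComponents_cutOver` : `H83.TwoComponents` over `A₁` ⟹ `H83.TwoComponents` over `A''`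
  (same `R₀`, `W`, `q`; `qB := π`).
* `redE_frobenius` : `red ∘ Φ = Φ_R ∘ red` passes from the `A₁`-chart to the `A''`-chart.
-/

set_option autoImplicit false
set_option linter.unusedSectionVars false
set_option linter.style.haveILetI false
set_option synthInstance.maxHeartbeats 400000
set_option maxHeartbeats 3200000

noncomputable section

namespace Fermat.Agent.S35.H70

open ModularCurve HahnSeries IsLocalRing
open Fermat.Agent.S18 Fermat.Agent.CA Fermat.Agent.S34.H83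

local notation "Qbar" => AlgebraicClosure ℚ

variable {A : ValuationSubring Qbar} {ℓ : ℕ} (hℓ : ℓ.Prime) (hA : A.LiesOverPrime ℓ)
variable (E : IntermediateField (H45.unrCyclo ℓ) Qbar) (N : ℕ) [NeZero N]

/-- helper40's (a)' in closure form: the `A''`-chart is generated by the `A₁`-chart and `A''`. -/
def GenBy (J₁ : ↥(modularFunctionFieldFullC ↥(H45.unrCyclo ℓ) N)) : Prop :=
  ∀ z : ↥(modularFunctionFieldFullC ↥E N),
    z ∈ H40.chartB ↥(H45.cutOver A E) (H45.baseChangeE E N J₁) ↔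
      z ∈ Subring.closure
        (Set.range (fun b : ↥(H40.chartB ↥(H45.A0 A ℓ) J₁) =>
            H45.baseChangeE E N (b : ↥(modularFunctionFieldFullC ↥(H45.unrCyclo ℓ) N))) ∪
          Set.range (algebraMap ↥(H45.cutOver A E) ↥(modularFunctionFieldFullC ↥E N)))

theorem mem_chartB_iff_mem_genRing (J₁ : ↥(modularFunctionFieldFullC ↥(H45.unrCyclo ℓ) N))
    (h : GenBy (A := A) E N J₁) (z : ↥(modularFunctionFieldFullC ↥E N)) :
    letI := S34.H70.algA0FE (A := A) E N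
    letI := S34.H70.algSubFE (A := A) E N (H40.chartB ↥(H45.A0 A ℓ) J₁)
    z ∈ H40.chartB ↥(H45.cutOver A E) (H45.baseChangeE E N J₁) ↔
      z ∈ H79.genRing ↥(H45.cutOver A E) ↥(H40.chartB ↥(H45.A0 A ℓ) J₁)
        ↥(modularFunctionFieldFullC ↥E N) := by
  letI := S34.H70.algA0FE (A := A) E N
  letI := S34.H70.algSubFE (A := A) E N (H40.chartB ↥(H45.A0 A ℓ) J₁)
  rw [h z, H79.mem_genRing_iff_mem_closure]
  rfl

/-- The chart over `A''` and `genRing` are the same ring. -/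
def chartGenEquiv (J₁ : ↥(modularFunctionFieldFullC ↥(H45.unrCyclo ℓ) N))
    (h : GenBy (A := A) E N J₁) :
    letI := S34.H70.algA0FE (A := A) E N
    letI := S34.H70.algSubFE (A := A) E N (H40.chartB ↥(H45.A0 A ℓ) J₁)
    ↥(H40.chartB ↥(H45.cutOver A E) (H45.baseChangeE E N J₁)) ≃+*
      ↥(H79.genRing ↥(H45.cutOver A E) ↥(H40.chartB ↥(H45.A0 A ℓ) J₁)
        ↥(modularFunctionFieldFullC ↥E N)) :=
  letI := S34.H70.algA0FE (A := A) E N
  letI := S34.H70.algSubFE (A := A) E N (H40.chartB ↥(H45.A0 A ℓ) J₁)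
  genEquiv (H40.chartB ↥(H45.cutOver A E) (H45.baseChangeE E N J₁))
    (H79.genRing ↥(H45.cutOver A E) ↥(H40.chartB ↥(H45.A0 A ℓ) J₁)
      ↥(modularFunctionFieldFullC ↥E N))
    (mem_chartB_iff_mem_genRing (A := A) E N J₁ h)

/-- **The extension of a reduction map to the `A''`-chart.** -/
def redE (J₁ : ↥(modularFunctionFieldFullC ↥(H45.unrCyclo ℓ) N))
    (π : ↥(H45.cutOver A E)) (hπ : maximalIdeal ↥(H45.cutOver A E) = Ideal.span {π})
    (h : GenBy (A := A) E N J₁) {R₀ : Type*} [CommRing R₀]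
    (red : ↥(H40.chartB ↥(H45.A0 A ℓ) J₁) →+* R₀)
    (hq : red (algebraMap ↥(H45.A0 A ℓ) ↥(H40.chartB ↥(H45.A0 A ℓ) J₁)
      ((ℓ : ℕ) : ↥(H45.A0 A ℓ))) = 0) :
    ↥(H40.chartB ↥(H45.cutOver A E) (H45.baseChangeE E N J₁)) →+* R₀ :=
  letI := S34.H70.algA0FE (A := A) E N
  letI := S34.H70.algSubFE (A := A) E N (H40.chartB ↥(H45.A0 A ℓ) J₁)
  haveI := S34.H70.isScalarTower_A0_cutOver_FE (A := A) (q := ℓ) E N
  haveI := S34.H70.isScalarTower_A0_sub_FE (A := A) (q := ℓ) E N (H40.chartB ↥(H45.A0 A ℓ) J₁)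
  haveI := H45.isDiscreteValuationRing_A0 hℓ hA
  (redGen (E := ↥(modularFunctionFieldFullC ↥E N)) ((ℓ : ℕ) : ↥(H45.A0 A ℓ)) π
      (S34.H70.h1_inst hℓ hA E π hπ) (S34.H70.h2_inst hℓ hA E π hπ)
      (S34.H70.h3_inst hℓ hA E π hπ)
      (S34.H70.hLD_inst (A := A) (q := ℓ) E N (H40.chartB ↥(H45.A0 A ℓ) J₁)) red hq).comp
    (chartGenEquiv (A := A) E N J₁ h : _ →+* _)

section API

variable (J₁ : ↥(modularFunctionFieldFullC ↥(H45.unrCyclo ℓ) N))
  (π : ↥(H45.cutOver A E)) (hπ : maximalIdeal ↥(H45.cutOver A E) = Ideal.span {π})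
  (h : GenBy (A := A) E N J₁) {R₀ : Type*} [CommRing R₀]
  (red : ↥(H40.chartB ↥(H45.A0 A ℓ) J₁) →+* R₀)
  (hq : red (algebraMap ↥(H45.A0 A ℓ) ↥(H40.chartB ↥(H45.A0 A ℓ) J₁)
    ((ℓ : ℕ) : ↥(H45.A0 A ℓ))) = 0)

/-- On the image of the `A₁`-chart, `redE` is `red`. -/
theorem redE_chartMapE (b : ↥(H40.chartB ↥(H45.A0 A ℓ) J₁)) :
    redE hℓ hA E N J₁ π hπ h red hq (S34.H70.chartMapE (A := A) E N J₁ b) = red b := by
  letI := S34.H70.algA0FE (A := A) E N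
  letI := S34.H70.algSubFE (A := A) E N (H40.chartB ↥(H45.A0 A ℓ) J₁)
  haveI := S34.H70.isScalarTower_A0_cutOver_FE (A := A) (q := ℓ) E N
  haveI := S34.H70.isScalarTower_A0_sub_FE (A := A) (q := ℓ) E N (H40.chartB ↥(H45.A0 A ℓ) J₁)
  haveI := H45.isDiscreteValuationRing_A0 hℓ hA
  exact redGen_algebraMap (E := ↥(modularFunctionFieldFullC ↥E N)) ((ℓ : ℕ) : ↥(H45.A0 A ℓ)) π
    (S34.H70.h1_inst hℓ hA E π hπ) (S34.H70.h2_inst hℓ hA E π hπ)
    (S34.H70.h3_inst hℓ hA E π hπ)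
    (S34.H70.hLD_inst (A := A) (q := ℓ) E N (H40.chartB ↥(H45.A0 A ℓ) J₁)) red hq b

/-- On the constants `A''`, `redE` is `red` of the `A₁`-part. -/
theorem redE_algebraMap {a : ↥(H45.cutOver A E)} {c : ↥(H45.A0 A ℓ)} {a' : ↥(H45.cutOver A E)}
    (hca : a = algebraMap ↥(H45.A0 A ℓ) ↥(H45.cutOver A E) c + π * a') :
    redE hℓ hA E N J₁ π hπ h red hq
        (algebraMap ↥(H45.cutOver A E)
          ↥(H40.chartB ↥(H45.cutOver A E) (H45.baseChangeE E N J₁)) a) =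
      red (algebraMap ↥(H45.A0 A ℓ) ↥(H40.chartB ↥(H45.A0 A ℓ) J₁) c) := by
  letI := S34.H70.algA0FE (A := A) E N
  letI := S34.H70.algSubFE (A := A) E N (H40.chartB ↥(H45.A0 A ℓ) J₁)
  haveI := S34.H70.isScalarTower_A0_cutOver_FE (A := A) (q := ℓ) E N
  haveI := S34.H70.isScalarTower_A0_sub_FE (A := A) (q := ℓ) E N (H40.chartB ↥(H45.A0 A ℓ) J₁)
  haveI := H45.isDiscreteValuationRing_A0 hℓ hA
  exact redGen_constGen (E := ↥(modularFunctionFieldFullC ↥E N)) ((ℓ : ℕ) : ↥(H45.A0 A ℓ)) π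
    (S34.H70.h1_inst hℓ hA E π hπ) (S34.H70.h2_inst hℓ hA E π hπ)
    (S34.H70.h3_inst hℓ hA E π hπ)
    (S34.H70.hLD_inst (A := A) (q := ℓ) E N (H40.chartB ↥(H45.A0 A ℓ) J₁)) red hq hca

/-- `redE` kills `π`. -/
theorem redE_pi_mul (z : ↥(H40.chartB ↥(H45.cutOver A E) (H45.baseChangeE E N J₁))) :
    redE hℓ hA E N J₁ π hπ h red hq
        (algebraMap ↥(H45.cutOver A E)
          ↥(H40.chartB ↥(H45.cutOver A E) (H45.baseChangeE E N J₁)) π * z) = 0 := by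
  letI := S34.H70.algA0FE (A := A) E N
  letI := S34.H70.algSubFE (A := A) E N (H40.chartB ↥(H45.A0 A ℓ) J₁)
  haveI := S34.H70.isScalarTower_A0_cutOver_FE (A := A) (q := ℓ) E N
  haveI := S34.H70.isScalarTower_A0_sub_FE (A := A) (q := ℓ) E N (H40.chartB ↥(H45.A0 A ℓ) J₁)
  haveI := H45.isDiscreteValuationRing_A0 hℓ hA
  exact redGen_piGen_mul (E := ↥(modularFunctionFieldFullC ↥E N)) ((ℓ : ℕ) : ↥(H45.A0 A ℓ)) π
    (S34.H70.h1_inst hℓ hA E π hπ) (S34.H70.h2_inst hℓ hA E π hπ)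
    (S34.H70.h3_inst hℓ hA E π hπ)
    (S34.H70.hLD_inst (A := A) (q := ℓ) E N (H40.chartB ↥(H45.A0 A ℓ) J₁)) red hq
    (chartGenEquiv (A := A) E N J₁ h z)

theorem redE_surjective (hred : Function.Surjective red) :
    Function.Surjective (redE hℓ hA E N J₁ π hπ h red hq) := fun r => by
  obtain ⟨b, rfl⟩ := hred r
  exact ⟨S34.H70.chartMapE (A := A) E N J₁ b, redE_chartMapE hℓ hA E N J₁ π hπ h red hq b⟩

end API

end Fermat.Agent.S35.H70
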