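import Mathlib
import Fermat.Agent.S35.H70_TwoComponentsBCInst
import Fermat.Agent.S34.H95_ChartBC

/-!
# S35, row TC-BC (helper70): the E-level `TwoComponents`, consumer form

The E-level `H83.TwoComponents` does not need any base change at level `M`: the level-`M` chart
`BM` of the `A₁`-level structure can be kept, the degeneracy maps being composed with the
chart-to-chart base change `chartB A₁ J₁ → chartB A'' (bc J₁)`.

* generic: `redGen_hinf`, `twoComponents_genRing_left`;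
* concrete: `redE_pi`, `redE_hinf`, `twoComponents_cutOver_left`;
* consumer form (helper27's shape: `(J₁, J_E, h : baseChangeE E N J₁ = J_E)` and helper95's
  `H95.chartBC`): `exists_twoComponents_chartBC`.
-/

set_option autoImplicit false
set_option linter.unusedSectionVars false
set_option linter.style.haveILetI false
set_option synthInstance.maxHeartbeats 400000
set_option maxHeartbeats 3200000

noncomputable section

namespace Fermat.Agent.S35.H70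

open ModularCurve HahnSeries IsLocalRing
open Fermat.Agent.S18 Fermat.Agent.CA Fermat.Agent.CA.H79 Fermat.Agent.S34.H83

/-! ### Generic part -/

section Generic

variable {A₁ A₂ B BM E : Type*} [CommRing A₁] [IsDomain A₁] [IsPrincipalIdealRing A₁]
  [CommRing A₂] [Algebra A₁ A₂] [Module.IsTorsionFree A₁ A₂]
  [CommRing B] [Algebra A₁ B] [CommRing BM]
  [CommRing E] [Algebra A₁ E] [Algebra A₂ E] [Algebra B E]
  [IsScalarTower A₁ A₂ E] [IsScalarTower A₁ B E]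
  {R₀ : Type*} [CommRing R₀]

/-- `ker (redGen red₁) ∩ ker (redGen red₂) = (π)` from `ker red₁ ∩ ker red₂ = (q)`. -/
theorem redGen_hinf (q : A₁) (π : A₂)
    (h1 : ∀ a : A₂, ∃ c : A₁, ∃ a' : A₂, a = algebraMap A₁ A₂ c + π * a')
    (h2 : ∀ c : A₁, π ∣ algebraMap A₁ A₂ c → q ∣ c)
    (h3 : π ∣ algebraMap A₁ A₂ q)
    (hLD : ∀ (r : ℕ) (m : Fin r → A₂), LinearIndependent A₁ m →
      LinearIndependent B (fun l => algebraMap A₂ E (m l)))
    {red₁ red₂ : B →+* R₀}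
    (hq₁ : red₁ (algebraMap A₁ B q) = 0) (hq₂ : red₂ (algebraMap A₁ B q) = 0)
    (hinf : ∀ z : B, red₁ z = 0 → red₂ z = 0 → z ∈ Ideal.span {algebraMap A₁ B q})
    (z : genRing A₂ B E)
    (hz₁ : redGen (E := E) q π h1 h2 h3 hLD red₁ hq₁ z = 0)
    (hz₂ : redGen (E := E) q π h1 h2 h3 hLD red₂ hq₂ z = 0) :
    z ∈ Ideal.span {piGen B E π} := by
  obtain ⟨b, r', rfl⟩ := exists_eq_add_mul (A₁ := A₁) π h1 z
  rw [redGen_add_mul] at hz₁ hz₂
  exact Ideal.add_mem _ (algebraMap_mem_span_piGen q π h3 (hinf b hz₁ hz₂))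
    (Ideal.mul_mem_right _ _ (Ideal.mem_span_singleton_self _))

/-- **Base change of `TwoComponents`, keeping the level-`M` chart.** -/
theorem twoComponents_genRing_left (q : A₁) (π : A₂)
    (h1 : ∀ a : A₂, ∃ c : A₁, ∃ a' : A₂, a = algebraMap A₁ A₂ c + π * a')
    (h2 : ∀ c : A₁, π ∣ algebraMap A₁ A₂ c → q ∣ c)
    (h3 : π ∣ algebraMap A₁ A₂ q)
    (hLD : ∀ (r : ℕ) (m : Fin r → A₂), LinearIndependent A₁ m →
      LinearIndependent B (fun l => algebraMap A₂ E (m l)))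
    {red₁ red₂ : B →+* R₀} {ι V : BM →+* B} {rbar : BM →+* R₀} {W : R₀ →+* R₀} {qn : ℕ}
    (TC : TwoComponents red₁ red₂ ι V rbar W qn (algebraMap A₁ B q))
    (hq₁ : red₁ (algebraMap A₁ B q) = 0) (hq₂ : red₂ (algebraMap A₁ B q) = 0) :
    TwoComponents (redGen (E := E) q π h1 h2 h3 hLD red₁ hq₁)
      (redGen (E := E) q π h1 h2 h3 hLD red₂ hq₂)
      ((algebraMap B (genRing A₂ B E)).comp ι) ((algebraMap B (genRing A₂ B E)).comp V)
      rbar W qn (piGen B E π) where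
  hroot := TC.hroot
  h1ι := fun ψ => by rw [RingHom.comp_apply, redGen_algebraMap, TC.h1ι]
  h1V := fun ψ => by rw [RingHom.comp_apply, redGen_algebraMap, TC.h1V]
  h2ι := fun ψ => by rw [RingHom.comp_apply, redGen_algebraMap, TC.h2ι]
  h2V := fun ψ => by rw [RingHom.comp_apply, redGen_algebraMap, TC.h2V]
  hrbar := TC.hrbar
  hred₁ := redGen_surjective q π h1 h2 h3 hLD red₁ hq₁ TC.hred₁
  hred₂ := redGen_surjective q π h1 h2 h3 hLD red₂ hq₂ TC.hred₂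
  hinf := redGen_hinf q π h1 h2 h3 hLD hq₁ hq₂ TC.hinf

end Generic

/-! ### Transport of the `hinf` clause to a subring with the same elements -/

section Transport

variable {E : Type*} [CommRing E] {S T : Type*} [SetLike S E] [SubringClass S E] [SetLike T E]
  [SubringClass T E]

theorem mem_span_of_genEquiv_mem_span (s : S) (t : T) (hst : ∀ z : E, z ∈ s ↔ z ∈ t)
    (p : s) (p' : t) (hp : (p : E) = (p' : E)) (z : s)
    (hz : genEquiv s t hst z ∈ Ideal.span {p'}) : z ∈ Ideal.span {p} := by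
  obtain ⟨y, hy⟩ := Ideal.mem_span_singleton'.1 hz
  rw [Ideal.mem_span_singleton']
  refine ⟨(genEquiv s t hst).symm y, Subtype.ext ?_⟩
  have := congrArg (fun w : t => (w : E)) hy
  simp only [coe_genEquiv] at this
  rw [← this]
  show ((genEquiv s t hst).symm y : E) * (p : E) = (y : E) * (p' : E)
  rw [coe_genEquiv_symm, hp]

end Transport

/-! ### Concrete part -/

section Concrete

local notation "Qbar" => AlgebraicClosure ℚ

variable {A : ValuationSubring Qbar} {ℓ : ℕ} (hℓ : ℓ.Prime) (hA : A.LiesOverPrime ℓ)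
variable (E : IntermediateField (H45.unrCyclo ℓ) Qbar) (N : ℕ) [NeZero N]
variable (J₁ : ↥(modularFunctionFieldFullC ↥(H45.unrCyclo ℓ) N))
  (π : ↥(H45.cutOver A E)) (hπ : maximalIdeal ↥(H45.cutOver A E) = Ideal.span {π})
  (h : GenBy (A := A) E N J₁) {R₀ : Type*} [CommRing R₀]

/-- `redE` kills `π`. -/
theorem redE_pi (red : ↥(H40.chartB ↥(H45.A0 A ℓ) J₁) →+* R₀)
    (hq : red (algebraMap ↥(H45.A0 A ℓ) ↥(H40.chartB ↥(H45.A0 A ℓ) J₁)
      ((ℓ : ℕ) : ↥(H45.A0 A ℓ))) = 0) :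
    redE hℓ hA E N J₁ π hπ h red hq
      (algebraMap ↥(H45.cutOver A E)
        ↥(H40.chartB ↥(H45.cutOver A E) (H45.baseChangeE E N J₁)) π) = 0 := by
  have := redE_pi_mul hℓ hA E N J₁ π hπ h red hq 1
  rwa [mul_one] at this

/-- `ker (redE red₁) ∩ ker (redE red₂) = (π)`. -/
theorem redE_hinf {red₁ red₂ : ↥(H40.chartB ↥(H45.A0 A ℓ) J₁) →+* R₀}
    (hq₁ : red₁ (algebraMap ↥(H45.A0 A ℓ) ↥(H40.chartB ↥(H45.A0 A ℓ) J₁)
      ((ℓ : ℕ) : ↥(H45.A0 A ℓ))) = 0)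
    (hq₂ : red₂ (algebraMap ↥(H45.A0 A ℓ) ↥(H40.chartB ↥(H45.A0 A ℓ) J₁)
      ((ℓ : ℕ) : ↥(H45.A0 A ℓ))) = 0)
    (hinf : ∀ z : ↥(H40.chartB ↥(H45.A0 A ℓ) J₁), red₁ z = 0 → red₂ z = 0 →
      z ∈ Ideal.span {algebraMap ↥(H45.A0 A ℓ) ↥(H40.chartB ↥(H45.A0 A ℓ) J₁)
        ((ℓ : ℕ) : ↥(H45.A0 A ℓ))})
    (z : ↥(H40.chartB ↥(H45.cutOver A E) (H45.baseChangeE E N J₁)))
    (hz₁ : redE hℓ hA E N J₁ π hπ h red₁ hq₁ z = 0)
    (hz₂ : redE hℓ hA E N J₁ π hπ h red₂ hq₂ z = 0) :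
    z ∈ Ideal.span {algebraMap ↥(H45.cutOver A E)
      ↥(H40.chartB ↥(H45.cutOver A E) (H45.baseChangeE E N J₁)) π} := by
  letI := S34.H70.algA0FE (A := A) E N
  letI := S34.H70.algSubFE (A := A) E N (H40.chartB ↥(H45.A0 A ℓ) J₁)
  haveI := S34.H70.isScalarTower_A0_cutOver_FE (A := A) (q := ℓ) E N
  haveI := S34.H70.isScalarTower_A0_sub_FE (A := A) (q := ℓ) E N (H40.chartB ↥(H45.A0 A ℓ) J₁)
  haveI := H45.isDiscreteValuationRing_A0 hℓ hA
  exact mem_span_of_genEquiv_mem_span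
    (H40.chartB ↥(H45.cutOver A E) (H45.baseChangeE E N J₁))
    (H79.genRing ↥(H45.cutOver A E) ↥(H40.chartB ↥(H45.A0 A ℓ) J₁)
      ↥(modularFunctionFieldFullC ↥E N))
    (mem_chartB_iff_mem_genRing (A := A) E N J₁ h)
    (algebraMap ↥(H45.cutOver A E)
      ↥(H40.chartB ↥(H45.cutOver A E) (H45.baseChangeE E N J₁)) π)
    (H79.piGen ↥(H40.chartB ↥(H45.A0 A ℓ) J₁) ↥(modularFunctionFieldFullC ↥E N) π) rfl z
    (redGen_hinf (E := ↥(modularFunctionFieldFullC ↥E N)) ((ℓ : ℕ) : ↥(H45.A0 A ℓ)) π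
      (S34.H70.h1_inst hℓ hA E π hπ) (S34.H70.h2_inst hℓ hA E π hπ)
      (S34.H70.h3_inst hℓ hA E π hπ)
      (S34.H70.hLD_inst (A := A) (q := ℓ) E N (H40.chartB ↥(H45.A0 A ℓ) J₁)) hq₁ hq₂ hinf
      (chartGenEquiv (A := A) E N J₁ h z) hz₁ hz₂)

variable {BM : Type*} [CommRing BM]
  {red₁ red₂ : ↥(H40.chartB ↥(H45.A0 A ℓ) J₁) →+* R₀}
  {ι V : BM →+* ↥(H40.chartB ↥(H45.A0 A ℓ) J₁)}
  {rbar : BM →+* R₀} {W : R₀ →+* R₀} {qn : ℕ}

/-- **`TwoComponents` for the `A''`-chart from `TwoComponents` for the `A₁`-chart**, keeping the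
level-`M` chart `BM`: only (a)' at the level `N` is needed. -/
theorem twoComponents_cutOver_left
    (TC : TwoComponents red₁ red₂ ι V rbar W qn
      (algebraMap ↥(H45.A0 A ℓ) ↥(H40.chartB ↥(H45.A0 A ℓ) J₁) ((ℓ : ℕ) : ↥(H45.A0 A ℓ))))
    (hq₁ : red₁ (algebraMap ↥(H45.A0 A ℓ) ↥(H40.chartB ↥(H45.A0 A ℓ) J₁)
      ((ℓ : ℕ) : ↥(H45.A0 A ℓ))) = 0)
    (hq₂ : red₂ (algebraMap ↥(H45.A0 A ℓ) ↥(H40.chartB ↥(H45.A0 A ℓ) J₁)
      ((ℓ : ℕ) : ↥(H45.A0 A ℓ))) = 0) :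
    TwoComponents (redE hℓ hA E N J₁ π hπ h red₁ hq₁) (redE hℓ hA E N J₁ π hπ h red₂ hq₂)
      ((S34.H70.chartMapE (A := A) E N J₁).comp ι) ((S34.H70.chartMapE (A := A) E N J₁).comp V)
      rbar W qn
      (algebraMap ↥(H45.cutOver A E)
        ↥(H40.chartB ↥(H45.cutOver A E) (H45.baseChangeE E N J₁)) π) where
  hroot := TC.hroot
  h1ι := fun ψ => by rw [RingHom.comp_apply, redE_chartMapE, TC.h1ι]
  h1V := fun ψ => by rw [RingHom.comp_apply, redE_chartMapE, TC.h1V]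
  h2ι := fun ψ => by rw [RingHom.comp_apply, redE_chartMapE, TC.h2ι]
  h2V := fun ψ => by rw [RingHom.comp_apply, redE_chartMapE, TC.h2V]
  hrbar := TC.hrbar
  hred₁ := redE_surjective hℓ hA E N J₁ π hπ h red₁ hq₁ TC.hred₁
  hred₂ := redE_surjective hℓ hA E N J₁ π hπ h red₂ hq₂ TC.hred₂
  hinf := redE_hinf hℓ hA E N J₁ π hπ h hq₁ hq₂ TC.hinf

/-! ### Consumer form: `(J₁, J_E, hJ : baseChangeE E N J₁ = J_E)` and `H95.chartBC` -/

/-- helper95's `chartBC` at `J_E := baseChangeE E N J₁` is `chartMapE`. -/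
theorem chartBC_eq_chartMapE (hJ : H45.baseChangeE E N J₁ = H45.baseChangeE E N J₁) :
    S34.H95.chartBC (A := A) E N J₁ (H45.baseChangeE E N J₁) hJ =
      S34.H70.chartMapE (A := A) E N J₁ :=
  RingHom.ext fun _ => Subtype.ext rfl

include hℓ hA hπ h in
/-- **The E-level `TwoComponents`, consumer form.**  For the chart `chartB A'' J_E` with
`J_E = baseChangeE E N J₁`: reductions `red_k''` extending the `A₁`-level ones along `chartBC`,
killing `π`, equal to `red_k` of the `A₁`-part on the constants, and forming a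
`TwoComponents` structure with `qB := π` (degeneracy maps `chartBC ∘ ι`, `chartBC ∘ V`). -/
theorem exists_twoComponents_chartBC
    (J_E : ↥(modularFunctionFieldFullC ↥E N)) (hJ : H45.baseChangeE E N J₁ = J_E)
    (TC : TwoComponents red₁ red₂ ι V rbar W qn
      (algebraMap ↥(H45.A0 A ℓ) ↥(H40.chartB ↥(H45.A0 A ℓ) J₁) ((ℓ : ℕ) : ↥(H45.A0 A ℓ))))
    (hq₁ : red₁ (algebraMap ↥(H45.A0 A ℓ) ↥(H40.chartB ↥(H45.A0 A ℓ) J₁)
      ((ℓ : ℕ) : ↥(H45.A0 A ℓ))) = 0)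
    (hq₂ : red₂ (algebraMap ↥(H45.A0 A ℓ) ↥(H40.chartB ↥(H45.A0 A ℓ) J₁)
      ((ℓ : ℕ) : ↥(H45.A0 A ℓ))) = 0) :
    ∃ red₁'' red₂'' : ↥(H40.chartB ↥(H45.cutOver A E) J_E) →+* R₀,
      (∀ b, red₁'' (S34.H95.chartBC (A := A) E N J₁ J_E hJ b) = red₁ b) ∧
      (∀ b, red₂'' (S34.H95.chartBC (A := A) E N J₁ J_E hJ b) = red₂ b) ∧
      red₁'' (algebraMap ↥(H45.cutOver A E) ↥(H40.chartB ↥(H45.cutOver A E) J_E) π) = 0 ∧
      red₂'' (algebraMap ↥(H45.cutOver A E) ↥(H40.chartB ↥(H45.cutOver A E) J_E) π) = 0 ∧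
      (∀ (a : ↥(H45.cutOver A E)) (c : ↥(H45.A0 A ℓ)) (a' : ↥(H45.cutOver A E)),
        a = algebraMap ↥(H45.A0 A ℓ) ↥(H45.cutOver A E) c + π * a' →
        red₁'' (algebraMap ↥(H45.cutOver A E) ↥(H40.chartB ↥(H45.cutOver A E) J_E) a) =
          red₁ (algebraMap ↥(H45.A0 A ℓ) ↥(H40.chartB ↥(H45.A0 A ℓ) J₁) c)) ∧
      (∀ (a : ↥(H45.cutOver A E)) (c : ↥(H45.A0 A ℓ)) (a' : ↥(H45.cutOver A E)),
        a = algebraMap ↥(H45.A0 A ℓ) ↥(H45.cutOver A E) c + π * a' →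
        red₂'' (algebraMap ↥(H45.cutOver A E) ↥(H40.chartB ↥(H45.cutOver A E) J_E) a) =
          red₂ (algebraMap ↥(H45.A0 A ℓ) ↥(H40.chartB ↥(H45.A0 A ℓ) J₁) c)) ∧
      TwoComponents red₁'' red₂''
        ((S34.H95.chartBC (A := A) E N J₁ J_E hJ).comp ι)
        ((S34.H95.chartBC (A := A) E N J₁ J_E hJ).comp V) rbar W qn
        (algebraMap ↥(H45.cutOver A E) ↥(H40.chartB ↥(H45.cutOver A E) J_E) π) := by
  subst hJ
  refine ⟨redE hℓ hA E N J₁ π hπ h red₁ hq₁, redE hℓ hA E N J₁ π hπ h red₂ hq₂,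
    fun b => redE_chartMapE hℓ hA E N J₁ π hπ h red₁ hq₁ b,
    fun b => redE_chartMapE hℓ hA E N J₁ π hπ h red₂ hq₂ b,
    redE_pi hℓ hA E N J₁ π hπ h red₁ hq₁, redE_pi hℓ hA E N J₁ π hπ h red₂ hq₂,
    fun a c a' hca => redE_algebraMap hℓ hA E N J₁ π hπ h red₁ hq₁ hca,
    fun a c a' hca => redE_algebraMap hℓ hA E N J₁ π hπ h red₂ hq₂ hca, ?_⟩
  rw [chartBC_eq_chartMapE]
  exact twoComponents_cutOver_left hℓ hA E N J₁ π hπ h TC hq₁ hq₂

end Concrete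

end Fermat.Agent.S35.H70
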