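import Mathlib
import Fermat.Agent.S35.H70_TwoComponentsBCFinal
import Fermat.Agent.S34.H55_L0Consumed
import Fermat.Agent.S34.H40_BaseChangeAutRad

/-!
# S35, row TC-BC (helper70): helper40's (a)' at the L0 data (level `ℓ * M`)

`genBy_JN`, `genBy_JN_inv` : `H70.GenBy` for the two pinned charts `chartB A₁ (JN M)^(±1)`
(reducedness of the special fibre from `H55.hradB₁_final`, `H55.hradB₂_final`), so that
`H70.redE`, `H70.exists_twoComponents_chartBC`, `H85.chartE_res1_eq` apply at the L0 data.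
-/

set_option autoImplicit false
set_option linter.unusedSectionVars false
set_option linter.style.haveILetI false
set_option synthInstance.maxHeartbeats 400000
set_option maxHeartbeats 3200000

noncomputable section

namespace Fermat.Agent.S35.H70

open ModularCurve HahnSeries IsLocalRing IntermediateField
open Fermat.Agent.S18 Fermat.Agent.CA Fermat.Agent.S34 Fermat.Agent.S34.H83

local notation "Qbar" => AlgebraicClosure ℚ

variable (M : ℕ) [NeZero M] {ℓ : ℕ} [hℓ : Fact ℓ.Prime] (hℓM : ¬ ℓ ∣ M)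
  (A : ValuationSubring Qbar) (hA : A.LiesOverPrime ℓ)
  (E : IntermediateField (H45.unrCyclo ℓ) Qbar) [FiniteDimensional (H45.unrCyclo ℓ) E]

local notation "kA" => IsLocalRing.ResidueField A
local notation "A₁" => H45.A0 A ℓ
local notation "L₁" => H45.unrCyclo ℓ
local notation "FkM" => modularFunctionFieldFullC (IsLocalRing.ResidueField A) M

include hℓM hA in
/-- **(a)' for the chart `chartB A₁ (JN M)`**, in the form consumed by `H70.redE`. -/
theorem genBy_JN : GenBy (A := A) E (ℓ * M) (H55.JN M (ℓ := ℓ)) := by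
  haveI := H95.finiteDimensional_JK L₁ (ℓ * M) ℓ (Dvd.intro M rfl)
    (H99.natCast_ne_zero₀ (ℓ * M) L₁)
  exact fun z => S34.H40.mem_chartB_cutOver_iff_of_hrad hℓ.out hA E (ℓ * M) (H55.JN M (ℓ := ℓ))
    (H55.hradB₁_final M hℓM A hA) z

include hℓM hA in
/-- **(a)' for the chart `chartB A₁ (JN M)⁻¹`**. -/
theorem genBy_JN_inv : GenBy (A := A) E (ℓ * M) (H55.JN M (ℓ := ℓ))⁻¹ := by
  haveI := H95.finiteDimensional_JK_inv L₁ (ℓ * M) ℓ (Dvd.intro M rfl)
    (H99.natCast_ne_zero₀ (ℓ * M) L₁)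
  exact fun z => S34.H40.mem_chartB_cutOver_iff_of_hrad hℓ.out hA E (ℓ * M) (H55.JN M (ℓ := ℓ))⁻¹
    (H55.hradB₂_final M hℓM A hA) z

end Fermat.Agent.S35.H70
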