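import Mathlib
import Fermat.Agent.S35.H70_TwoComponentsBCL0
import Fermat.Agent.S35.H55_L0Pkg

/-!
# S35, row TC-BC (helper70): the E-level `TwoComponents` package at the L0 data

For the two pinned charts `B_iE = chartB A'' (H95.JK ↥E (ℓ * M) ℓ _)^(±1)` (`A'' = cutOver A E`)
and ANY `A₁`-level structure `TC : H83.TwoComponents red₁ red₂ ι V rbar W qn (ℓ)` on
`chartB A₁ (JN M)^(±1)` with `red_k ℓ = 0`, `red_k J ≠ 0` (helper55's `L0ChartFacts`):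
reductions `red_k'' : B_iE → R₀` with

* `red_k'' ∘ chartBC_JK = red_k`, `red_k'' π = 0`, the value on the constants,
* `red_k'' ⟨J_E^(±1), _⟩ ≠ 0`,
* `H83.TwoComponents red₁'' red₂'' (chartBC_JK ∘ ι) (chartBC_JK ∘ V) rbar W qn (π)`,

i.e. the `TC_i hπ_i1 hπ_i2 hJ_i1 hJ_i2` block of `H18.geoFnEN_of_twoComponents` at
`N := ℓ * M`, `hqN := Dvd.intro M rfl`.
-/

set_option autoImplicit false
set_option linter.unusedSectionVars false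
set_option linter.style.haveILetI false
set_option synthInstance.maxHeartbeats 400000
set_option maxHeartbeats 3200000

noncomputable section

namespace Fermat.Agent.S35.H70

open ModularCurve HahnSeries IsLocalRing IntermediateField
open Fermat.Agent.S18 Fermat.Agent.CA Fermat.Agent.S34 Fermat.Agent.S34.H83

local notation "Qbar" => AlgebraicClosure ℚ

variable (M : ℕ) [NeZero M] {ℓ : ℕ} [hℓ : Fact ℓ.Prime] (hℓM : ¬ ℓ ∣ M)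
  (A : ValuationSubring Qbar) (hA : A.LiesOverPrime ℓ)
  (E : IntermediateField (H45.unrCyclo ℓ) Qbar) [FiniteDimensional (H45.unrCyclo ℓ) E]
  (π : ↥(H45.cutOver A E)) (hπ : maximalIdeal ↥(H45.cutOver A E) = Ideal.span {π})

local notation "A₁" => H45.A0 A ℓ
local notation "L₁" => H45.unrCyclo ℓ

variable {R₀ BM : Type*} [CommRing R₀] [CommRing BM]

include hℓM hA hπ in
/-- **The E-level package, chart 1.** -/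
theorem exists_twoComponentsE_JK
    {red₁ red₂ : ↥(H40.chartB A₁ (H55.JN M (ℓ := ℓ))) →+* R₀}
    {ι V : BM →+* ↥(H40.chartB A₁ (H55.JN M (ℓ := ℓ)))}
    {rbar : BM →+* R₀} {W : R₀ →+* R₀} {qn : ℕ}
    (TC : TwoComponents red₁ red₂ ι V rbar W qn
      (algebraMap A₁ ↥(H40.chartB A₁ (H55.JN M (ℓ := ℓ))) ((ℓ : ℕ) : A₁)))
    (hq₁ : red₁ (algebraMap A₁ ↥(H40.chartB A₁ (H55.JN M (ℓ := ℓ))) ((ℓ : ℕ) : A₁)) = 0)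
    (hq₂ : red₂ (algebraMap A₁ ↥(H40.chartB A₁ (H55.JN M (ℓ := ℓ))) ((ℓ : ℕ) : A₁)) = 0)
    (hJ₁ : red₁ ⟨H55.JN M (ℓ := ℓ), H40.self_mem_chartB _⟩ ≠ 0)
    (hJ₂ : red₂ ⟨H55.JN M (ℓ := ℓ), H40.self_mem_chartB _⟩ ≠ 0) :
    ∃ red₁'' red₂'' : ↥(H40.chartB ↥(H45.cutOver A E)
        (H95.JK ↥E (ℓ * M) ℓ (Dvd.intro M rfl))) →+* R₀,
      (∀ b, red₁'' (H95.chartBC_JK (A := A) E (ℓ * M) ℓ (Dvd.intro M rfl) b) = red₁ b) ∧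
      (∀ b, red₂'' (H95.chartBC_JK (A := A) E (ℓ * M) ℓ (Dvd.intro M rfl) b) = red₂ b) ∧
      red₁'' (algebraMap ↥(H45.cutOver A E) _ π) = 0 ∧
      red₂'' (algebraMap ↥(H45.cutOver A E) _ π) = 0 ∧
      (∀ (a : ↥(H45.cutOver A E)) (c : A₁) (a' : ↥(H45.cutOver A E)),
        a = algebraMap A₁ ↥(H45.cutOver A E) c + π * a' →
        red₁'' (algebraMap ↥(H45.cutOver A E) _ a) =
          red₁ (algebraMap A₁ ↥(H40.chartB A₁ (H55.JN M (ℓ := ℓ))) c)) ∧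
      (∀ (a : ↥(H45.cutOver A E)) (c : A₁) (a' : ↥(H45.cutOver A E)),
        a = algebraMap A₁ ↥(H45.cutOver A E) c + π * a' →
        red₂'' (algebraMap ↥(H45.cutOver A E) _ a) =
          red₂ (algebraMap A₁ ↥(H40.chartB A₁ (H55.JN M (ℓ := ℓ))) c)) ∧
      red₁'' ⟨H95.JK ↥E (ℓ * M) ℓ (Dvd.intro M rfl), H40.self_mem_chartB _⟩ ≠ 0 ∧
      red₂'' ⟨H95.JK ↥E (ℓ * M) ℓ (Dvd.intro M rfl), H40.self_mem_chartB _⟩ ≠ 0 ∧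
      TwoComponents red₁'' red₂''
        ((H95.chartBC_JK (A := A) E (ℓ * M) ℓ (Dvd.intro M rfl)).comp ι)
        ((H95.chartBC_JK (A := A) E (ℓ * M) ℓ (Dvd.intro M rfl)).comp V) rbar W qn
        (algebraMap ↥(H45.cutOver A E)
          ↥(H40.chartB ↥(H45.cutOver A E) (H95.JK ↥E (ℓ * M) ℓ (Dvd.intro M rfl))) π) := by
  obtain ⟨r₁, r₂, hc₁, hc₂, hπ₁, hπ₂, hk₁, hk₂, hTC⟩ :=
    exists_twoComponents_chartBC hℓ.out hA E (ℓ * M) (H55.JN M (ℓ := ℓ)) π hπ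
      (genBy_JN M hℓM A hA E) (H95.JK ↥E (ℓ * M) ℓ (Dvd.intro M rfl))
      (H95.baseChangeE_JK E (ℓ * M) ℓ (Dvd.intro M rfl)) TC hq₁ hq₂
  have hcoord : (⟨H95.JK ↥E (ℓ * M) ℓ (Dvd.intro M rfl), H40.self_mem_chartB _⟩ :
      ↥(H40.chartB ↥(H45.cutOver A E) (H95.JK ↥E (ℓ * M) ℓ (Dvd.intro M rfl)))) =
      H95.chartBC_JK (A := A) E (ℓ * M) ℓ (Dvd.intro M rfl)
        ⟨H55.JN M (ℓ := ℓ), H40.self_mem_chartB _⟩ :=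
    Subtype.ext (H95.baseChangeE_JK E (ℓ * M) ℓ (Dvd.intro M rfl)).symm
  refine ⟨r₁, r₂, hc₁, hc₂, hπ₁, hπ₂, hk₁, hk₂, ?_, ?_, hTC⟩
  · rw [hcoord]
    exact (hc₁ _).trans_ne hJ₁
  · rw [hcoord]
    exact (hc₂ _).trans_ne hJ₂

include hℓM hA hπ in
/-- **The E-level package, chart 2.** -/
theorem exists_twoComponentsE_JK_inv
    {red₁ red₂ : ↥(H40.chartB A₁ (H55.JN M (ℓ := ℓ))⁻¹) →+* R₀}
    {ι V : BM →+* ↥(H40.chartB A₁ (H55.JN M (ℓ := ℓ))⁻¹)}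
    {rbar : BM →+* R₀} {W : R₀ →+* R₀} {qn : ℕ}
    (TC : TwoComponents red₁ red₂ ι V rbar W qn
      (algebraMap A₁ ↥(H40.chartB A₁ (H55.JN M (ℓ := ℓ))⁻¹) ((ℓ : ℕ) : A₁)))
    (hq₁ : red₁ (algebraMap A₁ ↥(H40.chartB A₁ (H55.JN M (ℓ := ℓ))⁻¹) ((ℓ : ℕ) : A₁)) = 0)
    (hq₂ : red₂ (algebraMap A₁ ↥(H40.chartB A₁ (H55.JN M (ℓ := ℓ))⁻¹) ((ℓ : ℕ) : A₁)) = 0)
    (hJ₁ : red₁ ⟨(H55.JN M (ℓ := ℓ))⁻¹, H40.self_mem_chartB _⟩ ≠ 0)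
    (hJ₂ : red₂ ⟨(H55.JN M (ℓ := ℓ))⁻¹, H40.self_mem_chartB _⟩ ≠ 0) :
    ∃ red₁'' red₂'' : ↥(H40.chartB ↥(H45.cutOver A E)
        (H95.JK ↥E (ℓ * M) ℓ (Dvd.intro M rfl))⁻¹) →+* R₀,
      (∀ b, red₁'' (H95.chartBC_JK_inv (A := A) E (ℓ * M) ℓ (Dvd.intro M rfl) b) = red₁ b) ∧
      (∀ b, red₂'' (H95.chartBC_JK_inv (A := A) E (ℓ * M) ℓ (Dvd.intro M rfl) b) = red₂ b) ∧
      red₁'' (algebraMap ↥(H45.cutOver A E) _ π) = 0 ∧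
      red₂'' (algebraMap ↥(H45.cutOver A E) _ π) = 0 ∧
      (∀ (a : ↥(H45.cutOver A E)) (c : A₁) (a' : ↥(H45.cutOver A E)),
        a = algebraMap A₁ ↥(H45.cutOver A E) c + π * a' →
        red₁'' (algebraMap ↥(H45.cutOver A E) _ a) =
          red₁ (algebraMap A₁ ↥(H40.chartB A₁ (H55.JN M (ℓ := ℓ))⁻¹) c)) ∧
      (∀ (a : ↥(H45.cutOver A E)) (c : A₁) (a' : ↥(H45.cutOver A E)),
        a = algebraMap A₁ ↥(H45.cutOver A E) c + π * a' →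
        red₂'' (algebraMap ↥(H45.cutOver A E) _ a) =
          red₂ (algebraMap A₁ ↥(H40.chartB A₁ (H55.JN M (ℓ := ℓ))⁻¹) c)) ∧
      red₁'' ⟨(H95.JK ↥E (ℓ * M) ℓ (Dvd.intro M rfl))⁻¹, H40.self_mem_chartB _⟩ ≠ 0 ∧
      red₂'' ⟨(H95.JK ↥E (ℓ * M) ℓ (Dvd.intro M rfl))⁻¹, H40.self_mem_chartB _⟩ ≠ 0 ∧
      TwoComponents red₁'' red₂''
        ((H95.chartBC_JK_inv (A := A) E (ℓ * M) ℓ (Dvd.intro M rfl)).comp ι)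
        ((H95.chartBC_JK_inv (A := A) E (ℓ * M) ℓ (Dvd.intro M rfl)).comp V) rbar W qn
        (algebraMap ↥(H45.cutOver A E)
          ↥(H40.chartB ↥(H45.cutOver A E) (H95.JK ↥E (ℓ * M) ℓ (Dvd.intro M rfl))⁻¹) π) := by
  obtain ⟨r₁, r₂, hc₁, hc₂, hπ₁, hπ₂, hk₁, hk₂, hTC⟩ :=
    exists_twoComponents_chartBC hℓ.out hA E (ℓ * M) (H55.JN M (ℓ := ℓ))⁻¹ π hπ
      (genBy_JN_inv M hℓM A hA E) (H95.JK ↥E (ℓ * M) ℓ (Dvd.intro M rfl))⁻¹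
      (H95.baseChangeE_JK_inv E (ℓ * M) ℓ (Dvd.intro M rfl)) TC hq₁ hq₂
  have hcoord : (⟨(H95.JK ↥E (ℓ * M) ℓ (Dvd.intro M rfl))⁻¹, H40.self_mem_chartB _⟩ :
      ↥(H40.chartB ↥(H45.cutOver A E) (H95.JK ↥E (ℓ * M) ℓ (Dvd.intro M rfl))⁻¹)) =
      H95.chartBC_JK_inv (A := A) E (ℓ * M) ℓ (Dvd.intro M rfl)
        ⟨(H55.JN M (ℓ := ℓ))⁻¹, H40.self_mem_chartB _⟩ :=
    Subtype.ext (H95.baseChangeE_JK_inv E (ℓ * M) ℓ (Dvd.intro M rfl)).symm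
  refine ⟨r₁, r₂, hc₁, hc₂, hπ₁, hπ₂, hk₁, hk₂, ?_, ?_, hTC⟩
  · rw [hcoord]
    exact (hc₁ _).trans_ne hJ₁
  · rw [hcoord]
    exact (hc₂ _).trans_ne hJ₂

end Fermat.Agent.S35.H70
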