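/-
helper18 — S35 row GEO-TOP-E, final assembly, part C: **`GeoFnEN` at one level `E` from the L0
package and (E2).**

`geoFnEN_of_l0Pkg` : at the level `N = ℓ * M`, for `E / K₁` finite Galois, `GQ`-stable, the
statement `H18.GeoFnEN M ℓ (ℓ * M) .. E hE φ ℓ (p ^ n) T` from

* helper55's `A₁`-level L0 package (`H55.exists_l0Pkg`: one pair of places, the two charts with their
  `TwoComponents` structures and side facts),
* the two (E2) statements `hE2₁ hE2₂` (helper8, with helper16's `T`).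

Everything else is wired from main: helper70's `E`-level package (`exists_twoComponentsE_JK(_inv)`),
helper84's `hne`, helper27's G1 block (`H27_G1JK`), the place bridge (`H18.hbridge_chart'`,
helper85 + helper6) for `hVp hVq` and for helper46's (E3) (`H46.hE3_level`), the units
(`H18.hunit_of_twoComponents`), and `H18.geoFnEN_of_twoComponents`.
-/
import Mathlib
import Fermat.Agent.S35.H18_GeoTopN
import Fermat.Agent.S35.H18_GeoInstA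
import Fermat.Agent.S35.H18_GeoInstB
import Fermat.Agent.S35.H70_TwoComponentsBCPkg
import Fermat.Agent.S35.H27_G1JK
import Fermat.Agent.S35.H6_VertBlock

set_option autoImplicit false
set_option linter.unusedSectionVars false
set_option linter.style.haveILetI false
set_option synthInstance.maxHeartbeats 400000
set_option maxHeartbeats 3200000

noncomputable section

namespace Fermat.Agent.S35.H18

open ModularCurve AlgebraicCurve HahnSeries IntermediateField IsLocalRing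
open Fermat.Agent.S18 Fermat.Agent.S18.H45 Fermat.Agent.S34
open Fermat.Agent.S34.H55

local notation "Qbar" => AlgebraicClosure ℚ
local notation "GQ" => (AlgebraicClosure ℚ ≃ₐ[ℚ] AlgebraicClosure ℚ)

variable (M : ℕ) [NeZero M] {ℓ : ℕ} [NeZero ℓ] [hℓ : Fact ℓ.Prime] (hℓM : ¬ ℓ ∣ M)
  (A : ValuationSubring Qbar) (hA : A.LiesOverPrime ℓ)
variable (E : IntermediateField (unrCyclo ℓ) Qbar) [FiniteDimensional (unrCyclo ℓ) E]
variable (hE : ∀ (τ : GQ) (x : Qbar), x ∈ E → τ x ∈ E)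

local notation "kA" => IsLocalRing.ResidueField A
local notation "A₁" => H45.A0 A ℓ
local notation "FkM" => modularFunctionFieldFullC (IsLocalRing.ResidueField A) M
local notation "J₁" => H55.JN M (ℓ := ℓ)
set_option quotPrecheck false
local notation "JE" => (H95.JK ↥E (ℓ * M) ℓ (Dvd.intro M rfl))
local notation "FE" => ↥(modularFunctionFieldFullC ↥E (ℓ * M))
local notation "RE" => ↥(cutOver A E)
local notation "B₁E" => ↥(H40.chartB (cutOver A E) JE)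
local notation "B₂E" => ↥(H40.chartB (cutOver A E) JE⁻¹)
local notation "RM" => integralClosure
  (Algebra.adjoin (IsLocalRing.ResidueField A) {S18.H16.jK (IsLocalRing.ResidueField A) M})
  (modularFunctionFieldFullC (IsLocalRing.ResidueField A) M)
local notation "RM'" => integralClosure
  (Algebra.adjoin (IsLocalRing.ResidueField A) {(S18.H16.jK (IsLocalRing.ResidueField A) M)⁻¹})
  (modularFunctionFieldFullC (IsLocalRing.ResidueField A) M)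

set_option maxHeartbeats 64000000 in
include hℓM hA in
/-- **`GeoFnEN` at one level `E`, from the L0 package and (E2).** -/
theorem geoFnEN_of_l0Pkg
    (Pi : PlaceInf M hℓM A hA) (P0 : PlaceZero M hℓM A hA)
    (r₁₁ r₁₂ : ↥(H40.chartB A₁ J₁) →+* ↥RM)
    (TC₁ : H83.TwoComponents r₁₁ r₁₂
      (chartMap (iotaMN M (ℓ := ℓ)) (iotaMN_algebraMap M A) (hιint1 M A))
      (chartMap (VMN M (ℓ := ℓ)) (VMN_algebraMap M A) (hVint1 M A))
      (rbarB (Mod M hℓM A hA) (Mod M hℓM A hA).x_mem (Mod M hℓM A hA).res1_x)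
      (WR (FrM M A hA) ℓ (hFrx M A hA)) ℓ
      (algebraMap A₁ ↥(H40.chartB A₁ J₁) ((ℓ : ℕ) : A₁)))
    (F₁ : S35.H55.L0ChartFacts M hℓM A hA Pi P0 r₁₁ r₁₂)
    (r₂₁ r₂₂ : ↥(H40.chartB A₁ J₁⁻¹) →+* ↥RM')
    (TC₂ : H83.TwoComponents r₂₁ r₂₂
      (chartMap (iotaMN M (ℓ := ℓ)) (iotaMN_algebraMap M A) (hιint2 M A))
      (chartMap (VMN M (ℓ := ℓ)) (VMN_algebraMap M A) (hVint2 M A))
      (rbarB (Mod M hℓM A hA) (hc2 M hℓM A hA) (hcw2 M hℓM A hA))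
      (WR (FrM M A hA) ℓ (hFrx_inv M A hA)) ℓ
      (algebraMap A₁ ↥(H40.chartB A₁ J₁⁻¹) ((ℓ : ℕ) : A₁)))
    (F₂ : S35.H55.L0ChartFacts M hℓM A hA Pi P0 r₂₁ r₂₂)
    {p : ℕ} (hp : p.Prime) (hpℓ : p ≠ ℓ) (φ : GQ) (hφ : A.IsFrobeniusAt φ ℓ) (n : ℕ)
    (T : Set (Place Qbar (S24.FN (ℓ * M))))
    (π : RE) (hmax : maximalIdeal RE = Ideal.span {π})
    (hE2₁ : ∀ f : FE, H61.Admissible ↥E f (p ^ n) →
      (∀ v ∈ T, v.ord (H99.toBar ↥E (ℓ * M) f) = 0) →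
      ∀ m : Ideal B₁E, m.IsMaximal → algebraMap RE B₁E π ∈ m →
        H46.ChartWeakAt (F := FE) (algebraMap RE B₁E π) m
          (galActFullC E hE (ℓ * M) φ (galActFullC E hE (ℓ * M) φ f) / f) (p ^ n))
    (hE2₂ : ∀ f : FE, H61.Admissible ↥E f (p ^ n) →
      (∀ v ∈ T, v.ord (H99.toBar ↥E (ℓ * M) f) = 0) →
      ∀ m : Ideal B₂E, m.IsMaximal → algebraMap RE B₂E π ∈ m →
        H46.ChartWeakAt (F := FE) (algebraMap RE B₂E π) m
          (galActFullC E hE (ℓ * M) φ (galActFullC E hE (ℓ * M) φ f) / f) (p ^ n)) :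
    GeoFnEN M ℓ (ℓ * M) (dvd_mul_left M ℓ) dvd_rfl E hE φ ℓ (p ^ n) T := by
  -- base ring
  haveI := isDiscreteValuationRing_cutOver hℓ.out hA E
  haveI := isAlgClosed_residueField_cutOver hℓ.out hA E
  have hπirr : Irreducible π := irreducible_of_maximalIdeal_cutOver_eq hℓ.out hA E hmax
  -- chart instances
  haveI := H95.finiteDimensional_JK ↥E (ℓ * M) ℓ (Dvd.intro M rfl)
    (H99.natCast_ne_zero₀ (ℓ * M) ↥E)
  haveI := H95.isSeparable_JK ↥E (ℓ * M) ℓ (Dvd.intro M rfl)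
  have htr := H95.transcendental_JK ↥E (ℓ * M) ℓ (Dvd.intro M rfl)
  haveI := H95.isFractionRing_chartB_JK (A := A) E (ℓ * M) ℓ (Dvd.intro M rfl)
  haveI := H95.isFractionRing_chartB_JK_inv (A := A) E (ℓ * M) ℓ (Dvd.intro M rfl)
  haveI := H95.isNoetherianRing_chartB_JK hℓ.out hA E (ℓ * M) ℓ (Dvd.intro M rfl)
  haveI := H95.isNoetherianRing_chartB_JK_inv hℓ.out hA E (ℓ * M) ℓ (Dvd.intro M rfl)
  haveI := H95.isIntegrallyClosed_chartB_JK (A := A) E (ℓ * M) ℓ (Dvd.intro M rfl)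
  haveI := H95.isIntegrallyClosed_chartB_JK_inv (A := A) E (ℓ * M) ℓ (Dvd.intro M rfl)
  -- branch rings
  haveI := S18.H16.isAlgClosed_k A
  haveI := S18.H16.finiteDimensional_Fk M hℓM A hA
  haveI := S18.H16.isSeparable_Fk M hℓM A hA
  haveI := S18.H97.finiteDimensional_adjoin_inv (k := kA) (S18.H16.jK kA M)
  haveI := S18.H97.isSeparable_adjoin_inv (k := kA) (S18.H16.jK kA M)
  haveI hDed₁ : IsDedekindDomain ↥RM :=
    S18.H97.isDedekindDomain_intRing_of_isSeparable (S18.H16.jK kA M)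
      (S18.H16.transcendental_jk M A)
  haveI hDed₂ : IsDedekindDomain ↥RM' :=
    S18.H97.isDedekindDomain_intRing_of_isSeparable (S18.H16.jK kA M)⁻¹
      (S18.H97.transcendental_inv (S18.H16.transcendental_jk M A))
  have he : 2 ≤ ℓ := hℓ.out.two_le
  have hD₁ := F₁.notField
  have hD₂ := F₂.notField
  -- the E-level packages (helper70)
  have k1 := S35.H70.exists_twoComponentsE_JK M hℓM A hA E π hmax TC₁ F₁.red₁_ell F₁.red₂_ell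
    F₁.coord₁ F₁.coord₂
  obtain ⟨ρ₁₁, ρ₁₂, hc₁₁, hc₁₂, hπ₁₁, hπ₁₂, hk₁₁, hk₁₂, hJ₁₁, hJ₁₂, TC₁E⟩ := k1
  have k2 := S35.H70.exists_twoComponentsE_JK_inv M hℓM A hA E π hmax TC₂ F₂.red₁_ell
    F₂.red₂_ell F₂.coord₁ F₂.coord₂
  obtain ⟨ρ₂₁, ρ₂₂, hc₂₁, hc₂₂, hπ₂₁, hπ₂₂, hk₂₁, hk₂₂, hJ₂₁, hJ₂₂, TC₂E⟩ := k2
  have hne₁₁ := S35.H84.exists_red₁_eq_zero_red₂_ne_zero TC₁E he hD₁
  have hne₁₂ := S35.H84.exists_red₂_eq_zero_red₁_ne_zero TC₁E he hD₁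
  have hne₂₁ := S35.H84.exists_red₁_eq_zero_red₂_ne_zero TC₂E he hD₂
  have hne₂₂ := S35.H84.exists_red₂_eq_zero_red₁_ne_zero TC₂E he hD₂
  -- G1 (helper27)
  have hφd := hφ.mem_decompositionSubgroup
  have hQ : 0 < ℓ ^ 2 := pow_pos hℓ.out.pos 2
  have hJfix := S35.H27.galActFullC_JK E hE (ℓ * M) ℓ (Dvd.intro M rfl) φ
  have hJfix' := S35.H27.galActFullC_JK_inv E hE (ℓ * M) ℓ (Dvd.intro M rfl) φ
  have hΨR₁ : ∀ r : RE, S35.H27.psiB_JK M E hE φ hφd (algebraMap RE B₁E r) =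
      algebraMap RE B₁E (S35.H27.psiR E hE φ hφd r) :=
    fun r => S35.H27.psiB_algebraMap E hE (ℓ * M) φ hφd JE hJfix r
  have hΨR₂ : ∀ r : RE, S35.H27.psiB_JK_inv M E hE φ hφd (algebraMap RE B₂E r) =
      algebraMap RE B₂E (S35.H27.psiR E hE φ hφd r) :=
    fun r => S35.H27.psiB_algebraMap E hE (ℓ * M) φ hφd JE⁻¹ hJfix' r
  have hΨπ := S35.H27.dvd_psiR_pi E hE φ hφd π hmax
  have hFrobR := S35.H27.dvd_psiR_sub_pow E hE hφ π hmax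
  have h1Ψ₁ := S35.H27.red_psiB_JK_infty M hℓM hA E hE hφ Pi r₁₁ (fun b _ => F₁.res_inf b)
    π hmax ρ₁₁ hc₁₁ hπ₁₁
  have h2Ψ₁ := S35.H27.red_psiB_JK_zero M hℓM hA E hE hφ P0 r₁₂ (fun b _ => F₁.res_zero b)
    π hmax ρ₁₂ hc₁₂ hπ₁₂
  have h1Ψ₂ := S35.H27.red_psiB_JK_inv_infty M hℓM hA E hE hφ Pi r₂₁
    (fun b _ => F₂.res_inf b) π hmax ρ₂₁ hc₂₁ hπ₂₁
  have h2Ψ₂ := S35.H27.red_psiB_JK_inv_zero M hℓM hA E hE hφ P0 r₂₂
    (fun b _ => F₂.res_zero b) π hmax ρ₂₂ hc₂₂ hπ₂₂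
  -- the place bridge (helper85 / helper6) on both charts
  have hMN : M ∣ ℓ * M := dvd_mul_left M ℓ
  have br₁ := hbridge_chart' M hℓM A hA E Pi P0 r₁₁ r₁₂ F₁ π hmax
    (S35.H70.genBy_JN M hℓM A hA E) hMN JE (H95.baseChangeE_JK E (ℓ * M) ℓ (Dvd.intro M rfl))
    ρ₁₁ ρ₁₂ hc₁₁ hc₁₂ hk₁₁ hk₁₂
  have br₂ := hbridge_chart' M hℓM A hA E Pi P0 r₂₁ r₂₂ F₂ π hmax
    (S35.H70.genBy_JN_inv M hℓM A hA E) hMN JE⁻¹
    (H95.baseChangeE_JK_inv E (ℓ * M) ℓ (Dvd.intro M rfl)) ρ₂₁ ρ₂₂ hc₂₁ hc₂₂ hk₂₁ hk₂₂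
  have hpl := S35.H46.nonempty_places_level M hℓM A hA E π hmax (ℓ * M) rfl hMN
  have hVpq : (∀ [(RingHom.ker ρ₁₁).IsPrime] [(RingHom.ker ρ₂₁).IsPrime]
      (h1 : (RingHom.ker ρ₁₁).height = 1) (h2 : (RingHom.ker ρ₂₁).height = 1),
      H56.valuationSubringAt (K := FE) (RingHom.ker ρ₁₁) h1 =
        H56.valuationSubringAt (K := FE) (RingHom.ker ρ₂₁) h2) ∧
      (∀ [(RingHom.ker ρ₁₂).IsPrime] [(RingHom.ker ρ₂₂).IsPrime]
      (h1 : (RingHom.ker ρ₁₂).height = 1) (h2 : (RingHom.ker ρ₂₂).height = 1),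
      H56.valuationSubringAt (K := FE) (RingHom.ker ρ₁₂) h1 =
        H56.valuationSubringAt (K := FE) (RingHom.ker ρ₂₂) h2) := by
    letI := S35.H46.algebraVMEFNat M hℓM A hA E (ℓ * M) hMN
    obtain ⟨⟨Pinf⟩, ⟨P0'⟩⟩ := hpl
    have b1 := br₁ Pinf P0'
    have b2 := br₂ Pinf P0'
    obtain ⟨hBi₁, hB0₁, hri₁, hr0₁⟩ := b1
    obtain ⟨hBi₂, hB0₂, hri₂, hr0₂⟩ := b2
    refine ⟨?_, ?_⟩
    · intro _ _ h1 h2
      exact S35.H6.valuationSubringAt_eq_of_place Pinf (RingHom.ker ρ₁₁) h1 hBi₁ hri₁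
        (RingHom.ker ρ₂₁) h2 hBi₂ hri₂
    · intro _ _ h1 h2
      exact S35.H6.valuationSubringAt_eq_of_place P0' (RingHom.ker ρ₁₂) h1 hB0₁ hr0₁
        (RingHom.ker ρ₂₂) h2 hB0₂ hr0₂
  -- (E3) (helper46): bridge on chart 1 + units
  haveI hft₁ : Algebra.FiniteType RE B₁E := H83.finiteType_chartB (R := RE) (K := ↥E) JE htr
  have hπ0₁ : algebraMap RE B₁E π ≠ 0 :=
    algebraMap_chart_ne_zero (R := RE) ↥E (H40.chartB (cutOver A E) JE) hπirr.ne_zero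
  have hpq₁ : RingHom.ker ρ₁₁ ≠ RingHom.ker ρ₁₂ := S35.H84.ker_red₁_ne_ker_red₂ TC₁E he hD₁
  haveI hp₁₁ : (RingHom.ker ρ₁₁).IsPrime := RingHom.ker_isPrime ρ₁₁
  haveI hp₁₂ : (RingHom.ker ρ₁₂).IsPrime := RingHom.ker_isPrime ρ₁₂
  have hunit := hunit_of_twoComponents (F := FE) hmax TC₁E hπ0₁ hπ₁₁ hπ₁₂ he hD₁
    ((galActFullC E hE (ℓ * M) φ).trans (galActFullC E hE (ℓ * M) φ))
    (S35.H27.psiB_JK M E hE φ hφd) (S35.H27.psiR E hE φ hφd) hQ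
    (S35.H27.algebraMap_psiB_JK M E hE φ hφd) hΨR₁ hΨπ
    (S35.H27.psiD_jK M hA) (S35.H27.psiD_jK M hA) (S35.H27.psiD_jK_injective M hA)
    (S35.H27.psiD_jK_injective M hA) h1Ψ₁ h2Ψ₁ (S35.H27.WR_WR_psiD_jK M hA)
  have hE3 : ∀ f : FE, H61.Admissible ↥E f (p ^ n) →
      (∀ v ∈ T, v.ord (H99.toBar ↥E (ℓ * M) f) = 0) →
      (∃ (c : ↥E) (h : ↥(modularFunctionFieldFullC ↥E M)), c ≠ 0 ∧ h ≠ 0 ∧
        (letI := H16.degAlgebra ↥E M (ℓ * M) (dvd_mul_left M ℓ);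
          Algebra.norm ↥(modularFunctionFieldFullC ↥E M) f) =
            algebraMap ↥E ↥(modularFunctionFieldFullC ↥E M) c * h ^ (p ^ n)) →
      (∃ (c : ↥E) (h : ↥(modularFunctionFieldFullC ↥E M)), c ≠ 0 ∧ h ≠ 0 ∧
        (letI := S35.H16.vAlgebra ↥E ℓ M (ℓ * M) dvd_rfl;
          Algebra.norm ↥(modularFunctionFieldFullC ↥E M) f) =
            algebraMap ↥E ↥(modularFunctionFieldFullC ↥E M) c * h ^ (p ^ n)) →
      ∀ [(RingHom.ker ρ₁₁).IsPrime] [(RingHom.ker ρ₁₂).IsPrime]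
        (h1 : (RingHom.ker ρ₁₁).height = 1) (h2 : (RingHom.ker ρ₁₂).height = 1),
      ∃ G : FE, G ≠ 0 ∧
        H47.OneU (H56.valuationSubringAt (K := FE) (RingHom.ker ρ₁₁) h1)
          (ratE (galActFullC E hE (ℓ * M) φ) 1 (ratE (galActFullC E hE (ℓ * M) φ) 1 f) /
            G ^ (p ^ n)) ∧
        H47.OneU (H56.valuationSubringAt (K := FE) (RingHom.ker ρ₁₂) h2)
          (ratE (galActFullC E hE (ℓ * M) φ) 1 (ratE (galActFullC E hE (ℓ * M) φ) 1 f) /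
            G ^ (p ^ n)) := by
    intro f hadm _ hα hβ _ _ h1 h2
    exact S35.H46.hE3_level M hℓM A hA E π hmax hE (ℓ * M) rfl hMN dvd_rfl hφ
      (RingHom.ker ρ₁₁) (RingHom.ker ρ₁₂) h1 h2 hpq₁ br₁ (fun g hg => hunit h1 h2 g hg)
      (pow_pos hp.pos n) f hadm.1 hα hβ
  -- the consumer
  exact geoFnEN_of_twoComponents hℓ.out hA E hE M (ℓ * M) (Dvd.intro M rfl) (dvd_mul_left M ℓ)
    dvd_rfl hp hpℓ φ n T π hmax
    TC₁E hπ₁₁ hπ₁₂ hne₁₁ hne₁₂ he hD₁ hJ₁₁ hJ₁₂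
    TC₂E hπ₂₁ hπ₂₂ hne₂₁ hne₂₂ he hD₂ hJ₂₁ hJ₂₂ hVpq.1 hVpq.2
    (S35.H27.psiB_JK M E hE φ hφd) (S35.H27.psiB_JK_inv M E hE φ hφd) (S35.H27.psiR E hE φ hφd)
    (S35.H27.algebraMap_psiB_JK M E hE φ hφd) (S35.H27.algebraMap_psiB_JK_inv M E hE φ hφd)
    hΨR₁ hΨR₂ hΨπ
    (S35.H27.psiD_jK M hA) (S35.H27.psiD_jK M hA) (S35.H27.psiD_jK_injective M hA)
    (S35.H27.psiD_jK_injective M hA) h1Ψ₁ h2Ψ₁ (S35.H27.WR_WR_psiD_jK M hA)
    (S35.H27.psiD_jK_inv M hA) (S35.H27.psiD_jK_inv M hA) (S35.H27.psiD_jK_inv_injective M hA)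
    (S35.H27.psiD_jK_inv_injective M hA) h1Ψ₂ h2Ψ₂ (S35.H27.WR_WR_psiD_jK_inv M hA)
    hFrobR hE2₁ hE2₂ hE3

end Fermat.Agent.S35.H18
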