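/-
helper8 — S35 node (E2): `H8.ChartPkgFrob` at the concrete types for `Ψ = Φ ∘ Φ`,
`Φ = H45.galActFullC E hE N φ`, `φ` in the decomposition group, with the G1 fields
(`hsB`, `hsB₁`, `hsπ`) discharged from helper27's `S35/H27_ChartActInst` (`chartActE`,
`chartActA0`, `chartActE_chartMapE`, `chartActE_algebraMap`).  Chart coordinate
`J_E := baseChangeE E N J₁` (helper27's / helper70's), `h := rfl`.

Hypotheses left: `hcl` (helper40 (a)'), `hstab` (for ONE application of `chartActE`: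
`CA.H27.stable_of_mem_minimalPrimes`), `hL1` (`H8.hL1_refined`), `hfix` (helper84
`node_comap_eq` for the composite).
-/
import Mathlib
import Fermat.Agent.S35.H27_ChartActInst
import Fermat.Agent.S35.H8_ChartPkgFrobInst

set_option autoImplicit false
set_option linter.unusedSectionVars false
set_option linter.style.haveILetI false
set_option synthInstance.maxHeartbeats 400000

noncomputable section

namespace Fermat.Agent.S35.H8

open Polynomial ModularCurve HahnSeries IntermediateField IsLocalRing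
open Fermat.Agent.S18 Fermat.Agent.S18.H45 Fermat.Agent.S34.H95 Fermat.Agent.S34

local notation "Qbar" => AlgebraicClosure ℚ

/-- a ring automorphism of a DVR maps a uniformiser to an associate. -/
theorem associated_map_of_irreducible {R : Type*} [CommRing R] [IsDomain R]
    [IsDiscreteValuationRing R] (σ : R ≃+* R) {π : R} (hπ : Irreducible π) :
    Associated (σ π) π :=
  IsDiscreteValuationRing.associated_of_irreducible R
    ((MulEquiv.irreducible_iff σ.toMulEquiv).mpr hπ) hπ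

/-- stability under `sB` gives stability under `sB ∘ sB`. -/
theorem stable_trans {B : Type*} [CommRing B] (sB : B ≃+* B) (P : Ideal B)
    (h : H56.Stable sB P) : H56.Stable (sB.trans sB) P := fun b => by
  rw [RingEquiv.trans_apply, h, h]

section Generic

variable {A₁ : Type*} [CommRing A₁]
variable {R k B F : Type*} [CommRing R] [IsDomain R] [Field k] [Algebra R k]
  [CommRing B] [IsDomain B] [Field F] [Algebra B F] [IsFractionRing B F]
  [Algebra R B] [Algebra k F] [Algebra R F] [IsScalarTower R B F] [IsScalarTower R k F]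
  [IsNoetherianRing B] [IsIntegrallyClosed B]
variable [Algebra A₁ R]
variable {B₁ : Type*} [CommRing B₁] [Algebra A₁ B₁] [Algebra B₁ B]

/-- **The package for `Ψ = Φ ∘ Φ` from the one-step facts about `Φ`** (the base fields are read
off any package `H₀` over the same chart). -/
theorem ChartPkgFrob.of_single {π : R} {q : A₁} {J : B}
    (hint : ∀ b : B, (aeval (R := R) J : R[X] →ₐ[R] B).toRingHom.IsIntegralElem b)
    (hq0 : algebraMap A₁ R q ≠ 0) (hπq : π ∣ algebraMap A₁ R q)
    (hcomp : ∀ a : A₁, algebraMap B₁ B (algebraMap A₁ B₁ a) = algebraMap R B (algebraMap A₁ R a))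
    (hgenR : Algebra.adjoin B₁ (Set.range (algebraMap R B)) = ⊤)
    (hnn : ∀ n : Ideal B, n.IsMaximal → algebraMap R B π ∈ n →
      n ≤ Ideal.map (algebraMap B₁ B) (n.comap (algebraMap B₁ B)) ⊔
        Ideal.span {algebraMap R B π})
    (hmax : ∀ n : Ideal B, n.IsMaximal → algebraMap R B π ∈ n →
      (n.comap (algebraMap B₁ B)).IsMaximal)
    (sB₁ : B₁ ≃+* B₁) (sB : B ≃+* B) (s : F ≃+* F) (IsNode : Ideal B₁ → Prop)
    (hs : ∀ b, s (algebraMap B F b) = algebraMap B F (sB b))
    (hsπ : Associated (sB (algebraMap R B π)) (algebraMap R B π))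
    (hstab : ∀ P : Ideal B, P.IsPrime → P.height = 1 → algebraMap R B π ∈ P → H56.Stable sB P)
    (hsB₁ : ∀ b : B₁, sB (algebraMap B₁ B b) = algebraMap B₁ B (sB₁ b))
    (hsq : sB₁ (algebraMap A₁ B₁ q) = algebraMap A₁ B₁ q)
    (hL1 : ∀ (n₁ : Ideal B₁) [n₁.IsMaximal], algebraMap A₁ B₁ q ∈ n₁ →
      SmoothAt q n₁ ∨ (IsNode n₁ ∧ NodeAt q n₁))
    (hfix : ∀ n : Ideal B, n.IsMaximal → algebraMap R B π ∈ n →
      IsNode (n.comap (algebraMap B₁ B)) → n.comap ((sB.trans sB : B ≃+* B) : B →+* B) = n) :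
    ChartPkgFrob k B₁ π q J (sB₁.trans sB₁) (sB.trans sB) (s.trans s) IsNode where
  hint := hint
  hq0 := hq0
  hπq := hπq
  hcomp := hcomp
  hgenR := hgenR
  hnn := hnn
  hmax := hmax
  hs := fun b => by rw [RingEquiv.trans_apply, RingEquiv.trans_apply, hs, hs]
  hsπ := by
    rw [RingEquiv.trans_apply]
    exact (hsπ.map (sB : B →* B)).trans hsπ
  hstab := fun P hP h1 hπP => stable_trans sB P (hstab P hP h1 hπP)
  hsB₁ := fun b => by rw [RingEquiv.trans_apply, RingEquiv.trans_apply, hsB₁, hsB₁]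
  hsq := by rw [RingEquiv.trans_apply, hsq, hsq]
  hL1 := hL1
  hfix := hfix

end Generic

variable {A : ValuationSubring Qbar} {ℓ : ℕ} (hℓ : ℓ.Prime) (hA : A.LiesOverPrime ℓ)
variable (E : IntermediateField (unrCyclo ℓ) Qbar)
variable (hE : ∀ (τ : Qbar ≃ₐ[ℚ] Qbar) (x : Qbar), x ∈ E → τ x ∈ E)
variable (N : ℕ) [NeZero N]

/-- helper95's and helper70's chart maps agree. -/
theorem chartBC_eq_chartMapE (J₁ : modularFunctionFieldFullC (unrCyclo ℓ) N)
    (b : ↥(H40.chartB (A0 A ℓ) J₁)) :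
    chartBC (A := A) E N J₁ (baseChangeE E N J₁) rfl b = H70.chartMapE (A := A) E N J₁ b :=
  Subtype.ext rfl

set_option maxHeartbeats 3200000 in
include hℓ hA in
/-- **The Frobenius chart package at the concrete types, G1 fields discharged.** -/
theorem chartPkgFrob_of_chartAct [FiniteDimensional (unrCyclo ℓ) E]
    (J₁ : modularFunctionFieldFullC (unrCyclo ℓ) N)
    (φ : Qbar ≃ₐ[ℚ] Qbar) (hφ : φ ∈ A.decompositionSubgroup ℚ)
    (hJ₁ : S37.H53.coeffRingAut (unrCyclo ℓ) N (galActK1 ℓ φ) J₁ = J₁)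
    [IsNoetherianRing ↥(H40.chartB (cutOver A E) (baseChangeE E N J₁))]
    [IsIntegrallyClosed ↥(H40.chartB (cutOver A E) (baseChangeE E N J₁))]
    [IsFractionRing ↥(H40.chartB (cutOver A E) (baseChangeE E N J₁))
      (modularFunctionFieldFullC ↥E N)]
    (π : cutOver A E) (hmax : maximalIdeal (cutOver A E) = Ideal.span {π})
    (hcl : ∀ z : modularFunctionFieldFullC ↥E N,
      z ∈ H40.chartB (cutOver A E) (baseChangeE E N J₁) →
      z ∈ Subring.closure
        (Set.range (fun b : ↥(H40.chartB (A0 A ℓ) J₁) =>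
            baseChangeE E N (b : modularFunctionFieldFullC (unrCyclo ℓ) N)) ∪
          Set.range (algebraMap (cutOver A E) (modularFunctionFieldFullC ↥E N))))
    (hstab : ∀ P : Ideal ↥(H40.chartB (cutOver A E) (baseChangeE E N J₁)), P.IsPrime →
      P.height = 1 →
      algebraMap (cutOver A E) ↥(H40.chartB (cutOver A E) (baseChangeE E N J₁)) π ∈ P →
      H56.Stable (S35.H27.chartActE E hE N φ hφ J₁ hJ₁) P)
    (IsNode : Ideal ↥(H40.chartB (A0 A ℓ) J₁) → Prop)
    (hL1 : ∀ (n₁ : Ideal ↥(H40.chartB (A0 A ℓ) J₁)) [n₁.IsMaximal],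
      algebraMap (A0 A ℓ) ↥(H40.chartB (A0 A ℓ) J₁) ((ℓ : ℕ) : A0 A ℓ) ∈ n₁ →
        SmoothAt ((ℓ : ℕ) : A0 A ℓ) n₁ ∨ (IsNode n₁ ∧ NodeAt ((ℓ : ℕ) : A0 A ℓ) n₁))
    (hfix : letI := (chartBC (A := A) E N J₁ (baseChangeE E N J₁) rfl).toAlgebra
      ∀ n : Ideal ↥(H40.chartB (cutOver A E) (baseChangeE E N J₁)), n.IsMaximal →
        algebraMap (cutOver A E) ↥(H40.chartB (cutOver A E) (baseChangeE E N J₁)) π ∈ n →
        IsNode (n.comap (algebraMap ↥(H40.chartB (A0 A ℓ) J₁)
          ↥(H40.chartB (cutOver A E) (baseChangeE E N J₁)))) →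
        n.comap (((S35.H27.chartActE E hE N φ hφ J₁ hJ₁).trans
          (S35.H27.chartActE E hE N φ hφ J₁ hJ₁) :
            ↥(H40.chartB (cutOver A E) (baseChangeE E N J₁)) ≃+*
              ↥(H40.chartB (cutOver A E) (baseChangeE E N J₁))) :
          ↥(H40.chartB (cutOver A E) (baseChangeE E N J₁)) →+*
            ↥(H40.chartB (cutOver A E) (baseChangeE E N J₁))) = n) :
    letI := (chartBC (A := A) E N J₁ (baseChangeE E N J₁) rfl).toAlgebra
    ChartPkgFrob ↥E ↥(H40.chartB (A0 A ℓ) J₁) π ((ℓ : ℕ) : A0 A ℓ)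
      (coordB (R := cutOver A E) (baseChangeE E N J₁))
      ((S35.H27.chartActA0 N φ hφ J₁ hJ₁).trans (S35.H27.chartActA0 N φ hφ J₁ hJ₁))
      ((S35.H27.chartActE E hE N φ hφ J₁ hJ₁).trans (S35.H27.chartActE E hE N φ hφ J₁ hJ₁))
      ((galActFullC E hE N φ).trans (galActFullC E hE N φ)) IsNode := by
  letI := (chartBC (A := A) E N J₁ (baseChangeE E N J₁) rfl).toAlgebra
  haveI : IsDiscreteValuationRing (cutOver A E) := isDiscreteValuationRing_cutOver hℓ hA E
  have hπirr : Irreducible π :=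
    (IsDiscreteValuationRing.irreducible_iff_uniformizer π).mpr hmax
  have hcomp : ∀ a : A0 A ℓ,
      algebraMap ↥(H40.chartB (A0 A ℓ) J₁) ↥(H40.chartB (cutOver A E) (baseChangeE E N J₁))
        (algebraMap (A0 A ℓ) ↥(H40.chartB (A0 A ℓ) J₁) a) =
      algebraMap (cutOver A E) ↥(H40.chartB (cutOver A E) (baseChangeE E N J₁))
        (algebraMap (A0 A ℓ) (cutOver A E) a) :=
    chartBC_algebraMap E N J₁ (baseChangeE E N J₁) rfl
  have hgenR := adjoin_chartBC_eq_top (A := A) E N J₁ (baseChangeE E N J₁) rfl hcl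
  have h1 := exists_A0_add_mul hℓ hA E π hmax
  refine ChartPkgFrob.of_single (hint_chartB (baseChangeE E N J₁))
    (natCast_A0_cutOver_ne_zero' hℓ hA E) (dvd_natCast_A0_cutOver' hℓ hA E π hmax) hcomp hgenR
    (fun n _ hπn => CA.H56.le_map_comap_sup_span π hcomp hgenR h1 n hπn)
    (fun n hn hπn => by
      haveI := hn
      exact CA.H56.comap_isMaximal π hcomp hgenR h1 n hπn)
    (S35.H27.chartActA0 N φ hφ J₁ hJ₁)
    (S35.H27.chartActE E hE N φ hφ J₁ hJ₁) (galActFullC E hE N φ) IsNode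
    (fun b => S35.H27.galActFullC_algebraMap_chartActE E hE N φ hφ J₁ hJ₁ b) ?_ hstab
    (fun b => ?_) ?_ hL1 hfix
  · rw [S35.H27.chartActE_algebraMap]
    exact (associated_map_of_irreducible (galActCutOver E hE φ hφ) hπirr).map
      (algebraMap (cutOver A E) ↥(H40.chartB (cutOver A E) (baseChangeE E N J₁)))
  · show S35.H27.chartActE E hE N φ hφ J₁ hJ₁
        (chartBC (A := A) E N J₁ (baseChangeE E N J₁) rfl b) =
      chartBC (A := A) E N J₁ (baseChangeE E N J₁) rfl (S35.H27.chartActA0 N φ hφ J₁ hJ₁ b)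
    apply Subtype.ext
    exact S35.H27.galActFullC_baseChangeE E hE N φ
      (b : modularFunctionFieldFullC (unrCyclo ℓ) N)
  · rw [map_natCast, map_natCast]

end Fermat.Agent.S35.H8
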