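/-
helper8 — S35 node (E2): the last three fields of `H8.ChartPkgFrob` for `Ψ = Φ ∘ Φ` from
hypotheses that are all in the scope of helper18's `H18.geoFnEN_of_twoComponents`:

* `ker_le_of_comap` : shared-witness transfer `ker red_k ≤ n ∩ B₁ ⇒ ker red_k'' ≤ n`
  (`red_k'' ∘ chartBC = red_k`, `red_k'' π = 0`, `B'' = chartBC B₁ + π B''`);
* `comap_eq_of_twoComponents` : `hfix` (helper84's `node_comap_eq`) in that shape;
* `stable_of_twoComponents` : the composite `hstab` from the intertwinings of `ΨB` with the two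
  reductions (`h1Ψ`, `h2Ψ`, `hinj`);
* `ChartPkgFrob.of_single'` : `of_single` with `hstab` for the composite.
-/
import Mathlib
import Fermat.Agent.S35.H84_Nodes
import Fermat.Agent.S35.H84_ChartFrobTC
import Fermat.Agent.CA.H27_FibreRed
import Fermat.Agent.S35.H8_ChartPkgFrobG1

set_option autoImplicit false
set_option linter.unusedSectionVars false
set_option linter.style.haveILetI false
set_option synthInstance.maxHeartbeats 400000

noncomputable section

namespace Fermat.Agent.S35.H8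

open Polynomial ModularCurve HahnSeries IntermediateField IsLocalRing
open Fermat.Agent.S18 Fermat.Agent.S18.H45 Fermat.Agent.S34.H95 Fermat.Agent.S34

local notation "Qbar" => AlgebraicClosure ℚ

section GenericFix

variable {A₁ R B₁ B D BM : Type*} [CommRing A₁] [CommRing R] [CommRing B₁] [CommRing B]
  [CommRing D] [CommRing BM]
  [Algebra A₁ R] [Algebra A₁ B₁] [Algebra B₁ B] [Algebra R B]

/-- **Shared-witness transfer of the node condition**: if `red''` extends `red` along
`B₁ → B` and kills `π`, and `B = B₁ + π B`, then `ker red ≤ n ∩ B₁` gives `ker red'' ≤ n`. -/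
theorem ker_le_of_comap (π : R)
    (hcomp : ∀ a : A₁, algebraMap B₁ B (algebraMap A₁ B₁ a) = algebraMap R B (algebraMap A₁ R a))
    (hgenR : Algebra.adjoin B₁ (Set.range (algebraMap R B)) = ⊤)
    (h1 : ∀ a : R, ∃ c : A₁, ∃ a' : R, a = algebraMap A₁ R c + π * a')
    {red : B₁ →+* D} {red'' : B →+* D}
    (hc : ∀ b, red'' (algebraMap B₁ B b) = red b) (hπ : red'' (algebraMap R B π) = 0)
    (n : Ideal B) (hπn : algebraMap R B π ∈ n)
    (hle : RingHom.ker red ≤ n.comap (algebraMap B₁ B)) : RingHom.ker red'' ≤ n := by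
  intro z hz
  obtain ⟨b, z', rfl⟩ := CA.H56.exists_add_mul_of_adjoin_eq_top π hcomp hgenR h1 z
  rw [RingHom.mem_ker, map_add, map_mul, hπ, zero_mul, add_zero, hc] at hz
  exact n.add_mem (hle (RingHom.mem_ker.mpr hz)) (n.mul_mem_right _ hπn)

/-- **`hfix`**: a closed point of `B` through `π` whose contraction to `B₁` is a node is fixed
by every automorphism `ΨB` intertwined (through `red₁''`) with an endomorphism `ΨD` such that
`W (W (ΨD r)) = r ^ Q`. -/
theorem comap_eq_of_twoComponents (π : R)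
    (hcomp : ∀ a : A₁, algebraMap B₁ B (algebraMap A₁ B₁ a) = algebraMap R B (algebraMap A₁ R a))
    (hgenR : Algebra.adjoin B₁ (Set.range (algebraMap R B)) = ⊤)
    (h1 : ∀ a : R, ∃ c : A₁, ∃ a' : R, a = algebraMap A₁ R c + π * a')
    {red₁ red₂ : B₁ →+* D} {red₁'' red₂'' : B →+* D}
    {ι V : BM →+* B} {rbar : BM →+* D} {W : D →+* D} {e : ℕ}
    (TC : H83.TwoComponents red₁'' red₂'' ι V rbar W e (algebraMap R B π))
    (hc₁ : ∀ b, red₁'' (algebraMap B₁ B b) = red₁ b)
    (hc₂ : ∀ b, red₂'' (algebraMap B₁ B b) = red₂ b)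
    (hπ₁ : red₁'' (algebraMap R B π) = 0) (hπ₂ : red₂'' (algebraMap R B π) = 0)
    (ΨB : B ≃+* B) (ΨD : D →+* D) (h1Ψ : ∀ z, red₁'' (ΨB z) = ΨD (red₁'' z))
    {Q : ℕ} (hQ : 0 < Q) (hW : ∀ r, W (W (ΨD r)) = r ^ Q)
    (n : Ideal B) (hn : n.IsMaximal) (hπn : algebraMap R B π ∈ n)
    (hnode : RingHom.ker red₁ ≤ n.comap (algebraMap B₁ B) ∧
      RingHom.ker red₂ ≤ n.comap (algebraMap B₁ B)) :
    n.comap (ΨB : B →+* B) = n :=
  H84.node_comap_eq TC n hn
    (ker_le_of_comap π hcomp hgenR h1 hc₁ hπ₁ n hπn hnode.1)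
    (ker_le_of_comap π hcomp hgenR h1 hc₂ hπ₂ n hπn hnode.2) ΨB ΨD h1Ψ hQ hW

end GenericFix

section GenericStab

variable {B D BM : Type*} [CommRing B] [IsDomain B] [CommRing D] [IsDomain D] [CommRing BM]
  {red₁ red₂ : B →+* D} {ι V : BM →+* B} {rbar : BM →+* D} {W : D →+* D} {e : ℕ} {πB : B}

/-- **Composite `hstab`**: the height-one primes through `π` are the two vertical primes, and
these are stable under every automorphism intertwined with injective endomorphisms of `D`
through the two reductions. -/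
theorem stable_of_twoComponents (TC : H83.TwoComponents red₁ red₂ ι V rbar W e πB)
    (hπ0 : πB ≠ 0) (hπ₁ : red₁ πB = 0) (hπ₂ : red₂ πB = 0)
    (ΨB : B ≃+* B) (ΨD₁ ΨD₂ : D →+* D)
    (hinj₁ : Function.Injective ΨD₁) (hinj₂ : Function.Injective ΨD₂)
    (h1Ψ : ∀ z, red₁ (ΨB z) = ΨD₁ (red₁ z)) (h2Ψ : ∀ z, red₂ (ΨB z) = ΨD₂ (red₂ z))
    (P : Ideal B) (hP : P.IsPrime) (hh : P.height = 1) (hπP : πB ∈ P) :
    H56.Stable ΨB P := by
  haveI := hP
  have hmin := CA.H42.mem_minimalPrimes_span_of_height_eq_one hπ0 hh hπP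
  obtain ⟨k, hk⟩ := H84.eq_vertTC_of_mem_minimalPrimes TC hπ₁ hπ₂ hmin
  intro b
  cases k
  · rw [hk, H84.vertTC_false]
    exact CA.H27.stable_ker_of_intertwine red₂ (ΨB : B →+* B) ΨD₂ hinj₂ h2Ψ b
  · rw [hk, H84.vertTC_true]
    exact CA.H27.stable_ker_of_intertwine red₁ (ΨB : B →+* B) ΨD₁ hinj₁ h1Ψ b

end GenericStab

section GenericPkg

variable {A₁ : Type*} [CommRing A₁]
variable {R k B F : Type*} [CommRing R] [IsDomain R] [Field k] [Algebra R k]
  [CommRing B] [IsDomain B] [Field F] [Algebra B F] [IsFractionRing B F]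
  [Algebra R B] [Algebra k F] [Algebra R F] [IsScalarTower R B F] [IsScalarTower R k F]
  [IsNoetherianRing B] [IsIntegrallyClosed B]
variable [Algebra A₁ R]
variable {B₁ : Type*} [CommRing B₁] [Algebra A₁ B₁] [Algebra B₁ B]

/-- the structure map `R → B` does not kill a nonzero element. -/
theorem algebraMap_ne_zero_of_tower {R : Type*} (k : Type*) {B : Type*} (F : Type*)
    [CommRing R] [Field k] [Algebra R k] [IsFractionRing R k]
    [CommRing B] [Field F] [Algebra B F] [Algebra R B] [Algebra k F] [Algebra R F]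
    [IsScalarTower R B F] [IsScalarTower R k F] {π : R} (hπ : π ≠ 0) :
    algebraMap R B π ≠ 0 := by
  intro h
  have h2 := congrArg (algebraMap B F) h
  rw [← IsScalarTower.algebraMap_apply, IsScalarTower.algebraMap_apply R k F, map_zero] at h2
  have h3 : algebraMap R k π = 0 := (map_eq_zero_iff _ (algebraMap k F).injective).mp h2
  exact hπ ((map_eq_zero_iff _ (IsFractionRing.injective R k)).mp h3)

/-- **`ChartPkgFrob.of_single` with `hstab` for the composite** (the one-step facts about `Φ`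
for the G1 fields, the composite facts for `hstab` and `hfix`). -/
theorem ChartPkgFrob.of_single' {π : R} {q : A₁} {J : B}
    (hint : ∀ b : B, (aeval (R := R) J : R[X] →ₐ[R] B).toRingHom.IsIntegralElem b)
    (hq0 : algebraMap A₁ R q ≠ 0) (hπq : π ∣ algebraMap A₁ R q)
    (hcomp : ∀ a : A₁, algebraMap B₁ B (algebraMap A₁ B₁ a) = algebraMap R B (algebraMap A₁ R a))
    (hgenR : Algebra.adjoin B₁ (Set.range (algebraMap R B)) = ⊤)
    (hnn : ∀ n : Ideal B, n.IsMaximal → algebraMap R B π ∈ n →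
      n ≤ Ideal.map (algebraMap B₁ B) (n.comap (algebraMap B₁ B)) ⊔
        Ideal.span {algebraMap R B π})
    (hmax : ∀ n : Ideal B, n.IsMaximal → algebraMap R B π ∈ n →
      (n.comap (algebraMap B₁ B)).IsMaximal)
    (sB₁ : B₁ ≃+* B₁) (sB : B ≃+* B) (s : F ≃+* F) (IsNode : Ideal B₁ → Prop)
    (hs : ∀ b, s (algebraMap B F b) = algebraMap B F (sB b))
    (hsπ : Associated (sB (algebraMap R B π)) (algebraMap R B π))
    (hstab : ∀ P : Ideal B, P.IsPrime → P.height = 1 → algebraMap R B π ∈ P →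
      H56.Stable (sB.trans sB) P)
    (hsB₁ : ∀ b : B₁, sB (algebraMap B₁ B b) = algebraMap B₁ B (sB₁ b))
    (hsq : sB₁ (algebraMap A₁ B₁ q) = algebraMap A₁ B₁ q)
    (hL1 : ∀ (n₁ : Ideal B₁) [n₁.IsMaximal], algebraMap A₁ B₁ q ∈ n₁ →
      SmoothAt q n₁ ∨ (IsNode n₁ ∧ NodeAt q n₁))
    (hfix : ∀ n : Ideal B, n.IsMaximal → algebraMap R B π ∈ n →
      IsNode (n.comap (algebraMap B₁ B)) → n.comap ((sB.trans sB : B ≃+* B) : B →+* B) = n) :
    ChartPkgFrob k B₁ π q J (sB₁.trans sB₁) (sB.trans sB) (s.trans s) IsNode where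
  hint := hint
  hq0 := hq0
  hπq := hπq
  hcomp := hcomp
  hgenR := hgenR
  hnn := hnn
  hmax := hmax
  hs := fun b => by rw [RingEquiv.trans_apply, RingEquiv.trans_apply, hs, hs]
  hsπ := by
    rw [RingEquiv.trans_apply]
    exact (hsπ.map (sB : B →* B)).trans hsπ
  hstab := hstab
  hsB₁ := fun b => by rw [RingEquiv.trans_apply, RingEquiv.trans_apply, hsB₁, hsB₁]
  hsq := by rw [RingEquiv.trans_apply, hsq, hsq]
  hL1 := hL1
  hfix := hfix

end GenericPkg

end Fermat.Agent.S35.H8
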