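/-
helper8 — S35 node (E2), FINAL producer: the hypotheses `hE2₁` / `hE2₂` of helper18's
`H18.geoFnEN_of_twoComponents` from hypotheses that are in the scope of that consumer
(`TC`, `hπ_k`, `ΨB`, `hΨ`, `ΨD_k`, `hinj_k`, `h_kΨ`, `hW`), the SHARED-WITNESS links
`hc_k : red_k'' ∘ chartBC = red_k`, helper40's `(a)'` (`hcl`), the refined L1 at the `A₁`-chart
(`hL1`, from `H8.hL1_refined`) and the avoided set `T` (`hT`, node (E5)).

* `chartPkgFrob_of_twoComponents` : `H8.ChartPkgFrob` for `Ψ = Φ ∘ Φ` at the chart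
  `chartB A'' (baseChangeE E N J₁)`, with `IsNode n₁ := ker red₁ ≤ n₁ ∧ ker red₂ ≤ n₁`;
* consumer shape: `S35/H8_E2InstFinal.hE2_of_twoComponents`.
-/
import Mathlib
import Fermat.Agent.S35.H8_ChartPkgFrobFix
import Fermat.Agent.S35.H8_E2Final

set_option autoImplicit false
set_option linter.unusedSectionVars false
set_option linter.style.haveILetI false
set_option synthInstance.maxHeartbeats 400000

noncomputable section

namespace Fermat.Agent.S35.H8

open Polynomial ModularCurve AlgebraicCurve HahnSeries IntermediateField IsLocalRing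
open Fermat.Agent.S18 Fermat.Agent.S18.H45 Fermat.Agent.S34.H95 Fermat.Agent.S34

local notation "Qbar" => AlgebraicClosure ℚ

variable {A : ValuationSubring Qbar} {ℓ : ℕ} (hℓ : ℓ.Prime) (hA : A.LiesOverPrime ℓ)
variable (E : IntermediateField (unrCyclo ℓ) Qbar)
variable (hE : ∀ (τ : Qbar ≃ₐ[ℚ] Qbar) (x : Qbar), x ∈ E → τ x ∈ E)
variable (N : ℕ) [NeZero N]

set_option maxHeartbeats 3200000 in
include hℓ hA in
/-- **The Frobenius chart package at the concrete types from the `E`-level `TwoComponents`**: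
all fields discharged except helper40's `(a)'` and the refined L1. -/
theorem chartPkgFrob_of_twoComponents [FiniteDimensional (unrCyclo ℓ) E]
    (J₁ : modularFunctionFieldFullC (unrCyclo ℓ) N)
    (φ : Qbar ≃ₐ[ℚ] Qbar) (hφ : φ ∈ A.decompositionSubgroup ℚ)
    (hJ₁ : S37.H53.coeffRingAut (unrCyclo ℓ) N (galActK1 ℓ φ) J₁ = J₁)
    [IsNoetherianRing ↥(H40.chartB (cutOver A E) (baseChangeE E N J₁))]
    [IsIntegrallyClosed ↥(H40.chartB (cutOver A E) (baseChangeE E N J₁))]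
    [IsFractionRing ↥(H40.chartB (cutOver A E) (baseChangeE E N J₁))
      (modularFunctionFieldFullC ↥E N)]
    (π : cutOver A E) (hmax : maximalIdeal (cutOver A E) = Ideal.span {π})
    (hcl : ∀ z : modularFunctionFieldFullC ↥E N,
      z ∈ H40.chartB (cutOver A E) (baseChangeE E N J₁) →
      z ∈ Subring.closure
        (Set.range (fun b : ↥(H40.chartB (A0 A ℓ) J₁) =>
            baseChangeE E N (b : modularFunctionFieldFullC (unrCyclo ℓ) N)) ∪
          Set.range (algebraMap (cutOver A E) (modularFunctionFieldFullC ↥E N))))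
    {D BM : Type*} [CommRing D] [IsDomain D] [CommRing BM]
    {red₁ red₂ : ↥(H40.chartB (A0 A ℓ) J₁) →+* D}
    (hL1 : ∀ (n₁ : Ideal ↥(H40.chartB (A0 A ℓ) J₁)) [n₁.IsMaximal],
      algebraMap (A0 A ℓ) ↥(H40.chartB (A0 A ℓ) J₁) ((ℓ : ℕ) : A0 A ℓ) ∈ n₁ →
        SmoothAt ((ℓ : ℕ) : A0 A ℓ) n₁ ∨
          ((RingHom.ker red₁ ≤ n₁ ∧ RingHom.ker red₂ ≤ n₁) ∧ NodeAt ((ℓ : ℕ) : A0 A ℓ) n₁))
    {red₁'' red₂'' : ↥(H40.chartB (cutOver A E) (baseChangeE E N J₁)) →+* D}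
    {ι V : BM →+* ↥(H40.chartB (cutOver A E) (baseChangeE E N J₁))} {rbar : BM →+* D}
    {W : D →+* D} {e : ℕ}
    (TC : H83.TwoComponents red₁'' red₂'' ι V rbar W e
      (algebraMap (cutOver A E) ↥(H40.chartB (cutOver A E) (baseChangeE E N J₁)) π))
    (hc₁ : ∀ b, red₁'' (chartBC (A := A) E N J₁ (baseChangeE E N J₁) rfl b) = red₁ b)
    (hc₂ : ∀ b, red₂'' (chartBC (A := A) E N J₁ (baseChangeE E N J₁) rfl b) = red₂ b)
    (hπ₁ : red₁'' (algebraMap (cutOver A E)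
      ↥(H40.chartB (cutOver A E) (baseChangeE E N J₁)) π) = 0)
    (hπ₂ : red₂'' (algebraMap (cutOver A E)
      ↥(H40.chartB (cutOver A E) (baseChangeE E N J₁)) π) = 0)
    (ΨD₁ ΨD₂ : D →+* D) (hinj₁ : Function.Injective ΨD₁) (hinj₂ : Function.Injective ΨD₂)
    (h1Ψ : ∀ z, red₁'' (((S35.H27.chartActE E hE N φ hφ J₁ hJ₁).trans
      (S35.H27.chartActE E hE N φ hφ J₁ hJ₁)) z) = ΨD₁ (red₁'' z))
    (h2Ψ : ∀ z, red₂'' (((S35.H27.chartActE E hE N φ hφ J₁ hJ₁).trans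
      (S35.H27.chartActE E hE N φ hφ J₁ hJ₁)) z) = ΨD₂ (red₂'' z))
    {Q : ℕ} (hQ : 0 < Q) (hW : ∀ r, W (W (ΨD₁ r)) = r ^ Q) :
    letI := (chartBC (A := A) E N J₁ (baseChangeE E N J₁) rfl).toAlgebra
    ChartPkgFrob ↥E ↥(H40.chartB (A0 A ℓ) J₁) π ((ℓ : ℕ) : A0 A ℓ)
      (coordB (R := cutOver A E) (baseChangeE E N J₁))
      ((S35.H27.chartActA0 N φ hφ J₁ hJ₁).trans (S35.H27.chartActA0 N φ hφ J₁ hJ₁))
      ((S35.H27.chartActE E hE N φ hφ J₁ hJ₁).trans (S35.H27.chartActE E hE N φ hφ J₁ hJ₁))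
      ((galActFullC E hE N φ).trans (galActFullC E hE N φ))
      (fun n₁ => RingHom.ker red₁ ≤ n₁ ∧ RingHom.ker red₂ ≤ n₁) := by
  letI := (chartBC (A := A) E N J₁ (baseChangeE E N J₁) rfl).toAlgebra
  haveI : IsDiscreteValuationRing (cutOver A E) := isDiscreteValuationRing_cutOver hℓ hA E
  have hπirr : Irreducible π :=
    (IsDiscreteValuationRing.irreducible_iff_uniformizer π).mpr hmax
  have hπ0 : algebraMap (cutOver A E) ↥(H40.chartB (cutOver A E) (baseChangeE E N J₁)) π ≠ 0 :=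
    algebraMap_ne_zero_of_tower ↥E (modularFunctionFieldFullC ↥E N) hπirr.ne_zero
  have hcomp : ∀ a : A0 A ℓ,
      algebraMap ↥(H40.chartB (A0 A ℓ) J₁) ↥(H40.chartB (cutOver A E) (baseChangeE E N J₁))
        (algebraMap (A0 A ℓ) ↥(H40.chartB (A0 A ℓ) J₁) a) =
      algebraMap (cutOver A E) ↥(H40.chartB (cutOver A E) (baseChangeE E N J₁))
        (algebraMap (A0 A ℓ) (cutOver A E) a) :=
    chartBC_algebraMap E N J₁ (baseChangeE E N J₁) rfl
  have hgenR := adjoin_chartBC_eq_top (A := A) E N J₁ (baseChangeE E N J₁) rfl hcl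
  have h1 := exists_A0_add_mul hℓ hA E π hmax
  refine ChartPkgFrob.of_single' (hint_chartB (baseChangeE E N J₁))
    (natCast_A0_cutOver_ne_zero' hℓ hA E) (dvd_natCast_A0_cutOver' hℓ hA E π hmax) hcomp hgenR
    (fun n _ hπn => CA.H56.le_map_comap_sup_span π hcomp hgenR h1 n hπn)
    (fun n hn hπn => by
      haveI := hn
      exact CA.H56.comap_isMaximal π hcomp hgenR h1 n hπn)
    (S35.H27.chartActA0 N φ hφ J₁ hJ₁)
    (S35.H27.chartActE E hE N φ hφ J₁ hJ₁) (galActFullC E hE N φ)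
    (fun n₁ => RingHom.ker red₁ ≤ n₁ ∧ RingHom.ker red₂ ≤ n₁)
    (fun b => S35.H27.galActFullC_algebraMap_chartActE E hE N φ hφ J₁ hJ₁ b) ?_
    (fun P hP hh hπP => stable_of_twoComponents TC hπ0 hπ₁ hπ₂ _ ΨD₁ ΨD₂ hinj₁ hinj₂ h1Ψ h2Ψ
      P hP hh hπP)
    (fun b => ?_) ?_ hL1
    (fun n hn hπn hnode => comap_eq_of_twoComponents π hcomp hgenR h1 TC hc₁ hc₂ hπ₁ hπ₂ _ ΨD₁
      h1Ψ hQ hW n hn hπn hnode)
  · rw [S35.H27.chartActE_algebraMap]
    exact (associated_map_of_irreducible (galActCutOver E hE φ hφ) hπirr).map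
      (algebraMap (cutOver A E) ↥(H40.chartB (cutOver A E) (baseChangeE E N J₁)))
  · show S35.H27.chartActE E hE N φ hφ J₁ hJ₁
        (chartBC (A := A) E N J₁ (baseChangeE E N J₁) rfl b) =
      chartBC (A := A) E N J₁ (baseChangeE E N J₁) rfl (S35.H27.chartActA0 N φ hφ J₁ hJ₁ b)
    apply Subtype.ext
    exact S35.H27.galActFullC_baseChangeE E hE N φ
      (b : modularFunctionFieldFullC (unrCyclo ℓ) N)
  · rw [map_natCast, map_natCast]

end Fermat.Agent.S35.H8
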