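/-
helper8 — S35 node (E2), FINAL producer, consumer shape: `hE2_of_twoComponents` = the hypotheses
`hE2₁` / `hE2₂` of helper18's `H18.geoFnEN_of_twoComponents` for the chart `chartB A'' J_E`,
`J_E = baseChangeE E N J₁`, from hypotheses of the consumer itself (`TC`, `hπ_k`, `ΨB`, `hΨ`,
`ΨD_k`, `hinj_k`, `h_kΨ`, `hW`), the SHARED-WITNESS links `hc_k : red_k'' ∘ chartBC = red_k`,
helper40's `(a)'` (`hcl`), the refined L1 at the `A₁`-chart (`hL1`, `H8.hL1_refined`) and the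
avoided set `T` (`hT`, node (E5)).
-/
import Mathlib
import Fermat.Agent.S35.H8_E2Inst

set_option autoImplicit false
set_option linter.unusedSectionVars false
set_option linter.style.haveILetI false
set_option synthInstance.maxHeartbeats 400000

noncomputable section

namespace Fermat.Agent.S35.H8

open Polynomial ModularCurve AlgebraicCurve HahnSeries IntermediateField IsLocalRing
open Fermat.Agent.S18 Fermat.Agent.S18.H45 Fermat.Agent.S34.H95 Fermat.Agent.S34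

local notation "Qbar" => AlgebraicClosure ℚ

variable {A : ValuationSubring Qbar} {ℓ : ℕ} (hℓ : ℓ.Prime) (hA : A.LiesOverPrime ℓ)
variable (E : IntermediateField (unrCyclo ℓ) Qbar)
variable (hE : ∀ (τ : Qbar ≃ₐ[ℚ] Qbar) (x : Qbar), x ∈ E → τ x ∈ E)
variable (N : ℕ) [NeZero N]

set_option maxHeartbeats 3200000 in
include hℓ hA in
/-- **Node (E2), consumer shape** (`hE2₁` / `hE2₂` of `H18.geoFnEN_of_twoComponents`) for the chart
`chartB A'' J_E`, `J_E = baseChangeE E N J₁`: every hypothesis except `hcl` (helper40 `(a)'`),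
`hL1` (`H8.hL1_refined`), the links `hc_k` and `hT` (node (E5)) is a hypothesis of the consumer
itself. -/
theorem hE2_of_twoComponents [FiniteDimensional (unrCyclo ℓ) E]
    (J₁ : modularFunctionFieldFullC (unrCyclo ℓ) N) (J_E : modularFunctionFieldFullC ↥E N)
    (h : baseChangeE E N J₁ = J_E)
    (φ : Qbar ≃ₐ[ℚ] Qbar) (hφ : φ ∈ A.decompositionSubgroup ℚ)
    (hJ₁ : S37.H53.coeffRingAut (unrCyclo ℓ) N (galActK1 ℓ φ) J₁ = J₁)
    [IsNoetherianRing ↥(H40.chartB (cutOver A E) J_E)]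
    [IsIntegrallyClosed ↥(H40.chartB (cutOver A E) J_E)]
    [IsFractionRing ↥(H40.chartB (cutOver A E) J_E) (modularFunctionFieldFullC ↥E N)]
    (π : cutOver A E) (hmax : maximalIdeal (cutOver A E) = Ideal.span {π})
    (hcl : ∀ z : modularFunctionFieldFullC ↥E N, z ∈ H40.chartB (cutOver A E) J_E →
      z ∈ Subring.closure
        (Set.range (fun b : ↥(H40.chartB (A0 A ℓ) J₁) =>
            baseChangeE E N (b : modularFunctionFieldFullC (unrCyclo ℓ) N)) ∪
          Set.range (algebraMap (cutOver A E) (modularFunctionFieldFullC ↥E N))))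
    {D BM : Type*} [CommRing D] [IsDomain D] [CommRing BM]
    {red₁ red₂ : ↥(H40.chartB (A0 A ℓ) J₁) →+* D}
    (hL1 : ∀ (n₁ : Ideal ↥(H40.chartB (A0 A ℓ) J₁)) [n₁.IsMaximal],
      algebraMap (A0 A ℓ) ↥(H40.chartB (A0 A ℓ) J₁) ((ℓ : ℕ) : A0 A ℓ) ∈ n₁ →
        SmoothAt ((ℓ : ℕ) : A0 A ℓ) n₁ ∨
          ((RingHom.ker red₁ ≤ n₁ ∧ RingHom.ker red₂ ≤ n₁) ∧ NodeAt ((ℓ : ℕ) : A0 A ℓ) n₁))
    {red₁'' red₂'' : ↥(H40.chartB (cutOver A E) J_E) →+* D}
    {ι V : BM →+* ↥(H40.chartB (cutOver A E) J_E)} {rbar : BM →+* D}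
    {W : D →+* D} {e : ℕ}
    (TC : H83.TwoComponents red₁'' red₂'' ι V rbar W e
      (algebraMap (cutOver A E) ↥(H40.chartB (cutOver A E) J_E) π))
    (hc₁ : ∀ b, red₁'' (chartBC (A := A) E N J₁ J_E h b) = red₁ b)
    (hc₂ : ∀ b, red₂'' (chartBC (A := A) E N J₁ J_E h b) = red₂ b)
    (hπ₁ : red₁'' (algebraMap (cutOver A E) ↥(H40.chartB (cutOver A E) J_E) π) = 0)
    (hπ₂ : red₂'' (algebraMap (cutOver A E) ↥(H40.chartB (cutOver A E) J_E) π) = 0)
    (ΨB : ↥(H40.chartB (cutOver A E) J_E) ≃+* ↥(H40.chartB (cutOver A E) J_E))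
    (hΨ : ∀ b : ↥(H40.chartB (cutOver A E) J_E),
      galActFullC E hE N φ (galActFullC E hE N φ
        (algebraMap ↥(H40.chartB (cutOver A E) J_E) (modularFunctionFieldFullC ↥E N) b)) =
      algebraMap ↥(H40.chartB (cutOver A E) J_E) (modularFunctionFieldFullC ↥E N) (ΨB b))
    (ΨD₁ ΨD₂ : D →+* D) (hinj₁ : Function.Injective ΨD₁) (hinj₂ : Function.Injective ΨD₂)
    (h1Ψ : ∀ z, red₁'' (ΨB z) = ΨD₁ (red₁'' z)) (h2Ψ : ∀ z, red₂'' (ΨB z) = ΨD₂ (red₂'' z))
    {Q : ℕ} (hQ : 0 < Q) (hW : ∀ r, W (W (ΨD₁ r)) = r ^ Q)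
    (T : Set (Place Qbar (S24.FN N)))
    (hT : letI := (chartBC (A := A) E N J₁ J_E h).toAlgebra
      ∀ (n : Ideal ↥(H40.chartB (cutOver A E) J_E)) [n.IsMaximal],
      algebraMap (cutOver A E) ↥(H40.chartB (cutOver A E) J_E) π ∈ n →
      (RingHom.ker red₁ ≤ n.comap (algebraMap ↥(H40.chartB (A0 A ℓ) J₁)
          ↥(H40.chartB (cutOver A E) J_E)) ∧
        RingHom.ker red₂ ≤ n.comap (algebraMap ↥(H40.chartB (A0 A ℓ) J₁)
          ↥(H40.chartB (cutOver A E) J_E))) →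
      ∃ xs ys, NodeTowerAt ((ℓ : ℕ) : A0 A ℓ) (n.comap (algebraMap ↥(H40.chartB (A0 A ℓ) J₁)
          ↥(H40.chartB (cutOver A E) J_E))) xs ys ∧
        ∀ (w : Place ↥E (modularFunctionFieldFullC ↥E N)) (v : Place Qbar (S24.FN N)),
          v ∉ T → w.deg = 1 →
          (∀ x : modularFunctionFieldFullC ↥E N,
            x ∈ w.toValuationSubring ↔ H99.toBar ↥E N x ∈ v.toValuationSubring) →
          ¬ IsEscapeAt (cutOver A E) ↥(H40.chartB (A0 A ℓ) J₁)
            (Localization.AtPrime (n.comap (algebraMap ↥(H40.chartB (A0 A ℓ) J₁)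
              ↥(H40.chartB (cutOver A E) J_E)))) n ((ℓ : ℕ) : A0 A ℓ) xs ys w)
    (m' : ℕ) :
    ∀ f : modularFunctionFieldFullC ↥E N, H61.Admissible ↥E f m' →
      (∀ v ∈ T, v.ord (H99.toBar ↥E N f) = 0) →
      ∀ m : Ideal ↥(H40.chartB (cutOver A E) J_E), m.IsMaximal →
        algebraMap (cutOver A E) ↥(H40.chartB (cutOver A E) J_E) π ∈ m →
        H46.ChartWeakAt (F := modularFunctionFieldFullC ↥E N)
          (algebraMap (cutOver A E) ↥(H40.chartB (cutOver A E) J_E) π) m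
          (galActFullC E hE N φ (galActFullC E hE N φ f) / f) m' := by
  subst h
  letI := (chartBC (A := A) E N J₁ (baseChangeE E N J₁) rfl).toAlgebra
  haveI : IsDiscreteValuationRing (cutOver A E) := isDiscreteValuationRing_cutOver hℓ hA E
  have hπirr : Irreducible π :=
    (IsDiscreteValuationRing.irreducible_iff_uniformizer π).mpr hmax
  -- the consumer's `ΨB` is the square of helper27's chart automorphism
  have hΨeq : ΨB = (S35.H27.chartActE E hE N φ hφ J₁ hJ₁).trans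
      (S35.H27.chartActE E hE N φ hφ J₁ hJ₁) := by
    refine RingEquiv.ext fun b => ?_
    apply IsFractionRing.injective ↥(H40.chartB (cutOver A E) (baseChangeE E N J₁))
      (modularFunctionFieldFullC ↥E N)
    have e1 := S35.H27.galActFullC_algebraMap_chartActE E hE N φ hφ J₁ hJ₁ b
    have e2 := S35.H27.galActFullC_algebraMap_chartActE E hE N φ hφ J₁ hJ₁
      (S35.H27.chartActE E hE N φ hφ J₁ hJ₁ b)
    exact (hΨ b).symm.trans ((congrArg (galActFullC E hE N φ) e1).trans e2)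
  subst hΨeq
  have H := chartPkgFrob_of_twoComponents hℓ hA E hE N J₁ φ hφ hJ₁ π hmax hcl hL1 TC hc₁ hc₂
    hπ₁ hπ₂ ΨD₁ ΨD₂ hinj₁ hinj₂ h1Ψ h2Ψ hQ hW
  exact chartWeakAt_of_avoid E N hπirr (galActFullC E hE N φ) H T hT m'

end Fermat.Agent.S35.H8
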