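/-
helper8 — S35 node (E2): the hypothesis `hL1` of `H8.hE2_of_twoComponents` /
`H8.chartPkgFrob_of_twoComponents` at the real L0 types (twin of helper40's
`S34.H40.hL1_JK` / `hL1_JK_inv` for the refined statement `H8.hL1_refined`):
for the two pinned `A₁`-charts `chartB A₁ J^(±1)`, `J = JK L₁ (ℓ * M) ℓ`, every closed point of
the special fibre is smooth or a node containing both vertical primes.
-/
import Mathlib
import Fermat.Agent.S34.H40_L0Consumers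
import Fermat.Agent.S35.H8_WeakDatumInst

set_option autoImplicit false
set_option linter.unusedSectionVars false
set_option linter.style.haveILetI false
set_option synthInstance.maxHeartbeats 400000
set_option maxHeartbeats 4000000

noncomputable section

namespace Fermat.Agent.S35.H8

open ModularCurve Polynomial IsLocalRing IntermediateField
open Fermat.Agent.S18 Fermat.Agent.S34

local notation "Qbar" => AlgebraicClosure ℚ

variable (M : ℕ) [NeZero M] {ℓ : ℕ} [hℓ : Fact ℓ.Prime] (hℓM : ¬ ℓ ∣ M)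
  (A : ValuationSubring Qbar) (hA : A.LiesOverPrime ℓ)

local notation "kA" => IsLocalRing.ResidueField A
local notation "A₁" => H45.A0 A ℓ
local notation "L₁" => H45.unrCyclo ℓ
local notation "JN" => S34.H95.JK (H45.unrCyclo ℓ) (ℓ * M) ℓ (Dvd.intro M rfl)
local notation "RM" => integralClosure
  (Algebra.adjoin (IsLocalRing.ResidueField A) {H16.jK (IsLocalRing.ResidueField A) M})
  (modularFunctionFieldFullC (IsLocalRing.ResidueField A) M)
local notation "RM'" => integralClosure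
  (Algebra.adjoin (IsLocalRing.ResidueField A) {(H16.jK (IsLocalRing.ResidueField A) M)⁻¹})
  (modularFunctionFieldFullC (IsLocalRing.ResidueField A) M)

include hℓM hA in
/-- **Refined L1 at every closed point of the special fibre of `chartB A₁ J`.** -/
theorem hL1_refined_JK {BM : Type*} [CommRing BM]
    {red₁ red₂ : ↥(H40.chartB A₁ JN) →+* ↥RM} {ι V : BM →+* ↥(H40.chartB A₁ JN)}
    {rbar : BM →+* ↥RM} {W : ↥RM →+* ↥RM} {q' : ℕ}
    (hTC : H83.TwoComponents (B := ↥(H40.chartB A₁ JN)) (R := ↥RM) (BM := BM)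
      red₁ red₂ ι V rbar W q' (algebraMap A₁ ↥(H40.chartB A₁ JN) ((ℓ : ℕ) : A₁)))
    (hq' : 2 ≤ q')
    (n₁ : Ideal ↥(H40.chartB A₁ JN)) [n₁.IsMaximal]
    (hn : algebraMap A₁ ↥(H40.chartB A₁ JN) ((ℓ : ℕ) : A₁) ∈ n₁) :
    SmoothAt ((ℓ : ℕ) : A₁) n₁ ∨
      ((RingHom.ker red₁ ≤ n₁ ∧ RingHom.ker red₂ ≤ n₁) ∧ NodeAt ((ℓ : ℕ) : A₁) n₁) := by
  haveI := H45.isDiscreteValuationRing_A0 hℓ.out hA
  haveI := S34.H95.finiteDimensional_JK L₁ (ℓ * M) ℓ (Dvd.intro M rfl)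
    (H99.natCast_ne_zero₀ (ℓ * M) L₁)
  haveI := S34.H95.isSeparable_JK L₁ (ℓ * M) ℓ (Dvd.intro M rfl)
  haveI := H16.isAlgClosed_k A
  haveI := H16.finiteDimensional_Fk M hℓM A hA
  haveI := H16.isSeparable_Fk M hℓM A hA
  exact hL1_refined (K₁ := L₁) JN
    (S34.H95.transcendental_JK L₁ (ℓ * M) ℓ (Dvd.intro M rfl))
    (H16.jK kA M) (H16.transcendental_jk M A)
    (H45.resA0 A ℓ) (H45.resA0_surjective hℓ.out hA) ((ℓ : ℕ) : A₁)
    (H40.hker_resA0 A hA) hTC hq' n₁ hn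

include hℓM hA in
/-- **Refined L1 at every closed point of the special fibre of `chartB A₁ J⁻¹`.** -/
theorem hL1_refined_JK_inv {BM : Type*} [CommRing BM]
    {red₁ red₂ : ↥(H40.chartB A₁ JN⁻¹) →+* ↥RM'} {ι V : BM →+* ↥(H40.chartB A₁ JN⁻¹)}
    {rbar : BM →+* ↥RM'} {W : ↥RM' →+* ↥RM'} {q' : ℕ}
    (hTC : H83.TwoComponents (B := ↥(H40.chartB A₁ JN⁻¹)) (R := ↥RM') (BM := BM)
      red₁ red₂ ι V rbar W q' (algebraMap A₁ ↥(H40.chartB A₁ JN⁻¹) ((ℓ : ℕ) : A₁)))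
    (hq' : 2 ≤ q')
    (n₁ : Ideal ↥(H40.chartB A₁ JN⁻¹)) [n₁.IsMaximal]
    (hn : algebraMap A₁ ↥(H40.chartB A₁ JN⁻¹) ((ℓ : ℕ) : A₁) ∈ n₁) :
    SmoothAt ((ℓ : ℕ) : A₁) n₁ ∨
      ((RingHom.ker red₁ ≤ n₁ ∧ RingHom.ker red₂ ≤ n₁) ∧ NodeAt ((ℓ : ℕ) : A₁) n₁) := by
  haveI := H45.isDiscreteValuationRing_A0 hℓ.out hA
  haveI := S34.H95.finiteDimensional_JK_inv L₁ (ℓ * M) ℓ (Dvd.intro M rfl)
    (H99.natCast_ne_zero₀ (ℓ * M) L₁)
  haveI := S34.H95.isSeparable_JK_inv L₁ (ℓ * M) ℓ (Dvd.intro M rfl)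
  haveI := H16.isAlgClosed_k A
  haveI := H16.finiteDimensional_Fk M hℓM A hA
  haveI := H16.isSeparable_Fk M hℓM A hA
  haveI := S18.H97.finiteDimensional_adjoin_inv (k := kA) (H16.jK kA M)
  haveI := S18.H97.isSeparable_adjoin_inv (k := kA) (H16.jK kA M)
  exact hL1_refined (K₁ := L₁) JN⁻¹
    (S34.H95.transcendental_JK_inv L₁ (ℓ * M) ℓ (Dvd.intro M rfl))
    (H16.jK kA M)⁻¹ (S18.H97.transcendental_inv (H16.transcendental_jk M A))
    (H45.resA0 A ℓ) (H45.resA0_surjective hℓ.out hA) ((ℓ : ℕ) : A₁)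
    (H40.hker_resA0 A hA) hTC hq' n₁ hn

end Fermat.Agent.S35.H8
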