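/-
helper18 — S35 row GEO-TOP-E, final assembly, part D: **(E2) at the two pinned charts from the
escape set.**

`hE2_JK`, `hE2_JK_inv` : the hypotheses `hE2₁`, `hE2₂` of `H18.geoFnEN_of_l0Pkg` (= of
`H18.geoFnEN_of_twoComponents` at `N := ℓ * M`) for any `T` containing helper16's escape set
`H16.escTChart` of the chart, from helper55's `A₁`-level L0 package: helper8's
`H8.hE2_of_twoComponents` fed with helper70's `E`-level package, helper27's G1 block, helper8's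
refined L1 (`hL1_refined_JK`), helper40's `(a)'` (`H27.hcl_JK`) and helper16's consumer
`hT_of_escTChart_subset_JE`.  The existence of a Morse tower at the nodes (`htower`) is a
hypothesis here (discharged in part E).
-/
import Mathlib
import Fermat.Agent.S35.H18_GeoInstC
import Fermat.Agent.S35.H8_E2InstFinal
import Fermat.Agent.S35.H8_L1RefinedInst
import Fermat.Agent.S35.H16_EscTConsumerJE

set_option autoImplicit false
set_option linter.unusedSectionVars false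
set_option linter.style.haveILetI false
set_option synthInstance.maxHeartbeats 400000
set_option maxHeartbeats 3200000

noncomputable section

namespace Fermat.Agent.S35.H18

open ModularCurve AlgebraicCurve HahnSeries IntermediateField IsLocalRing
open Fermat.Agent.S18 Fermat.Agent.S18.H45 Fermat.Agent.S34
open Fermat.Agent.S34.H55

local notation "Qbar" => AlgebraicClosure ℚ
local notation "GQ" => (AlgebraicClosure ℚ ≃ₐ[ℚ] AlgebraicClosure ℚ)

variable (M : ℕ) [NeZero M] {ℓ : ℕ} [NeZero ℓ] [hℓ : Fact ℓ.Prime] (hℓM : ¬ ℓ ∣ M)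
  (A : ValuationSubring Qbar) (hA : A.LiesOverPrime ℓ)
variable (E : IntermediateField (unrCyclo ℓ) Qbar) [FiniteDimensional (unrCyclo ℓ) E]
variable (hE : ∀ (τ : GQ) (x : Qbar), x ∈ E → τ x ∈ E)

local notation "kA" => IsLocalRing.ResidueField A
local notation "A₁" => H45.A0 A ℓ
local notation "L₁" => H45.unrCyclo ℓ
local notation "FkM" => modularFunctionFieldFullC (IsLocalRing.ResidueField A) M
local notation "J₁" => H55.JN M (ℓ := ℓ)
set_option quotPrecheck false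
local notation "JE" => (H95.JK ↥E (ℓ * M) ℓ (Dvd.intro M rfl))
local notation "FE" => ↥(modularFunctionFieldFullC ↥E (ℓ * M))
local notation "RE" => ↥(cutOver A E)
local notation "B₁E" => ↥(H40.chartB (cutOver A E) JE)
local notation "B₂E" => ↥(H40.chartB (cutOver A E) JE⁻¹)
local notation "RM" => integralClosure
  (Algebra.adjoin (IsLocalRing.ResidueField A) {S18.H16.jK (IsLocalRing.ResidueField A) M})
  (modularFunctionFieldFullC (IsLocalRing.ResidueField A) M)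
local notation "RM'" => integralClosure
  (Algebra.adjoin (IsLocalRing.ResidueField A) {(S18.H16.jK (IsLocalRing.ResidueField A) M)⁻¹})
  (modularFunctionFieldFullC (IsLocalRing.ResidueField A) M)

set_option maxHeartbeats 32000000 in
include hℓM hA in
/-- **(E2) on chart 1.** -/
theorem hE2_JK
    (Pi : PlaceInf M hℓM A hA) (P0 : PlaceZero M hℓM A hA)
    (r₁₁ r₁₂ : ↥(H40.chartB A₁ J₁) →+* ↥RM)
    (TC₁ : H83.TwoComponents r₁₁ r₁₂
      (chartMap (iotaMN M (ℓ := ℓ)) (iotaMN_algebraMap M A) (hιint1 M A))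
      (chartMap (VMN M (ℓ := ℓ)) (VMN_algebraMap M A) (hVint1 M A))
      (rbarB (Mod M hℓM A hA) (Mod M hℓM A hA).x_mem (Mod M hℓM A hA).res1_x)
      (WR (FrM M A hA) ℓ (hFrx M A hA)) ℓ
      (algebraMap A₁ ↥(H40.chartB A₁ J₁) ((ℓ : ℕ) : A₁)))
    (F₁ : S35.H55.L0ChartFacts M hℓM A hA Pi P0 r₁₁ r₁₂)
    (htower : ∀ (n₁ : Ideal ↥(H40.chartB A₁ J₁)) [n₁.IsPrime],
      (RingHom.ker r₁₁ ≤ n₁ ∧ RingHom.ker r₁₂ ≤ n₁) →
      ∃ xs ys, S35.H8.NodeTowerAt ((ℓ : ℕ) : A₁) n₁ xs ys)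
    (φ : GQ) (hφ : A.IsFrobeniusAt φ ℓ) (m' : ℕ)
    (T : Set (Place Qbar (S24.FN (ℓ * M))))
    (hsub : S35.H16.escTChart (A := A) (ℓ * M) J₁
      (fun n₁ => RingHom.ker r₁₁ ≤ n₁ ∧ RingHom.ker r₁₂ ≤ n₁) ⊆ T)
    (π : RE) (hmax : maximalIdeal RE = Ideal.span {π}) :
    ∀ f : FE, H61.Admissible ↥E f m' →
      (∀ v ∈ T, v.ord (H99.toBar ↥E (ℓ * M) f) = 0) →
      ∀ m : Ideal B₁E, m.IsMaximal → algebraMap RE B₁E π ∈ m →
        H46.ChartWeakAt (F := FE) (algebraMap RE B₁E π) m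
          (galActFullC E hE (ℓ * M) φ (galActFullC E hE (ℓ * M) φ f) / f) m' := by
  haveI := H95.isFractionRing_chartB_JK (A := A) E (ℓ * M) ℓ (Dvd.intro M rfl)
  haveI := H95.isNoetherianRing_chartB_JK hℓ.out hA E (ℓ * M) ℓ (Dvd.intro M rfl)
  haveI := H95.isIntegrallyClosed_chartB_JK (A := A) E (ℓ * M) ℓ (Dvd.intro M rfl)
  have he : 2 ≤ ℓ := hℓ.out.two_le
  have k1 := S35.H70.exists_twoComponentsE_JK M hℓM A hA E π hmax TC₁ F₁.red₁_ell F₁.red₂_ell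
    F₁.coord₁ F₁.coord₂
  obtain ⟨ρ₁₁, ρ₁₂, hc₁₁, hc₁₂, hπ₁₁, hπ₁₂, -, -, -, -, TC₁E⟩ := k1
  have hφd := hφ.mem_decompositionSubgroup
  have hQ : 0 < ℓ ^ 2 := pow_pos hℓ.out.pos 2
  have h1Ψ₁ := S35.H27.red_psiB_JK_infty M hℓM hA E hE hφ Pi r₁₁ (fun b _ => F₁.res_inf b)
    π hmax ρ₁₁ hc₁₁ hπ₁₁
  have h2Ψ₁ := S35.H27.red_psiB_JK_zero M hℓM hA E hE hφ P0 r₁₂ (fun b _ => F₁.res_zero b)
    π hmax ρ₁₂ hc₁₂ hπ₁₂
  have hcl := S35.H27.hcl_JK M hℓM hA E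
  have hT := S35.H16.hT_of_escTChart_subset_JE hℓ.out hA (ℓ * M) J₁
    (fun n₁ => RingHom.ker r₁₁ ≤ n₁ ∧ RingHom.ker r₁₂ ≤ n₁) htower E JE
    (H95.baseChangeE_JK E (ℓ * M) ℓ (Dvd.intro M rfl)) π hmax hcl T hsub
  exact S35.H8.hE2_of_twoComponents hℓ.out hA E hE (ℓ * M) J₁ JE
    (H95.baseChangeE_JK E (ℓ * M) ℓ (Dvd.intro M rfl)) φ hφd
    (S35.H27.coeffRingAut_JK L₁ (ℓ * M) ℓ (Dvd.intro M rfl) (galActK1 ℓ φ)) π hmax hcl
    (fun n₁ _ hn => S35.H8.hL1_refined_JK M hℓM A hA TC₁ he n₁ hn)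
    TC₁E hc₁₁ hc₁₂ hπ₁₁ hπ₁₂ (S35.H27.psiB_JK M E hE φ hφd)
    (S35.H27.algebraMap_psiB_JK M E hE φ hφd)
    (S35.H27.psiD_jK M hA) (S35.H27.psiD_jK M hA) (S35.H27.psiD_jK_injective M hA)
    (S35.H27.psiD_jK_injective M hA) h1Ψ₁ h2Ψ₁ hQ (S35.H27.WR_WR_psiD_jK M hA) T hT m'

end Fermat.Agent.S35.H18
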