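/-
S35 / (E5) (helper92): **a point lying on both components is a node** — `IsNode ∧ SmoothAt` is
empty, so the Morse tower needed by the escape set exists at every point with
`ker red₁ ≤ n₁ ∧ ker red₂ ≤ n₁` (the literal `IsNode` of `H8.hE2_of_twoComponents`).

* `eq_span_of_isPrime_of_smooth` : in a noetherian local ring `O` with `𝔪 ≤ (q, τ)`, `τ ∈ 𝔪`,
  a prime `Q ≠ 𝔪` containing `q` is `(q)` (Nakayama);
* `not_smoothAt_of_two_minimalPrimes` : two different minimal primes over `(q)` of a noetherian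
  ring `B₁`, both inside the prime `n₁`, exclude `H8.SmoothAt q n₁`;
* `nodeAt_of_isNode`, `exists_nodeTowerAt_of_isNode` : from the refined L1 alternative;
* `not_smoothAt_of_twoComponents`, `isMaximal_of_isNode`, `nodeAt_of_twoComponents`,
  `exists_nodeTowerAt_of_twoComponents` : the same from `H83.TwoComponents`.
-/
import Mathlib
import Fermat.Agent.S35.H8_WeakDatumInst
import Fermat.Agent.S35.H84_TwoCompNe

set_option autoImplicit false
set_option linter.unusedSectionVars false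
set_option linter.style.haveILetI false

namespace Fermat.Agent.S35.H92

open IsLocalRing Fermat.Agent.S34 Fermat.Agent.S34.H83 Fermat.Agent.S35.H8

section Generic

/-- In a noetherian local ring whose maximal ideal is `≤ (q, τ)` with `τ ∈ 𝔪`, a prime `Q ≠ 𝔪`
containing `q` is the principal ideal `(q)`. -/
theorem eq_span_of_isPrime_of_smooth {O : Type*} [CommRing O] [IsLocalRing O] [IsNoetherianRing O]
    {q τ : O} (hτm : τ ∈ maximalIdeal O) (hmax : maximalIdeal O ≤ Ideal.span {q, τ})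
    (Q : Ideal O) [hQ : Q.IsPrime] (hq : q ∈ Q) (hQm : Q ≠ maximalIdeal O) :
    Q = Ideal.span {q} := by
  have hτ : τ ∉ Q := by
    intro hτQ
    apply hQm
    refine le_antisymm (le_maximalIdeal hQ.ne_top) (hmax.trans ?_)
    rw [Ideal.span_le]
    rintro x (rfl | rfl)
    · exact hq
    · exact hτQ
  have hle : Q ≤ Ideal.span {q} := by
    refine Submodule.le_of_le_smul_of_le_jacobson_bot (I := Ideal.span {τ})
      (IsNoetherian.noetherian Q) ?_ ?_
    · rw [jacobson_eq_maximalIdeal ⊥ bot_ne_top, Ideal.span_le]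
      rintro x rfl
      exact hτm
    · intro x hx
      have hxm : x ∈ Ideal.span {q, τ} := hmax (le_maximalIdeal hQ.ne_top hx)
      obtain ⟨a, b, hab⟩ := Ideal.mem_span_pair.mp hxm
      have hbτ : b * τ ∈ Q := by
        have : b * τ = x - a * q := by rw [← hab]; ring
        rw [this]
        exact Q.sub_mem hx (Q.mul_mem_left a hq)
      have hb : b ∈ Q := (hQ.mem_or_mem hbτ).resolve_right hτ
      rw [← hab]
      refine Submodule.add_mem_sup (Ideal.mul_mem_left _ a (Ideal.subset_span rfl)) ?_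
      rw [mul_comm]
      exact Submodule.smul_mem_smul (Ideal.subset_span rfl) hb
  refine le_antisymm hle ?_
  rw [Ideal.span_le]
  rintro x rfl
  exact hq

variable {A₁ B₁ : Type*} [CommRing A₁] [CommRing B₁] [Algebra A₁ B₁]

/-- **`IsNode ∧ SmoothAt` is empty.**  Two different minimal primes over `(q)`, both contained in
the prime `n₁`, exclude the smooth alternative of L1 at `n₁`. -/
theorem not_smoothAt_of_two_minimalPrimes [IsNoetherianRing B₁] (q : A₁) {P₁ P₂ : Ideal B₁}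
    (h1 : P₁ ∈ (Ideal.span {algebraMap A₁ B₁ q}).minimalPrimes)
    (h2 : P₂ ∈ (Ideal.span {algebraMap A₁ B₁ q}).minimalPrimes)
    (hne : P₁ ≠ P₂) (n₁ : Ideal B₁) [n₁.IsPrime] (hP₁ : P₁ ≤ n₁) (hP₂ : P₂ ≤ n₁) :
    ¬ SmoothAt q n₁ := by
  rintro ⟨τ, hτm, hmax⟩
  haveI hp1 : P₁.IsPrime := h1.1.1
  haveI hp2 : P₂.IsPrime := h2.1.1
  set O := Localization.AtPrime n₁ with hO
  have hd1 : Disjoint (n₁.primeCompl : Set B₁) P₁ := by
    rw [Set.disjoint_left]
    intro x hx hxP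
    exact hx (hP₁ hxP)
  have hd2 : Disjoint (n₁.primeCompl : Set B₁) P₂ := by
    rw [Set.disjoint_left]
    intro x hx hxP
    exact hx (hP₂ hxP)
  haveI hQ1 : (Ideal.map (algebraMap B₁ O) P₁).IsPrime :=
    IsLocalization.isPrime_of_isPrime_disjoint n₁.primeCompl O P₁ hp1 hd1
  haveI hQ2 : (Ideal.map (algebraMap B₁ O) P₂).IsPrime :=
    IsLocalization.isPrime_of_isPrime_disjoint n₁.primeCompl O P₂ hp2 hd2
  have hc1 : Ideal.comap (algebraMap B₁ O) (Ideal.map (algebraMap B₁ O) P₁) = P₁ :=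
    IsLocalization.comap_map_of_isPrime_disjoint n₁.primeCompl O hp1 hd1
  have hc2 : Ideal.comap (algebraMap B₁ O) (Ideal.map (algebraMap B₁ O) P₂) = P₂ :=
    IsLocalization.comap_map_of_isPrime_disjoint n₁.primeCompl O hp2 hd2
  have hqO : algebraMap A₁ O q = algebraMap B₁ O (algebraMap A₁ B₁ q) :=
    IsScalarTower.algebraMap_apply A₁ B₁ O q
  have hq1 : algebraMap A₁ O q ∈ Ideal.map (algebraMap B₁ O) P₁ := by
    rw [hqO]
    exact Ideal.mem_map_of_mem _ (h1.1.2 (Ideal.subset_span rfl))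
  have hq2 : algebraMap A₁ O q ∈ Ideal.map (algebraMap B₁ O) P₂ := by
    rw [hqO]
    exact Ideal.mem_map_of_mem _ (h2.1.2 (Ideal.subset_span rfl))
  by_cases hm1 : Ideal.map (algebraMap B₁ O) P₁ = maximalIdeal O
  · -- `P₂ ≤ P₁`, contradicting minimality of `P₁`
    have hle : P₂ ≤ P₁ := by
      rw [← hc1, ← hc2]
      refine Ideal.comap_mono ?_
      rw [hm1]
      exact le_maximalIdeal hQ2.ne_top
    exact hne (le_antisymm (h1.2 ⟨hp2, h2.1.2⟩ hle) hle)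
  · by_cases hm2 : Ideal.map (algebraMap B₁ O) P₂ = maximalIdeal O
    · have hle : P₁ ≤ P₂ := by
        rw [← hc1, ← hc2]
        refine Ideal.comap_mono ?_
        rw [hm2]
        exact le_maximalIdeal hQ1.ne_top
      exact hne (le_antisymm hle (h2.2 ⟨hp1, h1.1.2⟩ hle))
    · have e1 := eq_span_of_isPrime_of_smooth hτm hmax _ hq1 hm1
      have e2 := eq_span_of_isPrime_of_smooth hτm hmax _ hq2 hm2
      apply hne
      rw [← hc1, ← hc2, e1, e2]

/-- The refined L1 alternative at a point on both components is the node alternative. -/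
theorem nodeAt_of_isNode [IsNoetherianRing B₁] (q : A₁) {P₁ P₂ : Ideal B₁}
    (h1 : P₁ ∈ (Ideal.span {algebraMap A₁ B₁ q}).minimalPrimes)
    (h2 : P₂ ∈ (Ideal.span {algebraMap A₁ B₁ q}).minimalPrimes)
    (hne : P₁ ≠ P₂) (n₁ : Ideal B₁) [n₁.IsPrime]
    (hL1 : SmoothAt q n₁ ∨ ((P₁ ≤ n₁ ∧ P₂ ≤ n₁) ∧ NodeAt q n₁))
    (hP₁ : P₁ ≤ n₁) (hP₂ : P₂ ≤ n₁) : NodeAt q n₁ := by
  rcases hL1 with h | h
  · exact absurd h (not_smoothAt_of_two_minimalPrimes q h1 h2 hne n₁ hP₁ hP₂)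
  · exact h.2

/-- ... hence a Morse tower exists there. -/
theorem exists_nodeTowerAt_of_isNode [IsNoetherianRing B₁] (q : A₁) {P₁ P₂ : Ideal B₁}
    (h1 : P₁ ∈ (Ideal.span {algebraMap A₁ B₁ q}).minimalPrimes)
    (h2 : P₂ ∈ (Ideal.span {algebraMap A₁ B₁ q}).minimalPrimes)
    (hne : P₁ ≠ P₂) (n₁ : Ideal B₁) [n₁.IsPrime]
    (hL1 : SmoothAt q n₁ ∨ ((P₁ ≤ n₁ ∧ P₂ ≤ n₁) ∧ NodeAt q n₁))
    (hP₁ : P₁ ≤ n₁) (hP₂ : P₂ ≤ n₁) : ∃ xs ys, NodeTowerAt q n₁ xs ys :=
  (nodeAt_of_isNode q h1 h2 hne n₁ hL1 hP₁ hP₂).exists_tower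

end Generic

section TC

variable {A₁ B D BM : Type*} [CommRing A₁] [CommRing B] [IsDomain B] [Algebra A₁ B] [CommRing D]
  [IsDedekindDomain D] [CommRing BM]
  {red₁ red₂ : B →+* D} {ι V : BM →+* B} {rbar : BM →+* D} {W : D →+* D} {q' : ℕ} {q : A₁}

/-- **`IsNode ∧ SmoothAt` is empty for `H83.TwoComponents`.** -/
theorem not_smoothAt_of_twoComponents [IsNoetherianRing B]
    (h : TwoComponents red₁ red₂ ι V rbar W q' (algebraMap A₁ B q)) (hq' : 2 ≤ q')
    (hD : ¬ IsField D)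
    (hπ₁ : red₁ (algebraMap A₁ B q) = 0) (hπ₂ : red₂ (algebraMap A₁ B q) = 0)
    (n₁ : Ideal B) [n₁.IsPrime] (h1 : RingHom.ker red₁ ≤ n₁) (h2 : RingHom.ker red₂ ≤ n₁) :
    ¬ SmoothAt q n₁ :=
  not_smoothAt_of_two_minimalPrimes q
    (H84.ker_red₁_mem_minimalPrimes h hπ₁ (H84.exists_red₂_eq_zero_red₁_ne_zero h hq' hD))
    (H84.ker_red₂_mem_minimalPrimes h hπ₂ (H84.exists_red₁_eq_zero_red₂_ne_zero h hq' hD))
    (H84.ker_red₁_ne_ker_red₂ h hq' hD) n₁ h1 h2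

/-- A prime containing both vertical primes is a closed point. -/
theorem isMaximal_of_isNode
    (h : TwoComponents red₁ red₂ ι V rbar W q' (algebraMap A₁ B q)) (hq' : 2 ≤ q')
    (hD : ¬ IsField D)
    (n₁ : Ideal B) [hn : n₁.IsPrime] (h1 : RingHom.ker red₁ ≤ n₁) (h2 : RingHom.ker red₂ ≤ n₁) :
    n₁.IsMaximal := by
  have hsurj := h.hred₁
  haveI hI : (Ideal.map red₁ n₁).IsPrime := Ideal.map_isPrime_of_surjective hsurj h1
  obtain ⟨z, hz2, hz1⟩ := H84.exists_red₂_eq_zero_red₁_ne_zero h hq' hD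
  have hI0 : Ideal.map red₁ n₁ ≠ ⊥ := by
    intro h0
    apply hz1
    have : red₁ z ∈ Ideal.map red₁ n₁ :=
      Ideal.mem_map_of_mem _ (h2 ((RingHom.mem_ker).mpr hz2))
    rw [h0] at this
    exact (Ideal.mem_bot).mp this
  haveI hImax : (Ideal.map red₁ n₁).IsMaximal := hI.isMaximal hI0
  have hcomap : Ideal.comap red₁ (Ideal.map red₁ n₁) = n₁ := by
    rw [Ideal.comap_map_of_surjective red₁ hsurj]
    exact sup_eq_left.mpr h1
  rw [← hcomap]
  exact Ideal.comap_isMaximal_of_surjective red₁ hsurj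

/-- The refined L1 at a point on both components is the node alternative. -/
theorem nodeAt_of_twoComponents [IsNoetherianRing B]
    (h : TwoComponents red₁ red₂ ι V rbar W q' (algebraMap A₁ B q)) (hq' : 2 ≤ q')
    (hD : ¬ IsField D)
    (hπ₁ : red₁ (algebraMap A₁ B q) = 0) (hπ₂ : red₂ (algebraMap A₁ B q) = 0)
    (hL1 : ∀ (n₁ : Ideal B) [n₁.IsMaximal], algebraMap A₁ B q ∈ n₁ →
      SmoothAt q n₁ ∨ ((RingHom.ker red₁ ≤ n₁ ∧ RingHom.ker red₂ ≤ n₁) ∧ NodeAt q n₁))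
    (n₁ : Ideal B) [n₁.IsPrime] (h1 : RingHom.ker red₁ ≤ n₁) (h2 : RingHom.ker red₂ ≤ n₁) :
    NodeAt q n₁ := by
  haveI := isMaximal_of_isNode h hq' hD n₁ h1 h2
  have hqn : algebraMap A₁ B q ∈ n₁ := h1 ((RingHom.mem_ker).mpr hπ₁)
  rcases hL1 n₁ hqn with hs | hs
  · exact absurd hs (not_smoothAt_of_twoComponents h hq' hD hπ₁ hπ₂ n₁ h1 h2)
  · exact hs.2

/-- **`htower` at the literal `IsNode n₁ := ker red₁ ≤ n₁ ∧ ker red₂ ≤ n₁`.** -/
theorem exists_nodeTowerAt_of_twoComponents [IsNoetherianRing B]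
    (h : TwoComponents red₁ red₂ ι V rbar W q' (algebraMap A₁ B q)) (hq' : 2 ≤ q')
    (hD : ¬ IsField D)
    (hπ₁ : red₁ (algebraMap A₁ B q) = 0) (hπ₂ : red₂ (algebraMap A₁ B q) = 0)
    (hL1 : ∀ (n₁ : Ideal B) [n₁.IsMaximal], algebraMap A₁ B q ∈ n₁ →
      SmoothAt q n₁ ∨ ((RingHom.ker red₁ ≤ n₁ ∧ RingHom.ker red₂ ≤ n₁) ∧ NodeAt q n₁))
    (n₁ : Ideal B) [n₁.IsPrime] (hnode : RingHom.ker red₁ ≤ n₁ ∧ RingHom.ker red₂ ≤ n₁) :
    ∃ xs ys, NodeTowerAt q n₁ xs ys :=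
  (nodeAt_of_twoComponents h hq' hD hπ₁ hπ₂ hL1 n₁ hnode.1 hnode.2).exists_tower

end TC

end Fermat.Agent.S35.H92
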