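/-
S35 / (E5) (helper92): `htower` of helper16's escape set at the LITERAL node predicate
`IsNode n₁ := ker red₁ ≤ n₁ ∧ ker red₂ ≤ n₁` of `H8.hE2_of_twoComponents`, at a generic `A₁`-chart
(binder block of `H8.hL1_refined`) and at the two pinned charts `chartB A₁ J^(±1)`,
`J = JK L₁ (ℓ * M) ℓ` (binder block of `H8.hL1_refined_JK`, `H8.hL1_refined_JK_inv`).
-/
import Mathlib
import Fermat.Agent.S35.H92_NodeOfIsNode
import Fermat.Agent.S35.H8_L1RefinedInst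

set_option autoImplicit false
set_option linter.unusedSectionVars false
set_option linter.style.haveILetI false
set_option synthInstance.maxHeartbeats 400000
set_option maxHeartbeats 4000000

noncomputable section

namespace Fermat.Agent.S35.H92

open ModularCurve Polynomial IsLocalRing IntermediateField
open Fermat.Agent.S18 Fermat.Agent.S34 Fermat.Agent.S35.H8

section Chart

variable {A₁ : Type*} [CommRing A₁] [IsDomain A₁] [IsNoetherianRing A₁] [IsIntegrallyClosed A₁]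
  {K₁ : Type*} [Field K₁] [Algebra A₁ K₁] [IsFractionRing A₁ K₁]
  {F : Type*} [Field F] [Algebra A₁ F] [Algebra K₁ F] [IsScalarTower A₁ K₁ F]
  {k Fk : Type*} [Field k] [IsAlgClosed k] [Field Fk] [Algebra k Fk]

/-- **A point of an `A₁`-chart lying on both components is a node** (`IsNode ∧ SmoothAt = ∅`),
and it is a closed point. -/
theorem nodeAt_chart
    (u : F) (htr : Transcendental K₁ u) [FiniteDimensional K₁⟮u⟯ F] [Algebra.IsSeparable K₁⟮u⟯ F]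
    (w : Fk) (hw : Transcendental k w) [FiniteDimensional k⟮w⟯ Fk] [Algebra.IsSeparable k⟮w⟯ Fk]
    (res : A₁ →+* k) (hsurj : Function.Surjective res) (qA : A₁)
    (hker : ∀ a : A₁, res a = 0 → qA ∣ a)
    {BM : Type*} [CommRing BM]
    {red₁ red₂ : ↥(H40.chartB A₁ u) →+* ↥(integralClosure (Algebra.adjoin k {w}) Fk)}
    {ι V : BM →+* ↥(H40.chartB A₁ u)}
    {rbar : BM →+* ↥(integralClosure (Algebra.adjoin k {w}) Fk)}
    {W : ↥(integralClosure (Algebra.adjoin k {w}) Fk) →+*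
      ↥(integralClosure (Algebra.adjoin k {w}) Fk)} {q : ℕ}
    (h : H83.TwoComponents red₁ red₂ ι V rbar W q (algebraMap A₁ ↥(H40.chartB A₁ u) qA))
    (hq : 2 ≤ q)
    (hπ₁ : red₁ (algebraMap A₁ ↥(H40.chartB A₁ u) qA) = 0)
    (hπ₂ : red₂ (algebraMap A₁ ↥(H40.chartB A₁ u) qA) = 0)
    (n₁ : Ideal ↥(H40.chartB A₁ u)) [n₁.IsPrime]
    (hnode : RingHom.ker red₁ ≤ n₁ ∧ RingHom.ker red₂ ≤ n₁) :
    n₁.IsMaximal ∧ NodeAt qA n₁ := by
  haveI hDed : IsDedekindDomain ↥(integralClosure (Algebra.adjoin k {w}) Fk) :=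
    S18.H97.isDedekindDomain_intRing_of_isSeparable w hw
  have hft : Algebra.FiniteType A₁ ↥(H40.chartB A₁ u) := H83.finiteType_chartB (K := K₁) u htr
  haveI hN : IsNoetherianRing ↥(H40.chartB A₁ u) := Algebra.FiniteType.isNoetherianRing A₁ _
  have hD := H83.not_isField_integralClosure_adjoin (k := k) w hw
  refine ⟨isMaximal_of_isNode h hq hD n₁ hnode.1 hnode.2, ?_⟩
  exact nodeAt_of_twoComponents h hq hD hπ₁ hπ₂
    (fun n _ hqn => hL1_refined (K₁ := K₁) u htr w hw res hsurj qA hker h hq n hqn)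
    n₁ hnode.1 hnode.2

/-- **`htower` at the literal `IsNode` for an `A₁`-chart.** -/
theorem exists_nodeTowerAt_chart
    (u : F) (htr : Transcendental K₁ u) [FiniteDimensional K₁⟮u⟯ F] [Algebra.IsSeparable K₁⟮u⟯ F]
    (w : Fk) (hw : Transcendental k w) [FiniteDimensional k⟮w⟯ Fk] [Algebra.IsSeparable k⟮w⟯ Fk]
    (res : A₁ →+* k) (hsurj : Function.Surjective res) (qA : A₁)
    (hker : ∀ a : A₁, res a = 0 → qA ∣ a)
    {BM : Type*} [CommRing BM]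
    {red₁ red₂ : ↥(H40.chartB A₁ u) →+* ↥(integralClosure (Algebra.adjoin k {w}) Fk)}
    {ι V : BM →+* ↥(H40.chartB A₁ u)}
    {rbar : BM →+* ↥(integralClosure (Algebra.adjoin k {w}) Fk)}
    {W : ↥(integralClosure (Algebra.adjoin k {w}) Fk) →+*
      ↥(integralClosure (Algebra.adjoin k {w}) Fk)} {q : ℕ}
    (h : H83.TwoComponents red₁ red₂ ι V rbar W q (algebraMap A₁ ↥(H40.chartB A₁ u) qA))
    (hq : 2 ≤ q)
    (hπ₁ : red₁ (algebraMap A₁ ↥(H40.chartB A₁ u) qA) = 0)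
    (hπ₂ : red₂ (algebraMap A₁ ↥(H40.chartB A₁ u) qA) = 0)
    (n₁ : Ideal ↥(H40.chartB A₁ u)) [n₁.IsPrime]
    (hnode : RingHom.ker red₁ ≤ n₁ ∧ RingHom.ker red₂ ≤ n₁) :
    ∃ xs ys, NodeTowerAt qA n₁ xs ys :=
  (nodeAt_chart (K₁ := K₁) u htr w hw res hsurj qA hker h hq hπ₁ hπ₂ n₁ hnode).2.exists_tower

end Chart

section Pinned

local notation "Qbar" => AlgebraicClosure ℚ

variable (M : ℕ) [NeZero M] {ℓ : ℕ} [hℓ : Fact ℓ.Prime] (hℓM : ¬ ℓ ∣ M)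
  (A : ValuationSubring Qbar) (hA : A.LiesOverPrime ℓ)

local notation "kA" => IsLocalRing.ResidueField A
local notation "A₁" => H45.A0 A ℓ
local notation "L₁" => H45.unrCyclo ℓ
local notation "JN" => S34.H95.JK (H45.unrCyclo ℓ) (ℓ * M) ℓ (Dvd.intro M rfl)
local notation "RM" => integralClosure
  (Algebra.adjoin (IsLocalRing.ResidueField A) {H16.jK (IsLocalRing.ResidueField A) M})
  (modularFunctionFieldFullC (IsLocalRing.ResidueField A) M)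
local notation "RM'" => integralClosure
  (Algebra.adjoin (IsLocalRing.ResidueField A) {(H16.jK (IsLocalRing.ResidueField A) M)⁻¹})
  (modularFunctionFieldFullC (IsLocalRing.ResidueField A) M)

include hℓM hA in
/-- **`htower` at the literal `IsNode`, chart `chartB A₁ J`.** -/
theorem exists_nodeTowerAt_JK {BM : Type*} [CommRing BM]
    {red₁ red₂ : ↥(H40.chartB A₁ JN) →+* ↥RM} {ι V : BM →+* ↥(H40.chartB A₁ JN)}
    {rbar : BM →+* ↥RM} {W : ↥RM →+* ↥RM} {q' : ℕ}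
    (hTC : H83.TwoComponents (B := ↥(H40.chartB A₁ JN)) (R := ↥RM) (BM := BM)
      red₁ red₂ ι V rbar W q' (algebraMap A₁ ↥(H40.chartB A₁ JN) ((ℓ : ℕ) : A₁)))
    (hq' : 2 ≤ q')
    (hπ₁ : red₁ (algebraMap A₁ ↥(H40.chartB A₁ JN) ((ℓ : ℕ) : A₁)) = 0)
    (hπ₂ : red₂ (algebraMap A₁ ↥(H40.chartB A₁ JN) ((ℓ : ℕ) : A₁)) = 0)
    (n₁ : Ideal ↥(H40.chartB A₁ JN)) [n₁.IsPrime]
    (hnode : RingHom.ker red₁ ≤ n₁ ∧ RingHom.ker red₂ ≤ n₁) :
    ∃ xs ys, NodeTowerAt ((ℓ : ℕ) : A₁) n₁ xs ys := by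
  haveI := H45.isDiscreteValuationRing_A0 hℓ.out hA
  haveI := S34.H95.finiteDimensional_JK L₁ (ℓ * M) ℓ (Dvd.intro M rfl)
    (H99.natCast_ne_zero₀ (ℓ * M) L₁)
  haveI := S34.H95.isSeparable_JK L₁ (ℓ * M) ℓ (Dvd.intro M rfl)
  haveI := H16.isAlgClosed_k A
  haveI := H16.finiteDimensional_Fk M hℓM A hA
  haveI := H16.isSeparable_Fk M hℓM A hA
  exact exists_nodeTowerAt_chart (K₁ := L₁) JN
    (S34.H95.transcendental_JK L₁ (ℓ * M) ℓ (Dvd.intro M rfl))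
    (H16.jK kA M) (H16.transcendental_jk M A)
    (H45.resA0 A ℓ) (H45.resA0_surjective hℓ.out hA) ((ℓ : ℕ) : A₁)
    (H40.hker_resA0 A hA) hTC hq' hπ₁ hπ₂ n₁ hnode

include hℓM hA in
/-- **`htower` at the literal `IsNode`, chart `chartB A₁ J⁻¹`.** -/
theorem exists_nodeTowerAt_JK_inv {BM : Type*} [CommRing BM]
    {red₁ red₂ : ↥(H40.chartB A₁ JN⁻¹) →+* ↥RM'} {ι V : BM →+* ↥(H40.chartB A₁ JN⁻¹)}
    {rbar : BM →+* ↥RM'} {W : ↥RM' →+* ↥RM'} {q' : ℕ}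
    (hTC : H83.TwoComponents (B := ↥(H40.chartB A₁ JN⁻¹)) (R := ↥RM') (BM := BM)
      red₁ red₂ ι V rbar W q' (algebraMap A₁ ↥(H40.chartB A₁ JN⁻¹) ((ℓ : ℕ) : A₁)))
    (hq' : 2 ≤ q')
    (hπ₁ : red₁ (algebraMap A₁ ↥(H40.chartB A₁ JN⁻¹) ((ℓ : ℕ) : A₁)) = 0)
    (hπ₂ : red₂ (algebraMap A₁ ↥(H40.chartB A₁ JN⁻¹) ((ℓ : ℕ) : A₁)) = 0)
    (n₁ : Ideal ↥(H40.chartB A₁ JN⁻¹)) [n₁.IsPrime]
    (hnode : RingHom.ker red₁ ≤ n₁ ∧ RingHom.ker red₂ ≤ n₁) :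
    ∃ xs ys, NodeTowerAt ((ℓ : ℕ) : A₁) n₁ xs ys := by
  haveI := H45.isDiscreteValuationRing_A0 hℓ.out hA
  haveI := S34.H95.finiteDimensional_JK_inv L₁ (ℓ * M) ℓ (Dvd.intro M rfl)
    (H99.natCast_ne_zero₀ (ℓ * M) L₁)
  haveI := S34.H95.isSeparable_JK_inv L₁ (ℓ * M) ℓ (Dvd.intro M rfl)
  haveI := H16.isAlgClosed_k A
  haveI := H16.finiteDimensional_Fk M hℓM A hA
  haveI := H16.isSeparable_Fk M hℓM A hA
  haveI := S18.H97.finiteDimensional_adjoin_inv (k := kA) (H16.jK kA M)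
  haveI := S18.H97.isSeparable_adjoin_inv (k := kA) (H16.jK kA M)
  exact exists_nodeTowerAt_chart (K₁ := L₁) JN⁻¹
    (S34.H95.transcendental_JK_inv L₁ (ℓ * M) ℓ (Dvd.intro M rfl))
    (H16.jK kA M)⁻¹ (S18.H97.transcendental_inv (H16.transcendental_jk M A))
    (H45.resA0 A ℓ) (H45.resA0_surjective hℓ.out hA) ((ℓ : ℕ) : A₁)
    (H40.hker_resA0 A hA) hTC hq' hπ₁ hπ₂ n₁ hnode

end Pinned

end Fermat.Agent.S35.H92
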