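/-
helper18 — S35 row GEO-TOP-E, final assembly, part E: **the hypothesis `h` of `H18.geo_of_geoFnEN`,
hypothesis-free.**

* `exists_T_hE2` : the finite avoided set `T` (helper16's escape sets of the two `A₁`-charts, finite
  by helper84's `nodes_finite'` and helper92's towers) and (E2) on both charts at every level `E`
  (`H18.hE2_JK`, `H18.hE2_JK_inv`);
* `geoFnEN_final` : `∀ M0 q .., ∃ T S', T.Finite ∧ ∀ E .., GeoFnEN M0 q (q * M0) .. E hE φ q (p ^ n) T`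
  = the hypothesis of `H18.geo_of_geoFnEN`; hence `(GEO)` of helper57's `H57.s35_of_geo` is
  `H18.geo_of_geoFnEN H18.geoFnEN_final`.
-/
import Mathlib
import Fermat.Agent.S35.H18_GeoInstD
import Fermat.Agent.S35.H18_GeoInstD2
import Fermat.Agent.S35.H16_EscTFinite
import Fermat.Agent.S35.H92_NodeOfIsNodeInst

set_option autoImplicit false
set_option linter.unusedSectionVars false
set_option linter.style.haveILetI false
set_option synthInstance.maxHeartbeats 400000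
set_option maxHeartbeats 3200000

noncomputable section

namespace Fermat.Agent.S35.H18

open ModularCurve AlgebraicCurve HahnSeries IntermediateField IsLocalRing
open Fermat.Agent.S18 Fermat.Agent.S18.H45 Fermat.Agent.S34
open Fermat.Agent.S34.H55

local notation "Qbar" => AlgebraicClosure ℚ
local notation "GQ" => (AlgebraicClosure ℚ ≃ₐ[ℚ] AlgebraicClosure ℚ)

section E2E5

variable (M : ℕ) [NeZero M] {ℓ : ℕ} [NeZero ℓ] [hℓ : Fact ℓ.Prime] (hℓM : ¬ ℓ ∣ M)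
  (A : ValuationSubring Qbar) (hA : A.LiesOverPrime ℓ)

local notation "kA" => IsLocalRing.ResidueField A
local notation "A₁" => H45.A0 A ℓ
local notation "J₁" => H55.JN M (ℓ := ℓ)
local notation "RM" => integralClosure
  (Algebra.adjoin (IsLocalRing.ResidueField A) {S18.H16.jK (IsLocalRing.ResidueField A) M})
  (modularFunctionFieldFullC (IsLocalRing.ResidueField A) M)
local notation "RM'" => integralClosure
  (Algebra.adjoin (IsLocalRing.ResidueField A) {(S18.H16.jK (IsLocalRing.ResidueField A) M)⁻¹})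
  (modularFunctionFieldFullC (IsLocalRing.ResidueField A) M)

set_option maxHeartbeats 32000000 in
include hℓM hA in
/-- **(E5) + (E2)**: the finite avoided set and (E2) on both charts at every level. -/
theorem exists_T_hE2
    (Pi : PlaceInf M hℓM A hA) (P0 : PlaceZero M hℓM A hA)
    (r₁₁ r₁₂ : ↥(H40.chartB A₁ J₁) →+* ↥RM)
    (TC₁ : H83.TwoComponents r₁₁ r₁₂
      (chartMap (iotaMN M (ℓ := ℓ)) (iotaMN_algebraMap M A) (hιint1 M A))
      (chartMap (VMN M (ℓ := ℓ)) (VMN_algebraMap M A) (hVint1 M A))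
      (rbarB (Mod M hℓM A hA) (Mod M hℓM A hA).x_mem (Mod M hℓM A hA).res1_x)
      (WR (FrM M A hA) ℓ (hFrx M A hA)) ℓ
      (algebraMap A₁ ↥(H40.chartB A₁ J₁) ((ℓ : ℕ) : A₁)))
    (F₁ : S35.H55.L0ChartFacts M hℓM A hA Pi P0 r₁₁ r₁₂)
    (r₂₁ r₂₂ : ↥(H40.chartB A₁ J₁⁻¹) →+* ↥RM')
    (TC₂ : H83.TwoComponents r₂₁ r₂₂
      (chartMap (iotaMN M (ℓ := ℓ)) (iotaMN_algebraMap M A) (hιint2 M A))
      (chartMap (VMN M (ℓ := ℓ)) (VMN_algebraMap M A) (hVint2 M A))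
      (rbarB (Mod M hℓM A hA) (hc2 M hℓM A hA) (hcw2 M hℓM A hA))
      (WR (FrM M A hA) ℓ (hFrx_inv M A hA)) ℓ
      (algebraMap A₁ ↥(H40.chartB A₁ J₁⁻¹) ((ℓ : ℕ) : A₁)))
    (F₂ : S35.H55.L0ChartFacts M hℓM A hA Pi P0 r₂₁ r₂₂)
    {p : ℕ} (φ : GQ) (hφ : A.IsFrobeniusAt φ ℓ) (n : ℕ) :
    ∃ T : Set (Place Qbar (S24.FN (ℓ * M))), T.Finite ∧
      ∀ (E : IntermediateField (unrCyclo ℓ) Qbar) [FiniteDimensional (unrCyclo ℓ) E]
        (hE : ∀ (τ : GQ) (x : Qbar), x ∈ E → τ x ∈ E)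
        (π : ↥(cutOver A E)) (_hmax : maximalIdeal ↥(cutOver A E) = Ideal.span {π}),
        (∀ f : ↥(modularFunctionFieldFullC ↥E (ℓ * M)), H61.Admissible ↥E f (p ^ n) →
          (∀ v ∈ T, v.ord (H99.toBar ↥E (ℓ * M) f) = 0) →
          ∀ m : Ideal ↥(H40.chartB (cutOver A E) (H95.JK ↥E (ℓ * M) ℓ (Dvd.intro M rfl))),
            m.IsMaximal →
            algebraMap ↥(cutOver A E)
              ↥(H40.chartB (cutOver A E) (H95.JK ↥E (ℓ * M) ℓ (Dvd.intro M rfl))) π ∈ m →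
            H46.ChartWeakAt (F := ↥(modularFunctionFieldFullC ↥E (ℓ * M)))
              (algebraMap ↥(cutOver A E)
                ↥(H40.chartB (cutOver A E) (H95.JK ↥E (ℓ * M) ℓ (Dvd.intro M rfl))) π) m
              (galActFullC E hE (ℓ * M) φ (galActFullC E hE (ℓ * M) φ f) / f) (p ^ n)) ∧
        (∀ f : ↥(modularFunctionFieldFullC ↥E (ℓ * M)), H61.Admissible ↥E f (p ^ n) →
          (∀ v ∈ T, v.ord (H99.toBar ↥E (ℓ * M) f) = 0) →
          ∀ m : Ideal ↥(H40.chartB (cutOver A E) (H95.JK ↥E (ℓ * M) ℓ (Dvd.intro M rfl))⁻¹),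
            m.IsMaximal →
            algebraMap ↥(cutOver A E)
              ↥(H40.chartB (cutOver A E) (H95.JK ↥E (ℓ * M) ℓ (Dvd.intro M rfl))⁻¹) π ∈ m →
            H46.ChartWeakAt (F := ↥(modularFunctionFieldFullC ↥E (ℓ * M)))
              (algebraMap ↥(cutOver A E)
                ↥(H40.chartB (cutOver A E) (H95.JK ↥E (ℓ * M) ℓ (Dvd.intro M rfl))⁻¹) π) m
              (galActFullC E hE (ℓ * M) φ (galActFullC E hE (ℓ * M) φ f) / f) (p ^ n)) := by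
  have he : 2 ≤ ℓ := hℓ.out.two_le
  haveI := S18.H16.isAlgClosed_k A
  haveI := S18.H16.finiteDimensional_Fk M hℓM A hA
  haveI := S18.H16.isSeparable_Fk M hℓM A hA
  haveI := S18.H97.finiteDimensional_adjoin_inv (k := kA) (S18.H16.jK kA M)
  haveI := S18.H97.isSeparable_adjoin_inv (k := kA) (S18.H16.jK kA M)
  haveI hDed₁ : IsDedekindDomain ↥RM :=
    S18.H97.isDedekindDomain_intRing_of_isSeparable (S18.H16.jK kA M)
      (S18.H16.transcendental_jk M A)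
  haveI hDed₂ : IsDedekindDomain ↥RM' :=
    S18.H97.isDedekindDomain_intRing_of_isSeparable (S18.H16.jK kA M)⁻¹
      (S18.H97.transcendental_inv (S18.H16.transcendental_jk M A))
  have ht₁ : ∀ (n₁ : Ideal ↥(H40.chartB A₁ J₁)) [n₁.IsPrime],
      (RingHom.ker r₁₁ ≤ n₁ ∧ RingHom.ker r₁₂ ≤ n₁) →
      ∃ xs ys, S35.H8.NodeTowerAt ((ℓ : ℕ) : A₁) n₁ xs ys := fun n₁ _ hnode =>
    S35.H92.exists_nodeTowerAt_JK M hℓM A hA TC₁ he F₁.red₁_ell F₁.red₂_ell n₁ hnode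
  have ht₂ : ∀ (n₁ : Ideal ↥(H40.chartB A₁ J₁⁻¹)) [n₁.IsPrime],
      (RingHom.ker r₂₁ ≤ n₁ ∧ RingHom.ker r₂₂ ≤ n₁) →
      ∃ xs ys, S35.H8.NodeTowerAt ((ℓ : ℕ) : A₁) n₁ xs ys := fun n₁ _ hnode =>
    S35.H92.exists_nodeTowerAt_JK_inv M hℓM A hA TC₂ he F₂.red₁_ell F₂.red₂_ell n₁ hnode
  have hfin₁ := S35.H16.escTChart_finite hℓ.out hA (ℓ * M) J₁
    (fun n₁ => RingHom.ker r₁₁ ≤ n₁ ∧ RingHom.ker r₁₂ ≤ n₁) ht₁
    (S35.H84.nodes_finite' TC₁ he F₁.notField)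
  have hfin₂ := S35.H16.escTChart_finite hℓ.out hA (ℓ * M) J₁⁻¹
    (fun n₁ => RingHom.ker r₂₁ ≤ n₁ ∧ RingHom.ker r₂₂ ≤ n₁) ht₂
    (S35.H84.nodes_finite' TC₂ he F₂.notField)
  refine ⟨_, hfin₁.union hfin₂, fun E _ hE π hmax => ⟨?_, ?_⟩⟩
  · exact hE2_JK M hℓM A hA E hE Pi P0 r₁₁ r₁₂ TC₁ F₁ ht₁ φ hφ (p ^ n) _
      Set.subset_union_left π hmax
  · exact hE2_JK_inv M hℓM A hA E hE Pi P0 r₂₁ r₂₂ TC₂ F₂ ht₂ φ hφ (p ^ n) _
      Set.subset_union_right π hmax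

end E2E5

set_option maxHeartbeats 32000000 in
/-- **The hypothesis `h` of `H18.geo_of_geoFnEN`.** -/
theorem geoFnEN_final :
    ∀ (M0 q : ℕ) [NeZero M0] [NeZero q], q.Prime → ¬ q ∣ M0 → ∀ p : ℕ, p.Prime → p ≠ q →
      ∀ A : ValuationSubring Qbar, A.LiesOverPrime q → ∀ φ : GQ, A.IsFrobeniusAt φ q →
        ∀ n : ℕ, ∃ (T : Set (Place Qbar (S24.FN (q * M0)))) (S' : Finset Qbar),
          T.Finite ∧
          ∀ (E : IntermediateField (H45.unrCyclo q) Qbar)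
            [FiniteDimensional (H45.unrCyclo q) E] [IsGalois (H45.unrCyclo q) E]
            (hE : ∀ (τ : GQ) (x : Qbar), x ∈ E → τ x ∈ E), (∀ x ∈ S', x ∈ E) →
            GeoFnEN M0 q (q * M0) (dvd_mul_left M0 q) dvd_rfl E hE φ q (p ^ n) T := by
  intro M0 q _ _ hq hqM p hp hpq A hA φ hφ n
  haveI : Fact q.Prime := ⟨hq⟩
  have k0 := S35.H55.exists_l0Pkg M0 hqM A hA
  obtain ⟨Pi, P0, ⟨r₁₁, r₁₂, TC₁, F₁⟩, ⟨r₂₁, r₂₂, TC₂, F₂⟩⟩ := k0
  have k1 := exists_T_hE2 (p := p) M0 hqM A hA Pi P0 r₁₁ r₁₂ TC₁ F₁ r₂₁ r₂₂ TC₂ F₂ φ hφ n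
  obtain ⟨T, hTfin, hT⟩ := k1
  refine ⟨T, ∅, hTfin, fun E _ _ hE _ => ?_⟩
  have k2 := exists_uniformizer_cutOver hq hA E
  obtain ⟨π, -, -, -, -, -, hmax⟩ := k2
  have k3 := hT E hE π hmax
  exact geoFnEN_of_l0Pkg M0 hqM A hA E hE Pi P0 r₁₁ r₁₂ TC₁ F₁ r₂₁ r₂₂ TC₂ F₂ hp hpq φ hφ n T π
    hmax k3.1 k3.2

/-- **`(GEO)` of `H57.s35_of_geo`, hypothesis-free.** -/
theorem geo_final :
    ∀ (M0 q : ℕ) [NeZero M0] [NeZero q], q.Prime → ¬ q ∣ M0 → ∀ p : ℕ, p.Prime → p ≠ q →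
      ∀ A : ValuationSubring Qbar, A.LiesOverPrime q → ∀ φ : GQ, A.IsFrobeniusAt φ q →
        ∀ n : ℕ, ∃ T : Set (Place Qbar (modularFunctionFieldBar (M0 * q))), T.Finite ∧
          H86.GeoFnJ M0 q φ q (p ^ n) T :=
  geo_of_geoFnEN geoFnEN_final

end Fermat.Agent.S35.H18
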