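import Mathlib
import Fermat.Agent.S29.H90_NormAnFinal
import Fermat.Agent.S29.H65_Gamma0Pos
import Fermat.Agent.S41.H65_DegDefs

/-!
# S35 / row N3c, part 1 (helper90): the Atkin–Lehner matrix `W = [[q x, y],[M q, q]]` on `Mer`

`Mer`-level identities needed for the Atkin–Lehner automorphism of the function field of `X₀(M q)`:

* `Jmer`, `actGL_slp_Jmer`, `thetaC_jdC_eq : thetaC N (j_d) = actGL (diag(d,1)) Jmer`;
* `scalarPos`, `actGL_scalarPos` (scalar matrices act trivially);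
* `alPos D hq : GL(2,ℝ)⁺`, the matrix identities
  `diag(d',1) W = γ₁ diag(q d',1)`, `diag(q d',1) W = q γ₂ diag(d',1)` (`M = d' e`),
  `W W = q γ₀`, `W = r₀ diag(q,1)`;
* consequences: `actGL W (θ j_{d'}) = θ j_{q d'}`, `actGL W (θ j_{q d'}) = θ j_{d'}`.
-/

set_option autoImplicit false
set_option linter.unusedSectionVars false
set_option linter.style.haveILetI false

open UpperHalfPlane ModularCurve CongruenceSubgroup Matrix.SpecialLinearGroup ModularForm
open scoped MatrixGroups Manifold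

noncomputable section

namespace Fermat.Agent.S35.H90

open Fermat.Agent Fermat.Agent.S24 Fermat.Agent.S29
open Fermat.Agent.S24.H81 (Hol Mer)
open Fermat.Agent.S29.H25
open Fermat.Agent.S41.H85 (gl)
open Fermat.Agent.S41.H72 Fermat.Agent.S41.H65
open P2MW.S_ModularForm_heckeT_slash_eq_self_of_mem_Gamma0.ModularForm.HeckeSlashInvariance

/-! ### `J` as an element of `Mer` -/

/-- The `j`-function as an element of `Mer`. -/
def Jmer : Mer := algebraMap Hol Mer ⟨H28.J, H28.J_mdiff⟩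

theorem actGL_slp_Jmer (γ : SL(2, ℤ)) : H65.actGL (H65.slp γ) Jmer = Jmer := by
  show H65.actGL (H65.slp γ) (algebraMap Hol Mer ⟨H28.J, H28.J_mdiff⟩) = algebraMap Hol Mer _
  rw [H65.actGL_slp, merComp_algebraMap]
  refine congrArg (algebraMap Hol Mer) (Subtype.ext (funext fun τ => ?_))
  rw [holComp_apply]
  exact H28.J_smul γ τ

/-- `θ (j(q^d)) = J ∘ diag(d,1)`. -/
theorem thetaC_jdC_eq (N : ℕ) [NeZero N] (d : ℕ) [NeZero d] (hd : d ∣ N) :
    thetaC N (jdC N d hd) = H65.actGL (H65.diagPos d (NeZero.ne d)) Jmer := by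
  rw [thetaC_jdC, ← H90.scaleMer_eq_actGL, Jmer, H47.scaleMer_algebraMap]
  rfl

/-! ### Scalar matrices -/

/-- The scalar matrix `q` in `GL(2,ℝ)⁺`. -/
def scalarPos (q : ℕ) (hq : q ≠ 0) : GL(2, ℝ)⁺ :=
  ⟨scalarGL q hq, (Matrix.mem_glpos _).mpr (det_scalarGL_pos q hq)⟩

theorem actGL_scalarPos (q : ℕ) (hq : q ≠ 0) (x : Mer) : H65.actGL (scalarPos q hq) x = x := by
  have h : H65.actGL (scalarPos q hq) = RingHom.id Mer :=
    IsFractionRing.ringHom_ext (A := Hol) fun a => by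
      rw [H65.actGL_algebraMap, RingHom.id_apply]
      refine congrArg (algebraMap Hol Mer) (Subtype.ext (funext fun τ => ?_))
      rw [H65.compHol_apply]
      exact congrArg (a : ℍ → ℂ) (scalarGL_smul q hq τ)
  rw [h]
  rfl

/-! ### The Atkin–Lehner matrix in `GL(2,ℝ)⁺` -/

variable {M q : ℕ}

/-- The Atkin–Lehner matrix `W = [[q x, y],[M q, q]]` in `GL(2,ℝ)⁺`. -/
def alPos (D : ALData M q) (hq : q ≠ 0) : GL(2, ℝ)⁺ :=
  ⟨alGL D hq, (Matrix.mem_glpos _).mpr (det_alGL_pos D hq)⟩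

@[simp] theorem coe_alPos (D : ALData M q) (hq : q ≠ 0) :
    ((alPos D hq : GL(2, ℝ)⁺) : GL (Fin 2) ℝ) = alGL D hq := rfl

/-- `W = r₀ · diag(q,1)`. -/
theorem alPos_eq_r0_mul (D : ALData M q) (hq : q ≠ 0) :
    alPos D hq = H65.glp M (r0 D) * H65.diagPos q hq :=
  Subtype.ext (alGL_eq_r0_mul D hq)

/-- `W² = q · γ₀`. -/
theorem alPos_mul_alPos (D : ALData M q) (hq : q ≠ 0) :
    alPos D hq * alPos D hq = scalarPos q hq * H65.glp (M * q) (gam0' D) :=
  Subtype.ext (alGL_mul_alGL D hq)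

theorem val_mapGL_sl2 (a b c d : ℤ) (h : a * d - b * c = 1) :
    ((mapGL ℝ (sl2 a b c d h) : GL (Fin 2) ℝ) : Matrix (Fin 2) (Fin 2) ℝ)
      = !![(a : ℝ), (b : ℝ); (c : ℝ), (d : ℝ)] := by
  ext i j
  rw [mapGL_apply']
  fin_cases i <;> fin_cases j <;> rfl

/-- `γ₁ = [[x, d' y],[e, q]]`, `M = d' e`. -/
def gamA (D : ALData M q) (d' e : ℕ) (hde : M = d' * e) : SL(2, ℤ) :=
  sl2 D.x (d' * D.y) e q (by
    have h := D.h
    have hM : (M : ℤ) = d' * e := by exact_mod_cast hde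
    linear_combination h + D.y * hM)

/-- `γ₂ = [[q x, d' y],[e, 1]]`, `M = d' e`. -/
def gamB (D : ALData M q) (d' e : ℕ) (hde : M = d' * e) : SL(2, ℤ) :=
  sl2 (q * D.x) (d' * D.y) e 1 (by
    have h := D.h
    have hM : (M : ℤ) = d' * e := by exact_mod_cast hde
    linear_combination h + D.y * hM)

/-- `diag(d',1) · W = γ₁ · diag(q d',1)`. -/
theorem diagPos_mul_alPos (D : ALData M q) (hq : q ≠ 0) (d' e : ℕ) (hd' : d' ≠ 0)
    (hde : M = d' * e) (hqd : q * d' ≠ 0) :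
    H65.diagPos d' hd' * alPos D hq
      = H65.slp (gamA D d' e hde) * H65.diagPos (q * d') hqd := by
  apply Subtype.ext
  show heckeDiagMatrix d' * alGL D hq = mapGL ℝ (gamA D d' e hde) * heckeDiagMatrix (q * d')
  have hM : (M : ℝ) = d' * e := by exact_mod_cast hde
  ext a b
  fin_cases a <;> fin_cases b <;>
    simp [Matrix.mul_apply, Fin.sum_univ_two, hq, hd', gamA, hM]
  all_goals ring

/-- `diag(q d',1) · W = q · γ₂ · diag(d',1)`. -/
theorem diagPos_mul_alPos' (D : ALData M q) (hq : q ≠ 0) (d' e : ℕ) (hd' : d' ≠ 0)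
    (hde : M = d' * e) (hqd : q * d' ≠ 0) :
    H65.diagPos (q * d') hqd * alPos D hq
      = scalarPos q hq * H65.slp (gamB D d' e hde) * H65.diagPos d' hd' := by
  apply Subtype.ext
  show heckeDiagMatrix (q * d') * alGL D hq
    = scalarGL q hq * mapGL ℝ (gamB D d' e hde) * heckeDiagMatrix d'
  have hM : (M : ℝ) = d' * e := by exact_mod_cast hde
  apply Units.ext
  simp only [Units.val_mul, val_alGL, val_scalarGL, val_heckeDiagMatrix hd',
    val_heckeDiagMatrix hqd, gamB, val_mapGL_sl2, Matrix.mul_fin_two, hM]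
  push_cast
  ext a b
  fin_cases a <;> fin_cases b <;> simp <;> ring

/-! ### The action of `W` on the generators -/

variable [NeZero M] [NeZero q]

/-- `(θ j_{d'}) ∘ W = θ j_{q d'}` for `d' ∣ M`. -/
theorem actGL_alPos_thetaC_jdC (D : ALData M q) (d' : ℕ) [NeZero d'] (hd' : d' ∣ M) :
    H65.actGL (alPos D (NeZero.ne q))
        (thetaC (M * q) (jdC (M * q) d' (hd'.trans (dvd_mul_right M q))))
      = thetaC (M * q) (jdC (M * q) (q * d')
          (by rw [mul_comm M q]; exact mul_dvd_mul_left q hd')) := by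
  obtain ⟨e, hde⟩ := hd'
  rw [thetaC_jdC_eq, thetaC_jdC_eq, ← H65.actGL_mul,
    diagPos_mul_alPos D (NeZero.ne q) d' e (NeZero.ne d') hde (NeZero.ne (q * d')),
    H65.actGL_mul, actGL_slp_Jmer]

/-- `(θ j_{q d'}) ∘ W = θ j_{d'}` for `d' ∣ M`. -/
theorem actGL_alPos_thetaC_jdC' (D : ALData M q) (d' : ℕ) [NeZero d'] (hd' : d' ∣ M) :
    H65.actGL (alPos D (NeZero.ne q))
        (thetaC (M * q) (jdC (M * q) (q * d')
          (by rw [mul_comm M q]; exact mul_dvd_mul_left q hd')))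
      = thetaC (M * q) (jdC (M * q) d' (hd'.trans (dvd_mul_right M q))) := by
  obtain ⟨e, hde⟩ := hd'
  rw [thetaC_jdC_eq, thetaC_jdC_eq, ← H65.actGL_mul,
    diagPos_mul_alPos' D (NeZero.ne q) d' e (NeZero.ne d') hde (NeZero.ne (q * d')),
    H65.actGL_mul, H65.actGL_mul, actGL_scalarPos, actGL_slp_Jmer]

end Fermat.Agent.S35.H90
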