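import Mathlib
import Fermat.Agent.S35.H90_ALMer
import Fermat.Agent.S29.H65_HeckeEquivAbs

/-!
# S35 / row N3c, part 2 (helper90): the Atkin–Lehner involution of the function field of `X₀(M q)`

`q` prime, `D : ALData M q` (so `q ∤ M`), `W = alPos D`.  We construct the `ℂ`-algebra involution

  `alEquiv D hq : FC (M q) ≃ₐ[ℂ] FC (M q)`,   `thetaC (w x) = (thetaC x) ∘ W`,

(`w` swaps the generators `j_{d'} ↔ j_{q d'}`, `d' ∣ M`), prove

  `heckeBetaBar ℂ M q = w ∘ heckeAlphaBar ℂ M q`          (`beta_eq_al_alpha`)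

and deduce the analytic norm formula along `β`:

  `thetaC M (Nm_β x) = ∏ i, (thetaC (M q) x) ∘ (W · r i)`   (`thetaC_normAlong_beta_eq_prod`)

for any system `r` of representatives of `Γ₀(M q) \ Γ₀(M)`.
-/

set_option autoImplicit false
set_option linter.unusedSectionVars false
set_option linter.style.haveILetI false

open UpperHalfPlane ModularCurve AlgebraicCurve CongruenceSubgroup Matrix.SpecialLinearGroup
  ModularForm
open scoped MatrixGroups Manifold

noncomputable section

namespace Fermat.Agent.S35.H90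

open Fermat.Agent Fermat.Agent.S24 Fermat.Agent.S29
open Fermat.Agent.S24.H81 (Hol Mer)
open Fermat.Agent.S29.H25
open Fermat.Agent.S41.H85 (gl)
open Fermat.Agent.S41.H72 Fermat.Agent.S41.H65
open P2MW.S_ModularForm_heckeT_slash_eq_self_of_mem_Gamma0.ModularForm.HeckeSlashInvariance

/-! ### Norms along conjugate embeddings -/

section generic

variable {K F F' : Type*} [Field K] [Field F] [Field F'] [Algebra K F] [Algebra K F']

/-- If `ψ₂ = e ∘ ψ₁` for a ring automorphism `e` of `F'`, then `Nm_{ψ₂} (e x) = Nm_{ψ₁} x`. -/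
theorem normAlong_equiv (ψ₁ ψ₂ : F →ₐ[K] F') (e : F' ≃+* F') (he : ∀ a, e (ψ₁ a) = ψ₂ a)
    (x : F') : H65.normAlong ψ₂ (e x) = H65.normAlong ψ₁ x := by
  letI a1 : Algebra F F' := algebraAlong ψ₁
  letI a2 : Algebra F F' := algebraAlong ψ₂
  let e' : @AlgEquiv F F' F' _ _ _ a1 a2 :=
    @AlgEquiv.mk F F' F' _ _ _ a1 a2 e.toEquiv e.map_mul' e.map_add' (fun r => he r)
  exact @Algebra.norm_eq_of_algEquiv F F' F' _ _ a1 _ a2 e' x

end generic

variable {M q : ℕ} [NeZero M] [NeZero q]

/-! ### The embedding `x ↦ (θ x) ∘ W` -/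

/-- `x ↦ (thetaC x) ∘ W`. -/
def alEmb (D : ALData M q) : FC (M * q) →+* Mer :=
  (H65.actGL (alPos D (NeZero.ne q))).comp (thetaC (M * q))

theorem alEmb_apply (D : ALData M q) (x : FC (M * q)) :
    alEmb D x = H65.actGL (alPos D (NeZero.ne q)) (thetaC (M * q) x) := rfl

theorem alEmb_algebraMap (D : ALData M q) (c : ℂ) :
    alEmb D (algebraMap ℂ (FC (M * q)) c) = thetaC (M * q) (algebraMap ℂ (FC (M * q)) c) := by
  rw [alEmb_apply, thetaC_algebraMap, H65.actGL_algebraMap]
  rfl

theorem alEmb_gens (D : ALData M q) (hq : q.Prime) (x : FC (M * q))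
    (hx : x ∈ gensC (M * q)) : alEmb D x ∈ (thetaC (M * q)).fieldRange := by
  obtain ⟨d, hne, hd, rfl⟩ := hx
  by_cases hqd : q ∣ d
  · obtain ⟨d', rfl⟩ := hqd
    have hd' : d' ∣ M := by
      rw [mul_comm M q] at hd
      exact Nat.dvd_of_mul_dvd_mul_left hq.pos hd
    haveI : NeZero d' := ⟨fun h => by
      have := hne.out
      rw [h, mul_zero] at this
      exact this rfl⟩
    exact ⟨jdC (M * q) d' (hd'.trans (dvd_mul_right M q)),
      (actGL_alPos_thetaC_jdC' D d' hd').symm⟩
  · have hcop : Nat.Coprime d q := ((Nat.Prime.coprime_iff_not_dvd hq).mpr hqd).symm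
    have hd' : d ∣ M := hcop.dvd_of_dvd_mul_right hd
    haveI : NeZero (q * d) := ⟨mul_ne_zero (NeZero.ne q) hne.out⟩
    exact ⟨jdC (M * q) (q * d) (by rw [mul_comm M q]; exact mul_dvd_mul_left q hd'),
      (actGL_alPos_thetaC_jdC D d hd').symm⟩

/-- The subfield of `FC (M q)` of elements whose `W`-translate is again in the image of `thetaC`. -/
def alSub (D : ALData M q) : IntermediateField ℂ (FC (M * q)) :=
  Subfield.toIntermediateField ((thetaC (M * q)).fieldRange.comap (alEmb D)) (fun c => by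
    rw [Subfield.mem_comap, alEmb_algebraMap]
    exact ⟨_, rfl⟩)

theorem mem_alSub (D : ALData M q) (x : FC (M * q)) :
    x ∈ alSub D ↔ alEmb D x ∈ (thetaC (M * q)).fieldRange := Iff.rfl

theorem alSub_eq_top (D : ALData M q) (hq : q.Prime) : alSub D = ⊤ := by
  rw [eq_top_iff, ← adjoin_gensC_eq_top (M * q), IntermediateField.adjoin_le_iff]
  exact fun x hx => alEmb_gens D hq x hx

theorem exists_thetaC_eq_alEmb (D : ALData M q) (hq : q.Prime) (x : FC (M * q)) :
    ∃ y : FC (M * q), thetaC (M * q) y = alEmb D x := by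
  have hx : x ∈ alSub D := by rw [alSub_eq_top D hq]; exact IntermediateField.mem_top
  exact (mem_alSub D x).mp hx

/-! ### The Atkin–Lehner involution -/

/-- The underlying function of the Atkin–Lehner involution. -/
def alFunC (D : ALData M q) (hq : q.Prime) (x : FC (M * q)) : FC (M * q) :=
  Classical.choose (exists_thetaC_eq_alEmb D hq x)

theorem thetaC_alFunC (D : ALData M q) (hq : q.Prime) (x : FC (M * q)) :
    thetaC (M * q) (alFunC D hq x) = alEmb D x :=
  Classical.choose_spec (exists_thetaC_eq_alEmb D hq x)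

/-- The Atkin–Lehner endomorphism `w` of `FC (M q)`: `thetaC (w x) = (thetaC x) ∘ W`. -/
def alHomC (D : ALData M q) (hq : q.Prime) : FC (M * q) →ₐ[ℂ] FC (M * q) where
  toFun := alFunC D hq
  map_one' := thetaC_injective (M * q) (by
    rw [thetaC_alFunC, RingHom.map_one, RingHom.map_one])
  map_mul' x y := thetaC_injective (M * q) (by
    rw [thetaC_alFunC, RingHom.map_mul, RingHom.map_mul, thetaC_alFunC, thetaC_alFunC])
  map_zero' := thetaC_injective (M * q) (by
    rw [thetaC_alFunC, RingHom.map_zero, RingHom.map_zero])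
  map_add' x y := thetaC_injective (M * q) (by
    rw [thetaC_alFunC, RingHom.map_add, RingHom.map_add, thetaC_alFunC, thetaC_alFunC])
  commutes' c := thetaC_injective (M * q) (by rw [thetaC_alFunC, alEmb_algebraMap])

theorem thetaC_alHomC (D : ALData M q) (hq : q.Prime) (x : FC (M * q)) :
    thetaC (M * q) (alHomC D hq x)
      = H65.actGL (alPos D (NeZero.ne q)) (thetaC (M * q) x) :=
  thetaC_alFunC D hq x

/-- `w ∘ w = id`. -/
theorem alHomC_alHomC (D : ALData M q) (hq : q.Prime) (x : FC (M * q)) :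
    alHomC D hq (alHomC D hq x) = x := by
  apply thetaC_injective (M * q)
  rw [thetaC_alHomC, thetaC_alHomC, ← H65.actGL_mul, alPos_mul_alPos, H65.actGL_mul,
    actGL_scalarPos, H65.actGL_glp_thetaC]

/-- **The Atkin–Lehner involution of the function field of `X₀(M q)`.** -/
def alEquiv (D : ALData M q) (hq : q.Prime) : FC (M * q) ≃ₐ[ℂ] FC (M * q) :=
  AlgEquiv.ofAlgHom (alHomC D hq) (alHomC D hq)
    (AlgHom.ext fun x => alHomC_alHomC D hq x) (AlgHom.ext fun x => alHomC_alHomC D hq x)

@[simp] theorem alEquiv_apply (D : ALData M q) (hq : q.Prime) (x : FC (M * q)) :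
    alEquiv D hq x = alHomC D hq x := rfl

/-- **`β = w ∘ α`.** -/
theorem beta_eq_al_alpha (D : ALData M q) (hq : q.Prime) (f : FC M) :
    alHomC D hq (heckeAlphaBar ℂ M q f) = heckeBetaBar ℂ M q f := by
  apply thetaC_injective (M * q)
  rw [thetaC_alHomC, H90.thetaC_alpha, H47.thetaC_heckeBetaBar, H90.scaleMer_eq_actGL,
    alPos_eq_r0_mul, H65.actGL_mul, H65.actGL_glp_thetaC]

/-- `Nm_β x = Nm_α (w x)`. -/
theorem normAlong_beta (D : ALData M q) (hq : q.Prime) (x : FC (M * q)) :
    H65.normAlong (heckeBetaBar ℂ M q) x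
      = H65.normAlong (heckeAlphaBar ℂ M q) (alHomC D hq x) := by
  have h := normAlong_equiv (heckeAlphaBar ℂ M q) (heckeBetaBar ℂ M q)
    (alEquiv D hq).toRingEquiv (fun a => beta_eq_al_alpha D hq a) (alHomC D hq x)
  rw [← h]
  congr 1
  exact (alHomC_alHomC D hq x).symm

/-- **NORM-AN for `β`**: `thetaC M (Nm_β x) = ∏ i, (thetaC (M q) x) ∘ (W · r i)` for any system `r`
of representatives of `Γ₀(M q) \ Γ₀(M)`. -/
theorem thetaC_normAlong_beta_eq_prod (D : ALData M q) (hq : q.Prime)
    {Q : Type*} [Fintype Q] {r : Q → Gamma0 M}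
    (h : H65.IsRepSystem (gl (M * q)) (gl M) r) (x : FC (M * q)) :
    thetaC M (H65.normAlong (heckeBetaBar ℂ M q) x)
      = ∏ i, H65.actGL (alPos D (NeZero.ne q) * H65.glp M (r i)) (thetaC (M * q) x) := by
  rw [normAlong_beta D hq]
  have key := H90.thetaC_normAlong_eq_prod_of_isRepSystem h (alHomC D hq x)
  refine key.trans (Finset.prod_congr rfl fun i _ => ?_)
  rw [thetaC_alHomC, H65.actGL_mul, H65.actGL_glp]

end Fermat.Agent.S35.H90
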