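import Mathlib
import Fermat.Prelude.Def_AlgebraicCurve_Correspondence
import Fermat.Agent.S29.H88_KummerGlue
import Fermat.Agent.S29.H65_HeckeEquivAbs

/-!
# S35 / row N3a (helper90): NORM-EQUIV, abstract two-setup form

Two Kummer setups (helper88's `KummerSetup`): `hS'` on `(F', M', Γ')` ("level `N = qM`") and
`hS` on `(F, M, Γ)` ("level `M`"), and a degeneracy map `ψ : F →ₐ[K] F'` (`heckeAlphaBar` or
`heckeBetaBar` of level `M` at the prime `q`).  Given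

* `TM : M'ˣ →* Mˣ`  (in the application `Φ ↦ ∏_i Φ ∘ r_i`, `r_i` representatives of `Γ' \ Γ`),
* `TX : (Γ' →* Kˣ) → (Γ →* Kˣ)`  (the transfer `Ver`),

with `TM Adm' ⊆ Adm`, `TX X' ⊆ X`, automorphy `IsAut act' χ Φ → IsAut act (TX χ) (TM Φ)` and the
analytic norm formula `Θ (Nm_ψ f) = TM Φ` whenever `Θ' f = Φ`, we get

  `lam (TX χ) = ψ_* (lam' χ)`     (`pic0Push ψ .. : Pic0 K F' →+ Pic0 K F`).

Same proof pattern as `H65.lam_correspondence`.
-/

set_option autoImplicit false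

noncomputable section

open AlgebraicCurve

namespace Fermat.Agent.S35.H90

open Fermat.Agent.S29 Fermat.Agent.S29.H88

section Push

variable {K F F' : Type*} [Field K] [Field F] [Field F'] [Algebra K F] [Algebra K F']
variable (ψ : F →ₐ[K] F') (hψ : ψ.toRingHom.IsIntegral)
variable (hfin : FiniteAlong K ψ) (hN : NormFormulaAlong K ψ hfin)

/-- The pushforward on degree-zero divisors. -/
def degZeroPush :
    Divisor.degZero (K := K) (F := F') →+ Divisor.degZero (K := K) (F := F) :=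
  ((Divisor.pushforwardAlong ψ hψ).domRestrict
    (Divisor.degZero (K := K) (F := F'))).codRestrict _
    (fun D => Divisor.pushforwardAlong_mem_degZero ψ hψ D.2)

@[simp]
theorem coe_degZeroPush (D : Divisor.degZero (K := K) (F := F')) :
    (degZeroPush ψ hψ D : Divisor K F) = Divisor.pushforwardAlong ψ hψ (D : Divisor K F') :=
  rfl

/-- **The pushforward `ψ_* : Pic⁰(F') → Pic⁰(F)`** along `ψ : F → F'`. -/
def pic0Push : Pic0 K F' →+ Pic0 K F :=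
  QuotientAddGroup.map _ _ (degZeroPush ψ hψ) (by
    rintro ⟨D, hD0⟩ hD
    simp only [AddSubgroup.mem_addSubgroupOf] at hD ⊢
    exact Divisor.isPrincipal_pushforwardAlong ψ hψ hfin hN hD)

theorem pic0Push_mk (D : Divisor.degZero (K := K) (F := F')) :
    pic0Push ψ hψ hfin hN (Pic0.mk D) = Pic0.mk (degZeroPush ψ hψ D) :=
  rfl

/-- `p • D' = div f'` pushes forward to `p • ψ_* D' = div (Nm_ψ f')`. -/
theorem mul_pushforwardAlong_apply_eq_ord (hfin : FiniteAlong K ψ)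
    (hN : NormFormulaAlong K ψ hfin) {f : F'} (hf : f ≠ 0) {p : ℤ} {D : Divisor K F'}
    (hD : ∀ w : Place K F', p * D w = w.ord f) (v : Place K F) :
    p * Divisor.pushforwardAlong ψ hψ D v = v.ord (H65.normAlong ψ f) := by
  have h := H65.pushforwardAlong_apply_eq_ord ψ hψ hfin hN hf (D := p • D)
    (fun w => by rw [Finsupp.smul_apply, smul_eq_mul, hD w]) v
  rw [map_zsmul, Finsupp.smul_apply, smul_eq_mul] at h
  exact h

end Push

section main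

variable {K F F' M M' Γ Γ' : Type*} [Field K] [Field F] [Field F'] [Algebra K F] [Algebra K F']
  [CommRing M] [IsDomain M] [Algebra K M] [Group Γ]
  [CommRing M'] [IsDomain M'] [Algebra K M'] [Group Γ']
  {p : ℕ} {Θ : F →ₐ[K] M} {act : Γ → M →ₐ[K] M} {Adm : Subgroup Mˣ}
  {X : Subgroup (Γ →* Kˣ)}
  {Θ' : F' →ₐ[K] M'} {act' : Γ' → M' →ₐ[K] M'} {Adm' : Subgroup M'ˣ}
  {X' : Subgroup (Γ' →* Kˣ)}

/-- **NORM-EQUIV, abstract form**: `lam (TX χ) = ψ_* (lam' χ)`. -/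
theorem lam_push (hS : KummerSetup p Θ act Adm X) (hS' : KummerSetup p Θ' act' Adm' X')
    (hp : 0 < p) (ψ : F →ₐ[K] F') (hψ : ψ.toRingHom.IsIntegral)
    (hfin : FiniteAlong K ψ) (hN : NormFormulaAlong K ψ hfin)
    (TM : M'ˣ →* Mˣ) (TX : (Γ' →* Kˣ) → (Γ →* Kˣ))
    (hAdm : ∀ Φ ∈ Adm', TM Φ ∈ Adm)
    (hX : ∀ χ ∈ X', TX χ ∈ X)
    (haut : ∀ χ ∈ X', ∀ Φ ∈ Adm', IsAut act' χ (Φ : M') →
      IsAut act (TX χ) ((TM Φ : Mˣ) : M))
    (hnorm : ∀ (f : F') (Φ : M'ˣ), Θ' f = (Φ : M') →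
      Θ (H65.normAlong ψ f) = ((TM Φ : Mˣ) : M))
    {χ : Γ' →* Kˣ} (hχ : χ ∈ X') :
    hS.lam hp (Additive.ofMul ⟨TX χ, hX χ hχ⟩)
      = pic0Push ψ hψ hfin hN (hS'.lam hp (Additive.ofMul ⟨χ, hχ⟩)) := by
  obtain ⟨Φ, hΦ, hΦaut, f, hf, D, hD, hDv, hc⟩ := hS'.rel_lam hp (Additive.ofMul ⟨χ, hχ⟩)
  have hχ' : ((Additive.toMul (Additive.ofMul (⟨χ, hχ⟩ : X')) : X') : Γ' →* Kˣ) = χ := rfl
  rw [hχ'] at hΦaut
  rw [hc]
  have hf0 : f ≠ 0 :=
    ne_zero_of_theta_eq_unit Θ' ((Φ ^ p).isUnit) (by rw [hf, Units.val_pow_eq_pow_val])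
  have hf' : Θ (H65.normAlong ψ f) = ((TM Φ : Mˣ) : M) ^ p := by
    rw [hnorm f (Φ ^ p) (by rw [hf, Units.val_pow_eq_pow_val]), map_pow,
      Units.val_pow_eq_pow_val]
  have hD' : Divisor.degree (Divisor.pushforwardAlong ψ hψ D) = 0 := by
    rw [Divisor.degree_pushforwardAlong, hD]
  have hDv' : ∀ v : Place K F,
      (p : ℤ) * Divisor.pushforwardAlong ψ hψ D v = v.ord (H65.normAlong ψ f) :=
    fun v => mul_pushforwardAlong_apply_eq_ord ψ hψ hfin hN hf0 hDv v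
  rw [hS.lam_eq_mk hp (hX χ hχ) (hAdm Φ hΦ) (haut χ hχ Φ hΦ hΦaut) hf' hD' hDv']
  rw [pic0Push_mk]
  rfl

end main

end Fermat.Agent.S35.H90
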