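import Mathlib
import Fermat.Agent.S35.H90_NormEquivAbs
import Fermat.Agent.S29.H85_KummerPoincare
import Fermat.Agent.S41.H85_DegPar

/-!
# S35 / row N3b (helper90): NORM-EQUIV for `α = heckeAlphaBar ℂ M q : F_M → F_{Mq}`

Levels `M` and `M q` (`q ≥ 1` arbitrary in the general statements).  With the unconditional
concrete Kummer setups `H85.kummerSetupFinal` at both levels and

* `pushC ψ : Pic0 ℂ (FC M') →+ Pic0 ℂ (FC M)` the `Pic⁰`-pushforward along ANY `ℂ`-embedding
  `ψ : FC M →ₐ[ℂ] FC M'` of modular function fields (`isIntegral_FC`, `finiteAlong_FC`,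
  `normFormulaAlong_FC` discharge the side conditions), `alphaPush M q := pushC (heckeAlphaBar ℂ M q)`,
  `betaPush M q := pushC (heckeBetaBar ℂ M q)`;
* `Ver := (H65.repDatum h).opPar ℤ ℤ : Lat (M q) →ₗ[ℤ] Lat M` the transfer, for ANY system `r` of
  representatives of `Γ₀(M q) \ Γ₀(M)`,

we prove

  `lam_M (ζ_n ^ Ver x) = α_* (lam_{Mq} (ζ_n ^ x))`          (`lam_opPar_repDatum`)

and, for `q` prime, `q ∤ M`, the same with S41's `corPar D hq hqM hM` (`lam_corPar`), and the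
`lamW`-forms (`lamW_wPar_corPar`).
-/

set_option autoImplicit false
set_option linter.unusedSectionVars false
set_option linter.style.haveILetI false

open UpperHalfPlane AlgebraicCurve ModularCurve CongruenceSubgroup
open scoped MatrixGroups Manifold

noncomputable section

namespace Fermat.Agent.S35.H90

open Fermat.Agent Fermat.Agent.S24 Fermat.Agent.S24.H81 Fermat.Agent.S29
open Fermat.Agent.S41.H85 (gl CosetDatum Lat corPar)
open Fermat.Agent.S29.H85 (kummerSetupFinal chiLat charX admUnits thetaAlg actAlg)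
open ModularCurve.Period
open P2MW.S_ModularForm_heckeT_slash_eq_self_of_mem_Gamma0.ModularForm.HeckeSlashInvariance

attribute [local instance] H85.merAlgebra

/-! ### Side conditions for arbitrary embeddings of the complex modular function fields -/

section inputs

variable {M M' : ℕ} [NeZero M] [NeZero M'] (ψ : H25.FC M →ₐ[ℂ] H25.FC M')

theorem finiteAlong_FC : FiniteAlong ℂ ψ :=
  S37.H8.finiteAlong_of_transcendental (K := ℂ) (S37.H8.jL ℂ M) (S37.H8.jL ℂ M')
    (S37.H8.transcendental_jL ℂ M) (S37.H8.transcendental_jL ℂ M') ψ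

theorem isIntegral_FC : ψ.toRingHom.IsIntegral :=
  S37.H8.isIntegral_of_finiteAlong ψ (finiteAlong_FC ψ)

theorem normFormulaAlong_FC : NormFormulaAlong ℂ ψ (finiteAlong_FC ψ) :=
  S37.H8.normFormulaAlong_of_transcendental (K := ℂ) (S37.H8.jL ℂ M) (S37.H8.jL ℂ M')
    (S37.H8.transcendental_jL ℂ M) (S37.H8.transcendental_jL ℂ M') ψ (finiteAlong_FC ψ)

/-- The `Pic⁰`-pushforward along an embedding of complex modular function fields. -/
def pushC : Pic0 ℂ (H25.FC M') →+ Pic0 ℂ (H25.FC M) :=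
  pic0Push ψ (isIntegral_FC ψ) (finiteAlong_FC ψ) (normFormulaAlong_FC ψ)

end inputs

/-- `α_* : Pic⁰(X₀(M q)) → Pic⁰(X₀(M))`. -/
def alphaPush (M q : ℕ) [NeZero M] [NeZero q] : Pic0 ℂ (H25.FC (M * q)) →+ Pic0 ℂ (H25.FC M) :=
  pushC (heckeAlphaBar ℂ M q)

/-- `β_* : Pic⁰(X₀(M q)) → Pic⁰(X₀(M))`. -/
def betaPush (M q : ℕ) [NeZero M] [NeZero q] : Pic0 ℂ (H25.FC (M * q)) →+ Pic0 ℂ (H25.FC M) :=
  pushC (heckeBetaBar ℂ M q)

/-! ### The transfer datum in `GL(2,ℝ)⁺` -/

section datum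

variable {M q : ℕ} {Q : Type*} {r : Q → Gamma0 M}

/-- The coset datum of a system of representatives of `Γ₀(M q) \ Γ₀(M)`, inside `GL(2,ℝ)⁺`. -/
def verPos (h : H65.IsRepSystem (gl (M * q)) (gl M) r) :
    CosetDatum (H65.glp (M * q)) (H65.glp M) Q :=
  H65.posDatum (H65.repDatum h) (fun i => H65.gl_mem_glPos M (r i))

theorem verPos_α (h : H65.IsRepSystem (gl (M * q)) (gl M) r) (i : Q) :
    (verPos h).α i = H65.glp M (r i) :=
  Subtype.ext rfl

theorem verPos_op [Fintype Q] (h : H65.IsRepSystem (gl (M * q)) (gl M) r) (A : Type*)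
    [AddCommGroup A] :
    ((verPos h).op : (Additive (Gamma0 (M * q)) →+ A) →+ _) = (H65.repDatum h).op :=
  rfl

end datum

/-! ### The main theorem -/

section main

open H88 H65.CosetDatumMul

variable (M q : ℕ) [NeZero M] [NeZero q]

/-- **NORM-EQUIV for `α`, character form**: for every Kummer character `χ` of level `M q`,
`lam_M (Ver χ) = α_* (lam_{Mq} χ)`, `Ver = opMul (verPos h)` the multiplicative transfer. -/
theorem lam_opMul_verPos {n : ℕ} (hn : 0 < n) {Q : Type*} [Fintype Q] {r : Q → Gamma0 M}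
    (h : H65.IsRepSystem (gl (M * q)) (gl M) r) {χ : Gamma0 (M * q) →* ℂˣ}
    (hχ : χ ∈ charX (Gamma0 (M * q)) n)
    (hχ' : opMul (verPos h) χ ∈ charX (Gamma0 M) n) :
    (kummerSetupFinal M hn).lam hn (Additive.ofMul ⟨opMul (verPos h) χ, hχ'⟩)
      = alphaPush M q ((kummerSetupFinal (M * q) hn).lam hn (Additive.ofMul ⟨χ, hχ⟩)) := by
  have hX : ∀ χ ∈ charX (Gamma0 (M * q)) n, opMul (verPos h) χ ∈ charX (Gamma0 M) n := by
    rintro _ ⟨x, rfl⟩
    rw [H85.opMul_expChar]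
    exact ⟨⟨_, Fermat.Agent.S41.H85.op_mem_parabolicHoms (H65.repDatum h) ℤ x.2⟩, rfl⟩
  exact lam_push (kummerSetupFinal M hn) (kummerSetupFinal (M * q) hn) hn (heckeAlphaBar ℂ M q)
    (isIntegral_FC _) (finiteAlong_FC _) (normFormulaAlong_FC _)
    (H65.heckeMer (verPos h)) (opMul (verPos h))
    (fun Φ hΦ => H72.heckeMer_mem_admUnits (verPos h)
      (fun i => by rw [verPos_α]; exact H72.glp_mem_cuspStab M (r i)) hΦ)
    hX
    (fun χ _ Φ _ haut =>
      (H65.isAut_iff (fun c => rfl) (H85.actAlg_eq_actGL M) _ _).mpr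
        (H65.IsAut.heckeMer (verPos h)
          ((H65.isAut_iff (fun c => rfl) (H85.actAlg_eq_actGL (M * q)) χ Φ).mp haut)))
    (fun f Φ hΦ => by
      rw [H65.heckeMer_val, ← hΦ]
      have key := H90.thetaC_normAlong_eq_prod_of_isRepSystem h f
      refine key.trans (Finset.prod_congr rfl fun i _ => ?_)
      rw [verPos_α, H65.actGL_glp]
      rfl)
    hχ

/-- **NORM-EQUIV for `α`, lattice form**: `lam_M (ζ_n ^ Ver x) = α_* (lam_{Mq} (ζ_n ^ x))` with
`Ver = (H65.repDatum h).opPar ℤ ℤ` the transfer of ANY system of representatives of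
`Γ₀(M q) \ Γ₀(M)`. -/
theorem lam_opPar_repDatum {n : ℕ} (hn : 0 < n) {Q : Type*} [Fintype Q] {r : Q → Gamma0 M}
    (h : H65.IsRepSystem (gl (M * q)) (gl M) r) (x : Lat (M * q)) :
    (kummerSetupFinal M hn).lam hn (chiLat (Gamma0 M) n ((H65.repDatum h).opPar ℤ ℤ x))
      = alphaPush M q ((kummerSetupFinal (M * q) hn).lam hn (chiLat (Gamma0 (M * q)) n x)) := by
  have hχ : H85.expChar (H85.zetaC n) (x : Additive (Gamma0 (M * q)) →+ ℤ)
      ∈ charX (Gamma0 (M * q)) n := H85.expChar_mem_charX x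
  have hχ' : opMul (verPos h) (H85.expChar (H85.zetaC n) (x : Additive (Gamma0 (M * q)) →+ ℤ))
      ∈ charX (Gamma0 M) n := by
    rw [H85.opMul_expChar]
    exact H85.expChar_mem_charX ((H65.repDatum h).opPar ℤ ℤ x)
  have key := lam_opMul_verPos M q hn h hχ hχ'
  have e1 : chiLat (Gamma0 (M * q)) n x = Additive.ofMul ⟨_, hχ⟩ := rfl
  have e2 : chiLat (Gamma0 M) n ((H65.repDatum h).opPar ℤ ℤ x) = Additive.ofMul ⟨_, hχ'⟩ := by
    apply Additive.toMul.injective
    apply Subtype.ext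
    show H85.expChar (H85.zetaC n) _ = opMul (verPos h) _
    rw [H85.opMul_expChar]
    rfl
  rw [e1, e2]
  exact key

end main

/-! ### The S41 vocabulary: `corPar` (`q` prime, `q ∤ M`) -/

section cor

open Fermat.Agent.S41.H65 Fermat.Agent.S41.H72

variable {M q : ℕ} [NeZero M]

/-- The representatives `1, r_j` of S41 form a system of representatives. -/
theorem isRepSystem_corRep (D : ALData M q) (hq : q.Prime) (hqM : ¬ q ∣ M) :
    H65.IsRepSystem (gl (M * q)) (gl M) (corRep D) :=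
  haveI : NeZero q := ⟨hq.ne_zero⟩
  H65.isRepSystem_of_datum (corDatum D hq hqM (NeZero.ne M))
    (corDatum_isReduced D hq hqM (NeZero.ne M)) (corRep D) (fun _ => rfl) OnePoint.infty
    (corRep_infty D)

theorem corPar_eq_opPar_repDatum (D : ALData M q) (hq : q.Prime) (hqM : ¬ q ∣ M)
    {Q : Type*} [Fintype Q] {r : Q → Gamma0 M}
    (h : H65.IsRepSystem (gl (M * q)) (gl M) r) (x : Lat (M * q)) :
    corPar D hq hqM (NeZero.ne M) x = (H65.repDatum h).opPar ℤ ℤ x := by
  haveI : NeZero q := ⟨hq.ne_zero⟩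
  apply Subtype.ext
  have e := H65.op_eq_repDatum_op (A := ℤ) (corDatum D hq hqM (NeZero.ne M))
    (corDatum_isReduced D hq hqM (NeZero.ne M)) (corRep D) (fun _ => rfl) OnePoint.infty
    (corRep_infty D) h
  show (corDatum D hq hqM (NeZero.ne M)).op x.1 = (H65.repDatum h).op x.1
  rw [e]

/-- **NORM-EQUIV for `α` in the S41 vocabulary**:
`lam_M (ζ_n ^ corPar x) = α_* (lam_{Mq} (ζ_n ^ x))`. -/
theorem lam_corPar (D : ALData M q) (hq : q.Prime) (hqM : ¬ q ∣ M) {n : ℕ} (hn : 0 < n)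
    (x : Lat (M * q)) :
    haveI : NeZero q := ⟨hq.ne_zero⟩
    (kummerSetupFinal M hn).lam hn (chiLat (Gamma0 M) n (corPar D hq hqM (NeZero.ne M) x))
      = alphaPush M q ((kummerSetupFinal (M * q) hn).lam hn (chiLat (Gamma0 (M * q)) n x)) := by
  haveI : NeZero q := ⟨hq.ne_zero⟩
  letI : Fintype (OnePoint (ZMod q)) := inferInstance
  rw [corPar_eq_opPar_repDatum D hq hqM (isRepSystem_corRep D hq hqM)]
  exact lam_opPar_repDatum M q hn (isRepSystem_corRep D hq hqM) x

/-- `Ver_A := w_M ∘ cor ∘ w_{Mq}`, the transfer in the `lamW`-normalisation. -/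
def verA (D : ALData M q) (hq : q.Prime) (hqM : ¬ q ∣ M) :
    haveI : NeZero q := ⟨hq.ne_zero⟩
    Lat (M * q) →+ Lat M :=
  haveI : NeZero q := ⟨hq.ne_zero⟩
  (H65.wPar (NeZero.ne M)).comp
    ((corPar D hq hqM (NeZero.ne M)).toAddMonoidHom.comp (H65.wPar (NeZero.ne (M * q))))

/-- **NORM-EQUIV for `α`, `lamW`-form**: `lamW_M (Ver_A x) = α_* (lamW_{Mq} x)`. -/
theorem lamW_verA (D : ALData M q) (hq : q.Prime) (hqM : ¬ q ∣ M) {n : ℕ} (hn : 0 < n)
    (x : Lat (M * q)) :
    haveI : NeZero q := ⟨hq.ne_zero⟩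
    H65.lamW (kummerSetupFinal M hn) hn (verA D hq hqM x)
      = alphaPush M q (H65.lamW (kummerSetupFinal (M * q) hn) hn x) := by
  haveI : NeZero q := ⟨hq.ne_zero⟩
  rw [H65.lamW_apply, H65.lamW_apply]
  show (kummerSetupFinal M hn).lam hn (chiLat (Gamma0 M) n (H65.wPar (NeZero.ne M)
    (H65.wPar (NeZero.ne M) (corPar D hq hqM (NeZero.ne M)
      (H65.wPar (NeZero.ne (M * q)) x))))) = _
  rw [H65.wPar_wPar]
  exact lam_corPar D hq hqM hn _

end cor

end Fermat.Agent.S35.H90
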