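import Mathlib
import Fermat.Agent.S35.H90_NormEquivAlpha

/-!
# S35 / rows N2–N3 glue (helper90): the two transfers `Ver_A`, `Ver_B` in the `lamW`-normalisation

`verA = w_M ∘ cor ∘ w_{Mq}` (defined in `H90_NormEquivAlpha`), `verB = w_M ∘ corc ∘ w_{Mq}`
(`cor`, `corc` = S41 `corPar`, `corcPar`; `w` = `H65.wPar`, the Atkin–Lehner/Fricke twist of the
`lamW`-normalisation of `H85.kummerPoincare`).  These are THE maps carried by the analytic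
NORM-EQUIV statements `lamW_verA` / `lamW_verB`:

  `lamW_M (verA x) = α_* (lamW_{Mq} x)`,   `lamW_M (verB x) = β_* (lamW_{Mq} x)`.

Here: kernels (`verA x = 0 ↔ corPar (w x) = 0`) and commutation with `T_ℓ`, `ℓ ∤ M q`, in the
`heckeTPar` and `H80.cohT` vocabularies.
-/

set_option autoImplicit false
set_option linter.unusedSectionVars false
set_option linter.style.haveILetI false

open CongruenceSubgroup ModularCurve ModularCurve.Period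
open scoped MatrixGroups

noncomputable section

namespace Fermat.Agent.S35.H90

open Fermat.Agent Fermat.Agent.S29
open Fermat.Agent.S41.H85 (Lat corPar corcPar heckeTPar degBetaPar)
open Fermat.Agent.S41.H65 Fermat.Agent.S41.H72

section w

variable {N : ℕ}

/-- `w_N` commutes with `T_ℓ`, `ℓ ∤ N`, on the lattice. -/
theorem wPar_heckeTPar (hN : N ≠ 0) {ℓ : ℕ} (hℓ : ℓ.Prime) (hℓN : ¬ ℓ ∣ N) (x : Lat N) :
    H65.wPar hN (heckeTPar ℤ ℤ hℓ hℓN x) = heckeTPar ℤ ℤ hℓ hℓN (H65.wPar hN x) := by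
  apply Subtype.ext
  rw [H65.coe_wPar, S41.H85.coe_heckeTPar_apply, S41.H85.coe_heckeTPar_apply, H65.coe_wPar]
  exact H65.wOp_heckeTHom hN hℓ hℓN _

theorem wPar_injective (hN : N ≠ 0) : Function.Injective (H65.wPar hN) := fun x y h => by
  rw [← H65.wPar_wPar hN x, h, H65.wPar_wPar]

end w

variable {M q : ℕ} [NeZero M]

/-- `Ver_B := w_M ∘ corc ∘ w_{Mq}`, the `diag(q,1)`-twisted transfer in the `lamW`-normalisation. -/
def verB (D : ALData M q) (hq : q.Prime) (hqM : ¬ q ∣ M) :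
    haveI : NeZero q := ⟨hq.ne_zero⟩
    Lat (M * q) →+ Lat M :=
  haveI : NeZero q := ⟨hq.ne_zero⟩
  (H65.wPar (NeZero.ne M)).comp
    ((corcPar D hq hqM (NeZero.ne M)).toAddMonoidHom.comp (H65.wPar (NeZero.ne (M * q))))

theorem verA_apply (D : ALData M q) (hq : q.Prime) (hqM : ¬ q ∣ M) (x : Lat (M * q)) :
    haveI : NeZero q := ⟨hq.ne_zero⟩
    verA D hq hqM x = H65.wPar (NeZero.ne M)
      (corPar D hq hqM (NeZero.ne M) (H65.wPar (NeZero.ne (M * q)) x)) := rfl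

theorem verB_apply (D : ALData M q) (hq : q.Prime) (hqM : ¬ q ∣ M) (x : Lat (M * q)) :
    haveI : NeZero q := ⟨hq.ne_zero⟩
    verB D hq hqM x = H65.wPar (NeZero.ne M)
      (corcPar D hq hqM (NeZero.ne M) (H65.wPar (NeZero.ne (M * q)) x)) := rfl

theorem verA_eq_zero_iff (D : ALData M q) (hq : q.Prime) (hqM : ¬ q ∣ M) (x : Lat (M * q)) :
    haveI : NeZero q := ⟨hq.ne_zero⟩
    verA D hq hqM x = 0 ↔
      corPar D hq hqM (NeZero.ne M) (H65.wPar (NeZero.ne (M * q)) x) = 0 := by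
  haveI : NeZero q := ⟨hq.ne_zero⟩
  rw [verA_apply]
  constructor
  · intro h
    exact wPar_injective (NeZero.ne M) (h.trans (map_zero _).symm)
  · intro h
    rw [h, map_zero]

theorem verB_eq_zero_iff (D : ALData M q) (hq : q.Prime) (hqM : ¬ q ∣ M) (x : Lat (M * q)) :
    haveI : NeZero q := ⟨hq.ne_zero⟩
    verB D hq hqM x = 0 ↔
      corcPar D hq hqM (NeZero.ne M) (H65.wPar (NeZero.ne (M * q)) x) = 0 := by
  haveI : NeZero q := ⟨hq.ne_zero⟩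
  rw [verB_apply]
  constructor
  · intro h
    exact wPar_injective (NeZero.ne M) (h.trans (map_zero _).symm)
  · intro h
    rw [h, map_zero]

/-- `cor` commutes with `T_ℓ`, `ℓ ∤ M q`. -/
theorem corPar_heckeTPar (D : ALData M q) (hq : q.Prime) (hqM : ¬ q ∣ M) {ℓ : ℕ} (hℓ : ℓ.Prime)
    (hℓM : ¬ ℓ ∣ M * q) (y : Lat (M * q)) :
    corPar D hq hqM (NeZero.ne M) (heckeTPar ℤ ℤ hℓ hℓM y)
      = heckeTPar ℤ ℤ hℓ (not_dvd_left_of_not_dvd_mul hℓM) (corPar D hq hqM (NeZero.ne M) y) := by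
  have h := S41.H85.heckeTPar_degBetaPar D hq hqM (NeZero.ne M) hℓ hℓM y
  rw [S41.H85.degBetaPar_apply, S41.H85.degBetaPar_apply] at h
  exact (Prod.ext_iff.mp h).1

/-- `corc` commutes with `T_ℓ`, `ℓ ∤ M q`. -/
theorem corcPar_heckeTPar (D : ALData M q) (hq : q.Prime) (hqM : ¬ q ∣ M) {ℓ : ℕ} (hℓ : ℓ.Prime)
    (hℓM : ¬ ℓ ∣ M * q) (y : Lat (M * q)) :
    corcPar D hq hqM (NeZero.ne M) (heckeTPar ℤ ℤ hℓ hℓM y)
      = heckeTPar ℤ ℤ hℓ (not_dvd_left_of_not_dvd_mul hℓM) (corcPar D hq hqM (NeZero.ne M) y) := by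
  have h := S41.H85.heckeTPar_degBetaPar D hq hqM (NeZero.ne M) hℓ hℓM y
  rw [S41.H85.degBetaPar_apply, S41.H85.degBetaPar_apply] at h
  exact (Prod.ext_iff.mp h).2

/-- **`Ver_A ∘ T_ℓ = T_ℓ ∘ Ver_A`**, `ℓ ∤ M q`. -/
theorem verA_heckeTPar (D : ALData M q) (hq : q.Prime) (hqM : ¬ q ∣ M) {ℓ : ℕ} (hℓ : ℓ.Prime)
    (hℓM : ¬ ℓ ∣ M * q) (x : Lat (M * q)) :
    haveI : NeZero q := ⟨hq.ne_zero⟩
    verA D hq hqM (heckeTPar ℤ ℤ hℓ hℓM x)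
      = heckeTPar ℤ ℤ hℓ (not_dvd_left_of_not_dvd_mul hℓM) (verA D hq hqM x) := by
  haveI : NeZero q := ⟨hq.ne_zero⟩
  rw [verA_apply, verA_apply, wPar_heckeTPar, corPar_heckeTPar, wPar_heckeTPar]

/-- **`Ver_B ∘ T_ℓ = T_ℓ ∘ Ver_B`**, `ℓ ∤ M q`. -/
theorem verB_heckeTPar (D : ALData M q) (hq : q.Prime) (hqM : ¬ q ∣ M) {ℓ : ℕ} (hℓ : ℓ.Prime)
    (hℓM : ¬ ℓ ∣ M * q) (x : Lat (M * q)) :
    haveI : NeZero q := ⟨hq.ne_zero⟩
    verB D hq hqM (heckeTPar ℤ ℤ hℓ hℓM x)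
      = heckeTPar ℤ ℤ hℓ (not_dvd_left_of_not_dvd_mul hℓM) (verB D hq hqM x) := by
  haveI : NeZero q := ⟨hq.ne_zero⟩
  rw [verB_apply, verB_apply, wPar_heckeTPar, corcPar_heckeTPar, wPar_heckeTPar]

/-- `H80.cohT` at a prime not dividing the level is `heckeTPar`. -/
theorem cohT_of_not_dvd {N : ℕ} (ℓ : Nat.Primes) (h : ¬ (ℓ : ℕ) ∣ N) :
    H80.cohT N ℓ = heckeTPar ℤ ℤ ℓ.2 h := by
  rw [H80.cohT, dif_neg h]

/-- `Ver_A ∘ cohT_ℓ = cohT_ℓ ∘ Ver_A`, `ℓ ∤ M q`. -/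
theorem verA_cohT (D : ALData M q) (hq : q.Prime) (hqM : ¬ q ∣ M) (ℓ : Nat.Primes)
    (hℓM : ¬ (ℓ : ℕ) ∣ M * q) (x : Lat (M * q)) :
    haveI : NeZero q := ⟨hq.ne_zero⟩
    verA D hq hqM (H80.cohT (M * q) ℓ x) = H80.cohT M ℓ (verA D hq hqM x) := by
  haveI : NeZero q := ⟨hq.ne_zero⟩
  rw [cohT_of_not_dvd ℓ hℓM, cohT_of_not_dvd ℓ (not_dvd_left_of_not_dvd_mul hℓM)]
  exact verA_heckeTPar D hq hqM ℓ.2 hℓM x

/-- `Ver_B ∘ cohT_ℓ = cohT_ℓ ∘ Ver_B`, `ℓ ∤ M q`. -/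
theorem verB_cohT (D : ALData M q) (hq : q.Prime) (hqM : ¬ q ∣ M) (ℓ : Nat.Primes)
    (hℓM : ¬ (ℓ : ℕ) ∣ M * q) (x : Lat (M * q)) :
    haveI : NeZero q := ⟨hq.ne_zero⟩
    verB D hq hqM (H80.cohT (M * q) ℓ x) = H80.cohT M ℓ (verB D hq hqM x) := by
  haveI : NeZero q := ⟨hq.ne_zero⟩
  rw [cohT_of_not_dvd ℓ hℓM, cohT_of_not_dvd ℓ (not_dvd_left_of_not_dvd_mul hℓM)]
  exact verB_heckeTPar D hq hqM ℓ.2 hℓM x

end Fermat.Agent.S35.H90
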