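import Mathlib
import Fermat.Agent.S35.H90_ALField
import Fermat.Agent.S35.H90_VerAB

/-!
# S35 / row N3c (helper90): NORM-EQUIV for `β = heckeBetaBar ℂ M q : F_M → F_{Mq}`

`q` prime, `q ∤ M`, `D : ALData M q`.  With the coset datum `corcDatum D hq hqM hM` of S41
(cosets `Γ₀(M q) W r_j`, operator `corc = cor ∘ AL`) and the analytic norm formula along `β`
(`thetaC_normAlong_beta_eq_prod`, via the Atkin–Lehner involution of the function field) we get

  `lam_M (ζ_n ^ corcPar x) = β_* (lam_{Mq} (ζ_n ^ x))`       (`lam_corcPar`)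
  `lamW_M (verB x) = β_* (lamW_{Mq} x)`                        (`lamW_verB`)

the twins of `lam_corPar`, `lamW_verA`.
-/

set_option autoImplicit false
set_option linter.unusedSectionVars false
set_option linter.style.haveILetI false

open UpperHalfPlane AlgebraicCurve ModularCurve CongruenceSubgroup
open scoped MatrixGroups Manifold

noncomputable section

namespace Fermat.Agent.S35.H90

open Fermat.Agent Fermat.Agent.S24 Fermat.Agent.S24.H81 Fermat.Agent.S29
open Fermat.Agent.S41.H85 (gl CosetDatum Lat corPar corcPar)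
open Fermat.Agent.S29.H85 (kummerSetupFinal chiLat charX admUnits thetaAlg actAlg)
open Fermat.Agent.S41.H72 Fermat.Agent.S41.H65
open ModularCurve.Period
open P2MW.S_ModularForm_heckeT_slash_eq_self_of_mem_Gamma0.ModularForm.HeckeSlashInvariance

attribute [local instance] H85.merAlgebra

variable {M q : ℕ} [NeZero M]

/-! ### The datum `W · r_j` in `GL(2,ℝ)⁺` -/

theorem corcDatum_α_mem (D : ALData M q) (hq : q.Prime) (hqM : ¬ q ∣ M)
    (i : Unit × OnePoint (ZMod q)) :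
    haveI : NeZero q := ⟨hq.ne_zero⟩
    (corcDatum D hq hqM (NeZero.ne M)).α i ∈ GL(2, ℝ)⁺ := by
  haveI : NeZero q := ⟨hq.ne_zero⟩
  show alGL D hq.ne_zero * (corDatum D hq hqM (NeZero.ne M)).α i.2 ∈ GL(2, ℝ)⁺
  rw [corDatum_α]
  exact mul_mem ((Matrix.mem_glpos _).mpr (det_alGL_pos D hq.ne_zero)) (H65.gl_mem_glPos M _)

/-- `corcDatum` as a coset datum for `GL(2,ℝ)⁺`. -/
def corcPos (D : ALData M q) (hq : q.Prime) (hqM : ¬ q ∣ M) :
    haveI : NeZero q := ⟨hq.ne_zero⟩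
    CosetDatum (H65.glp (M * q)) (H65.glp M) (Unit × OnePoint (ZMod q)) :=
  haveI : NeZero q := ⟨hq.ne_zero⟩
  H65.posDatum (corcDatum D hq hqM (NeZero.ne M)) (corcDatum_α_mem D hq hqM)

theorem corcPos_α (D : ALData M q) (hq : q.Prime) (hqM : ¬ q ∣ M)
    (i : Unit × OnePoint (ZMod q)) :
    haveI : NeZero q := ⟨hq.ne_zero⟩
    (corcPos D hq hqM).α i = alPos D hq.ne_zero * H65.glp M (corRep D i.2) :=
  Subtype.ext rfl

section main

open H88 H65.CosetDatumMul

/-- **NORM-EQUIV for `β`, character form.** -/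
theorem lam_opMul_corcPos (D : ALData M q) (hq : q.Prime) (hqM : ¬ q ∣ M) {n : ℕ} (hn : 0 < n)
    {χ : Gamma0 (M * q) →* ℂˣ} :
    haveI : NeZero q := ⟨hq.ne_zero⟩
    ∀ (hχ : χ ∈ charX (Gamma0 (M * q)) n)
      (hχ' : opMul (corcPos D hq hqM) χ ∈ charX (Gamma0 M) n),
      (kummerSetupFinal M hn).lam hn (Additive.ofMul ⟨opMul (corcPos D hq hqM) χ, hχ'⟩)
        = betaPush M q ((kummerSetupFinal (M * q) hn).lam hn (Additive.ofMul ⟨χ, hχ⟩)) := by
  haveI : NeZero q := ⟨hq.ne_zero⟩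
  intro hχ hχ'
  have hX : ∀ χ ∈ charX (Gamma0 (M * q)) n,
      opMul (corcPos D hq hqM) χ ∈ charX (Gamma0 M) n := by
    rintro _ ⟨x, rfl⟩
    rw [H85.opMul_expChar]
    exact ⟨⟨_, Fermat.Agent.S41.H85.op_mem_parabolicHoms
      (corcDatum D hq hqM (NeZero.ne M)) ℤ x.2⟩, rfl⟩
  exact lam_push (kummerSetupFinal M hn) (kummerSetupFinal (M * q) hn) hn (heckeBetaBar ℂ M q)
    (isIntegral_FC _) (finiteAlong_FC _) (normFormulaAlong_FC _)
    (H65.heckeMer (corcPos D hq hqM)) (opMul (corcPos D hq hqM))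
    (fun Φ hΦ => H72.heckeMer_mem_admUnits (corcPos D hq hqM)
      (fun i => by
        rw [corcPos_α, alPos_eq_r0_mul]
        exact H72.cuspStab.mul_mem
          (H72.cuspStab.mul_mem (H72.glp_mem_cuspStab M _) (H72.diagPos_mem_cuspStab q _))
          (H72.glp_mem_cuspStab M _)) hΦ)
    hX
    (fun χ _ Φ _ haut =>
      (H65.isAut_iff (fun c => rfl) (H85.actAlg_eq_actGL M) _ _).mpr
        (H65.IsAut.heckeMer (corcPos D hq hqM)
          ((H65.isAut_iff (fun c => rfl) (H85.actAlg_eq_actGL (M * q)) χ Φ).mp haut)))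
    (fun f Φ hΦ => by
      rw [H65.heckeMer_val, ← hΦ]
      have key := thetaC_normAlong_beta_eq_prod D hq (isRepSystem_corRep D hq hqM) f
      refine key.trans ?_
      rw [← (Equiv.punitProd (OnePoint (ZMod q))).prod_comp]
      refine Finset.prod_congr rfl fun i _ => ?_
      rw [corcPos_α]
      rfl)
    hχ

/-- **NORM-EQUIV for `β` in the S41 vocabulary**:
`lam_M (ζ_n ^ corcPar x) = β_* (lam_{Mq} (ζ_n ^ x))`. -/
theorem lam_corcPar (D : ALData M q) (hq : q.Prime) (hqM : ¬ q ∣ M) {n : ℕ} (hn : 0 < n)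
    (x : Lat (M * q)) :
    haveI : NeZero q := ⟨hq.ne_zero⟩
    (kummerSetupFinal M hn).lam hn (chiLat (Gamma0 M) n (corcPar D hq hqM (NeZero.ne M) x))
      = betaPush M q ((kummerSetupFinal (M * q) hn).lam hn (chiLat (Gamma0 (M * q)) n x)) := by
  haveI : NeZero q := ⟨hq.ne_zero⟩
  have hχ : H85.expChar (H85.zetaC n) (x : Additive (Gamma0 (M * q)) →+ ℤ)
      ∈ charX (Gamma0 (M * q)) n := H85.expChar_mem_charX x
  have hχ' : opMul (corcPos D hq hqM)
      (H85.expChar (H85.zetaC n) (x : Additive (Gamma0 (M * q)) →+ ℤ))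
      ∈ charX (Gamma0 M) n := by
    rw [H85.opMul_expChar]
    exact H85.expChar_mem_charX (corcPar D hq hqM (NeZero.ne M) x)
  have key := lam_opMul_corcPos D hq hqM hn hχ hχ'
  have e1 : chiLat (Gamma0 (M * q)) n x = Additive.ofMul ⟨_, hχ⟩ := rfl
  have e2 : chiLat (Gamma0 M) n (corcPar D hq hqM (NeZero.ne M) x)
      = Additive.ofMul ⟨_, hχ'⟩ := by
    apply Additive.toMul.injective
    apply Subtype.ext
    show H85.expChar (H85.zetaC n) _ = opMul (corcPos D hq hqM) _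
    rw [H85.opMul_expChar]
    rfl
  rw [e1, e2]
  exact key

/-- **NORM-EQUIV for `β`, `lamW`-form**: `lamW_M (Ver_B x) = β_* (lamW_{Mq} x)`. -/
theorem lamW_verB (D : ALData M q) (hq : q.Prime) (hqM : ¬ q ∣ M) {n : ℕ} (hn : 0 < n)
    (x : Lat (M * q)) :
    haveI : NeZero q := ⟨hq.ne_zero⟩
    H65.lamW (kummerSetupFinal M hn) hn (verB D hq hqM x)
      = betaPush M q (H65.lamW (kummerSetupFinal (M * q) hn) hn x) := by
  haveI : NeZero q := ⟨hq.ne_zero⟩
  rw [H65.lamW_apply, H65.lamW_apply, verB_apply, H65.wPar_wPar]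
  exact lam_corcPar D hq hqM hn _

/-- Kernel form consumed by the S35 assembly: `Ver_A x = 0 → α_* (lamW x) = 0`. -/
theorem alphaPush_lamW_eq_zero (D : ALData M q) (hq : q.Prime) (hqM : ¬ q ∣ M) {n : ℕ}
    (hn : 0 < n) (x : Lat (M * q)) :
    haveI : NeZero q := ⟨hq.ne_zero⟩
    verA D hq hqM x = 0 →
      alphaPush M q (H65.lamW (kummerSetupFinal (M * q) hn) hn x) = 0 := by
  haveI : NeZero q := ⟨hq.ne_zero⟩
  intro h
  rw [← lamW_verA D hq hqM hn x, h, map_zero]

/-- Kernel form consumed by the S35 assembly: `Ver_B x = 0 → β_* (lamW x) = 0`. -/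
theorem betaPush_lamW_eq_zero (D : ALData M q) (hq : q.Prime) (hqM : ¬ q ∣ M) {n : ℕ}
    (hn : 0 < n) (x : Lat (M * q)) :
    haveI : NeZero q := ⟨hq.ne_zero⟩
    verB D hq hqM x = 0 →
      betaPush M q (H65.lamW (kummerSetupFinal (M * q) hn) hn x) = 0 := by
  haveI : NeZero q := ⟨hq.ne_zero⟩
  intro h
  rw [← lamW_verB D hq hqM hn x, h, map_zero]

end main

end Fermat.Agent.S35.H90
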