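/-
S35 (helper57): the frozen statement S35 from the single remaining input (GEO), in helper86's
function-field form `H86.GeoFnJ`.

All other inputs are theorems on main: row N1 (`H10.exists_eigenvector_all`), rows N2/N4
(`H85_VerWrap`, `H49.baseChange_eq_zero_of_isNewform`), row N3 (`H72.lamQ`, `H90.lamW_verB`),
row G6 (`H86.ifGeo_of_geoFnJ`), Stage 2 (`S37.result`), the NEW-assembly (`H57.midpoint35_of_new`)
and helper31's `H31.s35_of_midpoint35`.
-/
import Mathlib
import Fermat.Agent.S35.H57_NewWiring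
import Fermat.Agent.S35.H10_EigenAll
import Fermat.Agent.S35.H90_NormEquivBeta
import Fermat.Agent.S37

set_option autoImplicit false
set_option linter.style.haveILetI false

namespace Fermat.Agent.S35.H57

open scoped TensorProduct
open Polynomial CuspForm IsLocalRing ModularCurve AlgebraicCurve
open Fermat.Agent.S30 Fermat.Agent.S30.H57 Fermat.Agent.S29.H80

local notation "Qbar" => AlgebraicClosure ℚ
local notation "GQ" => (AlgebraicClosure ℚ ≃ₐ[ℚ] AlgebraicClosure ℚ)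

noncomputable section

/-- **The frozen S35 from (GEO).** -/
theorem s35_of_geo
    (hGEO : ∀ (M0 q : ℕ) [NeZero M0] [NeZero q], q.Prime → ¬ q ∣ M0 → ∀ p : ℕ, p.Prime → p ≠ q →
      ∀ A : ValuationSubring Qbar, A.LiesOverPrime q → ∀ φ : GQ, A.IsFrobeniusAt φ q →
        ∀ n : ℕ, ∃ T : Set (Place Qbar (modularFunctionFieldBar (M0 * q))), T.Finite ∧
          H86.GeoFnJ M0 q φ q (p ^ n) T)
    {M : ℕ} [NeZero M] {g : CuspForm (CongruenceSubgroup.Gamma0 M) 2} (hg : g.IsNewform)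
    (lam : ℕ) [Fact lam.Prime]
    (S : Finset ℕ)
    (O' : Type) [CommRing O'] [IsDomain O'] [IsDiscreteValuationRing O']
    [IsAdicComplete (IsLocalRing.maximalIdeal O') O'] [Finite (IsLocalRing.ResidueField O')]
    [CharZero O'] (hlamO' : (lam : O') ∈ IsLocalRing.maximalIdeal O')
    (chig : CuspForm.heckeAlgebra M 2 (↑S : Set ℕ) →+* ℂ)
    (hchig : ∀ (ℓ : ℕ) (hℓ : ℓ.Prime) (hℓM : ¬ ℓ ∣ M) (hℓS : ℓ ∉ (↑S : Set ℕ)),
      chig (CuspForm.heckeAlgebra.T hℓ hℓM hℓS) = ModularFormClass.qCoeff g ℓ)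
    (iota : chig.range →+* O')
    (hlamS : lam ∈ S) (hMS : ∀ q : ℕ, q.Prime → q ∣ M → q ∈ S) :
    ∃ (O'' : Type) (_ : CommRing O'') (_ : IsDomain O'') (_ : IsDiscreteValuationRing O'')
      (_ : IsAdicComplete (IsLocalRing.maximalIdeal O'') O'')
      (_ : Finite (IsLocalRing.ResidueField O''))
      (_ : CharZero O'') (_ : Algebra O' O'') (_ : Module.Finite O' O'')
      (_ : IsLocalHom (algebraMap O' O'')),
      Function.Injective (algebraMap O' O'') ∧
      ∃ ρ : GaloisRepAdic O'',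
        (∀ (ℓ : ℕ) (hℓ : ℓ.Prime) (hℓM : ¬ ℓ ∣ M) (hℓS : ℓ ∉ (↑S : Set ℕ)),
          ∀ A : ValuationSubring (AlgebraicClosure ℚ), A.LiesOverPrime ℓ →
            ∀ σ : AlgebraicClosure ℚ ≃ₐ[ℚ] AlgebraicClosure ℚ, A.IsFrobeniusAt σ ℓ →
              LinearMap.charpoly (ρ.ρ σ) =
                X ^ 2 - C (algebraMap O' O''
                  ((iota.comp chig.rangeRestrict) (CuspForm.heckeAlgebra.T hℓ hℓM hℓS))) * X
                  + C ((ℓ : O''))) ∧
        (∀ q : ℕ, q.Prime → q ≠ lam → q ∣ M → ¬ q ^ 2 ∣ M →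
          ∀ A : ValuationSubring (AlgebraicClosure ℚ), A.LiesOverPrime q →
            ∀ σ : AlgebraicClosure ℚ ≃ₐ[ℚ] AlgebraicClosure ℚ, A.IsFrobeniusAt σ q →
              LinearMap.charpoly (ρ.ρ σ) = X ^ 2 - C ((q : O'') + 1) * X + C ((q : O'')) ∨
              LinearMap.charpoly (ρ.ρ σ) = X ^ 2 + C ((q : O'') + 1) * X + C ((q : O''))) := by
  obtain ⟨O₁, i1, i2, i3, i4, i5, i6, i7, i8, i9, hinj, iota₁, χ₁, _, _, hχ1, hcompat, u, hu0, _, _,
    hueig, _⟩ := H10.exists_eigenvector_all hg.1 S hMS O' chig hchig iota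
  have hlamO₁ : (lam : O₁) ∈ IsLocalRing.maximalIdeal O₁ := by
    have h1 : (algebraMap O' O₁) (lam : O') ∈ IsLocalRing.maximalIdeal O₁ := by
      rw [IsLocalRing.mem_maximalIdeal] at hlamO' ⊢
      intro hu
      exact hlamO' (isUnit_of_map_unit (algebraMap O' O₁) _ hu)
    simpa using h1
  refine s35_of_new_eigenvector hg lam S hlamS O' (iota.comp chig.rangeRestrict) O₁ hinj hlamO₁
    χ₁ hcompat hχ1 u hu0 hueig (fun hcomm => Fermat.Agent.S37.result M lam hcomm) ?_ ?_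
  · intro M0 q _ D hq hqM0 n hn
    exact fun x => H90.lamW_verB D hq hqM0 hn x
  · intro M0 q _ hq hqM0 hqlam _
    haveI : NeZero q := ⟨hq.ne_zero⟩
    have hlamp : lam.Prime := Fact.out
    exact H86.ifGeo_of_geoFnJ M0 q hlamp
      (fun A hA φ hφ n => hGEO M0 q hq hqM0 lam hlamp (Ne.symm hqlam) A hA φ hφ n)

end

end Fermat.Agent.S35.H57
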