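/-
S35 / row N4 (helper49).  "An old eigenvector contradicts newness."

`g` a newform of level `M`, `M' ∣ M` a proper divisor, `O` a characteristic-zero domain,
`χ1 : heckeAlgebra M 2 ∅ →+* O` a character through which the eigencharacter of `g` factors.
A nonzero simultaneous eigenvector `w ∈ O ⊗[ℤ] Lat M'` of all the level-`M'` operators `T_ℓ`
(`ℓ ∤ M`) with eigenvalues `χ1 (T_ℓ)` cannot exist: it would produce a normalised eigenform of
level `M'` with the same `a_ℓ` for all `ℓ ∤ M`.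

Sections:
* `Generic`  : eigen-characters of a simultaneous eigenvector; injectivity of ring homs from
  integral subrings of `ℂ` to characteristic-zero domains; `ℤ`-independent integer-valued functions
  are `ℂ`-independent.
* `Occurs`   : every ring hom `ψ : heckeAlgebra M' 2 S →+* ℂ` occurs on a nonzero cusp form.
* `Main`     : the contradiction.
-/
import Mathlib
import Fermat.Prelude.Def_CuspForm_Newforms
import Fermat.Agent.S41.H85_EigenDict
import Fermat.Agent.S41.H85_HeckeModule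
import Fermat.Agent.S30.H10_SupportEigenO
import Fermat.Agent.S49.H70_Algebra
import Fermat.Agent.S49.H90_Normalize
import Fermat.Agent.S23.H70_FiniteDim

set_option autoImplicit false

open CongruenceSubgroup ModularCurve ModularCurve.Period ModularFormClass
open scoped MatrixGroups TensorProduct

namespace Fermat.Agent.S35.H49

section Generic

/-- **Eigen-character.**  If `w` is a simultaneous eigenvector of the generators of
`Algebra.adjoin ℤ s` (acting through `Θ`), with eigenvalues in the image of an injective ring hom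
`ι : A →+* O`, then it is an eigenvector of the whole algebra and the eigenvalues define a ring
hom to `A`. -/
theorem exists_ringHom_of_eigen {E : Type*} [Ring E] (s : Set E) (T : Subalgebra ℤ E)
    (hT : T = Algebra.adjoin ℤ s)
    {O : Type*} [CommRing O] {Mo : Type*} [AddCommGroup Mo] [Module O Mo]
    (Θ : ↥T →+* Module.End O Mo) (w : Mo)
    (hw : ∀ c : O, c • w = 0 → c = 0)
    {A : Type*} [CommRing A] (ι : A →+* O) (hι : Function.Injective ι)
    (hgen : ∀ (x : E) (hx : x ∈ s),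
      ∃ a : A, Θ ⟨x, hT ▸ Algebra.subset_adjoin hx⟩ w = ι a • w) :
    ∃ ψ : ↥T →+* A, ∀ t, Θ t w = ι (ψ t) • w := by
  subst hT
  classical
  have hex : ∀ t : ↥(Algebra.adjoin ℤ s), ∃ a : A, Θ t w = ι a • w := by
    rintro ⟨t, ht⟩
    induction ht using Algebra.adjoin_induction with
    | mem x hx => exact hgen x hx
    | algebraMap r =>
      refine ⟨(r : A), ?_⟩
      have h1 : (⟨algebraMap ℤ E r, Subalgebra.algebraMap_mem _ r⟩ : ↥(Algebra.adjoin ℤ s))
          = ((r : ℤ) : ↥(Algebra.adjoin ℤ s)) := by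
        apply Subtype.ext
        simp
      rw [h1, map_intCast, map_intCast]
      simp only [Module.End.intCast_apply]
      rw [Int.cast_smul_eq_zsmul]
    | add x y hx hy ihx ihy =>
      obtain ⟨a, ha⟩ := ihx
      obtain ⟨b, hb⟩ := ihy
      refine ⟨a + b, ?_⟩
      have h1 : (⟨x + y, Subalgebra.add_mem _ hx hy⟩ : ↥(Algebra.adjoin ℤ s))
          = ⟨x, hx⟩ + ⟨y, hy⟩ := rfl
      rw [h1, map_add, LinearMap.add_apply, ha, hb, map_add, add_smul]
    | mul x y hx hy ihx ihy =>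
      obtain ⟨a, ha⟩ := ihx
      obtain ⟨b, hb⟩ := ihy
      refine ⟨a * b, ?_⟩
      have h1 : (⟨x * y, Subalgebra.mul_mem _ hx hy⟩ : ↥(Algebra.adjoin ℤ s))
          = ⟨x, hx⟩ * ⟨y, hy⟩ := rfl
      rw [h1, map_mul, Module.End.mul_apply, hb, map_smul, ha, smul_smul, map_mul, mul_comm]
  have huniq : ∀ a b : A, ι a • w = ι b • w → a = b := by
    intro a b h
    apply hι
    have h2 : (ι a - ι b) • w = 0 := by rw [sub_smul, h, sub_self]
    exact sub_eq_zero.mp (hw _ h2)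
  choose ψ hψ using hex
  refine ⟨⟨⟨⟨ψ, ?_⟩, ?_⟩, ?_, ?_⟩, hψ⟩
  · apply huniq
    rw [← hψ, map_one, map_one, Module.End.one_apply, one_smul]
  · intro x y
    apply huniq
    rw [← hψ, map_mul, Module.End.mul_apply, hψ y, map_smul, hψ x, smul_smul, map_mul, mul_comm]
  · apply huniq
    rw [← hψ, map_zero, map_zero, LinearMap.zero_apply, zero_smul]
  · intro x y
    apply huniq
    rw [← hψ, map_add, LinearMap.add_apply, hψ x, hψ y, map_add, add_smul]

/-- A ring hom from a domain integral over `ℤ` to a characteristic-zero domain is injective. -/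
theorem injective_of_isIntegral_int {A : Type*} [CommRing A] [IsDomain A]
    (hint : ∀ x : A, IsIntegral ℤ x) {O : Type*} [CommRing O] [CharZero O]
    (ι : A →+* O) : Function.Injective ι := by
  rw [RingHom.injective_iff_ker_eq_bot]
  have : Algebra.IsIntegral ℤ A := ⟨hint⟩
  apply Ideal.eq_bot_of_comap_eq_bot (R := ℤ)
  rw [eq_bot_iff]
  intro n hn
  rw [Ideal.mem_comap, RingHom.mem_ker, eq_intCast, map_intCast] at hn
  rw [Ideal.mem_bot]
  exact_mod_cast hn

/-- `ℤ`-linearly independent integer-valued functions are `ℂ`-linearly independent. -/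
theorem eq_zero_of_sum_mul_intCast {X ι : Type*} [Fintype ι] (B : ι → X → ℤ)
    (hB : LinearIndependent ℤ B) (a : ι → ℂ)
    (h : ∀ x, ∑ i, a i * ((B i x : ℤ) : ℂ) = 0) : ∀ i, a i = 0 := by
  classical
  let f : (X → ℤ) →ₗ[ℤ] (X → ℚ) := (Int.castAddHom ℚ).toIntLinearMap.compLeft X
  have hf : LinearMap.ker f = ⊥ := by
    rw [LinearMap.ker_eq_bot]
    intro u v huv
    funext x
    have := congrFun huv x
    simpa [f] using this
  have hBQ' : LinearIndependent ℤ (f ∘ B) := hB.map' f hf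
  have hBQ : LinearIndependent ℚ (f ∘ B) := (LinearIndependent.iff_fractionRing ℤ ℚ).mp hBQ'
  intro i
  rw [← Module.forall_dual_apply_eq_zero_iff ℚ (a i)]
  intro φ
  have key : ∑ j, φ (a j) • (f ∘ B) j = 0 := by
    funext x
    have h1 : φ (∑ j, a j * ((B j x : ℤ) : ℂ)) = 0 := by rw [h x, map_zero]
    rw [map_sum] at h1
    simp only [Finset.sum_apply, Pi.smul_apply, Function.comp_apply, Pi.zero_apply, smul_eq_mul]
    rw [← h1]
    refine Finset.sum_congr rfl fun j _ => ?_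
    have h2 : a j * ((B j x : ℤ) : ℂ) = (B j x) • a j := by
      rw [zsmul_eq_mul, mul_comm]
    rw [h2, map_zsmul, zsmul_eq_mul, mul_comm]
    rfl
  exact Fintype.linearIndependent_iff.mp hBQ _ key i

end Generic

section Occurs

open Fermat.Agent.S41 Fermat.Agent.S41.H85

variable (M' : ℕ) [NeZero M'] (S : Set ℕ)

omit [NeZero M'] in
/-- The images in `parabolicHoms ℂ` of a `ℤ`-basis of the integral lattice are `ℂ`-linearly
independent: `∑ aᵢ • parabolicBC (bᵢ) = 0 → a = 0`. -/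
theorem eq_zero_of_sum_smul_parabolicBC {κ : Type*} [Fintype κ]
    (b : Module.Basis κ ℤ (parabolicHoms ℤ (Gamma0 M') ℤ)) (a : κ → ℂ)
    (h : ∑ i, a i • parabolicBC M' (b i) = 0) : ∀ i, a i = 0 := by
  classical
  let ev : parabolicHoms ℤ (Gamma0 M') ℤ →ₗ[ℤ] (Additive (Gamma0 M') → ℤ) :=
    { toFun := fun φ γ => φ.1 γ
      map_add' := fun _ _ => rfl
      map_smul' := fun _ _ => rfl }
  have hev : LinearMap.ker ev = ⊥ := by
    rw [LinearMap.ker_eq_bot]
    intro φ ψ hφψ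
    apply Subtype.ext
    exact AddMonoidHom.ext fun γ => congrFun hφψ γ
  have hB : LinearIndependent ℤ (ev ∘ b) := b.linearIndependent.map' ev hev
  refine eq_zero_of_sum_mul_intCast (ev ∘ b) hB a fun γ => ?_
  have h1 := congrArg (fun v : parabolicHoms ℂ (Gamma0 M') ℂ => v.1 γ) h
  simp only [Submodule.coe_sum, Submodule.coe_smul, AddMonoidHom.coe_finsetSum,
    Finset.sum_apply, AddMonoidHom.smul_apply, parabolicBC_apply, smul_eq_mul,
    ZeroMemClass.coe_zero, AddMonoidHom.zero_apply] at h1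
  exact h1

/-- Transport of an eigenvector of `heckeEndC` through the Eichler–Shimura isomorphism. -/
theorem exists_cuspForm_of_eigen_parabolic (ψ : CuspForm.heckeAlgebra M' 2 S →+* ℂ)
    (v : parabolicHoms ℂ (Gamma0 M') ℂ) (hv0 : v ≠ 0)
    (heig : ∀ t : CuspForm.heckeAlgebra M' 2 S, heckeEndC M' S t v = ψ t • v) :
    ∃ f : CuspForm (Gamma0 M') 2, f ≠ 0 ∧ ∀ t : CuspForm.heckeAlgebra M' 2 S,
      (t : Module.End ℂ (CuspForm (Gamma0 M') 2)) f = ψ t • f := by
  obtain ⟨x, hvx⟩ : ∃ x, esEquiv M' x = v := ⟨_, LinearEquiv.apply_symm_apply _ v⟩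
  have hx0 : x ≠ 0 := by
    intro h
    apply hv0
    rw [← hvx, h]
    exact (esEquiv M').map_zero
  have hxeig : ∀ t : CuspForm.heckeAlgebra M' 2 S,
      (t : Module.End ℂ (CuspForm (Gamma0 M') 2)).prodMap
        (t : Module.End ℂ (CuspForm (Gamma0 M') 2)) x = ψ t • x := by
    intro t
    apply (esEquiv M').injective
    have h1 := heig t
    rw [heckeEndC_apply, ← hvx, LinearEquiv.symm_apply_apply] at h1
    rw [h1]
    exact ((esEquiv M').map_smul (ψ t) x).symm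
  by_cases h1 : x.1 = 0
  · have h2 : x.2 ≠ 0 := fun h2 => hx0 (Prod.ext h1 h2)
    exact ⟨x.2, h2, fun t => congrArg Prod.snd (hxeig t)⟩
  · exact ⟨x.1, h1, fun t => congrArg Prod.fst (hxeig t)⟩

/-- **OCCURS.**  Every ring hom `ψ : heckeAlgebra M' 2 S →+* ℂ` is the eigencharacter of a nonzero
cusp form of level `M'` (exact character, not a Galois conjugate: the integral lattice
`parabolicHoms ℤ Γ₀(M') ℤ` is a faithful module). -/
theorem exists_cuspForm_of_ringHom (ψ : CuspForm.heckeAlgebra M' 2 S →+* ℂ) :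
    ∃ f : CuspForm (Gamma0 M') 2, f ≠ 0 ∧ ∀ t : CuspForm.heckeAlgebra M' 2 S,
      (t : Module.End ℂ (CuspForm (Gamma0 M') 2)) f = ψ t • f := by
  classical
  obtain ⟨a, ha0, ha⟩ := Fermat.Agent.S30.H10.exists_eigen_coord (cohHeckeRep M' S)
    (cohHeckeRep_injective (N := M') (S := S)) ψ
  refine exists_cuspForm_of_eigen_parabolic M' S ψ
    (∑ i, a i • parabolicBC M' (Module.Free.chooseBasis ℤ (parabolicHoms ℤ (Gamma0 M') ℤ) i))
    ?_ ?_
  · intro h
    apply ha0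
    funext i
    exact eq_zero_of_sum_smul_parabolicBC M' _ a h i
  · intro t
    set b := Module.Free.chooseBasis ℤ (parabolicHoms ℤ (Gamma0 M') ℤ) with hb
    rw [map_sum, Finset.smul_sum]
    have h1 : ∀ i, heckeEndC M' S t (a i • parabolicBC M' (b i))
        = ∑ j, (a i * ((b.coord j (cohHeckeRep M' S t (b i)) : ℤ) : ℂ)) • parabolicBC M' (b j) := by
      intro i
      rw [map_smul, ← parabolicBC_cohHeckeRep]
      conv_lhs => rw [← b.sum_repr (cohHeckeRep M' S t (b i))]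
      rw [map_sum, Finset.smul_sum]
      refine Finset.sum_congr rfl fun j _ => ?_
      rw [map_smul, ← Int.cast_smul_eq_zsmul ℂ, smul_smul]
      rfl
    simp only [h1]
    rw [Finset.sum_comm]
    refine Finset.sum_congr rfl fun j _ => ?_
    rw [← Finset.sum_smul, smul_smul]
    congr 1
    rw [← ha t j]
    refine Finset.sum_congr rfl fun i _ => ?_
    rw [mul_comm]

end Occurs

section Main

open Fermat.Agent.S41 Fermat.Agent.S41.H85

variable {M : ℕ} [NeZero M] {g : CuspForm (Gamma0 M) 2}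

/-- **(M1)** A character `χ1` of the level-`M` Hecke algebra killing the kernel of the
eigencharacter of `g` factors through an INJECTIVE ring hom on the coefficient ring of `g`. -/
theorem exists_iota_of_ker_le (hg : g.IsNormalizedEigenform)
    {O : Type*} [CommRing O] [CharZero O]
    (χ1 : CuspForm.heckeAlgebra M 2 (∅ : Set ℕ) →+* O)
    (hχ1 : ∀ t, eigenChar hg ∅ t = 0 → χ1 t = 0) :
    ∃ ι1 : ↥(eigenChar hg (∅ : Set ℕ)).range →+* O, Function.Injective ι1 ∧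
      ∀ t, ι1 ((eigenChar hg ∅).rangeRestrict t) = χ1 t := by
  set e := eigenChar hg (∅ : Set ℕ) with he
  have hsurj : Function.Surjective e.rangeRestrict := e.rangeRestrict_surjective
  have hker : RingHom.ker e.rangeRestrict ≤ RingHom.ker χ1 := by
    intro t ht
    rw [RingHom.mem_ker] at ht ⊢
    apply hχ1
    have := congrArg Subtype.val ht
    simpa using this
  let ι1 : ↥e.range →+* O := RingHom.liftOfSurjective e.rangeRestrict hsurj ⟨χ1, hker⟩
  have hι1 : ∀ t, ι1 (e.rangeRestrict t) = χ1 t := fun t =>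
    RingHom.liftOfRightInverse_comp_apply _ _ _ ⟨χ1, hker⟩ t
  refine ⟨ι1, ?_, hι1⟩
  apply injective_of_isIntegral_int
  intro x
  obtain ⟨t, rfl⟩ := hsurj x
  exact (isIntegral_heckeAlgebra ∅ t).map e.rangeRestrict.toIntAlgHom

/-- **(M2)** The eigenvector `w` transports the eigencharacter of `g` (away from `M`) to a ring hom
`ψ : heckeAlgebra M' 2 {q | q ∣ M} →+* ℂ` of the level-`M'` Hecke algebra. -/
theorem exists_psi_of_eigenvector (hg : g.IsNormalizedEigenform) {M' : ℕ} [NeZero M']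
    (hM' : M' ∣ M) {O : Type*} [CommRing O] [IsDomain O] [CharZero O]
    (χ1 : CuspForm.heckeAlgebra M 2 (∅ : Set ℕ) →+* O)
    (hχ1 : ∀ t, eigenChar hg ∅ t = 0 → χ1 t = 0)
    (w : O ⊗[ℤ] parabolicHoms ℤ (Gamma0 M') ℤ) (hw : w ≠ 0)
    (heig : ∀ (ℓ : ℕ) (hℓ : ℓ.Prime) (hℓM : ¬ ℓ ∣ M),
      (heckeTPar ℤ ℤ hℓ (fun h => hℓM (h.trans hM'))).baseChange O w
        = χ1 (CuspForm.heckeAlgebra.T hℓ hℓM (Set.notMem_empty ℓ)) • w) :
    ∃ ψ : CuspForm.heckeAlgebra M' 2 {q : ℕ | q ∣ M} →+* ℂ,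
      ∀ (ℓ : ℕ) (hℓ : ℓ.Prime) (hℓM : ¬ ℓ ∣ M),
        ψ (CuspForm.heckeAlgebra.T hℓ (fun h => hℓM (h.trans hM')) hℓM) = qCoeff g ℓ := by
  classical
  set e := eigenChar hg (∅ : Set ℕ) with he
  obtain ⟨ι1, hι1inj, hι1⟩ := exists_iota_of_ker_le hg χ1 hχ1
  set SM : Set ℕ := {q : ℕ | q ∣ M} with hSM
  let Θ : ↥(CuspForm.heckeAlgebra M' 2 SM) →+*
      Module.End O (O ⊗[ℤ] parabolicHoms ℤ (Gamma0 M') ℤ) :=
    (Module.End.baseChangeHom ℤ O (parabolicHoms ℤ (Gamma0 M') ℤ)).toRingHom.comp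
      (cohHeckeRep M' SM)
  have hΘ : ∀ t, Θ t = (cohHeckeRep M' SM t).baseChange O := fun t => rfl
  have hwtf : ∀ c : O, c • w = 0 → c = 0 := fun c hc => (smul_eq_zero.mp hc).resolve_right hw
  have hTgen : ∀ (ℓ : ℕ) (hℓ : ℓ.Prime) (hℓM : ¬ ℓ ∣ M),
      Θ (CuspForm.heckeAlgebra.T hℓ (fun h => hℓM (h.trans hM')) hℓM) w
        = ι1 (e.rangeRestrict (CuspForm.heckeAlgebra.T hℓ hℓM (Set.notMem_empty ℓ))) • w := by
    intro ℓ hℓ hℓM
    rw [hΘ, cohHeckeRep_T, heig ℓ hℓ hℓM, hι1]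
  obtain ⟨ψ, hψ⟩ := exists_ringHom_of_eigen (CuspForm.heckeGenerators M' 2 SM)
    (CuspForm.heckeAlgebra M' 2 SM) rfl Θ w hwtf ι1 hι1inj (by
      rintro x (⟨ℓ, hℓ, hℓM', hℓS, rfl⟩ | ⟨q, hqM', hq, hqS, rfl⟩)
      · exact ⟨_, hTgen ℓ hℓ hℓS⟩
      · exact absurd (hqM'.trans hM') hqS)
  refine ⟨e.range.subtype.comp ψ, fun ℓ hℓ hℓM => ?_⟩
  have h1 := hψ (CuspForm.heckeAlgebra.T hℓ (fun h => hℓM (h.trans hM')) hℓM)
  rw [hTgen ℓ hℓ hℓM] at h1
  have h2 : (ι1 (e.rangeRestrict (CuspForm.heckeAlgebra.T hℓ hℓM (Set.notMem_empty ℓ)))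
      - ι1 (ψ (CuspForm.heckeAlgebra.T hℓ (fun h => hℓM (h.trans hM')) hℓM))) • w = 0 := by
    rw [sub_smul, h1, sub_self]
  have h3 := hι1inj (sub_eq_zero.mp (hwtf _ h2))
  rw [RingHom.comp_apply, ← h3]
  show e (CuspForm.heckeAlgebra.T hℓ hℓM (Set.notMem_empty ℓ)) = _
  exact eigenChar_T hg hℓ hℓM _

omit [NeZero M] in
/-- **(M3)–(M5)** A nonzero cusp form of level `M'` which is an eigenvector of all `T_ℓ`, `ℓ ∤ M`,
with eigenvalues `a_ℓ(g)` produces a NORMALISED eigenform of level `M'` with the same `a_ℓ`,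
`ℓ ∤ M`: the good eigensystem of `g` occurs at level `M'`. -/
theorem goodEigensystemOccursAt_of_eigen_cuspForm {M' : ℕ} [NeZero M'] (hM' : M' ∣ M)
    (f : CuspForm (Gamma0 M') 2) (hf0 : f ≠ 0)
    (hf : ∀ (ℓ : ℕ) (hℓ : ℓ.Prime) (hℓM : ¬ ℓ ∣ M),
      CuspForm.heckeTLin 2 hℓ (fun h => hℓM (h.trans hM')) f = qCoeff g ℓ • f) :
    CuspForm.GoodEigensystemOccursAt g M' := by
  classical
  have hfd : FiniteDimensional ℂ (CuspForm (Gamma0 M') 2) :=
    Fermat.Agent.S23.H70.finiteDimensional_cuspForm M' 2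
  -- the joint eigenspace
  let W : Submodule ℂ (CuspForm (Gamma0 M') 2) :=
    { carrier := {h | ∀ (ℓ : ℕ) (hℓ : ℓ.Prime) (hℓM : ¬ ℓ ∣ M),
        CuspForm.heckeTLin 2 hℓ (fun h' => hℓM (h'.trans hM')) h = qCoeff g ℓ • h}
      add_mem' := by
        intro a b ha hb ℓ hℓ hℓM
        rw [map_add, ha ℓ hℓ hℓM, hb ℓ hℓ hℓM, smul_add]
      zero_mem' := by
        intro ℓ hℓ hℓM
        rw [map_zero, smul_zero]
      smul_mem' := by
        intro c a ha ℓ hℓ hℓM
        rw [map_smul, ha ℓ hℓ hℓM, smul_comm] }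
  have hWmem : ∀ h, h ∈ W ↔ ∀ (ℓ : ℕ) (hℓ : ℓ.Prime) (hℓM : ¬ ℓ ∣ M),
      CuspForm.heckeTLin 2 hℓ (fun h' => hℓM (h'.trans hM')) h = qCoeff g ℓ • h := fun _ => Iff.rfl
  have hfW : f ∈ W := hf
  have hWne : W ≠ ⊥ := fun h => hf0 ((Submodule.mem_bot ℂ).mp (h ▸ hfW))
  -- the full Hecke algebra of level `M'`
  let ρ : CuspForm.heckeAlgebra M' 2 (∅ : Set ℕ) →+* Module.End ℂ (CuspForm (Gamma0 M') 2) :=
    (CuspForm.heckeAlgebra M' 2 ∅).val.toRingHom
  have hρ : ∀ r, ρ r = (r : Module.End ℂ (CuspForm (Gamma0 M') 2)) := fun _ => rfl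
  have hstab : ∀ r, ∀ h ∈ W, ρ r h ∈ W := by
    intro r h hh ℓ hℓ hℓM
    have hℓM' : ¬ ℓ ∣ M' := fun h' => hℓM (h'.trans hM')
    have hcomm : CuspForm.heckeAlgebra.T hℓ hℓM' (Set.notMem_empty ℓ) * r
        = r * CuspForm.heckeAlgebra.T hℓ hℓM' (Set.notMem_empty ℓ) := mul_comm _ _
    have hcommE : CuspForm.heckeTLin 2 hℓ hℓM' * (r : Module.End ℂ (CuspForm (Gamma0 M') 2))
        = (r : Module.End ℂ (CuspForm (Gamma0 M') 2)) * CuspForm.heckeTLin 2 hℓ hℓM' := by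
      have h0 := congrArg
        (fun t : CuspForm.heckeAlgebra M' 2 (∅ : Set ℕ) =>
          (t : Module.End ℂ (CuspForm (Gamma0 M') 2))) hcomm
      simpa only [MulMemClass.coe_mul, CuspForm.heckeAlgebra.coe_T] using h0
    have h1 := LinearMap.congr_fun hcommE h
    rw [Module.End.mul_apply, Module.End.mul_apply] at h1
    rw [hρ, h1, hh ℓ hℓ hℓM, map_smul]
  -- a maximal ideal containing the annihilator of `W`
  let Ann : Ideal (CuspForm.heckeAlgebra M' 2 (∅ : Set ℕ)) :=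
    { carrier := {r | ∀ h ∈ W, ρ r h = 0}
      add_mem' := by
        intro a b ha hb h hh
        rw [map_add, LinearMap.add_apply, ha h hh, hb h hh, add_zero]
      zero_mem' := by
        intro h _
        rw [map_zero, LinearMap.zero_apply]
      smul_mem' := by
        intro c a ha h hh
        rw [smul_eq_mul, map_mul, Module.End.mul_apply, ha h hh, map_zero] }
  have hAnn : Ann ≠ ⊤ := by
    intro h
    have h1 : (1 : CuspForm.heckeAlgebra M' 2 (∅ : Set ℕ)) ∈ Ann := h ▸ Submodule.mem_top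
    have h2 := h1 f hfW
    rw [map_one, Module.End.one_apply] at h2
    exact hf0 h2
  obtain ⟨𝔫, h𝔫max, hle⟩ := Ideal.exists_le_maximal Ann hAnn
  have : 𝔫.IsPrime := h𝔫max.isPrime
  obtain ⟨v, hvW, hv0, μ, hμ, -⟩ := Fermat.Agent.S49.H70.exists_eigenvector_aux ρ 𝔫 _ W rfl hWne
    hstab (fun r hr => hle hr)
  -- the eigenvalue function on `ℕ`
  let lam : ℕ → ℂ := fun l =>
    if hl : l.Prime then
      (if hN : l ∣ M' then μ (CuspForm.heckeAlgebra.U hl hN (Set.notMem_empty l))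
        else μ (CuspForm.heckeAlgebra.T hl hN (Set.notMem_empty l)))
    else 0
  have hT : ∀ (l : ℕ) (hl : l.Prime) (hlN : ¬ l ∣ M'),
      CuspForm.heckeTLin 2 hl hlN v = lam l • v := by
    intro l hl hlN
    have := hμ (CuspForm.heckeAlgebra.T hl hlN (Set.notMem_empty l))
    rw [hρ, CuspForm.heckeAlgebra.coe_T] at this
    simp only [lam, dif_pos hl, dif_neg hlN]
    exact this
  have hU : ∀ (q : ℕ) (_ : q.Prime) (hqN : q ∣ M'),
      CuspForm.heckeULin 2 hqN v = lam q • v := by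
    intro q hq hqN
    have := hμ (CuspForm.heckeAlgebra.U hq hqN (Set.notMem_empty q))
    rw [hρ, CuspForm.heckeAlgebra.coe_U] at this
    simp only [lam, dif_pos hq, dif_pos hqN]
    exact this
  obtain ⟨-, hnorm, hcoef⟩ :=
    Fermat.Agent.S49.H90.isNormalizedEigenform_of_eigen v hv0 lam hT hU
  refine ⟨(qCoeff v 1)⁻¹ • v, hnorm, fun ℓ hℓ hℓM => ?_⟩
  rw [hcoef ℓ hℓ]
  have hℓM' : ¬ ℓ ∣ M' := fun h' => hℓM (h'.trans hM')
  have h1 := hT ℓ hℓ hℓM'
  rw [hvW ℓ hℓ hℓM] at h1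
  exact (smul_left_injective ℂ hv0 h1).symm

/-- **ROW N4.**  An old eigenvector contradicts newness. -/
theorem false_of_old_eigenvector (hg : g.IsNewform) {M' : ℕ} [NeZero M'] (hM' : M' ∣ M)
    (hne : M' ≠ M) {O : Type*} [CommRing O] [IsDomain O] [CharZero O]
    (χ1 : CuspForm.heckeAlgebra M 2 (∅ : Set ℕ) →+* O)
    (hχ1 : ∀ t, eigenChar hg.1 ∅ t = 0 → χ1 t = 0)
    (w : O ⊗[ℤ] parabolicHoms ℤ (Gamma0 M') ℤ) (hw : w ≠ 0)
    (heig : ∀ (ℓ : ℕ) (hℓ : ℓ.Prime) (hℓM : ¬ ℓ ∣ M),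
      (heckeTPar ℤ ℤ hℓ (fun h => hℓM (h.trans hM'))).baseChange O w
        = χ1 (CuspForm.heckeAlgebra.T hℓ hℓM (Set.notMem_empty ℓ)) • w) : False := by
  obtain ⟨ψ, hψ⟩ := exists_psi_of_eigenvector hg.1 hM' χ1 hχ1 w hw heig
  obtain ⟨f, hf0, hf⟩ := exists_cuspForm_of_ringHom M' {q : ℕ | q ∣ M} ψ
  refine hg.2 M' hM' hne (goodEigensystemOccursAt_of_eigen_cuspForm hM' f hf0 fun ℓ hℓ hℓM => ?_)
  have h1 := hf (CuspForm.heckeAlgebra.T hℓ (fun h => hℓM (h.trans hM')) hℓM)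
  rw [CuspForm.heckeAlgebra.coe_T, hψ ℓ hℓ hℓM] at h1
  exact h1

/-- **ROW N4, consumer form (A5).**  If `u ∈ O ⊗ Lat M` is an eigenvector of all `T_ℓ`, `ℓ ∤ M`,
with the eigenvalues of the newform `g`, then every `ℤ`-linear map `V : Lat M → Lat M'` to a
proper divisor level `M' ∣ M` which intertwines the `T_ℓ`, `ℓ ∤ M` (a transfer/corestriction map)
kills `u`. -/
theorem baseChange_eq_zero_of_isNewform (hg : g.IsNewform) {M' : ℕ} [NeZero M'] (hM' : M' ∣ M)
    (hne : M' ≠ M) {O : Type*} [CommRing O] [IsDomain O] [CharZero O]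
    (χ1 : CuspForm.heckeAlgebra M 2 (∅ : Set ℕ) →+* O)
    (hχ1 : ∀ t, eigenChar hg.1 ∅ t = 0 → χ1 t = 0)
    (u : O ⊗[ℤ] parabolicHoms ℤ (Gamma0 M) ℤ)
    (hu : ∀ (ℓ : ℕ) (hℓ : ℓ.Prime) (hℓM : ¬ ℓ ∣ M),
      (heckeTPar ℤ ℤ hℓ hℓM).baseChange O u
        = χ1 (CuspForm.heckeAlgebra.T hℓ hℓM (Set.notMem_empty ℓ)) • u)
    (V : parabolicHoms ℤ (Gamma0 M) ℤ →ₗ[ℤ] parabolicHoms ℤ (Gamma0 M') ℤ)
    (hV : ∀ (ℓ : ℕ) (hℓ : ℓ.Prime) (hℓM : ¬ ℓ ∣ M),
      V ∘ₗ heckeTPar ℤ ℤ hℓ hℓM = heckeTPar ℤ ℤ hℓ (fun h => hℓM (h.trans hM')) ∘ₗ V) :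
    V.baseChange O u = 0 := by
  by_contra h
  refine false_of_old_eigenvector hg hM' hne χ1 hχ1 (V.baseChange O u) h fun ℓ hℓ hℓM => ?_
  rw [← LinearMap.comp_apply, ← LinearMap.baseChange_comp, ← hV ℓ hℓ hℓM,
    LinearMap.baseChange_comp, LinearMap.comp_apply, hu ℓ hℓ hℓM, map_smul]

end Main

end Fermat.Agent.S35.H49
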