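import Mathlib
import Fermat.Agent.S35.H10_EigenAll
import Fermat.Agent.S35.H49_OldEigen

/-!
# S35, hypothesis (A5) of the NEW-assembly = rows (N1) + (N4) combined

For a NEWFORM `g` of level `M` and the frozen S35 data (`chig`, `iota`), after a finite DVR
extension `𝒪''` of `𝒪'` (literal frozen output bundle) there is a nonzero
`u ∈ 𝒪'' ⊗[ℤ] H¹_par(Γ₀(M), ℤ)` which

* is an eigenvector of `T_ℓ` for every good prime `ℓ` (`ℓ ∤ M`, `ℓ ∉ S`) with eigenvalue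
  `algebraMap 𝒪' 𝒪'' (chi (T_ℓ))`, `chi := iota.comp chig.rangeRestrict` the frozen character;
* is killed by EVERY `ℤ`-linear map `V : Lat M → Lat M'` to a proper divisor level `M' ∣ M` which
  intertwines the `T_ℓ`, `ℓ ∤ M` (all corestriction/transfer maps, at every `q ∣ M` at once).
-/

set_option autoImplicit false

noncomputable section

namespace Fermat.Agent.S35.H10

open scoped TensorProduct
open CuspForm ModularFormClass CongruenceSubgroup ModularCurve.Period IsLocalRing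
open Fermat.Agent.S41.H85 Fermat.Agent.S29.H80

variable {M : ℕ} [NeZero M] {g : CuspForm (Gamma0 M) 2}

/-- **(A5)** = (N1) + (N4). -/
theorem exists_new_eigenvector_ext (hg : g.IsNewform) (S : Finset ℕ)
    (hMS : ∀ q : ℕ, q.Prime → q ∣ M → q ∈ S)
    (𝒪' : Type) [CommRing 𝒪'] [IsDomain 𝒪'] [IsDiscreteValuationRing 𝒪']
    [IsAdicComplete (maximalIdeal 𝒪') 𝒪'] [Finite (ResidueField 𝒪')] [CharZero 𝒪']
    (chig : heckeAlgebra M 2 (↑S : Set ℕ) →+* ℂ)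
    (hchig : ∀ (ℓ : ℕ) (hℓ : ℓ.Prime) (hℓM : ¬ ℓ ∣ M) (hℓS : ℓ ∉ (↑S : Set ℕ)),
      chig (heckeAlgebra.T hℓ hℓM hℓS) = qCoeff g ℓ)
    (iota : chig.range →+* 𝒪') :
    ∃ (𝒪'' : Type) (_ : CommRing 𝒪'') (_ : IsDomain 𝒪'') (_ : IsDiscreteValuationRing 𝒪'')
      (_ : IsAdicComplete (maximalIdeal 𝒪'') 𝒪'') (_ : Finite (ResidueField 𝒪''))
      (_ : CharZero 𝒪'') (_ : Algebra 𝒪' 𝒪'') (_ : Module.Finite 𝒪' 𝒪'')
      (_ : IsLocalHom (algebraMap 𝒪' 𝒪'')),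
      Function.Injective (algebraMap 𝒪' 𝒪'') ∧
      ∃ u : 𝒪'' ⊗[ℤ] Lat M, u ≠ 0 ∧
        (∀ (ℓ : ℕ) (hℓ : ℓ.Prime) (hℓM : ¬ ℓ ∣ M) (hℓS : ℓ ∉ (↑S : Set ℕ)),
          (cohT M ⟨ℓ, hℓ⟩).baseChange 𝒪'' u =
            algebraMap 𝒪' 𝒪'' ((iota.comp chig.rangeRestrict) (heckeAlgebra.T hℓ hℓM hℓS)) • u) ∧
        (∀ (ℓ : ℕ) (hℓ : ℓ.Prime) (hℓM : ¬ ℓ ∣ M) (hℓS : ℓ ∉ (↑S : Set ℕ)),
          (heckeTPar ℤ ℤ hℓ hℓM).baseChange 𝒪'' u =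
            algebraMap 𝒪' 𝒪'' ((iota.comp chig.rangeRestrict) (heckeAlgebra.T hℓ hℓM hℓS)) • u) ∧
        ∀ (M' : ℕ) [NeZero M'] (hM' : M' ∣ M) (_ : M' ≠ M)
          (V : parabolicHoms ℤ (Gamma0 M) ℤ →ₗ[ℤ] parabolicHoms ℤ (Gamma0 M') ℤ)
          (_ : ∀ (ℓ : ℕ) (hℓ : ℓ.Prime) (hℓM : ¬ ℓ ∣ M),
            V ∘ₗ heckeTPar ℤ ℤ hℓ hℓM = heckeTPar ℤ ℤ hℓ (fun h => hℓM (h.trans hM')) ∘ₗ V),
          V.baseChange 𝒪'' u = 0 := by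
  obtain ⟨𝒪'', i1, i2, i3, i4, i5, i6, i7, i8, i9, hinj, iota₁, χ₁, -, -, hker, hcompat, u, hu0,
    -, hcohT, hT, -⟩ := exists_eigenvector_all hg.1 S hMS 𝒪' chig hchig iota
  refine ⟨𝒪'', i1, i2, i3, i4, i5, i6, i7, i8, i9, hinj, u, hu0, ?_, ?_, ?_⟩
  · intro ℓ hℓ hℓM hℓS
    rw [hcohT ℓ hℓ hℓM, hcompat ℓ hℓ hℓM hℓS]
  · intro ℓ hℓ hℓM hℓS
    rw [hT ℓ hℓ hℓM, hcompat ℓ hℓ hℓM hℓS]
  · intro M' _ hM' hne V hV
    exact Fermat.Agent.S35.H49.baseChange_eq_zero_of_isNewform hg hM' hne χ₁ hker u hT V hV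

end Fermat.Agent.S35.H10
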