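/-
helper12 — S35 row G2, abstract core, part (c): the LOCAL GENERATOR of `(1/m) div f` at a closed
point `n` of a chart, from coordinate functions of the (served) zeros and poles of `f` centred in
the residue tube of `n`.  No automorphism occurs here.

Vocabulary and binders of `Fermat.Agent.S34.H56.local_datum_of_places` (helper56) and
`Fermat.Agent.S34.H3` (helper3): `R` base ring (`A''`), `k = R[1/π]`, `B` a chart integral over
`R[J]`, `F = Frac B`, `n` a prime of `B`.

Input: `m ∣ ord_w f` for every place `w`, finitely many zeros and poles, and for EVERY zero/pole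
`w` of `f` centred on the chart with centre `≤ n` a coordinate function `ω` (`ord_w ω = 1`, unit
at the other horizontal height-one primes `≤ n`) satisfying an auxiliary multiplicative predicate
`C` (e.g. `C ω` := "`ω` is a unit at the vertical height-one primes `≤ n`" at a smooth point,
`C := fun _ => True` at a node).
Output: `G ≠ 0` with `C G` and `f / G ^ m` a unit at every horizontal height-one prime `≤ n`.
-/
import Mathlib
import Fermat.Agent.S34.H56_LocalDatumPlaces

set_option autoImplicit false
set_option linter.unusedSectionVars false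
set_option linter.style.haveILetI false

namespace Fermat.Agent.S35.H12

open Polynomial Fermat.Agent.S34.H3 Fermat.Agent.S34.H56 Fermat.Agent.CA.H42 AlgebraicCurve

section Pred

variable {F : Type*} [Field F]

/-- A multiplicative predicate is stable under integer powers. -/
theorem pred_zpow (C : F → Prop) (hC1 : C 1) (hCmul : ∀ x y, C x → C y → C (x * y))
    (hCinv : ∀ x, C x → C x⁻¹) {x : F} (hx : C x) (e : ℤ) : C (x ^ e) := by
  have hnat : ∀ a : ℕ, C (x ^ a) := by
    intro a
    induction a with
    | zero => rw [pow_zero]; exact hC1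
    | succ a ih => rw [pow_succ]; exact hCmul _ _ ih hx
  cases e with
  | ofNat a => rw [Int.ofNat_eq_natCast, zpow_natCast]; exact hnat a
  | negSucc a => rw [zpow_negSucc]; exact hCinv _ (hnat (a + 1))

/-- A multiplicative predicate is stable under finite products. -/
theorem pred_prod (C : F → Prop) (hC1 : C 1) (hCmul : ∀ x y, C x → C y → C (x * y))
    {ι : Type*} (S : Finset ι) (x : ι → F) (hx : ∀ j ∈ S, C (x j)) : C (∏ j ∈ S, x j) := by
  classical
  induction S using Finset.induction_on with
  | empty => rw [Finset.prod_empty]; exact hC1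
  | insert a s ha ih =>
    rw [Finset.prod_insert ha]
    exact hCmul _ _ (hx a (Finset.mem_insert_self a s))
      (ih fun j hj => hx j (Finset.mem_insert_of_mem hj))

end Pred

variable {R k B F : Type*} [CommRing R] [IsDomain R] [Field k] [Algebra R k]
  [CommRing B] [IsDomain B] [Field F] [Algebra B F] [IsFractionRing B F]
  [Algebra R B] [Algebra k F] [Algebra R F] [IsScalarTower R B F] [IsScalarTower R k F]
  [IsNoetherianRing B] [IsIntegrallyClosed B]

/-- **LOCAL GENERATOR at `n`** (Place vocabulary). -/
theorem exists_local_generator (π : R) (hπ : π ≠ 0) [IsLocalization.Away π k] (J : B)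
    (hint : ∀ b : B, (aeval (R := R) J : R[X] →ₐ[R] B).toRingHom.IsIntegralElem b)
    (n : Ideal B) [n.IsPrime]
    (f : F) (hf0 : f ≠ 0) (m : ℕ)
    (hdiv : ∀ w : Place k F, (m : ℤ) ∣ w.ord f)
    (hfin : {w : Place k F | w.ord f ≠ 0}.Finite)
    (C : F → Prop) (hC1 : C 1) (hCmul : ∀ x y, C x → C y → C (x * y))
    (hCinv : ∀ x, C x → C x⁻¹)
    (hcoord : ∀ w : Place k F, w.ord f ≠ 0 →
      ∀ hB : (∀ b : B, algebraMap B F b ∈ w.toValuationSubring),
        centre w.toValuationSubring hB ≤ n →
        ∃ ω : F, ω ≠ 0 ∧ w.ord ω = 1 ∧ C ω ∧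
          ∀ p : Ideal B, p.IsPrime → p.height = 1 → p ≤ n → algebraMap R B π ∉ p →
            p ≠ centre w.toValuationSubring hB → IsUnitAt p ω) :
    ∃ G : F, G ≠ 0 ∧ C G ∧
      ∀ p : Ideal B, p.IsPrime → p.height = 1 → p ≤ n → algebraMap R B π ∉ p →
        IsUnitAt p (f / G ^ m) := by
  classical
  -- the relevant places
  let Rel : Place k F → Prop := fun w =>
    ∃ hB : (∀ b : B, algebraMap B F b ∈ w.toValuationSubring),
      centre w.toValuationSubring hB ≤ n
  let S : Finset (Place k F) := hfin.toFinset.filter Rel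
  have hS : ∀ w, w ∈ S ↔ w.ord f ≠ 0 ∧ Rel w := fun w => by
    simp only [S, Finset.mem_filter, Set.Finite.mem_toFinset, Set.mem_ofPred_eq]
  let q : Place k F → Ideal B := fun w =>
    if hB : (∀ b : B, algebraMap B F b ∈ w.toValuationSubring) then
      centre w.toValuationSubring hB else ⊥
  have hq : ∀ w (hB : ∀ b : B, algebraMap B F b ∈ w.toValuationSubring),
      q w = centre w.toValuationSubring hB := fun w hB => dif_pos hB
  -- choice of the coordinate functions
  have hcoord' : ∀ w : Place k F, ∃ ω : F, w ∈ S → ω ≠ 0 ∧ w.ord ω = 1 ∧ C ω ∧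
      ∀ p : Ideal B, p.IsPrime → p.height = 1 → p ≤ n → algebraMap R B π ∉ p →
        p ≠ q w → IsUnitAt p ω := by
    intro w
    by_cases hw : w ∈ S
    · obtain ⟨hord, hB, hcn⟩ := (hS w).mp hw
      obtain ⟨ω, h0, h1, hc, h2⟩ := hcoord w hord hB hcn
      exact ⟨ω, fun _ => ⟨h0, h1, hc, by rw [hq w hB]; exact h2⟩⟩
    · exact ⟨1, fun h => absurd h hw⟩
  choose ω hω using hcoord'
  let kk : Place k F → ℤ := fun w => w.ord f / m
  have hG0 : (∏ w ∈ S, ω w ^ kk w) ≠ 0 :=
    Finset.prod_ne_zero_iff.mpr fun w hw => zpow_ne_zero _ (hω w hw).1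
  have hCG : C (∏ w ∈ S, ω w ^ kk w) :=
    pred_prod C hC1 hCmul S _ fun w hw => pred_zpow C hC1 hCmul hCinv (hω w hw).2.2.1 _
  refine ⟨∏ w ∈ S, ω w ^ kk w, hG0, hCG, ?_⟩
  intro p hp h1 hpn hπp
  haveI := hp
  -- a horizontal prime outside the centres of `S` is not a zero or pole of `f`
  have hother : (∀ w ∈ S, p ≠ q w) → IsUnitAt p f := by
    intro hne
    by_contra hcon
    have hord : (placeOfHorizontalPrime (k := k) π p h1 hπp).ord f ≠ 0 := fun h0 =>
      hcon ((ord_placeOfHorizontalPrime_eq_zero_iff π p h1 hπp hf0).mp h0)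
    have hB : ∀ b : B, algebraMap B F b ∈
        (placeOfHorizontalPrime (k := k) π p h1 hπp).toValuationSubring :=
      fun b => algebraMap_mem_valuationSubringAt h1 b
    have hc : centre (placeOfHorizontalPrime (k := k) π p h1 hπp).toValuationSubring hB = p :=
      centre_placeOfPrime p h1 _
    have hmem : placeOfHorizontalPrime (k := k) π p h1 hπp ∈ S := by
      rw [hS]
      exact ⟨hord, hB, by rw [hc]; exact hpn⟩
    exact hne _ hmem (by rw [hq _ hB, hc])
  by_cases hm : m = 0
  · -- `m = 0` forces `ord_w f = 0` everywhere; `S = ∅`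
    subst hm
    have hS0 : S = ∅ := by
      rw [Finset.eq_empty_iff_forall_notMem]
      intro w hw
      have := hdiv w
      simp only [Nat.cast_zero, zero_dvd_iff] at this
      exact ((hS w).mp hw).1 this
    rw [pow_zero, div_one]
    exact hother (by rw [hS0]; simp)
  · refine isUnitAt_div_localEq S q ?_ ω kk f m p
      (fun w hw hne => (hω w hw).2.2.2 p hp h1 hpn hπp hne) ?_ hother
    · -- injectivity of the centre
      intro w hw w' hw' hqq
      obtain ⟨-, hB, -⟩ := (hS w).mp hw
      obtain ⟨-, hB', -⟩ := (hS w').mp hw'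
      rw [hq w hB, hq w' hB'] at hqq
      apply Place.ext
      ext x
      rw [mem_place_iff_memAt_centre π hπ J hint w hB,
        mem_place_iff_memAt_centre π hπ J hint w' hB', hqq]
    · -- orders at the points of `S`
      intro w hw hpw
      obtain ⟨-, hB, -⟩ := (hS w).mp hw
      haveI := centre_isPrime w.toValuationSubring hB
      obtain ⟨h1c, hv⟩ := eq_placeOfHorizontalPrime_centre π hπ J hint w hB
      have hwV : w.toValuationSubring =
          valuationSubringAt (K := F) (centre w.toValuationSubring hB) h1c :=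
        congrArg Place.toValuationSubring hv
      obtain ⟨c, hc⟩ := hdiv w
      have hk : w.ord f = m * kk w := by
        show w.ord f = m * (w.ord f / m)
        rw [hc, Int.mul_ediv_cancel_left _ (by exact_mod_cast hm)]
      have := isUnitAt_div_pow_of_ord w (centre w.toValuationSubring hB) h1c hwV (hω w hw).1 hf0
        (hω w hw).2.1 (kk w) m hk
      rw [hpw, hq w hB]
      exact this

end Fermat.Agent.S35.H12
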