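/-
helper12 — S35 (row G2, instance side): the provider of the hypothesis `hcoord` of
`S35.H12.exists_local_generator` / `S35.H8.exists_localEq_of_places` from the L1 output, WITHOUT
any automorphism and WITHOUT the alternative "stable".  Same setting and binders as helper56's
`S34.H56_CoordGlue` (`A₁` the unramified base, `R` the DVR `A''`, `B₁` the `A₁`-chart, `B` the
`R`-chart, `n` a closed point of `B` over `π`, `n₁ = n ∩ B₁`, `O₁ = (B₁)_{n₁}`, `O = B_n`).

* `pointExt₁_eq` : the `A₁`-point of `O₁` attached to an evaluation `ev` is unique.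
* `coord_of_served_spec` : `H56.exists_coord_of_served` with the coordinate function named:
  `ω = x - x(P)`.
* `exists_coord_of_node_served_aux` : node with ONE FIXED Morse tower `(xs, ys)`: a point which is
  served at some level of the tower has a single-zero coordinate function.
* `exists_coord_of_smooth_vert_aux` : smooth point: the coordinate function is moreover a unit at
  every vertical height-one prime through `n`.
* `exists_coord_of_node_served`, `exists_coord_of_smooth_vert` : the same for a place of degree one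
  over a DVR `R` (evaluation produced by helper3's `exists_eval_of_rational`).
* `exists_generator_of_node_served`, `exists_generator_of_smooth` : the local generator `G` of
  `(1/m) div f` at `n` (`S35.H12.exists_local_generator` with `hcoord` discharged).
-/
import Mathlib
import Fermat.Agent.S34.H56_CoordGlue
import Fermat.Agent.S35.H8_LocalEqPlaces
import Fermat.Agent.S35.H12_LocalGenerator

set_option autoImplicit false
set_option linter.unusedSectionVars false
set_option linter.style.haveILetI false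

namespace Fermat.Agent.S35.H12

open Polynomial IsLocalRing Fermat.Agent.S34.H3 Fermat.Agent.CA.H42 AlgebraicCurve
open Fermat.Agent.CA Fermat.Agent.S34.H56

variable {A₁ : Type*} [CommRing A₁]
variable {R k B F : Type*} [CommRing R] [IsDomain R] [Field k] [Algebra R k]
  [CommRing B] [IsDomain B] [Field F] [Algebra B F] [IsFractionRing B F]
  [Algebra R B] [Algebra k F] [Algebra R F] [IsScalarTower R B F] [IsScalarTower R k F]
  [IsNoetherianRing B] [IsIntegrallyClosed B]
variable [Algebra A₁ R]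
variable {B₁ : Type*} [CommRing B₁] [Algebra A₁ B₁] [Algebra B₁ B]
variable (n₁ : Ideal B₁) [hn₁p : n₁.IsPrime] (O₁ : Type*) [CommRing O₁] [Algebra B₁ O₁]
  [IsLocalization.AtPrime O₁ n₁] [Algebra A₁ O₁] [IsScalarTower A₁ B₁ O₁] [IsLocalRing O₁]
variable (n : Ideal B) [hn : n.IsMaximal] (O : Type*) [CommRing O] [Algebra B O]
  [IsLocalization.AtPrime O n] [Algebra R O] [IsScalarTower R B O]
  [Algebra O F] [IsScalarTower B O F] [IsNoetherianRing O] [IsLocalRing O]

section Unique

/-- The `A₁`-point of `O₁` attached to the evaluation `ev` is unique: any `PO` which agrees with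
`ev` on `B₁` is `pointExt₁`. -/
theorem pointExt₁_eq (hn₁ : n.comap (algebraMap B₁ B) = n₁)
    (hcomp : ∀ a : A₁, algebraMap B₁ B (algebraMap A₁ B₁ a) = algebraMap R B (algebraMap A₁ R a))
    (ev : B →ₐ[R] R) (hu : ∀ b, b ∉ n → IsUnit (ev b)) (PO : O₁ →ₐ[A₁] R)
    (hPO : ∀ b : B₁, PO (algebraMap B₁ O₁ b) = ev (algebraMap B₁ B b)) :
    PO = pointExt₁ n₁ O₁ n O hn₁ hcomp ev hu := by
  have h : (PO : O₁ →+* R) = (pointExt₁ n₁ O₁ n O hn₁ hcomp ev hu : O₁ →+* R) := by
    refine IsLocalization.ringHom_ext n₁.primeCompl ?_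
    ext b
    simp only [RingHom.comp_apply, RingHom.coe_coe]
    rw [hPO, pointExt₁_algebraMap]
  exact AlgHom.ext fun z => RingHom.congr_fun h z

end Unique

section Spec

/-- **Coordinate function of a served point, named**: `ω = x - x(P)`. -/
theorem coord_of_served_spec (π : R) (hπ : π ≠ 0) (hπu : ¬ IsUnit π)
    (hRloc : ∀ r : R, ¬ π ∣ r → IsUnit r) [IsLocalization.Away π k] (J : B)
    (hint : ∀ b : B, (aeval (R := R) J : R[X] →ₐ[R] B).toRingHom.IsIntegralElem b)
    (w : Place k F) (hB : ∀ b : B, algebraMap B F b ∈ w.toValuationSubring)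
    (hcn : centre w.toValuationSubring hB ≤ n)
    (ev : B →ₐ[R] R) (hev0 : ∀ b, ev b = 0 ↔ b ∈ centre w.toValuationSubring hB)
    (hevn : ∀ b ∈ n, π ∣ ev b)
    (x y G : O) (c δ : R)
    (hxy : x * y = algebraMap R O c + algebraMap R O
      (pointExt n O ev (isUnit_ev_of_notMem π hπu hRloc n ev hevn) x * δ) * G)
    (hδ : π ∣ δ) (hπO : algebraMap R O π ∈ maximalIdeal O)
    (hmax : maximalIdeal O ≤ Ideal.span {x, y, algebraMap R O π})
    (hxm : x ∈ maximalIdeal O) (hym : y ∈ maximalIdeal O)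
    (hβ : ∃ e : ℕ, pointExt n O ev (isUnit_ev_of_notMem π hπu hRloc n ev hevn) x ∣ π ^ e) :
    algebraMap O F (x - algebraMap R O
        (pointExt n O ev (isUnit_ev_of_notMem π hπu hRloc n ev hevn) x)) ≠ 0 ∧
      w.ord (algebraMap O F (x - algebraMap R O
        (pointExt n O ev (isUnit_ev_of_notMem π hπu hRloc n ev hevn) x))) = 1 ∧
      (∀ p : Ideal B, p.IsPrime → p.height = 1 → p ≤ n → algebraMap R B π ∉ p →
        p ≠ centre w.toValuationSubring hB →
        IsUnitAt p (algebraMap O F (x - algebraMap R O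
          (pointExt n O ev (isUnit_ev_of_notMem π hπu hRloc n ev hevn) x)))) ∧
      π ∣ pointExt n O ev (isUnit_ev_of_notMem π hπu hRloc n ev hevn) x := by
  set hu := isUnit_ev_of_notMem π hπu hRloc n ev hevn with hhu
  set PO := pointExt n O ev hu with hPO
  haveI hcp := centre_isPrime w.toValuationSubring hB
  obtain ⟨h1c, hv⟩ := eq_placeOfHorizontalPrime_centre π hπ J hint w hB
  have hwV : w.toValuationSubring =
      valuationSubringAt (K := F) (centre w.toValuationSubring hB) h1c :=
    congrArg Place.toValuationSubring hv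
  have hker : RingHom.ker (ev : B →+* R) = centre w.toValuationSubring hB := by
    ext b
    rw [RingHom.mem_ker]
    exact hev0 b
  have hker1 : (RingHom.ker (ev : B →+* R)).height = 1 := by rw [hker]; exact h1c
  -- `PO` maps the maximal ideal into `(π)`
  have hPOm : ∀ z ∈ maximalIdeal O, π ∣ PO z := by
    intro z hz
    by_contra hnd
    have hzu : IsUnit (PO z) := hRloc _ hnd
    obtain ⟨⟨a, s⟩, has⟩ := IsLocalization.surj n.primeCompl z
    have h2 : PO z * ev s = ev a := by
      have := congrArg PO has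
      rwa [map_mul, hPO, pointExt_algebraMap, pointExt_algebraMap] at this
    have han : a ∉ n := by
      intro han
      have h3 : π ∣ ev a := hevn a han
      rw [← h2] at h3
      have h4 : IsUnit (PO z * ev s) := hzu.mul (hu s s.2)
      exact hπu (isUnit_of_dvd_unit h3 h4)
    have hau : IsUnit (algebraMap B O a) :=
      IsLocalization.map_units O (⟨a, han⟩ : n.primeCompl)
    rw [← has] at hau
    exact (mem_maximalIdeal z).mp hz (isUnit_of_mul_isUnit_left hau)
  have hx := hPOm x hxm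
  have hy := hPOm y hym
  set ω0 : O := x - algebraMap R O (PO x) with hω0
  have hω0ker : PO ω0 = 0 := by
    rw [hω0, map_sub, AlgHom.commutes]
    simp
  have hord : w.ord (algebraMap O F ω0) = 1 := by
    refine ord_eq_one_of_generates w (centre w.toValuationSubring hB) h1c hwV _
      (memAt_algebraMap_of_le n O _ hcn ω0) ?_ ?_
    · -- not a unit at the centre
      rintro ⟨a', b', ha', hb', hab'⟩
      obtain ⟨⟨a, s⟩, has⟩ := IsLocalization.surj n.primeCompl ω0
      have hac : a ∈ centre w.toValuationSubring hB := by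
        rw [← hev0]
        have := congrArg PO has
        rw [map_mul, hω0ker, zero_mul, hPO, pointExt_algebraMap] at this
        exact this.symm
      have hF : algebraMap O F ω0 * algebraMap B F s = algebraMap B F a := by
        have := congrArg (algebraMap O F) has
        rwa [map_mul, ← IsScalarTower.algebraMap_apply, ← IsScalarTower.algebraMap_apply] at this
      have h5 : algebraMap B F (a * b') = algebraMap B F (a' * s) := by
        rw [map_mul, map_mul, ← hF, ← hab']; ring
      have h6 : a * b' = a' * s := (IsFractionRing.injective B F) h5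
      have h7 : a' * s ∈ centre w.toValuationSubring hB := h6 ▸ Ideal.mul_mem_right _ _ hac
      rcases Ideal.IsPrime.mem_or_mem hcp h7 with h | h
      · exact ha' h
      · exact s.2 (hcn h)
    · intro b hb
      have hb0 : ev b = 0 := (hev0 b).mpr hb
      obtain ⟨d, hd, hde⟩ := exists_eq_mul_of_mem_ker (K := F) n O ev hu (by rw [hker]; exact hcn)
        x y G c δ π hxy hδ hπ hπO hmax hx hy hβ b hb0
      rw [hker] at hd
      exact ⟨d, hd, hde⟩
  refine ⟨?_, hord, ?_, hx⟩
  · intro h0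
    rw [h0, Place.ord_zero] at hord
    exact zero_ne_one hord
  · intro p hp h1 hpn hπp hne
    haveI := hp
    exact isUnitAt_coord_sub n O ev hu x y G c δ π hxy hδ hπ hπO hmax hx hy hβ p h1 hpn hπp
      hker1 (by rw [hker]; exact hne)

end Spec

section Node

include O in
/-- **Node, fixed tower, served point ⇒ coordinate function** (with an auxiliary model `O` of
`B_n`).  `PO` is ANY `A₁`-point of `O₁` agreeing with `ev` on `B₁` (it is unique,
`pointExt₁_eq`). -/
theorem exists_coord_of_node_served_aux (π : R) (hπ : π ≠ 0) (hπu : ¬ IsUnit π)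
    (hRloc : ∀ r : R, ¬ π ∣ r → IsUnit r) (hdvr : ∀ r : R, r ≠ 0 → ∃ e : ℕ, r ∣ π ^ e)
    (htot : ∀ a b : R, a ∣ b ∨ b ∣ a)
    [IsLocalization.Away π k] (J : B)
    (hint : ∀ b : B, (aeval (R := R) J : R[X] →ₐ[R] B).toRingHom.IsIntegralElem b)
    (q : A₁) (hq0 : algebraMap A₁ R q ≠ 0) (hπq : π ∣ algebraMap A₁ R q)
    (hπn : algebraMap R B π ∈ n)
    (hcomp : ∀ a : A₁, algebraMap B₁ B (algebraMap A₁ B₁ a) = algebraMap R B (algebraMap A₁ R a))
    (hn₁ : n.comap (algebraMap B₁ B) = n₁)
    (hnn : n ≤ Ideal.map (algebraMap B₁ B) n₁ ⊔ Ideal.span {algebraMap R B π})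
    (x y : O₁) (hxm : x ∈ maximalIdeal O₁) (hym : y ∈ maximalIdeal O₁)
    (hmax₁ : maximalIdeal O₁ ≤ Ideal.span {algebraMap A₁ O₁ q, x, y})
    {xs ys Gs : ℕ → O₁} {cs : ℕ → A₁} (hT : H47.IsMorseTower q x y xs ys Gs cs)
    (w : Place k F) (hB : ∀ b : B, algebraMap B F b ∈ w.toValuationSubring)
    (hcn : centre w.toValuationSubring hB ≤ n)
    (ev : B →ₐ[R] R) (hev0 : ∀ b, ev b = 0 ↔ b ∈ centre w.toValuationSubring hB)
    (hevn : ∀ b ∈ n, π ∣ ev b)
    (PO : O₁ →ₐ[A₁] R) (hPO : ∀ b : B₁, PO (algebraMap B₁ O₁ b) = ev (algebraMap B₁ B b))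
    (hserved : ∃ N, H47.Served q xs ys PO N) :
    ∃ ω : F, ω ≠ 0 ∧ w.ord ω = 1 ∧
      ∀ p : Ideal B, p.IsPrime → p.height = 1 → p ≤ n → algebraMap R B π ∉ p →
        p ≠ centre w.toValuationSubring hB → IsUnitAt p ω := by
  have hu := isUnit_ev_of_notMem π hπu hRloc n ev hevn
  have hPOeq : PO = pointExt₁ n₁ O₁ n O hn₁ hcomp ev hu :=
    pointExt₁_eq n₁ O₁ n O hn₁ hcomp ev hu PO hPO
  subst hPOeq
  have hqO₁ : algebraMap A₁ O₁ q ∈ maximalIdeal O₁ := by
    rw [IsScalarTower.algebraMap_apply A₁ B₁ O₁,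
      IsLocalization.AtPrime.to_map_mem_maximal_iff O₁ n₁, ← hn₁]
    show algebraMap B₁ B (algebraMap A₁ B₁ q) ∈ n
    rw [hcomp]
    obtain ⟨d, hd⟩ := hπq
    rw [hd, map_mul]
    exact Ideal.mul_mem_right _ _ hπn
  -- the level data
  have hlev : ∀ N, xs N ∈ maximalIdeal O₁ ∧ ys N ∈ maximalIdeal O₁ ∧
      maximalIdeal O₁ ≤ Ideal.span {algebraMap A₁ O₁ q, xs N, ys N} := by
    intro N
    obtain ⟨⟨⟨u, hu'⟩, ⟨v, hv⟩, -⟩, -, -⟩ := hT N
    refine ⟨?_, ?_, hmax₁.trans ?_⟩
    · rw [hu']
      exact Ideal.add_mem _ hxm (Ideal.mul_mem_right _ _ hqO₁)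
    · rw [hv]
      exact Ideal.add_mem _ hym (Ideal.mul_mem_right _ _ hqO₁)
    · rw [Ideal.span_le]
      intro z hz
      simp only [Set.mem_insert_iff, Set.mem_singleton_iff] at hz
      have hq' : algebraMap A₁ O₁ q ∈
          Ideal.span {algebraMap A₁ O₁ q, xs N, ys N} := Ideal.subset_span (Or.inl rfl)
      rcases hz with rfl | rfl | rfl
      · exact hq'
      · have : z = xs N - algebraMap A₁ O₁ q * u := by rw [hu']; ring
        rw [this]
        exact Ideal.sub_mem _ (Ideal.subset_span (Or.inr (Or.inl rfl)))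
          (Ideal.mul_mem_right _ _ hq')
      · have : z = ys N - algebraMap A₁ O₁ q * v := by rw [hv]; ring
        rw [this]
        exact Ideal.sub_mem _ (Ideal.subset_span (Or.inr (Or.inr rfl)))
          (Ideal.mul_mem_right _ _ hq')
  obtain ⟨N, hN⟩ := hserved
  obtain ⟨hxN, hyN, hmaxN⟩ := hlev N
  obtain ⟨-, -, hmul⟩ := (hT N).1
  rcases hN with hN | hN
  · exact exists_coord_of_level n₁ O₁ n O π hπ hπu hRloc hdvr htot J hint q hq0 hπq hπn hcomp
      hn₁ hnn w hB hcn ev hev0 hevn (xs N) (ys N) (Gs N) (cs N) N hmul hxN hyN hmaxN hN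
  · refine exists_coord_of_level n₁ O₁ n O π hπ hπu hRloc hdvr htot J hint q hq0 hπq hπn hcomp
      hn₁ hnn w hB hcn ev hev0 hevn (ys N) (xs N) (Gs N) (cs N) N (by rw [mul_comm]; exact hmul)
      hyN hxN ?_ hN
    refine hmaxN.trans (le_of_eq ?_)
    congr 1
    ext z
    simp only [Set.mem_insert_iff, Set.mem_singleton_iff]
    tauto

end Node

section Smooth

include O in
/-- **Smooth point, with the vertical clause** (with an auxiliary model `O` of `B_n`): the
coordinate function `ω = t - t(P)` (`𝔪_O = (t, π)`) is a unit at every vertical height-one prime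
through `n`. -/
theorem exists_coord_of_smooth_vert_aux (π : R) (hπ : π ≠ 0) (hπu : ¬ IsUnit π)
    (hRloc : ∀ r : R, ¬ π ∣ r → IsUnit r) (hdvr : ∀ r : R, r ≠ 0 → ∃ e : ℕ, r ∣ π ^ e)
    [IsLocalization.Away π k] (J : B)
    (hint : ∀ b : B, (aeval (R := R) J : R[X] →ₐ[R] B).toRingHom.IsIntegralElem b)
    (q : A₁) (hπq : π ∣ algebraMap A₁ R q)
    (hπn : algebraMap R B π ∈ n)
    (hcomp : ∀ a : A₁, algebraMap B₁ B (algebraMap A₁ B₁ a) = algebraMap R B (algebraMap A₁ R a))
    (hn₁ : n.comap (algebraMap B₁ B) = n₁)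
    (hnn : n ≤ Ideal.map (algebraMap B₁ B) n₁ ⊔ Ideal.span {algebraMap R B π})
    (τ : O₁) (hτm : τ ∈ maximalIdeal O₁)
    (hmax₁ : maximalIdeal O₁ ≤ Ideal.span {algebraMap A₁ O₁ q, τ})
    (w : Place k F) (hB : ∀ b : B, algebraMap B F b ∈ w.toValuationSubring)
    (hcn : centre w.toValuationSubring hB ≤ n)
    (ev : B →ₐ[R] R) (hev0 : ∀ b, ev b = 0 ↔ b ∈ centre w.toValuationSubring hB)
    (hevn : ∀ b ∈ n, π ∣ ev b) :
    ∃ ω : F, ω ≠ 0 ∧ w.ord ω = 1 ∧
      (∀ p : Ideal B, p.IsPrime → p.height = 1 → p ≤ n → algebraMap R B π ∉ p →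
        p ≠ centre w.toValuationSubring hB → IsUnitAt p ω) ∧
      ∀ P : Ideal B, P.IsPrime → P.height = 1 → P ≤ n → algebraMap R B π ∈ P → IsUnitAt P ω := by
  set φ := locMap n₁ O₁ n O hn₁ with hφ
  set hu := isUnit_ev_of_notMem π hπu hRloc n ev hevn with hhu
  have hπO : algebraMap R O π ∈ maximalIdeal O := by
    rw [IsScalarTower.algebraMap_apply R B O, IsLocalization.AtPrime.to_map_mem_maximal_iff O n]
    exact hπn
  have hφq : φ (algebraMap A₁ O₁ q) = algebraMap R O (algebraMap A₁ R q) :=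
    locMap_algebraMap_base n₁ O₁ n O hn₁ hcomp q
  have hmapm := map_locMap_maximalIdeal_le n₁ O₁ n O hn₁
  have hτm' : φ τ ∈ maximalIdeal O := hmapm (Ideal.mem_map_of_mem _ hτm)
  have hmax0 : maximalIdeal O ≤ Ideal.span {φ τ, algebraMap R O π} := by
    refine (maximalIdeal_le_map_locMap_sup n₁ O₁ n O hn₁ π hnn).trans ?_
    refine sup_le ?_ ?_
    · refine (Ideal.map_mono hmax₁).trans ?_
      rw [Ideal.map_span, Ideal.span_le]
      rintro _ ⟨z, hz, rfl⟩
      simp only [Set.mem_insert_iff, Set.mem_singleton_iff] at hz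
      rcases hz with rfl | rfl
      · rw [hφq]
        obtain ⟨d, hd⟩ := hπq
        rw [hd, map_mul]
        exact Ideal.mul_mem_right _ _ (Ideal.subset_span (Or.inr rfl))
      · exact Ideal.subset_span (Or.inl rfl)
    · rw [Ideal.span_le]
      rintro _ rfl
      exact Ideal.subset_span (Or.inr rfl)
  -- the coordinate: `t := φ τ` or `φ τ + π`
  obtain ⟨t, htm, hmax2, hmax, hβe⟩ : ∃ t : O, t ∈ maximalIdeal O ∧
      maximalIdeal O ≤ Ideal.span {t, algebraMap R O π} ∧
      maximalIdeal O ≤ Ideal.span {t, 0, algebraMap R O π} ∧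
      ∃ e : ℕ, pointExt n O ev hu t ∣ π ^ e := by
    by_cases h0 : pointExt n O ev hu (φ τ) = 0
    · have hπ' : algebraMap R O π ∈ Ideal.span {φ τ + algebraMap R O π, algebraMap R O π} :=
        Ideal.subset_span (Or.inr rfl)
      have hle2 : maximalIdeal O ≤ Ideal.span {φ τ + algebraMap R O π, algebraMap R O π} := by
        refine hmax0.trans ?_
        rw [Ideal.span_le]
        intro z hz
        simp only [Set.mem_insert_iff, Set.mem_singleton_iff] at hz
        rcases hz with rfl | rfl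
        · have h2 := Ideal.sub_mem _
            (Ideal.subset_span (show φ τ + algebraMap R O π ∈
              ({φ τ + algebraMap R O π, algebraMap R O π} : Set O) from Or.inl rfl)) hπ'
          rwa [add_sub_cancel_right] at h2
        · exact hπ'
      refine ⟨φ τ + algebraMap R O π, Ideal.add_mem _ hτm' hπO, hle2, hle2.trans ?_, 1, ?_⟩
      · refine Ideal.span_mono ?_
        intro z hz
        simp only [Set.mem_insert_iff, Set.mem_singleton_iff] at hz ⊢
        tauto
      · rw [map_add, h0, zero_add, AlgHom.commutes, pow_one]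
        exact dvd_refl _
    · refine ⟨φ τ, hτm', hmax0, hmax0.trans ?_, hdvr _ h0⟩
      refine Ideal.span_mono ?_
      intro z hz
      simp only [Set.mem_insert_iff, Set.mem_singleton_iff] at hz ⊢
      tauto
  obtain ⟨hne0, hord, hhor, hπβ⟩ := coord_of_served_spec n O π hπ hπu hRloc J hint w hB hcn ev
    hev0 hevn t 0 0 0 0 (by simp) (dvd_zero _) hπO hmax htm (Ideal.zero_mem _) hβe
  refine ⟨_, hne0, hord, hhor, ?_⟩
  intro P hP h1 hPn hπP
  haveI := hP
  -- `P ≠ n`: otherwise the (horizontal, height one) centre of `w` would be `P ∋ π`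
  haveI hcp := centre_isPrime w.toValuationSubring hB
  obtain ⟨h1c, -⟩ := eq_placeOfHorizontalPrime_centre π hπ J hint w hB
  have hπc : algebraMap R B π ∉ centre w.toValuationSubring hB := by
    intro hmem
    have h0 : ev (algebraMap R B π) = 0 := (hev0 _).mpr hmem
    rw [AlgHom.commutes] at h0
    exact hπ h0
  have hPne : P ≠ n := by
    intro hPn'
    have hle : centre w.toValuationSubring hB ≤ P := hPn' ▸ hcn
    have heq : centre w.toValuationSubring hB = P :=
      Ideal.eq_of_le_of_height_le (I := centre w.toValuationSubring hB) (J := P) hle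
        (by rw [h1, h1c])
    exact hπc (heq ▸ hπP)
  have hϖ : algebraMap R O π ∈ P.map (algebraMap B O) := by
    rw [IsScalarTower.algebraMap_apply R B O]
    exact Ideal.mem_map_of_mem _ hπP
  have hβP : algebraMap R O (pointExt n O ev hu t) ∈ P.map (algebraMap B O) := by
    obtain ⟨d, hd⟩ := hπβ
    rw [hd, map_mul]
    exact Ideal.mul_mem_right _ _ hϖ
  exact H8.isUnitAt_sub_of_smooth n O P hPn hPne t (algebraMap R O π)
    (algebraMap R O (pointExt n O ev hu t)) hϖ hβP hmax2

end Smooth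

section Final

variable [IsDiscreteValuationRing R] [IsFractionRing R k]

/-- **`hcoord` at a node from one fixed Morse tower.** `R` a DVR with uniformiser `π`,
`k = Frac R`.  A place of degree one centred in the residue disc of the node `n`, whose point is
served at some level of the tower, has a single-zero coordinate function.  (The hypothesis
`hserved` is asked for every evaluation `ev` with kernel the centre and every `A₁`-point `PO` of
`O₁` agreeing with it: both are unique.) -/
theorem exists_coord_of_node_served (π : R) (hπ : Irreducible π) (J : B)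
    (hint : ∀ b : B, (aeval (R := R) J : R[X] →ₐ[R] B).toRingHom.IsIntegralElem b)
    (q : A₁) (hq0 : algebraMap A₁ R q ≠ 0) (hπq : π ∣ algebraMap A₁ R q)
    (hπn : algebraMap R B π ∈ n)
    (hcomp : ∀ a : A₁, algebraMap B₁ B (algebraMap A₁ B₁ a) = algebraMap R B (algebraMap A₁ R a))
    (hn₁ : n.comap (algebraMap B₁ B) = n₁)
    (hnn : n ≤ Ideal.map (algebraMap B₁ B) n₁ ⊔ Ideal.span {algebraMap R B π})
    (x y : O₁) (hxm : x ∈ maximalIdeal O₁) (hym : y ∈ maximalIdeal O₁)
    (hmax₁ : maximalIdeal O₁ ≤ Ideal.span {algebraMap A₁ O₁ q, x, y})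
    {xs ys Gs : ℕ → O₁} {cs : ℕ → A₁} (hT : H47.IsMorseTower q x y xs ys Gs cs)
    (w : Place k F) (hdeg : w.deg = 1)
    (hB : ∀ b : B, algebraMap B F b ∈ w.toValuationSubring)
    (hcn : centre w.toValuationSubring hB ≤ n)
    (hserved : ∀ ev : B →ₐ[R] R, (∀ b, ev b = 0 ↔ b ∈ centre w.toValuationSubring hB) →
      ∀ PO : O₁ →ₐ[A₁] R, (∀ b : B₁, PO (algebraMap B₁ O₁ b) = ev (algebraMap B₁ B b)) →
        ∃ N, H47.Served q xs ys PO N) :
    ∃ ω : F, ω ≠ 0 ∧ w.ord ω = 1 ∧
      ∀ p : Ideal B, p.IsPrime → p.height = 1 → p ≤ n → algebraMap R B π ∉ p →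
        p ≠ centre w.toValuationSubring hB → IsUnitAt p ω := by
  haveI := isLocalization_away_of_dvr (k := k) hπ
  have hπ0 := hπ.ne_zero
  have hπu := hπ.not_isUnit
  have hRloc := isUnit_of_not_dvd_of_dvr hπ
  have hdvr := exists_dvd_pow_of_dvr hπ
  obtain ⟨ev, hev0, hevn, -⟩ := exists_eval_of_rational π (IsFractionRing.injective R k)
    (hval_of_dvr hπ) (fun c hc => IsIntegrallyClosed.algebraMap_eq_of_integral hc) J hint w hB
    (hrat_of_deg_eq_one w hdeg) n hn.ne_top hcn hπn
  letI : Algebra (Localization.AtPrime n) F :=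
    (IsLocalization.lift (M := n.primeCompl) (S := Localization.AtPrime n) (g := algebraMap B F)
      (fun y => IsUnit.mk0 _ (by
        have : (y : B) ≠ 0 := fun h => y.2 (h ▸ n.zero_mem)
        exact (map_ne_zero_iff _ (IsFractionRing.injective B F)).mpr this))).toAlgebra
  haveI : IsScalarTower B (Localization.AtPrime n) F :=
    IsScalarTower.of_algebraMap_eq fun b => (IsLocalization.lift_eq _ b).symm
  haveI : IsNoetherianRing (Localization.AtPrime n) :=
    IsLocalization.isNoetherianRing n.primeCompl _ inferInstance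
  have hu := isUnit_ev_of_notMem π hπu hRloc n ev hevn
  exact exists_coord_of_node_served_aux n₁ O₁ n (Localization.AtPrime n) π hπ0 hπu hRloc hdvr
    ValuationRing.dvd_total J hint q hq0 hπq hπn hcomp hn₁ hnn x y hxm hym hmax₁ hT w hB hcn ev
    hev0 hevn (pointExt₁ n₁ O₁ n (Localization.AtPrime n) hn₁ hcomp ev hu)
    (pointExt₁_algebraMap n₁ O₁ n (Localization.AtPrime n) hn₁ hcomp ev hu)
    (hserved ev hev0 _ (pointExt₁_algebraMap n₁ O₁ n (Localization.AtPrime n) hn₁ hcomp ev hu))

/-- **`hcoord` at a smooth point, with the vertical clause.** -/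
theorem exists_coord_of_smooth_vert (π : R) (hπ : Irreducible π) (J : B)
    (hint : ∀ b : B, (aeval (R := R) J : R[X] →ₐ[R] B).toRingHom.IsIntegralElem b)
    (q : A₁) (hπq : π ∣ algebraMap A₁ R q)
    (hπn : algebraMap R B π ∈ n)
    (hcomp : ∀ a : A₁, algebraMap B₁ B (algebraMap A₁ B₁ a) = algebraMap R B (algebraMap A₁ R a))
    (hn₁ : n.comap (algebraMap B₁ B) = n₁)
    (hnn : n ≤ Ideal.map (algebraMap B₁ B) n₁ ⊔ Ideal.span {algebraMap R B π})
    (τ : O₁) (hτm : τ ∈ maximalIdeal O₁)
    (hmax₁ : maximalIdeal O₁ ≤ Ideal.span {algebraMap A₁ O₁ q, τ})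
    (w : Place k F) (hdeg : w.deg = 1)
    (hB : ∀ b : B, algebraMap B F b ∈ w.toValuationSubring)
    (hcn : centre w.toValuationSubring hB ≤ n) :
    ∃ ω : F, ω ≠ 0 ∧ w.ord ω = 1 ∧
      (∀ p : Ideal B, p.IsPrime → p.height = 1 → p ≤ n → algebraMap R B π ∉ p →
        p ≠ centre w.toValuationSubring hB → IsUnitAt p ω) ∧
      ∀ P : Ideal B, P.IsPrime → P.height = 1 → P ≤ n → algebraMap R B π ∈ P → IsUnitAt P ω := by
  haveI := isLocalization_away_of_dvr (k := k) hπ
  have hπ0 := hπ.ne_zero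
  have hπu := hπ.not_isUnit
  have hRloc := isUnit_of_not_dvd_of_dvr hπ
  have hdvr := exists_dvd_pow_of_dvr hπ
  obtain ⟨ev, hev0, hevn, -⟩ := exists_eval_of_rational π (IsFractionRing.injective R k)
    (hval_of_dvr hπ) (fun c hc => IsIntegrallyClosed.algebraMap_eq_of_integral hc) J hint w hB
    (hrat_of_deg_eq_one w hdeg) n hn.ne_top hcn hπn
  letI : Algebra (Localization.AtPrime n) F :=
    (IsLocalization.lift (M := n.primeCompl) (S := Localization.AtPrime n) (g := algebraMap B F)
      (fun y => IsUnit.mk0 _ (by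
        have : (y : B) ≠ 0 := fun h => y.2 (h ▸ n.zero_mem)
        exact (map_ne_zero_iff _ (IsFractionRing.injective B F)).mpr this))).toAlgebra
  haveI : IsScalarTower B (Localization.AtPrime n) F :=
    IsScalarTower.of_algebraMap_eq fun b => (IsLocalization.lift_eq _ b).symm
  haveI : IsNoetherianRing (Localization.AtPrime n) :=
    IsLocalization.isNoetherianRing n.primeCompl _ inferInstance
  exact exists_coord_of_smooth_vert_aux n₁ O₁ n (Localization.AtPrime n) π hπ0 hπu hRloc hdvr J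
    hint q hπq hπn hcomp hn₁ hnn τ hτm hmax₁ w hB hcn ev hev0 hevn

/-- **Local generator at a NODE** (`exists_local_generator` with `hcoord` discharged by
`exists_coord_of_node_served`): if every zero/pole of `f` centred in the residue disc of the node
`n` has degree one and is served by the fixed tower, then `(1/m) div f` has a local generator at
`n` (horizontal part). -/
theorem exists_generator_of_node_served (π : R) (hπ : Irreducible π) (J : B)
    (hint : ∀ b : B, (aeval (R := R) J : R[X] →ₐ[R] B).toRingHom.IsIntegralElem b)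
    (q : A₁) (hq0 : algebraMap A₁ R q ≠ 0) (hπq : π ∣ algebraMap A₁ R q)
    (hπn : algebraMap R B π ∈ n)
    (hcomp : ∀ a : A₁, algebraMap B₁ B (algebraMap A₁ B₁ a) = algebraMap R B (algebraMap A₁ R a))
    (hn₁ : n.comap (algebraMap B₁ B) = n₁)
    (hnn : n ≤ Ideal.map (algebraMap B₁ B) n₁ ⊔ Ideal.span {algebraMap R B π})
    (x y : O₁) (hxm : x ∈ maximalIdeal O₁) (hym : y ∈ maximalIdeal O₁)
    (hmax₁ : maximalIdeal O₁ ≤ Ideal.span {algebraMap A₁ O₁ q, x, y})
    {xs ys Gs : ℕ → O₁} {cs : ℕ → A₁} (hT : H47.IsMorseTower q x y xs ys Gs cs)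
    (f : F) (hf0 : f ≠ 0) (m : ℕ)
    (hdiv : ∀ w : Place k F, (m : ℤ) ∣ w.ord f)
    (hdeg : ∀ w : Place k F, w.ord f ≠ 0 → w.deg = 1)
    (hfin : {w : Place k F | w.ord f ≠ 0}.Finite)
    (hserved : ∀ w : Place k F, w.ord f ≠ 0 →
      ∀ hB : (∀ b : B, algebraMap B F b ∈ w.toValuationSubring),
        centre w.toValuationSubring hB ≤ n →
        ∀ ev : B →ₐ[R] R, (∀ b, ev b = 0 ↔ b ∈ centre w.toValuationSubring hB) →
          ∀ PO : O₁ →ₐ[A₁] R, (∀ b : B₁, PO (algebraMap B₁ O₁ b) = ev (algebraMap B₁ B b)) →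
            ∃ N, H47.Served q xs ys PO N) :
    ∃ G : F, G ≠ 0 ∧
      ∀ p : Ideal B, p.IsPrime → p.height = 1 → p ≤ n → algebraMap R B π ∉ p →
        IsUnitAt p (f / G ^ m) := by
  haveI := isLocalization_away_of_dvr (k := k) hπ
  obtain ⟨G, hG0, -, hG⟩ := exists_local_generator π hπ.ne_zero J hint n f hf0 m hdiv hfin
    (fun _ => True) trivial (fun _ _ _ _ => trivial) (fun _ _ => trivial)
    (fun w hw hB hcn => by
      obtain ⟨ω, h0, h1, h2⟩ := exists_coord_of_node_served n₁ O₁ n π hπ J hint q hq0 hπq hπn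
        hcomp hn₁ hnn x y hxm hym hmax₁ hT w (hdeg w hw) hB hcn (hserved w hw hB hcn)
      exact ⟨ω, h0, h1, trivial, h2⟩)
  exact ⟨G, hG0, hG⟩

/-- **Local generator at a SMOOTH point**: no served hypothesis, and the generator is a unit at
every vertical height-one prime through `n`. -/
theorem exists_generator_of_smooth (π : R) (hπ : Irreducible π) (J : B)
    (hint : ∀ b : B, (aeval (R := R) J : R[X] →ₐ[R] B).toRingHom.IsIntegralElem b)
    (q : A₁) (hπq : π ∣ algebraMap A₁ R q)
    (hπn : algebraMap R B π ∈ n)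
    (hcomp : ∀ a : A₁, algebraMap B₁ B (algebraMap A₁ B₁ a) = algebraMap R B (algebraMap A₁ R a))
    (hn₁ : n.comap (algebraMap B₁ B) = n₁)
    (hnn : n ≤ Ideal.map (algebraMap B₁ B) n₁ ⊔ Ideal.span {algebraMap R B π})
    (τ : O₁) (hτm : τ ∈ maximalIdeal O₁)
    (hmax₁ : maximalIdeal O₁ ≤ Ideal.span {algebraMap A₁ O₁ q, τ})
    (f : F) (hf0 : f ≠ 0) (m : ℕ)
    (hdiv : ∀ w : Place k F, (m : ℤ) ∣ w.ord f)
    (hdeg : ∀ w : Place k F, w.ord f ≠ 0 → w.deg = 1)
    (hfin : {w : Place k F | w.ord f ≠ 0}.Finite) :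
    ∃ G : F, G ≠ 0 ∧
      (∀ P : Ideal B, P.IsPrime → P.height = 1 → P ≤ n → algebraMap R B π ∈ P → IsUnitAt P G) ∧
      ∀ p : Ideal B, p.IsPrime → p.height = 1 → p ≤ n → algebraMap R B π ∉ p →
        IsUnitAt p (f / G ^ m) := by
  haveI := isLocalization_away_of_dvr (k := k) hπ
  exact exists_local_generator π hπ.ne_zero J hint n f hf0 m hdiv hfin
    (fun ω => ∀ P : Ideal B, P.IsPrime → P.height = 1 → P ≤ n → algebraMap R B π ∈ P →
      IsUnitAt P ω)
    (fun P hP _ _ _ => by haveI := hP; exact IsUnitAt.one P)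
    (fun a b ha hb P hP h1 hPn hπP => by
      haveI := hP
      exact (ha P hP h1 hPn hπP).mul (hb P hP h1 hPn hπP))
    (fun a ha P hP h1 hPn hπP => (ha P hP h1 hPn hπP).inv)
    (fun w hw hB hcn => by
      obtain ⟨ω, h0, h1, h2, h3⟩ := exists_coord_of_smooth_vert n₁ O₁ n π hπ J hint q hπq hπn
        hcomp hn₁ hnn τ hτm hmax₁ w (hdeg w hw) hB hcn
      exact ⟨ω, h0, h1, h3, h2⟩)

end Final

end Fermat.Agent.S35.H12
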