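/-
helper12 — S35 (step "Esc is finite"): at most ONE place of `FN N / Qbar` above a place of
degree one of `F_L = modularFunctionFieldFullC L N` (`L` a subfield of `Qbar`), i.e.
`CA.H12.eq_of_restrict_eq_of_deg_eq_one'` at `K = L`, `F = F_L`, `K' = Qbar`, `F' = FN N`,
`algebraMap F F' = toBar`.  Same instance setting as `S34.H65.admissible_of_divisor`.
-/
import Mathlib
import Fermat.Agent.CA.H12_PlaceAboveUnique
import Fermat.Agent.S18.H99_F1Basics

set_option autoImplicit false
set_option linter.unusedSectionVars false
set_option linter.style.haveILetI false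
set_option synthInstance.maxHeartbeats 400000

noncomputable section

namespace Fermat.Agent.S35.H12

open AlgebraicCurve ModularCurve
open Fermat.Agent.S24 Fermat.Agent.S18

local notation "Qbar" => AlgebraicClosure ℚ

variable (L : Type*) [Field L] [Algebra L Qbar] (N : ℕ) [NeZero N]
  [Algebra L (FN N)] [IsScalarTower L Qbar (FN N)] [Algebra.IsAlgebraic L Qbar]

/-- `FN N` is spanned over `toBar (F_L)` by the constants `Qbar`. -/
theorem span_range_algebraMap_Qbar_eq_top :
    letI := H99.toBarAlgebra L N
    Submodule.span (modularFunctionFieldFullC L N) (Set.range (algebraMap Qbar (FN N))) = ⊤ := by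
  letI := H99.toBarAlgebra L N
  haveI := H99.isScalarTower_toBar L N
  exact CA.H12.span_range_eq_top_of_adjoin_eq_top (K := L) (H99.adjoin_range_toBar_eq_top L N)

/-- **At most one place of `FN N / Qbar` above a place of degree one of `F_L / L`.** -/
theorem eq_of_toBar_mem_iff_of_deg_eq_one
    (w : Place L (modularFunctionFieldFullC L N)) (hdeg : w.deg = 1)
    (v v' : Place Qbar (FN N))
    (hv : ∀ f : modularFunctionFieldFullC L N,
      f ∈ w.toValuationSubring ↔ H99.toBar L N f ∈ v.toValuationSubring)
    (hv' : ∀ f : modularFunctionFieldFullC L N,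
      f ∈ w.toValuationSubring ↔ H99.toBar L N f ∈ v'.toValuationSubring) :
    v = v' := by
  letI := H99.toBarAlgebra L N
  haveI := H99.isScalarTower_toBar L N
  exact CA.H12.eq_of_restrict_eq_of_deg_eq_one (K := L) (span_range_algebraMap_Qbar_eq_top L N)
    w hdeg v v' hv hv'

end Fermat.Agent.S35.H12
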