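/-
helper12 — S35 row G2, abstract core: the RATIO LEMMA `(g1)` in chart form.

`B` a noetherian integrally closed domain (a chart `chartB A'' J^(±1)`), `K = Frac B`,
`Φ` an arbitrary automorphism of `K` preserving `B` (NO hypothesis `ΦB b - b ∈ (π)`:
`Φ = φ²` for a Frobenius lift `φ` moves the base ring), `n` a prime of `B` (a closed point of the
special fibre), `n' := Φ⁻¹ n = n.comap ΦB`.

If `G` is a local generator at `n` of the horizontal part of `(1/m) div f`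
(`f / G ^ m` is a unit at every horizontal height-one prime `≤ n`), and `G'` is one at `n'`,
then `Φ G'` is a local generator at `n` of `(1/m) div (Φ f)`, hence
`η := (Φ f / f) / (Φ G' / G) ^ m` is a unit at every horizontal height-one prime `≤ n`.
At the vertical height-one primes `P ≤ n` (stable under `Φ`) `Φ f / f` is a unit, and
`Φ G' / G` is a unit as soon as either `n' = n`, `G' = G` (nodes) or `G`, `G'` are vertical units
(smooth points).  Local Hartogs then gives `η ∈ (B_n)ˣ`.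

Everything is stated in helper56's vocabulary `IsUnitAt` / `MemAt` / `Stable`
(`Fermat.Agent.S34.H56`), "in the field".
-/
import Mathlib
import Fermat.Agent.S34.H56_LocalDatum
import Fermat.Agent.S34.H56_DatumAdapter

set_option autoImplicit false
set_option linter.unusedSectionVars false
set_option linter.style.haveILetI false

namespace Fermat.Agent.S35.H12

open Fermat.Agent.S34.H56 Fermat.Agent.S34.H47

variable {B K : Type*} [CommRing B] [IsDomain B] [Field K] [Algebra B K] [IsFractionRing B K]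
  [IsNoetherianRing B] [IsIntegrallyClosed B]

/-- Transport of a height-one prime along an automorphism. -/
theorem height_comap_eq_one (ΦB : B ≃+* B) (p : Ideal B) (h1 : p.height = 1) :
    (p.comap (ΦB : B →+* B)).height = 1 := by
  have := RingEquiv.height_comap ΦB p
  rw [← h1, ← this]; rfl

/-- The identity behind the ratio lemma. -/
theorem ratio_identity (Φ : K ≃+* K) {f G G' : K} (hf0 : f ≠ 0) (hG0 : G ≠ 0) (hG'0 : G' ≠ 0)
    (m : ℕ) :
    Φ f / f / (Φ G' / G) ^ m = Φ (f / G' ^ m) / (f / G ^ m) := by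
  have h1 : Φ G' ≠ 0 := (map_ne_zero Φ).mpr hG'0
  have h2 : Φ f ≠ 0 := (map_ne_zero Φ).mpr hf0
  rw [map_div₀, map_pow, div_pow]
  field_simp

/-- **RATIO LEMMA `(g1)`, chart form.**  `n' = n.comap ΦB`. -/
theorem isUnitAt_ratio (n : Ideal B) [hn : n.IsPrime] (π : B)
    (ΦB : B ≃+* B) (Φ : K ≃+* K)
    (hΦ : ∀ b, Φ (algebraMap B K b) = algebraMap B K (ΦB b))
    (hπ : ∀ p : Ideal B, p.IsPrime → (ΦB π ∈ p ↔ π ∈ p))
    (hvert : ∀ P : Ideal B, P.IsPrime → P.height = 1 → π ∈ P → P ≤ n → Stable ΦB P)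
    (f G G' : K) (hf0 : f ≠ 0) (hG0 : G ≠ 0) (hG'0 : G' ≠ 0) (m : ℕ)
    (hG : ∀ p : Ideal B, p.IsPrime → p.height = 1 → p ≤ n → π ∉ p → IsUnitAt p (f / G ^ m))
    (hG' : ∀ p : Ideal B, p.IsPrime → p.height = 1 → p ≤ n.comap (ΦB : B →+* B) → π ∉ p →
      IsUnitAt p (f / G' ^ m))
    (hGG' : ∀ P : Ideal B, P.IsPrime → P.height = 1 → P ≤ n → π ∈ P → IsUnitAt P (Φ G' / G)) :
    IsUnitAt n (Φ f / f / (Φ G' / G) ^ m) := by
  have hΦG' : Φ G' ≠ 0 := (map_ne_zero Φ).mpr hG'0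
  have hΦf : Φ f ≠ 0 := (map_ne_zero Φ).mpr hf0
  have hne : Φ f / f / (Φ G' / G) ^ m ≠ 0 :=
    div_ne_zero (div_ne_zero hΦf hf0) (pow_ne_zero _ (div_ne_zero hΦG' hG0))
  refine isUnitAt_of_forall_height_one_le n _ (fun p hp h1 hpn => ?_) hne
  haveI := hp
  by_cases hπp : π ∈ p
  · -- vertical prime
    have hst := hvert p hp h1 hπp hpn
    have hf' : IsUnitAt p (Φ f / f) :=
      isUnitAt_map_div_self_of_stable p h1 ΦB Φ hΦ hst f hf0
    exact hf'.div ((hGG' p hp h1 hpn hπp).pow m)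
  · -- horizontal prime
    rw [ratio_identity Φ hf0 hG0 hG'0 m]
    have hp' : (p.comap (ΦB : B →+* B)).IsPrime := Ideal.comap_isPrime _ _
    have h1' := height_comap_eq_one ΦB p h1
    have hpn' : p.comap (ΦB : B →+* B) ≤ n.comap (ΦB : B →+* B) := Ideal.comap_mono hpn
    have hπp' : π ∉ p.comap (ΦB : B →+* B) := fun h => hπp ((hπ p hp).mp h)
    exact (IsUnitAt.map hΦ (hG' _ hp' h1' hpn' hπp')).div (hG p hp h1 hpn hπp)

/-- Producer of `hGG'` at a `Φ`-fixed point (node): `G' = G`. -/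
theorem isUnitAt_map_div_self_vert (n : Ideal B) (π : B)
    (ΦB : B ≃+* B) (Φ : K ≃+* K)
    (hΦ : ∀ b, Φ (algebraMap B K b) = algebraMap B K (ΦB b))
    (hvert : ∀ P : Ideal B, P.IsPrime → P.height = 1 → π ∈ P → P ≤ n → Stable ΦB P)
    (G : K) (hG0 : G ≠ 0) :
    ∀ P : Ideal B, P.IsPrime → P.height = 1 → P ≤ n → π ∈ P → IsUnitAt P (Φ G / G) := by
  intro P hP h1 hPn hπP
  haveI := hP
  exact isUnitAt_map_div_self_of_stable P h1 ΦB Φ hΦ (hvert P hP h1 hπP hPn) G hG0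

/-- Producer of `hGG'` when `G`, `G'` are vertical units (smooth points, `n'` arbitrary). -/
theorem isUnitAt_map_div_of_vert_units (n : Ideal B) (π : B)
    (ΦB : B ≃+* B) (Φ : K ≃+* K)
    (hΦ : ∀ b, Φ (algebraMap B K b) = algebraMap B K (ΦB b))
    (hvert : ∀ P : Ideal B, P.IsPrime → P.height = 1 → π ∈ P → P ≤ n → Stable ΦB P)
    (G G' : K)
    (hGv : ∀ P : Ideal B, P.IsPrime → P.height = 1 → P ≤ n → π ∈ P → IsUnitAt P G)
    (hG'v : ∀ P : Ideal B, P.IsPrime → P.height = 1 → P ≤ n.comap (ΦB : B →+* B) → π ∈ P →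
      IsUnitAt P G') :
    ∀ P : Ideal B, P.IsPrime → P.height = 1 → P ≤ n → π ∈ P → IsUnitAt P (Φ G' / G) := by
  intro P hP h1 hPn hπP
  haveI := hP
  have hst := hvert P hP h1 hπP hPn
  -- `P.comap ΦB = P`
  have hcomap : P.comap (ΦB : B →+* B) = P := by
    ext b
    simp only [Ideal.mem_comap, RingEquiv.coe_toRingHom]
    exact hst b
  have hPn' : P ≤ n.comap (ΦB : B →+* B) := by
    rw [← hcomap]; exact Ideal.comap_mono hPn
  have h' : IsUnitAt (P.comap (ΦB : B →+* B)) G' := by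
    rw [hcomap]; exact hG'v P hP h1 hPn' hπP
  exact (IsUnitAt.map hΦ h').div (hGv P hP h1 hPn hπP)

/-- **Ratio lemma, output shape `(i)` of the three-ratios file**: a unit `η` of `B_n` and a
vertical unit `g` with `Φ f / f = η * g ^ m`. -/
theorem exists_unit_mul_pow (n : Ideal B) [hn : n.IsPrime] (π : B)
    (ΦB : B ≃+* B) (Φ : K ≃+* K)
    (hΦ : ∀ b, Φ (algebraMap B K b) = algebraMap B K (ΦB b))
    (hπ : ∀ p : Ideal B, p.IsPrime → (ΦB π ∈ p ↔ π ∈ p))
    (hvert : ∀ P : Ideal B, P.IsPrime → P.height = 1 → π ∈ P → P ≤ n → Stable ΦB P)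
    (f G G' : K) (hf0 : f ≠ 0) (hG0 : G ≠ 0) (hG'0 : G' ≠ 0) (m : ℕ)
    (hG : ∀ p : Ideal B, p.IsPrime → p.height = 1 → p ≤ n → π ∉ p → IsUnitAt p (f / G ^ m))
    (hG' : ∀ p : Ideal B, p.IsPrime → p.height = 1 → p ≤ n.comap (ΦB : B →+* B) → π ∉ p →
      IsUnitAt p (f / G' ^ m))
    (hGG' : ∀ P : Ideal B, P.IsPrime → P.height = 1 → P ≤ n → π ∈ P → IsUnitAt P (Φ G' / G)) :
    ∃ η g : K, UnitIn (localSubring (K := K) n) η ∧ g ≠ 0 ∧
      (∀ P : Ideal B, P.IsPrime → P.height = 1 → P ≤ n → π ∈ P → IsUnitAt P g) ∧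
      Φ f / f = η * g ^ m := by
  have hΦG' : Φ G' ≠ 0 := (map_ne_zero Φ).mpr hG'0
  have hg0 : Φ G' / G ≠ 0 := div_ne_zero hΦG' hG0
  refine ⟨Φ f / f / (Φ G' / G) ^ m, Φ G' / G, ?_, hg0, hGG', ?_⟩
  · exact unitIn_localSubring_iff.mpr
      (isUnitAt_ratio n π ΦB Φ hΦ hπ hvert f G G' hf0 hG0 hG'0 m hG hG' hGG')
  · have : (Φ G' / G) ^ m ≠ 0 := pow_ne_zero _ hg0
    field_simp

end Fermat.Agent.S35.H12
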