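import Mathlib
import Fermat.Agent.S35.H8_E2InstFinal
import Fermat.Agent.S35.H16_EscTConsumerJE

/-!
S35 / (E2)+(E5) seam (helper16): helper8's `H8.hE2_of_twoComponents` with the hypothesis `hT`
discharged by `S35.H16.hT_of_escTChart_subset_JE`: the avoided set is ANY `T ⊇ escTChart N J₁ IsNode`
with `IsNode n₁ := ker red₁ ≤ n₁ ∧ ker red₂ ≤ n₁` (the `A₁`-level reductions), and the only extra
input is `htower` (a Morse tower at every such `n₁`: helper92's `H92_NodeOfIsNode`).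
-/

set_option autoImplicit false
set_option linter.unusedSectionVars false
set_option linter.style.haveILetI false
set_option synthInstance.maxHeartbeats 400000

noncomputable section

namespace Fermat.Agent.S35.H16

open Polynomial ModularCurve AlgebraicCurve HahnSeries IntermediateField IsLocalRing
open Fermat.Agent.S18 Fermat.Agent.S18.H45 Fermat.Agent.S34.H95 Fermat.Agent.S34
open Fermat.Agent.S35.H8

local notation "Qbar" => AlgebraicClosure ℚ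

variable {A : ValuationSubring Qbar} {ℓ : ℕ} (hℓ : ℓ.Prime) (hA : A.LiesOverPrime ℓ)
variable (E : IntermediateField (unrCyclo ℓ) Qbar)
variable (hE : ∀ (τ : Qbar ≃ₐ[ℚ] Qbar) (x : Qbar), x ∈ E → τ x ∈ E)
variable (N : ℕ) [NeZero N]

set_option maxHeartbeats 3200000 in
include hℓ hA in
/-- **`hE2₁` / `hE2₂` of `H18.geoFnEN_of_twoComponents` with `T ⊇ escTChart`.** -/
theorem hE2_of_twoComponents_escT [FiniteDimensional (unrCyclo ℓ) E]
    (J₁ : modularFunctionFieldFullC (unrCyclo ℓ) N) (J_E : modularFunctionFieldFullC ↥E N)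
    (h : baseChangeE E N J₁ = J_E)
    (φ : Qbar ≃ₐ[ℚ] Qbar) (hφ : φ ∈ A.decompositionSubgroup ℚ)
    (hJ₁ : S37.H53.coeffRingAut (unrCyclo ℓ) N (galActK1 ℓ φ) J₁ = J₁)
    [IsNoetherianRing ↥(H40.chartB (cutOver A E) J_E)]
    [IsIntegrallyClosed ↥(H40.chartB (cutOver A E) J_E)]
    [IsFractionRing ↥(H40.chartB (cutOver A E) J_E) (modularFunctionFieldFullC ↥E N)]
    (π : cutOver A E) (hmax : maximalIdeal (cutOver A E) = Ideal.span {π})
    (hcl : ∀ z : modularFunctionFieldFullC ↥E N, z ∈ H40.chartB (cutOver A E) J_E →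
      z ∈ Subring.closure
        (Set.range (fun b : ↥(H40.chartB (A0 A ℓ) J₁) =>
            baseChangeE E N (b : modularFunctionFieldFullC (unrCyclo ℓ) N)) ∪
          Set.range (algebraMap (cutOver A E) (modularFunctionFieldFullC ↥E N))))
    {D BM : Type*} [CommRing D] [IsDomain D] [CommRing BM]
    {red₁ red₂ : ↥(H40.chartB (A0 A ℓ) J₁) →+* D}
    (hL1 : ∀ (n₁ : Ideal ↥(H40.chartB (A0 A ℓ) J₁)) [n₁.IsMaximal],
      algebraMap (A0 A ℓ) ↥(H40.chartB (A0 A ℓ) J₁) ((ℓ : ℕ) : A0 A ℓ) ∈ n₁ →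
        SmoothAt ((ℓ : ℕ) : A0 A ℓ) n₁ ∨
          ((RingHom.ker red₁ ≤ n₁ ∧ RingHom.ker red₂ ≤ n₁) ∧ NodeAt ((ℓ : ℕ) : A0 A ℓ) n₁))
    {red₁'' red₂'' : ↥(H40.chartB (cutOver A E) J_E) →+* D}
    {ι V : BM →+* ↥(H40.chartB (cutOver A E) J_E)} {rbar : BM →+* D}
    {W : D →+* D} {e : ℕ}
    (TC : H83.TwoComponents red₁'' red₂'' ι V rbar W e
      (algebraMap (cutOver A E) ↥(H40.chartB (cutOver A E) J_E) π))
    (hc₁ : ∀ b, red₁'' (chartBC (A := A) E N J₁ J_E h b) = red₁ b)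
    (hc₂ : ∀ b, red₂'' (chartBC (A := A) E N J₁ J_E h b) = red₂ b)
    (hπ₁ : red₁'' (algebraMap (cutOver A E) ↥(H40.chartB (cutOver A E) J_E) π) = 0)
    (hπ₂ : red₂'' (algebraMap (cutOver A E) ↥(H40.chartB (cutOver A E) J_E) π) = 0)
    (ΨB : ↥(H40.chartB (cutOver A E) J_E) ≃+* ↥(H40.chartB (cutOver A E) J_E))
    (hΨ : ∀ b : ↥(H40.chartB (cutOver A E) J_E),
      galActFullC E hE N φ (galActFullC E hE N φ
        (algebraMap ↥(H40.chartB (cutOver A E) J_E) (modularFunctionFieldFullC ↥E N) b)) =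
      algebraMap ↥(H40.chartB (cutOver A E) J_E) (modularFunctionFieldFullC ↥E N) (ΨB b))
    (ΨD₁ ΨD₂ : D →+* D) (hinj₁ : Function.Injective ΨD₁) (hinj₂ : Function.Injective ΨD₂)
    (h1Ψ : ∀ z, red₁'' (ΨB z) = ΨD₁ (red₁'' z)) (h2Ψ : ∀ z, red₂'' (ΨB z) = ΨD₂ (red₂'' z))
    {Q : ℕ} (hQ : 0 < Q) (hW : ∀ r, W (W (ΨD₁ r)) = r ^ Q)
    (htower : ∀ (n₁ : Ideal ↥(H40.chartB (A0 A ℓ) J₁)) [n₁.IsPrime],
      (RingHom.ker red₁ ≤ n₁ ∧ RingHom.ker red₂ ≤ n₁) →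
      ∃ xs ys, NodeTowerAt ((ℓ : ℕ) : A0 A ℓ) n₁ xs ys)
    (T : Set (Place Qbar (S24.FN N)))
    (hsub : escTChart (A := A) N J₁
      (fun n₁ => RingHom.ker red₁ ≤ n₁ ∧ RingHom.ker red₂ ≤ n₁) ⊆ T)
    (m' : ℕ) :
    ∀ f : modularFunctionFieldFullC ↥E N, H61.Admissible ↥E f m' →
      (∀ v ∈ T, v.ord (H99.toBar ↥E N f) = 0) →
      ∀ m : Ideal ↥(H40.chartB (cutOver A E) J_E), m.IsMaximal →
        algebraMap (cutOver A E) ↥(H40.chartB (cutOver A E) J_E) π ∈ m →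
        H46.ChartWeakAt (F := modularFunctionFieldFullC ↥E N)
          (algebraMap (cutOver A E) ↥(H40.chartB (cutOver A E) J_E) π) m
          (galActFullC E hE N φ (galActFullC E hE N φ f) / f) m' := by
  have hT := hT_of_escTChart_subset_JE hℓ hA N J₁
    (fun n₁ => RingHom.ker red₁ ≤ n₁ ∧ RingHom.ker red₂ ≤ n₁) htower E J_E h π hmax hcl T hsub
  exact H8.hE2_of_twoComponents hℓ hA E hE N J₁ J_E h φ hφ hJ₁ π hmax hcl hL1 TC hc₁ hc₂ hπ₁ hπ₂
    ΨB hΨ ΨD₁ ΨD₂ hinj₁ hinj₂ h1Ψ h2Ψ hQ hW T hT m'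

end Fermat.Agent.S35.H16
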