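import Mathlib
import Fermat.Agent.S35.H16_KroneckerExt
import Fermat.Agent.CA.H94_NormReduction

/-!
S35 / G3 (helper16): NORM REDUCTION `(g2)` for a Kronecker-type extension, in `PlaceOver`
vocabulary. Setting of `S35.H16_KroneckerExt` (`L = K₀(θ)`, `[L : K₀] = q + 1`, `Φ_q(y, θ) = 0`,
`O` a DVR with fraction field `K₀`, `φ X = y`), with the two places

* `P₁ : PlaceOver ϖ θ ι (ι y ^ q)`                (linear factor `Y - y^q`),
* `P₂ : PlaceOver ϖ θ (F'.comp ι) θb₂`, `θb₂ ^ q = F' (ι y)`   (factor `Y^q - y`),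

where `F' : Fk →+* Fk` is any ring endomorphism (instance: `t ↦ t^q` on `k((t))`). Then for every
`p : O[X]` the norm `N_{L/K₀}(p(θ))` lies in `O` and
`F' (ι (N p(θ))) = F' (res₁ p(θ)) * (res₂ p(θ)) ^ q`.
-/

set_option autoImplicit false
set_option linter.unusedSectionVars false
set_option linter.style.haveILetI false

noncomputable section

namespace Fermat.Agent.S35.H16

open ModularCurve Polynomial IsLocalRing Fermat.Agent.S28

section NormRed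

variable {K₀ L : Type*} [Field K₀] [Field L] [Algebra K₀ L]
  [FiniteDimensional K₀ L] [Algebra.IsSeparable K₀ L]
  (q : ℕ) [Fact q.Prime] [NeZero q] (D : ModularPolynomialData q)
  (hD : ∀ (k : Type) [Field k] (ζ : kˣ), IsPrimitiveRoot ζ q → RootsAt k q ζ D.Φ)
  {y : K₀} {θ : L}
  (hrel : Polynomial.aeval θ (relPolyAt q D y) = 0)
  (hgen : IntermediateField.adjoin K₀ {θ} = ⊤) (hdeg : Module.finrank K₀ L = q + 1)
  {O : Type*} [CommRing O] [IsDomain O] [IsDiscreteValuationRing O]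
  [Algebra O K₀] [IsFractionRing O K₀] [Algebra O L] [IsScalarTower O K₀ L]
  (φ : ℤ[X] →+* O) (hφ : algebraMap O K₀ (φ X) = y)
  {ϖ : O} {Fk : Type*} [Field Fk] [CharP Fk q] (ι : O →+* Fk) (F' : Fk →+* Fk)
  {θb₁ θb₂ : Fk} (hθb₁ : θb₁ = ι (φ X) ^ q) (hθb₂ : θb₂ ^ q = F' (ι (φ X)))
  {ι₂ : O →+* Fk} (hι₂ : ι₂ = F'.comp ι)
  (P₁ : CA.H99.PlaceOver ϖ θ ι θb₁)
  (P₂ : CA.H99.PlaceOver ϖ θ ι₂ θb₂)

include hD hrel hgen hdeg hφ hθb₁ hθb₂ hι₂

/-- **Norm reduction `(g2)`**, polynomial form. -/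
theorem exists_norm_reduction_aeval (p : O[X]) :
    ∃ n : O, algebraMap O K₀ n = Algebra.norm K₀ (Polynomial.aeval θ p) ∧
      F' (ι n) = F' (P₁.res1 ⟨Polynomial.aeval θ p, P₁.aeval_mem p⟩) *
        (P₂.res1 ⟨Polynomial.aeval θ p, P₂.aeval_mem p⟩) ^ q := by
  subst hθb₁ hι₂
  have hq : q.Prime := Fact.out
  have hsplit : (D.Φ.map φ).map (F'.comp ι) =
      (X - C (F' (ι (φ X) ^ q))) * (X ^ q - C (θb₂ ^ q)) := by
    rw [Polynomial.map_map, S34.H6.kronecker_poly_at q D hD Fk ((F'.comp ι).comp φ), hθb₂]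
    simp only [RingHom.comp_apply, map_pow]
  obtain ⟨n, hn1, hn2⟩ := CA.H94.exists_norm_aeval_reduction_kronecker (K := K₀) (L := L)
    (IsFractionRing.injective O K₀) (F'.comp ι) q (D.Φ.map φ) (D.monic.map φ)
    (aeval_map_eq_zero hrel φ hφ)
    (by rw [D.monic.natDegree_map, D.natDegree_eq, dedekindPsi_prime_eq' hq, hdeg])
    (algebra_adjoin_eq_top hrel hgen) (F' (ι (φ X) ^ q)) θb₂ hsplit p
  refine ⟨n, hn1, ?_⟩
  rw [RingHom.comp_apply] at hn2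
  rw [hn2, P₁.res1_aeval, P₂.res1_aeval, Polynomial.eval_map, Polynomial.eval_map,
    ← Polynomial.hom_eval₂]


variable [CharP (ResidueField O) q]
  {k : Type*} [CommRing k] [IsDomain k] (ρ : ResidueField O →+* LaurentSeries k)
  (hord : ¬ (q : ℤ) ∣ (ρ (residue O (φ X))).order)
  (hϖ : maximalIdeal O = Ideal.span {ϖ}) (hιϖ : ι ϖ = 0)

include hord hϖ hιϖ

/-- every element of `P₁.O1 ∩ P₂.O1` is a polynomial in `θ` over `O`. -/
theorem exists_eq_aeval_of_mem_both {u : L} (h₁ : u ∈ P₁.O1) (h₂ : u ∈ P₂.O1) :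
    ∃ p : O[X], u = Polynomial.aeval θ p := by
  subst hθb₁ hι₂
  have hq : q.Prime := Fact.out
  have hne : residue O (φ X) ^ (q * q) ≠ residue O (φ X) := by
    refine S34.H6.pow_ne_self_of_order q hq.two_le ρ _ ?_
    intro h0
    exact hord (h0 ▸ dvd_zero _)
  refine CA.H99.exists_eq_aeval_of_mem_of_mem (K := K₀)
    (f := D.Φ.map φ) (g₁ := X - C (φ X ^ q)) (g₂ := X ^ q - C (φ X))
    (S34.H6.map_map_kronecker q D hD φ (residue O))
    (S34.H6.irreducible_map_X_sub_C (residue O) _)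
    (S34.H6.irreducible_map_X_pow_sub_C_of_order (residue O) q hq ρ (φ X) hord)
    (S34.H6.isCoprime_map_of_ne (residue O) q (φ X) hne)
    hϖ θ (aeval_map_eq_zero hrel φ hφ) (algebra_adjoin_eq_top hrel hgen)
    hιϖ (θb₁ := ι (φ X) ^ q) ?_ (ι₂ := F'.comp ι) ?_ (θb₂ := θb₂) ?_ P₁ P₂ h₁ h₂
  · rw [eval₂_sub, eval₂_X, eval₂_C, map_pow, sub_self]
  · rw [RingHom.comp_apply, hιϖ, map_zero]
  · rw [eval₂_sub, eval₂_pow, eval₂_X, eval₂_C, hθb₂, RingHom.comp_apply, sub_self]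

/-- **Norm reduction `(g2)`** for an arbitrary element of `P₁.O1 ∩ P₂.O1`: its norm lies in `O`
and reduces to `res₁(u) · "φ̄(res₂ u)"`, written after applying `F'`:
`F' (ι (N u)) = F' (res₁ u) * (res₂ u) ^ q`. -/
theorem exists_norm_reduction {u : L} (h₁ : u ∈ P₁.O1) (h₂ : u ∈ P₂.O1) :
    ∃ n : O, algebraMap O K₀ n = Algebra.norm K₀ u ∧
      F' (ι n) = F' (P₁.res1 ⟨u, h₁⟩) * (P₂.res1 ⟨u, h₂⟩) ^ q := by
  obtain ⟨p, rfl⟩ := exists_eq_aeval_of_mem_both q D hD hrel hgen hdeg φ hφ ι F' hθb₁ hθb₂ hι₂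
    P₁ P₂ ρ hord hϖ hιϖ h₁ h₂
  exact exists_norm_reduction_aeval q D hD hrel hgen hdeg φ hφ ι F' hθb₁ hθb₂ hι₂ P₁ P₂ p

end NormRed

end Fermat.Agent.S35.H16
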