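import Mathlib
import Fermat.Agent.S35.H16_NormRed
import Fermat.Agent.S35.H16_RelDegV
import Fermat.Agent.S34.H16_TwoPlacesJN

/-!
S35 / G3 (helper16): the two vertical places of `F_N = FullC K N` (`N = q * M`, `q ∤ M`) and the
NORM REDUCTION `(g2)`, over an ARBITRARY discrete valuation ring `O` with fraction field
`F_M = FullC K M` (`K` any field of characteristic `0`), for BOTH embeddings `F_M → F_N`:

* inclusion (`S34.H16.degAlgebra`), generator `θ = j_N`, `y = j_M ∈ O`:
  places = `S34.H16.nonempty_placeOver_infty/_zero` (already generic);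
  norm reduction = `exists_norm_reduction_incl`;
* `V_q` (`S35.H16.vAlgebra`, `f(t) ↦ f(t^q)`), generator `θ = j`, `y = j ∈ O`:
  places = `nonempty_placeV_lin_gen / nonempty_placeV_pow_gen`;
  norm reduction = `exists_norm_reduction_vq`.

Instances: `O = H92.VM` (`S35.H16_NormRedInst`), and the `E`-level Gauss ring.
-/

set_option autoImplicit false
set_option linter.unusedSectionVars false
set_option linter.style.haveILetI false
set_option synthInstance.maxHeartbeats 400000

noncomputable section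

namespace Fermat.Agent.S35.H16

open ModularCurve Polynomial IsLocalRing Fermat.Agent.S28
open Fermat.Agent.S18 Fermat.Agent.S34.H16

/-- a finite-rank extension of characteristic-`0` fields is finite separable. -/
theorem isSeparable_of_finrank_pos' {F E : Type*} [Field F] [Field E] [CharZero F] [Algebra F E]
    (h : 0 < Module.finrank F E) : FiniteDimensional F E ∧ Algebra.IsSeparable F E := by
  haveI : FiniteDimensional F E := Module.finite_of_finrank_pos h
  exact ⟨inferInstance, inferInstance⟩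

theorem charZero_fullC (K : Type) [Field K] [CharZero K] (M : ℕ) [NeZero M] :
    CharZero (modularFunctionFieldFullC K M) :=
  charZero_of_injective_algebraMap (algebraMap K (modularFunctionFieldFullC K M)).injective

section Gen

variable (K : Type) [Field K] [CharZero K] (M N : ℕ) [NeZero M] [NeZero N]
  (q : ℕ) [Fact q.Prime] [NeZero q] (hqM : ¬ q ∣ M) (hN : N = q * M) (hNK : ((N : ℕ) : K) ≠ 0)
  (D : ModularPolynomialData q)
  (hD : ∀ (k : Type) [Field k] (ζ : kˣ), IsPrimitiveRoot ζ q → RootsAt k q ζ D.Φ)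
  {O : Type*} [CommRing O] [IsDomain O] [IsDiscreteValuationRing O]
  [CharP (ResidueField O) q]
  [Algebra O (modularFunctionFieldFullC K M)] [IsFractionRing O (modularFunctionFieldFullC K M)]
  [Algebra O (modularFunctionFieldFullC K N)]
  (φ : ℤ[X] →+* O)
  {k : Type*} [CommRing k] [IsDomain k] (ρ : ResidueField O →+* LaurentSeries k)
  (hord : ¬ (q : ℤ) ∣ (ρ (residue O (φ X))).order)
  {ϖ : O} (hϖ : maximalIdeal O = Ideal.span {ϖ})
  {Fk : Type*} [Field Fk] (ι : O →+* Fk) (hιϖ : ι ϖ = 0)

include hqM hN hNK hD hord hϖ hιϖ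

/-! ### The `V_q`-side places over a general `O` -/

/-- the place of `F_N` over `V_q(O)` for the linear factor `Y - y^q`. -/
theorem nonempty_placeV_lin_gen
    (htower : letI := vAlgebra K q M N (dvd_of_eq hN.symm)
      IsScalarTower O (modularFunctionFieldFullC K M) (modularFunctionFieldFullC K N))
    (hφ : algebraMap O (modularFunctionFieldFullC K M) (φ X) = S18.H16.jK K M)
    (θb : Fk) (hθb : θb = ι (φ X) ^ q) :
    Nonempty (CA.H99.PlaceOver (L := modularFunctionFieldFullC K N) ϖ (S18.H16.jK K N) ι θb) := by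
  letI := vAlgebra K q M N (dvd_of_eq hN.symm)
  haveI := htower
  exact nonempty_placeOver_lin q D hD (vAlgebra_rel K q M N (dvd_of_eq hN.symm) D hD)
    (vAlgebra_adjoin_jK_eq_top K q M N hN hNK)
    (finrank_vSub K q M N Fact.out hqM hN hNK) φ hφ ρ hord hϖ ι hιϖ θb hθb

/-- the place of `F_N` over `V_q(O)` for the factor `Y^q - y`. -/
theorem nonempty_placeV_pow_gen
    (htower : letI := vAlgebra K q M N (dvd_of_eq hN.symm)
      IsScalarTower O (modularFunctionFieldFullC K M) (modularFunctionFieldFullC K N))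
    (hφ : algebraMap O (modularFunctionFieldFullC K M) (φ X) = S18.H16.jK K M)
    (θb : Fk) (hθb : θb ^ q = ι (φ X)) :
    Nonempty (CA.H99.PlaceOver (L := modularFunctionFieldFullC K N) ϖ (S18.H16.jK K N) ι θb) := by
  letI := vAlgebra K q M N (dvd_of_eq hN.symm)
  haveI := htower
  exact nonempty_placeOver_pow q D hD (vAlgebra_rel K q M N (dvd_of_eq hN.symm) D hD)
    (vAlgebra_adjoin_jK_eq_top K q M N hN hNK)
    (finrank_vSub K q M N Fact.out hqM hN hNK) φ hφ ρ hord hϖ ι hιϖ θb hθb

/-! ### Norm reduction over a general `O` -/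

variable [CharP Fk q] (F' : Fk →+* Fk)
  {θb₁ θb₂ : Fk} (hθb₁ : θb₁ = ι (φ X) ^ q) (hθb₂ : θb₂ ^ q = F' (ι (φ X)))
  {ι₂ : O →+* Fk} (hι₂ : ι₂ = F'.comp ι)

include hθb₁ hθb₂ hι₂

set_option maxHeartbeats 1600000 in
/-- **(g2), inclusion side, general `O`.** -/
theorem exists_norm_reduction_incl
    (htower : letI := degAlgebra K M N (Dvd.intro_left q hN.symm)
      IsScalarTower O (modularFunctionFieldFullC K M) (modularFunctionFieldFullC K N))
    (hφ : algebraMap O (modularFunctionFieldFullC K M) (φ X) = S18.H16.jNK K M)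
    (P₁ : CA.H99.PlaceOver (L := modularFunctionFieldFullC K N) ϖ (S18.H16.jNK K N) ι θb₁)
    (P₂ : CA.H99.PlaceOver (L := modularFunctionFieldFullC K N) ϖ (S18.H16.jNK K N) ι₂ θb₂)
    {u : modularFunctionFieldFullC K N} (h₁ : u ∈ P₁.O1) (h₂ : u ∈ P₂.O1) :
    letI := degAlgebra K M N (Dvd.intro_left q hN.symm)
    ∃ n : O, algebraMap O (modularFunctionFieldFullC K M) n =
        Algebra.norm (modularFunctionFieldFullC K M) u ∧
      F' (ι n) = F' (P₁.res1 ⟨u, h₁⟩) * (P₂.res1 ⟨u, h₂⟩) ^ q := by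
  letI := degAlgebra K M N (Dvd.intro_left q hN.symm)
  haveI := htower
  have hfr := finrank_fullC_prime K M N (Dvd.intro_left q hN.symm) q Fact.out hqM hN hNK
  haveI := charZero_fullC K M
  obtain ⟨hfd, hsep⟩ := isSeparable_of_finrank_pos' (F := modularFunctionFieldFullC K M)
    (E := modularFunctionFieldFullC K N) (by rw [hfr]; exact Nat.succ_pos q)
  exact exists_norm_reduction (K₀ := modularFunctionFieldFullC K M)
    (L := modularFunctionFieldFullC K N) q D hD
    (y := S18.H16.jNK K M) (θ := S18.H16.jNK K N)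
    (aeval_jNK_relPoly K M N (Dvd.intro_left q hN.symm) q hN D)
    (adjoin_jNK_over_eq_top K M N (Dvd.intro_left q hN.symm) hNK) hfr
    φ hφ ι F' hθb₁ hθb₂ hι₂ P₁ P₂ ρ hord hϖ hιϖ h₁ h₂

set_option maxHeartbeats 1600000 in
/-- **(g2), `V_q`-side, general `O`.** -/
theorem exists_norm_reduction_vq
    (htower : letI := vAlgebra K q M N (dvd_of_eq hN.symm)
      IsScalarTower O (modularFunctionFieldFullC K M) (modularFunctionFieldFullC K N))
    (hφ : algebraMap O (modularFunctionFieldFullC K M) (φ X) = S18.H16.jK K M)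
    (P₁ : CA.H99.PlaceOver (L := modularFunctionFieldFullC K N) ϖ (S18.H16.jK K N) ι θb₁)
    (P₂ : CA.H99.PlaceOver (L := modularFunctionFieldFullC K N) ϖ (S18.H16.jK K N) ι₂ θb₂)
    {u : modularFunctionFieldFullC K N} (h₁ : u ∈ P₁.O1) (h₂ : u ∈ P₂.O1) :
    letI := vAlgebra K q M N (dvd_of_eq hN.symm)
    ∃ n : O, algebraMap O (modularFunctionFieldFullC K M) n =
        Algebra.norm (modularFunctionFieldFullC K M) u ∧
      F' (ι n) = F' (P₁.res1 ⟨u, h₁⟩) * (P₂.res1 ⟨u, h₂⟩) ^ q := by
  letI := vAlgebra K q M N (dvd_of_eq hN.symm)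
  haveI := htower
  have hfr := finrank_vSub K q M N Fact.out hqM hN hNK
  haveI := charZero_fullC K M
  obtain ⟨hfd, hsep⟩ := isSeparable_of_finrank_pos' (F := modularFunctionFieldFullC K M)
    (E := modularFunctionFieldFullC K N) (by rw [hfr]; exact Nat.succ_pos q)
  exact exists_norm_reduction (K₀ := modularFunctionFieldFullC K M)
    (L := modularFunctionFieldFullC K N) q D hD
    (y := S18.H16.jK K M) (θ := S18.H16.jK K N)
    (vAlgebra_rel K q M N (dvd_of_eq hN.symm) D hD)
    (vAlgebra_adjoin_jK_eq_top K q M N hN hNK) hfr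
    φ hφ ι F' hθb₁ hθb₂ hι₂ P₁ P₂ ρ hord hϖ hιϖ h₁ h₂

end Gen

end Fermat.Agent.S35.H16
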