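import Mathlib
import Fermat.Agent.S35.H16_NormRedGen
import Fermat.Agent.CA.H16_PlaceCompare

/-!
S35 / G3 (helper16): the `V_q`-side NORM REDUCTION `(g2)` expressed through the TWO PLACES OF THE
INCLUSION SIDE, over an arbitrary DVR `O` with fraction field `F_M = FullC K M`.

`F_N` (`N = q M`) has exactly two places over the Gauss valuation of `F_M`, whichever of the two
embeddings `F_M → F_N` (inclusion, `V_q`) is used. Here `[Algebra O F_N]` is the `V_q`-structure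
(`htower` w.r.t. `S35.H16.vAlgebra`), while `Pinf`, `P0` are `PlaceOver`s of ANY base
(`O₂`, instance `iP`; in the application: the inclusion structure, `θ = j_N`), of which we only use
the TRANSPORT facts (helper6's `HiV`, `H0V`):

* `Tinf : Pinf.res1 (V_q a) = F' (ι a)`, `T0 : P0.res1 (V_q a) = ι a`  (`a ∈ O`),
* `Jinf : Pinf.res1 j = ι y`, `J0 : P0.res1 j = (ι y)^q`  (`y = j ∈ O`).

Then `Q_lin = P0`, `Q_pow = Pinf` (`CA.H16.O1_eq_of_transport`) and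
`F' (ι (N_V u)) = F' (P0.res1 u) * (Pinf.res1 u)^q`, the mirror of the inclusion-side formula
`F' (ι (N_ι u)) = F' (Pinf.res1 u) * (P0.res1 u)^q` (`exists_norm_reduction_incl`).
-/

set_option autoImplicit false
set_option linter.unusedSectionVars false
set_option linter.style.haveILetI false
set_option synthInstance.maxHeartbeats 400000

noncomputable section

namespace Fermat.Agent.S35.H16

open ModularCurve Polynomial IsLocalRing Fermat.Agent.S28
open Fermat.Agent.S18 Fermat.Agent.S34.H16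

section Both

variable (K : Type) [Field K] [CharZero K] (M N : ℕ) [NeZero M] [NeZero N]
  (q : ℕ) [Fact q.Prime] [NeZero q] (hqM : ¬ q ∣ M) (hN : N = q * M) (hNK : ((N : ℕ) : K) ≠ 0)
  (D : ModularPolynomialData q)
  (hD : ∀ (k : Type) [Field k] (ζ : kˣ), IsPrimitiveRoot ζ q → RootsAt k q ζ D.Φ)
  {O : Type*} [CommRing O] [IsDomain O] [IsDiscreteValuationRing O]
  [CharP (ResidueField O) q]
  [Algebra O (modularFunctionFieldFullC K M)] [IsFractionRing O (modularFunctionFieldFullC K M)]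
  [Algebra O (modularFunctionFieldFullC K N)]
  (φ : ℤ[X] →+* O)
  {k : Type*} [CommRing k] [IsDomain k] (ρ : ResidueField O →+* LaurentSeries k)
  (hord : ¬ (q : ℤ) ∣ (ρ (residue O (φ X))).order)
  {ϖ : O} (hϖ : maximalIdeal O = Ideal.span {ϖ})
  {Fk : Type*} [Field Fk] (ι : O →+* Fk) (hιϖ : ι ϖ = 0)
  [CharP Fk q] (F' : Fk →+* Fk)

include hqM hN hNK hD hord hϖ hιϖ

set_option maxHeartbeats 1600000 in
/-- the two `V_q`-side places ARE the two given places (`Q_lin = P0`, `Q_pow = Pinf`). -/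
theorem exists_placeV_eq_of_transport
    (htower : letI := vAlgebra K q M N (dvd_of_eq hN.symm)
      IsScalarTower O (modularFunctionFieldFullC K M) (modularFunctionFieldFullC K N))
    (hφ : algebraMap O (modularFunctionFieldFullC K M) (φ X) = S18.H16.jK K M)
    (hFj : F' (ι (φ X)) = ι (φ X) ^ q)
    {O₂ : Type*} [CommRing O₂] [iP : Algebra O₂ (modularFunctionFieldFullC K N)]
    {ϖi : O₂} {θi : modularFunctionFieldFullC K N} {ιi ιz : O₂ →+* Fk} {θbi θbz : Fk}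
    (Pinf : CA.H99.PlaceOver ϖi θi ιi θbi) (P0 : CA.H99.PlaceOver ϖi θi ιz θbz)
    (Tinf : ∀ a : O, ∃ h : algebraMap O (modularFunctionFieldFullC K N) a ∈ Pinf.O1,
      Pinf.res1 ⟨_, h⟩ = F' (ι a))
    (T0 : ∀ a : O, ∃ h : algebraMap O (modularFunctionFieldFullC K N) a ∈ P0.O1,
      P0.res1 ⟨_, h⟩ = ι a)
    (Jinf : ∃ h : S18.H16.jK K N ∈ Pinf.O1, Pinf.res1 ⟨_, h⟩ = ι (φ X))
    (J0 : ∃ h : S18.H16.jK K N ∈ P0.O1, P0.res1 ⟨_, h⟩ = ι (φ X) ^ q) :
    ∃ (Qlin : CA.H99.PlaceOver (L := modularFunctionFieldFullC K N) ϖ (S18.H16.jK K N) ι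
        (ι (φ X) ^ q))
      (Qpow : CA.H99.PlaceOver (L := modularFunctionFieldFullC K N) ϖ (S18.H16.jK K N)
        (F'.comp ι) (ι (φ X))),
      Qlin.O1 = P0.O1 ∧ Qpow.O1 = Pinf.O1 ∧
      (∀ (y : modularFunctionFieldFullC K N) (hy : y ∈ Qlin.O1) (hy' : y ∈ P0.O1),
        Qlin.res1 ⟨y, hy⟩ = P0.res1 ⟨y, hy'⟩) ∧
      (∀ (y : modularFunctionFieldFullC K N) (hy : y ∈ Qpow.O1) (hy' : y ∈ Pinf.O1),
        Qpow.res1 ⟨y, hy⟩ = Pinf.res1 ⟨y, hy'⟩) := by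
  obtain ⟨Qlin⟩ := nonempty_placeV_lin_gen K M N q hqM hN hNK D hD φ ρ hord hϖ ι hιϖ htower hφ
    (ι (φ X) ^ q) rfl
  have hιϖ' : (F'.comp ι) ϖ = 0 := by rw [RingHom.comp_apply, hιϖ, map_zero]
  obtain ⟨Qpow⟩ := nonempty_placeV_pow_gen K M N q hqM hN hNK D hD φ ρ hord hϖ (F'.comp ι) hιϖ'
    htower hφ (ι (φ X)) (by rw [RingHom.comp_apply, hFj])
  refine ⟨Qlin, Qpow, CA.H16.O1_eq_of_transport P0 Qlin T0 J0,
    CA.H16.O1_eq_of_transport Pinf Qpow Tinf Jinf,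
    fun y hy hy' => CA.H16.res1_eq_of_transport P0 Qlin T0 J0 hy hy',
    fun y hy hy' => CA.H16.res1_eq_of_transport Pinf Qpow Tinf Jinf hy hy'⟩

set_option maxHeartbeats 1600000 in
/-- **(g2), `V_q`-side, through the two places of the inclusion side.** -/
theorem exists_norm_reduction_vq_of_transport
    (htower : letI := vAlgebra K q M N (dvd_of_eq hN.symm)
      IsScalarTower O (modularFunctionFieldFullC K M) (modularFunctionFieldFullC K N))
    (hφ : algebraMap O (modularFunctionFieldFullC K M) (φ X) = S18.H16.jK K M)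
    (hFj : F' (ι (φ X)) = ι (φ X) ^ q)
    {O₂ : Type*} [CommRing O₂] [iP : Algebra O₂ (modularFunctionFieldFullC K N)]
    {ϖi : O₂} {θi : modularFunctionFieldFullC K N} {ιi ιz : O₂ →+* Fk} {θbi θbz : Fk}
    (Pinf : CA.H99.PlaceOver ϖi θi ιi θbi) (P0 : CA.H99.PlaceOver ϖi θi ιz θbz)
    (Tinf : ∀ a : O, ∃ h : algebraMap O (modularFunctionFieldFullC K N) a ∈ Pinf.O1,
      Pinf.res1 ⟨_, h⟩ = F' (ι a))
    (T0 : ∀ a : O, ∃ h : algebraMap O (modularFunctionFieldFullC K N) a ∈ P0.O1,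
      P0.res1 ⟨_, h⟩ = ι a)
    (Jinf : ∃ h : S18.H16.jK K N ∈ Pinf.O1, Pinf.res1 ⟨_, h⟩ = ι (φ X))
    (J0 : ∃ h : S18.H16.jK K N ∈ P0.O1, P0.res1 ⟨_, h⟩ = ι (φ X) ^ q)
    {u : modularFunctionFieldFullC K N} (h₁ : u ∈ Pinf.O1) (h₂ : u ∈ P0.O1) :
    letI := vAlgebra K q M N (dvd_of_eq hN.symm)
    ∃ n : O, algebraMap O (modularFunctionFieldFullC K M) n =
        Algebra.norm (modularFunctionFieldFullC K M) u ∧
      F' (ι n) = F' (P0.res1 ⟨u, h₂⟩) * (Pinf.res1 ⟨u, h₁⟩) ^ q := by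
  obtain ⟨Qlin, Qpow, e1, e2, r1, r2⟩ := exists_placeV_eq_of_transport K M N q hqM hN hNK D hD φ ρ
    hord hϖ ι hιϖ F' htower hφ hFj Pinf P0 Tinf T0 Jinf J0
  have hu1 : u ∈ Qlin.O1 := e1 ▸ h₂
  have hu2 : u ∈ Qpow.O1 := e2 ▸ h₁
  obtain ⟨n, hn1, hn2⟩ := exists_norm_reduction_vq K M N q hqM hN hNK D hD φ ρ hord hϖ ι hιϖ F'
    rfl hFj.symm rfl htower hφ Qlin Qpow hu1 hu2
  refine ⟨n, hn1, ?_⟩
  rw [hn2, r1 u hu1 h₂, r2 u hu2 h₁]

end Both

end Fermat.Agent.S35.H16
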