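import Mathlib
import Fermat.Agent.S35.H16_NormRedBoth
import Fermat.Agent.S35.H46_G3Assembly

/-!
S35 / G3 (helper16): the norm reductions `(g2α)`, `(g2β)` in the FINAL consumer shape of
`S35.H46.g3_residues` (helper46), over an arbitrary DVR `O` with fraction field `F_M = FullC K M`:

  `(g2α)  ι (N_ι u)  = res_∞ u * φb (res_0 u)`,
  `(g2β)  ι (N_Vq u) = φb (res_∞ u) * res_0 u`,

where `φb : Fk →+* Fk` is the "coefficientwise Frobenius", characterised by `z ^ q = F' (φb z)`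
(instance: `Fk = k((t))`, `F' = qExpand k q`, `φb = coeffMap (frobenius k q)`,
`S37.H59.pow_char_eq_qExpand_frobenius`). Obtained from `exists_norm_reduction_incl` /
`exists_norm_reduction_vq_of_transport` by cancelling the (injective) `F'`.
-/

set_option autoImplicit false
set_option linter.unusedSectionVars false
set_option linter.style.haveILetI false
set_option synthInstance.maxHeartbeats 400000

noncomputable section

namespace Fermat.Agent.S35.H16

open ModularCurve Polynomial IsLocalRing Fermat.Agent.S28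
open Fermat.Agent.S18 Fermat.Agent.S34.H16

/-- cancelling `F'`: `F' a = F' b * c ^ q` and `z ^ q = F' (φb z)` give `a = b * φb c`. -/
theorem eq_mul_frob_of_map_eq {Fk : Type*} [Field Fk] {q : ℕ} (F' φb : Fk →+* Fk)
    (hφb : ∀ z, z ^ q = F' (φb z)) {a b c : Fk} (h : F' a = F' b * c ^ q) : a = b * φb c := by
  apply F'.injective
  rw [map_mul, ← hφb, h]

section AB

variable (K : Type) [Field K] [CharZero K] (M N : ℕ) [NeZero M] [NeZero N]
  (q : ℕ) [Fact q.Prime] [NeZero q] (hqM : ¬ q ∣ M) (hN : N = q * M) (hNK : ((N : ℕ) : K) ≠ 0)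
  (D : ModularPolynomialData q)
  (hD : ∀ (k : Type) [Field k] (ζ : kˣ), IsPrimitiveRoot ζ q → RootsAt k q ζ D.Φ)
  {O : Type*} [CommRing O] [IsDomain O] [IsDiscreteValuationRing O]
  [CharP (ResidueField O) q]
  [Algebra O (modularFunctionFieldFullC K M)] [IsFractionRing O (modularFunctionFieldFullC K M)]
  [Algebra O (modularFunctionFieldFullC K N)]
  (φ : ℤ[X] →+* O)
  {k : Type*} [CommRing k] [IsDomain k] (ρ : ResidueField O →+* LaurentSeries k)
  (hord : ¬ (q : ℤ) ∣ (ρ (residue O (φ X))).order)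
  {ϖ : O} (hϖ : maximalIdeal O = Ideal.span {ϖ})
  {Fk : Type*} [Field Fk] (ι : O →+* Fk) (hιϖ : ι ϖ = 0)
  [CharP Fk q] (F' φb : Fk →+* Fk) (hφb : ∀ z, z ^ q = F' (φb z))
  (PM : H46.ResPlace (modularFunctionFieldFullC K M) Fk)
  (hPM : ∀ n : O, ∃ h : algebraMap O (modularFunctionFieldFullC K M) n ∈ PM.O1,
    PM.res ⟨_, h⟩ = ι n)

include hqM hN hNK hD hord hϖ hιϖ hφb hPM

set_option maxHeartbeats 1600000 in
/-- **`(g2α)`, generic `O`**: `[Algebra O F_N]` = the inclusion structure. -/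
theorem g2alpha_gen
    (htower : letI := degAlgebra K M N (Dvd.intro_left q hN.symm)
      IsScalarTower O (modularFunctionFieldFullC K M) (modularFunctionFieldFullC K N))
    (hφ : algebraMap O (modularFunctionFieldFullC K M) (φ X) = S18.H16.jNK K M)
    {θb₁ θb₂ : Fk} (hθb₁ : θb₁ = ι (φ X) ^ q) (hθb₂ : θb₂ ^ q = F' (ι (φ X)))
    {ι₂ : O →+* Fk} (hι₂ : ι₂ = F'.comp ι)
    (P₁ : CA.H99.PlaceOver (L := modularFunctionFieldFullC K N) ϖ (S18.H16.jNK K N) ι θb₁)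
    (P₂ : CA.H99.PlaceOver (L := modularFunctionFieldFullC K N) ϖ (S18.H16.jNK K N) ι₂ θb₂) :
    letI := degAlgebra K M N (Dvd.intro_left q hN.symm)
    ∀ (u : modularFunctionFieldFullC K N) (sinf s0 : Fkˣ),
      (H46.ResPlace.mk P₁.O1 P₁.res1 P₁.inv_mem).HasRes u sinf →
      (H46.ResPlace.mk P₂.O1 P₂.res1 P₂.inv_mem).HasRes u s0 →
      PM.HasRes (Algebra.norm (modularFunctionFieldFullC K M) u)
        (sinf * Units.map (φb : Fk →* Fk) s0) := by
  letI := degAlgebra K M N (Dvd.intro_left q hN.symm)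
  rintro u sinf s0 ⟨h₁, e₁⟩ ⟨h₂, e₂⟩
  obtain ⟨n, hn1, hn2⟩ := exists_norm_reduction_incl K M N q hqM hN hNK D hD φ ρ hord hϖ ι hιϖ F'
    hθb₁ hθb₂ hι₂ htower hφ P₁ P₂ h₁ h₂
  have hn3 := eq_mul_frob_of_map_eq F' φb hφb hn2
  obtain ⟨hm, em⟩ := hPM n
  rw [hn1] at hm
  refine ⟨hm, ?_⟩
  have e3 : PM.res ⟨Algebra.norm (modularFunctionFieldFullC K M) u, hm⟩ = ι n := by
    rw [← em]
    exact congrArg PM.res (Subtype.ext hn1.symm)
  change P₁.res1 ⟨u, h₁⟩ = (sinf : Fk) at e₁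
  change P₂.res1 ⟨u, h₂⟩ = (s0 : Fk) at e₂
  rw [e3, hn3, e₁, e₂, Units.val_mul, Units.coe_map]
  rfl

set_option maxHeartbeats 1600000 in
/-- **`(g2β)`, generic `O`**: `[Algebra O F_N]` = the `V_q`-structure; `Pinf`, `P0` places over
any base with the transport facts `Tinf T0 Jinf J0` (see `S35.H16_NormRedBoth`). -/
theorem g2beta_gen
    (htower : letI := vAlgebra K q M N (dvd_of_eq hN.symm)
      IsScalarTower O (modularFunctionFieldFullC K M) (modularFunctionFieldFullC K N))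
    (hφ : algebraMap O (modularFunctionFieldFullC K M) (φ X) = S18.H16.jK K M)
    (hFj : F' (ι (φ X)) = ι (φ X) ^ q)
    {O₂ : Type*} [CommRing O₂] [iP : Algebra O₂ (modularFunctionFieldFullC K N)]
    {ϖi : O₂} {θi : modularFunctionFieldFullC K N} {ιi ιz : O₂ →+* Fk} {θbi θbz : Fk}
    (Pinf : CA.H99.PlaceOver ϖi θi ιi θbi) (P0 : CA.H99.PlaceOver ϖi θi ιz θbz)
    (Tinf : ∀ a : O, ∃ h : algebraMap O (modularFunctionFieldFullC K N) a ∈ Pinf.O1,
      Pinf.res1 ⟨_, h⟩ = F' (ι a))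
    (T0 : ∀ a : O, ∃ h : algebraMap O (modularFunctionFieldFullC K N) a ∈ P0.O1,
      P0.res1 ⟨_, h⟩ = ι a)
    (Jinf : ∃ h : S18.H16.jK K N ∈ Pinf.O1, Pinf.res1 ⟨_, h⟩ = ι (φ X))
    (J0 : ∃ h : S18.H16.jK K N ∈ P0.O1, P0.res1 ⟨_, h⟩ = ι (φ X) ^ q) :
    letI := vAlgebra K q M N (dvd_of_eq hN.symm)
    ∀ (u : modularFunctionFieldFullC K N) (sinf s0 : Fkˣ),
      (H46.ResPlace.mk Pinf.O1 Pinf.res1 Pinf.inv_mem).HasRes u sinf →
      (H46.ResPlace.mk P0.O1 P0.res1 P0.inv_mem).HasRes u s0 →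
      PM.HasRes (Algebra.norm (modularFunctionFieldFullC K M) u)
        (Units.map (φb : Fk →* Fk) sinf * s0) := by
  letI := vAlgebra K q M N (dvd_of_eq hN.symm)
  rintro u sinf s0 ⟨h₁, e₁⟩ ⟨h₂, e₂⟩
  obtain ⟨n, hn1, hn2⟩ := exists_norm_reduction_vq_of_transport K M N q hqM hN hNK D hD φ ρ hord
    hϖ ι hιϖ F' htower hφ hFj Pinf P0 Tinf T0 Jinf J0 h₁ h₂
  have hn3 := eq_mul_frob_of_map_eq F' φb hφb hn2
  obtain ⟨hm, em⟩ := hPM n
  rw [hn1] at hm
  refine ⟨hm, ?_⟩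
  have e3 : PM.res ⟨Algebra.norm (modularFunctionFieldFullC K M) u, hm⟩ = ι n := by
    rw [← em]
    exact congrArg PM.res (Subtype.ext hn1.symm)
  change Pinf.res1 ⟨u, h₁⟩ = (sinf : Fk) at e₁
  change P0.res1 ⟨u, h₂⟩ = (s0 : Fk) at e₂
  rw [e3, hn3, e₁, e₂, Units.val_mul, Units.coe_map, mul_comm]
  rfl

end AB

end Fermat.Agent.S35.H16
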