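import Mathlib
import Fermat.Agent.S34.H16_L0Places
import Fermat.Agent.S35.H16_RelDegV

/-!
S35 / G3 prerequisites (helper16): the two places of `F_N = FullC L₁ (ℓ * M)` over the level-`M`
Gauss ring `V_M = H92.VM`, for the SECOND embedding `V_ℓ : F_M → F_N`, `f(t) ↦ f(t^ℓ)`
(generator `θ := j`, polynomial `Φ_ℓ(j_ℓ, Y)`); mirror of `S34.H16_L0Places`.
-/

set_option autoImplicit false
set_option linter.unusedSectionVars false
set_option linter.style.haveILetI false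
set_option synthInstance.maxHeartbeats 400000

noncomputable section

namespace Fermat.Agent.S35.H16

open ModularCurve Polynomial IsLocalRing Fermat.Agent.S28
open Fermat.Agent.S18 Fermat.Agent.S34.H92 Fermat.Agent.S34.H16

local notation "Qbar" => AlgebraicClosure ℚ

section L0V

variable (M : ℕ) [NeZero M] {ℓ : ℕ} [hℓ : Fact ℓ.Prime] (hℓM : ¬ ℓ ∣ M)
  (A : ValuationSubring Qbar) (hA : A.LiesOverPrime ℓ)

local notation "kA" => IsLocalRing.ResidueField A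
local notation "L₁" => H45.unrCyclo ℓ
local notation "FM" => modularFunctionFieldFullC (H45.unrCyclo ℓ) M
local notation "FN" => modularFunctionFieldFullC (H45.unrCyclo ℓ) (ℓ * M)
local notation "V" => VM M hℓM A hA

/-- `V_M → F_N` along `V_ℓ`: the composite `V_M ⊆ F_M → F_N`, `f(t) ↦ f(t^ℓ)`. -/
abbrev algebraVMFNv : Algebra V FN :=
  ((@algebraMap FM FN _ _ (vAlgebra L₁ ℓ M (ℓ * M) dvd_rfl)).comp (algebraMap V FM)).toAlgebra

theorem isScalarTower_VMFNv :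
    letI := vAlgebra L₁ ℓ M (ℓ * M) dvd_rfl
    letI := algebraVMFNv M hℓM A hA
    IsScalarTower V FM FN := by
  letI := vAlgebra L₁ ℓ M (ℓ * M) dvd_rfl
  letI := algebraVMFNv M hℓM A hA
  exact IsScalarTower.of_algebraMap_eq (fun _ => rfl)

/-- `j` as an element of `V_M`. -/
def jV : V := ⟨S18.H16.jK L₁ M, (jK_mem_VM M hℓM A hA).1⟩

theorem resM_jV : resM M hℓM A hA (jV M hℓM A hA) = jqModC kA := (jK_mem_VM M hℓM A hA).2

/-- `ℤ[X] → V_M`, `X ↦ j`. -/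
def phiVj : ℤ[X] →+* V := evalAt (jV M hℓM A hA)

theorem phiVj_X : phiVj M hℓM A hA X = jV M hℓM A hA := evalAt_X _

theorem algebraMap_phiVj_X : algebraMap V FM (phiVj M hℓM A hA X) = S18.H16.jK L₁ M := by
  rw [phiVj_X]
  rfl

theorem not_dvd_order_rhoV_jV :
    ¬ (ℓ : ℤ) ∣ (rhoV M hℓM A hA (residue V (phiVj M hℓM A hA X))).order := by
  rw [rhoV_residue, phiVj_X, resM_jV, S28.H39.order_jqModC, dvd_neg]
  intro h
  have h1 : (ℓ : ℤ) ∣ 1 := h
  have h2 : ℓ ∣ 1 := by exact_mod_cast h1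
  exact hℓ.out.one_lt.ne' (Nat.dvd_one.1 h2)

theorem qExpand_resM_jV :
    qExpand kA ℓ (resM M hℓM A hA (jV M hℓM A hA)) = resM M hℓM A hA (jV M hℓM A hA) ^ ℓ := by
  haveI : CharP kA ℓ := Fermat.Agent.S18.H92.charP_residueField A hA
  rw [resM_jV]
  have h := S34.H36.qExpand_jd_char kA ℓ 1
  rwa [qExpand_one_apply] at h


/-- the field-level data of the `V_ℓ`-side: relation, generation, degree. -/
theorem vRel (D : ModularPolynomialData ℓ)
    (hD : ∀ (k : Type) [Field k] (ζ : kˣ), IsPrimitiveRoot ζ ℓ → RootsAt k ℓ ζ D.Φ) :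
    letI := vAlgebra L₁ ℓ M (ℓ * M) dvd_rfl
    Polynomial.aeval (S18.H16.jK L₁ (ℓ * M)) (relPolyAt ℓ D (S18.H16.jK L₁ M)) = 0 :=
  vAlgebra_rel L₁ ℓ M (ℓ * M) dvd_rfl D hD

/-- **The place of `F_N` over `V_ℓ(V_M)` for the linear factor `Y - j_ℓ^ℓ`**: reduction `resM` on
`V_M`, `j ↦ j̄^ℓ` (this is the `0`-place of the `ι`-side: `res_0 ∘ V_ℓ = res_M`, `res_0 j = j̄(t^ℓ)`). -/
theorem nonempty_placeV_lin (D : ModularPolynomialData ℓ)
    (hD : ∀ (k : Type) [Field k] (ζ : kˣ), IsPrimitiveRoot ζ ℓ → RootsAt k ℓ ζ D.Φ) :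
    letI := vAlgebra L₁ ℓ M (ℓ * M) dvd_rfl
    letI := algebraVMFNv M hℓM A hA
    haveI := isDiscreteValuationRing_VM M hℓM A hA
    Nonempty (CA.H99.PlaceOver (L := FN) ((ℓ : ℕ) : V) (S18.H16.jK L₁ (ℓ * M))
      (resM M hℓM A hA) (resM M hℓM A hA (jV M hℓM A hA) ^ ℓ)) := by
  letI := vAlgebra L₁ ℓ M (ℓ * M) dvd_rfl
  letI := algebraVMFNv M hℓM A hA
  haveI := isDiscreteValuationRing_VM M hℓM A hA
  haveI := charP_residueField_VM M hℓM A hA
  haveI := isScalarTower_VMFNv M hℓM A hA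
  exact nonempty_placeOver_lin ℓ D hD (vRel M D hD)
    (vAlgebra_adjoin_jK_eq_top L₁ ℓ M (ℓ * M) rfl (natCast_level_ne_zero M))
    (finrank_vSub L₁ ℓ M (ℓ * M) hℓ.out hℓM rfl (natCast_level_ne_zero M))
    (phiVj M hℓM A hA) (algebraMap_phiVj_X M hℓM A hA) (rhoV M hℓM A hA)
    (not_dvd_order_rhoV_jV M hℓM A hA) (maximalIdeal_VM M hℓM A hA) (resM M hℓM A hA)
    (resM_natCast M hℓM A hA) _ (by rw [phiVj_X])

/-- **The place of `F_N` over `V_ℓ(V_M)` for the factor `Y^ℓ - j_ℓ`**: reduction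
`f ↦ (f mod ℓ)(t^ℓ)` on `V_M`, `j ↦ j̄` (this is the `∞`-place of the `ι`-side). -/
theorem nonempty_placeV_pow (D : ModularPolynomialData ℓ)
    (hD : ∀ (k : Type) [Field k] (ζ : kˣ), IsPrimitiveRoot ζ ℓ → RootsAt k ℓ ζ D.Φ) :
    letI := vAlgebra L₁ ℓ M (ℓ * M) dvd_rfl
    letI := algebraVMFNv M hℓM A hA
    haveI := isDiscreteValuationRing_VM M hℓM A hA
    Nonempty (CA.H99.PlaceOver (L := FN) ((ℓ : ℕ) : V) (S18.H16.jK L₁ (ℓ * M))
      (iotaZero M hℓM A hA) (resM M hℓM A hA (jV M hℓM A hA))) := by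
  letI := vAlgebra L₁ ℓ M (ℓ * M) dvd_rfl
  letI := algebraVMFNv M hℓM A hA
  haveI := isDiscreteValuationRing_VM M hℓM A hA
  haveI := charP_residueField_VM M hℓM A hA
  haveI := isScalarTower_VMFNv M hℓM A hA
  exact nonempty_placeOver_pow ℓ D hD (vRel M D hD)
    (vAlgebra_adjoin_jK_eq_top L₁ ℓ M (ℓ * M) rfl (natCast_level_ne_zero M))
    (finrank_vSub L₁ ℓ M (ℓ * M) hℓ.out hℓM rfl (natCast_level_ne_zero M))
    (phiVj M hℓM A hA) (algebraMap_phiVj_X M hℓM A hA) (rhoV M hℓM A hA)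
    (not_dvd_order_rhoV_jV M hℓM A hA) (maximalIdeal_VM M hℓM A hA) (iotaZero M hℓM A hA)
    (iotaZero_natCast M hℓM A hA) _
    (by rw [phiVj_X, iotaZero_apply, qExpand_resM_jV])

end L0V

end Fermat.Agent.S35.H16
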