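import Mathlib
import Fermat.Agent.S35.H16_NormRed
import Fermat.Agent.S35.H16_L0PlacesV

/-!
S35 / G3 INSTANCE (helper16): norm reduction `(g2)` at the two vertical places of
`F_N = FullC L₁ (ℓ * M)` over the level-`M` Gauss ring `V_M = H92.VM`, for BOTH embeddings
`F_M → F_N`:

* `exists_norm_reduction_iota` : `ι` = inclusion (`H16.degAlgebra`), `θ = j_N`;
  `P∞ : PlaceOver ℓ j_N resM (j̄_M ^ ℓ)`, `P0 : PlaceOver ℓ j_N iotaZero j̄_M`
  (the shapes of `S34.H16.nonempty_placeInfty/_placeZero`);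
* `exists_norm_reduction_V` : `V_ℓ` (`S35.H16.vAlgebra`), `θ = j`;
  `Q0 : PlaceOver ℓ j resM (j̄ ^ ℓ)`, `Q∞ : PlaceOver ℓ j iotaZero j̄`
  (the shapes of `S35.H16.nonempty_placeV_lin/_pow`).

In both cases: for `u` in both valuation rings, `N(u) ∈ V_M` and, with `F' z (t) = z (t^ℓ)`,
`F' (resM (N u)) = F' (res_lin u) * (res_pow u) ^ ℓ`.
-/

set_option autoImplicit false
set_option linter.unusedSectionVars false
set_option linter.style.haveILetI false
set_option synthInstance.maxHeartbeats 400000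

noncomputable section

namespace Fermat.Agent.S35.H16

open ModularCurve Polynomial IsLocalRing Fermat.Agent.S28
open Fermat.Agent.S18 Fermat.Agent.S34.H92 Fermat.Agent.S34.H16

local notation "Qbar" => AlgebraicClosure ℚ

section Inst

variable (M : ℕ) [NeZero M] {ℓ : ℕ} [hℓ : Fact ℓ.Prime] (hℓM : ¬ ℓ ∣ M)
  (A : ValuationSubring Qbar) (hA : A.LiesOverPrime ℓ)

local notation "kA" => IsLocalRing.ResidueField A
local notation "L₁" => H45.unrCyclo ℓ
local notation "FM" => modularFunctionFieldFullC (H45.unrCyclo ℓ) M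
local notation "FN" => modularFunctionFieldFullC (H45.unrCyclo ℓ) (ℓ * M)
local notation "V" => VM M hℓM A hA

theorem charZero_FM : CharZero FM :=
  charZero_of_injective_algebraMap (algebraMap L₁ FM).injective

include hA in
theorem charP_laurent : CharP (LaurentSeries kA) ℓ := by
  haveI : CharP kA ℓ := Fermat.Agent.S18.H92.charP_residueField A hA
  exact charP_of_injective_ringHom (f := (HahnSeries.C : kA →+* LaurentSeries kA))
    HahnSeries.C_injective ℓ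

/-- a finite-rank extension of characteristic-`0` fields is finite separable. -/
theorem isSeparable_of_finrank_pos {F E : Type*} [Field F] [Field E] [CharZero F] [Algebra F E]
    (h : 0 < Module.finrank F E) : FiniteDimensional F E ∧ Algebra.IsSeparable F E := by
  haveI : FiniteDimensional F E := Module.finite_of_finrank_pos h
  exact ⟨inferInstance, inferInstance⟩

set_option maxHeartbeats 1600000 in
/-- **(g2), `ι`-side.** For `u` in both valuation rings of `F_N` over `V_M` (inclusion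
`F_M ⊆ F_N`): `N_ι(u) ∈ V_M` and `F'(res_M(N_ι u)) = F'(res_∞ u) · (res_0 u)^ℓ`. -/
theorem exists_norm_reduction_iota (D : ModularPolynomialData ℓ)
    (hD : ∀ (k : Type) [Field k] (ζ : kˣ), IsPrimitiveRoot ζ ℓ → RootsAt k ℓ ζ D.Φ) :
    letI := degAlgebra L₁ M (ℓ * M) (dvd_level M)
    letI := algebraVMFN M hℓM A hA
    haveI := isDiscreteValuationRing_VM M hℓM A hA
    ∀ (Pinf : CA.H99.PlaceOver (L := FN) ((ℓ : ℕ) : V) (S18.H16.jNK L₁ (ℓ * M))
        (resM M hℓM A hA) (resM M hℓM A hA (jMV M hℓM A hA) ^ ℓ))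
      (P0 : CA.H99.PlaceOver (L := FN) ((ℓ : ℕ) : V) (S18.H16.jNK L₁ (ℓ * M))
        (iotaZero M hℓM A hA) (resM M hℓM A hA (jMV M hℓM A hA)))
      {u : FN} (h₁ : u ∈ Pinf.O1) (h₂ : u ∈ P0.O1),
      ∃ n : V, algebraMap V FM n = Algebra.norm FM u ∧
        qExpand kA ℓ (resM M hℓM A hA n) =
          qExpand kA ℓ (Pinf.res1 ⟨u, h₁⟩) * (P0.res1 ⟨u, h₂⟩) ^ ℓ := by
  letI := degAlgebra L₁ M (ℓ * M) (dvd_level M)
  letI := algebraVMFN M hℓM A hA
  haveI := isDiscreteValuationRing_VM M hℓM A hA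
  haveI := charP_residueField_VM M hℓM A hA
  haveI := isScalarTower_VMFN M hℓM A hA
  haveI := charP_laurent A hA
  have hfr := finrank_fullC_prime L₁ M (ℓ * M) (dvd_level M) ℓ hℓ.out hℓM rfl
    (natCast_level_ne_zero M)
  haveI := charZero_FM M (ℓ := ℓ)
  obtain ⟨hfd, hsep⟩ := isSeparable_of_finrank_pos (F := FM) (E := FN)
    (by rw [hfr]; exact Nat.succ_pos ℓ)
  intro Pinf P0 u h₁ h₂
  exact exists_norm_reduction (K₀ := FM) (L := FN) ℓ D hD
    (y := S18.H16.jNK L₁ M) (θ := S18.H16.jNK L₁ (ℓ * M))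
    (aeval_jNK_relPoly L₁ M (ℓ * M) (dvd_level M) ℓ rfl D)
    (adjoin_jNK_over_eq_top L₁ M (ℓ * M) (dvd_level M) (natCast_level_ne_zero M)) hfr
    (phiV M hℓM A hA) (algebraMap_phiV_X M hℓM A hA) (resM M hℓM A hA) (qExpand kA ℓ)
    (θb₁ := resM M hℓM A hA (jMV M hℓM A hA) ^ ℓ) (θb₂ := resM M hℓM A hA (jMV M hℓM A hA))
    (by rw [phiV_X]) (by rw [phiV_X, qExpand_resM_jMV]) (ι₂ := iotaZero M hℓM A hA) rfl
    Pinf P0 (rhoV M hℓM A hA) (not_dvd_order_rhoV_jMV M hℓM A hA)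
    (maximalIdeal_VM M hℓM A hA) (resM_natCast M hℓM A hA) h₁ h₂

set_option maxHeartbeats 1600000 in
/-- **(g2), `V_ℓ`-side.** For `u` in both valuation rings of `F_N` over `V_ℓ(V_M)`
(`F_M → F_N`, `f(t) ↦ f(t^ℓ)`): `N_V(u) ∈ V_M` and
`F'(res_M(N_V u)) = F'(res_lin u) · (res_pow u)^ℓ`. -/
theorem exists_norm_reduction_V (D : ModularPolynomialData ℓ)
    (hD : ∀ (k : Type) [Field k] (ζ : kˣ), IsPrimitiveRoot ζ ℓ → RootsAt k ℓ ζ D.Φ) :
    letI := vAlgebra L₁ ℓ M (ℓ * M) dvd_rfl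
    letI := algebraVMFNv M hℓM A hA
    haveI := isDiscreteValuationRing_VM M hℓM A hA
    ∀ (Qlin : CA.H99.PlaceOver (L := FN) ((ℓ : ℕ) : V) (S18.H16.jK L₁ (ℓ * M))
        (resM M hℓM A hA) (resM M hℓM A hA (jV M hℓM A hA) ^ ℓ))
      (Qpow : CA.H99.PlaceOver (L := FN) ((ℓ : ℕ) : V) (S18.H16.jK L₁ (ℓ * M))
        (iotaZero M hℓM A hA) (resM M hℓM A hA (jV M hℓM A hA)))
      {u : FN} (h₁ : u ∈ Qlin.O1) (h₂ : u ∈ Qpow.O1),
      ∃ n : V, algebraMap V FM n = Algebra.norm FM u ∧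
        qExpand kA ℓ (resM M hℓM A hA n) =
          qExpand kA ℓ (Qlin.res1 ⟨u, h₁⟩) * (Qpow.res1 ⟨u, h₂⟩) ^ ℓ := by
  letI := vAlgebra L₁ ℓ M (ℓ * M) dvd_rfl
  letI := algebraVMFNv M hℓM A hA
  haveI := isDiscreteValuationRing_VM M hℓM A hA
  haveI := charP_residueField_VM M hℓM A hA
  haveI := isScalarTower_VMFNv M hℓM A hA
  haveI := charP_laurent A hA
  have hfr := finrank_vSub L₁ ℓ M (ℓ * M) hℓ.out hℓM rfl (natCast_level_ne_zero M)
  haveI := charZero_FM M (ℓ := ℓ)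
  obtain ⟨hfd, hsep⟩ := isSeparable_of_finrank_pos (F := FM) (E := FN)
    (by rw [hfr]; exact Nat.succ_pos ℓ)
  intro Qlin Qpow u h₁ h₂
  exact exists_norm_reduction (K₀ := FM) (L := FN) ℓ D hD
    (y := S18.H16.jK L₁ M) (θ := S18.H16.jK L₁ (ℓ * M))
    (vRel M D hD)
    (vAlgebra_adjoin_jK_eq_top L₁ ℓ M (ℓ * M) rfl (natCast_level_ne_zero M)) hfr
    (phiVj M hℓM A hA) (algebraMap_phiVj_X M hℓM A hA) (resM M hℓM A hA) (qExpand kA ℓ)
    (θb₁ := resM M hℓM A hA (jV M hℓM A hA) ^ ℓ) (θb₂ := resM M hℓM A hA (jV M hℓM A hA))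
    (by rw [phiVj_X]) (by rw [phiVj_X, qExpand_resM_jV]) (ι₂ := iotaZero M hℓM A hA) rfl
    Qlin Qpow (rhoV M hℓM A hA) (not_dvd_order_rhoV_jV M hℓM A hA)
    (maximalIdeal_VM M hℓM A hA) (resM_natCast M hℓM A hA) h₁ h₂

end Inst

end Fermat.Agent.S35.H16
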