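import Mathlib
import Fermat.Agent.S35.H16_NormRedBoth
import Fermat.Agent.S35.H16_NormRedInst
import Fermat.Agent.S34.H6_L0HV

/-!
S35 / G3 INSTANCE (helper16): BOTH norm reductions `(g2)` at the two places `P∞`, `P₀` of
`S34.H16_L0Places` (`F_N = FullC L₁ (ℓ M)` over the level-`M` Gauss ring `V_M = H92.VM`):

* `exists_norm_reduction_iota` (in `S35.H16_NormRedInst`):
  `F'(res_M N_ι(u)) = F'(res_∞ u) · (res_0 u)^ℓ`;
* `exists_norm_reduction_V_both` (here):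
  `F'(res_M N_V(u)) = F'(res_0 u) · (res_∞ u)^ℓ`  (norm along `V_ℓ : F_M → F_N`),

with the SAME two places in both formulas (transport facts: helper6's `S34.H6_L0TransportInst`).
-/

set_option autoImplicit false
set_option linter.unusedSectionVars false
set_option linter.style.haveILetI false
set_option synthInstance.maxHeartbeats 400000

noncomputable section

namespace Fermat.Agent.S35.H16

open ModularCurve Polynomial IsLocalRing Fermat.Agent.S28
open Fermat.Agent.S18 Fermat.Agent.S34.H92 Fermat.Agent.S34.H16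

local notation "Qbar" => AlgebraicClosure ℚ

section Inst

variable (M : ℕ) [NeZero M] {ℓ : ℕ} [hℓ : Fact ℓ.Prime] (hℓM : ¬ ℓ ∣ M)
  (A : ValuationSubring Qbar) (hA : A.LiesOverPrime ℓ)

local notation "kA" => IsLocalRing.ResidueField A
local notation "L₁" => H45.unrCyclo ℓ
local notation "FM" => modularFunctionFieldFullC (H45.unrCyclo ℓ) M
local notation "FN" => modularFunctionFieldFullC (H45.unrCyclo ℓ) (ℓ * M)
local notation "V" => VM M hℓM A hA

theorem algebraMap_VMFNv_apply (a : V) :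
    letI := algebraVMFNv M hℓM A hA
    algebraMap V FN a = S34.H36.vSub L₁ ℓ M (ℓ * M) dvd_rfl (a : FM) := by
  letI := vAlgebra L₁ ℓ M (ℓ * M) dvd_rfl
  letI := algebraVMFNv M hℓM A hA
  rw [RingHom.algebraMap_toAlgebra, RingHom.comp_apply, vAlgebra_algebraMap_eq]
  rfl

set_option maxHeartbeats 1600000 in
/-- **(g2), `V_ℓ`-side, at the two places of the inclusion side.** -/
theorem exists_norm_reduction_V_both (D : ModularPolynomialData ℓ)
    (hD : ∀ (k : Type) [Field k] (ζ : kˣ), IsPrimitiveRoot ζ ℓ → RootsAt k ℓ ζ D.Φ) :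
    letI := algebraVMFN M hℓM A hA
    haveI := isDiscreteValuationRing_VM M hℓM A hA
    ∀ (Pinf : CA.H99.PlaceOver (L := FN) ((ℓ : ℕ) : V) (S18.H16.jNK L₁ (ℓ * M))
        (resM M hℓM A hA) (resM M hℓM A hA (jMV M hℓM A hA) ^ ℓ))
      (P0 : CA.H99.PlaceOver (L := FN) ((ℓ : ℕ) : V) (S18.H16.jNK L₁ (ℓ * M))
        (iotaZero M hℓM A hA) (resM M hℓM A hA (jMV M hℓM A hA)))
      {u : FN} (h₁ : u ∈ Pinf.O1) (h₂ : u ∈ P0.O1),
      ∃ n : V, algebraMap V FM n =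
          (letI := vAlgebra L₁ ℓ M (ℓ * M) dvd_rfl; Algebra.norm FM u) ∧
        qExpand kA ℓ (resM M hℓM A hA n) =
          qExpand kA ℓ (P0.res1 ⟨u, h₂⟩) * (Pinf.res1 ⟨u, h₁⟩) ^ ℓ := by
  letI iι := algebraVMFN M hℓM A hA
  haveI := isDiscreteValuationRing_VM M hℓM A hA
  intro Pinf P0 u h₁ h₂
  have HPinf := S34.H6.isPlaceData_of_placeOver' M hℓM A hA Pinf
  have HP0 := S34.H6.isPlaceData_of_placeOver' M hℓM A hA P0
  have Tinf : ∀ a : V, ∃ h : S34.H36.vSub L₁ ℓ M (ℓ * M) dvd_rfl (a : FM) ∈ Pinf.O1,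
      Pinf.res1 ⟨_, h⟩ = qExpand kA ℓ (resM M hℓM A hA a) :=
    fun a => HPinf.transport_vSub_infty rfl rfl (by rw [resM_jMV]) a
  have T0 : ∀ a : V, ∃ h : S34.H36.vSub L₁ ℓ M (ℓ * M) dvd_rfl (a : FM) ∈ P0.O1,
      P0.res1 ⟨_, h⟩ = resM M hℓM A hA a :=
    fun a => HP0.transport_vSub_zero rfl rfl (resM_jMV M hℓM A hA) a
  have Jinf : ∃ h : S18.H16.jK L₁ (ℓ * M) ∈ Pinf.O1,
      Pinf.res1 ⟨_, h⟩ = resM M hℓM A hA (phiVj M hℓM A hA X) := by
    rw [phiVj_X]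
    exact HPinf.jK_mem
  have J0 : ∃ h : S18.H16.jK L₁ (ℓ * M) ∈ P0.O1,
      P0.res1 ⟨_, h⟩ = resM M hℓM A hA (phiVj M hℓM A hA X) ^ ℓ := by
    obtain ⟨h, e⟩ := HP0.jK_mem
    refine ⟨h, ?_⟩
    rw [e, phiVj_X, iotaZero_apply]
    exact qExpand_resM_jV M hℓM A hA
  haveI := charP_residueField_VM M hℓM A hA
  haveI := charP_laurent A hA
  have Tinf' : ∀ a : V, ∃ h : @algebraMap V FN _ _ (algebraVMFNv M hℓM A hA) a ∈ Pinf.O1,
      Pinf.res1 ⟨_, h⟩ = qExpand kA ℓ (resM M hℓM A hA a) := by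
    intro a
    rw [algebraMap_VMFNv_apply]
    exact Tinf a
  have T0' : ∀ a : V, ∃ h : @algebraMap V FN _ _ (algebraVMFNv M hℓM A hA) a ∈ P0.O1,
      P0.res1 ⟨_, h⟩ = resM M hℓM A hA a := by
    intro a
    rw [algebraMap_VMFNv_apply]
    exact T0 a
  letI := vAlgebra L₁ ℓ M (ℓ * M) dvd_rfl
  letI iV := algebraVMFNv M hℓM A hA
  exact exists_norm_reduction_vq_of_transport L₁ M (ℓ * M) ℓ hℓM rfl (natCast_level_ne_zero M) D hD
    (phiVj M hℓM A hA) (rhoV M hℓM A hA) (not_dvd_order_rhoV_jV M hℓM A hA)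
    (maximalIdeal_VM M hℓM A hA) (resM M hℓM A hA) (resM_natCast M hℓM A hA) (qExpand kA ℓ)
    (isScalarTower_VMFNv M hℓM A hA) (algebraMap_phiVj_X M hℓM A hA)
    (by rw [phiVj_X]; exact qExpand_resM_jV M hℓM A hA)
    (iP := iι) Pinf P0 Tinf' T0' Jinf J0 h₁ h₂

end Inst

end Fermat.Agent.S35.H16
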