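import Mathlib
import Fermat.Agent.S35.H16_G2AlphaBeta
import Fermat.Agent.S35.H16_NormRedBothInst
import Fermat.Agent.S37.H59_FrobLaurent

/-!
S35 / G3 INSTANCE (helper16): `(g2α)`, `(g2β)` over `H92.VM`, in the shape of
`S35.H46.g3_residues`: `κF = kA((t))`, `φb = coeffMap (frobenius kA ℓ)` (coefficientwise
Frobenius), `PM = gaussResPlace` (the level-`M` Gauss ring with `resM`), `Pinf`, `P0` the two
places of `S34.H16_L0Places` (as `H46.ResPlace.mk P.O1 P.res1 P.inv_mem`), `Nα` = norm along the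
inclusion (`S34.H16.degAlgebra`), `Nβ` = norm along `V_ℓ` (`S35.H16.vAlgebra`).
-/

set_option autoImplicit false
set_option linter.unusedSectionVars false
set_option linter.style.haveILetI false
set_option synthInstance.maxHeartbeats 400000

noncomputable section

namespace Fermat.Agent.S35.H16

open ModularCurve Polynomial IsLocalRing Fermat.Agent.S28
open Fermat.Agent.S18 Fermat.Agent.S34.H92 Fermat.Agent.S34.H16

local notation "Qbar" => AlgebraicClosure ℚ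

section Inst

variable (M : ℕ) [NeZero M] {ℓ : ℕ} [hℓ : Fact ℓ.Prime] (hℓM : ¬ ℓ ∣ M)
  (A : ValuationSubring Qbar) (hA : A.LiesOverPrime ℓ)

local notation "kA" => IsLocalRing.ResidueField A
local notation "L₁" => H45.unrCyclo ℓ
local notation "FM" => modularFunctionFieldFullC (H45.unrCyclo ℓ) M
local notation "FN" => modularFunctionFieldFullC (H45.unrCyclo ℓ) (ℓ * M)
local notation "V" => VM M hℓM A hA

/-- The level-`M` Gauss place of `F_M` as a `ResPlace`. -/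
def gaussResPlace : H46.ResPlace FM (LaurentSeries kA) where
  O1 := (VM M hℓM A hA).toSubring
  res := resM M hℓM A hA
  inv_mem := by
    intro y hy hne
    have hu : IsUnit (⟨y, hy⟩ : V) := by
      by_contra h
      exact hne ((resM_eq_zero_iff_not_isUnit M hℓM A hA ⟨y, hy⟩).2 h)
    obtain ⟨w, hw⟩ := hu
    have h1 : ((w : V) : FM) * (((w⁻¹ : Vˣ) : V) : FM) = 1 := by
      have h0 : (w : V) * ((w⁻¹ : Vˣ) : V) = 1 := by
        rw [← Units.val_mul, mul_inv_cancel, Units.val_one]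
      exact congrArg (fun z : V => (z : FM)) h0
    rw [hw] at h1
    have h2 : y⁻¹ = (((w⁻¹ : Vˣ) : V) : FM) := (eq_inv_of_mul_eq_one_right h1).symm ▸ rfl
    rw [h2]
    exact ((w⁻¹ : Vˣ) : V).2

theorem gaussResPlace_hasRes (n : V) :
    ∃ h : algebraMap V FM n ∈ (gaussResPlace M hℓM A hA).O1,
      (gaussResPlace M hℓM A hA).res ⟨_, h⟩ = resM M hℓM A hA n :=
  ⟨n.2, rfl⟩

include hA in
theorem pow_eq_qExpand_frob :
    haveI : CharP kA ℓ := S18.H92.charP_residueField A hA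
    ∀ z : LaurentSeries kA, z ^ ℓ = qExpand kA ℓ (coeffMap (frobenius kA ℓ) z) := by
  haveI : CharP kA ℓ := S18.H92.charP_residueField A hA
  exact S37.H59.pow_char_eq_qExpand_frobenius ℓ

set_option maxHeartbeats 1600000 in
/-- **`(g2α)` over `H92.VM`.** -/
theorem g2alpha_VM (D : ModularPolynomialData ℓ)
    (hD : ∀ (k : Type) [Field k] (ζ : kˣ), IsPrimitiveRoot ζ ℓ → RootsAt k ℓ ζ D.Φ) :
    letI := algebraVMFN M hℓM A hA
    haveI := isDiscreteValuationRing_VM M hℓM A hA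
    haveI : CharP kA ℓ := S18.H92.charP_residueField A hA
    ∀ (Pinf : CA.H99.PlaceOver (L := FN) ((ℓ : ℕ) : V) (S18.H16.jNK L₁ (ℓ * M))
        (resM M hℓM A hA) (resM M hℓM A hA (jMV M hℓM A hA) ^ ℓ))
      (P0 : CA.H99.PlaceOver (L := FN) ((ℓ : ℕ) : V) (S18.H16.jNK L₁ (ℓ * M))
        (iotaZero M hℓM A hA) (resM M hℓM A hA (jMV M hℓM A hA)))
      (u : FN) (sinf s0 : (LaurentSeries kA)ˣ),
      (H46.ResPlace.mk Pinf.O1 Pinf.res1 Pinf.inv_mem).HasRes u sinf →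
      (H46.ResPlace.mk P0.O1 P0.res1 P0.inv_mem).HasRes u s0 →
      (gaussResPlace M hℓM A hA).HasRes
        (letI := degAlgebra L₁ M (ℓ * M) (dvd_level M); Algebra.norm FM u)
        (sinf * Units.map ((coeffMap (frobenius kA ℓ) : LaurentSeries kA →+* LaurentSeries kA) :
          LaurentSeries kA →* LaurentSeries kA) s0) := by
  letI := algebraVMFN M hℓM A hA
  haveI := isDiscreteValuationRing_VM M hℓM A hA
  haveI : CharP kA ℓ := S18.H92.charP_residueField A hA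
  haveI := charP_residueField_VM M hℓM A hA
  haveI := charP_laurent A hA
  intro Pinf P0
  exact g2alpha_gen L₁ M (ℓ * M) ℓ hℓM rfl (natCast_level_ne_zero M) D hD
    (phiV M hℓM A hA) (rhoV M hℓM A hA) (not_dvd_order_rhoV_jMV M hℓM A hA)
    (maximalIdeal_VM M hℓM A hA) (resM M hℓM A hA) (resM_natCast M hℓM A hA) (qExpand kA ℓ)
    (coeffMap (frobenius kA ℓ)) (pow_eq_qExpand_frob A hA)
    (gaussResPlace M hℓM A hA) (gaussResPlace_hasRes M hℓM A hA)
    (isScalarTower_VMFN M hℓM A hA) (algebraMap_phiV_X M hℓM A hA)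
    (θb₁ := resM M hℓM A hA (jMV M hℓM A hA) ^ ℓ) (θb₂ := resM M hℓM A hA (jMV M hℓM A hA))
    (by rw [phiV_X]) (by rw [phiV_X, qExpand_resM_jMV]) (ι₂ := iotaZero M hℓM A hA) rfl
    Pinf P0

set_option maxHeartbeats 1600000 in
/-- **`(g2β)` over `H92.VM`.** -/
theorem g2beta_VM (D : ModularPolynomialData ℓ)
    (hD : ∀ (k : Type) [Field k] (ζ : kˣ), IsPrimitiveRoot ζ ℓ → RootsAt k ℓ ζ D.Φ) :
    letI := algebraVMFN M hℓM A hA
    haveI := isDiscreteValuationRing_VM M hℓM A hA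
    haveI : CharP kA ℓ := S18.H92.charP_residueField A hA
    ∀ (Pinf : CA.H99.PlaceOver (L := FN) ((ℓ : ℕ) : V) (S18.H16.jNK L₁ (ℓ * M))
        (resM M hℓM A hA) (resM M hℓM A hA (jMV M hℓM A hA) ^ ℓ))
      (P0 : CA.H99.PlaceOver (L := FN) ((ℓ : ℕ) : V) (S18.H16.jNK L₁ (ℓ * M))
        (iotaZero M hℓM A hA) (resM M hℓM A hA (jMV M hℓM A hA)))
      (u : FN) (sinf s0 : (LaurentSeries kA)ˣ),
      (H46.ResPlace.mk Pinf.O1 Pinf.res1 Pinf.inv_mem).HasRes u sinf →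
      (H46.ResPlace.mk P0.O1 P0.res1 P0.inv_mem).HasRes u s0 →
      (gaussResPlace M hℓM A hA).HasRes
        (letI := vAlgebra L₁ ℓ M (ℓ * M) dvd_rfl; Algebra.norm FM u)
        (Units.map ((coeffMap (frobenius kA ℓ) : LaurentSeries kA →+* LaurentSeries kA) :
          LaurentSeries kA →* LaurentSeries kA) sinf * s0) := by
  letI iι := algebraVMFN M hℓM A hA
  haveI := isDiscreteValuationRing_VM M hℓM A hA
  haveI : CharP kA ℓ := S18.H92.charP_residueField A hA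
  intro Pinf P0
  have HPinf := S34.H6.isPlaceData_of_placeOver' M hℓM A hA Pinf
  have HP0 := S34.H6.isPlaceData_of_placeOver' M hℓM A hA P0
  have Tinf : ∀ a : V, ∃ h : S34.H36.vSub L₁ ℓ M (ℓ * M) dvd_rfl (a : FM) ∈ Pinf.O1,
      Pinf.res1 ⟨_, h⟩ = qExpand kA ℓ (resM M hℓM A hA a) :=
    fun a => HPinf.transport_vSub_infty rfl rfl (by rw [resM_jMV]) a
  have T0 : ∀ a : V, ∃ h : S34.H36.vSub L₁ ℓ M (ℓ * M) dvd_rfl (a : FM) ∈ P0.O1,
      P0.res1 ⟨_, h⟩ = resM M hℓM A hA a :=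
    fun a => HP0.transport_vSub_zero rfl rfl (resM_jMV M hℓM A hA) a
  have Jinf : ∃ h : S18.H16.jK L₁ (ℓ * M) ∈ Pinf.O1,
      Pinf.res1 ⟨_, h⟩ = resM M hℓM A hA (phiVj M hℓM A hA X) := by
    rw [phiVj_X]
    exact HPinf.jK_mem
  have J0 : ∃ h : S18.H16.jK L₁ (ℓ * M) ∈ P0.O1,
      P0.res1 ⟨_, h⟩ = resM M hℓM A hA (phiVj M hℓM A hA X) ^ ℓ := by
    obtain ⟨h, e⟩ := HP0.jK_mem
    refine ⟨h, ?_⟩
    rw [e, phiVj_X, iotaZero_apply]
    exact qExpand_resM_jV M hℓM A hA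
  haveI := charP_residueField_VM M hℓM A hA
  haveI := charP_laurent A hA
  have Tinf' : ∀ a : V, ∃ h : @algebraMap V FN _ _ (algebraVMFNv M hℓM A hA) a ∈ Pinf.O1,
      Pinf.res1 ⟨_, h⟩ = qExpand kA ℓ (resM M hℓM A hA a) := by
    intro a
    rw [algebraMap_VMFNv_apply]
    exact Tinf a
  have T0' : ∀ a : V, ∃ h : @algebraMap V FN _ _ (algebraVMFNv M hℓM A hA) a ∈ P0.O1,
      P0.res1 ⟨_, h⟩ = resM M hℓM A hA a := by
    intro a
    rw [algebraMap_VMFNv_apply]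
    exact T0 a
  letI := vAlgebra L₁ ℓ M (ℓ * M) dvd_rfl
  letI iV := algebraVMFNv M hℓM A hA
  exact g2beta_gen L₁ M (ℓ * M) ℓ hℓM rfl (natCast_level_ne_zero M) D hD
    (phiVj M hℓM A hA) (rhoV M hℓM A hA) (not_dvd_order_rhoV_jV M hℓM A hA)
    (maximalIdeal_VM M hℓM A hA) (resM M hℓM A hA) (resM_natCast M hℓM A hA) (qExpand kA ℓ)
    (coeffMap (frobenius kA ℓ)) (pow_eq_qExpand_frob A hA)
    (gaussResPlace M hℓM A hA) (gaussResPlace_hasRes M hℓM A hA)
    (isScalarTower_VMFNv M hℓM A hA) (algebraMap_phiVj_X M hℓM A hA)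
    (by rw [phiVj_X]; exact qExpand_resM_jV M hℓM A hA)
    (iP := iι) Pinf P0 Tinf' T0' Jinf J0

end Inst

end Fermat.Agent.S35.H16
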