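import Mathlib
import Fermat.Agent.S34.H92_GaussLevelM
import Fermat.Agent.S34.H92_GaussHom
import Fermat.Agent.S18.H45_InertiaBase

/-!
# S35 / E-level (helper92): the level-`M` Gauss valuation ring over `A'' = H45.cutOver A E`

`E` an intermediate field of `Qbar / L₁` (`L₁ = H45.unrCyclo ℓ`), `A'' = A ∩ E = H45.cutOver A E`
(DVR when `E / L₁` is finite, uniformiser `ϖ`), `kA = ResidueField A`,
`resE = residue A ∘ inclCutOver : A'' →+* kA` (onto), `F_M(E) = modularFunctionFieldFullC ↥E M`.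
Mechanical re-instantiation of `S34.H92_GaussLevelM` (the layer below is generic):

* `VME : ValuationSubring F_M(E)`, `resMFE : VME →+* fullC kA M` (onto), `resME : VME →+* kA((q))`;
* **(T1)** `isDiscreteValuationRing_VME`, `maximalIdeal_VME = (ϖ)`, `irreducible_const_VME`;
* **(T2)** `resME_eq_zero_iff` (kernel `= (ϖ)`), `resME_const`, `const_mem_VME_iff`;
* **(T3)** `mem_VME_of_up`, `jdK_mem_VME`, `jK_mem_VME`, `jNK_mem_VME`;
* **(T4)** `exists_repr_VME`;
* compatibility with the `A₁`-level: `baseChange_mem_VME`, `mem_VM_of_baseChange_mem_VME`.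
-/

set_option autoImplicit false
set_option synthInstance.maxHeartbeats 400000
set_option linter.unusedSectionVars false

noncomputable section

namespace Fermat.Agent.S35.H92

open ModularCurve Polynomial AlgebraicCurve IsLocalRing
open Fermat.Agent.S18 Fermat.Agent.S18.H92 Fermat.Agent.S18.H45 Fermat.Agent.S34.H92

local notation "Qbar" => AlgebraicClosure ℚ

variable (M : ℕ) [NeZero M] {ℓ : ℕ} [hℓ : Fact ℓ.Prime] (hℓM : ¬ ℓ ∣ M)
  (A : ValuationSubring Qbar) (hA : A.LiesOverPrime ℓ)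
  (E : IntermediateField (H45.unrCyclo ℓ) Qbar)

local notation "kA" => IsLocalRing.ResidueField A
local notation "A₁" => H45.A0 A ℓ
local notation "L₁" => H45.unrCyclo ℓ
local notation "A₂" => H45.cutOver A E
set_option quotPrecheck false in
local notation "FME" => modularFunctionFieldFullC (↥E) M
local notation "FkM" => modularFunctionFieldFullC (IsLocalRing.ResidueField A) M

/-- the residue map of `A'' = A ∩ E`, valued in the residue field of `A`. -/
def resE : A₂ →+* kA := (IsLocalRing.residue A).comp (H45.inclCutOver A E)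

theorem resE_apply (a : A₂) : resE A E a = IsLocalRing.residue A (H45.inclCutOver A E a) := rfl

theorem resE_inclA0CutOver (a : A₁) : resE A E (H45.inclA0CutOver A E a) = H45.resA0 A ℓ a := rfl

include hA in
theorem resE_surjective : Function.Surjective (resE A E) :=
  H45.residue_comp_inclCutOver_surjective hℓ.out hA E

/-- The two-generator datum of `X₀(M)` over `A'' = A ∩ E`. -/
def twoGenE : TwoGen A₂ (resE A E) where
  x := jqModC A₂
  y := jqNModC A₂ M
  n := dedekindPsi M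
  Φ := (modData M).Φ.map (Polynomial.mapRingHom (Int.castRingHom A₂))
  monic := (modData M).monic.map _
  natDegree_eq := by rw [(modData M).monic.natDegree_map, (modData M).natDegree_eq]
  root := ev2_map_eq_zero M (modData M) A₂
  indep := by
    intro P hdeg h
    rw [coeffMap_jqModC, coeffMap_jqNModC] at h
    exact indepK_residueField M hℓM A hA P hdeg h
  surj := resE_surjective A hA E

theorem twoGenE_xL : (twoGenE M hℓM A hA E).xL = jqModC (↥E) := coeffMap_jqModC _

theorem twoGenE_yL : (twoGenE M hℓM A hA E).yL = qExpand (↥E) M (jqModC (↥E)) :=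
  coeffMap_jqNModC _ _

theorem twoGenE_xk : (twoGenE M hℓM A hA E).xk = jqModC kA := coeffMap_jqModC _

theorem twoGenE_yk : (twoGenE M hℓM A hA E).yk = qExpand kA M (jqModC kA) :=
  coeffMap_jqNModC _ _

theorem natCast_E_ne_zero : ((M : ℕ) : ↥E) ≠ 0 := Nat.cast_ne_zero.2 (NeZero.ne M)

theorem twoGenE_FL : FME = (twoGenE M hℓM A hA E).FL := by
  rw [H16.fullC_eq_adjoin_gen M (↥E) (natCast_E_ne_zero M E), TwoGen.FL, twoGenE_xL,
    twoGenE_yL]

theorem twoGenE_Fk : FkM = (twoGenE M hℓM A hA E).Fk := by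
  rw [H16.fullC_eq_adjoin_gen M kA (natCast_residueField_ne_zero M hℓM A hA), TwoGen.Fk,
    twoGenE_xk, twoGenE_yk]

/-- **The level-`M` Gauss valuation ring** of `F_M(E) = fullC ↥E M` over `A'' = A ∩ E`. -/
def VME : ValuationSubring FME :=
  (twoGenE M hℓM A hA E).unitBall FME (twoGenE_FL M hℓM A hA E)

/-- The reduction map onto the level-`M` function field over `kA`. -/
def resMFE : VME M hℓM A hA E →+* FkM :=
  (twoGenE M hℓM A hA E).resHom FME (twoGenE_FL M hℓM A hA E) FkM (twoGenE_Fk M hℓM A hA E)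

/-- The reduction map as `q`-expansions over `kA`. -/
def resME : VME M hℓM A hA E →+* LaurentSeries kA :=
  (algebraMap FkM (LaurentSeries kA)).comp (resMFE M hℓM A hA E)

theorem resME_apply (f : VME M hℓM A hA E) :
    resME M hℓM A hA E f = ((resMFE M hℓM A hA E f : FkM) : LaurentSeries kA) := rfl

theorem resMFE_surjective : Function.Surjective (resMFE M hℓM A hA E) :=
  (twoGenE M hℓM A hA E).resHom_surjective _ _ _ _

theorem resME_injective_iff (f g : VME M hℓM A hA E) :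
    resME M hℓM A hA E f = resME M hℓM A hA E g ↔
      resMFE M hℓM A hA E f = resMFE M hℓM A hA E g :=
  ⟨fun h => Subtype.ext h, fun h => by rw [resME_apply, resME_apply, h]⟩

/-! ### (T2) constants -/

/-- the constants `A'' → V_M(E)` -/
def constVME : A₂ →+* VME M hℓM A hA E :=
  constHom (twoGenE M hℓM A hA E) FME (twoGenE_FL M hℓM A hA E)

theorem coe_constVME (a : A₂) :
    ((constVME M hℓM A hA E a : VME M hℓM A hA E) : FME) = algebraMap (↥E) FME (a : ↥E) := rfl

theorem const_mem_VME_iff (c : ↥E) : algebraMap (↥E) FME c ∈ VME M hℓM A hA E ↔ c ∈ A₂ :=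
  (twoGenE M hℓM A hA E).algebraMap_mem_unitBall_iff _ _ c

theorem resMFE_const (a : A₂) :
    resMFE M hℓM A hA E (constVME M hℓM A hA E a) = algebraMap kA FkM (resE A E a) :=
  resHom_constHom (twoGenE M hℓM A hA E) _ _ _ _ a

theorem resME_const (a : A₂) :
    resME M hℓM A hA E (constVME M hℓM A hA E a) = HahnSeries.C (resE A E a) := by
  rw [resME_apply, resMFE_const]
  show algebraMap kA (LaurentSeries kA) (resE A E a) = _
  rw [algebraMap_eq_single]; rfl

/-! ### (T1) discrete valuation ring, uniformiser `ϖ` -/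

section DVR

variable [FiniteDimensional (H45.unrCyclo ℓ) E] (ϖ : H45.cutOver A E)
  (hϖ : IsLocalRing.maximalIdeal (H45.cutOver A E) = Ideal.span {ϖ})

include hA hϖ in
theorem irreducible_uniformizer : Irreducible ϖ := by
  haveI := H45.isDiscreteValuationRing_cutOver hℓ.out hA E
  exact (IsDiscreteValuationRing.irreducible_iff_uniformizer ϖ).mpr hϖ

include hA hϖ in
theorem exists_associated_pow_cutOver (a : A₂) (ha : a ≠ 0) :
    ∃ n : ℕ, Associated (ϖ ^ n) a := by
  haveI := H45.isDiscreteValuationRing_cutOver hℓ.out hA E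
  obtain ⟨n, hn⟩ := IsDiscreteValuationRing.associated_pow_irreducible ha
    (irreducible_uniformizer A hA E ϖ hϖ)
  exact ⟨n, hn.symm⟩

include hϖ in
theorem resE_uniformizer : resE A E ϖ = 0 := by
  have h : ϖ ∈ IsLocalRing.maximalIdeal A₂ := by
    rw [hϖ]; exact Ideal.mem_span_singleton_self ϖ
  rw [H45.mem_maximalIdeal_cutOver_iff] at h
  rw [resE_apply, IsLocalRing.residue_eq_zero_iff]
  exact (A.valuation_lt_one_iff (H45.inclCutOver A E ϖ)).mpr h

include hA hϖ in
theorem uniformizer_ne_zero : ϖ ≠ 0 := (irreducible_uniformizer A hA E ϖ hϖ).ne_zero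

include ϖ hϖ in
/-- **(T1)** `V_M(E)` is a discrete valuation ring. -/
theorem isDiscreteValuationRing_VME : IsDiscreteValuationRing (VME M hℓM A hA E) :=
  isDiscreteValuationRing_unitBall (twoGenE M hℓM A hA E) FME (twoGenE_FL M hℓM A hA E) FkM
    (twoGenE_Fk M hℓM A hA E) ϖ (exists_associated_pow_cutOver A hA E ϖ hϖ)
    (resE_uniformizer A E ϖ hϖ) (uniformizer_ne_zero A hA E ϖ hϖ)

include hϖ in
/-- **(T1)** `ϖ` is a uniformiser of `V_M(E)`. -/
theorem irreducible_const_VME : Irreducible (constVME M hℓM A hA E ϖ) :=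
  irreducible_constHom (twoGenE M hℓM A hA E) FME (twoGenE_FL M hℓM A hA E) FkM
    (twoGenE_Fk M hℓM A hA E) ϖ (exists_associated_pow_cutOver A hA E ϖ hϖ)
    (resE_uniformizer A E ϖ hϖ) (uniformizer_ne_zero A hA E ϖ hϖ)

include hϖ in
/-- **(T1)** the maximal ideal of `V_M(E)` is `(ϖ)`. -/
theorem maximalIdeal_VME :
    IsLocalRing.maximalIdeal (VME M hℓM A hA E) = Ideal.span {constVME M hℓM A hA E ϖ} :=
  maximalIdeal_unitBall (twoGenE M hℓM A hA E) FME (twoGenE_FL M hℓM A hA E) FkM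
    (twoGenE_Fk M hℓM A hA E) ϖ (exists_associated_pow_cutOver A hA E ϖ hϖ)
    (resE_uniformizer A E ϖ hϖ) (uniformizer_ne_zero A hA E ϖ hϖ)

include hϖ in
/-- **(T2)** the kernel of the reduction is `(ϖ)`. -/
theorem resMFE_eq_zero_iff (f : VME M hℓM A hA E) :
    resMFE M hℓM A hA E f = 0 ↔ constVME M hℓM A hA E ϖ ∣ f :=
  resHom_eq_zero_iff_dvd (twoGenE M hℓM A hA E) FME (twoGenE_FL M hℓM A hA E) FkM
    (twoGenE_Fk M hℓM A hA E) ϖ (exists_associated_pow_cutOver A hA E ϖ hϖ)
    (resE_uniformizer A E ϖ hϖ) (uniformizer_ne_zero A hA E ϖ hϖ) f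

include hϖ in
theorem resME_eq_zero_iff (f : VME M hℓM A hA E) :
    resME M hℓM A hA E f = 0 ↔ constVME M hℓM A hA E ϖ ∣ f := by
  rw [← resMFE_eq_zero_iff M hℓM A hA E ϖ hϖ, resME_apply]
  constructor
  · intro h; exact Subtype.ext h
  · intro h; rw [h]; rfl

include hϖ in
theorem ker_resME :
    RingHom.ker (resME M hℓM A hA E) = Ideal.span {constVME M hℓM A hA E ϖ} := by
  ext f
  rw [RingHom.mem_ker, resME_eq_zero_iff M hℓM A hA E ϖ hϖ, Ideal.mem_span_singleton]

end DVR

theorem resME_eq_zero_iff_not_isUnit (f : VME M hℓM A hA E) :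
    resME M hℓM A hA E f = 0 ↔ ¬ IsUnit f := by
  have key := (twoGenE M hℓM A hA E).resHom_eq_zero_iff FME (twoGenE_FL M hℓM A hA E) FkM
    (twoGenE_Fk M hℓM A hA E) f
  rw [resME_apply]
  constructor
  · intro h
    exact key.mp (Subtype.ext h)
  · intro h
    have h0 : resMFE M hℓM A hA E f = 0 := key.mpr h
    rw [h0]; rfl

/-! ### (T3) the `q`-expansion principle -/

/-- **(T3)** an `A''`-integral `q`-expansion lying in `F_M(E)` lies in `V_M(E)` and reduces
coefficientwise. -/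
theorem mem_VME_of_up (f : FME) (z : LaurentSeries A₂)
    (h : (f : LaurentSeries (↥E)) = coeffMap (A₂).subtype z) :
    ∃ hf : f ∈ VME M hℓM A hA E, resME M hℓM A hA E ⟨f, hf⟩ = coeffMap (resE A E) z := by
  have hz : up A₂ z ∈ FME := by
    show coeffMap (A₂).subtype z ∈ FME
    rw [← h]; exact f.2
  obtain ⟨h1, h2⟩ := (twoGenE M hℓM A hA E).up_mem_unitBall FME (twoGenE_FL M hℓM A hA E) FkM
    (twoGenE_Fk M hℓM A hA E) hz
  have hfe : f = ⟨up A₂ z, hz⟩ := Subtype.ext h
  subst hfe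
  exact ⟨h1, h2⟩

theorem jdK_mem_VME (d : ℕ) [NeZero d] (hd : d ∣ M) :
    ∃ hf : H99.jdK (↥E) M d hd ∈ VME M hℓM A hA E,
      resME M hℓM A hA E ⟨_, hf⟩ = qExpand kA d (jqModC kA) := by
  obtain ⟨hf, h⟩ := mem_VME_of_up M hℓM A hA E (H99.jdK (↥E) M d hd) (qExpand A₂ d (jqModC A₂))
    (by rw [H99.coe_jdK, coeffMap_qExpand, coeffMap_jqModC])
  refine ⟨hf, ?_⟩
  rw [h, coeffMap_qExpand, coeffMap_jqModC]

theorem jK_mem_VME :
    ∃ hf : H16.jK (↥E) M ∈ VME M hℓM A hA E, resME M hℓM A hA E ⟨_, hf⟩ = jqModC kA := by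
  obtain ⟨hf, h⟩ := mem_VME_of_up M hℓM A hA E (H16.jK (↥E) M) (jqModC A₂)
    (by rw [H16.coe_jK, coeffMap_jqModC])
  exact ⟨hf, by rw [h, coeffMap_jqModC]⟩

theorem jNK_mem_VME :
    ∃ hf : H16.jNK (↥E) M ∈ VME M hℓM A hA E,
      resME M hℓM A hA E ⟨_, hf⟩ = qExpand kA M (jqModC kA) := by
  obtain ⟨hf, h⟩ := mem_VME_of_up M hℓM A hA E (H16.jNK (↥E) M) (qExpand A₂ M (jqModC A₂))
    (by rw [H16.coe_jNK, coeffMap_qExpand, coeffMap_jqModC])
  exact ⟨hf, by rw [h, coeffMap_qExpand, coeffMap_jqModC]⟩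

/-! ### (T4) representation with a one-variable denominator -/

/-- the coercion `F_M(E) → E((q))` as a ring hom -/
def coeHomE : FME →+* LaurentSeries (↥E) := (IntermediateField.val FME).toRingHom

theorem coeHomE_apply (f : FME) : coeHomE M E f = (f : LaurentSeries (↥E)) := rfl

theorem coeHomE_comp_aeval :
    (coeHomE M E).comp
      ((Polynomial.aeval (H16.jK (↥E) M) : A₂[X] →ₐ[A₂] FME) : A₂[X] →+* FME) =
    ((Polynomial.aeval (jqModC (↥E)) : (↥E)[X] →ₐ[↥E] LaurentSeries (↥E)) :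
        (↥E)[X] →+* LaurentSeries (↥E)).comp
      (Polynomial.mapRingHom (A₂).subtype) := by
  apply Polynomial.ringHom_ext
  · intro a
    simp only [RingHom.comp_apply, Polynomial.coe_mapRingHom, Polynomial.map_C]
    rw [RingHom.coe_coe, Polynomial.aeval_C, RingHom.coe_coe, Polynomial.aeval_C]
    rfl
  · simp only [RingHom.comp_apply, Polynomial.coe_mapRingHom, Polynomial.map_X]
    rw [RingHom.coe_coe, Polynomial.aeval_X, RingHom.coe_coe, Polynomial.aeval_X]
    rfl

/-- **(T4)** every element of `V_M(E)` is `g(j, j_M) / s(j)` with `s ∈ A''[X]`, `s̄ ≠ 0`,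
`g ∈ A''[X][Y]` of `Y`-degree `< ψ(M)`. -/
theorem exists_repr_VME (y : FME) (hy : y ∈ VME M hℓM A hA E) :
    ∃ (s : A₂[X]) (g : A₂[X][X]), s.map (resE A E) ≠ 0 ∧ g.degree < dedekindPsi M ∧
      Polynomial.aeval (H16.jK (↥E) M) s * y =
        g.eval₂ ((Polynomial.aeval (H16.jK (↥E) M) : A₂[X] →ₐ[A₂] FME) : A₂[X] →+* FME)
          (H16.jNK (↥E) M) := by
  have hyFL : (y : LaurentSeries (↥E)) ∈ (twoGenE M hℓM A hA E).FL := by
    rw [← twoGenE_FL]; exact y.2
  obtain ⟨s, g, hs, hg, h⟩ := exists_repr (twoGenE M hℓM A hA E) hyFL hy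
  refine ⟨s, g, hs, hg, ?_⟩
  apply Subtype.ext
  have h1 : ((Polynomial.aeval (H16.jK (↥E) M) s : FME) : LaurentSeries (↥E)) =
      up A₂ (Polynomial.aeval (jqModC A₂) s) := by
    have e1 := congrArg (fun φ : A₂[X] →+* LaurentSeries (↥E) => φ s)
      (coeHomE_comp_aeval M (A := A) E)
    simp only [RingHom.comp_apply, Polynomial.coe_mapRingHom] at e1
    rw [coeHomE_apply] at e1
    rw [RingHom.coe_coe] at e1
    rw [e1]
    show _ = coeffMap (A₂).subtype (Polynomial.aeval (jqModC A₂) s)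
    rw [coeffMap_aeval, coeffMap_jqModC]
    rfl
  have h2 : ((g.eval₂ ((Polynomial.aeval (H16.jK (↥E) M) : A₂[X] →ₐ[A₂] FME) : A₂[X] →+* FME)
      (H16.jNK (↥E) M) : FME) : LaurentSeries (↥E)) =
      up A₂ (ev2 (jqModC A₂) (jqNModC A₂ M) g) := by
    rw [← coeHomE_apply, Polynomial.hom_eval₂, coeHomE_comp_aeval, coeHomE_apply, H16.coe_jNK]
    have e2 := (twoGenE M hℓM A hA E).up_ev2 g
    rw [twoGenE_xL, twoGenE_yL] at e2
    show _ = up A₂ (ev2 (twoGenE M hℓM A hA E).x (twoGenE M hℓM A hA E).y g)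
    rw [e2, ev2_apply, Polynomial.eval₂_map]
    rfl
  show ((Polynomial.aeval (H16.jK (↥E) M) s : FME) : LaurentSeries (↥E)) *
    (y : LaurentSeries (↥E)) = _
  rw [h1, h2, mul_comm]
  exact h

end Fermat.Agent.S35.H92
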