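import Mathlib
import Fermat.Agent.S34.H6_L0TransportInst
import Fermat.Agent.S35.H92_GaussLevelME

/-!
# S35 / E-level (helper16): the transport facts `HiV`, `H0V` over helper92's `H92.VME`

Mechanical E-level twin of helper6's `S34.H6_L0TransportInst`: `E` an intermediate field of
`Qbar / L₁`, `A'' = H45.cutOver A E`, `V_M(E) = S35.H92.VME` the level-`M` Gauss ring of
`F_M(E) = fullC ↥E M`, `N = ℓ M`. `(S, rS)` a valuation subring of `F_N(E)` with a reduction map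
into `kA((t))` (instance: `P.O1`, `P.res1` of a place over `V_M(E)`), through the four facts
`IsPlaceDataE`.

* `IsPlaceDataE.transport_vSub_zero` (`H0V`: `res_0 ∘ V_ℓ = resME`),
* `IsPlaceDataE.transport_vSub_infty` (`HiV`: `res_∞ ∘ V_ℓ = (t ↦ t^ℓ) ∘ resME`),
* `isPlaceDataE_of_placeOver` : any `PlaceOver ϖ' (jNK ↥E N) ι θb` over `V_M(E)` (algebra structure
  with tower over `S34.H16.degAlgebra`) gives the four facts.
-/

set_option autoImplicit false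
set_option synthInstance.maxHeartbeats 400000
set_option maxHeartbeats 1600000
set_option linter.unusedSectionVars false
set_option linter.style.haveILetI false

noncomputable section

namespace Fermat.Agent.S35.H16

open ModularCurve Polynomial IsLocalRing Fermat.Agent.S28
open Fermat.Agent.S18 Fermat.Agent.S34.H92 Fermat.Agent.S35.H92 Fermat.Agent.S34.H6

local notation "Qbar" => AlgebraicClosure ℚ

variable (M N : ℕ) [NeZero M] [NeZero N] {ℓ : ℕ} [hℓ : Fact ℓ.Prime] [NeZero ℓ] (hℓM : ¬ ℓ ∣ M)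
  (hN : N = ℓ * M)
  (A : ValuationSubring Qbar) (hA : A.LiesOverPrime ℓ)
  (E : IntermediateField (H45.unrCyclo ℓ) Qbar)

local notation "kA" => IsLocalRing.ResidueField A
local notation "A₂" => H45.cutOver A E
set_option quotPrecheck false in
local notation "FM" => modularFunctionFieldFullC (↥E) M
set_option quotPrecheck false in
local notation "FN" => modularFunctionFieldFullC (↥E) N

variable (S : Subring ↥(modularFunctionFieldFullC (↥E) N))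
  (rS : ↥S →+* LaurentSeries (IsLocalRing.ResidueField A))
  (ι : ↥(VME M hℓM A hA E) →+* LaurentSeries (IsLocalRing.ResidueField A))
  (θb : LaurentSeries (IsLocalRing.ResidueField A))

/-- `j_q ∈ S`: it is a root of the monic `Φ_ℓ(j, Y)`, `j ∈ S`. -/
theorem jq_memE (hval : ∀ y : ↥FN, y ∈ S ∨ y⁻¹ ∈ S) (hj : H16.jK (↥E) N ∈ S) :
    H99.jdK (↥E) N ℓ (dvd_N_of_eq M N hN) ∈ S := by
  obtain ⟨Dq, -⟩ := S28.H16.hasModPoly ℓ
  have hrel := S34.H16.relFK (↥E) N ℓ Dq 1 ℓ (one_mul ℓ).symm (one_dvd N) (dvd_N_of_eq M N hN)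
  rw [H99.jdK_one] at hrel
  exact mem_of_monic_eval₂_eq_zero S hval Dq.Φ Dq.monic (S34.H16.evalF (↥E) N (H16.jK (↥E) N))
    (by rw [S34.H16.evalF_X]; exact hj) hrel

/-- the four facts describing `(S, rS)` as a place over `(V_M, ι)` with `rS j_N = θb`. -/
structure IsPlaceDataE : Prop where
  hval : ∀ y : ↥FN, y ∈ S ∨ y⁻¹ ∈ S
  hinv : ∀ (y : ↥FN) (hy : y ∈ S), rS ⟨y, hy⟩ ≠ 0 → y⁻¹ ∈ S
  hS : ∀ (x : ↥(VME M hℓM A hA E)) (z : ↥FN),
    (z : LaurentSeries (↥E)) = ((x : ↥FM) : LaurentSeries (↥E)) → ∃ hz : z ∈ S, rS ⟨z, hz⟩ = ι x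
  hθ : ∃ hθ : H16.jNK (↥E) N ∈ S, rS ⟨_, hθ⟩ = θb

variable {M N hℓM A hA E S rS ι θb}

/-- `j ∈ S` with residue `ι j`. -/
theorem IsPlaceDataE.jK_mem (H : IsPlaceDataE M N hℓM A hA E S rS ι θb) :
    ∃ hj : H16.jK (↥E) N ∈ S, rS ⟨_, hj⟩ = ι ⟨H16.jK (↥E) M, (jK_mem_VME M hℓM A hA E).1⟩ :=
  H.hS ⟨H16.jK (↥E) M, (jK_mem_VME M hℓM A hA E).1⟩ (H16.jK (↥E) N) (by rw [H16.coe_jK, H16.coe_jK])

include hN in
/-- **Residue of `j_q` at the place of type `0`.** -/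
theorem IsPlaceDataE.res_jq_of_zero (H : IsPlaceDataE M N hℓM A hA E S rS ι θb)
    (hι : ι = (qExpand kA ℓ).comp (resME M hℓM A hA E))
    (hθb : θb = qExpand kA M (jqModC kA)) :
    ∃ hjq : H99.jdK (↥E) N ℓ (dvd_N_of_eq M N hN) ∈ S, rS ⟨_, hjq⟩ = jqModC kA := by
  haveI : CharP kA ℓ := H45.charP_residueField hℓ.out hA
  obtain ⟨Dq, hDq⟩ := S28.H16.hasModPoly ℓ
  obtain ⟨DM, hDM⟩ := S28.H16.hasModPoly M
  obtain ⟨hj, hjres⟩ := H.jK_mem
  obtain ⟨hθ, hθres⟩ := H.hθ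
  have hjq := jq_memE M N hN E S H.hval hj
  refine ⟨hjq, ?_⟩
  have hrel1 := S34.H16.relFK (↥E) N ℓ Dq 1 ℓ (one_mul ℓ).symm (one_dvd N) (dvd_N_of_eq M N hN)
  rw [H99.jdK_one] at hrel1
  have hrel2 := S34.H16.relFK (↥E) N M DM ℓ N hN (dvd_N_of_eq M N hN) dvd_rfl
  rw [H99.jdK_self] at hrel2
  have hresj : rS ⟨S34.H16.evalF (↥E) N (H16.jK (↥E) N) X, by rw [S34.H16.evalF_X]; exact hj⟩ =
      qExpand kA ℓ (jqModC kA) := by
    have e : (⟨S34.H16.evalF (↥E) N (H16.jK (↥E) N) X, by rw [S34.H16.evalF_X]; exact hj⟩ : ↥S) =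
        ⟨H16.jK (↥E) N, hj⟩ := Subtype.ext (S34.H16.evalF_X (↥E) N _)
    rw [e, hjres, hι, RingHom.comp_apply, (jK_mem_VME M hℓM A hA E).2]
  have key := res_jq_zero ℓ kA Dq hDq S rS M hℓM DM hDM
    (S34.H16.evalF (↥E) N (H16.jK (↥E) N))
    (S34.H16.evalF (↥E) N (H99.jdK (↥E) N ℓ (dvd_N_of_eq M N hN)))
    (by rw [S34.H16.evalF_X]; exact hj) (by rw [S34.H16.evalF_X]; exact hjq) hθ
    (by rw [S34.H16.evalF_X]; exact hrel1) hrel2 hresj (hθres.trans hθb)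
  have e2 : (⟨S34.H16.evalF (↥E) N (H99.jdK (↥E) N ℓ (dvd_N_of_eq M N hN)) X,
      by rw [S34.H16.evalF_X]; exact hjq⟩ : ↥S) = ⟨H99.jdK (↥E) N ℓ (dvd_N_of_eq M N hN), hjq⟩ :=
    Subtype.ext (S34.H16.evalF_X (↥E) N _)
  rw [← e2]
  exact key

include hN in
/-- **Residue of `j_q` at the place of type `∞`.** -/
theorem IsPlaceDataE.res_jq_of_infty (H : IsPlaceDataE M N hℓM A hA E S rS ι θb)
    (hι : ι = resME M hℓM A hA E) :
    ∃ hjq : H99.jdK (↥E) N ℓ (dvd_N_of_eq M N hN) ∈ S, rS ⟨_, hjq⟩ = jqModC kA ^ ℓ := by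
  haveI : CharP kA ℓ := H45.charP_residueField hℓ.out hA
  obtain ⟨Dq, hDq⟩ := S28.H16.hasModPoly ℓ
  obtain ⟨hj, hjres⟩ := H.jK_mem
  have hjq := jq_memE M N hN E S H.hval hj
  refine ⟨hjq, ?_⟩
  have hrel1 := S34.H16.relFK (↥E) N ℓ Dq 1 ℓ (one_mul ℓ).symm (one_dvd N) (dvd_N_of_eq M N hN)
  rw [H99.jdK_one] at hrel1
  have hresj : rS ⟨S34.H16.evalF (↥E) N (H16.jK (↥E) N) X, by rw [S34.H16.evalF_X]; exact hj⟩ =
      jqModC kA := by
    have e : (⟨S34.H16.evalF (↥E) N (H16.jK (↥E) N) X, by rw [S34.H16.evalF_X]; exact hj⟩ : ↥S) =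
        ⟨H16.jK (↥E) N, hj⟩ := Subtype.ext (S34.H16.evalF_X (↥E) N _)
    rw [e, hjres, hι, (jK_mem_VME M hℓM A hA E).2]
  have key := res_jq_infty ℓ kA Dq hDq S rS
    (S34.H16.evalF (↥E) N (H16.jK (↥E) N))
    (S34.H16.evalF (↥E) N (H99.jdK (↥E) N ℓ (dvd_N_of_eq M N hN)))
    (by rw [S34.H16.evalF_X]; exact hj) (by rw [S34.H16.evalF_X]; exact hjq)
    (by rw [S34.H16.evalF_X]; exact hrel1) hresj
  have e2 : (⟨S34.H16.evalF (↥E) N (H99.jdK (↥E) N ℓ (dvd_N_of_eq M N hN)) X,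
      by rw [S34.H16.evalF_X]; exact hjq⟩ : ↥S) = ⟨H99.jdK (↥E) N ℓ (dvd_N_of_eq M N hN), hjq⟩ :=
    Subtype.ext (S34.H16.evalF_X (↥E) N _)
  rw [← e2]
  exact key

/-! ### The transport along `V_ℓ` -/

/-- the reduction of a polynomial in `j` with `A₂`-coefficients. -/
theorem resME_eval₂_const (s : (↥(H45.cutOver A E))[X]) :
    resME M hℓM A hA E (s.eval₂ (constVME M hℓM A hA E) ⟨H16.jK (↥E) M, (jK_mem_VME M hℓM A hA E).1⟩) =
      Polynomial.aeval (jqModC kA) (s.map (resE A E)) := by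
  rw [Polynomial.hom_eval₂, (jK_mem_VME M hℓM A hA E).2, Polynomial.aeval_def,
    Polynomial.eval₂_map]
  congr 1
  refine RingHom.ext fun a => ?_
  rw [RingHom.comp_apply, resME_const, RingHom.comp_apply, S18.H92.algebraMap_eq_single]
  rfl

set_option maxHeartbeats 8000000 in
include hN in
/-- **Transport along `V_ℓ`.**  For a ring endomorphism `ρ` of `kA((t))` with `ι c = ρ c̄` on
constants, `rS j_q = ρ j̄` and `θb = ρ j̄_M`: `V_ℓ (V_M) ⊆ S` and `rS ∘ V_ℓ = ρ ∘ resM` on `V_M`. -/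
theorem IsPlaceDataE.transport_vSub (H : IsPlaceDataE M N hℓM A hA E S rS ι θb)
    (ρ : LaurentSeries kA →+* LaurentSeries kA)
    (hιc : ∀ a : A₂, ι (constVME M hℓM A hA E a) = ρ (HahnSeries.C (resE A E a)))
    (hjq : ∃ hjq : H99.jdK (↥E) N ℓ (dvd_N_of_eq M N hN) ∈ S, rS ⟨_, hjq⟩ = ρ (jqModC kA))
    (hθb : θb = ρ (qExpand kA M (jqModC kA)))
    (y : ↥(VME M hℓM A hA E)) :
    ∃ h : S34.H36.vSub (↥E) ℓ M N (mul_dvd_N_of_eq M N hN) (y : ↥FM) ∈ S,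
      rS ⟨_, h⟩ = ρ (resME M hℓM A hA E y) := by
  haveI : CharP kA ℓ := H45.charP_residueField hℓ.out hA
  have hmain := transport_of_gens (R0 := A₂) (O := ↥(VME M hℓM A hA E)) (L := ↥FN)
    (Fk := LaurentSeries kA) (Fk' := LaurentSeries kA)
    (VME M hℓM A hA E).subtype (resME M hℓM A hA E) (constVME M hℓM A hA E)
    ⟨H16.jK (↥E) M, (jK_mem_VME M hℓM A hA E).1⟩ ⟨H16.jNK (↥E) M, (jNK_mem_VME M hℓM A hA E).1⟩
    S rS ((S34.H36.vSub (↥E) ℓ M N (mul_dvd_N_of_eq M N hN) : ↥FM →ₐ[(↥E)] ↥FN) : ↥FM →+* ↥FN) ρ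
    Subtype.val_injective (fun a => rfl) H.hinv ?_ ?_ ?_ ?_ y
  · exact hmain
  · -- constants
    intro a
    obtain ⟨hz, hzres⟩ := H.hS (constVME M hℓM A hA E a)
      (S34.H36.vSub (↥E) ℓ M N (mul_dvd_N_of_eq M N hN) ((constVME M hℓM A hA E a : ↥(VME M hℓM A hA E)) : ↥FM))
      (by rw [coe_constVME]; exact coe_vSub_algebraMap _ (↥E) _)
    refine ⟨hz, ?_⟩
    rw [resME_const, ← hιc]
    exact hzres
  · -- `j ↦ j_q`
    obtain ⟨h1, h2⟩ := hjq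
    have e : S34.H36.vSub (↥E) ℓ M N (mul_dvd_N_of_eq M N hN) (H16.jK (↥E) M) =
        H99.jdK (↥E) N ℓ (dvd_N_of_eq M N hN) := S34.H36.vSub_jK (↥E) ℓ M N _
    refine ⟨?_, ?_⟩
    · show S34.H36.vSub (↥E) ℓ M N (mul_dvd_N_of_eq M N hN) (H16.jK (↥E) M) ∈ S
      rw [e]; exact h1
    · exact (congrArg rS (Subtype.ext e)).trans
        (h2.trans (congrArg ρ (jK_mem_VME M hℓM A hA E).2.symm))
  · -- `j_M ↦ j_N`
    obtain ⟨h1, h2⟩ := H.hθ
    have e := vSub_jNK_eq hN (↥E)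
    refine ⟨?_, ?_⟩
    · show S34.H36.vSub (↥E) ℓ M N (mul_dvd_N_of_eq M N hN) (H16.jNK (↥E) M) ∈ S
      rw [e]; exact h1
    · exact (congrArg rS (Subtype.ext e)).trans
        (h2.trans (hθb.trans (congrArg ρ (jNK_mem_VME M hℓM A hA E).2.symm)))
  · -- representation
    intro y
    obtain ⟨s, g, hs, -, hrel⟩ := exists_repr_VME M hℓM A hA E (y : ↥FM) y.2
    refine ⟨s, g, ?_, hrel⟩
    intro h0
    have h1 := (resME_eval₂_const (M := M) (hℓM := hℓM) (hA := hA) (E := E) s).symm.trans h0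
    exact hs ((transcendental_iff.1 (S28.H39.transcendental_jqModC (k := kA))) _ h1)

include hN in
/-- **`H0V`**: at the place of type `0` (`ι = V_ℓ ∘ resM`, `θb = j̄_M`): `res_0 ∘ V_ℓ = res_M`. -/
theorem IsPlaceDataE.transport_vSub_zero (H : IsPlaceDataE M N hℓM A hA E S rS ι θb)
    (hι : ι = (qExpand kA ℓ).comp (resME M hℓM A hA E))
    (hθb : θb = qExpand kA M (jqModC kA)) (y : ↥(VME M hℓM A hA E)) :
    ∃ h : S34.H36.vSub (↥E) ℓ M N (mul_dvd_N_of_eq M N hN) (y : ↥FM) ∈ S,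
      rS ⟨_, h⟩ = resME M hℓM A hA E y := by
  refine H.transport_vSub hN (RingHom.id _) ?_ ?_ ?_ y
  · intro a
    rw [hι, RingHom.comp_apply, resME_const, qExpand_C]
    rfl
  · exact H.res_jq_of_zero hN hι hθb
  · exact hθb

include hN in
/-- **`HiV`**: at the place of type `∞` (`ι = resM`, `θb = j̄_M^ℓ`): `res_∞ ∘ V_ℓ = V_ℓ ∘ res_M`
(`V_ℓ` on the right is the substitution `t ↦ t^ℓ` of `kA((t))`). -/
theorem IsPlaceDataE.transport_vSub_infty (H : IsPlaceDataE M N hℓM A hA E S rS ι θb)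
    (hι : ι = resME M hℓM A hA E)
    (hθb : θb = qExpand kA M (jqModC kA) ^ ℓ) (y : ↥(VME M hℓM A hA E)) :
    ∃ h : S34.H36.vSub (↥E) ℓ M N (mul_dvd_N_of_eq M N hN) (y : ↥FM) ∈ S,
      rS ⟨_, h⟩ = qExpand kA ℓ (resME M hℓM A hA E y) := by
  haveI : CharP kA ℓ := H45.charP_residueField hℓ.out hA
  haveI : ExpChar kA ℓ := ExpChar.prime hℓ.out
  refine H.transport_vSub hN (qExpand kA ℓ) ?_ ?_ ?_ y
  · intro a
    rw [hι, resME_const, qExpand_C]
  · obtain ⟨h1, h2⟩ := H.res_jq_of_infty hN hι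
    exact ⟨h1, by rw [h2, Fermat.Agent.S37.H50.qExpand_jqModC_char kA ℓ]⟩
  · rw [hθb, qExpand_qExpand_jqModC_char ℓ kA M]

/-! ### From a `CA.H99.PlaceOver` -/

section OfPlaceOver

open Fermat.Agent.CA.H99

variable (M N hℓM A hA E)
variable (h : M ∣ N)
  [Algebra ↥(VME M hℓM A hA E) ↥(modularFunctionFieldFullC (↥E) N)]
  (htower : letI := S34.H16.degAlgebra (↥E) M N h
    IsScalarTower ↥(VME M hℓM A hA E) ↥(modularFunctionFieldFullC (↥E) M)
      ↥(modularFunctionFieldFullC (↥E) N))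
  {ι' : ↥(VME M hℓM A hA E) →+* LaurentSeries (IsLocalRing.ResidueField A)}
  {θb' : LaurentSeries (IsLocalRing.ResidueField A)} {ϖ' : ↥(VME M hℓM A hA E)}
  (P : PlaceOver (L := ↥(modularFunctionFieldFullC (↥E) N))
    ϖ' (S18.H16.jNK (↥E) N) ι' θb')

include htower in
/-- the algebra map `V_M → F_N` is the inclusion (on `q`-expansions). -/
theorem coe_algebraMap_VME (x : ↥(VME M hℓM A hA E)) :
    ((algebraMap ↥(VME M hℓM A hA E) ↥FN x : ↥FN) : LaurentSeries (↥E)) =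
      ((x : ↥FM) : LaurentSeries (↥E)) := by
  letI := S34.H16.degAlgebra (↥E) M N h
  haveI := htower
  rw [IsScalarTower.algebraMap_apply ↥(VME M hℓM A hA E) ↥FM ↥FN,
    S34.H16.degAlgebra_algebraMap_coe]
  rfl

include htower in
/-- **A place `P : PlaceOver (ℓ : V_M) j_N ι θb` gives the four facts.** -/
theorem isPlaceDataE_of_placeOver : IsPlaceDataE M N hℓM A hA E P.O1 P.res1 ι' θb' where
  hval := P.mem_or_inv_mem
  hinv := P.inv_mem
  hS := by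
    intro x z hz
    have e : z = algebraMap ↥(VME M hℓM A hA E) ↥FN x := by
      apply Subtype.ext
      rw [hz, coe_algebraMap_VME M N hℓM A hA E h htower]
    subst e
    exact ⟨P.algebraMap_mem x, P.res1_algebraMap x⟩
  hθ := ⟨P.θ_mem, P.res1_θ⟩

end OfPlaceOver

end Fermat.Agent.S35.H16
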