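import Mathlib
import Fermat.Agent.S34.H16_TwoPlacesJN
import Fermat.Agent.S34.H16_L0Places
import Fermat.Agent.S35.H92_GaussLevelME
import Fermat.Agent.S34.H36_FrobLin

/-!
S35 / E-level L0 (helper92): the two CONCRETE places of `F_N(E) = FullC ↥E (ℓ * M)` over the
E-level Gauss ring `VME = S35.H92.VME M hℓM A hA E` (`ℓ ∤ M`, `E / K₁` finite, `ϖ` a uniformiser of
`A'' = A ∩ E`): instantiation of `S34.H16_TwoPlacesJN` at `O := VME`.  E-level twin of helper16's
`S34/H16_L0Places`.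
-/

set_option autoImplicit false
set_option linter.unusedSectionVars false
set_option linter.style.haveILetI false
set_option synthInstance.maxHeartbeats 400000

noncomputable section

namespace Fermat.Agent.S35.H92

open ModularCurve Polynomial IsLocalRing Fermat.Agent.S28
open Fermat.Agent.S18 Fermat.Agent.S34.H92 Fermat.Agent.S34.H16

local notation "Qbar" => AlgebraicClosure ℚ

section L0

variable (M : ℕ) [NeZero M] {ℓ : ℕ} [hℓ : Fact ℓ.Prime] (hℓM : ¬ ℓ ∣ M)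
  (A : ValuationSubring Qbar) (hA : A.LiesOverPrime ℓ)
  (E : IntermediateField (H45.unrCyclo ℓ) Qbar)

local notation "kA" => IsLocalRing.ResidueField A
set_option quotPrecheck false in
local notation "FME" => modularFunctionFieldFullC (↥E) M
set_option quotPrecheck false in
local notation "FNE" => modularFunctionFieldFullC (↥E) (ℓ * M)
local notation "VE" => VME M hℓM A hA E

/-- `VME → F_N(E)`: the composite `VME ⊆ F_M(E) ⊆ F_N(E)`. -/
abbrev algebraVMEFN : Algebra VE FNE :=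
  ((@algebraMap FME FNE _ _ (degAlgebra (↥E) M (ℓ * M) (dvd_level M))).comp
    (algebraMap VE FME)).toAlgebra

theorem isScalarTower_VMEFN :
    letI := degAlgebra (↥E) M (ℓ * M) (dvd_level M)
    letI := algebraVMEFN M hℓM A hA E
    IsScalarTower VE FME FNE := by
  letI := degAlgebra (↥E) M (ℓ * M) (dvd_level M)
  letI := algebraVMEFN M hℓM A hA E
  exact IsScalarTower.of_algebraMap_eq (fun _ => rfl)

/-- `j_M` as an element of `VME`. -/
def jMVE : VE := ⟨S18.H16.jNK (↥E) M, (jNK_mem_VME M hℓM A hA E).1⟩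

theorem coe_jMVE : ((jMVE M hℓM A hA E : VE) : FME) = S18.H16.jNK (↥E) M := rfl

theorem resME_jMVE : resME M hℓM A hA E (jMVE M hℓM A hA E) = qExpand kA M (jqModC kA) :=
  (jNK_mem_VME M hℓM A hA E).2

/-- `ℤ[X] → VME`, `X ↦ j_M`. -/
def phiVE : ℤ[X] →+* VE := (Polynomial.aeval (R := ℤ) (jMVE M hℓM A hA E)).toRingHom

theorem phiVE_X : phiVE M hℓM A hA E X = jMVE M hℓM A hA E := by
  simp [phiVE]

theorem algebraMap_phiVE_X :
    algebraMap VE FME (phiVE M hℓM A hA E X) = S18.H16.jNK (↥E) M := by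
  rw [phiVE_X]
  rfl

/-- `j̄_M(t^ℓ) = j̄_M(t)^ℓ` in `kA((t))`. -/
theorem qExpand_resME_jMVE :
    qExpand kA ℓ (resME M hℓM A hA E (jMVE M hℓM A hA E)) =
      resME M hℓM A hA E (jMVE M hℓM A hA E) ^ ℓ := by
  haveI : CharP kA ℓ := Fermat.Agent.S18.H92.charP_residueField A hA
  rw [resME_jMVE]
  exact S34.H36.qExpand_jd_char kA ℓ M

/-- the reduction map of the `0`-component restricted to `VME`: `f ↦ (f mod ϖ)(t^ℓ)`. -/
def iotaZeroE : VE →+* LaurentSeries kA := (qExpand kA ℓ).comp (resME M hℓM A hA E)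

theorem iotaZeroE_apply (f : VE) :
    iotaZeroE M hℓM A hA E f = qExpand kA ℓ (resME M hℓM A hA E f) := rfl

theorem natCast_level_ne_zero_E : (((ℓ * M : ℕ) : ℕ) : ↥E) ≠ 0 :=
  Nat.cast_ne_zero.2 (NeZero.ne (ℓ * M))

section DVR

variable [FiniteDimensional (H45.unrCyclo ℓ) E] (ϖ : H45.cutOver A E)
  (hϖ : IsLocalRing.maximalIdeal (H45.cutOver A E) = Ideal.span {ϖ})

include hϖ in
theorem resME_uniformizer : resME M hℓM A hA E (constVME M hℓM A hA E ϖ) = 0 := by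
  rw [resME_const, resE_uniformizer A E ϖ hϖ, map_zero]

include hϖ in
theorem iotaZeroE_uniformizer : iotaZeroE M hℓM A hA E (constVME M hℓM A hA E ϖ) = 0 := by
  rw [iotaZeroE_apply, resME_uniformizer M hℓM A hA E ϖ hϖ, map_zero]

include ϖ hϖ in
/-- the residue field of `VME` has characteristic `ℓ`. -/
theorem charP_residueField_VME : CharP (ResidueField VE) ℓ := by
  rw [CharP.charP_iff_prime_eq_zero hℓ.out]
  have h0 : resME M hℓM A hA E ((ℓ : ℕ) : VE) = 0 := by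
    rw [map_natCast]
    haveI : CharP kA ℓ := Fermat.Agent.S18.H92.charP_residueField A hA
    have h2 : ((ℓ : ℕ) : LaurentSeries kA) = HahnSeries.C ((ℓ : ℕ) : kA) := by
      rw [map_natCast]
    rw [h2, CharP.cast_eq_zero, map_zero]
  have h : ((ℓ : ℕ) : VE) ∈ maximalIdeal VE := by
    rw [maximalIdeal_VME M hℓM A hA E ϖ hϖ, Ideal.mem_span_singleton]
    exact (resME_eq_zero_iff M hℓM A hA E ϖ hϖ _).1 h0
  have h2 : residue VE ((ℓ : ℕ) : VE) = 0 := (residue_eq_zero_iff _).2 h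
  rwa [map_natCast] at h2

/-- the embedding of the residue field of `VME` into `kA((t))` induced by `resME`. -/
def rhoVE : ResidueField VE →+* LaurentSeries kA :=
  haveI := isDiscreteValuationRing_VME M hℓM A hA E ϖ hϖ
  CA.H99.resLift (maximalIdeal_VME M hℓM A hA E ϖ hϖ) (resME M hℓM A hA E)
    (resME_uniformizer M hℓM A hA E ϖ hϖ)

theorem rhoVE_residue (y : VE) :
    rhoVE M hℓM A hA E ϖ hϖ (residue VE y) = resME M hℓM A hA E y := rfl

theorem order_rhoVE_jMVE :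
    (rhoVE M hℓM A hA E ϖ hϖ (residue VE (phiVE M hℓM A hA E X))).order = -(M : ℤ) := by
  rw [rhoVE_residue, phiVE_X, resME_jMVE, S28.H39.order_qExpand, S28.H39.order_jqModC]
  ring

theorem not_dvd_order_rhoVE_jMVE :
    ¬ (ℓ : ℤ) ∣ (rhoVE M hℓM A hA E ϖ hϖ (residue VE (phiVE M hℓM A hA E X))).order := by
  rw [order_rhoVE_jMVE, dvd_neg]
  exact_mod_cast hℓM

include hϖ in
/-- **The `∞`-place of `F_N(E)` over `VME`**: reduction `resME` on `VME`, `j_N ↦ j̄_M(t)^ℓ`. -/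
theorem nonempty_placeInftyE (D : ModularPolynomialData ℓ)
    (hD : ∀ (k : Type) [Field k] (ζ : kˣ), IsPrimitiveRoot ζ ℓ → RootsAt k ℓ ζ D.Φ) :
    letI := degAlgebra (↥E) M (ℓ * M) (dvd_level M)
    letI := algebraVMEFN M hℓM A hA E
    haveI := isDiscreteValuationRing_VME M hℓM A hA E ϖ hϖ
    Nonempty (CA.H99.PlaceOver (L := FNE) (constVME M hℓM A hA E ϖ) (S18.H16.jNK (↥E) (ℓ * M))
      (resME M hℓM A hA E) (resME M hℓM A hA E (jMVE M hℓM A hA E) ^ ℓ)) := by
  letI := degAlgebra (↥E) M (ℓ * M) (dvd_level M)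
  letI := algebraVMEFN M hℓM A hA E
  haveI := isDiscreteValuationRing_VME M hℓM A hA E ϖ hϖ
  haveI := charP_residueField_VME M hℓM A hA E ϖ hϖ
  exact nonempty_placeOver_infty (↥E) M (ℓ * M) (dvd_level M) ℓ hℓM rfl
    (natCast_level_ne_zero_E M E) D hD (isScalarTower_VMEFN M hℓM A hA E) (phiVE M hℓM A hA E)
    (algebraMap_phiVE_X M hℓM A hA E) (rhoVE M hℓM A hA E ϖ hϖ)
    (not_dvd_order_rhoVE_jMVE M hℓM A hA E ϖ hϖ)
    (maximalIdeal_VME M hℓM A hA E ϖ hϖ) (resME M hℓM A hA E)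
    (resME_uniformizer M hℓM A hA E ϖ hϖ) _
    (by rw [phiVE_X])

include hϖ in
/-- **The `0`-place of `F_N(E)` over `VME`**: reduction `f ↦ (f mod ϖ)(t^ℓ)` on `VME`,
`j_N ↦ j̄_M(t)`. -/
theorem nonempty_placeZeroE (D : ModularPolynomialData ℓ)
    (hD : ∀ (k : Type) [Field k] (ζ : kˣ), IsPrimitiveRoot ζ ℓ → RootsAt k ℓ ζ D.Φ) :
    letI := degAlgebra (↥E) M (ℓ * M) (dvd_level M)
    letI := algebraVMEFN M hℓM A hA E
    haveI := isDiscreteValuationRing_VME M hℓM A hA E ϖ hϖ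
    Nonempty (CA.H99.PlaceOver (L := FNE) (constVME M hℓM A hA E ϖ) (S18.H16.jNK (↥E) (ℓ * M))
      (iotaZeroE M hℓM A hA E) (resME M hℓM A hA E (jMVE M hℓM A hA E))) := by
  letI := degAlgebra (↥E) M (ℓ * M) (dvd_level M)
  letI := algebraVMEFN M hℓM A hA E
  haveI := isDiscreteValuationRing_VME M hℓM A hA E ϖ hϖ
  haveI := charP_residueField_VME M hℓM A hA E ϖ hϖ
  exact nonempty_placeOver_zero (↥E) M (ℓ * M) (dvd_level M) ℓ hℓM rfl
    (natCast_level_ne_zero_E M E) D hD (isScalarTower_VMEFN M hℓM A hA E) (phiVE M hℓM A hA E)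
    (algebraMap_phiVE_X M hℓM A hA E) (rhoVE M hℓM A hA E ϖ hϖ)
    (not_dvd_order_rhoVE_jMVE M hℓM A hA E ϖ hϖ)
    (maximalIdeal_VME M hℓM A hA E ϖ hϖ) (iotaZeroE M hℓM A hA E)
    (iotaZeroE_uniformizer M hℓM A hA E ϖ hϖ) _
    (by rw [phiVE_X, iotaZeroE_apply, qExpand_resME_jMVE])

end DVR

end L0

end Fermat.Agent.S35.H92
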