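import Mathlib
import Fermat.Agent.S35.H16_G2AlphaBetaInst
import Fermat.Agent.S35.H16_L0TransportE
import Fermat.Agent.S35.H92_L0PlacesE
import Fermat.Agent.S37.H59_FrobLaurent

/-!
S35 / (E3) E-LEVEL INSTANCE (helper16): `(g2α)`, `(g2β)` of `S35.H46.g3_residues` over helper92's
E-level Gauss ring `VME = S35.H92.VME M hℓM A hA E` (`A'' = cutOver A E`, uniformiser `ϖ`), at the two
places `P∞''`, `P₀''` of `S35.H92_L0PlacesE`:

* `κF = kA((t))`, `φb = coeffMap (frobenius kA ℓ)`, `PM = gaussResPlaceE` (`VME` with `resME`);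
* `Nα` = `Algebra.norm` along the inclusion (`S34.H16.degAlgebra ↥E M (ℓ M)`),
  `Nβ` = `Algebra.norm` along `V_ℓ` (`S35.H16.vAlgebra ↥E ℓ M (ℓ M)`).

E-level twin of `S35.H16_G2AlphaBetaInst` (+ the V-side prerequisites `algebraVMEFNv`, `jVE`,
`phiVjE`, ... of `S35.H16_L0PlacesV`).
-/

set_option autoImplicit false
set_option linter.unusedSectionVars false
set_option linter.style.haveILetI false
set_option synthInstance.maxHeartbeats 400000

noncomputable section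

namespace Fermat.Agent.S35.H16

open ModularCurve Polynomial IsLocalRing Fermat.Agent.S28
open Fermat.Agent.S18 Fermat.Agent.S34.H92 Fermat.Agent.S35.H92 Fermat.Agent.S34.H16

local notation "Qbar" => AlgebraicClosure ℚ

section InstE

variable (M : ℕ) [NeZero M] {ℓ : ℕ} [hℓ : Fact ℓ.Prime] (hℓM : ¬ ℓ ∣ M)
  (A : ValuationSubring Qbar) (hA : A.LiesOverPrime ℓ)
  (E : IntermediateField (H45.unrCyclo ℓ) Qbar)

local notation "kA" => IsLocalRing.ResidueField A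
set_option quotPrecheck false in
local notation "FME" => modularFunctionFieldFullC (↥E) M
set_option quotPrecheck false in
local notation "FNE" => modularFunctionFieldFullC (↥E) (ℓ * M)
local notation "VE" => VME M hℓM A hA E

/-! ### V-side prerequisites over `VME` -/

/-- `VME → F_N(E)` along `V_ℓ`. -/
abbrev algebraVMEFNv : Algebra VE FNE :=
  ((@algebraMap FME FNE _ _ (vAlgebra (↥E) ℓ M (ℓ * M) dvd_rfl)).comp (algebraMap VE FME)).toAlgebra

theorem isScalarTower_VMEFNv :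
    letI := vAlgebra (↥E) ℓ M (ℓ * M) dvd_rfl
    letI := algebraVMEFNv M hℓM A hA E
    IsScalarTower VE FME FNE := by
  letI := vAlgebra (↥E) ℓ M (ℓ * M) dvd_rfl
  letI := algebraVMEFNv M hℓM A hA E
  exact IsScalarTower.of_algebraMap_eq (fun _ => rfl)

theorem algebraMap_VMEFNv_apply (a : VE) :
    letI := algebraVMEFNv M hℓM A hA E
    algebraMap VE FNE a = S34.H36.vSub (↥E) ℓ M (ℓ * M) dvd_rfl (a : FME) := by
  letI := vAlgebra (↥E) ℓ M (ℓ * M) dvd_rfl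
  letI := algebraVMEFNv M hℓM A hA E
  rw [RingHom.algebraMap_toAlgebra, RingHom.comp_apply, vAlgebra_algebraMap_eq]
  rfl

/-- `j` as an element of `VME`. -/
def jVE : VE := ⟨S18.H16.jK (↥E) M, (jK_mem_VME M hℓM A hA E).1⟩

theorem resME_jVE : resME M hℓM A hA E (jVE M hℓM A hA E) = jqModC kA :=
  (jK_mem_VME M hℓM A hA E).2

/-- `ℤ[X] → VME`, `X ↦ j`. -/
def phiVjE : ℤ[X] →+* VE := evalAt (jVE M hℓM A hA E)

theorem phiVjE_X : phiVjE M hℓM A hA E X = jVE M hℓM A hA E := evalAt_X _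

theorem algebraMap_phiVjE_X :
    algebraMap VE FME (phiVjE M hℓM A hA E X) = S18.H16.jK (↥E) M := by
  rw [phiVjE_X]
  rfl

theorem qExpand_resME_jVE :
    qExpand kA ℓ (resME M hℓM A hA E (jVE M hℓM A hA E)) =
      resME M hℓM A hA E (jVE M hℓM A hA E) ^ ℓ := by
  haveI : CharP kA ℓ := Fermat.Agent.S18.H92.charP_residueField A hA
  rw [resME_jVE]
  have h := S34.H36.qExpand_jd_char kA ℓ 1
  rwa [qExpand_one_apply] at h

/-- The E-level Gauss place of `F_M(E)` as a `ResPlace`. -/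
def gaussResPlaceE : H46.ResPlace FME (LaurentSeries kA) where
  O1 := (VME M hℓM A hA E).toSubring
  res := resME M hℓM A hA E
  inv_mem := by
    intro y hy hne
    have hu : IsUnit (⟨y, hy⟩ : VE) := by
      by_contra h
      exact hne ((resME_eq_zero_iff_not_isUnit M hℓM A hA E ⟨y, hy⟩).2 h)
    obtain ⟨w, hw⟩ := hu
    have h1 : ((w : VE) : FME) * (((w⁻¹ : VEˣ) : VE) : FME) = 1 := by
      have h0 : (w : VE) * ((w⁻¹ : VEˣ) : VE) = 1 := by
        rw [← Units.val_mul, mul_inv_cancel, Units.val_one]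
      exact congrArg (fun z : VE => (z : FME)) h0
    rw [hw] at h1
    have h2 : y⁻¹ = (((w⁻¹ : VEˣ) : VE) : FME) := (eq_inv_of_mul_eq_one_right h1).symm ▸ rfl
    rw [h2]
    exact ((w⁻¹ : VEˣ) : VE).2

theorem gaussResPlaceE_hasRes (n : VE) :
    ∃ h : algebraMap VE FME n ∈ (gaussResPlaceE M hℓM A hA E).O1,
      (gaussResPlaceE M hℓM A hA E).res ⟨_, h⟩ = resME M hℓM A hA E n :=
  ⟨n.2, rfl⟩

section DVR

variable [FiniteDimensional (H45.unrCyclo ℓ) E] (ϖ : H45.cutOver A E)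
  (hϖ : IsLocalRing.maximalIdeal (H45.cutOver A E) = Ideal.span {ϖ})

theorem not_dvd_order_rhoVE_jVE :
    ¬ (ℓ : ℤ) ∣ (rhoVE M hℓM A hA E ϖ hϖ (residue VE (phiVjE M hℓM A hA E X))).order := by
  rw [rhoVE_residue, phiVjE_X, resME_jVE, S28.H39.order_jqModC, dvd_neg]
  intro h
  have h1 : (ℓ : ℤ) ∣ 1 := h
  have h2 : ℓ ∣ 1 := by exact_mod_cast h1
  exact hℓ.out.one_lt.ne' (Nat.dvd_one.1 h2)

include hϖ in
set_option maxHeartbeats 3200000 in
/-- **`(g2α)` over `VME`.** -/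
theorem g2alpha_VME (D : ModularPolynomialData ℓ)
    (hD : ∀ (k : Type) [Field k] (ζ : kˣ), IsPrimitiveRoot ζ ℓ → RootsAt k ℓ ζ D.Φ) :
    letI := algebraVMEFN M hℓM A hA E
    haveI := isDiscreteValuationRing_VME M hℓM A hA E ϖ hϖ
    haveI : CharP kA ℓ := S18.H92.charP_residueField A hA
    ∀ (Pinf : CA.H99.PlaceOver (L := FNE) (constVME M hℓM A hA E ϖ) (S18.H16.jNK (↥E) (ℓ * M))
        (resME M hℓM A hA E) (resME M hℓM A hA E (jMVE M hℓM A hA E) ^ ℓ))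
      (P0 : CA.H99.PlaceOver (L := FNE) (constVME M hℓM A hA E ϖ) (S18.H16.jNK (↥E) (ℓ * M))
        (iotaZeroE M hℓM A hA E) (resME M hℓM A hA E (jMVE M hℓM A hA E)))
      (u : FNE) (sinf s0 : (LaurentSeries kA)ˣ),
      (H46.ResPlace.mk Pinf.O1 Pinf.res1 Pinf.inv_mem).HasRes u sinf →
      (H46.ResPlace.mk P0.O1 P0.res1 P0.inv_mem).HasRes u s0 →
      (gaussResPlaceE M hℓM A hA E).HasRes
        (letI := degAlgebra (↥E) M (ℓ * M) (dvd_level M); Algebra.norm FME u)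
        (sinf * Units.map ((coeffMap (frobenius kA ℓ) : LaurentSeries kA →+* LaurentSeries kA) :
          LaurentSeries kA →* LaurentSeries kA) s0) := by
  letI := algebraVMEFN M hℓM A hA E
  haveI := isDiscreteValuationRing_VME M hℓM A hA E ϖ hϖ
  haveI : CharP kA ℓ := S18.H92.charP_residueField A hA
  haveI := charP_residueField_VME M hℓM A hA E ϖ hϖ
  haveI := charP_laurent A hA
  intro Pinf P0
  exact g2alpha_gen (↥E) M (ℓ * M) ℓ hℓM rfl (natCast_level_ne_zero_E M E) D hD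
    (phiVE M hℓM A hA E) (rhoVE M hℓM A hA E ϖ hϖ) (not_dvd_order_rhoVE_jMVE M hℓM A hA E ϖ hϖ)
    (maximalIdeal_VME M hℓM A hA E ϖ hϖ) (resME M hℓM A hA E)
    (resME_uniformizer M hℓM A hA E ϖ hϖ) (qExpand kA ℓ)
    (coeffMap (frobenius kA ℓ)) (pow_eq_qExpand_frob A hA)
    (gaussResPlaceE M hℓM A hA E) (gaussResPlaceE_hasRes M hℓM A hA E)
    (isScalarTower_VMEFN M hℓM A hA E) (algebraMap_phiVE_X M hℓM A hA E)
    (θb₁ := resME M hℓM A hA E (jMVE M hℓM A hA E) ^ ℓ)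
    (θb₂ := resME M hℓM A hA E (jMVE M hℓM A hA E))
    (by rw [phiVE_X]) (by rw [phiVE_X, qExpand_resME_jMVE]) (ι₂ := iotaZeroE M hℓM A hA E) rfl
    Pinf P0

include hϖ in
set_option maxHeartbeats 6400000 in
/-- **`(g2β)` over `VME`.** -/
theorem g2beta_VME (D : ModularPolynomialData ℓ)
    (hD : ∀ (k : Type) [Field k] (ζ : kˣ), IsPrimitiveRoot ζ ℓ → RootsAt k ℓ ζ D.Φ) :
    letI := algebraVMEFN M hℓM A hA E
    haveI := isDiscreteValuationRing_VME M hℓM A hA E ϖ hϖ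
    haveI : CharP kA ℓ := S18.H92.charP_residueField A hA
    ∀ (Pinf : CA.H99.PlaceOver (L := FNE) (constVME M hℓM A hA E ϖ) (S18.H16.jNK (↥E) (ℓ * M))
        (resME M hℓM A hA E) (resME M hℓM A hA E (jMVE M hℓM A hA E) ^ ℓ))
      (P0 : CA.H99.PlaceOver (L := FNE) (constVME M hℓM A hA E ϖ) (S18.H16.jNK (↥E) (ℓ * M))
        (iotaZeroE M hℓM A hA E) (resME M hℓM A hA E (jMVE M hℓM A hA E)))
      (u : FNE) (sinf s0 : (LaurentSeries kA)ˣ),
      (H46.ResPlace.mk Pinf.O1 Pinf.res1 Pinf.inv_mem).HasRes u sinf →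
      (H46.ResPlace.mk P0.O1 P0.res1 P0.inv_mem).HasRes u s0 →
      (gaussResPlaceE M hℓM A hA E).HasRes
        (letI := vAlgebra (↥E) ℓ M (ℓ * M) dvd_rfl; Algebra.norm FME u)
        (Units.map ((coeffMap (frobenius kA ℓ) : LaurentSeries kA →+* LaurentSeries kA) :
          LaurentSeries kA →* LaurentSeries kA) sinf * s0) := by
  letI iι := algebraVMEFN M hℓM A hA E
  haveI := isDiscreteValuationRing_VME M hℓM A hA E ϖ hϖ
  haveI : CharP kA ℓ := S18.H92.charP_residueField A hA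
  haveI : NeZero ℓ := ⟨hℓ.out.ne_zero⟩
  intro Pinf P0
  have HPinf := isPlaceDataE_of_placeOver M (ℓ * M) hℓM A hA E (dvd_level M)
    (isScalarTower_VMEFN M hℓM A hA E) Pinf
  have HP0 := isPlaceDataE_of_placeOver M (ℓ * M) hℓM A hA E (dvd_level M)
    (isScalarTower_VMEFN M hℓM A hA E) P0
  have Tinf : ∀ a : VE, ∃ h : S34.H36.vSub (↥E) ℓ M (ℓ * M) dvd_rfl (a : FME) ∈ Pinf.O1,
      Pinf.res1 ⟨_, h⟩ = qExpand kA ℓ (resME M hℓM A hA E a) :=
    fun a => HPinf.transport_vSub_infty rfl rfl (by rw [resME_jMVE]) a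
  have T0 : ∀ a : VE, ∃ h : S34.H36.vSub (↥E) ℓ M (ℓ * M) dvd_rfl (a : FME) ∈ P0.O1,
      P0.res1 ⟨_, h⟩ = resME M hℓM A hA E a :=
    fun a => HP0.transport_vSub_zero rfl rfl (resME_jMVE M hℓM A hA E) a
  have Jinf : ∃ h : S18.H16.jK (↥E) (ℓ * M) ∈ Pinf.O1,
      Pinf.res1 ⟨_, h⟩ = resME M hℓM A hA E (phiVjE M hℓM A hA E X) := by
    rw [phiVjE_X]
    exact HPinf.jK_mem
  have J0 : ∃ h : S18.H16.jK (↥E) (ℓ * M) ∈ P0.O1,
      P0.res1 ⟨_, h⟩ = resME M hℓM A hA E (phiVjE M hℓM A hA E X) ^ ℓ := by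
    obtain ⟨h, e⟩ := HP0.jK_mem
    refine ⟨h, ?_⟩
    rw [e, phiVjE_X, iotaZeroE_apply]
    exact qExpand_resME_jVE M hℓM A hA E
  haveI := charP_residueField_VME M hℓM A hA E ϖ hϖ
  haveI := charP_laurent A hA
  have Tinf' : ∀ a : VE, ∃ h : @algebraMap VE FNE _ _ (algebraVMEFNv M hℓM A hA E) a ∈ Pinf.O1,
      Pinf.res1 ⟨_, h⟩ = qExpand kA ℓ (resME M hℓM A hA E a) := by
    intro a
    rw [algebraMap_VMEFNv_apply]
    exact Tinf a
  have T0' : ∀ a : VE, ∃ h : @algebraMap VE FNE _ _ (algebraVMEFNv M hℓM A hA E) a ∈ P0.O1,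
      P0.res1 ⟨_, h⟩ = resME M hℓM A hA E a := by
    intro a
    rw [algebraMap_VMEFNv_apply]
    exact T0 a
  letI := vAlgebra (↥E) ℓ M (ℓ * M) dvd_rfl
  letI iV := algebraVMEFNv M hℓM A hA E
  exact g2beta_gen (↥E) M (ℓ * M) ℓ hℓM rfl (natCast_level_ne_zero_E M E) D hD
    (phiVjE M hℓM A hA E) (rhoVE M hℓM A hA E ϖ hϖ) (not_dvd_order_rhoVE_jVE M hℓM A hA E ϖ hϖ)
    (maximalIdeal_VME M hℓM A hA E ϖ hϖ) (resME M hℓM A hA E)
    (resME_uniformizer M hℓM A hA E ϖ hϖ) (qExpand kA ℓ)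
    (coeffMap (frobenius kA ℓ)) (pow_eq_qExpand_frob A hA)
    (gaussResPlaceE M hℓM A hA E) (gaussResPlaceE_hasRes M hℓM A hA E)
    (isScalarTower_VMEFNv M hℓM A hA E) (algebraMap_phiVjE_X M hℓM A hA E)
    (by rw [phiVjE_X]; exact qExpand_resME_jVE M hℓM A hA E)
    (iP := iι) Pinf P0 Tinf' T0' Jinf J0

end DVR

end InstE

end Fermat.Agent.S35.H16
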