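import Mathlib
import Fermat.Agent.S35.H46_G3Assembly

/-!
S35 / (E3) (helper16): the hypotheses `hα`, `hβ` (+ `hsα`, `hsβ`) of `S35.H46.g3_residues`, GENERIC.

`O` a DVR with fraction field `K` (instance: the level-`M` Gauss ring of `F_M`), `PM` the
corresponding `ResPlace` (`hPM`), `ΦM : K ≃+* K` an automorphism inducing `ΦO : O →+* O` with
`ΦO ϖ ∼ ϖ`. Then:

* `exists_unit_mul_of_ne_zero` : `ΦO a = w * a`, `w ∈ Oˣ`, for every `a ≠ 0` in `O`;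
* `exists_unit_ratio` : `ΦM h / h ∈ Oˣ` for every `h ≠ 0` in `K`   ("`Φ h / h` is a Gauss unit");
* `hasRes_ratio` : `PM.HasRes (ΦM h / h) (residue of that unit)`;
* `exists_hasRes_norm_ratio` : if `N f = c * h ^ m`, `N ∘ Φ = ΦM ∘ N`, the residue `rc` of the
  constant ratio `ΦM c / c` lies in a subgroup `S` containing the `m`-th powers of the residues of
  the units of `O`, then `N (Φ f / f)` has a residue in `S`   (= `hα`/`hβ` + `hsα`/`hsβ`).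
-/

set_option autoImplicit false
set_option linter.unusedSectionVars false

namespace Fermat.Agent.S35.H16

open IsLocalRing

section NormRatio

variable {O K : Type*} [CommRing O] [IsDomain O] [IsDiscreteValuationRing O] [Field K]
  [Algebra O K] [IsFractionRing O K] {ϖ : O} (hϖ : Irreducible ϖ)
  (ΦM : K ≃+* K) (ΦO : O →+* O)
  (hΦO : ∀ a : O, ΦM (algebraMap O K a) = algebraMap O K (ΦO a))
  (hΦϖ : ∃ v : Oˣ, ΦO ϖ = v * ϖ)

include hϖ hΦϖ in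
/-- an endomorphism of a DVR with `ΦO ϖ ∼ ϖ` multiplies every non-zero element by a unit. -/
theorem exists_unit_mul_of_ne_zero {a : O} (ha : a ≠ 0) : ∃ w : Oˣ, ΦO a = w * a := by
  obtain ⟨n, u, rfl⟩ := IsDiscreteValuationRing.eq_unit_mul_pow_irreducible ha hϖ
  obtain ⟨v, hv⟩ := hΦϖ
  refine ⟨Units.map (ΦO : O →* O) u * v ^ n * u⁻¹, ?_⟩
  have h1 : ((u⁻¹ : Oˣ) : O) * (u : O) = 1 := Units.inv_mul u
  rw [map_mul, map_pow, hv, mul_pow, Units.val_mul, Units.val_mul, Units.val_pow_eq_pow_val,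
    Units.coe_map]
  change ΦO ↑u * (↑v ^ n * ϖ ^ n) = ΦO ↑u * ↑v ^ n * ↑u⁻¹ * (↑u * ϖ ^ n)
  linear_combination (-(ΦO ↑u * ↑v ^ n * ϖ ^ n)) * h1

include hϖ hΦO hΦϖ in
/-- **`ΦM h / h` is a unit of `O`**, for every `h ≠ 0` of the fraction field. -/
theorem exists_unit_ratio {h : K} (hh : h ≠ 0) : ∃ w : Oˣ, ΦM h / h = algebraMap O K w := by
  obtain ⟨a, b, hb, rfl⟩ := IsFractionRing.div_surjective (A := O) h
  have hb0 : b ≠ 0 := nonZeroDivisors.ne_zero hb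
  have hbK : algebraMap O K b ≠ 0 :=
    (map_ne_zero_iff _ (IsFractionRing.injective O K)).2 hb0
  have ha0 : a ≠ 0 := by
    rintro rfl
    rw [map_zero, zero_div] at hh
    exact hh rfl
  have haK : algebraMap O K a ≠ 0 :=
    (map_ne_zero_iff _ (IsFractionRing.injective O K)).2 ha0
  obtain ⟨wa, hwa⟩ := exists_unit_mul_of_ne_zero hϖ ΦO hΦϖ ha0
  obtain ⟨wb, hwb⟩ := exists_unit_mul_of_ne_zero hϖ ΦO hΦϖ hb0
  refine ⟨wa * wb⁻¹, ?_⟩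
  have hwbK : algebraMap O K (wb : O) ≠ 0 :=
    (map_ne_zero_iff _ (IsFractionRing.injective O K)).2 wb.ne_zero
  have h1 : algebraMap O K ((wb⁻¹ : Oˣ) : O) * algebraMap O K (wb : O) = 1 := by
    rw [← map_mul, Units.inv_mul, map_one]
  rw [map_div₀, hΦO, hΦO, hwa, hwb, map_mul, map_mul, Units.val_mul, map_mul, div_div_div_eq,
    div_eq_iff (mul_ne_zero (mul_ne_zero hwbK hbK) haK)]
  linear_combination (-(algebraMap O K (wa : O) * algebraMap O K a * algebraMap O K b)) * h1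

variable {Fk : Type*} [Field Fk] (ι : O →+* Fk) (PM : H46.ResPlace K Fk)
  (hPM : ∀ n : O, ∃ h : algebraMap O K n ∈ PM.O1, PM.res ⟨_, h⟩ = ι n)

include hϖ hΦO hΦϖ hPM in
/-- the residue of `ΦM h / h` is the residue of a unit of `O`. -/
theorem hasRes_ratio {h : K} (hh : h ≠ 0) :
    ∃ w : Oˣ, PM.HasRes (ΦM h / h) (Units.map (ι : O →* Fk) w) := by
  obtain ⟨w, hw⟩ := exists_unit_ratio hϖ ΦM ΦO hΦO hΦϖ hh
  refine ⟨w, ?_⟩
  obtain ⟨hm, em⟩ := hPM (w : O)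
  rw [hw]
  exact ⟨hm, by rw [em, Units.coe_map]; rfl⟩

include hϖ hΦO hΦϖ hPM in
/-- **`hα` / `hβ` with `hsα` / `hsβ` of `H46.g3_residues`.** -/
theorem exists_hasRes_norm_ratio {F : Type*} [Field F] (Φ : F ≃+* F) (N : F →* K)
    (hNΦ : ∀ x, N (Φ x) = ΦM (N x)) {f : F} (hf : f ≠ 0) {c h : K} {m : ℕ}
    (hc0 : c ≠ 0) (hh0 : h ≠ 0) (hnorm : N f = c * h ^ m)
    (S : Subgroup Fkˣ) (hSpow : ∀ w : Oˣ, (Units.map (ι : O →* Fk) w) ^ m ∈ S)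
    {rc : Fkˣ} (hc : PM.HasRes (ΦM c / c) rc) (hrc : rc ∈ S) :
    ∃ s ∈ S, PM.HasRes (N (Φ f / f)) s := by
  obtain ⟨w, hw⟩ := hasRes_ratio hϖ ΦM ΦO hΦO hΦϖ ι PM hPM hh0
  exact ⟨_, S.mul_mem hrc (hSpow w),
    H46.hasRes_norm_ratio Φ ΦM N hNΦ hf hc0 hh0 hnorm hc hw⟩

include hϖ hΦO hΦϖ hPM in
/-- the same for `Ψ = Φ ∘ Φ`, `ΨM = ΦM ∘ ΦM` (as `RingEquiv.trans`), from the one-step data. -/
theorem exists_hasRes_norm_ratio_twice {F : Type*} [Field F] (Φ : F ≃+* F) (N : F →* K)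
    (hNΦ : ∀ x, N (Φ x) = ΦM (N x)) {f : F} (hf : f ≠ 0) {c h : K} {m : ℕ}
    (hc0 : c ≠ 0) (hh0 : h ≠ 0) (hnorm : N f = c * h ^ m)
    (S : Subgroup Fkˣ) (hSpow : ∀ w : Oˣ, (Units.map (ι : O →* Fk) w) ^ m ∈ S)
    {rc : Fkˣ} (hc : PM.HasRes ((ΦM.trans ΦM) c / c) rc) (hrc : rc ∈ S) :
    ∃ s ∈ S, PM.HasRes (N ((Φ.trans Φ) f / f)) s := by
  refine exists_hasRes_norm_ratio hϖ (ΦM.trans ΦM) (ΦO.comp ΦO) ?_ ?_ ι PM hPM (Φ.trans Φ) N ?_
    hf hc0 hh0 hnorm S hSpow hc hrc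
  · intro a
    rw [RingEquiv.trans_apply, hΦO, hΦO, RingHom.comp_apply]
  · obtain ⟨v, hv⟩ := hΦϖ
    refine ⟨Units.map (ΦO : O →* O) v * v, ?_⟩
    rw [RingHom.comp_apply, hv, map_mul, hv, Units.val_mul, Units.coe_map]
    change ΦO ↑v * (↑v * ϖ) = ΦO ↑v * ↑v * ϖ
    ring
  · intro x
    rw [RingEquiv.trans_apply, RingEquiv.trans_apply, hNΦ, hNΦ]

end NormRatio

end Fermat.Agent.S35.H16
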