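import Mathlib
import Fermat.Agent.S35.H16_RelDegV
import Fermat.Agent.S37.H53_Frob

/-!
S35 / (E3) (helper16): NORM EQUIVARIANCE. The coefficientwise action `S37.H53.coeffRingAut K N σ`
of a field automorphism `σ : K ≃+* K` on `F_N = FullC K N` commutes with both embeddings
`F_M → F_N` (inclusion `S34.H16.degAlgebra`, and `V_q` = `S35.H16.vAlgebra`), hence with the two
norms:

  `N_ι (σ_N x) = σ_M (N_ι x)`,   `N_V (σ_N x) = σ_M (N_V x)`.

(`H45.galActFullC E hE N φ = coeffRingAut ↥E N (galActE E hE φ)` by definition, so these are the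
lemmas "`norm ∘ Ψ = Ψ_M ∘ norm`" of helper57's integration map, for `Ψ = Φ` and, applying twice,
`Ψ = Φ ∘ Φ`.)
-/

set_option autoImplicit false
set_option linter.unusedSectionVars false
set_option linter.style.haveILetI false
set_option synthInstance.maxHeartbeats 400000

noncomputable section

namespace Fermat.Agent.S35.H16

open ModularCurve Polynomial Fermat.Agent.S28
open Fermat.Agent.S18 Fermat.Agent.S34.H16

section Equivar

variable (K : Type) [Field K] (M N : ℕ) [NeZero M] [NeZero N] (σ : K ≃+* K)

/-- the coefficientwise action commutes with the inclusion `F_M ⊆ F_N`. -/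
theorem coeffRingAut_degAlgebra (h : M ∣ N) (y : modularFunctionFieldFullC K M) :
    letI := degAlgebra K M N h
    S37.H53.coeffRingAut K N σ
        (algebraMap (modularFunctionFieldFullC K M) (modularFunctionFieldFullC K N) y) =
      algebraMap (modularFunctionFieldFullC K M) (modularFunctionFieldFullC K N)
        (S37.H53.coeffRingAut K M σ y) := by
  letI := degAlgebra K M N h
  apply Subtype.ext
  rw [S37.H53.coe_coeffRingAut_apply, degAlgebra_algebraMap_coe, degAlgebra_algebraMap_coe,
    S37.H53.coe_coeffRingAut_apply]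

/-- the coefficientwise action commutes with `V_q : F_M → F_N`. -/
theorem coeffRingAut_vAlgebra (q : ℕ) [NeZero q] (h : q * M ∣ N)
    (y : modularFunctionFieldFullC K M) :
    letI := vAlgebra K q M N h
    S37.H53.coeffRingAut K N σ
        (algebraMap (modularFunctionFieldFullC K M) (modularFunctionFieldFullC K N) y) =
      algebraMap (modularFunctionFieldFullC K M) (modularFunctionFieldFullC K N)
        (S37.H53.coeffRingAut K M σ y) := by
  letI := vAlgebra K q M N h
  apply Subtype.ext
  rw [S37.H53.coe_coeffRingAut_apply, vAlgebra_algebraMap_coe, vAlgebra_algebraMap_coe,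
    S37.H53.coe_coeffRingAut_apply, coeffMap_qExpand]

/-- **Norm equivariance, inclusion side**: `N_ι (σ x) = σ (N_ι x)`. -/
theorem norm_coeffRingAut_deg (h : M ∣ N) (x : modularFunctionFieldFullC K N) :
    letI := degAlgebra K M N h
    Algebra.norm (modularFunctionFieldFullC K M) (S37.H53.coeffRingAut K N σ x) =
      S37.H53.coeffRingAut K M σ (Algebra.norm (modularFunctionFieldFullC K M) x) := by
  letI := degAlgebra K M N h
  have he : RingHom.comp
      (algebraMap (modularFunctionFieldFullC K M) (modularFunctionFieldFullC K N))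
      ((S37.H53.coeffRingAut K M σ : _ ≃+* _) : _ →+* _) =
      RingHom.comp ((S37.H53.coeffRingAut K N σ : _ ≃+* _) : _ →+* _)
        (algebraMap (modularFunctionFieldFullC K M) (modularFunctionFieldFullC K N)) := by
    refine RingHom.ext (fun y => ?_)
    exact (coeffRingAut_degAlgebra K M N σ h y).symm
  have h1 := Algebra.norm_eq_of_equiv_equiv (S37.H53.coeffRingAut K M σ)
    (S37.H53.coeffRingAut K N σ) he x
  rw [h1, RingEquiv.apply_symm_apply]

/-- **Norm equivariance, `V_q` side**: `N_V (σ x) = σ (N_V x)`. -/
theorem norm_coeffRingAut_vq (q : ℕ) [NeZero q] (h : q * M ∣ N)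
    (x : modularFunctionFieldFullC K N) :
    letI := vAlgebra K q M N h
    Algebra.norm (modularFunctionFieldFullC K M) (S37.H53.coeffRingAut K N σ x) =
      S37.H53.coeffRingAut K M σ (Algebra.norm (modularFunctionFieldFullC K M) x) := by
  letI := vAlgebra K q M N h
  have he : RingHom.comp
      (algebraMap (modularFunctionFieldFullC K M) (modularFunctionFieldFullC K N))
      ((S37.H53.coeffRingAut K M σ : _ ≃+* _) : _ →+* _) =
      RingHom.comp ((S37.H53.coeffRingAut K N σ : _ ≃+* _) : _ →+* _)
        (algebraMap (modularFunctionFieldFullC K M) (modularFunctionFieldFullC K N)) := by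
    refine RingHom.ext (fun y => ?_)
    exact (coeffRingAut_vAlgebra K M N σ q h y).symm
  have h1 := Algebra.norm_eq_of_equiv_equiv (S37.H53.coeffRingAut K M σ)
    (S37.H53.coeffRingAut K N σ) he x
  rw [h1, RingEquiv.apply_symm_apply]

/-- twice (for `Ψ = Φ ∘ Φ`), inclusion side. -/
theorem norm_coeffRingAut_deg_twice (h : M ∣ N) (x : modularFunctionFieldFullC K N) :
    letI := degAlgebra K M N h
    Algebra.norm (modularFunctionFieldFullC K M)
        (S37.H53.coeffRingAut K N σ (S37.H53.coeffRingAut K N σ x)) =
      S37.H53.coeffRingAut K M σ (S37.H53.coeffRingAut K M σ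
        (Algebra.norm (modularFunctionFieldFullC K M) x)) := by
  letI := degAlgebra K M N h
  rw [norm_coeffRingAut_deg, norm_coeffRingAut_deg]

/-- twice (for `Ψ = Φ ∘ Φ`), `V_q` side. -/
theorem norm_coeffRingAut_vq_twice (q : ℕ) [NeZero q] (h : q * M ∣ N)
    (x : modularFunctionFieldFullC K N) :
    letI := vAlgebra K q M N h
    Algebra.norm (modularFunctionFieldFullC K M)
        (S37.H53.coeffRingAut K N σ (S37.H53.coeffRingAut K N σ x)) =
      S37.H53.coeffRingAut K M σ (S37.H53.coeffRingAut K M σ
        (Algebra.norm (modularFunctionFieldFullC K M) x)) := by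
  letI := vAlgebra K q M N h
  rw [norm_coeffRingAut_vq, norm_coeffRingAut_vq]

end Equivar

end Fermat.Agent.S35.H16
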