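import Mathlib
import Fermat.Agent.S35.H16_G3NormRatio
import Fermat.Agent.S35.H16_NormEquivar

/-!
S35 / (E3) (helper16): the hypotheses `hα / hsα` and `hβ / hsβ` of `S35.H46.g3_residues` over the
modular tower, GENERIC in the Gauss DVR `O` (fraction field `F_M = FullC K M`) and in the
coefficient automorphism `τ : K ≃+* K`:

`Nα` = `Algebra.norm` along the inclusion (`S34.H16.degAlgebra`), `Nβ` = `Algebra.norm` along `V_q`
(`S35.H16.vAlgebra`), `Φ = coeffRingAut K N τ`, `ΦM = coeffRingAut K M τ` (one step) or their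
squares `Ψ = Φ.trans Φ`, `ΨM = ΦM.trans ΦM` (two steps). From `N f = c * h ^ m`
(the conclusion of `pushAlpha y = 0` / `pushBeta y = 0`, descended to the level `K`):

  `∃ s ∈ S, PM.HasRes (N (Ψ f / f)) s`,

for any subgroup `S ∋ rc` (the residue of the constant ratio `ΨM c / c`) containing the `m`-th
powers of the residues of the units of `O`.
-/

set_option autoImplicit false
set_option linter.unusedSectionVars false
set_option linter.style.haveILetI false
set_option synthInstance.maxHeartbeats 400000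

noncomputable section

namespace Fermat.Agent.S35.H16

open ModularCurve Fermat.Agent.S18 Fermat.Agent.S34.H16

section AB

variable (K : Type) [Field K] (M N : ℕ) [NeZero M] [NeZero N] (τ : K ≃+* K)
  {O : Type*} [CommRing O] [IsDomain O] [IsDiscreteValuationRing O]
  [Algebra O (modularFunctionFieldFullC K M)] [IsFractionRing O (modularFunctionFieldFullC K M)]
  {ϖ : O} (hϖ : Irreducible ϖ) (ΦO : O →+* O)
  (hΦO : ∀ a : O, S37.H53.coeffRingAut K M τ (algebraMap O (modularFunctionFieldFullC K M) a) =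
    algebraMap O (modularFunctionFieldFullC K M) (ΦO a))
  (hΦϖ : ∃ v : Oˣ, ΦO ϖ = v * ϖ)
  {Fk : Type*} [Field Fk] (ι : O →+* Fk) (PM : H46.ResPlace (modularFunctionFieldFullC K M) Fk)
  (hPM : ∀ n : O, ∃ h : algebraMap O (modularFunctionFieldFullC K M) n ∈ PM.O1,
    PM.res ⟨_, h⟩ = ι n)
  {m : ℕ} (S : Subgroup Fkˣ) (hSpow : ∀ w : Oˣ, (Units.map (ι : O →* Fk) w) ^ m ∈ S)

include hϖ hΦO hΦϖ hPM hSpow

/-- **`hα` + `hsα`**, two steps (`Ψ = Φ ∘ Φ`), inclusion side. -/
theorem halpha_twice (h : M ∣ N) {f : modularFunctionFieldFullC K N} (hf : f ≠ 0)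
    {c g : modularFunctionFieldFullC K M} (hc0 : c ≠ 0) (hg0 : g ≠ 0)
    (hnorm : letI := degAlgebra K M N h
      Algebra.norm (modularFunctionFieldFullC K M) f = c * g ^ m)
    {rc : Fkˣ}
    (hc : PM.HasRes (((S37.H53.coeffRingAut K M τ).trans (S37.H53.coeffRingAut K M τ)) c / c) rc)
    (hrc : rc ∈ S) :
    letI := degAlgebra K M N h
    ∃ s ∈ S, PM.HasRes (Algebra.norm (modularFunctionFieldFullC K M)
      (((S37.H53.coeffRingAut K N τ).trans (S37.H53.coeffRingAut K N τ)) f / f)) s := by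
  letI := degAlgebra K M N h
  exact exists_hasRes_norm_ratio_twice hϖ (S37.H53.coeffRingAut K M τ) ΦO hΦO hΦϖ ι PM hPM
    (S37.H53.coeffRingAut K N τ) (Algebra.norm (modularFunctionFieldFullC K M))
    (fun x => norm_coeffRingAut_deg K M N τ h x) hf hc0 hg0 hnorm S hSpow hc hrc

/-- **`hβ` + `hsβ`**, two steps (`Ψ = Φ ∘ Φ`), `V_q` side. -/
theorem hbeta_twice (q : ℕ) [NeZero q] (h : q * M ∣ N) {f : modularFunctionFieldFullC K N}
    (hf : f ≠ 0) {c g : modularFunctionFieldFullC K M} (hc0 : c ≠ 0) (hg0 : g ≠ 0)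
    (hnorm : letI := vAlgebra K q M N h
      Algebra.norm (modularFunctionFieldFullC K M) f = c * g ^ m)
    {rc : Fkˣ}
    (hc : PM.HasRes (((S37.H53.coeffRingAut K M τ).trans (S37.H53.coeffRingAut K M τ)) c / c) rc)
    (hrc : rc ∈ S) :
    letI := vAlgebra K q M N h
    ∃ s ∈ S, PM.HasRes (Algebra.norm (modularFunctionFieldFullC K M)
      (((S37.H53.coeffRingAut K N τ).trans (S37.H53.coeffRingAut K N τ)) f / f)) s := by
  letI := vAlgebra K q M N h
  exact exists_hasRes_norm_ratio_twice hϖ (S37.H53.coeffRingAut K M τ) ΦO hΦO hΦϖ ι PM hPM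
    (S37.H53.coeffRingAut K N τ) (Algebra.norm (modularFunctionFieldFullC K M))
    (fun x => norm_coeffRingAut_vq K M N τ q h x) hf hc0 hg0 hnorm S hSpow hc hrc

/-- one step, inclusion side. -/
theorem halpha_once (h : M ∣ N) {f : modularFunctionFieldFullC K N} (hf : f ≠ 0)
    {c g : modularFunctionFieldFullC K M} (hc0 : c ≠ 0) (hg0 : g ≠ 0)
    (hnorm : letI := degAlgebra K M N h
      Algebra.norm (modularFunctionFieldFullC K M) f = c * g ^ m)
    {rc : Fkˣ} (hc : PM.HasRes (S37.H53.coeffRingAut K M τ c / c) rc) (hrc : rc ∈ S) :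
    letI := degAlgebra K M N h
    ∃ s ∈ S, PM.HasRes (Algebra.norm (modularFunctionFieldFullC K M)
      (S37.H53.coeffRingAut K N τ f / f)) s := by
  letI := degAlgebra K M N h
  exact exists_hasRes_norm_ratio hϖ (S37.H53.coeffRingAut K M τ) ΦO hΦO hΦϖ ι PM hPM
    (S37.H53.coeffRingAut K N τ) (Algebra.norm (modularFunctionFieldFullC K M))
    (fun x => norm_coeffRingAut_deg K M N τ h x) hf hc0 hg0 hnorm S hSpow hc hrc

/-- one step, `V_q` side. -/
theorem hbeta_once (q : ℕ) [NeZero q] (h : q * M ∣ N) {f : modularFunctionFieldFullC K N}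
    (hf : f ≠ 0) {c g : modularFunctionFieldFullC K M} (hc0 : c ≠ 0) (hg0 : g ≠ 0)
    (hnorm : letI := vAlgebra K q M N h
      Algebra.norm (modularFunctionFieldFullC K M) f = c * g ^ m)
    {rc : Fkˣ} (hc : PM.HasRes (S37.H53.coeffRingAut K M τ c / c) rc) (hrc : rc ∈ S) :
    letI := vAlgebra K q M N h
    ∃ s ∈ S, PM.HasRes (Algebra.norm (modularFunctionFieldFullC K M)
      (S37.H53.coeffRingAut K N τ f / f)) s := by
  letI := vAlgebra K q M N h
  exact exists_hasRes_norm_ratio hϖ (S37.H53.coeffRingAut K M τ) ΦO hΦO hΦϖ ι PM hPM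
    (S37.H53.coeffRingAut K N τ) (Algebra.norm (modularFunctionFieldFullC K M))
    (fun x => norm_coeffRingAut_vq K M N τ q h x) hf hc0 hg0 hnorm S hSpow hc hrc

end AB

end Fermat.Agent.S35.H16
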