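import Mathlib
import Fermat.Agent.S18.H45_DecompBase
import Fermat.Agent.S34.H16_RelDeg
import Fermat.Agent.S35.H16_RelDegV

/-!
# S35 / (E3) small inputs (helper72): norms commute with the coefficientwise Galois action

`E ⊆ Qbar` a `Gal(Qbar/ℚ)`-stable intermediate field of `Qbar / unrCyclo ℓ`,
`galActFullC E hE N τ` the coefficientwise action of `τ` on `F_N = modularFunctionFieldFullC ↥E N`.

* `norm_map_of_semilinear` : generic — a pair of ring automorphisms `(e₁, e₂)` of `(A, B)` with
  `e₂ ∘ algebraMap = algebraMap ∘ e₁` satisfies `N_{B/A}(e₂ x) = e₁ (N_{B/A} x)`.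
* `galActFullC_algebraMap_deg`, `galActFullC_algebraMap_v` : the action commutes with the two
  structure maps `F_M → F_N` (`degAlgebra` = inclusion, `vAlgebra` = `V_q : f(t) ↦ f(t^q)`).
* `norm_galActFullC_deg`, `norm_galActFullC_v` : `N(τ x) = τ (N x)` for both algebra structures;
  `norm_galActFullC_deg_twice`, `norm_galActFullC_v_twice` : the same for `Ψ = τ ∘ τ`.
* `associated_map_of_dvr` : a ring automorphism of a DVR maps every nonzero element to an associate.
* `exists_unit_galActE_div` : for `φ` in the decomposition group of `A` and `c ≠ 0` in `E`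
  (`E / unrCyclo ℓ` finite), `φ c / c` is a unit of `cutOver A E`;
  `galActFullC_algebraMap_div` : hence `τ(c) / c` (constants of `F_M`) is the image of that unit.
-/

set_option autoImplicit false
set_option linter.unusedSectionVars false
set_option linter.style.haveILetI false
set_option synthInstance.maxHeartbeats 400000

noncomputable section

namespace Fermat.Agent.S35.H72

open ModularCurve Fermat.Agent.S18 Fermat.Agent.S18.H45

local notation "Qbar" => AlgebraicClosure ℚ

/-! ### Generic: norms and semilinear automorphisms -/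

section Generic

/-- `N_{B/A}(e₂ x) = e₁ (N_{B/A} x)` for a compatible pair of ring automorphisms. -/
theorem norm_map_of_semilinear {A₁ B₁ : Type*} [CommRing A₁] [Ring B₁] [Algebra A₁ B₁]
    (e₁ : A₁ ≃+* A₁) (e₂ : B₁ ≃+* B₁)
    (he : ∀ a : A₁, e₂ (algebraMap A₁ B₁ a) = algebraMap A₁ B₁ (e₁ a)) (x : B₁) :
    Algebra.norm A₁ (e₂ x) = e₁ (Algebra.norm A₁ x) := by
  have h := Algebra.norm_eq_of_equiv_equiv e₁ e₂ (RingHom.ext fun a => (he a).symm) x
  rw [h, RingEquiv.apply_symm_apply]

/-- A ring automorphism of a DVR maps every nonzero element to an associate. -/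
theorem associated_map_of_dvr {R : Type*} [CommRing R] [IsDomain R] [IsDiscreteValuationRing R]
    (σ : R ≃+* R) {a : R} (ha : a ≠ 0) : Associated (σ a) a := by
  obtain ⟨ϖ, hϖ⟩ := IsDiscreteValuationRing.exists_irreducible R
  obtain ⟨n, hn⟩ := IsDiscreteValuationRing.associated_pow_irreducible ha hϖ
  have hσϖ : Irreducible (σ ϖ) := (MulEquiv.irreducible_iff (σ : R ≃* R)).mpr hϖ
  have h1 : Associated (σ a) (σ ϖ ^ n) := by
    have := hn.map (σ : R →* R)
    simpa using this
  have h2 : Associated (σ ϖ ^ n) (ϖ ^ n) :=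
    (IsDiscreteValuationRing.associated_of_irreducible R hσϖ hϖ).pow_pow
  exact (h1.trans h2).trans hn.symm

end Generic

variable {A : ValuationSubring Qbar} {ℓ : ℕ}
variable (E : IntermediateField (unrCyclo ℓ) Qbar)
variable (hE : ∀ (τ : Qbar ≃ₐ[ℚ] Qbar) (x : Qbar), x ∈ E → τ x ∈ E)

/-! ### The action commutes with the structure maps `F_M → F_N` -/

section StructureMaps

variable (M N : ℕ) [NeZero M] [NeZero N]

/-- The coefficientwise action commutes with the inclusion `F_M ⊆ F_N`. -/
theorem galActFullC_algebraMap_deg (h : M ∣ N) (τ : Qbar ≃ₐ[ℚ] Qbar)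
    (y : modularFunctionFieldFullC ↥E M) :
    letI := S34.H16.degAlgebra ↥E M N h
    galActFullC E hE N τ
        (algebraMap (modularFunctionFieldFullC ↥E M) (modularFunctionFieldFullC ↥E N) y)
      = algebraMap (modularFunctionFieldFullC ↥E M) (modularFunctionFieldFullC ↥E N)
          (galActFullC E hE M τ y) := by
  letI := S34.H16.degAlgebra ↥E M N h
  apply Subtype.ext
  rw [coe_galActFullC, S34.H16.degAlgebra_algebraMap_coe, S34.H16.degAlgebra_algebraMap_coe,
    coe_galActFullC]

/-- The coefficientwise action commutes with `V_q : F_M → F_N`, `f(t) ↦ f(t^q)`. -/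
theorem galActFullC_algebraMap_v (q : ℕ) [NeZero q] (h : q * M ∣ N) (τ : Qbar ≃ₐ[ℚ] Qbar)
    (y : modularFunctionFieldFullC ↥E M) :
    letI := S35.H16.vAlgebra ↥E q M N h
    galActFullC E hE N τ
        (algebraMap (modularFunctionFieldFullC ↥E M) (modularFunctionFieldFullC ↥E N) y)
      = algebraMap (modularFunctionFieldFullC ↥E M) (modularFunctionFieldFullC ↥E N)
          (galActFullC E hE M τ y) := by
  letI := S35.H16.vAlgebra ↥E q M N h
  apply Subtype.ext
  rw [coe_galActFullC, S35.H16.vAlgebra_algebraMap_coe, S35.H16.vAlgebra_algebraMap_coe,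
    coe_galActFullC, ModularCurve.coeffMap_qExpand]

/-- **`N_α (τ x) = τ (N_α x)`**: the norm of `F_N / F_M` (inclusion) commutes with the
coefficientwise Galois action. -/
theorem norm_galActFullC_deg (h : M ∣ N) (τ : Qbar ≃ₐ[ℚ] Qbar)
    (x : modularFunctionFieldFullC ↥E N) :
    letI := S34.H16.degAlgebra ↥E M N h
    Algebra.norm (modularFunctionFieldFullC ↥E M) (galActFullC E hE N τ x)
      = galActFullC E hE M τ (Algebra.norm (modularFunctionFieldFullC ↥E M) x) := by
  letI := S34.H16.degAlgebra ↥E M N h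
  exact norm_map_of_semilinear (galActFullC E hE M τ) (galActFullC E hE N τ)
    (galActFullC_algebraMap_deg E hE M N h τ) x

/-- **`N_β (τ x) = τ (N_β x)`**: the norm of `F_N / V_q(F_M)` commutes with the coefficientwise
Galois action. -/
theorem norm_galActFullC_v (q : ℕ) [NeZero q] (h : q * M ∣ N) (τ : Qbar ≃ₐ[ℚ] Qbar)
    (x : modularFunctionFieldFullC ↥E N) :
    letI := S35.H16.vAlgebra ↥E q M N h
    Algebra.norm (modularFunctionFieldFullC ↥E M) (galActFullC E hE N τ x)
      = galActFullC E hE M τ (Algebra.norm (modularFunctionFieldFullC ↥E M) x) := by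
  letI := S35.H16.vAlgebra ↥E q M N h
  exact norm_map_of_semilinear (galActFullC E hE M τ) (galActFullC E hE N τ)
    (galActFullC_algebraMap_v E hE M N q h τ) x

/-- The same for `Ψ = τ ∘ τ` (inclusion). -/
theorem norm_galActFullC_deg_twice (h : M ∣ N) (τ : Qbar ≃ₐ[ℚ] Qbar)
    (x : modularFunctionFieldFullC ↥E N) :
    letI := S34.H16.degAlgebra ↥E M N h
    Algebra.norm (modularFunctionFieldFullC ↥E M)
        (galActFullC E hE N τ (galActFullC E hE N τ x))
      = galActFullC E hE M τ
          (galActFullC E hE M τ (Algebra.norm (modularFunctionFieldFullC ↥E M) x)) := by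
  letI := S34.H16.degAlgebra ↥E M N h
  rw [norm_galActFullC_deg E hE M N h τ, norm_galActFullC_deg E hE M N h τ]

/-- The same for `Ψ = τ ∘ τ` (`V_q`). -/
theorem norm_galActFullC_v_twice (q : ℕ) [NeZero q] (h : q * M ∣ N) (τ : Qbar ≃ₐ[ℚ] Qbar)
    (x : modularFunctionFieldFullC ↥E N) :
    letI := S35.H16.vAlgebra ↥E q M N h
    Algebra.norm (modularFunctionFieldFullC ↥E M)
        (galActFullC E hE N τ (galActFullC E hE N τ x))
      = galActFullC E hE M τ
          (galActFullC E hE M τ (Algebra.norm (modularFunctionFieldFullC ↥E M) x)) := by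
  letI := S35.H16.vAlgebra ↥E q M N h
  rw [norm_galActFullC_v E hE M N q h τ, norm_galActFullC_v E hE M N q h τ]

end StructureMaps

/-! ### `φ c / c` is a unit of `A'' = cutOver A E` for `φ` in the decomposition group -/

section ConstUnit

variable (hℓ : ℓ.Prime) (hA : A.LiesOverPrime ℓ) [FiniteDimensional (unrCyclo ℓ) E]

include hℓ hA in
/-- For `φ` in the decomposition group of `A` and `c ≠ 0` in `E`: `φ c / c ∈ (A ∩ E)ˣ`. -/
theorem exists_unit_galActE_div (φ : Qbar ≃ₐ[ℚ] Qbar) (hφ : φ ∈ A.decompositionSubgroup ℚ)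
    (c : ↥E) (hc : c ≠ 0) :
    ∃ u : (cutOver A E)ˣ, ((u : cutOver A E) : ↥E) = galActE E hE φ c / c := by
  haveI : IsDiscreteValuationRing (cutOver A E) := isDiscreteValuationRing_cutOver hℓ hA E
  obtain ⟨a, b, hb, rfl⟩ := IsFractionRing.div_surjective (A := cutOver A E) c
  have hb0 : b ≠ 0 := nonZeroDivisors.ne_zero hb
  have ha0 : a ≠ 0 := by
    rintro rfl
    apply hc
    rw [map_zero, zero_div]
  obtain ⟨ua, hua⟩ := associated_map_of_dvr (galActCutOver E hE φ hφ) ha0
  obtain ⟨ub, hub⟩ := associated_map_of_dvr (galActCutOver E hE φ hφ) hb0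
  refine ⟨ua⁻¹ * ub, ?_⟩
  have hbE : ((b : cutOver A E) : ↥E) ≠ 0 := by
    intro h
    exact hb0 (Subtype.ext h)
  have haE : ((a : cutOver A E) : ↥E) ≠ 0 := by
    intro h
    exact ha0 (Subtype.ext h)
  have hua' : galActE E hE φ (a : ↥E) * ((ua : cutOver A E) : ↥E) = (a : ↥E) := by
    have := congrArg (fun x : cutOver A E => (x : ↥E)) hua
    simpa [coe_galActCutOver'] using this
  have hub' : galActE E hE φ (b : ↥E) * ((ub : cutOver A E) : ↥E) = (b : ↥E) := by
    have := congrArg (fun x : cutOver A E => (x : ↥E)) hub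
    simpa [coe_galActCutOver'] using this
  have hinv : (((ua⁻¹ : (cutOver A E)ˣ) : cutOver A E) : ↥E) * ((ua : cutOver A E) : ↥E) = 1 := by
    have h1 : ((ua⁻¹ : (cutOver A E)ˣ) : cutOver A E) * (ua : cutOver A E) = 1 := Units.inv_mul ua
    exact congrArg Subtype.val h1
  have huaE : ((ua : cutOver A E) : ↥E) ≠ 0 := by
    intro h
    rw [h, mul_zero] at hinv
    exact zero_ne_one hinv
  have hubE : ((ub : cutOver A E) : ↥E) ≠ 0 := by
    intro h
    rw [h, mul_zero] at hub'
    exact hbE hub'.symm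
  have hA1 : galActE E hE φ (a : ↥E) = (a : ↥E) / ((ua : cutOver A E) : ↥E) :=
    (eq_div_iff huaE).mpr hua'
  have hB1 : galActE E hE φ (b : ↥E) = (b : ↥E) / ((ub : cutOver A E) : ↥E) :=
    (eq_div_iff hubE).mpr hub'
  have e1 : (((ua⁻¹ : (cutOver A E)ˣ) : cutOver A E) : ↥E) = (((ua : cutOver A E) : ↥E))⁻¹ :=
    eq_inv_of_mul_eq_one_left hinv
  show (((ua⁻¹ * ub : (cutOver A E)ˣ) : cutOver A E) : ↥E) = _
  rw [Units.val_mul]
  show (((ua⁻¹ : (cutOver A E)ˣ) : cutOver A E) : ↥E) * ((ub : cutOver A E) : ↥E) = _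
  rw [e1]
  show _ = galActE E hE φ ((a : ↥E) / (b : ↥E)) / ((a : ↥E) / (b : ↥E))
  rw [map_div₀, hA1, hB1]
  field_simp

include hℓ hA in
/-- The same on the constants of `F_M`: `φ(c) / c` is the image of a unit of `A ∩ E`. -/
theorem galActFullC_algebraMap_div (M : ℕ) [NeZero M] (φ : Qbar ≃ₐ[ℚ] Qbar)
    (hφ : φ ∈ A.decompositionSubgroup ℚ) (c : ↥E) (hc : c ≠ 0) :
    ∃ u : (cutOver A E)ˣ,
      galActFullC E hE M φ (algebraMap ↥E (modularFunctionFieldFullC ↥E M) c)
          / algebraMap ↥E (modularFunctionFieldFullC ↥E M) c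
        = algebraMap ↥E (modularFunctionFieldFullC ↥E M) ((u : cutOver A E) : ↥E) := by
  obtain ⟨u, hu⟩ := exists_unit_galActE_div E hE hℓ hA φ hφ c hc
  refine ⟨u, ?_⟩
  rw [galActFullC_algebraMap, hu, map_div₀]

end ConstUnit

end Fermat.Agent.S35.H72
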