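import Mathlib
import Fermat.Agent.S35.H92_GaussLevelME
import Fermat.Agent.S34.H92_GaussAut
import Fermat.Agent.S18.H45_DecompBase

/-!
# S35 / E-level (helper92): base change and Galois action on the E-level Gauss ring `VME`

* `baseChangeE_mem_VME` : `H45.baseChangeE E M` maps `V_M` (over `A₁`) into `VME` (over `A'' = A ∩ E`)
  and `resME ∘ baseChangeE = resM`; `mem_VM_of_baseChangeE_mem_VME` : `VME ∩ F_M(K₁) = V_M`;
* `coeffRingAut_mem_VME(_iff)` : a coefficientwise automorphism `σ` of `E` preserving `A''`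
  (through `σA`), inducing `τ` on `kA`, preserves `VME`, and `resME (σ f) = coeffMap τ (resME f)`;
* `galActFullC_mem_VME(_iff)`, `resME_galActFullC` : the same for `H45.galActFullC E hE M φ`,
  `φ` in the decomposition group (`τ = φ̄`), and `resME_galActFullC_of_isFrobeniusAt`
  (`τ = (· ^ ℓ)`) for a Frobenius lift.
-/

set_option autoImplicit false
set_option synthInstance.maxHeartbeats 400000
set_option linter.unusedSectionVars false

noncomputable section

namespace Fermat.Agent.S35.H92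

open ModularCurve Polynomial AlgebraicCurve IsLocalRing
open Fermat.Agent.S18 Fermat.Agent.S18.H92 Fermat.Agent.S18.H45 Fermat.Agent.S34.H92

local notation "Qbar" => AlgebraicClosure ℚ

variable (M : ℕ) [NeZero M] {ℓ : ℕ} [hℓ : Fact ℓ.Prime] (hℓM : ¬ ℓ ∣ M)
  (A : ValuationSubring Qbar) (hA : A.LiesOverPrime ℓ)
  (E : IntermediateField (H45.unrCyclo ℓ) Qbar)

local notation "kA" => IsLocalRing.ResidueField A
local notation "A₁" => H45.A0 A ℓ
local notation "L₁" => H45.unrCyclo ℓ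
local notation "A₂" => H45.cutOver A E
local notation "FM" => modularFunctionFieldFullC (H45.unrCyclo ℓ) M
set_option quotPrecheck false in
local notation "FME" => modularFunctionFieldFullC (↥E) M

/-! ### base change from the `A₁`-level -/

/-- `baseChangeE` maps `V_M` into `VME`, compatibly with the reductions. -/
theorem baseChangeE_mem_VME (f : FM) (hf : f ∈ VM M hℓM A hA) :
    ∃ h : H45.baseChangeE E M f ∈ VME M hℓM A hA E,
      resME M hℓM A hA E ⟨_, h⟩ = resM M hℓM A hA ⟨f, hf⟩ := by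
  obtain ⟨h, hh⟩ := coeffMap_mem_ball_hom (twoGenA0 M hℓM A hA) (twoGenE M hℓM A hA E)
    (algebraMap L₁ (↥E)) (H45.inclA0CutOver A E) (fun _ => rfl) (RingHom.id kA)
    (fun _ => rfl) (coeffMap_jqModC _) (coeffMap_jqNModC _ M)
    (f := (f : LaurentSeries L₁)) hf
  refine ⟨h, ?_⟩
  have e : coeffMap (RingHom.id kA) ((twoGenA0 M hℓM A hA).resFun (f : LaurentSeries L₁)) =
      (twoGenA0 M hℓM A hA).resFun (f : LaurentSeries L₁) := by
    ext n
    rfl
  rw [e] at hh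
  exact hh

/-- `VME ∩ F_M(K₁) = V_M`. -/
theorem mem_VM_of_baseChangeE_mem_VME (f : FM)
    (h : H45.baseChangeE E M f ∈ VME M hℓM A hA E) : f ∈ VM M hℓM A hA := by
  have hfF : (f : LaurentSeries L₁) ∈ (twoGenA0 M hℓM A hA).FL := by
    rw [← twoGenA0_FL]; exact f.2
  exact mem_ball_of_coeffMap_mem_ball (twoGenA0 M hℓM A hA) (twoGenE M hℓM A hA E)
    (algebraMap L₁ (↥E)) (H45.inclA0CutOver A E) (fun _ => rfl) (RingHom.id kA)
    (fun _ => rfl) (coeffMap_jqModC _) (coeffMap_jqNModC _ M) hfF h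

theorem baseChangeE_mem_VME_iff (f : FM) :
    H45.baseChangeE E M f ∈ VME M hℓM A hA E ↔ f ∈ VM M hℓM A hA :=
  ⟨mem_VM_of_baseChangeE_mem_VME M hℓM A hA E f,
    fun hf => (baseChangeE_mem_VME M hℓM A hA E f hf).1⟩

/-! ### coefficientwise automorphisms -/

/-- **`σ VME ⊆ VME` and `resME ∘ σ = τ ∘ resME`** for a coefficientwise automorphism `σ` of `E`
preserving `A'' = A ∩ E` and inducing `τ` on `kA`. -/
theorem coeffRingAut_mem_VME (σ : (↥E) ≃+* (↥E)) (σA : A₂ →+* A₂)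
    (hσA : ∀ a : A₂, ((σA a : A₂) : ↥E) = σ (a : ↥E)) (τ : kA →+* kA)
    (hτ : ∀ a : A₂, resE A E (σA a) = τ (resE A E a))
    (f : FME) (hf : f ∈ VME M hℓM A hA E) :
    ∃ h : S37.H53.coeffRingAut (↥E) M σ f ∈ VME M hℓM A hA E,
      resME M hℓM A hA E ⟨_, h⟩ = coeffMap τ (resME M hℓM A hA E ⟨f, hf⟩) := by
  obtain ⟨h, hh⟩ := coeffMap_mem_ball (twoGenE M hℓM A hA E) (σ : (↥E) →+* (↥E)) σA hσA τ hτ
    (coeffMap_jqModC σA) (coeffMap_jqNModC σA M) (f := (f : LaurentSeries (↥E))) hf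
  exact ⟨h, hh⟩

/-- `σ VME = VME` when `σ` restricts to an automorphism of `A''`. -/
theorem coeffRingAut_mem_VME_iff (σ : (↥E) ≃+* (↥E)) (σA : A₂ ≃+* A₂)
    (hσA : ∀ a : A₂, ((σA a : A₂) : ↥E) = σ (a : ↥E)) (τ : kA ≃+* kA)
    (hτ : ∀ a : A₂, resE A E (σA a) = τ (resE A E a)) (f : FME) :
    S37.H53.coeffRingAut (↥E) M σ f ∈ VME M hℓM A hA E ↔ f ∈ VME M hℓM A hA E := by
  constructor
  · intro h
    have hσA' : ∀ a : A₂, ((σA.symm a : A₂) : ↥E) = σ.symm (a : ↥E) := by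
      intro a
      apply σ.injective
      rw [RingEquiv.apply_symm_apply, ← hσA, RingEquiv.apply_symm_apply]
    have hτ' : ∀ a : A₂, resE A E (σA.symm a) = τ.symm (resE A E a) := by
      intro a
      apply τ.injective
      rw [RingEquiv.apply_symm_apply, ← hτ, RingEquiv.apply_symm_apply]
    obtain ⟨h2, -⟩ := coeffRingAut_mem_VME M hℓM A hA E σ.symm (σA.symm : A₂ →+* A₂) hσA'
      (τ.symm : kA →+* kA) hτ' _ h
    have e : S37.H53.coeffRingAut (↥E) M σ.symm (S37.H53.coeffRingAut (↥E) M σ f) = f :=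
      (S37.H53.coeffRingAut (↥E) M σ).symm_apply_apply f
    rwa [e] at h2
  · intro h
    exact (coeffRingAut_mem_VME M hℓM A hA E σ (σA : A₂ →+* A₂) hσA (τ : kA →+* kA) hτ f h).1

/-! ### the decomposition group -/

section Decomp

variable (hE : ∀ (τ : Qbar ≃ₐ[ℚ] Qbar) (x : Qbar), x ∈ E → τ x ∈ E)

/-- the automorphism of `kA` induced by a decomposition-group element -/
def resAut (φ : Qbar ≃ₐ[ℚ] Qbar) (hφ : φ ∈ A.decompositionSubgroup ℚ) : kA ≃+* kA :=
  MulSemiringAction.toRingEquiv (A.decompositionSubgroup ℚ) kA ⟨φ, hφ⟩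

theorem resAut_apply (φ : Qbar ≃ₐ[ℚ] Qbar) (hφ : φ ∈ A.decompositionSubgroup ℚ) (x : kA) :
    resAut A φ hφ x = (⟨φ, hφ⟩ : A.decompositionSubgroup ℚ) • x := rfl

theorem resE_galActCutOver (φ : Qbar ≃ₐ[ℚ] Qbar) (hφ : φ ∈ A.decompositionSubgroup ℚ)
    (a : A₂) :
    resE A E (H45.galActCutOver E hE φ hφ a) = resAut A φ hφ (resE A E a) :=
  H45.residue_inclCutOver_galActCutOver E hE φ hφ a

/-- `φ VME ⊆ VME` and `resME ∘ φ = φ̄ ∘ resME` for `φ` in the decomposition group. -/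
theorem galActFullC_mem_VME (φ : Qbar ≃ₐ[ℚ] Qbar) (hφ : φ ∈ A.decompositionSubgroup ℚ)
    (f : FME) (hf : f ∈ VME M hℓM A hA E) :
    ∃ h : H45.galActFullC E hE M φ f ∈ VME M hℓM A hA E,
      resME M hℓM A hA E ⟨_, h⟩ =
        coeffMap ((resAut A φ hφ : kA ≃+* kA) : kA →+* kA) (resME M hℓM A hA E ⟨f, hf⟩) :=
  coeffRingAut_mem_VME M hℓM A hA E (H45.galActE E hE φ)
    (H45.galActCutOver E hE φ hφ : A₂ →+* A₂) (fun _ => rfl)
    ((resAut A φ hφ : kA ≃+* kA) : kA →+* kA) (resE_galActCutOver A E hE φ hφ) f hf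

/-- `φ VME = VME` for `φ` in the decomposition group. -/
theorem galActFullC_mem_VME_iff (φ : Qbar ≃ₐ[ℚ] Qbar) (hφ : φ ∈ A.decompositionSubgroup ℚ)
    (f : FME) :
    H45.galActFullC E hE M φ f ∈ VME M hℓM A hA E ↔ f ∈ VME M hℓM A hA E :=
  coeffRingAut_mem_VME_iff M hℓM A hA E (H45.galActE E hE φ)
    (H45.galActCutOver E hE φ hφ) (fun _ => rfl) (resAut A φ hφ)
    (resE_galActCutOver A E hE φ hφ) f

/-- For a Frobenius lift `φ` at `ℓ`: `resME (φ f) = (resME f)` with coefficients raised to the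
`ℓ`-th power. -/
theorem resME_galActFullC_of_isFrobeniusAt {φ : Qbar ≃ₐ[ℚ] Qbar} (hF : A.IsFrobeniusAt φ ℓ)
    (τ : kA →+* kA) (hτ : ∀ x : kA, τ x = x ^ ℓ)
    (f : FME) (hf : f ∈ VME M hℓM A hA E) :
    ∃ h : H45.galActFullC E hE M φ f ∈ VME M hℓM A hA E,
      resME M hℓM A hA E ⟨_, h⟩ = coeffMap τ (resME M hℓM A hA E ⟨f, hf⟩) :=
  coeffRingAut_mem_VME M hℓM A hA E (H45.galActE E hE φ)
    (H45.galActCutOver E hE φ hF.mem_decompositionSubgroup : A₂ →+* A₂) (fun _ => rfl) τ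
    (fun a => by
      rw [hτ]
      have := resE_galActCutOver A E hE φ hF.mem_decompositionSubgroup a
      rw [resAut_apply, hF.smul_residue_eq] at this
      exact this) f hf

end Decomp

end Fermat.Agent.S35.H92
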