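import Mathlib
import Fermat.Agent.S35.H16_G3AlphaBetaRes
import Fermat.Agent.S35.H16_G2AlphaBetaE
import Fermat.Agent.S35.H92_GaussLevelMEAut
import Fermat.Agent.S35.H72_NormGalAct
import Fermat.Agent.S35.H46_G3Inst

/-!
S35 / (E3) E-LEVEL INSTANCE (helper16): the hypotheses `hα hsα` / `hβ hsβ` of
`S35.H46.g3_roots_oneU` / `H46.exists_hG_of_places` over helper92's E-level Gauss ring
`VME = S35.H92.VME M hℓM A hA E`:

for `φ` in the decomposition group of `A`, `Φ_N = H45.galActFullC E hE N φ`, `Ψ = Φ_N ∘ Φ_N`,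
`N f = c · g ^ m` with `c ∈ Eˣ` a constant (norm along the inclusion `F_M ⊆ F_N`, any `M ∣ N`, resp.
along `V_ℓ`, any `ℓ M ∣ N`):

  `∃ s ∈ kummerS C gaussResPlaceE m, gaussResPlaceE.HasRes (N (Ψ f / f)) s`,

`kummerS C PM m = C(kAˣ) · (PM.resUnits) ^ m` being helper46's subgroup `S` of (g3).

Ingredients: `galVME` (the restriction of `galActFullC E hE M φ` to `VME`, helper92's
`galActFullC_mem_VME`), `galVME_const` (`Φ_M (ϖ) = unit · ϖ`, helper72's `associated_map_of_dvr`),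
the constant ratio `Ψ_M c / c ∈ (A'')ˣ` (helper72's `exists_unit_galActE_div`), and the generic
`S35.H16.halpha_twice / hbeta_twice`.
-/

set_option autoImplicit false
set_option linter.unusedSectionVars false
set_option linter.style.haveILetI false
set_option synthInstance.maxHeartbeats 400000

noncomputable section

namespace Fermat.Agent.S35.H16

open ModularCurve Polynomial IsLocalRing
open Fermat.Agent.S18 Fermat.Agent.S34.H92 Fermat.Agent.S35.H92 Fermat.Agent.S34.H16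

local notation "Qbar" => AlgebraicClosure ℚ

section HalphaE

variable (M : ℕ) [NeZero M] {ℓ : ℕ} [hℓ : Fact ℓ.Prime] (hℓM : ¬ ℓ ∣ M)
  (A : ValuationSubring Qbar) (hA : A.LiesOverPrime ℓ)
  (E : IntermediateField (H45.unrCyclo ℓ) Qbar)
  (hE : ∀ (τ : Qbar ≃ₐ[ℚ] Qbar) (x : Qbar), x ∈ E → τ x ∈ E)
  (φ : Qbar ≃ₐ[ℚ] Qbar) (hφ : φ ∈ A.decompositionSubgroup ℚ)

local notation "kA" => IsLocalRing.ResidueField A
local notation "A₂" => H45.cutOver A E
set_option quotPrecheck false in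
local notation "FME" => modularFunctionFieldFullC (↥E) M
local notation "VE" => VME M hℓM A hA E

/-- The restriction of `Φ_M = galActFullC E hE M φ` to the Gauss ring `VME`
(`φ` in the decomposition group). -/
def galVME : VE →+* VE :=
  (((H45.galActFullC E hE M φ : FME ≃+* FME) : FME →+* FME).comp
    (VME M hℓM A hA E).subtype).codRestrict (VME M hℓM A hA E)
    (fun a => (galActFullC_mem_VME M hℓM A hA E hE φ hφ a a.2).1)

theorem coe_galVME (a : VE) :
    ((galVME M hℓM A hA E hE φ hφ a : VE) : FME) = H45.galActFullC E hE M φ (a : FME) := rfl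

/-- `hΦO` of `halpha_twice` at `O := VME`. -/
theorem coeffRingAut_algebraMap_VME (a : VE) :
    S37.H53.coeffRingAut (↥E) M (H45.galActE E hE φ) (algebraMap VE FME a) =
      algebraMap VE FME (galVME M hℓM A hA E hE φ hφ a) := rfl

theorem resME_galVME (a : VE) :
    resME M hℓM A hA E (galVME M hℓM A hA E hE φ hφ a) =
      coeffMap ((resAut A φ hφ : kA ≃+* kA) : kA →+* kA) (resME M hℓM A hA E a) :=
  (galActFullC_mem_VME M hℓM A hA E hE φ hφ a a.2).2

/-- On constants `galVME` is `galActCutOver`. -/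
theorem galVME_const (a : A₂) :
    galVME M hℓM A hA E hE φ hφ (constVME M hℓM A hA E a) =
      constVME M hℓM A hA E (H45.galActCutOver E hE φ hφ a) := by
  apply Subtype.ext
  rw [coe_galVME, coe_constVME, coe_constVME, H45.galActFullC_algebraMap]
  rfl

section DVR

variable [FiniteDimensional (H45.unrCyclo ℓ) E] (ϖ : H45.cutOver A E)
  (hϖ : IsLocalRing.maximalIdeal (H45.cutOver A E) = Ideal.span {ϖ})

include hϖ in
/-- `hΦϖ` of `halpha_twice` at `O := VME`: `Φ_M ϖ = unit · ϖ`. -/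
theorem exists_unit_galVME_uniformizer :
    ∃ v : VEˣ, galVME M hℓM A hA E hE φ hφ (constVME M hℓM A hA E ϖ) =
      v * constVME M hℓM A hA E ϖ := by
  haveI : IsDiscreteValuationRing A₂ := H45.isDiscreteValuationRing_cutOver hℓ.out hA E
  obtain ⟨u, hu⟩ := H72.associated_map_of_dvr (H45.galActCutOver E hE φ hφ)
    (uniformizer_ne_zero A hA E ϖ hϖ)
  have hσ : H45.galActCutOver E hE φ hφ ϖ = ((u⁻¹ : A₂ˣ) : A₂) * ϖ :=
    calc H45.galActCutOver E hE φ hφ ϖ
        = H45.galActCutOver E hE φ hφ ϖ * ((u : A₂) * ((u⁻¹ : A₂ˣ) : A₂)) := by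
          rw [Units.mul_inv, mul_one]
      _ = (H45.galActCutOver E hE φ hφ ϖ * (u : A₂)) * ((u⁻¹ : A₂ˣ) : A₂) := by rw [mul_assoc]
      _ = ϖ * ((u⁻¹ : A₂ˣ) : A₂) := by rw [hu]
      _ = ((u⁻¹ : A₂ˣ) : A₂) * ϖ := mul_comm _ _
  refine ⟨Units.map (constVME M hℓM A hA E : A₂ →* VE) u⁻¹, ?_⟩
  rw [galVME_const, Units.coe_map, hσ, map_mul]
  rfl

include hA hφ in
/-- **the constant ratio**: for `c ≠ 0` in `E`, `Ψ_M c / c` (`Ψ_M = Φ_M ∘ Φ_M`) is a constant unit of
`VME`; its residue is the constant series `C r`, `r ∈ kAˣ`. -/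
theorem exists_hasRes_const_ratio (c : ↥E) (hc : c ≠ 0) :
    ∃ r : kAˣ, (gaussResPlaceE M hℓM A hA E).HasRes
      (((H45.galActFullC E hE M φ).trans (H45.galActFullC E hE M φ)) (algebraMap (↥E) FME c) /
        algebraMap (↥E) FME c)
      (Units.map ((HahnSeries.C : kA →+* LaurentSeries kA) : kA →* LaurentSeries kA) r) := by
  obtain ⟨u, hu⟩ := H72.exists_unit_galActE_div E hE hℓ.out hA φ hφ c hc
  have hc' : H45.galActE E hE φ c ≠ 0 := (_root_.map_ne_zero _).mpr hc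
  obtain ⟨u', hu'⟩ := H72.exists_unit_galActE_div E hE hℓ.out hA φ hφ _ hc'
  refine ⟨Units.map (resE A E : A₂ →* kA) (u' * u), ?_⟩
  have e : ((H45.galActFullC E hE M φ).trans (H45.galActFullC E hE M φ)) (algebraMap (↥E) FME c) /
      algebraMap (↥E) FME c =
        ((constVME M hℓM A hA E ((u' * u : A₂ˣ) : A₂) : VE) : FME) := by
    rw [RingEquiv.trans_apply, H45.galActFullC_algebraMap, H45.galActFullC_algebraMap,
      ← map_div₀, coe_constVME]
    congr 1
    rw [Units.val_mul]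
    change _ = ((u' : A₂) : ↥E) * ((u : A₂) : ↥E)
    rw [hu, hu', div_mul_div_cancel₀ hc']
  rw [e]
  exact ⟨(constVME M hℓM A hA E ((u' * u : A₂ˣ) : A₂)).2, resME_const M hℓM A hA E _⟩

/-- the constants lie in helper46's `kummerS`. -/
theorem const_mem_kummerS (m : ℕ) (r : kAˣ) :
    Units.map ((HahnSeries.C : kA →+* LaurentSeries kA) : kA →* LaurentSeries kA) r ∈
      H46.kummerS (HahnSeries.C : kA →+* LaurentSeries kA) (gaussResPlaceE M hℓM A hA E) m :=
  H46.mem_kummerS.mpr ⟨r, 1, one_mem _, by rw [one_pow, mul_one]⟩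

/-- the `m`-th powers of the residues of the units of `VME` lie in helper46's `kummerS`. -/
theorem unit_pow_mem_kummerS (m : ℕ) (w : VEˣ) :
    (Units.map ((resME M hℓM A hA E : VE →+* LaurentSeries kA) : VE →* LaurentSeries kA) w) ^ m ∈
      H46.kummerS (HahnSeries.C : kA →+* LaurentSeries kA) (gaussResPlaceE M hℓM A hA E) m :=
  H46.mem_kummerS.mpr ⟨1, _, ⟨((w : VE) : FME), (w : VE).2, rfl⟩, by rw [map_one, one_mul]⟩

include hA hφ hϖ in
/-- **`hα` + `hsα` over `VME`** (inclusion side), at ANY level `N` with `M ∣ N`. -/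
theorem halpha_VME (N : ℕ) [NeZero N] (h : M ∣ N) {m : ℕ}
    {f : modularFunctionFieldFullC (↥E) N} (hf : f ≠ 0) {c : ↥E} {g : FME}
    (hc0 : c ≠ 0) (hg0 : g ≠ 0)
    (hnorm : letI := degAlgebra (↥E) M N h
      Algebra.norm FME f = algebraMap (↥E) FME c * g ^ m) :
    letI := degAlgebra (↥E) M N h
    ∃ s ∈ H46.kummerS (HahnSeries.C : kA →+* LaurentSeries kA) (gaussResPlaceE M hℓM A hA E) m,
      (gaussResPlaceE M hℓM A hA E).HasRes (Algebra.norm FME
        (((H45.galActFullC E hE N φ).trans (H45.galActFullC E hE N φ)) f / f)) s := by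
  haveI := isDiscreteValuationRing_VME M hℓM A hA E ϖ hϖ
  obtain ⟨r, hr⟩ := exists_hasRes_const_ratio M hℓM A hA E hE φ hφ c hc0
  exact halpha_twice (↥E) M N (H45.galActE E hE φ) (irreducible_const_VME M hℓM A hA E ϖ hϖ)
    (galVME M hℓM A hA E hE φ hφ) (coeffRingAut_algebraMap_VME M hℓM A hA E hE φ hφ)
    (exists_unit_galVME_uniformizer M hℓM A hA E hE φ hφ ϖ hϖ)
    (resME M hℓM A hA E) (gaussResPlaceE M hℓM A hA E) (gaussResPlaceE_hasRes M hℓM A hA E)
    (H46.kummerS (HahnSeries.C : kA →+* LaurentSeries kA) (gaussResPlaceE M hℓM A hA E) m)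
    (unit_pow_mem_kummerS M hℓM A hA E m) h hf
    ((_root_.map_ne_zero (algebraMap (↥E) FME)).mpr hc0) hg0 hnorm hr
    (const_mem_kummerS M hℓM A hA E m r)

include hA hφ hϖ in
/-- **`hβ` + `hsβ` over `VME`** (`V_ℓ` side), at ANY level `N` with `ℓ * M ∣ N`. -/
theorem hbeta_VME (N : ℕ) [NeZero N] (h : ℓ * M ∣ N) {m : ℕ}
    {f : modularFunctionFieldFullC (↥E) N} (hf : f ≠ 0) {c : ↥E} {g : FME}
    (hc0 : c ≠ 0) (hg0 : g ≠ 0)
    (hnorm : haveI : NeZero ℓ := ⟨hℓ.out.ne_zero⟩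
      letI := vAlgebra (↥E) ℓ M N h
      Algebra.norm FME f = algebraMap (↥E) FME c * g ^ m) :
    haveI : NeZero ℓ := ⟨hℓ.out.ne_zero⟩
    letI := vAlgebra (↥E) ℓ M N h
    ∃ s ∈ H46.kummerS (HahnSeries.C : kA →+* LaurentSeries kA) (gaussResPlaceE M hℓM A hA E) m,
      (gaussResPlaceE M hℓM A hA E).HasRes (Algebra.norm FME
        (((H45.galActFullC E hE N φ).trans (H45.galActFullC E hE N φ)) f / f)) s := by
  haveI : NeZero ℓ := ⟨hℓ.out.ne_zero⟩
  haveI := isDiscreteValuationRing_VME M hℓM A hA E ϖ hϖ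
  obtain ⟨r, hr⟩ := exists_hasRes_const_ratio M hℓM A hA E hE φ hφ c hc0
  exact hbeta_twice (↥E) M N (H45.galActE E hE φ) (irreducible_const_VME M hℓM A hA E ϖ hϖ)
    (galVME M hℓM A hA E hE φ hφ) (coeffRingAut_algebraMap_VME M hℓM A hA E hE φ hφ)
    (exists_unit_galVME_uniformizer M hℓM A hA E hE φ hφ ϖ hϖ)
    (resME M hℓM A hA E) (gaussResPlaceE M hℓM A hA E) (gaussResPlaceE_hasRes M hℓM A hA E)
    (H46.kummerS (HahnSeries.C : kA →+* LaurentSeries kA) (gaussResPlaceE M hℓM A hA E) m)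
    (unit_pow_mem_kummerS M hℓM A hA E m) ℓ h hf
    ((_root_.map_ne_zero (algebraMap (↥E) FME)).mpr hc0) hg0 hnorm hr
    (const_mem_kummerS M hℓM A hA E m r)

end DVR

end HalphaE

end Fermat.Agent.S35.H16
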