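import Mathlib
import Fermat.Agent.S35.H16_NormEquivar
import Fermat.Agent.S18.H45_DecompBase

/-!
S35 / (E3) (helper16): norm equivariance for helper45's `H45.galActFullC E hE N τ`
(= `S37.H53.coeffRingAut ↥E N (galActE E hE τ)`): for both embeddings `F_M → F_N`
(`S34.H16.degAlgebra` / `S35.H16.vAlgebra`) over `↥E`,

  `Algebra.norm F_M (galActFullC E hE N τ x) = galActFullC E hE M τ (Algebra.norm F_M x)`,

and the versions for `Ψ = Φ ∘ Φ` (applied twice, and as `RingEquiv.trans`).
-/

set_option autoImplicit false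
set_option linter.unusedSectionVars false
set_option linter.style.haveILetI false
set_option synthInstance.maxHeartbeats 400000

noncomputable section

namespace Fermat.Agent.S35.H16

open ModularCurve Fermat.Agent.S18 Fermat.Agent.S34.H16

local notation "Qbar" => AlgebraicClosure ℚ

section Gal

variable {ℓ : ℕ} (E : IntermediateField (H45.unrCyclo ℓ) Qbar)
  (hE : ∀ (τ : Qbar ≃ₐ[ℚ] Qbar) (x : Qbar), x ∈ E → τ x ∈ E)
  (M N : ℕ) [NeZero M] [NeZero N] (τ : Qbar ≃ₐ[ℚ] Qbar)

/-- `N_ι (Φ_N x) = Φ_M (N_ι x)`. -/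
theorem norm_galActFullC_deg (h : M ∣ N) (x : modularFunctionFieldFullC ↥E N) :
    letI := degAlgebra ↥E M N h
    Algebra.norm (modularFunctionFieldFullC ↥E M) (H45.galActFullC E hE N τ x) =
      H45.galActFullC E hE M τ (Algebra.norm (modularFunctionFieldFullC ↥E M) x) :=
  norm_coeffRingAut_deg ↥E M N (H45.galActE E hE τ) h x

/-- `N_V (Φ_N x) = Φ_M (N_V x)`. -/
theorem norm_galActFullC_vq (q : ℕ) [NeZero q] (h : q * M ∣ N)
    (x : modularFunctionFieldFullC ↥E N) :
    letI := vAlgebra ↥E q M N h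
    Algebra.norm (modularFunctionFieldFullC ↥E M) (H45.galActFullC E hE N τ x) =
      H45.galActFullC E hE M τ (Algebra.norm (modularFunctionFieldFullC ↥E M) x) :=
  norm_coeffRingAut_vq ↥E M N (H45.galActE E hE τ) q h x

/-- `N_ι (Ψ_N x) = Ψ_M (N_ι x)` for `Ψ = Φ ∘ Φ` (as `RingEquiv.trans`). -/
theorem norm_galActFullC_trans_deg (h : M ∣ N) (x : modularFunctionFieldFullC ↥E N) :
    letI := degAlgebra ↥E M N h
    Algebra.norm (modularFunctionFieldFullC ↥E M)
        (((H45.galActFullC E hE N τ).trans (H45.galActFullC E hE N τ)) x) =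
      ((H45.galActFullC E hE M τ).trans (H45.galActFullC E hE M τ))
        (Algebra.norm (modularFunctionFieldFullC ↥E M) x) :=
  norm_coeffRingAut_deg_twice ↥E M N (H45.galActE E hE τ) h x

/-- `N_V (Ψ_N x) = Ψ_M (N_V x)` for `Ψ = Φ ∘ Φ` (as `RingEquiv.trans`). -/
theorem norm_galActFullC_trans_vq (q : ℕ) [NeZero q] (h : q * M ∣ N)
    (x : modularFunctionFieldFullC ↥E N) :
    letI := vAlgebra ↥E q M N h
    Algebra.norm (modularFunctionFieldFullC ↥E M)
        (((H45.galActFullC E hE N τ).trans (H45.galActFullC E hE N τ)) x) =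
      ((H45.galActFullC E hE M τ).trans (H45.galActFullC E hE M τ))
        (Algebra.norm (modularFunctionFieldFullC ↥E M) x) :=
  norm_coeffRingAut_vq_twice ↥E M N (H45.galActE E hE τ) q h x

end Gal

end Fermat.Agent.S35.H16
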