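/-
S35, row G5, input (approx) (helper62): weak approximation at finitely many height-one primes of a
chart, in the vocabulary of `S34.H56_PrimeVal` (`H56.valuationSubringAt`).

`B` a noetherian integrally closed domain, `K = Frac B`, `P : κ → Ideal B` finitely many pairwise
incomparable height-one primes, `V k := H56.valuationSubringAt (P k)`.

* `exists_simultaneous_approx` : for `x k` a unit of `V k` (all `k`) there is ONE `Ψ : K`, a unit of
  every `V k`, with `Ψ ≡ x k` modulo the maximal ideal of `V k` for all `k`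
  (`Ψ := (∑ e_j a_j) / (∑ e_j s_j)`, `x_j = a_j / s_j`, `e_j ∈ ⋂_{i ≠ j} P i ∖ P j`).
* `exists_simultaneous_root` : per-`k` data `u ≡ G_k ^ m` merge into ONE `G` with `u ≡ G ^ m` at
  every `V k` (the input shape of the abstract `(g4)`).
-/
import Mathlib
import Fermat.Agent.S34.H56_PrimeVal
import Fermat.Agent.S34.H47_KummerInduct
import Fermat.Agent.S35.H62_ThreeRatios

set_option autoImplicit false

namespace Fermat.Agent.S35.H62

open Fermat.Agent.S34

variable {B K : Type*} [CommRing B] [IsDomain B] [Field K] [Algebra B K] [IsFractionRing B K]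
  [IsNoetherianRing B] [IsIntegrallyClosed B]

/-- **Weak approximation** at finitely many pairwise incomparable height-one primes. -/
theorem exists_simultaneous_approx {κ : Type*} [Finite κ] (P : κ → Ideal B)
    [hP : ∀ k, (P k).IsPrime] (hh : ∀ k, (P k).height = 1) (hinc : ∀ j k, P j ≤ P k → j = k)
    (x : κ → K)
    (hx : ∀ k, (H56.valuationSubringAt (K := K) (P k) (hh k)).valuation (x k) = 1) :
    ∃ Ψ : K, Ψ ≠ 0 ∧ ∀ k, (H56.valuationSubringAt (K := K) (P k) (hh k)).valuation Ψ = 1 ∧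
      H47.OneU (H56.valuationSubringAt (K := K) (P k) (hh k)) (Ψ / x k) := by
  classical
  have := Fintype.ofFinite κ
  have hx' : ∀ k, H56.IsUnitAt (P k) (x k) := fun k => (H56.valuation_eq_one_iff (hh k)).mp (hx k)
  choose a s ha hs hxs using hx'
  -- separating elements
  have hsep : ∀ j k, ∃ p : B, j ≠ k → (p ∈ P j ∧ p ∉ P k) := by
    intro j k
    by_cases hjk : j = k
    · exact ⟨0, fun h => absurd hjk h⟩
    · have : ¬ P j ≤ P k := fun h => hjk (hinc j k h)
      obtain ⟨p, hp1, hp2⟩ := SetLike.not_le_iff_exists.mp this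
      exact ⟨p, fun _ => ⟨hp1, hp2⟩⟩
  choose p hp using hsep
  set e : κ → B := fun k => ∏ j ∈ Finset.univ.erase k, p j k with he
  have he_not : ∀ k, e k ∉ P k := by
    intro k hmem
    rw [he] at hmem
    obtain ⟨j, hj, hjm⟩ := ((hP k).prod_mem_iff).mp hmem
    exact (hp j k (Finset.ne_of_mem_erase hj)).2 hjm
  have he_mem : ∀ i k, i ≠ k → e k ∈ P i := by
    intro i k hik
    have hdvd : p i k ∣ e k := Finset.dvd_prod_of_mem _ (Finset.mem_erase.mpr ⟨hik, Finset.mem_univ i⟩)
    obtain ⟨c, hc⟩ := hdvd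
    rw [hc]
    exact (P i).mul_mem_right c (hp i k hik).1
  set T : B := ∑ j, e j * s j with hT
  set A : B := ∑ j, e j * a j with hA
  have hsum_mem : ∀ (k : κ) (f : κ → B), (∑ j ∈ Finset.univ.erase k, e j * f j) ∈ P k := by
    intro k f
    refine (P k).sum_mem fun j hj => ?_
    exact (P k).mul_mem_right _ (he_mem k j (Finset.ne_of_mem_erase hj).symm)
  have hTk : ∀ k, T ∉ P k := by
    intro k hmem
    rw [hT, ← Finset.add_sum_erase _ _ (Finset.mem_univ k)] at hmem
    have h1 : e k * s k ∈ P k := by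
      have := (P k).sub_mem hmem (hsum_mem k s)
      rwa [add_sub_cancel_right] at this
    exact ((hP k).mem_or_mem h1).elim (he_not k) (hs k)
  have hAk : ∀ k, A ∉ P k := by
    intro k hmem
    rw [hA, ← Finset.add_sum_erase _ _ (Finset.mem_univ k)] at hmem
    have h1 : e k * a k ∈ P k := by
      have := (P k).sub_mem hmem (hsum_mem k a)
      rwa [add_sub_cancel_right] at this
    exact ((hP k).mem_or_mem h1).elim (he_not k) (ha k)
  have hdiff : ∀ k, A * s k - a k * T ∈ P k := by
    intro k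
    have h1 : A * s k - a k * T = ∑ j, e j * (a j * s k - a k * s j) := by
      rw [hA, hT, Finset.sum_mul, Finset.mul_sum, ← Finset.sum_sub_distrib]
      exact Finset.sum_congr rfl fun j _ => by ring
    rw [h1, ← Finset.add_sum_erase _ _ (Finset.mem_univ k)]
    refine (P k).add_mem ?_ (hsum_mem k _)
    have : a k * s k - a k * s k = 0 := sub_self _
    rw [this, mul_zero]
    exact (P k).zero_mem
  have hinj := IsFractionRing.injective B K
  have hne : ∀ (k : κ) (b : B), b ∉ P k → algebraMap B K b ≠ 0 := by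
    intro k b hb h0
    have : b = 0 := hinj (by rw [h0, map_zero])
    exact hb (this ▸ (P k).zero_mem)
  rcases isEmpty_or_nonempty κ with hκ | ⟨⟨k₀⟩⟩
  · exact ⟨1, one_ne_zero, fun k => (hκ.false k).elim⟩
  have hT0 : algebraMap B K T ≠ 0 := hne k₀ T (hTk k₀)
  have hA0 : algebraMap B K A ≠ 0 := hne k₀ A (hAk k₀)
  refine ⟨algebraMap B K A / algebraMap B K T, div_ne_zero hA0 hT0, fun k => ⟨?_, ?_⟩⟩
  · rw [H56.valuation_eq_one_iff]
    exact ⟨A, T, hAk k, hTk k, by rw [div_mul_cancel₀ _ hT0]⟩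
  · have hs0 : algebraMap B K (s k) ≠ 0 := hne k _ (hs k)
    have ha0 : algebraMap B K (a k) ≠ 0 := hne k _ (ha k)
    have hxk : x k = algebraMap B K (a k) / algebraMap B K (s k) := by
      rw [eq_div_iff hs0]; exact hxs k
    have hkey : algebraMap B K A / algebraMap B K T / x k - 1
        = algebraMap B K (A * s k - a k * T) / algebraMap B K (a k * T) := by
      rw [hxk, map_sub, map_mul, map_mul]
      field_simp
    unfold H47.OneU
    rw [hkey, map_div₀]
    have h1 : (H56.valuationSubringAt (K := K) (P k) (hh k)).valuation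
        (algebraMap B K (a k * T)) = 1 := by
      rw [H56.valuation_eq_one_iff]
      exact H56.isUnitAt_algebraMap (fun h => ((hP k).mem_or_mem h).elim (ha k) (hTk k))
        (hP k).ne_top
    rw [h1, div_one]
    exact (H56.algebraMap_mem_nonunits_iff (hh k) _).mpr (hdiff k)

/-- **Merging the per-component roots.**  If `u ≡ G_k ^ m` at `V k` with `G_k` a unit of `V k`, for
every `k`, then there is ONE `G`, a unit of every `V k`, with `u ≡ G ^ m` at every `V k`. -/
theorem exists_simultaneous_root {κ : Type*} [Finite κ] (P : κ → Ideal B)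
    [hP : ∀ k, (P k).IsPrime] (hh : ∀ k, (P k).height = 1) (hinc : ∀ j k, P j ≤ P k → j = k)
    (u : K) (m : ℕ)
    (hG : ∀ k, ∃ G : K, (H56.valuationSubringAt (K := K) (P k) (hh k)).valuation G = 1 ∧
      H47.OneU (H56.valuationSubringAt (K := K) (P k) (hh k)) (u / G ^ m)) :
    ∃ G : K, G ≠ 0 ∧ (∀ k, (H56.valuationSubringAt (K := K) (P k) (hh k)).valuation G = 1) ∧
      ∀ k, H47.OneU (H56.valuationSubringAt (K := K) (P k) (hh k)) (u / G ^ m) := by
  choose G hGV hGu using hG
  obtain ⟨Ψ, hΨ0, hΨ⟩ := exists_simultaneous_approx P hh hinc G hGV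
  refine ⟨Ψ, hΨ0, fun k => (hΨ k).1, fun k => ?_⟩
  have hGk0 : G k ≠ 0 := by
    intro h0
    have := hGV k
    rw [h0, map_zero] at this
    exact zero_ne_one this
  have hkey : u / Ψ ^ m = u / G k ^ m * ((Ψ / G k)⁻¹) ^ m := by
    rw [inv_pow, div_pow]
    field_simp
  rw [hkey]
  exact (hGu k).mul (((hΨ k).2.inv).pow m)

/-! ### `(fix)` in the shape of `H46.FrobModel.hnode` -/

section Fix

variable {R F : Type*} [CommRing R] [Field F] [Algebra R F] {S : Subring F}

/-- At a `Φ`-fixed point with residue field `R / π` on which `Φ` is the `Q`-Frobenius: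
`Φ ℓ - ℓ ^ Q` is a non-unit, for every unit `ℓ` of the local ring. -/
theorem not_unitIn_frob_sub_pow (hS : IsLoc S) {Φ : F ≃+* F} {Q : ℕ} {π : R}
    (hΦS : ∀ x, Φ x ∈ S ↔ x ∈ S) (hRS : ∀ r : R, algebraMap R F r ∈ S)
    (hπ : ¬ H47.UnitIn S (algebraMap R F π))
    (hrat : ∀ x ∈ S, ∃ r : R, ¬ H47.UnitIn S (x - algebraMap R F r))
    (hFrob : ∀ r : R, ∃ s : R, Φ (algebraMap R F r) = algebraMap R F (r ^ Q + π * s))
    {ℓ : F} (hℓ : H47.UnitIn S ℓ) : ¬ H47.UnitIn S (Φ ℓ - ℓ ^ Q) := by
  have h := not_unitIn_frob_ratio hS hΦS hRS hπ hrat hFrob hℓ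
  have hpow := hℓ.pow Q
  have hmem : Φ ℓ / ℓ ^ Q - 1 ∈ S := by
    refine S.sub_mem ?_ S.one_mem
    rw [div_eq_mul_inv]
    exact S.mul_mem ((hΦS _).mpr hℓ.1) hpow.2.1
  have hkey : Φ ℓ - ℓ ^ Q = (Φ ℓ / ℓ ^ Q - 1) * ℓ ^ Q := by
    have := hpow.2.2
    field_simp
  rw [hkey]
  exact not_unitIn_mul hmem hpow.1 h

end Fix

end Fermat.Agent.S35.H62
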