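/-
S35, second clause, node (E3) (helper46): the chart form of `hG`.

`B` a chart (noetherian integrally closed domain, `Frac B = F`), `P : Bool → Ideal B` its two
vertical primes (height one), `Pinf P0 : CA.H99.PlaceOver ..` the two L0 places of `F`, identified
with the valuation rings of `P true`, `P false` by helper84's bridge
(`H84.valuationSubringAt_eq_place`).  Conclusion: ONE `G ≠ 0` with
`OneU (H56.valuationSubringAt (P j)) (u₂ / G ^ m)` for both `j` — verbatim the inputs `hG0 hG` of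
`H46.exists_const_mul_pow_of_threeRatios` at `V j := H56.valuationSubringAt (P j) (hh j)`,
`Φ := Ψ`, `u₁ := Ψ f / f`.
-/
import Mathlib
import Fermat.Agent.S35.H46_G3Inst
import Fermat.Agent.S35.H84_VertPlace
import Fermat.Agent.S35.H62_Approx

set_option autoImplicit false

namespace Fermat.Agent.S35.H46

open Fermat.Agent.S34 Fermat.Agent.S34.H47 Fermat.Agent.CA.H99

/-- The `ResPlace` of a `PlaceOver` (definitionally `ResPlace.mk P.O1 P.res1 P.inv_mem`, the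
literal form used by helper16's `g2alpha_gen / g2beta_gen`). -/
def ofPlaceOver {O : Type*} [CommRing O] {L : Type*} [Field L] [Algebra O L] {Fk : Type*}
    [Field Fk] {ϖ : O} {θ : L} {ι : O →+* Fk} {θb : Fk} (P : PlaceOver ϖ θ ι θb) :
    ResPlace L Fk :=
  ResPlace.mk P.O1 P.res1 P.inv_mem

section Chart

variable {B F : Type*} [CommRing B] [IsDomain B] [Field F] [Algebra B F] [IsFractionRing B F]
  [IsNoetherianRing B] [IsIntegrallyClosed B]
  {FM κF k : Type*} [Field FM] [Field κF] [Field k]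
  {O₁ : Type*} [CommRing O₁] [Algebra O₁ F] {O₂ : Type*} [CommRing O₂] [Algebra O₂ F]
  {ϖ₁ : O₁} {θ₁ : F} {ι₁ : O₁ →+* κF} {θb₁ : κF} {ϖ₂ : O₂} {θ₂ : F} {ι₂ : O₂ →+* κF} {θb₂ : κF}

/-- **(E3), chart form.** -/
theorem exists_hG_of_places (P : Bool → Ideal B) [hP : ∀ j, (P j).IsPrime]
    (hh : ∀ j, (P j).height = 1) (hinc : ∀ i j, P i ≤ P j → i = j)
    (Pinf : PlaceOver ϖ₁ θ₁ ι₁ θb₁) (P0 : PlaceOver ϖ₂ θ₂ ι₂ θb₂)
    (hBinf : ∀ b : B, algebraMap B F b ∈ Pinf.O1)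
    (hredinf : ∀ b : B, b ∈ P true ↔ Pinf.res1 ⟨algebraMap B F b, hBinf b⟩ = 0)
    (hB0 : ∀ b : B, algebraMap B F b ∈ P0.O1)
    (hred0 : ∀ b : B, b ∈ P false ↔ P0.res1 ⟨algebraMap B F b, hB0 b⟩ = 0)
    {PM : ResPlace FM κF} (ιk : k →+* κF) (σk : k →+* k)
    (Ψ : F ≃+* F) (φb : κF →+* κF) (Nα Nβ : F →* FM) (m : ℕ)
    (hkroot : ∀ c : kˣ, ∃ c0 : kˣ, c0 ^ m = c)
    (hφbk : ∀ c : k, φb (ιk c) = ιk (σk c))
    (hkinf : ∀ c : kˣ, Units.map (ιk : k →* κF) c ∈ (ofPlaceOver Pinf).resUnits)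
    (hk0 : ∀ c : kˣ, Units.map (ιk : k →* κF) c ∈ (ofPlaceOver P0).resUnits)
    (hMinf : ∀ t ∈ PM.resUnits, t ∈ (ofPlaceOver Pinf).resUnits)
    (hM0 : ∀ t ∈ PM.resUnits, t ∈ (ofPlaceOver P0).resUnits)
    (hφbM : ∀ t ∈ PM.resUnits, Units.map (φb : κF →* κF) t ∈ PM.resUnits)
    (hΨinf : ∀ y s, (ofPlaceOver Pinf).HasRes y s →
      (ofPlaceOver Pinf).HasRes (Ψ y) (Units.map (φb : κF →* κF) (Units.map (φb : κF →* κF) s)))
    (hΨ0 : ∀ y s, (ofPlaceOver P0).HasRes y s →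
      (ofPlaceOver P0).HasRes (Ψ y) (Units.map (φb : κF →* κF) (Units.map (φb : κF →* κF) s)))
    (g2α : ∀ u sinf s0, (ofPlaceOver Pinf).HasRes u sinf → (ofPlaceOver P0).HasRes u s0 →
      PM.HasRes (Nα u) (sinf * Units.map (φb : κF →* κF) s0))
    (g2β : ∀ u sinf s0, (ofPlaceOver Pinf).HasRes u sinf → (ofPlaceOver P0).HasRes u s0 →
      PM.HasRes (Nβ u) (Units.map (φb : κF →* κF) sinf * s0))
    {u₁ : F} (hu : ∀ j, (H56.valuationSubringAt (K := F) (P j) (hh j)).valuation u₁ = 1)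
    {sα sβ : κFˣ} (hα : PM.HasRes (Nα u₁) sα) (hβ : PM.HasRes (Nβ u₁) sβ)
    (hsα : sα ∈ kummerS ιk PM m) (hsβ : sβ ∈ kummerS ιk PM m) :
    ∃ G : F, G ≠ 0 ∧
      (∀ j, (H56.valuationSubringAt (K := F) (P j) (hh j)).valuation G = 1) ∧
      ∀ j, OneU (H56.valuationSubringAt (K := F) (P j) (hh j)) ((Ψ u₁ / u₁) / G ^ m) := by
  have e1 : H56.valuationSubringAt (K := F) (P true) (hh true) = Pinf.toValuationSubring :=
    H84.valuationSubringAt_eq_place Pinf (P true) (hh true) hBinf hredinf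
  have e0 : H56.valuationSubringAt (K := F) (P false) (hh false) = P0.toValuationSubring :=
    H84.valuationSubringAt_eq_place P0 (P false) (hh false) hB0 hred0
  have key := g3_roots_oneU (Pinf := ofPlaceOver Pinf) (P0 := ofPlaceOver P0) (PM := PM)
    (fun j => H56.valuationSubringAt (K := F) (P j) (hh j))
    (fun y => by rw [e1]; exact Iff.rfl) (fun y => by rw [e0]; exact Iff.rfl)
    (fun y hy h0 => by
      rw [e1]
      exact (H84.place_valuation_lt_one_iff Pinf y).mpr ⟨hy, h0⟩)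
    (fun y hy h0 => by
      rw [e0]
      exact (H84.place_valuation_lt_one_iff P0 y).mpr ⟨hy, h0⟩)
    ιk σk Ψ φb Nα Nβ m hkroot hφbk hkinf hk0 hMinf hM0 hφbM hΨinf hΨ0 g2α g2β
    (hu true) (hu false) hα hβ hsα hsβ
  exact H62.exists_simultaneous_root P hh hinc (Ψ u₁ / u₁) m key

end Chart

end Fermat.Agent.S35.H46
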