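/-
S35 project (helper45), node (E3) of the G-side integration map: the two norm-equivariance lemmas
for the coefficientwise Galois action, and the constants.

* `coeffMap_qExpand` : coefficient maps commute with the substitution `t ↦ t ^ n`;
* `coeffRingAut_degAlgebra`, `coeffRingAut_vAlgebra` : the coefficientwise automorphism
  `S37.H53.coeffRingAut K · s` commutes with the two structure maps `F_M → F_N`
  (`S34.H16.degAlgebra` = inclusion, `S35.H16.vAlgebra` = `V_q`);
* `norm_coeffRingAut_degAlgebra`, `norm_coeffRingAut_vAlgebra` :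
  `N_{F_N/F_M} (s x) = s (N_{F_N/F_M} x)` for both structures;
* `norm_galActFullC_degAlgebra`, `norm_galActFullC_vAlgebra` : the instances at
  `S18.H45.galActFullC`;
* `associated_galActCutOver_self`, `exists_unit_galActE_eq_mul`, `galActFullC_algebraMap_eq_unit_mul` :
  a decomposition-group element multiplies a nonzero constant `c ∈ E` by a unit of `A'' = A ∩ E`.
-/
import Mathlib
import Fermat.Agent.S18.H45_DecompChart
import Fermat.Agent.S34.H16_RelDeg
import Fermat.Agent.S35.H16_RelDegV

set_option autoImplicit false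
set_option linter.unusedSectionVars false
set_option linter.style.haveILetI false
set_option synthInstance.maxHeartbeats 400000

namespace Fermat.Agent.S35.H45

open ModularCurve HahnSeries IsLocalRing
open Fermat.Agent.S18.H45

noncomputable section

/-! ### coefficient maps and `t ↦ t ^ n` -/

theorem coeffMap_qExpand {R S : Type*} [CommRing R] [CommRing S] (f : R →+* S) (n : ℕ) [NeZero n]
    (x : LaurentSeries R) : coeffMap f (qExpand R n x) = qExpand S n (coeffMap f x) := by
  ext k
  by_cases hk : (n : ℤ) ∣ k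
  · obtain ⟨m, rfl⟩ := hk
    rw [coeffMap_coeff, qExpand_coeff_mul, qExpand_coeff_mul, coeffMap_coeff]
  · rw [coeffMap_coeff, qExpand_coeff_of_not_dvd n _ hk, qExpand_coeff_of_not_dvd n _ hk,
      map_zero]

/-! ### the two structure maps `F_M → F_N` are equivariant -/

section Generic

variable (K : Type) [Field K] (M N : ℕ) [NeZero M] [NeZero N] (s : K ≃+* K)

/-- The coefficientwise automorphism commutes with the inclusion `F_M ⊆ F_N`. -/
theorem coeffRingAut_degAlgebra (h : M ∣ N) (x : modularFunctionFieldFullC K M) :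
    letI := S34.H16.degAlgebra K M N h
    S37.H53.coeffRingAut K N s
        (algebraMap (modularFunctionFieldFullC K M) (modularFunctionFieldFullC K N) x) =
      algebraMap (modularFunctionFieldFullC K M) (modularFunctionFieldFullC K N)
        (S37.H53.coeffRingAut K M s x) := by
  letI := S34.H16.degAlgebra K M N h
  apply Subtype.ext
  rw [S37.H53.coe_coeffRingAut_apply, S34.H16.degAlgebra_algebraMap_coe,
    S34.H16.degAlgebra_algebraMap_coe, S37.H53.coe_coeffRingAut_apply]

/-- The coefficientwise automorphism commutes with `V_q : F_M → F_N`. -/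
theorem coeffRingAut_vAlgebra (q : ℕ) [NeZero q] (h : q * M ∣ N)
    (x : modularFunctionFieldFullC K M) :
    letI := S35.H16.vAlgebra K q M N h
    S37.H53.coeffRingAut K N s
        (algebraMap (modularFunctionFieldFullC K M) (modularFunctionFieldFullC K N) x) =
      algebraMap (modularFunctionFieldFullC K M) (modularFunctionFieldFullC K N)
        (S37.H53.coeffRingAut K M s x) := by
  letI := S35.H16.vAlgebra K q M N h
  apply Subtype.ext
  rw [S37.H53.coe_coeffRingAut_apply, S35.H16.vAlgebra_algebraMap_coe,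
    S35.H16.vAlgebra_algebraMap_coe, S37.H53.coe_coeffRingAut_apply, coeffMap_qExpand]

/-- **Norm equivariance, inclusion structure**: `N_{F_N/F_M} (s x) = s (N_{F_N/F_M} x)`. -/
theorem norm_coeffRingAut_degAlgebra (h : M ∣ N) (x : modularFunctionFieldFullC K N) :
    letI := S34.H16.degAlgebra K M N h
    Algebra.norm (modularFunctionFieldFullC K M) (S37.H53.coeffRingAut K N s x) =
      S37.H53.coeffRingAut K M s (Algebra.norm (modularFunctionFieldFullC K M) x) := by
  letI := S34.H16.degAlgebra K M N h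
  have he : RingHom.comp
      (algebraMap (modularFunctionFieldFullC K M) (modularFunctionFieldFullC K N))
      (S37.H53.coeffRingAut K M s : modularFunctionFieldFullC K M →+* modularFunctionFieldFullC K M) =
      RingHom.comp
        (S37.H53.coeffRingAut K N s : modularFunctionFieldFullC K N →+* modularFunctionFieldFullC K N)
        (algebraMap (modularFunctionFieldFullC K M) (modularFunctionFieldFullC K N)) :=
    RingHom.ext fun y => (coeffRingAut_degAlgebra K M N s h y).symm
  have h1 := Algebra.norm_eq_of_equiv_equiv (S37.H53.coeffRingAut K M s)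
    (S37.H53.coeffRingAut K N s) he x
  rw [h1, RingEquiv.apply_symm_apply]

/-- **Norm equivariance, `V_q` structure**: `N_{F_N/V_q F_M} (s x) = s (N_{F_N/V_q F_M} x)`. -/
theorem norm_coeffRingAut_vAlgebra (q : ℕ) [NeZero q] (h : q * M ∣ N)
    (x : modularFunctionFieldFullC K N) :
    letI := S35.H16.vAlgebra K q M N h
    Algebra.norm (modularFunctionFieldFullC K M) (S37.H53.coeffRingAut K N s x) =
      S37.H53.coeffRingAut K M s (Algebra.norm (modularFunctionFieldFullC K M) x) := by
  letI := S35.H16.vAlgebra K q M N h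
  have he : RingHom.comp
      (algebraMap (modularFunctionFieldFullC K M) (modularFunctionFieldFullC K N))
      (S37.H53.coeffRingAut K M s : modularFunctionFieldFullC K M →+* modularFunctionFieldFullC K M) =
      RingHom.comp
        (S37.H53.coeffRingAut K N s : modularFunctionFieldFullC K N →+* modularFunctionFieldFullC K N)
        (algebraMap (modularFunctionFieldFullC K M) (modularFunctionFieldFullC K N)) :=
    RingHom.ext fun y => (coeffRingAut_vAlgebra K M N s q h y).symm
  have h1 := Algebra.norm_eq_of_equiv_equiv (S37.H53.coeffRingAut K M s)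
    (S37.H53.coeffRingAut K N s) he x
  rw [h1, RingEquiv.apply_symm_apply]

end Generic

/-! ### the instances at `galActFullC` -/

section Concrete

local notation "Qbar" => AlgebraicClosure ℚ

variable {A : ValuationSubring Qbar} {ℓ : ℕ} (hℓ : ℓ.Prime) (hA : A.LiesOverPrime ℓ)
variable (E : IntermediateField (unrCyclo ℓ) Qbar)
variable (hE : ∀ (τ : Qbar ≃ₐ[ℚ] Qbar) (x : Qbar), x ∈ E → τ x ∈ E)
variable (M N : ℕ) [NeZero M] [NeZero N]

theorem galActFullC_degAlgebra (h : M ∣ N) (τ : Qbar ≃ₐ[ℚ] Qbar)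
    (x : modularFunctionFieldFullC ↥E M) :
    letI := S34.H16.degAlgebra ↥E M N h
    galActFullC E hE N τ
        (algebraMap (modularFunctionFieldFullC ↥E M) (modularFunctionFieldFullC ↥E N) x) =
      algebraMap (modularFunctionFieldFullC ↥E M) (modularFunctionFieldFullC ↥E N)
        (galActFullC E hE M τ x) :=
  coeffRingAut_degAlgebra ↥E M N (galActE E hE τ) h x

theorem galActFullC_vAlgebra (q : ℕ) [NeZero q] (h : q * M ∣ N) (τ : Qbar ≃ₐ[ℚ] Qbar)
    (x : modularFunctionFieldFullC ↥E M) :
    letI := S35.H16.vAlgebra ↥E q M N h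
    galActFullC E hE N τ
        (algebraMap (modularFunctionFieldFullC ↥E M) (modularFunctionFieldFullC ↥E N) x) =
      algebraMap (modularFunctionFieldFullC ↥E M) (modularFunctionFieldFullC ↥E N)
        (galActFullC E hE M τ x) :=
  coeffRingAut_vAlgebra ↥E M N (galActE E hE τ) q h x

/-- `N_{F_N/F_M} (Φ_N x) = Φ_M (N_{F_N/F_M} x)` for `Φ = galActFullC τ`, inclusion structure. -/
theorem norm_galActFullC_degAlgebra (h : M ∣ N) (τ : Qbar ≃ₐ[ℚ] Qbar)
    (x : modularFunctionFieldFullC ↥E N) :
    letI := S34.H16.degAlgebra ↥E M N h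
    Algebra.norm (modularFunctionFieldFullC ↥E M) (galActFullC E hE N τ x) =
      galActFullC E hE M τ (Algebra.norm (modularFunctionFieldFullC ↥E M) x) :=
  norm_coeffRingAut_degAlgebra ↥E M N (galActE E hE τ) h x

/-- `N_{F_N/V_q F_M} (Φ_N x) = Φ_M (N_{F_N/V_q F_M} x)` for `Φ = galActFullC τ`, `V_q` structure. -/
theorem norm_galActFullC_vAlgebra (q : ℕ) [NeZero q] (h : q * M ∣ N) (τ : Qbar ≃ₐ[ℚ] Qbar)
    (x : modularFunctionFieldFullC ↥E N) :
    letI := S35.H16.vAlgebra ↥E q M N h
    Algebra.norm (modularFunctionFieldFullC ↥E M) (galActFullC E hE N τ x) =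
      galActFullC E hE M τ (Algebra.norm (modularFunctionFieldFullC ↥E M) x) :=
  norm_coeffRingAut_vAlgebra ↥E M N (galActE E hE τ) q h x

/-! ### constants: `φ c / c` is a unit of `A'' = A ∩ E` -/

include hℓ hA in
/-- A decomposition-group element maps every element of the DVR `A ∩ E` to an associated one. -/
theorem associated_galActCutOver_self [FiniteDimensional (unrCyclo ℓ) E] (φ : Qbar ≃ₐ[ℚ] Qbar)
    (hφ : φ ∈ A.decompositionSubgroup ℚ) (x : cutOver A E) :
    Associated (galActCutOver E hE φ hφ x) x := by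
  haveI := isDiscreteValuationRing_cutOver hℓ hA E
  by_cases hx0 : x = 0
  · rw [hx0, map_zero]
  obtain ⟨π, hπ⟩ := IsDiscreteValuationRing.exists_irreducible (cutOver A E)
  have hmax : maximalIdeal (cutOver A E) = Ideal.span {π} :=
    (IsDiscreteValuationRing.irreducible_iff_uniformizer π).mp hπ
  obtain ⟨n, u, hu⟩ := IsDiscreteValuationRing.eq_unit_mul_pow_irreducible hx0 hπ
  have h1 : Associated (galActCutOver E hE φ hφ (u : cutOver A E)) (u : cutOver A E) :=
    (associated_one_iff_isUnit.mpr (u.isUnit.map (galActCutOver E hE φ hφ))).trans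
      (associated_one_iff_isUnit.mpr u.isUnit).symm
  have h2 : Associated (galActCutOver E hE φ hφ π ^ n) (π ^ n) :=
    (associated_galActCutOver E hE φ hφ hmax).pow_pow
  rw [hu, map_mul, map_pow]
  exact h1.mul_mul h2

include hℓ hA in
/-- A decomposition-group element multiplies a nonzero constant `c ∈ E` by a unit of `A ∩ E`. -/
theorem exists_unit_galActE_eq_mul [FiniteDimensional (unrCyclo ℓ) E] (φ : Qbar ≃ₐ[ℚ] Qbar)
    (hφ : φ ∈ A.decompositionSubgroup ℚ) (c : ↥E) (hc : c ≠ 0) :
    ∃ u : (cutOver A E)ˣ, galActE E hE φ c = (((u : (cutOver A E)ˣ) : cutOver A E) : ↥E) * c := by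
  obtain ⟨x, y, hy, rfl⟩ := IsFractionRing.div_surjective (A := cutOver A E) c
  have hy0 : y ≠ 0 := nonZeroDivisors.ne_zero hy
  obtain ⟨u₁, hu₁⟩ := associated_galActCutOver_self hℓ hA E hE φ hφ x
  obtain ⟨u₂, hu₂⟩ := associated_galActCutOver_self hℓ hA E hE φ hφ y
  have hyE : ((y : cutOver A E) : ↥E) ≠ 0 := fun h0 => hy0 (Subtype.ext h0)
  have hgy0 : ((galActCutOver E hE φ hφ y : cutOver A E) : ↥E) ≠ 0 := by
    intro h0
    have h1 : galActCutOver E hE φ hφ y = 0 := Subtype.ext h0
    exact hy0 ((map_eq_zero_iff _ (galActCutOver E hE φ hφ).injective).mp h1)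
  have hx' : ((x : cutOver A E) : ↥E) =
      ((galActCutOver E hE φ hφ x : cutOver A E) : ↥E) * (((u₁ : (cutOver A E)ˣ) : cutOver A E) : ↥E) :=
    (congrArg (fun z : cutOver A E => (z : ↥E)) hu₁).symm
  have hy' : ((y : cutOver A E) : ↥E) =
      ((galActCutOver E hE φ hφ y : cutOver A E) : ↥E) * (((u₂ : (cutOver A E)ˣ) : cutOver A E) : ↥E) :=
    (congrArg (fun z : cutOver A E => (z : ↥E)) hu₂).symm
  have hu₁0 : (((u₁ : (cutOver A E)ˣ) : cutOver A E) : ↥E) ≠ 0 := fun h0 =>
    u₁.ne_zero (Subtype.ext h0)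
  have hu₂0 : (((u₂ : (cutOver A E)ˣ) : cutOver A E) : ↥E) ≠ 0 := fun h0 =>
    u₂.ne_zero (Subtype.ext h0)
  have hu₁inv : ((((u₁⁻¹ : (cutOver A E)ˣ)) : cutOver A E) : ↥E) =
      ((((u₁ : (cutOver A E)ˣ) : cutOver A E) : ↥E))⁻¹ := by
    apply eq_inv_of_mul_eq_one_left
    have h1 : (((u₁⁻¹ : (cutOver A E)ˣ) : cutOver A E) * ((u₁ : (cutOver A E)ˣ) : cutOver A E)) = 1 :=
      Units.inv_mul u₁
    exact congrArg (fun z : cutOver A E => (z : ↥E)) h1
  refine ⟨u₂ * u₁⁻¹, ?_⟩
  have hφc : galActE E hE φ (algebraMap (cutOver A E) ↥E x / algebraMap (cutOver A E) ↥E y) =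
      ((galActCutOver E hE φ hφ x : cutOver A E) : ↥E) /
        ((galActCutOver E hE φ hφ y : cutOver A E) : ↥E) := by
    rw [map_div₀]
    rfl
  rw [hφc]
  have hxy : algebraMap (cutOver A E) ↥E x / algebraMap (cutOver A E) ↥E y =
      ((x : cutOver A E) : ↥E) / ((y : cutOver A E) : ↥E) := rfl
  rw [hxy, hx', hy', Units.val_mul]
  have hmul : (((((u₂ : (cutOver A E)ˣ) : cutOver A E) * ((u₁⁻¹ : (cutOver A E)ˣ) : cutOver A E) :
      cutOver A E)) : ↥E) = (((u₂ : (cutOver A E)ˣ) : cutOver A E) : ↥E) *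
        ((((u₁⁻¹ : (cutOver A E)ˣ)) : cutOver A E) : ↥E) := rfl
  rw [hmul, hu₁inv]
  field_simp

include hℓ hA in
/-- The same on the constants of `F_E = E(j, j_M)`. -/
theorem galActFullC_algebraMap_eq_unit_mul [FiniteDimensional (unrCyclo ℓ) E]
    (φ : Qbar ≃ₐ[ℚ] Qbar) (hφ : φ ∈ A.decompositionSubgroup ℚ) (c : ↥E) (hc : c ≠ 0) :
    ∃ u : (cutOver A E)ˣ,
      galActFullC E hE M φ (algebraMap ↥E (modularFunctionFieldFullC ↥E M) c) =
        algebraMap ↥E (modularFunctionFieldFullC ↥E M)
          ((((u : (cutOver A E)ˣ) : cutOver A E) : ↥E) * c) := by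
  obtain ⟨u, hu⟩ := exists_unit_galActE_eq_mul hℓ hA E hE φ hφ c hc
  exact ⟨u, by rw [galActFullC_algebraMap, hu]⟩

end Concrete

end

end Fermat.Agent.S35.H45
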