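/-
S35, second clause, node (E3) (helper46): the level-`M` Gauss place at the `E`-level as a
`ResPlace`, and the inputs of `H46.g3_roots_oneU / exists_hG_of_places` that only involve it:

* `gaussResPlaceE`            : `PM` (`O1 = VME`, `res = resME`; helper92's `S35.H92.VME`);
* `map_coeffMap_mem_resUnits` : `hφbM` (the residue field of `PM` is stable under the
  coefficientwise Frobenius; helper92's `resME_galActFullC_of_isFrobeniusAt`);
* `coeffMap_C_eq`, `exists_pow_eq_units` : `hφbk`, `hkroot`;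
* `C_mem_resUnits`            : constants are residues of `PM`;
* `galVME`, `exists_unit_galVME_uniformizer` : `ΦO`, `hΦϖ` of helper16's `halpha_twice / hbeta_twice`;
* `hasRes_const_ratio_twice`  : `hc` / `hrc` (the residue of `ΨM c / c`, `c ∈ Eˣ`, is a constant);
* `exists_mem_kummerS_alpha / _beta` : `hα hsα` / `hβ hsβ` from the two norm hypotheses of
  `H18.GeoFnE'`, with `S = kummerS C gaussResPlaceE m`.
-/
import Mathlib
import Fermat.Agent.S35.H46_G3Inst
import Fermat.Agent.S35.H46_RatioUnit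
import Fermat.Agent.S35.H92_GaussLevelMEAut
import Fermat.Agent.S35.H16_G3AlphaBetaRes
import Fermat.Agent.S35.H45_NormEquiv

set_option autoImplicit false
set_option linter.unusedSectionVars false
set_option linter.style.haveILetI false
set_option synthInstance.maxHeartbeats 400000

noncomputable section

namespace Fermat.Agent.S35.H46

open ModularCurve IsLocalRing
open Fermat.Agent.S18 Fermat.Agent.S35.H92

local notation "Qbar" => AlgebraicClosure ℚ

/-! ### generic: an automorphism preserving a DVR multiplies the uniformiser by a unit -/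

section Generic

variable {F : Type*} [Field F]

/-- `Ψ ϖ / ϖ ∈ V` for an automorphism preserving the valuation ring `V` with maximal ideal `(ϖ)`. -/
theorem map_uniformizer_div_mem (V : ValuationSubring F) (Ψ : F ≃+* F)
    (hΨV : ∀ x, Ψ x ∈ V ↔ x ∈ V) {ϖ : V}
    (hmax : IsLocalRing.maximalIdeal V = Ideal.span {ϖ}) (hϖ0 : (ϖ : F) ≠ 0) :
    Ψ (ϖ : F) / (ϖ : F) ∈ V := by
  have h1 : V.valuation (ϖ : F) < 1 := by
    rw [← V.valuation_lt_one_iff, hmax]
    exact Ideal.mem_span_singleton_self ϖ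
  have h2 : V.valuation (Ψ (ϖ : F)) < 1 := valuation_map_lt_one hΨV h1
  have h3 : Ψ (ϖ : F) ∈ V := (V.valuation_le_one_iff _).mp h2.le
  have h4 : (⟨Ψ (ϖ : F), h3⟩ : V) ∈ IsLocalRing.maximalIdeal V :=
    (V.valuation_lt_one_iff ⟨_, h3⟩).mpr h2
  rw [hmax, Ideal.mem_span_singleton'] at h4
  obtain ⟨a, ha⟩ := h4
  have h5 : Ψ (ϖ : F) = (a : F) * (ϖ : F) := (congrArg Subtype.val ha).symm
  rw [h5, mul_div_assoc, div_self hϖ0, mul_one]
  exact a.2

/-- **`Φ ϖ / ϖ` is a unit of `V`.** -/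
theorem valuation_map_uniformizer_div (V : ValuationSubring F) (Φ : F ≃+* F)
    (hΦV : ∀ x, Φ x ∈ V ↔ x ∈ V) {ϖ : V}
    (hmax : IsLocalRing.maximalIdeal V = Ideal.span {ϖ}) (hϖ0 : (ϖ : F) ≠ 0) :
    V.valuation (Φ (ϖ : F) / (ϖ : F)) = 1 := by
  have hΦ0 : Φ (ϖ : F) ≠ 0 := (map_ne_zero Φ).mpr hϖ0
  have hsymm : ∀ x, Φ.symm x ∈ V ↔ x ∈ V := by
    intro x
    have := hΦV (Φ.symm x)
    rw [RingEquiv.apply_symm_apply] at this
    exact this.symm
  have h1 := map_uniformizer_div_mem V Φ hΦV hmax hϖ0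
  have h2 := map_uniformizer_div_mem V Φ.symm hsymm hmax hϖ0
  have h3 : Φ (Φ.symm (ϖ : F) / (ϖ : F)) ∈ V := (hΦV _).mpr h2
  rw [map_div₀, RingEquiv.apply_symm_apply] at h3
  have hle : V.valuation (Φ (ϖ : F) / (ϖ : F)) ≤ 1 := (V.valuation_le_one_iff _).mpr h1
  have hge : V.valuation ((ϖ : F) / Φ (ϖ : F)) ≤ 1 := (V.valuation_le_one_iff _).mpr h3
  have hinv : (ϖ : F) / Φ (ϖ : F) = (Φ (ϖ : F) / (ϖ : F))⁻¹ := by rw [inv_div]
  rw [hinv, map_inv₀] at hge
  have hv0 : 0 < V.valuation (Φ (ϖ : F) / (ϖ : F)) :=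
    zero_lt_iff.mpr ((Valuation.ne_zero_iff _).mpr (div_ne_zero hΦ0 hϖ0))
  exact le_antisymm hle ((inv_le_one₀ hv0).mp hge)

/-- the same as a unit of `V`. -/
theorem exists_unit_map_uniformizer (V : ValuationSubring F) (Φ : F ≃+* F)
    (hΦV : ∀ x, Φ x ∈ V ↔ x ∈ V) {ϖ : V}
    (hmax : IsLocalRing.maximalIdeal V = Ideal.span {ϖ}) (hϖ0 : (ϖ : F) ≠ 0) :
    ∃ v : Vˣ, Φ (ϖ : F) = ((v : V) : F) * (ϖ : F) := by
  have h1 := valuation_map_uniformizer_div V Φ hΦV hmax hϖ0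
  have hmem : Φ (ϖ : F) / (ϖ : F) ∈ V := (V.valuation_le_one_iff _).mp h1.le
  have hu : IsUnit (⟨Φ (ϖ : F) / (ϖ : F), hmem⟩ : V) := (V.valuation_eq_one_iff _).mpr h1
  obtain ⟨v, hv⟩ := hu
  refine ⟨v, ?_⟩
  rw [hv]
  exact (div_mul_cancel₀ _ hϖ0).symm

end Generic

variable (M : ℕ) [NeZero M] {ℓ : ℕ} [hℓ : Fact ℓ.Prime] (hℓM : ¬ ℓ ∣ M)
  (A : ValuationSubring Qbar) (hA : A.LiesOverPrime ℓ)
  (E : IntermediateField (H45.unrCyclo ℓ) Qbar)

local notation "kA" => IsLocalRing.ResidueField A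
local notation "A₂" => H45.cutOver A E
set_option quotPrecheck false in
local notation "FME" => modularFunctionFieldFullC (↥E) M
set_option quotPrecheck false in
local notation "VE" => VME M hℓM A hA E

/-- The level-`M` Gauss place of `F_M(E)` as a `ResPlace`. -/
def gaussResPlaceE : ResPlace FME (LaurentSeries kA) where
  O1 := (VME M hℓM A hA E).toSubring
  res := resME M hℓM A hA E
  inv_mem := by
    intro y hy hne
    have hu : IsUnit (⟨y, hy⟩ : VE) := by
      by_contra h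
      exact hne ((resME_eq_zero_iff_not_isUnit M hℓM A hA E ⟨y, hy⟩).2 h)
    obtain ⟨w, hw⟩ := hu
    have h1 : ((w : VE) : FME) * (((w⁻¹ : VEˣ) : VE) : FME) = 1 := by
      have h0 : (w : VE) * ((w⁻¹ : VEˣ) : VE) = 1 := by
        rw [← Units.val_mul, mul_inv_cancel, Units.val_one]
      exact congrArg (fun z : VE => (z : FME)) h0
    rw [hw] at h1
    have h2 : y⁻¹ = (((w⁻¹ : VEˣ) : VE) : FME) := (eq_inv_of_mul_eq_one_right h1).symm ▸ rfl
    rw [h2]
    exact ((w⁻¹ : VEˣ) : VE).2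

theorem gaussResPlaceE_hasRes (n : VE) :
    ∃ h : algebraMap VE FME n ∈ (gaussResPlaceE M hℓM A hA E).O1,
      (gaussResPlaceE M hℓM A hA E).res ⟨_, h⟩ = resME M hℓM A hA E n :=
  ⟨n.2, rfl⟩

/-- a non-zero residue of an element of `VME` is a residue unit of the Gauss place. -/
theorem resME_mem_resUnits (n : VE) (t : (LaurentSeries kA)ˣ)
    (ht : resME M hℓM A hA E n = (t : LaurentSeries kA)) :
    t ∈ (gaussResPlaceE M hℓM A hA E).resUnits :=
  ⟨(n : FME), n.2, ht⟩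

/-- the residues of the units of `VME`. -/
theorem units_map_resME_mem_resUnits (w : VEˣ) :
    Units.map ((resME M hℓM A hA E : VE →+* LaurentSeries kA) : VE →* LaurentSeries kA) w ∈
      (gaussResPlaceE M hℓM A hA E).resUnits :=
  resME_mem_resUnits M hℓM A hA E (w : VE) _ rfl

/-! ### constants -/

/-- `hφbk`. -/
theorem coeffMap_C_eq (τ : kA →+* kA) (c : kA) :
    (coeffMap τ : LaurentSeries kA →+* LaurentSeries kA) (HahnSeries.C c) = HahnSeries.C (τ c) := by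
  rw [HahnSeries.C_apply, HahnSeries.C_apply, coeffMap_single]

/-- `hkroot`: the residue field of `A` is algebraically closed. -/
theorem exists_pow_eq_units {m : ℕ} (hm : 0 < m) (c : kAˣ) : ∃ c0 : kAˣ, c0 ^ m = c := by
  obtain ⟨z, hz⟩ := IsAlgClosed.exists_pow_nat_eq (c : kA) hm
  have hz0 : z ≠ 0 := by
    rintro rfl
    rw [zero_pow hm.ne'] at hz
    exact c.ne_zero hz.symm
  exact ⟨Units.mk0 z hz0, Units.ext (by rw [Units.val_pow_eq_pow_val, Units.val_mk0, hz])⟩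

/-- the residue of a constant unit: `resME (const a) = C (resE a)`. -/
theorem hasRes_const (a : A₂) (c : kAˣ) (hc : resE A E a = (c : kA)) :
    (gaussResPlaceE M hℓM A hA E).HasRes (algebraMap (↥E) FME (a : ↥E))
      (Units.map ((HahnSeries.C : kA →+* LaurentSeries kA) : kA →* LaurentSeries kA) c) := by
  refine ⟨(constVME M hℓM A hA E a).2, ?_⟩
  have h1 : (gaussResPlaceE M hℓM A hA E).res ⟨algebraMap (↥E) FME (a : ↥E),
      (constVME M hℓM A hA E a).2⟩ = resME M hℓM A hA E (constVME M hℓM A hA E a) := rfl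
  rw [h1, resME_const, hc]
  rfl

/-- constants are residues of the Gauss place. -/
theorem C_mem_resUnits (c : kAˣ) :
    Units.map ((HahnSeries.C : kA →+* LaurentSeries kA) : kA →* LaurentSeries kA) c ∈
      (gaussResPlaceE M hℓM A hA E).resUnits := by
  obtain ⟨a, ha⟩ := resE_surjective A hA E (c : kA)
  exact ⟨_, hasRes_const M hℓM A hA E a c ha⟩

/-! ### the Galois action -/

section Gal

variable (hE : ∀ (τ : Qbar ≃ₐ[ℚ] Qbar) (x : Qbar), x ∈ E → τ x ∈ E)

include hE in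
/-- `hφbM`: the residue field of the Gauss place is stable under the coefficientwise Frobenius. -/
theorem map_coeffMap_mem_resUnits {φ : Qbar ≃ₐ[ℚ] Qbar} (hF : A.IsFrobeniusAt φ ℓ)
    (τ : kA →+* kA) (hτ : ∀ x : kA, τ x = x ^ ℓ) (t : (LaurentSeries kA)ˣ)
    (ht : t ∈ (gaussResPlaceE M hℓM A hA E).resUnits) :
    Units.map ((coeffMap τ : LaurentSeries kA →+* LaurentSeries kA) :
      LaurentSeries kA →* LaurentSeries kA) t ∈ (gaussResPlaceE M hℓM A hA E).resUnits := by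
  obtain ⟨y, hy, e⟩ := ht
  obtain ⟨h, eh⟩ := resME_galActFullC_of_isFrobeniusAt M hℓM A hA E hE hF τ hτ y hy
  refine ⟨H45.galActFullC E hE M φ y, h, ?_⟩
  change resME M hℓM A hA E ⟨_, h⟩ = _
  rw [eh]
  change coeffMap τ ((gaussResPlaceE M hℓM A hA E).res ⟨y, hy⟩) = _
  rw [e]
  rfl

/-- the restriction of the coefficientwise action to `VME`: the `ΦO` of helper16's
`halpha_twice / hbeta_twice`. -/
def galVME (φ : Qbar ≃ₐ[ℚ] Qbar) (hφ : φ ∈ A.decompositionSubgroup ℚ) : VE →+* VE where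
  toFun f := ⟨H45.galActFullC E hE M φ (f : FME),
    (galActFullC_mem_VME_iff M hℓM A hA E hE φ hφ (f : FME)).mpr f.2⟩
  map_one' := Subtype.ext (map_one _)
  map_mul' _ _ := Subtype.ext (map_mul _ _ _)
  map_zero' := Subtype.ext (map_zero _)
  map_add' _ _ := Subtype.ext (map_add _ _ _)

theorem coe_galVME (φ : Qbar ≃ₐ[ℚ] Qbar) (hφ : φ ∈ A.decompositionSubgroup ℚ) (f : VE) :
    ((galVME M hℓM A hA E hE φ hφ f : VE) : FME) = H45.galActFullC E hE M φ (f : FME) := rfl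

/-- `hΦO`. -/
theorem coeffRingAut_algebraMap_VME (φ : Qbar ≃ₐ[ℚ] Qbar) (hφ : φ ∈ A.decompositionSubgroup ℚ)
    (a : VE) :
    S37.H53.coeffRingAut (↥E) M (H45.galActE E hE φ) (algebraMap VE FME a) =
      algebraMap VE FME (galVME M hℓM A hA E hE φ hφ a) := by
  have h1 : algebraMap VE FME a = (a : FME) := rfl
  have h2 : algebraMap VE FME (galVME M hℓM A hA E hE φ hφ a) =
      ((galVME M hℓM A hA E hE φ hφ a : VE) : FME) := rfl
  rw [h1, h2, coe_galVME]
  rfl

set_option maxHeartbeats 1600000 in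
/-- `hΦϖ`. -/
theorem exists_unit_galVME_uniformizer [FiniteDimensional (H45.unrCyclo ℓ) E]
    (φ : Qbar ≃ₐ[ℚ] Qbar)
    (hφ : φ ∈ A.decompositionSubgroup ℚ) (ϖ : A₂) (hϖ : maximalIdeal A₂ = Ideal.span {ϖ}) :
    ∃ v : VEˣ, galVME M hℓM A hA E hE φ hφ (constVME M hℓM A hA E ϖ) =
      v * constVME M hℓM A hA E ϖ := by
  have hmax := maximalIdeal_VME M hℓM A hA E ϖ hϖ
  have hϖ0 : ((constVME M hℓM A hA E ϖ : VE) : FME) ≠ 0 := by
    intro h0
    have : constVME M hℓM A hA E ϖ = 0 := Subtype.ext h0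
    exact (irreducible_const_VME M hℓM A hA E ϖ hϖ).ne_zero this
  obtain ⟨v, hv⟩ := exists_unit_map_uniformizer (VME M hℓM A hA E) (H45.galActFullC E hE M φ)
    (galActFullC_mem_VME_iff M hℓM A hA E hE φ hφ) hmax hϖ0
  refine ⟨v, ?_⟩
  apply Subtype.ext
  rw [coe_galVME, hv]
  rfl

/-- a unit of `A ∩ E` has a non-zero residue. -/
theorem resE_ne_zero_of_isUnit {a : A₂} (ha : IsUnit a) : resE A E a ≠ 0 := by
  obtain ⟨b, hb⟩ := ha.exists_right_inv
  have h1 := congrArg (resE A E) hb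
  rw [map_mul, map_one] at h1
  exact left_ne_zero_of_mul_eq_one h1

set_option maxHeartbeats 1600000 in
/-- `hc` (+ `hrc`): for a constant `c ∈ Eˣ`, `ΨM c / c` (`ΨM = ΦM ∘ ΦM`) is the constant of a unit
of `A ∩ E`; its residue at the Gauss place is a non-zero constant. -/
theorem hasRes_const_ratio_twice [FiniteDimensional (H45.unrCyclo ℓ) E] (φ : Qbar ≃ₐ[ℚ] Qbar)
    (hφ : φ ∈ A.decompositionSubgroup ℚ) (c0 : ↥E) (hc0 : c0 ≠ 0) :
    ∃ r : kAˣ, (gaussResPlaceE M hℓM A hA E).HasRes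
      (((H45.galActFullC E hE M φ).trans (H45.galActFullC E hE M φ)) (algebraMap (↥E) FME c0) /
        algebraMap (↥E) FME c0)
      (Units.map ((HahnSeries.C : kA →+* LaurentSeries kA) : kA →* LaurentSeries kA) r) := by
  obtain ⟨u, hu⟩ := S35.H45.exists_unit_galActE_eq_mul hℓ.out hA E hE φ hφ c0 hc0
  have hu0 : (((u : A₂ˣ) : A₂) : ↥E) ≠ 0 := by
    intro h0
    exact (u.isUnit.ne_zero) (Subtype.ext h0)
  have hc1 : (((u : A₂ˣ) : A₂) : ↥E) * c0 ≠ 0 := mul_ne_zero hu0 hc0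
  obtain ⟨u', hu'⟩ := S35.H45.exists_unit_galActE_eq_mul hℓ.out hA E hE φ hφ _ hc1
  set a : A₂ := ((u' : A₂ˣ) : A₂) * ((u : A₂ˣ) : A₂) with ha
  have hne : resE A E a ≠ 0 := by
    rw [ha, map_mul]
    exact mul_ne_zero (resE_ne_zero_of_isUnit A E u'.isUnit) (resE_ne_zero_of_isUnit A E u.isUnit)
  have hcF : algebraMap (↥E) FME c0 ≠ 0 := (map_ne_zero _).mpr hc0
  have hratio : ((H45.galActFullC E hE M φ).trans (H45.galActFullC E hE M φ))
      (algebraMap (↥E) FME c0) / algebraMap (↥E) FME c0 = algebraMap (↥E) FME (a : ↥E) := by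
    rw [RingEquiv.trans_apply, H45.galActFullC_algebraMap, hu, H45.galActFullC_algebraMap, hu',
      div_eq_iff hcF, ← map_mul]
    congr 1
    rw [ha]
    change _ = (((u' : A₂ˣ) : A₂) : ↥E) * (((u : A₂ˣ) : A₂) : ↥E) * c0
    ring
  rw [hratio]
  exact ⟨Units.mk0 _ hne, hasRes_const M hℓM A hA E a _ rfl⟩

/-! ### `hα hsα`, `hβ hsβ` from the two norm hypotheses of `H18.GeoFnE'` -/

section Norms

variable [FiniteDimensional (H45.unrCyclo ℓ) E] (N : ℕ) [NeZero N]

set_option maxHeartbeats 1600000 in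
theorem pow_units_map_resME_mem_kummerS (m : ℕ) (w : VEˣ) :
    (Units.map ((resME M hℓM A hA E : VE →+* LaurentSeries kA) : VE →* LaurentSeries kA) w) ^ m ∈
      kummerS (HahnSeries.C : kA →+* LaurentSeries kA) (gaussResPlaceE M hℓM A hA E) m := by
  have h := mul_pow_mem_kummerS (ιk := (HahnSeries.C : kA →+* LaurentSeries kA)) (m := m) 1
    (units_map_resME_mem_resUnits M hℓM A hA E w)
  rwa [map_one, one_mul] at h

set_option maxHeartbeats 1600000 in
theorem units_map_C_mem_kummerS (m : ℕ) (r : kAˣ) :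
    Units.map ((HahnSeries.C : kA →+* LaurentSeries kA) : kA →* LaurentSeries kA) r ∈
      kummerS (HahnSeries.C : kA →+* LaurentSeries kA) (gaussResPlaceE M hℓM A hA E) m := by
  have h := mul_pow_mem_kummerS (ιk := (HahnSeries.C : kA →+* LaurentSeries kA)) (m := m) r
    (gaussResPlaceE M hℓM A hA E).resUnits.one_mem
  rwa [one_pow, mul_one] at h

set_option maxHeartbeats 3200000 in
/-- **`hα` + `hsα`** at the `E`-level, from `N_α f = c h ^ m`. -/
theorem exists_mem_kummerS_alpha (φ : Qbar ≃ₐ[ℚ] Qbar) (hφ : φ ∈ A.decompositionSubgroup ℚ)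
    (ϖ : A₂) (hϖ : maximalIdeal A₂ = Ideal.span {ϖ}) (h : M ∣ N) {m : ℕ}
    {f : modularFunctionFieldFullC (↥E) N} (hf : f ≠ 0) {c0 : ↥E} {g : FME} (hc0 : c0 ≠ 0)
    (hg0 : g ≠ 0)
    (hnorm : letI := S34.H16.degAlgebra (↥E) M N h
      Algebra.norm FME f = algebraMap (↥E) FME c0 * g ^ m) :
    letI := S34.H16.degAlgebra (↥E) M N h
    ∃ s ∈ kummerS (HahnSeries.C : kA →+* LaurentSeries kA) (gaussResPlaceE M hℓM A hA E) m,
      (gaussResPlaceE M hℓM A hA E).HasRes (Algebra.norm FME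
        (((H45.galActFullC E hE N φ).trans (H45.galActFullC E hE N φ)) f / f)) s := by
  haveI := isDiscreteValuationRing_VME M hℓM A hA E ϖ hϖ
  obtain ⟨r, hr⟩ := hasRes_const_ratio_twice M hℓM A hA E hE φ hφ c0 hc0
  exact S35.H16.halpha_twice (↥E) M N (H45.galActE E hE φ)
    (irreducible_const_VME M hℓM A hA E ϖ hϖ) (galVME M hℓM A hA E hE φ hφ)
    (coeffRingAut_algebraMap_VME M hℓM A hA E hE φ hφ)
    (exists_unit_galVME_uniformizer M hℓM A hA E hE φ hφ ϖ hϖ)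
    (resME M hℓM A hA E) (gaussResPlaceE M hℓM A hA E) (gaussResPlaceE_hasRes M hℓM A hA E)
    (kummerS (HahnSeries.C : kA →+* LaurentSeries kA) (gaussResPlaceE M hℓM A hA E) m)
    (pow_units_map_resME_mem_kummerS M hℓM A hA E m) h hf ((map_ne_zero _).mpr hc0) hg0 hnorm hr
    (units_map_C_mem_kummerS M hℓM A hA E m r)

set_option maxHeartbeats 3200000 in
/-- **`hβ` + `hsβ`** at the `E`-level, from `N_β f = c h ^ m` (norm along `V_q`). -/
theorem exists_mem_kummerS_beta (φ : Qbar ≃ₐ[ℚ] Qbar) (hφ : φ ∈ A.decompositionSubgroup ℚ)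
    (ϖ : A₂) (hϖ : maximalIdeal A₂ = Ideal.span {ϖ}) (q : ℕ) [NeZero q] (h : q * M ∣ N) {m : ℕ}
    {f : modularFunctionFieldFullC (↥E) N} (hf : f ≠ 0) {c0 : ↥E} {g : FME} (hc0 : c0 ≠ 0)
    (hg0 : g ≠ 0)
    (hnorm : letI := S35.H16.vAlgebra (↥E) q M N h
      Algebra.norm FME f = algebraMap (↥E) FME c0 * g ^ m) :
    letI := S35.H16.vAlgebra (↥E) q M N h
    ∃ s ∈ kummerS (HahnSeries.C : kA →+* LaurentSeries kA) (gaussResPlaceE M hℓM A hA E) m,
      (gaussResPlaceE M hℓM A hA E).HasRes (Algebra.norm FME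
        (((H45.galActFullC E hE N φ).trans (H45.galActFullC E hE N φ)) f / f)) s := by
  haveI := isDiscreteValuationRing_VME M hℓM A hA E ϖ hϖ
  obtain ⟨r, hr⟩ := hasRes_const_ratio_twice M hℓM A hA E hE φ hφ c0 hc0
  exact S35.H16.hbeta_twice (↥E) M N (H45.galActE E hE φ)
    (irreducible_const_VME M hℓM A hA E ϖ hϖ) (galVME M hℓM A hA E hE φ hφ)
    (coeffRingAut_algebraMap_VME M hℓM A hA E hE φ hφ)
    (exists_unit_galVME_uniformizer M hℓM A hA E hE φ hφ ϖ hϖ)
    (resME M hℓM A hA E) (gaussResPlaceE M hℓM A hA E) (gaussResPlaceE_hasRes M hℓM A hA E)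
    (kummerS (HahnSeries.C : kA →+* LaurentSeries kA) (gaussResPlaceE M hℓM A hA E) m)
    (pow_units_map_resME_mem_kummerS M hℓM A hA E m) q h hf ((map_ne_zero _).mpr hc0) hg0 hnorm hr
    (units_map_C_mem_kummerS M hℓM A hA E m r)

end Norms

end Gal

end Fermat.Agent.S35.H46
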