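import Mathlib
import Fermat.Agent.S35.H92_L0PlacesE
import Fermat.Agent.S35.H92_GaussLevelMEAut
import Fermat.Agent.CA.H27_PlaceAut

/-!
# S35 / E-level G1b (helper92): the coefficientwise Galois action on the two E-level L0 places

`σ` a ring automorphism of `E` preserving `A'' = A ∩ E` (through `σA`) and inducing `τ` on `kA`
through `resE`.  The coefficientwise action `S37.H53.coeffRingAut ↥E _ σ`

* preserves the E-level Gauss ring `VME` and commutes with its reduction (`galVME`, `resME_galVME`);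
* preserves each of the two places `P_∞''`, `P_0''` of `F_N(E) = fullC ↥E (ℓ M)` over `VME`
  (`S35.H92.nonempty_placeInftyE/_placeZeroE`), and the reductions intertwine it with the
  coefficientwise action of `τ` on `kA((t))`
  (`placeInftyE_map_mem`, `placeInftyE_res1_map`, `placeZeroE_map_mem`, `placeZeroE_res1_map`).

Corollaries for `H45.galActFullC E hE (ℓ * M) φ`, `φ` in the decomposition group
(`τ = resAut A φ hφ`), and for a Frobenius lift (`τ x = x ^ ℓ`): `red_k ∘ φ = φ̄ ∘ red_k`.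
E-level twin of helper27's `S35/H27_FrobPlaces`.
-/

set_option autoImplicit false
set_option linter.unusedSectionVars false
set_option linter.style.haveILetI false
set_option synthInstance.maxHeartbeats 400000

noncomputable section

namespace Fermat.Agent.S35.H92

open ModularCurve Polynomial IsLocalRing Fermat.Agent.S28
open Fermat.Agent.S18 Fermat.Agent.S34.H92 Fermat.Agent.S34.H16

local notation "Qbar" => AlgebraicClosure ℚ

section FrobPlacesE

variable (M : ℕ) [NeZero M] {ℓ : ℕ} [hℓ : Fact ℓ.Prime] (hℓM : ¬ ℓ ∣ M)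
  (A : ValuationSubring Qbar) (hA : A.LiesOverPrime ℓ)
  (E : IntermediateField (H45.unrCyclo ℓ) Qbar)

local notation "kA" => IsLocalRing.ResidueField A
set_option quotPrecheck false in
local notation "FME" => modularFunctionFieldFullC (↥E) M
set_option quotPrecheck false in
local notation "FNE" => modularFunctionFieldFullC (↥E) (ℓ * M)
local notation "VE" => VME M hℓM A hA E

/-- the coefficientwise action fixes `j_N`. -/
theorem coeffRingAut_jNK_E (σ : (↥E) ≃+* (↥E)) (N : ℕ) [NeZero N] :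
    S37.H53.coeffRingAut (↥E) N σ (S18.H16.jNK (↥E) N) = S18.H16.jNK (↥E) N := by
  apply Subtype.ext
  rw [S37.H53.coe_coeffRingAut_apply, S18.H16.coe_jNK, coeffMap_qExpand, coeffMap_jqModC]

/-- the coefficientwise action fixes `j`. -/
theorem coeffRingAut_jK_E (σ : (↥E) ≃+* (↥E)) (N : ℕ) [NeZero N] :
    S37.H53.coeffRingAut (↥E) N σ (S18.H16.jK (↥E) N) = S18.H16.jK (↥E) N := by
  apply Subtype.ext
  rw [S37.H53.coe_coeffRingAut_apply, S18.H16.coe_jK, coeffMap_jqModC]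

/-- the residue of `j_M` has coefficients in the prime field. -/
theorem coeffMap_resME_jMVE (τ' : kA →+* kA) :
    coeffMap τ' (resME M hℓM A hA E (jMVE M hℓM A hA E)) =
      resME M hℓM A hA E (jMVE M hℓM A hA E) := by
  rw [resME_jMVE, coeffMap_qExpand, coeffMap_jqModC]

variable (σ : (↥E) ≃+* (↥E)) (σA : H45.cutOver A E →+* H45.cutOver A E)
  (hσA : ∀ a : H45.cutOver A E, ((σA a : H45.cutOver A E) : ↥E) = σ (a : ↥E))
  (τ : IsLocalRing.ResidueField A →+* IsLocalRing.ResidueField A)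
  (hτ : ∀ a : H45.cutOver A E, resE A E (σA a) = τ (resE A E a))

/-! ### the E-level Gauss ring -/

/-- the restriction of the coefficientwise action to `VME`. -/
def galVME : VE →+* VE where
  toFun f := ⟨S37.H53.coeffRingAut (↥E) M σ (f : FME),
    (coeffRingAut_mem_VME M hℓM A hA E σ σA hσA τ hτ f.1 f.2).1⟩
  map_one' := Subtype.ext (map_one _)
  map_mul' _ _ := Subtype.ext (map_mul _ _ _)
  map_zero' := Subtype.ext (map_zero _)
  map_add' _ _ := Subtype.ext (map_add _ _ _)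

theorem coe_galVME (f : VE) :
    ((galVME M hℓM A hA E σ σA hσA τ hτ f : VE) : FME) =
      S37.H53.coeffRingAut (↥E) M σ (f : FME) := rfl

/-- **`resME ∘ σ = τ ∘ resME`** (coefficientwise on `kA((t))`). -/
theorem resME_galVME (f : VE) :
    resME M hℓM A hA E (galVME M hℓM A hA E σ σA hσA τ hτ f) =
      coeffMap τ (resME M hℓM A hA E f) :=
  (coeffRingAut_mem_VME M hℓM A hA E σ σA hσA τ hτ f.1 f.2).2

/-! ### the two places of `F_N(E)` over `VME` -/

/-- compatibility of the coefficientwise actions at levels `M` and `ℓ M` along `VME → F_N(E)`. -/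
theorem coeffRingAut_algebraMap_VME :
    letI := degAlgebra (↥E) M (ℓ * M) (dvd_level M)
    letI := algebraVMEFN M hℓM A hA E
    ∀ a : VE, S37.H53.coeffRingAut (↥E) (ℓ * M) σ (algebraMap VE FNE a) =
      algebraMap VE FNE (galVME M hℓM A hA E σ σA hσA τ hτ a) := by
  letI := degAlgebra (↥E) M (ℓ * M) (dvd_level M)
  letI := algebraVMEFN M hℓM A hA E
  intro a
  apply Subtype.ext
  rfl

section Places

variable (ϖ : H45.cutOver A E)

include σA hσA τ hτ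

/-- **`σ (V_∞'') ⊆ V_∞''`.** -/
theorem placeInftyE_map_mem :
    letI := degAlgebra (↥E) M (ℓ * M) (dvd_level M)
    letI := algebraVMEFN M hℓM A hA E
    ∀ (P : CA.H99.PlaceOver (L := FNE) (constVME M hℓM A hA E ϖ) (S18.H16.jNK (↥E) (ℓ * M))
      (resME M hℓM A hA E) (resME M hℓM A hA E (jMVE M hℓM A hA E) ^ ℓ)) {y : FNE},
      y ∈ P.O1 → S37.H53.coeffRingAut (↥E) (ℓ * M) σ y ∈ P.O1 := by
  letI := degAlgebra (↥E) M (ℓ * M) (dvd_level M)
  letI := algebraVMEFN M hℓM A hA E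
  intro P y hy
  exact CA.H27.PlaceOver.map_mem P (S37.H53.coeffRingAut (↥E) (ℓ * M) σ : FNE →+* FNE)
    (galVME M hℓM A hA E σ σA hσA τ hτ) (coeffRingAut_algebraMap_VME M hℓM A hA E σ σA hσA τ hτ)
    (coeffRingAut_jNK_E E σ (ℓ * M)) (coeffMap τ)
    (fun a => (resME_galVME M hℓM A hA E σ σA hσA τ hτ a).symm)
    (by rw [map_pow, coeffMap_resME_jMVE]) hy

/-- **`red_∞'' ∘ σ = τ ∘ red_∞''`.** -/
theorem placeInftyE_res1_map :
    letI := degAlgebra (↥E) M (ℓ * M) (dvd_level M)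
    letI := algebraVMEFN M hℓM A hA E
    ∀ (P : CA.H99.PlaceOver (L := FNE) (constVME M hℓM A hA E ϖ) (S18.H16.jNK (↥E) (ℓ * M))
      (resME M hℓM A hA E) (resME M hℓM A hA E (jMVE M hℓM A hA E) ^ ℓ)) {y : FNE}
      (hy : y ∈ P.O1) (hy' : S37.H53.coeffRingAut (↥E) (ℓ * M) σ y ∈ P.O1),
      P.res1 ⟨S37.H53.coeffRingAut (↥E) (ℓ * M) σ y, hy'⟩ = coeffMap τ (P.res1 ⟨y, hy⟩) := by
  letI := degAlgebra (↥E) M (ℓ * M) (dvd_level M)
  letI := algebraVMEFN M hℓM A hA E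
  intro P y hy hy'
  exact CA.H27.PlaceOver.res1_map P (S37.H53.coeffRingAut (↥E) (ℓ * M) σ : FNE →+* FNE)
    (galVME M hℓM A hA E σ σA hσA τ hτ) (coeffRingAut_algebraMap_VME M hℓM A hA E σ σA hσA τ hτ)
    (coeffRingAut_jNK_E E σ (ℓ * M)) (coeffMap τ)
    (fun a => (resME_galVME M hℓM A hA E σ σA hσA τ hτ a).symm)
    (by rw [map_pow, coeffMap_resME_jMVE]) hy

theorem iotaZeroE_galVME (a : VE) :
    coeffMap τ (iotaZeroE M hℓM A hA E a) =
      iotaZeroE M hℓM A hA E (galVME M hℓM A hA E σ σA hσA τ hτ a) := by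
  rw [iotaZeroE_apply, iotaZeroE_apply, coeffMap_qExpand, resME_galVME]

/-- **`σ (V_0'') ⊆ V_0''`.** -/
theorem placeZeroE_map_mem :
    letI := degAlgebra (↥E) M (ℓ * M) (dvd_level M)
    letI := algebraVMEFN M hℓM A hA E
    ∀ (P : CA.H99.PlaceOver (L := FNE) (constVME M hℓM A hA E ϖ) (S18.H16.jNK (↥E) (ℓ * M))
      (iotaZeroE M hℓM A hA E) (resME M hℓM A hA E (jMVE M hℓM A hA E))) {y : FNE},
      y ∈ P.O1 → S37.H53.coeffRingAut (↥E) (ℓ * M) σ y ∈ P.O1 := by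
  letI := degAlgebra (↥E) M (ℓ * M) (dvd_level M)
  letI := algebraVMEFN M hℓM A hA E
  intro P y hy
  exact CA.H27.PlaceOver.map_mem P (S37.H53.coeffRingAut (↥E) (ℓ * M) σ : FNE →+* FNE)
    (galVME M hℓM A hA E σ σA hσA τ hτ) (coeffRingAut_algebraMap_VME M hℓM A hA E σ σA hσA τ hτ)
    (coeffRingAut_jNK_E E σ (ℓ * M)) (coeffMap τ)
    (iotaZeroE_galVME M hℓM A hA E σ σA hσA τ hτ) (coeffMap_resME_jMVE M hℓM A hA E τ) hy

/-- **`red_0'' ∘ σ = τ ∘ red_0''`.** -/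
theorem placeZeroE_res1_map :
    letI := degAlgebra (↥E) M (ℓ * M) (dvd_level M)
    letI := algebraVMEFN M hℓM A hA E
    ∀ (P : CA.H99.PlaceOver (L := FNE) (constVME M hℓM A hA E ϖ) (S18.H16.jNK (↥E) (ℓ * M))
      (iotaZeroE M hℓM A hA E) (resME M hℓM A hA E (jMVE M hℓM A hA E))) {y : FNE}
      (hy : y ∈ P.O1) (hy' : S37.H53.coeffRingAut (↥E) (ℓ * M) σ y ∈ P.O1),
      P.res1 ⟨S37.H53.coeffRingAut (↥E) (ℓ * M) σ y, hy'⟩ = coeffMap τ (P.res1 ⟨y, hy⟩) := by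
  letI := degAlgebra (↥E) M (ℓ * M) (dvd_level M)
  letI := algebraVMEFN M hℓM A hA E
  intro P y hy hy'
  exact CA.H27.PlaceOver.res1_map P (S37.H53.coeffRingAut (↥E) (ℓ * M) σ : FNE →+* FNE)
    (galVME M hℓM A hA E σ σA hσA τ hτ) (coeffRingAut_algebraMap_VME M hℓM A hA E σ σA hσA τ hτ)
    (coeffRingAut_jNK_E E σ (ℓ * M)) (coeffMap τ)
    (iotaZeroE_galVME M hℓM A hA E σ σA hσA τ hτ) (coeffMap_resME_jMVE M hℓM A hA E τ) hy

end Places

end FrobPlacesE

/-! ### the decomposition group and Frobenius lifts -/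

section Decomp

variable (M : ℕ) [NeZero M] {ℓ : ℕ} [hℓ : Fact ℓ.Prime] (hℓM : ¬ ℓ ∣ M)
  (A : ValuationSubring Qbar) (hA : A.LiesOverPrime ℓ)
  (E : IntermediateField (H45.unrCyclo ℓ) Qbar)
  (hE : ∀ (τ : Qbar ≃ₐ[ℚ] Qbar) (x : Qbar), x ∈ E → τ x ∈ E)
  (ϖ : H45.cutOver A E)

local notation "kA" => IsLocalRing.ResidueField A
set_option quotPrecheck false in
local notation "FNE" => modularFunctionFieldFullC (↥E) (ℓ * M)

/-- `φ` in the decomposition group: `φ (V_∞'') ⊆ V_∞''` and `red_∞'' ∘ φ = φ̄ ∘ red_∞''`. -/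
theorem placeInftyE_galActFullC (φ : Qbar ≃ₐ[ℚ] Qbar) (hφ : φ ∈ A.decompositionSubgroup ℚ)
    (τ : kA →+* kA) (hτ : ∀ x : kA, τ x = resAut A φ hφ x) :
    letI := degAlgebra (↥E) M (ℓ * M) (dvd_level M)
    letI := algebraVMEFN M hℓM A hA E
    ∀ (P : CA.H99.PlaceOver (L := FNE) (constVME M hℓM A hA E ϖ) (S18.H16.jNK (↥E) (ℓ * M))
      (resME M hℓM A hA E) (resME M hℓM A hA E (jMVE M hℓM A hA E) ^ ℓ)) {y : FNE}
      (hy : y ∈ P.O1), ∃ hy' : H45.galActFullC E hE (ℓ * M) φ y ∈ P.O1,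
      P.res1 ⟨H45.galActFullC E hE (ℓ * M) φ y, hy'⟩ = coeffMap τ (P.res1 ⟨y, hy⟩) := by
  letI := degAlgebra (↥E) M (ℓ * M) (dvd_level M)
  letI := algebraVMEFN M hℓM A hA E
  intro P y hy
  have hτ' : ∀ a : H45.cutOver A E,
      resE A E ((H45.galActCutOver E hE φ hφ : H45.cutOver A E →+* H45.cutOver A E) a) =
        τ (resE A E a) := fun a => by
    rw [hτ]; exact resE_galActCutOver A E hE φ hφ a
  have h1 := placeInftyE_map_mem M hℓM A hA E (H45.galActE E hE φ)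
    (H45.galActCutOver E hE φ hφ : H45.cutOver A E →+* H45.cutOver A E) (fun _ => rfl) τ hτ' ϖ P hy
  exact ⟨h1, placeInftyE_res1_map M hℓM A hA E (H45.galActE E hE φ)
    (H45.galActCutOver E hE φ hφ : H45.cutOver A E →+* H45.cutOver A E) (fun _ => rfl) τ hτ' ϖ P
    hy h1⟩

/-- `φ` in the decomposition group: `φ (V_0'') ⊆ V_0''` and `red_0'' ∘ φ = φ̄ ∘ red_0''`. -/
theorem placeZeroE_galActFullC (φ : Qbar ≃ₐ[ℚ] Qbar) (hφ : φ ∈ A.decompositionSubgroup ℚ)
    (τ : kA →+* kA) (hτ : ∀ x : kA, τ x = resAut A φ hφ x) :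
    letI := degAlgebra (↥E) M (ℓ * M) (dvd_level M)
    letI := algebraVMEFN M hℓM A hA E
    ∀ (P : CA.H99.PlaceOver (L := FNE) (constVME M hℓM A hA E ϖ) (S18.H16.jNK (↥E) (ℓ * M))
      (iotaZeroE M hℓM A hA E) (resME M hℓM A hA E (jMVE M hℓM A hA E))) {y : FNE}
      (hy : y ∈ P.O1), ∃ hy' : H45.galActFullC E hE (ℓ * M) φ y ∈ P.O1,
      P.res1 ⟨H45.galActFullC E hE (ℓ * M) φ y, hy'⟩ = coeffMap τ (P.res1 ⟨y, hy⟩) := by
  letI := degAlgebra (↥E) M (ℓ * M) (dvd_level M)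
  letI := algebraVMEFN M hℓM A hA E
  intro P y hy
  have hτ' : ∀ a : H45.cutOver A E,
      resE A E ((H45.galActCutOver E hE φ hφ : H45.cutOver A E →+* H45.cutOver A E) a) =
        τ (resE A E a) := fun a => by
    rw [hτ]; exact resE_galActCutOver A E hE φ hφ a
  have h1 := placeZeroE_map_mem M hℓM A hA E (H45.galActE E hE φ)
    (H45.galActCutOver E hE φ hφ : H45.cutOver A E →+* H45.cutOver A E) (fun _ => rfl) τ hτ' ϖ P hy
  exact ⟨h1, placeZeroE_res1_map M hℓM A hA E (H45.galActE E hE φ)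
    (H45.galActCutOver E hE φ hφ : H45.cutOver A E →+* H45.cutOver A E) (fun _ => rfl) τ hτ' ϖ P
    hy h1⟩

/-- the Frobenius endomorphism of `kA` agrees with `φ̄` for a Frobenius lift. -/
theorem frobenius_eq_resAut {φ : Qbar ≃ₐ[ℚ] Qbar} (hF : A.IsFrobeniusAt φ ℓ)
    (τ : kA →+* kA) (hτ : ∀ x : kA, τ x = x ^ ℓ) (x : kA) :
    τ x = resAut A φ hF.mem_decompositionSubgroup x := by
  rw [hτ, resAut_apply, hF.smul_residue_eq]

/-- **Frobenius lift, `∞`-place**: `red_∞'' (φ y) = (red_∞'' y)` with coefficients `↦ c ^ ℓ`. -/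
theorem placeInftyE_frobenius {φ : Qbar ≃ₐ[ℚ] Qbar} (hF : A.IsFrobeniusAt φ ℓ)
    (τ : kA →+* kA) (hτ : ∀ x : kA, τ x = x ^ ℓ) :
    letI := degAlgebra (↥E) M (ℓ * M) (dvd_level M)
    letI := algebraVMEFN M hℓM A hA E
    ∀ (P : CA.H99.PlaceOver (L := FNE) (constVME M hℓM A hA E ϖ) (S18.H16.jNK (↥E) (ℓ * M))
      (resME M hℓM A hA E) (resME M hℓM A hA E (jMVE M hℓM A hA E) ^ ℓ)) {y : FNE}
      (hy : y ∈ P.O1), ∃ hy' : H45.galActFullC E hE (ℓ * M) φ y ∈ P.O1,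
      P.res1 ⟨H45.galActFullC E hE (ℓ * M) φ y, hy'⟩ = coeffMap τ (P.res1 ⟨y, hy⟩) :=
  placeInftyE_galActFullC M hℓM A hA E hE ϖ φ hF.mem_decompositionSubgroup τ
    (frobenius_eq_resAut A hF τ hτ)

/-- **Frobenius lift, `0`-place**: `red_0'' (φ y) = (red_0'' y)` with coefficients `↦ c ^ ℓ`. -/
theorem placeZeroE_frobenius {φ : Qbar ≃ₐ[ℚ] Qbar} (hF : A.IsFrobeniusAt φ ℓ)
    (τ : kA →+* kA) (hτ : ∀ x : kA, τ x = x ^ ℓ) :
    letI := degAlgebra (↥E) M (ℓ * M) (dvd_level M)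
    letI := algebraVMEFN M hℓM A hA E
    ∀ (P : CA.H99.PlaceOver (L := FNE) (constVME M hℓM A hA E ϖ) (S18.H16.jNK (↥E) (ℓ * M))
      (iotaZeroE M hℓM A hA E) (resME M hℓM A hA E (jMVE M hℓM A hA E))) {y : FNE}
      (hy : y ∈ P.O1), ∃ hy' : H45.galActFullC E hE (ℓ * M) φ y ∈ P.O1,
      P.res1 ⟨H45.galActFullC E hE (ℓ * M) φ y, hy'⟩ = coeffMap τ (P.res1 ⟨y, hy⟩) :=
  placeZeroE_galActFullC M hℓM A hA E hE ϖ φ hF.mem_decompositionSubgroup τ
    (frobenius_eq_resAut A hF τ hτ)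

end Decomp

end Fermat.Agent.S35.H92
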