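/-
S35, second clause, node (E3) (helper46): the inputs of `H46.exists_hG_of_places` that involve the two
`E`-level L0 places `P∞''`, `P₀''` (helper92's `S35.H92_L0PlacesE`), at the level `ℓ * M`:

* `C_mem_resUnits_inf / _zero`      : `hkinf hk0` (constants are residues);
* `resUnits_le_inf / _zero`         : `hMinf hM0` (the residue field of the Gauss place of level `M`
  embeds: inclusion side by `res1_algebraMap`, `V_ℓ` side by helper16's transport `H0V`);
* `hasRes_frob_sq_inf / _zero`      : `hΨinf hΨ0` (helper92's `placeInftyE/ZeroE_frobenius`, twice).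
-/
import Mathlib
import Fermat.Agent.S35.H46_G3Chart
import Fermat.Agent.S35.H46_G3GaussE
import Fermat.Agent.S35.H92_FrobPlacesE
import Fermat.Agent.S35.H16_G2AlphaBetaE

set_option autoImplicit false
set_option linter.unusedSectionVars false
set_option linter.style.haveILetI false
set_option synthInstance.maxHeartbeats 400000

noncomputable section

namespace Fermat.Agent.S35.H46

open ModularCurve IsLocalRing
open Fermat.Agent.S18 Fermat.Agent.S35.H92 Fermat.Agent.S34.H16

local notation "Qbar" => AlgebraicClosure ℚ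

variable (M : ℕ) [NeZero M] {ℓ : ℕ} [hℓ : Fact ℓ.Prime] (hℓM : ¬ ℓ ∣ M)
  (A : ValuationSubring Qbar) (hA : A.LiesOverPrime ℓ)
  (E : IntermediateField (H45.unrCyclo ℓ) Qbar)

local notation "kA" => IsLocalRing.ResidueField A
local notation "A₂" => H45.cutOver A E
set_option quotPrecheck false in
local notation "FME" => modularFunctionFieldFullC (↥E) M
set_option quotPrecheck false in
local notation "FNE" => modularFunctionFieldFullC (↥E) (ℓ * M)
set_option quotPrecheck false in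
local notation "VE" => VME M hℓM A hA E

variable (ϖ : H45.cutOver A E)

/-! ### constants -/

set_option maxHeartbeats 1600000 in
/-- `hkinf`. -/
theorem C_mem_resUnits_inf :
    letI := algebraVMEFN M hℓM A hA E
    ∀ (Pinf : CA.H99.PlaceOver (L := FNE) (constVME M hℓM A hA E ϖ) (S18.H16.jNK (↥E) (ℓ * M))
      (resME M hℓM A hA E) (resME M hℓM A hA E (jMVE M hℓM A hA E) ^ ℓ)) (c : kAˣ),
      Units.map ((HahnSeries.C : kA →+* LaurentSeries kA) : kA →* LaurentSeries kA) c ∈
        (ofPlaceOver Pinf).resUnits := by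
  letI := algebraVMEFN M hℓM A hA E
  intro Pinf c
  obtain ⟨a, ha⟩ := resE_surjective A hA E (c : kA)
  refine ⟨algebraMap VE FNE (constVME M hℓM A hA E a), Pinf.algebraMap_mem _, ?_⟩
  have h1 := Pinf.res1_algebraMap (constVME M hℓM A hA E a)
  have h2 : resME M hℓM A hA E (constVME M hℓM A hA E a) = HahnSeries.C (c : kA) := by
    rw [resME_const, ha]
  exact h1.trans h2

set_option maxHeartbeats 1600000 in
/-- `hk0`. -/
theorem C_mem_resUnits_zero :
    letI := algebraVMEFN M hℓM A hA E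
    ∀ (P0 : CA.H99.PlaceOver (L := FNE) (constVME M hℓM A hA E ϖ) (S18.H16.jNK (↥E) (ℓ * M))
      (iotaZeroE M hℓM A hA E) (resME M hℓM A hA E (jMVE M hℓM A hA E))) (c : kAˣ),
      Units.map ((HahnSeries.C : kA →+* LaurentSeries kA) : kA →* LaurentSeries kA) c ∈
        (ofPlaceOver P0).resUnits := by
  letI := algebraVMEFN M hℓM A hA E
  intro P0 c
  obtain ⟨a, ha⟩ := resE_surjective A hA E (c : kA)
  refine ⟨algebraMap VE FNE (constVME M hℓM A hA E a), P0.algebraMap_mem _, ?_⟩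
  have h1 := P0.res1_algebraMap (constVME M hℓM A hA E a)
  have h2 : iotaZeroE M hℓM A hA E (constVME M hℓM A hA E a) = HahnSeries.C (c : kA) := by
    rw [iotaZeroE_apply, resME_const, ha, qExpand_C]
  exact h1.trans h2

/-! ### the residue field of the Gauss place of level `M` -/

set_option maxHeartbeats 1600000 in
/-- `hMinf`. -/
theorem resUnits_le_inf :
    letI := algebraVMEFN M hℓM A hA E
    ∀ (Pinf : CA.H99.PlaceOver (L := FNE) (constVME M hℓM A hA E ϖ) (S18.H16.jNK (↥E) (ℓ * M))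
      (resME M hℓM A hA E) (resME M hℓM A hA E (jMVE M hℓM A hA E) ^ ℓ))
      (t : (LaurentSeries kA)ˣ), t ∈ (gaussResPlaceE M hℓM A hA E).resUnits →
        t ∈ (ofPlaceOver Pinf).resUnits := by
  letI := algebraVMEFN M hℓM A hA E
  rintro Pinf t ⟨y, hy, e⟩
  refine ⟨algebraMap VE FNE ⟨y, hy⟩, Pinf.algebraMap_mem _, ?_⟩
  have h1 := Pinf.res1_algebraMap ⟨y, hy⟩
  exact h1.trans e

set_option maxHeartbeats 1600000 in
/-- `hM0`: `res_0 ∘ V_ℓ = res_M` (helper16's `H0V` at the `E`-level). -/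
theorem resUnits_le_zero :
    letI := algebraVMEFN M hℓM A hA E
    ∀ (P0 : CA.H99.PlaceOver (L := FNE) (constVME M hℓM A hA E ϖ) (S18.H16.jNK (↥E) (ℓ * M))
      (iotaZeroE M hℓM A hA E) (resME M hℓM A hA E (jMVE M hℓM A hA E)))
      (t : (LaurentSeries kA)ˣ), t ∈ (gaussResPlaceE M hℓM A hA E).resUnits →
        t ∈ (ofPlaceOver P0).resUnits := by
  letI := algebraVMEFN M hℓM A hA E
  haveI : NeZero ℓ := ⟨hℓ.out.ne_zero⟩
  rintro P0 t ⟨y, hy, e⟩
  have HP0 := S35.H16.isPlaceDataE_of_placeOver M (ℓ * M) hℓM A hA E (dvd_level M)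
    (isScalarTower_VMEFN M hℓM A hA E) P0
  have T0 := HP0.transport_vSub_zero rfl rfl (resME_jMVE M hℓM A hA E) ⟨y, hy⟩
  obtain ⟨h, eh⟩ := T0
  exact ⟨_, h, eh.trans e⟩

/-! ### the Frobenius, twice -/

section Frob

variable (hE : ∀ (τ : Qbar ≃ₐ[ℚ] Qbar) (x : Qbar), x ∈ E → τ x ∈ E)

include hE in
set_option maxHeartbeats 1600000 in
/-- `hΨinf`. -/
theorem hasRes_frob_sq_inf {φ : Qbar ≃ₐ[ℚ] Qbar} (hF : A.IsFrobeniusAt φ ℓ)
    (τ : kA →+* kA) (hτ : ∀ x : kA, τ x = x ^ ℓ) :
    letI := algebraVMEFN M hℓM A hA E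
    ∀ (Pinf : CA.H99.PlaceOver (L := FNE) (constVME M hℓM A hA E ϖ) (S18.H16.jNK (↥E) (ℓ * M))
      (resME M hℓM A hA E) (resME M hℓM A hA E (jMVE M hℓM A hA E) ^ ℓ))
      (y : FNE) (s : (LaurentSeries kA)ˣ), (ofPlaceOver Pinf).HasRes y s →
      (ofPlaceOver Pinf).HasRes
        (((H45.galActFullC E hE (ℓ * M) φ).trans (H45.galActFullC E hE (ℓ * M) φ)) y)
        (Units.map ((coeffMap τ : LaurentSeries kA →+* LaurentSeries kA) :
            LaurentSeries kA →* LaurentSeries kA)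
          (Units.map ((coeffMap τ : LaurentSeries kA →+* LaurentSeries kA) :
            LaurentSeries kA →* LaurentSeries kA) s)) := by
  letI := algebraVMEFN M hℓM A hA E
  rintro Pinf y s ⟨hy, e⟩
  have key := placeInftyE_frobenius M hℓM A hA E hE ϖ hF τ hτ
  have k1 := key Pinf (y := y) hy
  obtain ⟨h1, e1⟩ := k1
  have k2 := key Pinf (y := _) h1
  obtain ⟨h2, e2⟩ := k2
  refine ⟨h2, ?_⟩
  have e3 : Pinf.res1 ⟨y, hy⟩ = (s : LaurentSeries kA) := e
  have e4 := congrArg (coeffMap τ) (e1.trans (congrArg (coeffMap τ) e3))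
  exact e2.trans e4

include hE in
set_option maxHeartbeats 1600000 in
/-- `hΨ0`. -/
theorem hasRes_frob_sq_zero {φ : Qbar ≃ₐ[ℚ] Qbar} (hF : A.IsFrobeniusAt φ ℓ)
    (τ : kA →+* kA) (hτ : ∀ x : kA, τ x = x ^ ℓ) :
    letI := algebraVMEFN M hℓM A hA E
    ∀ (P0 : CA.H99.PlaceOver (L := FNE) (constVME M hℓM A hA E ϖ) (S18.H16.jNK (↥E) (ℓ * M))
      (iotaZeroE M hℓM A hA E) (resME M hℓM A hA E (jMVE M hℓM A hA E)))
      (y : FNE) (s : (LaurentSeries kA)ˣ), (ofPlaceOver P0).HasRes y s →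
      (ofPlaceOver P0).HasRes
        (((H45.galActFullC E hE (ℓ * M) φ).trans (H45.galActFullC E hE (ℓ * M) φ)) y)
        (Units.map ((coeffMap τ : LaurentSeries kA →+* LaurentSeries kA) :
            LaurentSeries kA →* LaurentSeries kA)
          (Units.map ((coeffMap τ : LaurentSeries kA →+* LaurentSeries kA) :
            LaurentSeries kA →* LaurentSeries kA) s)) := by
  letI := algebraVMEFN M hℓM A hA E
  rintro P0 y s ⟨hy, e⟩
  have key := placeZeroE_frobenius M hℓM A hA E hE ϖ hF τ hτ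
  have k1 := key P0 (y := y) hy
  obtain ⟨h1, e1⟩ := k1
  have k2 := key P0 (y := _) h1
  obtain ⟨h2, e2⟩ := k2
  refine ⟨h2, ?_⟩
  have e3 : P0.res1 ⟨y, hy⟩ = (s : LaurentSeries kA) := e
  have e4 := congrArg (coeffMap τ) (e1.trans (congrArg (coeffMap τ) e3))
  exact e2.trans e4

end Frob

end Fermat.Agent.S35.H46
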