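/-
S35, second clause, node (E3) (helper46): **`hG` at the `E`-level, level `ℓ * M`**.

All inputs of `H46.exists_hG_of_places` are discharged at the concrete types (helper92's `VME`,
`P∞''`, `P₀''`; helper16's `(g2α)/(g2β)` and transports; helper92's Frobenius on the places;
`H46_G3GaussE`, `H46_G3PlacesE`), EXCEPT

* the bridge chart ↔ places `hBinf hredinf hB0 hred0` (the chart `B` is arbitrary here), and
* the unit hypotheses `hup huq` (`Ψ f / f` is a unit at the two vertical valuation rings; producer: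
  `H46.valuation_ratio_eq_one_of_chartFrob` from the `ChartFrob` package).
-/
import Mathlib
import Fermat.Agent.S35.H46_G3PlacesE
import Fermat.Agent.S35.H46_G3Unit

set_option autoImplicit false
set_option linter.unusedSectionVars false
set_option linter.style.haveILetI false
set_option synthInstance.maxHeartbeats 400000

noncomputable section

namespace Fermat.Agent.S35.H46

open ModularCurve IsLocalRing
open Fermat.Agent.S18 Fermat.Agent.S34 Fermat.Agent.S34.H47 Fermat.Agent.S35.H92 Fermat.Agent.S34.H16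

local notation "Qbar" => AlgebraicClosure ℚ

/-- two distinct height-one primes of a noetherian ring are incomparable. -/
theorem bool_family_incomparable {B : Type*} [CommRing B] [IsNoetherianRing B] (p₁ q₁ : Ideal B)
    [p₁.IsPrime] [q₁.IsPrime] (hph₁ : p₁.height = 1) (hqh₁ : q₁.height = 1) (hpq₁ : p₁ ≠ q₁) :
    ∀ i j : Bool, (cond i p₁ q₁ : Ideal B) ≤ cond j p₁ q₁ → i = j := by
  intro i j hij
  cases i <;> cases j
  · rfl
  · have h1 : q₁ ≤ p₁ := hij
    have h2 : q₁ = p₁ := Ideal.eq_of_le_of_height_le (I := q₁) (J := p₁) h1 (by rw [hph₁, hqh₁])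
    exact absurd h2.symm hpq₁
  · have h1 : p₁ ≤ q₁ := hij
    have h2 : p₁ = q₁ := Ideal.eq_of_le_of_height_le (I := p₁) (J := q₁) h1 (by rw [hph₁, hqh₁])
    exact absurd h2 hpq₁
  · rfl

variable (M : ℕ) [NeZero M] {ℓ : ℕ} [hℓ : Fact ℓ.Prime] (hℓM : ¬ ℓ ∣ M)
  (A : ValuationSubring Qbar) (hA : A.LiesOverPrime ℓ)
  (E : IntermediateField (H45.unrCyclo ℓ) Qbar) [FiniteDimensional (H45.unrCyclo ℓ) E]
  (ϖ : H45.cutOver A E) (hϖ : IsLocalRing.maximalIdeal (H45.cutOver A E) = Ideal.span {ϖ})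
  (hE : ∀ (τ : Qbar ≃ₐ[ℚ] Qbar) (x : Qbar), x ∈ E → τ x ∈ E)

local notation "kA" => IsLocalRing.ResidueField A
set_option quotPrecheck false in
local notation "FME" => modularFunctionFieldFullC (↥E) M
set_option quotPrecheck false in
local notation "FNE" => modularFunctionFieldFullC (↥E) (ℓ * M)

include hϖ in
set_option maxHeartbeats 6400000 in
/-- **(E3) at the `E`-level, level `ℓ * M`.** -/
theorem exists_hG_E {φ : Qbar ≃ₐ[ℚ] Qbar} (hF : A.IsFrobeniusAt φ ℓ)
    {B : Type*} [CommRing B] [IsDomain B] [Algebra B FNE] [IsFractionRing B FNE]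
    [IsNoetherianRing B] [IsIntegrallyClosed B]
    (p₁ q₁ : Ideal B) [p₁.IsPrime] [q₁.IsPrime] (hph₁ : p₁.height = 1) (hqh₁ : q₁.height = 1)
    (hpq₁ : p₁ ≠ q₁) :
    letI := algebraVMEFN M hℓM A hA E
    ∀ (Pinf : CA.H99.PlaceOver (L := FNE) (constVME M hℓM A hA E ϖ) (S18.H16.jNK (↥E) (ℓ * M))
        (resME M hℓM A hA E) (resME M hℓM A hA E (jMVE M hℓM A hA E) ^ ℓ))
      (P0 : CA.H99.PlaceOver (L := FNE) (constVME M hℓM A hA E ϖ) (S18.H16.jNK (↥E) (ℓ * M))
        (iotaZeroE M hℓM A hA E) (resME M hℓM A hA E (jMVE M hℓM A hA E)))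
      (hBinf : ∀ b : B, algebraMap B FNE b ∈ Pinf.O1)
      (_hredinf : ∀ b : B, b ∈ p₁ ↔ Pinf.res1 ⟨algebraMap B FNE b, hBinf b⟩ = 0)
      (hB0 : ∀ b : B, algebraMap B FNE b ∈ P0.O1)
      (_hred0 : ∀ b : B, b ∈ q₁ ↔ P0.res1 ⟨algebraMap B FNE b, hB0 b⟩ = 0)
      {m : ℕ} (_hm : 0 < m) {f : FNE} (_hf : f ≠ 0)
      (_hup : (H56.valuationSubringAt (K := FNE) p₁ hph₁).valuation
        (((H45.galActFullC E hE (ℓ * M) φ).trans (H45.galActFullC E hE (ℓ * M) φ)) f / f) = 1)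
      (_huq : (H56.valuationSubringAt (K := FNE) q₁ hqh₁).valuation
        (((H45.galActFullC E hE (ℓ * M) φ).trans (H45.galActFullC E hE (ℓ * M) φ)) f / f) = 1)
      (_hα : ∃ (c : ↥E) (h : FME), c ≠ 0 ∧ h ≠ 0 ∧
        (letI := degAlgebra (↥E) M (ℓ * M) (dvd_level M); Algebra.norm FME f) =
          algebraMap (↥E) FME c * h ^ m)
      (_hβ : ∃ (c : ↥E) (h : FME), c ≠ 0 ∧ h ≠ 0 ∧
        (letI := S35.H16.vAlgebra (↥E) ℓ M (ℓ * M) dvd_rfl; Algebra.norm FME f) =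
          algebraMap (↥E) FME c * h ^ m),
      ∃ G : FNE, G ≠ 0 ∧
        OneU (H56.valuationSubringAt (K := FNE) p₁ hph₁)
          ((((H45.galActFullC E hE (ℓ * M) φ).trans (H45.galActFullC E hE (ℓ * M) φ))
              (((H45.galActFullC E hE (ℓ * M) φ).trans (H45.galActFullC E hE (ℓ * M) φ)) f / f) /
            (((H45.galActFullC E hE (ℓ * M) φ).trans (H45.galActFullC E hE (ℓ * M) φ)) f / f)) /
            G ^ m) ∧
        OneU (H56.valuationSubringAt (K := FNE) q₁ hqh₁)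
          ((((H45.galActFullC E hE (ℓ * M) φ).trans (H45.galActFullC E hE (ℓ * M) φ))
              (((H45.galActFullC E hE (ℓ * M) φ).trans (H45.galActFullC E hE (ℓ * M) φ)) f / f) /
            (((H45.galActFullC E hE (ℓ * M) φ).trans (H45.galActFullC E hE (ℓ * M) φ)) f / f)) /
            G ^ m) := by
  letI iι := algebraVMEFN M hℓM A hA E
  haveI : CharP kA ℓ := S18.H92.charP_residueField A hA
  haveI : NeZero ℓ := ⟨hℓ.out.ne_zero⟩
  intro Pinf P0 hBinf hredinf hB0 hred0 m hm f hf hup huq hα hβ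
  obtain ⟨D, hD⟩ := Fermat.Agent.S28.H16.hasModPoly ℓ
  obtain ⟨cα, gα, hcα, hgα, hnα⟩ := hα
  obtain ⟨cβ, gβ, hcβ, hgβ, hnβ⟩ := hβ
  have hφdec := hF.mem_decompositionSubgroup
  -- the two norm residues
  obtain ⟨sα, hsα, hresα⟩ := exists_mem_kummerS_alpha M hℓM A hA E hE (ℓ * M) φ hφdec ϖ hϖ
    (dvd_level M) hf hcα hgα hnα
  obtain ⟨sβ, hsβ, hresβ⟩ := exists_mem_kummerS_beta M hℓM A hA E hE (ℓ * M) φ hφdec ϖ hϖ ℓ
    dvd_rfl hf hcβ hgβ hnβ
  -- the family of vertical primes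
  haveI hP : ∀ j : Bool, (cond j p₁ q₁ : Ideal B).IsPrime := fun j => by
    cases j
    · exact ‹q₁.IsPrime›
    · exact ‹p₁.IsPrime›
  have hh : ∀ j : Bool, (cond j p₁ q₁ : Ideal B).height = 1 := fun j => by
    cases j
    · exact hqh₁
    · exact hph₁
  have hu : ∀ j : Bool, (H56.valuationSubringAt (K := FNE) (cond j p₁ q₁) (hh j)).valuation
      (((H45.galActFullC E hE (ℓ * M) φ).trans (H45.galActFullC E hE (ℓ * M) φ)) f / f) = 1 :=
    fun j => by
      cases j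
      · exact huq
      · exact hup
  have g2α := S35.H16.g2alpha_VME M hℓM A hA E ϖ hϖ D hD Pinf P0
  have g2β := S35.H16.g2beta_VME M hℓM A hA E ϖ hϖ D hD Pinf P0
  have key := exists_hG_of_places (fun j : Bool => cond j p₁ q₁) hh
    (bool_family_incomparable p₁ q₁ hph₁ hqh₁ hpq₁) Pinf P0 hBinf hredinf hB0 hred0
    (PM := gaussResPlaceE M hℓM A hA E)
    (HahnSeries.C : kA →+* LaurentSeries kA) (frobenius kA ℓ)
    ((H45.galActFullC E hE (ℓ * M) φ).trans (H45.galActFullC E hE (ℓ * M) φ))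
    (coeffMap (frobenius kA ℓ))
    (@Algebra.norm FME FNE _ _ (degAlgebra (↥E) M (ℓ * M) (dvd_level M)))
    (@Algebra.norm FME FNE _ _ (S35.H16.vAlgebra (↥E) ℓ M (ℓ * M) dvd_rfl)) m
    (exists_pow_eq_units A hm) (coeffMap_C_eq A (frobenius kA ℓ))
    (C_mem_resUnits_inf M hℓM A hA E ϖ Pinf) (C_mem_resUnits_zero M hℓM A hA E ϖ P0)
    (resUnits_le_inf M hℓM A hA E ϖ Pinf) (resUnits_le_zero M hℓM A hA E ϖ P0)
    (map_coeffMap_mem_resUnits M hℓM A hA E hE hF (frobenius kA ℓ) (frobenius_def ℓ))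
    (hasRes_frob_sq_inf M hℓM A hA E ϖ hE hF (frobenius kA ℓ) (frobenius_def ℓ) Pinf)
    (hasRes_frob_sq_zero M hℓM A hA E ϖ hE hF (frobenius kA ℓ) (frobenius_def ℓ) P0)
    g2α g2β hu hresα hresβ hsα hsβ
  obtain ⟨G, hG0, -, hG⟩ := key
  exact ⟨G, hG0, hG true, hG false⟩

end Fermat.Agent.S35.H46
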