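/-
S35, second clause, node (E3) (helper46): **`hG` at a VARIABLE level `N = ℓ * M`**, in the literal
shape of the hypothesis `hE3` of helper18's `H18.geoFnE'_inst` (instantiate `M := M0`, `ℓ := q`,
`N := M0 * q`, `hN := Nat.mul_comm M0 q`, `hMN := dvd_mul_right M0 q`,
`hlMN := dvd_of_eq (mul_comm q M0)`).

* `algebraVMEFNat`, the two place types at level `N` are those of helper92's `S35.H92_L0PlacesE`
  (syntactically, at `N = ℓ * M`);
* `exists_hG_level` : `H46.exists_hG_E` at the level `N` (proof: `subst`);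
* `hE3_level` : the places are chosen inside; remaining hypotheses = the bridge chart ↔ places
  (for ALL places of the two types) and the units.
-/
import Mathlib
import Fermat.Agent.S35.H46_G3FinalE
import Fermat.Agent.S35.H18_Desc35

set_option autoImplicit false
set_option linter.unusedSectionVars false
set_option linter.style.haveILetI false
set_option synthInstance.maxHeartbeats 400000

noncomputable section

namespace Fermat.Agent.S35.H46

open ModularCurve IsLocalRing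
open Fermat.Agent.S18 Fermat.Agent.S34 Fermat.Agent.S34.H47 Fermat.Agent.S35.H92 Fermat.Agent.S34.H16

local notation "Qbar" => AlgebraicClosure ℚ

variable (M : ℕ) [NeZero M] {ℓ : ℕ} [hℓ : Fact ℓ.Prime] (hℓM : ¬ ℓ ∣ M)
  (A : ValuationSubring Qbar) (hA : A.LiesOverPrime ℓ)
  (E : IntermediateField (H45.unrCyclo ℓ) Qbar)

local notation "kA" => IsLocalRing.ResidueField A
set_option quotPrecheck false in
local notation "FME" => modularFunctionFieldFullC (↥E) M

/-- `VME → F_N(E)` at a variable level `N` (`M ∣ N`): the composite `VME ⊆ F_M(E) ⊆ F_N(E)`.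
At `N = ℓ * M` this is helper92's `S35.H92.algebraVMEFN`. -/
abbrev algebraVMEFNat (N : ℕ) [NeZero N] (hMN : M ∣ N) :
    Algebra (VME M hℓM A hA E) (modularFunctionFieldFullC (↥E) N) :=
  ((@algebraMap FME (modularFunctionFieldFullC (↥E) N) _ _ (degAlgebra (↥E) M N hMN)).comp
    (algebraMap (VME M hℓM A hA E) FME)).toAlgebra

variable [FiniteDimensional (H45.unrCyclo ℓ) E]
  (ϖ : H45.cutOver A E) (hϖ : IsLocalRing.maximalIdeal (H45.cutOver A E) = Ideal.span {ϖ})
  (hE : ∀ (τ : Qbar ≃ₐ[ℚ] Qbar) (x : Qbar), x ∈ E → τ x ∈ E)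
  (N : ℕ) [NeZero N]

include hϖ in
set_option maxHeartbeats 6400000 in
/-- **(E3) at a variable level.** -/
theorem exists_hG_level (hN : N = ℓ * M) (hMN : M ∣ N) (hlMN : ℓ * M ∣ N)
    {φ : Qbar ≃ₐ[ℚ] Qbar} (hF : A.IsFrobeniusAt φ ℓ)
    {B : Type*} [CommRing B] [IsDomain B] [Algebra B (modularFunctionFieldFullC (↥E) N)]
    [IsFractionRing B (modularFunctionFieldFullC (↥E) N)]
    [IsNoetherianRing B] [IsIntegrallyClosed B]
    (p₁ q₁ : Ideal B) [p₁.IsPrime] [q₁.IsPrime] (hph₁ : p₁.height = 1) (hqh₁ : q₁.height = 1)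
    (hpq₁ : p₁ ≠ q₁) :
    letI := algebraVMEFNat M hℓM A hA E N hMN
    ∀ (Pinf : CA.H99.PlaceOver (L := modularFunctionFieldFullC (↥E) N) (constVME M hℓM A hA E ϖ)
        (S18.H16.jNK (↥E) N) (resME M hℓM A hA E) (resME M hℓM A hA E (jMVE M hℓM A hA E) ^ ℓ))
      (P0 : CA.H99.PlaceOver (L := modularFunctionFieldFullC (↥E) N) (constVME M hℓM A hA E ϖ)
        (S18.H16.jNK (↥E) N) (iotaZeroE M hℓM A hA E) (resME M hℓM A hA E (jMVE M hℓM A hA E)))
      (hBinf : ∀ b : B, algebraMap B (modularFunctionFieldFullC (↥E) N) b ∈ Pinf.O1)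
      (_hredinf : ∀ b : B, b ∈ p₁ ↔
        Pinf.res1 ⟨algebraMap B (modularFunctionFieldFullC (↥E) N) b, hBinf b⟩ = 0)
      (hB0 : ∀ b : B, algebraMap B (modularFunctionFieldFullC (↥E) N) b ∈ P0.O1)
      (_hred0 : ∀ b : B, b ∈ q₁ ↔
        P0.res1 ⟨algebraMap B (modularFunctionFieldFullC (↥E) N) b, hB0 b⟩ = 0)
      {m : ℕ} (_hm : 0 < m) {f : modularFunctionFieldFullC (↥E) N} (_hf : f ≠ 0)
      (_hup : (H56.valuationSubringAt (K := modularFunctionFieldFullC (↥E) N) p₁ hph₁).valuation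
        (((H45.galActFullC E hE N φ).trans (H45.galActFullC E hE N φ)) f / f) = 1)
      (_huq : (H56.valuationSubringAt (K := modularFunctionFieldFullC (↥E) N) q₁ hqh₁).valuation
        (((H45.galActFullC E hE N φ).trans (H45.galActFullC E hE N φ)) f / f) = 1)
      (_hα : ∃ (c : ↥E) (h : FME), c ≠ 0 ∧ h ≠ 0 ∧
        (letI := degAlgebra (↥E) M N hMN; Algebra.norm FME f) = algebraMap (↥E) FME c * h ^ m)
      (_hβ : ∃ (c : ↥E) (h : FME), c ≠ 0 ∧ h ≠ 0 ∧
        (letI := S35.H16.vAlgebra (↥E) ℓ M N hlMN; Algebra.norm FME f) =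
          algebraMap (↥E) FME c * h ^ m),
      ∃ G : modularFunctionFieldFullC (↥E) N, G ≠ 0 ∧
        OneU (H56.valuationSubringAt (K := modularFunctionFieldFullC (↥E) N) p₁ hph₁)
          ((((H45.galActFullC E hE N φ).trans (H45.galActFullC E hE N φ))
              (((H45.galActFullC E hE N φ).trans (H45.galActFullC E hE N φ)) f / f) /
            (((H45.galActFullC E hE N φ).trans (H45.galActFullC E hE N φ)) f / f)) / G ^ m) ∧
        OneU (H56.valuationSubringAt (K := modularFunctionFieldFullC (↥E) N) q₁ hqh₁)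
          ((((H45.galActFullC E hE N φ).trans (H45.galActFullC E hE N φ))
              (((H45.galActFullC E hE N φ).trans (H45.galActFullC E hE N φ)) f / f) /
            (((H45.galActFullC E hE N φ).trans (H45.galActFullC E hE N φ)) f / f)) / G ^ m) := by
  subst hN
  exact exists_hG_E M hℓM A hA E ϖ hϖ hE hF p₁ q₁ hph₁ hqh₁ hpq₁

include hϖ in
set_option maxHeartbeats 1600000 in
/-- the two places exist at the level `N`. -/
theorem nonempty_places_level (hN : N = ℓ * M) (hMN : M ∣ N) :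
    letI := algebraVMEFNat M hℓM A hA E N hMN
    Nonempty (CA.H99.PlaceOver (L := modularFunctionFieldFullC (↥E) N) (constVME M hℓM A hA E ϖ)
        (S18.H16.jNK (↥E) N) (resME M hℓM A hA E) (resME M hℓM A hA E (jMVE M hℓM A hA E) ^ ℓ)) ∧
      Nonempty (CA.H99.PlaceOver (L := modularFunctionFieldFullC (↥E) N)
        (constVME M hℓM A hA E ϖ) (S18.H16.jNK (↥E) N) (iotaZeroE M hℓM A hA E)
        (resME M hℓM A hA E (jMVE M hℓM A hA E))) := by
  subst hN
  haveI : NeZero ℓ := ⟨hℓ.out.ne_zero⟩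
  obtain ⟨D, hD⟩ := Fermat.Agent.S28.H16.hasModPoly ℓ
  exact ⟨nonempty_placeInftyE M hℓM A hA E ϖ hϖ D hD, nonempty_placeZeroE M hℓM A hA E ϖ hϖ D hD⟩

include hϖ in
set_option maxHeartbeats 6400000 in
/-- **(E3) in the literal shape of `hE3` of `H18.geoFnE'_inst`**, at a variable level. -/
theorem hE3_level (hN : N = ℓ * M) (hMN : M ∣ N) (hlMN : ℓ * M ∣ N)
    {φ : Qbar ≃ₐ[ℚ] Qbar} (hF : A.IsFrobeniusAt φ ℓ)
    {B : Type*} [CommRing B] [IsDomain B] [Algebra B (modularFunctionFieldFullC (↥E) N)]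
    [IsFractionRing B (modularFunctionFieldFullC (↥E) N)]
    [IsNoetherianRing B] [IsIntegrallyClosed B]
    (p₁ q₁ : Ideal B) [p₁.IsPrime] [q₁.IsPrime] (hph₁ : p₁.height = 1) (hqh₁ : q₁.height = 1)
    (hpq₁ : p₁ ≠ q₁)
    (hbridge : letI := algebraVMEFNat M hℓM A hA E N hMN
      ∀ (Pinf : CA.H99.PlaceOver (L := modularFunctionFieldFullC (↥E) N)
          (constVME M hℓM A hA E ϖ) (S18.H16.jNK (↥E) N) (resME M hℓM A hA E)
          (resME M hℓM A hA E (jMVE M hℓM A hA E) ^ ℓ))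
        (P0 : CA.H99.PlaceOver (L := modularFunctionFieldFullC (↥E) N)
          (constVME M hℓM A hA E ϖ) (S18.H16.jNK (↥E) N) (iotaZeroE M hℓM A hA E)
          (resME M hℓM A hA E (jMVE M hℓM A hA E))),
        ∃ (hBinf : ∀ b : B, algebraMap B (modularFunctionFieldFullC (↥E) N) b ∈ Pinf.O1)
          (hB0 : ∀ b : B, algebraMap B (modularFunctionFieldFullC (↥E) N) b ∈ P0.O1),
          (∀ b : B, b ∈ p₁ ↔
            Pinf.res1 ⟨algebraMap B (modularFunctionFieldFullC (↥E) N) b, hBinf b⟩ = 0) ∧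
          ∀ b : B, b ∈ q₁ ↔
            P0.res1 ⟨algebraMap B (modularFunctionFieldFullC (↥E) N) b, hB0 b⟩ = 0)
    (hunit : ∀ f : modularFunctionFieldFullC (↥E) N, f ≠ 0 →
      (H56.valuationSubringAt (K := modularFunctionFieldFullC (↥E) N) p₁ hph₁).valuation
          (((H45.galActFullC E hE N φ).trans (H45.galActFullC E hE N φ)) f / f) = 1 ∧
        (H56.valuationSubringAt (K := modularFunctionFieldFullC (↥E) N) q₁ hqh₁).valuation
          (((H45.galActFullC E hE N φ).trans (H45.galActFullC E hE N φ)) f / f) = 1)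
    {m : ℕ} (hm : 0 < m) (f : modularFunctionFieldFullC (↥E) N) (hf : f ≠ 0)
    (hα : ∃ (c : ↥E) (h : FME), c ≠ 0 ∧ h ≠ 0 ∧
      (letI := degAlgebra (↥E) M N hMN; Algebra.norm FME f) = algebraMap (↥E) FME c * h ^ m)
    (hβ : ∃ (c : ↥E) (h : FME), c ≠ 0 ∧ h ≠ 0 ∧
      (letI := S35.H16.vAlgebra (↥E) ℓ M N hlMN; Algebra.norm FME f) =
        algebraMap (↥E) FME c * h ^ m) :
    ∃ G : modularFunctionFieldFullC (↥E) N, G ≠ 0 ∧
      OneU (H56.valuationSubringAt (K := modularFunctionFieldFullC (↥E) N) p₁ hph₁)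
        (S35.H18.ratE (H45.galActFullC E hE N φ) 1 (S35.H18.ratE (H45.galActFullC E hE N φ) 1 f) /
          G ^ m) ∧
      OneU (H56.valuationSubringAt (K := modularFunctionFieldFullC (↥E) N) q₁ hqh₁)
        (S35.H18.ratE (H45.galActFullC E hE N φ) 1 (S35.H18.ratE (H45.galActFullC E hE N φ) 1 f) /
          G ^ m) := by
  letI := algebraVMEFNat M hℓM A hA E N hMN
  obtain ⟨⟨Pinf⟩, ⟨P0⟩⟩ := nonempty_places_level M hℓM A hA E ϖ hϖ N hN hMN
  have hb := hbridge Pinf P0
  obtain ⟨hBinf, hB0, hredinf, hred0⟩ := hb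
  have hu := hunit f hf
  have key := exists_hG_level M hℓM A hA E ϖ hϖ hE N hN hMN hlMN hF p₁ q₁ hph₁ hqh₁ hpq₁
  have key1 := key Pinf P0 hBinf hredinf hB0 hred0 hm hf hu.1 hu.2 hα hβ
  rw [S35.H18.ratE_one, S35.H18.ratE_one]
  exact key1

end Fermat.Agent.S35.H46
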