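import Mathlib
import Fermat.Agent.CA.H99_TwoPlacesThm

/-!
S35 / (E3) (helper85): COMPARISON of two `CA.H99.PlaceOver` structures ACROSS A FIELD EMBEDDING
`f : L →+* L'` (instance: the coefficientwise base change `F_N(K₁) → F_N(E)`).

If `P` is a place of `L` for `(O, θ, ι, θb)` and `P'` a place of `L'` for `(O', θ', ι', θb')` with
the same target field `Fk`, and `P'` "sees" the data of `P` through `f`:

* `hO : ∀ a : O, f (algebraMap O L a) ∈ P'.O1` with `P'.res1 (f (algebraMap O L a)) = ι a`,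
* `hθ : f θ ∈ P'.O1` with `P'.res1 (f θ) = θb`,

then `f ⁻¹' P'.O1 = P.O1` and `P'.res1 ∘ f = P.res1` on `P.O1`
(twin of `CA.H16.le_of_transport`, which is the case `L = L'`, `f = id`).
-/

set_option autoImplicit false
set_option linter.unusedSectionVars false

namespace Fermat.Agent.S35.H85

open Polynomial

section PlaceMap

variable {O O' : Type*} [CommRing O] [CommRing O'] {L L' : Type*} [Field L] [Field L']
  [Algebra O L] [Algebra O' L'] {Fk : Type*} [Field Fk]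
  {ϖ : O} {θ : L} {ι : O →+* Fk} {θb : Fk}
  {ϖ' : O'} {θ' : L'} {ι' : O' →+* Fk} {θb' : Fk}
  (P : CA.H99.PlaceOver ϖ θ ι θb) (P' : CA.H99.PlaceOver ϖ' θ' ι' θb')
  (f : L →+* L')
  (hO : ∀ a : O, ∃ h : f (algebraMap O L a) ∈ P'.O1, P'.res1 ⟨_, h⟩ = ι a)
  (hθ : ∃ h : f θ ∈ P'.O1, P'.res1 ⟨_, h⟩ = θb)

include hO hθ

/-- images of polynomials in `θ` over `O` lie in `P'.O1`, with the expected residue. -/
theorem map_aeval_mem (s : O[X]) :
    ∃ h : f (aeval θ s) ∈ P'.O1, P'.res1 ⟨_, h⟩ = s.eval₂ ι θb := by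
  let g : O →+* P'.O1 := (f.comp (algebraMap O L)).codRestrict P'.O1 (fun a => (hO a).1)
  let t : P'.O1 := ⟨f θ, hθ.1⟩
  have hsub : ((eval₂ g t s : P'.O1) : L') = f (aeval θ s) := by
    have h1 := Polynomial.hom_eval₂ s g P'.O1.subtype t
    rw [aeval_def, Polynomial.hom_eval₂]
    exact h1
  have hres : P'.res1 (eval₂ g t s) = s.eval₂ ι θb := by
    have h1 := Polynomial.hom_eval₂ s g P'.res1 t
    rw [h1]
    have h2 : P'.res1.comp g = ι := by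
      ext a
      exact (hO a).2
    have h3 : P'.res1 t = θb := hθ.2
    rw [h2, h3]
  have hmem : f (aeval θ s) ∈ P'.O1 := by
    rw [← hsub]
    exact (eval₂ g t s).2
  refine ⟨hmem, ?_⟩
  rw [← hres]
  exact congrArg P'.res1 (Subtype.ext hsub.symm)

/-- **`f (P.O1) ⊆ P'.O1`, with the same residues.** -/
theorem map_mem_of_mem {y : L} (hy : y ∈ P.O1) :
    ∃ h : f y ∈ P'.O1, P'.res1 ⟨f y, h⟩ = P.res1 ⟨y, hy⟩ := by
  obtain ⟨a, s, hs, e⟩ := P.exists_repr y hy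
  obtain ⟨hsP, esP⟩ := map_aeval_mem P' f hO hθ s
  obtain ⟨haP, eaP⟩ := map_aeval_mem P' f hO hθ a
  have hsne : P'.res1 ⟨f (aeval θ s), hsP⟩ ≠ 0 := by
    rw [esP]
    exact hs
  have hs0 : f (aeval θ s) ≠ 0 := by
    intro h0
    apply hsne
    have : (⟨f (aeval θ s), hsP⟩ : P'.O1) = 0 := Subtype.ext h0
    rw [this, map_zero]
  have hinv := P'.inv_mem _ hsP hsne
  have e' : f y * f (aeval θ s) = f (aeval θ a) := by rw [← map_mul, e]
  have hy' : f y = f (aeval θ a) * (f (aeval θ s))⁻¹ := by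
    rw [← e', mul_assoc, mul_inv_cancel₀ hs0, mul_one]
  have hyP : f y ∈ P'.O1 := by
    rw [hy']
    exact P'.O1.mul_mem haP hinv
  refine ⟨hyP, ?_⟩
  -- residues: `res' (f y) * s̄(θb) = ā(θb)` and `res y * s̄(θb) = ā(θb)`
  have h1 : P'.res1 ⟨f y, hyP⟩ * P'.res1 ⟨f (aeval θ s), hsP⟩ = P'.res1 ⟨f (aeval θ a), haP⟩ := by
    rw [← map_mul]
    exact congrArg P'.res1 (Subtype.ext e')
  -- the same computation inside `P`
  have hOid : ∀ b : O, ∃ h : (RingHom.id L) (algebraMap O L b) ∈ P.O1, P.res1 ⟨_, h⟩ = ι b :=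
    fun b => ⟨P.algebraMap_mem b, P.res1_algebraMap b⟩
  have hθid : ∃ h : (RingHom.id L) θ ∈ P.O1, P.res1 ⟨_, h⟩ = θb := ⟨P.θ_mem, P.res1_θ⟩
  obtain ⟨hsQ, esQ⟩ := map_aeval_mem P (RingHom.id L) hOid hθid s
  obtain ⟨haQ, eaQ⟩ := map_aeval_mem P (RingHom.id L) hOid hθid a
  have h2 : P.res1 ⟨y, hy⟩ * P.res1 ⟨aeval θ s, hsQ⟩ = P.res1 ⟨aeval θ a, haQ⟩ := by
    rw [← map_mul]
    exact congrArg P.res1 (Subtype.ext e)
  have esQ' : P.res1 ⟨aeval θ s, hsQ⟩ = s.eval₂ ι θb := esQ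
  have eaQ' : P.res1 ⟨aeval θ a, haQ⟩ = a.eval₂ ι θb := eaQ
  rw [esP, eaP] at h1
  rw [esQ', eaQ'] at h2
  exact mul_right_cancel₀ hs (h1.trans h2.symm)

omit hO hθ in
/-- elements of `L` outside `P.O1` have an inverse in `P.O1` with residue `0`. -/
theorem res1_inv_eq_zero_of_not_mem {y : L} (hy : y ∉ P.O1) :
    ∃ h : y⁻¹ ∈ P.O1, P.res1 ⟨y⁻¹, h⟩ = 0 := by
  rcases P.mem_or_inv_mem y with h | h
  · exact absurd h hy
  · refine ⟨h, ?_⟩
    by_contra hne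
    have := P.inv_mem _ h hne
    rw [inv_inv] at this
    exact hy this

/-- **`f ⁻¹' P'.O1 ⊆ P.O1`.** -/
theorem mem_of_map_mem {y : L} (hy : f y ∈ P'.O1) : y ∈ P.O1 := by
  by_contra hn
  obtain ⟨hi, ei⟩ := res1_inv_eq_zero_of_not_mem P hn
  obtain ⟨hi', ei'⟩ := map_mem_of_mem P P' f hO hθ hi
  have hy0 : y ≠ 0 := by
    rintro rfl
    exact hn P.O1.zero_mem
  have hfy0 : f y ≠ 0 := (map_ne_zero f).2 hy0
  have h1 : (⟨f y, hy⟩ : P'.O1) * ⟨f y⁻¹, hi'⟩ = 1 := by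
    apply Subtype.ext
    show f y * f y⁻¹ = 1
    rw [← map_mul, mul_inv_cancel₀ hy0, map_one]
  have h2 := congrArg P'.res1 h1
  rw [map_mul, ei', ei, mul_zero, map_one] at h2
  exact zero_ne_one h2

/-- **`f ⁻¹' P'.O1 = P.O1`.** -/
theorem map_mem_iff {y : L} : f y ∈ P'.O1 ↔ y ∈ P.O1 :=
  ⟨mem_of_map_mem P P' f hO hθ, fun hy => (map_mem_of_mem P P' f hO hθ hy).1⟩

/-- residues agree, for arbitrary membership proofs. -/
theorem res1_map_eq {y : L} (hy : y ∈ P.O1) (hy' : f y ∈ P'.O1) :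
    P'.res1 ⟨f y, hy'⟩ = P.res1 ⟨y, hy⟩ :=
  (map_mem_of_mem P P' f hO hθ hy).2

end PlaceMap

end Fermat.Agent.S35.H85
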