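import Mathlib
import Fermat.Agent.S35.H85_PlaceMap
import Fermat.Agent.S35.H92_L0PlacesE
import Fermat.Agent.S35.H92_GaussLevelMEAut
import Fermat.Agent.S34.H16_L0Places

/-!
S35 / (E3) (helper85): **the E-level L0 places restrict to the A₁-level L0 places** along the
coefficientwise base change `baseChangeE E (ℓ M) : F_N(K₁) → F_N(E)`.

For `P` a place of `F_N(K₁)` over `V_M = H92.VM` (helper16's `S34.H16_L0Places` types) and `P''` a
place of `F_N(E)` over `V_M(E) = H92.VME` (helper92's `S35.H92_L0PlacesE` types) of the same kind: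

  `y ∈ P.O1 ↔ baseChangeE y ∈ P''.O1`,   `P''.res1 (baseChangeE y) = P.res1 y`.

Instance of `S35.H85_PlaceMap` (inputs: helper92's `baseChangeE_mem_VME`, `baseChangeE_jNK`).
-/

set_option autoImplicit false
set_option linter.unusedSectionVars false
set_option linter.style.haveILetI false
set_option synthInstance.maxHeartbeats 400000
set_option maxHeartbeats 1600000

noncomputable section

namespace Fermat.Agent.S35.H85

open ModularCurve Polynomial IsLocalRing Fermat.Agent.S28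
open Fermat.Agent.S18 Fermat.Agent.S34.H92 Fermat.Agent.S34.H16 Fermat.Agent.S35.H92

local notation "Qbar" => AlgebraicClosure ℚ

/-- `baseChangeE` commutes with the inclusions `F_M ⊆ F_N`. -/
theorem baseChangeE_degAlgebra {ℓ : ℕ} (E : IntermediateField (H45.unrCyclo ℓ) Qbar)
    (M N : ℕ) [NeZero M] [NeZero N] (h : M ∣ N)
    (x : modularFunctionFieldFullC (H45.unrCyclo ℓ) M) :
    H45.baseChangeE E N
        (@algebraMap (modularFunctionFieldFullC (H45.unrCyclo ℓ) M)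
          (modularFunctionFieldFullC (H45.unrCyclo ℓ) N) _ _
          (degAlgebra (H45.unrCyclo ℓ) M N h) x) =
      @algebraMap (modularFunctionFieldFullC (↥E) M) (modularFunctionFieldFullC (↥E) N) _ _
        (degAlgebra (↥E) M N h) (H45.baseChangeE E M x) := by
  apply Subtype.ext
  rw [H45.coe_baseChangeE, degAlgebra_algebraMap_coe, degAlgebra_algebraMap_coe,
    H45.coe_baseChangeE]

section Restrict

variable (M : ℕ) [NeZero M] {ℓ : ℕ} [hℓ : Fact ℓ.Prime] (hℓM : ¬ ℓ ∣ M)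
  (A : ValuationSubring Qbar) (hA : A.LiesOverPrime ℓ)
  (E : IntermediateField (H45.unrCyclo ℓ) Qbar)

local notation "kA" => IsLocalRing.ResidueField A
local notation "L₁" => H45.unrCyclo ℓ
local notation "FM" => modularFunctionFieldFullC (H45.unrCyclo ℓ) M
local notation "FN" => modularFunctionFieldFullC (H45.unrCyclo ℓ) (ℓ * M)
local notation "V" => VM M hℓM A hA
set_option quotPrecheck false in
local notation "FME" => modularFunctionFieldFullC (↥E) M
set_option quotPrecheck false in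
local notation "FNE" => modularFunctionFieldFullC (↥E) (ℓ * M)
set_option quotPrecheck false in
local notation "VE" => VME M hℓM A hA E

/-- the image of `a ∈ V_M` in `F_N(E)` is the image of `baseChangeE a ∈ V_M(E)`. -/
theorem baseChangeE_algebraMap_VM (a : V) (hm : H45.baseChangeE E M (a : FM) ∈ VE) :
    H45.baseChangeE E (ℓ * M) (@algebraMap V FN _ _ (algebraVMFN M hℓM A hA) a) =
      @algebraMap VE FNE _ _ (algebraVMEFN M hℓM A hA E) ⟨H45.baseChangeE E M (a : FM), hm⟩ :=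
  baseChangeE_degAlgebra E M (ℓ * M) (dvd_level M) (a : FM)

/-- `hO` of `S35.H85_PlaceMap` at the base change: a place of `F_N(E)` over `V_M(E)` sees `V_M`
through `baseChangeE`, with residue `ι` as soon as `ι' ∘ baseChangeE = ι` on `V_M`. -/
theorem placeE_sees_VM {ϖV : VE} {θ' : FNE} {ι' : VE →+* LaurentSeries kA}
    {θb' : LaurentSeries kA} (ι : V →+* LaurentSeries kA)
    (hι : ∀ (a : V) (h : H45.baseChangeE E M (a : FM) ∈ VE), ι' ⟨_, h⟩ = ι a) :
    letI := algebraVMFN M hℓM A hA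
    letI := algebraVMEFN M hℓM A hA E
    ∀ (P' : CA.H99.PlaceOver (L := FNE) ϖV θ' ι' θb') (a : V),
      ∃ h : H45.baseChangeE E (ℓ * M) (algebraMap V FN a) ∈ P'.O1, P'.res1 ⟨_, h⟩ = ι a := by
  letI := algebraVMFN M hℓM A hA
  letI := algebraVMEFN M hℓM A hA E
  intro P' a
  obtain ⟨hm, -⟩ := baseChangeE_mem_VME M hℓM A hA E (a : FM) a.2
  have e := baseChangeE_algebraMap_VM M hℓM A hA E a hm
  have hmem : H45.baseChangeE E (ℓ * M) (algebraMap V FN a) ∈ P'.O1 := by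
    rw [e]
    exact P'.algebraMap_mem _
  refine ⟨hmem, ?_⟩
  exact ((congrArg P'.res1 (Subtype.ext e)).trans (P'.res1_algebraMap ⟨_, hm⟩)).trans (hι a hm)

/-- **General form.** `P` over `V_M` with `(ι, θb)`, `P'` over `V_M(E)` with `(ι', θb')`, both with
`θ = j_N`, `ι' ∘ baseChangeE = ι` on `V_M` and `θb' = θb`. -/
theorem placeE_baseChangeE {ϖV : V} {ϖV' : VE} {ι : V →+* LaurentSeries kA}
    {ι' : VE →+* LaurentSeries kA} {θb θb' : LaurentSeries kA}
    (hι : ∀ (a : V) (h : H45.baseChangeE E M (a : FM) ∈ VE), ι' ⟨_, h⟩ = ι a)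
    (hθb : θb' = θb) :
    letI := algebraVMFN M hℓM A hA
    letI := algebraVMEFN M hℓM A hA E
    ∀ (P : CA.H99.PlaceOver (L := FN) ϖV (S18.H16.jNK L₁ (ℓ * M)) ι θb)
      (P' : CA.H99.PlaceOver (L := FNE) ϖV' (S18.H16.jNK (↥E) (ℓ * M)) ι' θb') {y : FN},
      (∀ hy : y ∈ P.O1, ∃ h : H45.baseChangeE E (ℓ * M) y ∈ P'.O1,
        P'.res1 ⟨_, h⟩ = P.res1 ⟨y, hy⟩) ∧
      (H45.baseChangeE E (ℓ * M) y ∈ P'.O1 ↔ y ∈ P.O1) := by
  letI := algebraVMFN M hℓM A hA
  letI := algebraVMEFN M hℓM A hA E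
  subst hθb
  intro P P' y
  have hO := placeE_sees_VM M hℓM A hA E ι hι P'
  have hθ : ∃ h : H45.baseChangeE E (ℓ * M) (S18.H16.jNK L₁ (ℓ * M)) ∈ P'.O1,
      P'.res1 ⟨_, h⟩ = θb' := by
    have e := H45.baseChangeE_jNK (ℓ := ℓ) E (ℓ * M)
    have hm : H45.baseChangeE E (ℓ * M) (S18.H16.jNK L₁ (ℓ * M)) ∈ P'.O1 := by
      rw [e]; exact P'.θ_mem
    exact ⟨hm, (congrArg P'.res1 (Subtype.ext e)).trans P'.res1_θ⟩
  exact ⟨fun hy => map_mem_of_mem P P' (H45.baseChangeE E (ℓ * M)) hO hθ hy,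
    map_mem_iff P P' (H45.baseChangeE E (ℓ * M)) hO hθ⟩

/-- `resME ∘ baseChangeE = resM` on `V_M` (helper92), in the `hι` shape. -/
theorem resME_baseChangeE (a : V) (h : H45.baseChangeE E M (a : FM) ∈ VE) :
    resME M hℓM A hA E ⟨_, h⟩ = resM M hℓM A hA a :=
  (baseChangeE_mem_VME M hℓM A hA E (a : FM) a.2).2

theorem iotaZeroE_baseChangeE (a : V) (h : H45.baseChangeE E M (a : FM) ∈ VE) :
    iotaZeroE M hℓM A hA E ⟨_, h⟩ = iotaZero M hℓM A hA a := by
  rw [iotaZeroE_apply, iotaZero_apply, resME_baseChangeE]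

theorem resME_jMVE_eq : resME M hℓM A hA E (jMVE M hℓM A hA E) = resM M hℓM A hA (jMV M hℓM A hA) := by
  rw [resME_jMVE, resM_jMV]

/-- **The `∞`-place of `F_N(E)` restricts to the `∞`-place of `F_N(K₁)`.** -/
theorem placeInftyE_baseChangeE (ϖ : H45.cutOver A E) :
    letI := algebraVMFN M hℓM A hA
    letI := algebraVMEFN M hℓM A hA E
    ∀ (P : CA.H99.PlaceOver (L := FN) ((ℓ : ℕ) : V) (S18.H16.jNK L₁ (ℓ * M))
        (resM M hℓM A hA) (resM M hℓM A hA (jMV M hℓM A hA) ^ ℓ))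
      (P' : CA.H99.PlaceOver (L := FNE) (constVME M hℓM A hA E ϖ) (S18.H16.jNK (↥E) (ℓ * M))
        (resME M hℓM A hA E) (resME M hℓM A hA E (jMVE M hℓM A hA E) ^ ℓ)) {y : FN},
      (∀ hy : y ∈ P.O1, ∃ h : H45.baseChangeE E (ℓ * M) y ∈ P'.O1,
        P'.res1 ⟨_, h⟩ = P.res1 ⟨y, hy⟩) ∧
      (H45.baseChangeE E (ℓ * M) y ∈ P'.O1 ↔ y ∈ P.O1) :=
  placeE_baseChangeE M hℓM A hA E (resME_baseChangeE M hℓM A hA E)
    (by rw [resME_jMVE_eq])

/-- **The `0`-place of `F_N(E)` restricts to the `0`-place of `F_N(K₁)`.** -/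
theorem placeZeroE_baseChangeE (ϖ : H45.cutOver A E) :
    letI := algebraVMFN M hℓM A hA
    letI := algebraVMEFN M hℓM A hA E
    ∀ (P : CA.H99.PlaceOver (L := FN) ((ℓ : ℕ) : V) (S18.H16.jNK L₁ (ℓ * M))
        (iotaZero M hℓM A hA) (resM M hℓM A hA (jMV M hℓM A hA)))
      (P' : CA.H99.PlaceOver (L := FNE) (constVME M hℓM A hA E ϖ) (S18.H16.jNK (↥E) (ℓ * M))
        (iotaZeroE M hℓM A hA E) (resME M hℓM A hA E (jMVE M hℓM A hA E))) {y : FN},
      (∀ hy : y ∈ P.O1, ∃ h : H45.baseChangeE E (ℓ * M) y ∈ P'.O1,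
        P'.res1 ⟨_, h⟩ = P.res1 ⟨y, hy⟩) ∧
      (H45.baseChangeE E (ℓ * M) y ∈ P'.O1 ↔ y ∈ P.O1) :=
  placeE_baseChangeE M hℓM A hA E (iotaZeroE_baseChangeE M hℓM A hA E)
    (resME_jMVE_eq M hℓM A hA E)

/-- constants of `A'' = cutOver A E` at any place of `F_N(E)` over `V_M(E)`. -/
theorem placeE_const {ϖV : VE} {θ' : FNE} {ι' : VE →+* LaurentSeries kA}
    {θb' : LaurentSeries kA} :
    letI := algebraVMEFN M hℓM A hA E
    ∀ (P' : CA.H99.PlaceOver (L := FNE) ϖV θ' ι' θb') (a : H45.cutOver A E),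
      ∃ h : algebraMap (↥E) FNE (a : ↥E) ∈ P'.O1,
        P'.res1 ⟨_, h⟩ = ι' (constVME M hℓM A hA E a) := by
  letI := algebraVMEFN M hℓM A hA E
  intro P' a
  have e : algebraMap VE FNE (constVME M hℓM A hA E a) = algebraMap (↥E) FNE (a : ↥E) := by
    apply Subtype.ext
    show ((@algebraMap FME FNE _ _ (degAlgebra (↥E) M (ℓ * M) (dvd_level M))
      ((constVME M hℓM A hA E a : VE) : FME) : FNE) : LaurentSeries (↥E)) = _
    rw [degAlgebra_algebraMap_coe, coe_constVME]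
    rfl
  have hm : algebraMap (↥E) FNE (a : ↥E) ∈ P'.O1 := by
    rw [← e]; exact P'.algebraMap_mem _
  exact ⟨hm, (congrArg P'.res1 (Subtype.ext e.symm)).trans
    (P'.res1_algebraMap (constVME M hℓM A hA E a))⟩

end Restrict

end Fermat.Agent.S35.H85
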