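import Mathlib
import Fermat.Agent.S35.H85_PlaceRestrict
import Fermat.Agent.S35.H70_TwoComponentsBCInst

/-!
S35 / (E3) bridge (helper85): **the E-level chart inside the E-level L0 places.**

`B'' = chartB (cutOver A E) (baseChangeE E N J₁)` (`N = ℓ M`), generated by the `A₁`-chart
`B₁ = chartB A₁ J₁` and the constants `A'' = cutOver A E` (helper40's (a)' = helper70's `GenBy`).
For an `A₁`-level place `P` of `F_N(K₁)` over `H92.VM` containing `B₁` with
`incl (red b) = P.res1 b` on `B₁` (the output shape of `S34.H55.twoComponents_JK`), and the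
E-level place `P''` of `F_N(E)` over `H92.VME` of the same kind:

  `B'' ⊆ P''.O1`   and   `P''.res1 z = incl (redE red z)`  for all `z ∈ B''`,

where `redE red` is helper70's extension of `red` to `B''` (`S35.H70.redE`).  Consequently
`redE red z = 0 ↔ P''.res1 z = 0`: the inputs `hBinf hredinf hB0 hred0` of
`S35.H46.exists_hG_of_places` / `S35.H84.valuationSubringAt_ker_eq_place` at the E-level.
-/

set_option autoImplicit false
set_option linter.unusedSectionVars false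
set_option linter.style.haveILetI false
set_option synthInstance.maxHeartbeats 400000
set_option maxHeartbeats 3200000

noncomputable section

namespace Fermat.Agent.S35.H85

open ModularCurve Polynomial IsLocalRing Fermat.Agent.S28
open Fermat.Agent.S18 Fermat.Agent.S34.H92 Fermat.Agent.S34.H16 Fermat.Agent.S35.H92

local notation "Qbar" => AlgebraicClosure ℚ

/-- **Closure induction.** A subalgebra `S` generated (as a ring) by `G`, a subring `O1` with a
ring hom `res`, and a ring hom `r` on `S`: if every generator lies in `O1` with `res g = incl (r g)`,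
then `S ⊆ O1` and `res = incl ∘ r` on `S`. -/
theorem exists_res_eq_of_gens {R' F' Fk R₀ : Type*} [CommRing R'] [CommRing F'] [Algebra R' F']
    [CommRing Fk] [CommRing R₀]
    (S : Subalgebra R' F') (G : Set F') (hgen : ∀ z, z ∈ S ↔ z ∈ Subring.closure G)
    (O1 : Subring F') (res : O1 →+* Fk) (r : S →+* R₀) (incl : R₀ →+* Fk)
    (hG : ∀ g (hg : g ∈ G), ∃ h1 : g ∈ O1,
      res ⟨g, h1⟩ = incl (r ⟨g, (hgen g).2 (Subring.subset_closure hg)⟩))
    (z : S) : ∃ hz : (z : F') ∈ O1, res ⟨z, hz⟩ = incl (r z) := by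
  have key : ∀ x (hx : x ∈ Subring.closure G),
      ∃ h1 : x ∈ O1, res ⟨x, h1⟩ = incl (r ⟨x, (hgen x).2 hx⟩) := by
    intro x hx
    induction hx using Subring.closure_induction with
    | mem x hx => exact hG x hx
    | zero =>
      refine ⟨O1.zero_mem, ?_⟩
      have e1 : (⟨0, O1.zero_mem⟩ : O1) = 0 := rfl
      have e2 : (⟨0, (hgen 0).2 (Subring.zero_mem _)⟩ : S) = 0 := rfl
      rw [e1, e2, map_zero, map_zero, map_zero]
    | one =>
      refine ⟨O1.one_mem, ?_⟩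
      have e1 : (⟨1, O1.one_mem⟩ : O1) = 1 := rfl
      have e2 : (⟨1, (hgen 1).2 (Subring.one_mem _)⟩ : S) = 1 := rfl
      rw [e1, e2, map_one, map_one, map_one]
    | add x y hx hy ihx ihy =>
      obtain ⟨h1, e1⟩ := ihx
      obtain ⟨h2, e2⟩ := ihy
      refine ⟨O1.add_mem h1 h2, ?_⟩
      have f1 : (⟨x + y, O1.add_mem h1 h2⟩ : O1) = ⟨x, h1⟩ + ⟨y, h2⟩ := rfl
      have f2 : (⟨x + y, (hgen (x + y)).2 (Subring.add_mem _ hx hy)⟩ : S) =
          ⟨x, (hgen x).2 hx⟩ + ⟨y, (hgen y).2 hy⟩ := rfl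
      rw [f1, f2, map_add, map_add, map_add, e1, e2]
    | neg x hx ihx =>
      obtain ⟨h1, e1⟩ := ihx
      refine ⟨O1.neg_mem h1, ?_⟩
      have f1 : (⟨-x, O1.neg_mem h1⟩ : O1) = -⟨x, h1⟩ := rfl
      have f2 : (⟨-x, (hgen (-x)).2 (Subring.neg_mem _ hx)⟩ : S) = -⟨x, (hgen x).2 hx⟩ := rfl
      rw [f1, f2, map_neg, map_neg, map_neg, e1]
    | mul x y hx hy ihx ihy =>
      obtain ⟨h1, e1⟩ := ihx
      obtain ⟨h2, e2⟩ := ihy
      refine ⟨O1.mul_mem h1 h2, ?_⟩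
      have f1 : (⟨x * y, O1.mul_mem h1 h2⟩ : O1) = ⟨x, h1⟩ * ⟨y, h2⟩ := rfl
      have f2 : (⟨x * y, (hgen (x * y)).2 (Subring.mul_mem _ hx hy)⟩ : S) =
          ⟨x, (hgen x).2 hx⟩ * ⟨y, (hgen y).2 hy⟩ := rfl
      rw [f1, f2, map_mul, map_mul, map_mul, e1, e2]
  obtain ⟨h1, e1⟩ := key z ((hgen z).1 z.2)
  exact ⟨h1, e1⟩

section Chart

variable (M : ℕ) [NeZero M] {ℓ : ℕ} [hℓ : Fact ℓ.Prime] (hℓM : ¬ ℓ ∣ M)
  (A : ValuationSubring Qbar) (hA : A.LiesOverPrime ℓ)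
  (E : IntermediateField (H45.unrCyclo ℓ) Qbar) [FiniteDimensional (H45.unrCyclo ℓ) E]

local notation "kA" => IsLocalRing.ResidueField A
local notation "L₁" => H45.unrCyclo ℓ
local notation "A₁" => H45.A0 A ℓ
local notation "A₂" => H45.cutOver A E
local notation "FM" => modularFunctionFieldFullC (H45.unrCyclo ℓ) M
local notation "FN" => modularFunctionFieldFullC (H45.unrCyclo ℓ) (ℓ * M)
local notation "V" => VM M hℓM A hA
set_option quotPrecheck false in
local notation "FME" => modularFunctionFieldFullC (↥E) M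
set_option quotPrecheck false in
local notation "FNE" => modularFunctionFieldFullC (↥E) (ℓ * M)
set_option quotPrecheck false in
local notation "VE" => VME M hℓM A hA E

/-- **`B'' ⊆ P''.O1` and `P''.res1 = incl ∘ redE red` on `B''`** (general `ι`, `ι'`). -/
theorem chartE_res1_eq (J₁ : FN) (π : A₂) (hπ : maximalIdeal A₂ = Ideal.span {π})
    (h : H70.GenBy (A := A) E (ℓ * M) J₁)
    {ϖV : V} {ϖV' : VE} {ι : V →+* LaurentSeries kA} {ι' : VE →+* LaurentSeries kA}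
    {θb θb' : LaurentSeries kA}
    (hι : ∀ (a : V) (h : H45.baseChangeE E M (a : FM) ∈ VE), ι' ⟨_, h⟩ = ι a)
    (hθb : θb' = θb)
    (hιc : ∀ a : A₂, ι' (constVME M hℓM A hA E a) = HahnSeries.C (resE A E a))
    {R₀ : Type*} [CommRing R₀] (red : ↥(H40.chartB A₁ J₁) →+* R₀)
    (hq : red (algebraMap A₁ ↥(H40.chartB A₁ J₁) ((ℓ : ℕ) : A₁)) = 0)
    (incl : R₀ →+* LaurentSeries kA) :
    letI := algebraVMFN M hℓM A hA
    letI := algebraVMEFN M hℓM A hA E
    ∀ (P : CA.H99.PlaceOver (L := FN) ϖV (S18.H16.jNK L₁ (ℓ * M)) ι θb)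
      (P' : CA.H99.PlaceOver (L := FNE) ϖV' (S18.H16.jNK (↥E) (ℓ * M)) ι' θb')
      (hBO : ∀ b : ↥(H40.chartB A₁ J₁), (b : FN) ∈ P.O1)
      (_ : ∀ b : ↥(H40.chartB A₁ J₁), incl (red b) = P.res1 ⟨(b : FN), hBO b⟩)
      (z : ↥(H40.chartB A₂ (H45.baseChangeE E (ℓ * M) J₁))),
      ∃ hz : (z : FNE) ∈ P'.O1,
        P'.res1 ⟨(z : FNE), hz⟩ = incl (H70.redE hℓ.out hA E (ℓ * M) J₁ π hπ h red hq z) := by
  letI := algebraVMFN M hℓM A hA
  letI := algebraVMEFN M hℓM A hA E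
  intro P P' hBO hspec z
  have hrestr : ∀ {y : FN} (hy : y ∈ P.O1), ∃ h : H45.baseChangeE E (ℓ * M) y ∈ P'.O1,
      P'.res1 ⟨_, h⟩ = P.res1 ⟨y, hy⟩ := fun {y} hy =>
    (placeE_baseChangeE M hℓM A hA E hι hθb P P' (y := y)).1 hy
  have hconst : ∀ a : A₂, ∃ h : algebraMap (↥E) FNE (a : ↥E) ∈ P'.O1,
      P'.res1 ⟨_, h⟩ = HahnSeries.C (resE A E a) := by
    intro a
    have k := placeE_const M hℓM A hA E P' a
    obtain ⟨hm, e⟩ := k
    exact ⟨hm, e.trans (hιc a)⟩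
  refine exists_res_eq_of_gens (H40.chartB A₂ (H45.baseChangeE E (ℓ * M) J₁)) _ h P'.O1 P'.res1
    (H70.redE hℓ.out hA E (ℓ * M) J₁ π hπ h red hq) incl ?_ z
  rintro g (⟨b, rfl⟩ | ⟨a, rfl⟩)
  · -- generators from the `A₁`-chart
    have k1 := hrestr (y := (b : FN)) (hBO b)
    obtain ⟨hm, e⟩ := k1
    refine ⟨hm, ?_⟩
    have e2 := H70.redE_chartMapE hℓ.out hA E (ℓ * M) J₁ π hπ h red hq b
    have e3 : (⟨H45.baseChangeE E (ℓ * M) (b : FN), (h _).2 (Subring.subset_closure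
        (Or.inl ⟨b, rfl⟩))⟩ : ↥(H40.chartB A₂ (H45.baseChangeE E (ℓ * M) J₁))) =
        S34.H70.chartMapE (A := A) E (ℓ * M) J₁ b := Subtype.ext rfl
    rw [e3, e2, hspec b]
    exact e
  · -- constants
    obtain ⟨c, a', hca⟩ := S34.H70.h1_inst hℓ.out hA E π hπ a
    have k1 := hconst a
    obtain ⟨hm, e⟩ := k1
    refine ⟨hm, ?_⟩
    have e2 := H70.redE_algebraMap hℓ.out hA E (ℓ * M) J₁ π hπ h red hq hca
    have e3 : (⟨algebraMap A₂ FNE a, (h _).2 (Subring.subset_closure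
        (Or.inr ⟨a, rfl⟩))⟩ : ↥(H40.chartB A₂ (H45.baseChangeE E (ℓ * M) J₁))) =
        algebraMap A₂ ↥(H40.chartB A₂ (H45.baseChangeE E (ℓ * M) J₁)) a := Subtype.ext rfl
    -- the `A₁`-constant `c` seen at `P` and at `P'`
    have k2 := hrestr (y := ((algebraMap A₁ ↥(H40.chartB A₁ J₁) c : ↥(H40.chartB A₁ J₁)) : FN))
      (hBO (algebraMap A₁ ↥(H40.chartB A₁ J₁) c))
    obtain ⟨hm2, e4⟩ := k2
    have e5 : H45.baseChangeE E (ℓ * M)
        ((algebraMap A₁ ↥(H40.chartB A₁ J₁) c : ↥(H40.chartB A₁ J₁)) : FN) =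
        algebraMap (↥E) FNE ((algebraMap A₁ A₂ c : A₂) : ↥E) :=
      S34.H70.baseChangeE_algebraMap_A0 (A := A) E (ℓ * M) c
    have k3 := hconst (algebraMap A₁ A₂ c)
    obtain ⟨hm3, e6⟩ := k3
    have e7 : P'.res1 ⟨_, hm2⟩ = P'.res1 ⟨_, hm3⟩ := congrArg P'.res1 (Subtype.ext e5)
    -- residues of `a` and `c` agree
    have e8 : resE A E a = resE A E (algebraMap A₁ A₂ c) := by
      rw [hca, map_add, map_mul, resE_uniformizer A E π hπ, zero_mul, add_zero]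
    have e9 := hspec (algebraMap A₁ ↥(H40.chartB A₁ J₁) c)
    have e10 : incl (H70.redE hℓ.out hA E (ℓ * M) J₁ π hπ h red hq
        ⟨algebraMap A₂ FNE a, (h _).2 (Subring.subset_closure (Or.inr ⟨a, rfl⟩))⟩) =
        incl (red (algebraMap A₁ ↥(H40.chartB A₁ J₁) c)) :=
      congrArg incl ((congrArg (H70.redE hℓ.out hA E (ℓ * M) J₁ π hπ h red hq) e3).trans e2)
    exact e.trans ((congrArg (HahnSeries.C : kA →+* LaurentSeries kA) e8).trans
      (e6.symm.trans (e7.symm.trans (e4.trans (e9.symm.trans e10.symm)))))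

/-- `B'' ⊆ P''.O1`. -/
theorem chartE_mem (J₁ : FN)
    (h : H70.GenBy (A := A) E (ℓ * M) J₁)
    {ϖV : V} {ϖV' : VE} {ι : V →+* LaurentSeries kA} {ι' : VE →+* LaurentSeries kA}
    {θb θb' : LaurentSeries kA}
    (hι : ∀ (a : V) (h : H45.baseChangeE E M (a : FM) ∈ VE), ι' ⟨_, h⟩ = ι a)
    (hθb : θb' = θb) :
    letI := algebraVMFN M hℓM A hA
    letI := algebraVMEFN M hℓM A hA E
    ∀ (P : CA.H99.PlaceOver (L := FN) ϖV (S18.H16.jNK L₁ (ℓ * M)) ι θb)
      (P' : CA.H99.PlaceOver (L := FNE) ϖV' (S18.H16.jNK (↥E) (ℓ * M)) ι' θb')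
      (_ : ∀ b : ↥(H40.chartB A₁ J₁), (b : FN) ∈ P.O1)
      (z : ↥(H40.chartB A₂ (H45.baseChangeE E (ℓ * M) J₁))), (z : FNE) ∈ P'.O1 := by
  letI := algebraVMFN M hℓM A hA
  letI := algebraVMEFN M hℓM A hA E
  intro P P' hBO z
  have hz := (h (z : FNE)).1 z.2
  refine Subring.closure_le.2 ?_ hz
  rintro g (⟨b, rfl⟩ | ⟨a, rfl⟩)
  · exact ((placeE_baseChangeE M hℓM A hA E hι hθb P P' (y := (b : FN))).1 (hBO b)).1
  · exact (placeE_const M hℓM A hA E P' a).1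

/-- **`hred` at the E-level chart**: `redE red z = 0 ↔ P''.res1 z = 0` (for injective `incl`). -/
theorem chartE_hred (J₁ : FN) (π : A₂) (hπ : maximalIdeal A₂ = Ideal.span {π})
    (h : H70.GenBy (A := A) E (ℓ * M) J₁)
    {ϖV : V} {ϖV' : VE} {ι : V →+* LaurentSeries kA} {ι' : VE →+* LaurentSeries kA}
    {θb θb' : LaurentSeries kA}
    (hι : ∀ (a : V) (h : H45.baseChangeE E M (a : FM) ∈ VE), ι' ⟨_, h⟩ = ι a)
    (hθb : θb' = θb)
    (hιc : ∀ a : A₂, ι' (constVME M hℓM A hA E a) = HahnSeries.C (resE A E a))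
    {R₀ : Type*} [CommRing R₀] (red : ↥(H40.chartB A₁ J₁) →+* R₀)
    (hq : red (algebraMap A₁ ↥(H40.chartB A₁ J₁) ((ℓ : ℕ) : A₁)) = 0)
    (incl : R₀ →+* LaurentSeries kA) (hincl : Function.Injective incl) :
    letI := algebraVMFN M hℓM A hA
    letI := algebraVMEFN M hℓM A hA E
    ∀ (P : CA.H99.PlaceOver (L := FN) ϖV (S18.H16.jNK L₁ (ℓ * M)) ι θb)
      (P' : CA.H99.PlaceOver (L := FNE) ϖV' (S18.H16.jNK (↥E) (ℓ * M)) ι' θb')
      (hBO : ∀ b : ↥(H40.chartB A₁ J₁), (b : FN) ∈ P.O1)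
      (_ : ∀ b : ↥(H40.chartB A₁ J₁), incl (red b) = P.res1 ⟨(b : FN), hBO b⟩)
      (z : ↥(H40.chartB A₂ (H45.baseChangeE E (ℓ * M) J₁))) (hz : (z : FNE) ∈ P'.O1),
      H70.redE hℓ.out hA E (ℓ * M) J₁ π hπ h red hq z = 0 ↔ P'.res1 ⟨(z : FNE), hz⟩ = 0 := by
  letI := algebraVMFN M hℓM A hA
  letI := algebraVMEFN M hℓM A hA E
  intro P P' hBO hspec z hz
  have k := chartE_res1_eq M hℓM A hA E J₁ π hπ h hι hθb hιc red hq incl P P' hBO hspec z
  obtain ⟨hz', e⟩ := k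
  have e' : P'.res1 ⟨(z : FNE), hz⟩ =
      incl (H70.redE hℓ.out hA E (ℓ * M) J₁ π hπ h red hq z) := e
  constructor
  · intro h0
    exact e'.trans ((congrArg incl h0).trans (map_zero incl))
  · intro h0
    apply hincl
    exact (e'.symm.trans h0).trans (map_zero incl).symm

/-- the `hιc` input at the `∞`-place: `resME (const a) = C (resE a)`. -/
theorem hιc_infty (a : A₂) :
    resME M hℓM A hA E (constVME M hℓM A hA E a) = HahnSeries.C (resE A E a) :=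
  resME_const M hℓM A hA E a

/-- the `hιc` input at the `0`-place: `iotaZeroE (const a) = C (resE a)`. -/
theorem hιc_zero (a : A₂) :
    iotaZeroE M hℓM A hA E (constVME M hℓM A hA E a) = HahnSeries.C (resE A E a) := by
  rw [iotaZeroE_apply, resME_const, qExpand_C]

end Chart

end Fermat.Agent.S35.H85
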