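/-
helper18 — S35 row GEO-TOP-E, final assembly, part A: **the place bridge of one `E`-level chart.**

For a chart `chartB A₁ u` of `F_N(K₁)` (`N = ℓ * M`) with helper55's side facts `H55.L0ChartFacts`
(the chart lies in the two `A₁`-level L0 places `P∞`, `P₀`, and `red₁`, `red₂` are the restrictions
of their reductions), the `E`-level chart `B'' = chartB (cutOver A E) (baseChangeE E N u)` lies in
EVERY pair of `E`-level L0 places `P∞''`, `P₀''`, and the kernels of helper70's extended reductions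
`H70.redE red₁`, `H70.redE red₂` are cut out by the reductions of these places:

* `hbridge_chart` : in the literal shape of the hypothesis `hbridge` of helper46's `H46.hE3_level`
  (at `N := ℓ * M`), from helper85's `chartE_mem` / `chartE_hred`;
* `coord_redE_ne_zero` : the chart coordinate is a unit at `ker (redE red)`.
-/
import Mathlib
import Fermat.Agent.S35.H55_L0Pkg
import Fermat.Agent.S35.H85_ChartPlaceE
import Fermat.Agent.S35.H46_G3Level
import Fermat.Agent.S35.H70_TwoComponentsBCUniq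

set_option autoImplicit false
set_option linter.unusedSectionVars false
set_option linter.style.haveILetI false
set_option synthInstance.maxHeartbeats 400000
set_option maxHeartbeats 3200000

noncomputable section

namespace Fermat.Agent.S35.H18

open ModularCurve IsLocalRing
open Fermat.Agent.S18 Fermat.Agent.S34 Fermat.Agent.S34.H92 Fermat.Agent.S34.H16
open Fermat.Agent.S35.H92 Fermat.Agent.S34.H55

local notation "Qbar" => AlgebraicClosure ℚ

variable (M : ℕ) [NeZero M] {ℓ : ℕ} [hℓ : Fact ℓ.Prime] (hℓM : ¬ ℓ ∣ M)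
  (A : ValuationSubring Qbar) (hA : A.LiesOverPrime ℓ)
  (E : IntermediateField (H45.unrCyclo ℓ) Qbar) [FiniteDimensional (H45.unrCyclo ℓ) E]

local notation "kA" => IsLocalRing.ResidueField A
local notation "A₁" => H45.A0 A ℓ
local notation "A₂" => H45.cutOver A E
local notation "FN" => modularFunctionFieldFullC (H45.unrCyclo ℓ) (ℓ * M)
local notation "FkM" => modularFunctionFieldFullC (IsLocalRing.ResidueField A) M
set_option quotPrecheck false in
local notation "FNE" => modularFunctionFieldFullC (↥E) (ℓ * M)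

/-- the inclusion of a branch ring into `kA((t))`. -/
def inclBranch (w : FkM) : ↥(integralClosure (Algebra.adjoin kA {w}) FkM) →+* LaurentSeries kA :=
  ((inclk M A : FkM →ₐ[kA] LaurentSeries kA) : FkM →+* LaurentSeries kA).comp
    (integralClosure (Algebra.adjoin kA {w}) FkM).val.toRingHom

theorem inclBranch_injective (w : FkM) : Function.Injective (inclBranch M A w) := fun _ _ h =>
  Subtype.ext (Subtype.ext h)

/-- the chart coordinate is not in the vertical prime `ker (redE red)`. -/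
theorem coord_redE_ne_zero (u : FN) (π : A₂) (hπ : maximalIdeal A₂ = Ideal.span {π})
    (hG : S35.H70.GenBy (A := A) E (ℓ * M) u) {R₀ : Type*} [CommRing R₀]
    (red : ↥(H40.chartB A₁ u) →+* R₀)
    (hq : red (algebraMap A₁ ↥(H40.chartB A₁ u) ((ℓ : ℕ) : A₁)) = 0)
    (hc : red ⟨u, H40.self_mem_chartB u⟩ ≠ 0) :
    S35.H70.redE hℓ.out hA E (ℓ * M) u π hπ hG red hq
      (⟨H45.baseChangeE E (ℓ * M) u, H40.self_mem_chartB _⟩ :
        ↥(H40.chartB A₂ (H45.baseChangeE E (ℓ * M) u))) ≠ 0 := by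
  have h := S35.H70.redE_chartMapE hℓ.out hA E (ℓ * M) u π hπ hG red hq
    ⟨u, H40.self_mem_chartB u⟩
  have e : (⟨H45.baseChangeE E (ℓ * M) u, H40.self_mem_chartB _⟩ :
      ↥(H40.chartB A₂ (H45.baseChangeE E (ℓ * M) u))) =
      S34.H70.chartMapE (A := A) E (ℓ * M) u ⟨u, H40.self_mem_chartB u⟩ := Subtype.ext rfl
  rw [e, h]
  exact hc

set_option maxHeartbeats 6400000 in
/-- **The place bridge of one `E`-level chart**, in the shape of `hbridge` of `H46.hE3_level`. -/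
theorem hbridge_chart (Pi : PlaceInf M hℓM A hA) (P0 : PlaceZero M hℓM A hA)
    {u : FN} {w : FkM}
    (red₁ red₂ : ↥(H40.chartB A₁ u) →+* ↥(integralClosure (Algebra.adjoin kA {w}) FkM))
    (F : S35.H55.L0ChartFacts M hℓM A hA Pi P0 red₁ red₂)
    (π : A₂) (hπ : maximalIdeal A₂ = Ideal.span {π})
    (hG : S35.H70.GenBy (A := A) E (ℓ * M) u) (hMN : M ∣ ℓ * M) :
    letI := S35.H46.algebraVMEFNat M hℓM A hA E (ℓ * M) hMN
    ∀ (Pinf : CA.H99.PlaceOver (L := FNE) (constVME M hℓM A hA E π) (S18.H16.jNK (↥E) (ℓ * M))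
        (resME M hℓM A hA E) (resME M hℓM A hA E (jMVE M hℓM A hA E) ^ ℓ))
      (P0' : CA.H99.PlaceOver (L := FNE) (constVME M hℓM A hA E π) (S18.H16.jNK (↥E) (ℓ * M))
        (iotaZeroE M hℓM A hA E) (resME M hℓM A hA E (jMVE M hℓM A hA E))),
      ∃ (hBinf : ∀ b : ↥(H40.chartB A₂ (H45.baseChangeE E (ℓ * M) u)),
          algebraMap ↥(H40.chartB A₂ (H45.baseChangeE E (ℓ * M) u)) FNE b ∈ Pinf.O1)
        (hB0 : ∀ b : ↥(H40.chartB A₂ (H45.baseChangeE E (ℓ * M) u)),
          algebraMap ↥(H40.chartB A₂ (H45.baseChangeE E (ℓ * M) u)) FNE b ∈ P0'.O1),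
        (∀ b : ↥(H40.chartB A₂ (H45.baseChangeE E (ℓ * M) u)),
          b ∈ RingHom.ker (S35.H70.redE hℓ.out hA E (ℓ * M) u π hπ hG red₁ F.red₁_ell) ↔
            Pinf.res1 ⟨algebraMap ↥(H40.chartB A₂ (H45.baseChangeE E (ℓ * M) u)) FNE b,
              hBinf b⟩ = 0) ∧
        ∀ b : ↥(H40.chartB A₂ (H45.baseChangeE E (ℓ * M) u)),
          b ∈ RingHom.ker (S35.H70.redE hℓ.out hA E (ℓ * M) u π hπ hG red₂ F.red₂_ell) ↔
            P0'.res1 ⟨algebraMap ↥(H40.chartB A₂ (H45.baseChangeE E (ℓ * M) u)) FNE b,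
              hB0 b⟩ = 0 := by
  letI := S35.H46.algebraVMEFNat M hℓM A hA E (ℓ * M) hMN
  letI := algebraVMFN M hℓM A hA
  intro Pinf P0'
  have hBinf := S35.H85.chartE_mem M hℓM A hA E u hG (S35.H85.resME_baseChangeE M hℓM A hA E)
    (by rw [S35.H85.resME_jMVE_eq]) Pi Pinf F.mem_inf
  have hB0 := S35.H85.chartE_mem M hℓM A hA E u hG (S35.H85.iotaZeroE_baseChangeE M hℓM A hA E)
    (S35.H85.resME_jMVE_eq M hℓM A hA E) P0 P0' F.mem_zero
  have k1 := S35.H85.chartE_hred M hℓM A hA E u π hπ hG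
    (S35.H85.resME_baseChangeE M hℓM A hA E) (by rw [S35.H85.resME_jMVE_eq])
    (S35.H85.hιc_infty M hℓM A hA E) red₁ F.red₁_ell (inclBranch M A w)
    (inclBranch_injective M A w) Pi Pinf F.mem_inf (fun b => F.res_inf b)
  have k2 := S35.H85.chartE_hred M hℓM A hA E u π hπ hG
    (S35.H85.iotaZeroE_baseChangeE M hℓM A hA E) (S35.H85.resME_jMVE_eq M hℓM A hA E)
    (S35.H85.hιc_zero M hℓM A hA E) red₂ F.red₂_ell (inclBranch M A w)
    (inclBranch_injective M A w) P0 P0' F.mem_zero (fun b => F.res_zero b)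
  exact ⟨fun b => hBinf b, fun b => hB0 b,
    fun b => (RingHom.mem_ker).trans (k1 b (hBinf b)),
    fun b => (RingHom.mem_ker).trans (k2 b (hB0 b))⟩

set_option maxHeartbeats 6400000 in
/-- **The place bridge of one `E`-level chart, shared-witness form**: named coordinate
`uE = baseChangeE E N u` and ARBITRARY reductions `red₁'' red₂''` with the clauses of helper70's
`H70.exists_twoComponents_chartBC` (`hc`, `hk`). -/
theorem hbridge_chart' (Pi : PlaceInf M hℓM A hA) (P0 : PlaceZero M hℓM A hA)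
    {u : FN} {w : FkM}
    (red₁ red₂ : ↥(H40.chartB A₁ u) →+* ↥(integralClosure (Algebra.adjoin kA {w}) FkM))
    (F : S35.H55.L0ChartFacts M hℓM A hA Pi P0 red₁ red₂)
    (π : A₂) (hπ : maximalIdeal A₂ = Ideal.span {π})
    (hG : S35.H70.GenBy (A := A) E (ℓ * M) u) (hMN : M ∣ ℓ * M)
    (uE : FNE) (huE : H45.baseChangeE E (ℓ * M) u = uE)
    (red₁'' red₂'' : ↥(H40.chartB A₂ uE) →+* ↥(integralClosure (Algebra.adjoin kA {w}) FkM))
    (hc₁ : ∀ b, red₁'' (S34.H95.chartBC (A := A) E (ℓ * M) u uE huE b) = red₁ b)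
    (hc₂ : ∀ b, red₂'' (S34.H95.chartBC (A := A) E (ℓ * M) u uE huE b) = red₂ b)
    (hk₁ : ∀ (a : A₂) (c : A₁) (a' : A₂), a = algebraMap A₁ A₂ c + π * a' →
      red₁'' (algebraMap A₂ ↥(H40.chartB A₂ uE) a) = red₁ (algebraMap A₁ ↥(H40.chartB A₁ u) c))
    (hk₂ : ∀ (a : A₂) (c : A₁) (a' : A₂), a = algebraMap A₁ A₂ c + π * a' →
      red₂'' (algebraMap A₂ ↥(H40.chartB A₂ uE) a) = red₂ (algebraMap A₁ ↥(H40.chartB A₁ u) c)) :
    letI := S35.H46.algebraVMEFNat M hℓM A hA E (ℓ * M) hMN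
    ∀ (Pinf : CA.H99.PlaceOver (L := FNE) (constVME M hℓM A hA E π) (S18.H16.jNK (↥E) (ℓ * M))
        (resME M hℓM A hA E) (resME M hℓM A hA E (jMVE M hℓM A hA E) ^ ℓ))
      (P0' : CA.H99.PlaceOver (L := FNE) (constVME M hℓM A hA E π) (S18.H16.jNK (↥E) (ℓ * M))
        (iotaZeroE M hℓM A hA E) (resME M hℓM A hA E (jMVE M hℓM A hA E))),
      ∃ (hBinf : ∀ b : ↥(H40.chartB A₂ uE), algebraMap ↥(H40.chartB A₂ uE) FNE b ∈ Pinf.O1)
        (hB0 : ∀ b : ↥(H40.chartB A₂ uE), algebraMap ↥(H40.chartB A₂ uE) FNE b ∈ P0'.O1),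
        (∀ b : ↥(H40.chartB A₂ uE), b ∈ RingHom.ker red₁'' ↔
            Pinf.res1 ⟨algebraMap ↥(H40.chartB A₂ uE) FNE b, hBinf b⟩ = 0) ∧
        ∀ b : ↥(H40.chartB A₂ uE), b ∈ RingHom.ker red₂'' ↔
            P0'.res1 ⟨algebraMap ↥(H40.chartB A₂ uE) FNE b, hB0 b⟩ = 0 := by
  subst huE
  have e1 := S35.H70.eq_redE_of_chartBC hℓ.out hA E (ℓ * M) u π hπ hG red₁ F.red₁_ell rfl
    red₁'' hc₁ hk₁
  have e2 := S35.H70.eq_redE_of_chartBC hℓ.out hA E (ℓ * M) u π hπ hG red₂ F.red₂_ell rfl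
    red₂'' hc₂ hk₂
  rw [e1, e2]
  exact hbridge_chart M hℓM A hA E Pi P0 red₁ red₂ F π hπ hG hMN

end Fermat.Agent.S35.H18
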