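/-
helper18 — S35 row GEO-TOP-E, part 3: **`GeoFnE'` at the concrete types** (the S35 twin of
helper61's `H61.middle_cutOver` / `middle_of_chartPkg_hrad`).

`R := A'' = H45.cutOver A E`, `K := ↥E`, `F := F_E = modularFunctionFieldFullC ↥E (M0 q)`,
`J := H95.JK ↥E (M0 q) q _ = j · j_q`, `B₁ := chartB A'' J`, `B₂ := chartB A'' J⁻¹`,
`Φ := H45.galActFullC E hE (M0 q) φ`, `Ψ := Φ ∘ Φ`, `Q := q ^ 2`, exponent `p ^ n`, `p ≠ q`.

`geoFnE'_inst` : every base-ring / function-field hypothesis of the GEO core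
(`H18.exists_const_mul_pow_of_chartFrob_bool`) is discharged at the concrete types.  What is left,
as named hypotheses in the landed shapes of their producers:

* the six chart instances (`IsFractionRing`, `IsNoetherianRing`, `IsIntegrallyClosed` for `B₁`,
  `B₂`) as instance binders: supply them by `haveI := H95.isFractionRing_chartB_JK ..` etc.
  (they are `Prop`s, so any two proofs agree);
* `hrad₁ hrad₂` : reduced special fibres of the two `E`-level charts (S34: L0 + base change);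
* the two vertical primes of each chart (`p₁ q₁`, `p₂ q₂`: `ker red₁`, `ker red₂` of the `E`-level
  `TwoComponents`, helper70 / helper84) with `V_{p₁} = V_{p₂}`, `V_{q₁} = V_{q₂}` (helper84's
  `valuationSubringAt_ker_eq_place`);
* `C₁ C₂ : H46.ChartFrob` for `Ψ` (helper84 `chartFrob_of_twoComponents` + helper27 / helper45 G1),
  `hFrobR`;
* (E2) the chart-form ratio lemma for `u₁ = Ψ f / f` at all closed points of both charts (helper8);
* (E3) the `(g3)` block: `u₂ = Ψ u₁ / u₁` is a `1`-unit times `G ^ (p ^ n)` at both vertical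
  valuations (helper46 / helper16 / helper94).
-/
import Mathlib
import Fermat.Agent.S35.H18_GeoCore
import Fermat.Agent.S35.H18_Desc35
import Fermat.Agent.S34.H61_MiddleCutOver

set_option autoImplicit false
set_option linter.unusedSectionVars false
set_option linter.style.haveILetI false
set_option synthInstance.maxHeartbeats 400000
set_option maxHeartbeats 3200000

noncomputable section

namespace Fermat.Agent.S35.H18

open ModularCurve AlgebraicCurve HahnSeries IntermediateField IsLocalRing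
open Fermat.Agent.S18 Fermat.Agent.S18.H45 Fermat.Agent.S34

local notation "Qbar" => AlgebraicClosure ℚ
local notation "GQ" => (AlgebraicClosure ℚ ≃ₐ[ℚ] AlgebraicClosure ℚ)

variable {A : ValuationSubring Qbar} {q : ℕ} [NeZero q] (hq : q.Prime) (hA : A.LiesOverPrime q)
variable (E : IntermediateField (unrCyclo q) Qbar) [FiniteDimensional (unrCyclo q) E]
variable (hE : ∀ (τ : GQ) (x : Qbar), x ∈ E → τ x ∈ E)
variable (M0 : ℕ) [NeZero M0]

set_option quotPrecheck false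

local notation "JE" => (H95.JK ↥E (M0 * q) q (dvd_mul_left q M0))
local notation "FE" => ↥(modularFunctionFieldFullC ↥E (M0 * q))
local notation "FEM" => ↥(modularFunctionFieldFullC ↥E M0)
local notation "RE" => ↥(cutOver A E)
local notation "B₁E" => ↥(H40.chartB (cutOver A E) JE)
local notation "B₂E" => ↥(H40.chartB (cutOver A E) JE⁻¹)

include hq hA in
/-- **`GeoFnE'` at the concrete types.** -/
theorem geoFnE'_inst
    [IsFractionRing B₁E FE] [IsFractionRing B₂E FE]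
    [IsNoetherianRing B₁E] [IsIntegrallyClosed B₁E]
    [IsNoetherianRing B₂E] [IsIntegrallyClosed B₂E]
    {p : ℕ} (hp : p.Prime) (hpq : p ≠ q) (φ : GQ) (n : ℕ)
    (T : Set (Place Qbar (S24.FN (M0 * q))))
    (π : RE) (hmax : maximalIdeal RE = Ideal.span {π})
    (hrad₁ : ∀ b : B₁E, (∃ n : ℕ, algebraMap RE B₁E π ∣ b ^ n) → algebraMap RE B₁E π ∣ b)
    (hrad₂ : ∀ b : B₂E, (∃ n : ℕ, algebraMap RE B₂E π ∣ b ^ n) → algebraMap RE B₂E π ∣ b)
    (p₁ q₁ : Ideal B₁E) [p₁.IsPrime] [q₁.IsPrime]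
    (p₂ q₂ : Ideal B₂E) [p₂.IsPrime] [q₂.IsPrime]
    (hp₁ : p₁ ∈ (Ideal.span {algebraMap RE B₁E π}).minimalPrimes)
    (hq₁ : q₁ ∈ (Ideal.span {algebraMap RE B₁E π}).minimalPrimes)
    (hpq₁ : p₁ ≠ q₁)
    (hall₁ : ∀ P ∈ (Ideal.span {algebraMap RE B₁E π}).minimalPrimes, P = p₁ ∨ P = q₁)
    (hall₂ : ∀ P ∈ (Ideal.span {algebraMap RE B₂E π}).minimalPrimes, P = p₂ ∨ P = q₂)
    (hJp₁ : (⟨JE, H40.self_mem_chartB _⟩ : B₁E) ∉ p₁)
    (hJq₁ : (⟨JE, H40.self_mem_chartB _⟩ : B₁E) ∉ q₁)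
    (hJp₂ : (⟨JE⁻¹, H40.self_mem_chartB _⟩ : B₂E) ∉ p₂)
    (hJq₂ : (⟨JE⁻¹, H40.self_mem_chartB _⟩ : B₂E) ∉ q₂)
    (hph₁ : p₁.height = 1) (hqh₁ : q₁.height = 1) (hph₂ : p₂.height = 1) (hqh₂ : q₂.height = 1)
    (hVp : H56.valuationSubringAt (K := FE) p₁ hph₁ = H56.valuationSubringAt (K := FE) p₂ hph₂)
    (hVq : H56.valuationSubringAt (K := FE) q₁ hqh₁ = H56.valuationSubringAt (K := FE) q₂ hqh₂)
    (ΨB₁ : B₁E ≃+* B₁E) (ΨB₂ : B₂E ≃+* B₂E) (ΨR : RE →+* RE)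
    (C₁ : H46.ChartFrob (F := FE) (fun b : Bool => cond b p₁ q₁) π
      ((galActFullC E hE (M0 * q) φ).trans (galActFullC E hE (M0 * q) φ)) ΨB₁ ΨR (q ^ 2))
    (C₂ : H46.ChartFrob (F := FE) (fun b : Bool => cond b p₂ q₂) π
      ((galActFullC E hE (M0 * q) φ).trans (galActFullC E hE (M0 * q) φ)) ΨB₂ ΨR (q ^ 2))
    (hFrobR : ∀ r : RE, π ∣ ΨR r - r ^ (q ^ 2))
    (hE2₁ : ∀ f : FE, H61.Admissible ↥E f (p ^ n) →
      (∀ v ∈ T, v.ord (H99.toBar ↥E (M0 * q) f) = 0) →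
      ∀ m : Ideal B₁E, m.IsMaximal → algebraMap RE B₁E π ∈ m →
        H46.ChartWeakAt (F := FE) (algebraMap RE B₁E π) m
          (galActFullC E hE (M0 * q) φ (galActFullC E hE (M0 * q) φ f) / f) (p ^ n))
    (hE2₂ : ∀ f : FE, H61.Admissible ↥E f (p ^ n) →
      (∀ v ∈ T, v.ord (H99.toBar ↥E (M0 * q) f) = 0) →
      ∀ m : Ideal B₂E, m.IsMaximal → algebraMap RE B₂E π ∈ m →
        H46.ChartWeakAt (F := FE) (algebraMap RE B₂E π) m
          (galActFullC E hE (M0 * q) φ (galActFullC E hE (M0 * q) φ f) / f) (p ^ n))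
    (hE3 : ∀ f : FE, H61.Admissible ↥E f (p ^ n) →
      (∀ v ∈ T, v.ord (H99.toBar ↥E (M0 * q) f) = 0) →
      (∃ (c : ↥E) (h : FEM), c ≠ 0 ∧ h ≠ 0 ∧
        (letI := H16.degAlgebra ↥E M0 (M0 * q) (dvd_mul_right M0 q);
          Algebra.norm FEM f) = algebraMap ↥E FEM c * h ^ (p ^ n)) →
      (∃ (c : ↥E) (h : FEM), c ≠ 0 ∧ h ≠ 0 ∧
        (letI := S35.H16.vAlgebra ↥E q M0 (M0 * q) (dvd_of_eq (mul_comm q M0));
          Algebra.norm FEM f) = algebraMap ↥E FEM c * h ^ (p ^ n)) →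
      ∃ G : FE, G ≠ 0 ∧
        H47.OneU (H56.valuationSubringAt (K := FE) p₁ hph₁)
          (ratE (galActFullC E hE (M0 * q) φ) 1 (ratE (galActFullC E hE (M0 * q) φ) 1 f) /
            G ^ (p ^ n)) ∧
        H47.OneU (H56.valuationSubringAt (K := FE) q₁ hqh₁)
          (ratE (galActFullC E hE (M0 * q) φ) 1 (ratE (galActFullC E hE (M0 * q) φ) 1 f) /
            G ^ (p ^ n))) :
    GeoFnE' M0 q E hE φ q (p ^ n) T := by
  haveI := isDiscreteValuationRing_cutOver hq hA E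
  haveI := isAlgClosed_residueField_cutOver hq hA E
  haveI := H95.finiteDimensional_JK ↥E (M0 * q) q (dvd_mul_left q M0)
    (H99.natCast_ne_zero₀ (M0 * q) ↥E)
  haveI := H95.isSeparable_JK ↥E (M0 * q) q (dvd_mul_left q M0)
  have hπ : Irreducible π := irreducible_of_maximalIdeal_cutOver_eq hq hA E hmax
  have hnd : ¬ q ∣ p := fun h => hpq ((Nat.prime_dvd_prime_iff_eq hq hp).mp h).symm
  obtain ⟨ζ, hζ⟩ := H47.exists_isPrimitiveRoot_cutOver (A := A) E hp.ne_zero hnd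
  have hpu := H47.isUnit_natCast_cutOver hq hA E hnd
  have hcl : ∀ z : FE, IsAlgebraic ↥E z → z ∈ (algebraMap ↥E FE).range := fun z hz =>
    Fermat.Agent.CA.H92.mem_range_of_isAlgebraic_intermediateField
      (modularFunctionFieldFullC ↥E (M0 * q)) z hz
  intro f hadm hT hα hβ
  obtain ⟨G, hG0, hGp, hGq⟩ := hE3 f hadm hT hα hβ
  have hf0 : f ≠ 0 := hadm.1
  have hu₁0 : ratE (galActFullC E hE (M0 * q) φ) 1 f ≠ 0 := ratE_ne_zero _ 1 hf0
  have h₁ := hE2₁ f hadm hT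
  have h₂ := hE2₂ f hadm hT
  rw [← ratE_one] at h₁ h₂
  rw [ratE_one (galActFullC E hE (M0 * q) φ) (ratE (galActFullC E hE (M0 * q) φ) 1 f)]
    at hGp hGq
  obtain ⟨c, w, -, hw, hrel⟩ := exists_const_mul_pow_of_chartFrob_bool
    (R := RE) (K := ↥E) JE
    (H95.transcendental_JK ↥E (M0 * q) q (dvd_mul_left q M0)) hcl π hπ hp hpu hζ
    (fun r hr => H47.exists_root_mod hmax hp.pos r hr) hrad₁ hrad₂
    p₁ q₁ p₂ q₂ hp₁ hq₁ hpq₁ hall₁ hall₂ hJp₁ hJq₁ hJp₂ hJq₂ hph₁ hqh₁ hph₂ hqh₂ hVp hVq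
    ((galActFullC E hE (M0 * q) φ).trans (galActFullC E hE (M0 * q) φ)) ΨB₁ ΨB₂ ΨR (q ^ 2)
    C₁ C₂ hFrobR n hu₁0 h₁ h₂ hG0 hGp hGq
  refine ⟨c, w, hw, ?_⟩
  rw [ratE, ratE_one (galActFullC E hE (M0 * q) φ) (ratE (galActFullC E hE (M0 * q) φ) 1 f)]
  exact hrel

end Fermat.Agent.S35.H18
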