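/-
helper18 — S35 row GEO-TOP-E, part 4: **`GeoFnE'` at the concrete types from the `E`-level
`TwoComponents` structures of the two charts.**

`geoFnE'_of_twoComponents` = `H18.geoFnE'_inst` with

* the two vertical primes of each chart := `ker red₁`, `ker red₂` of an `H83.TwoComponents`
  structure on the chart (helper70's TC-BC at the `E`-level charts); minimality, exhaustion and
  height one come from helper84's `H84_ChartFrobTC`;
* `hrad₁ hrad₂` := `H3.hrad_of_twoComponents` (reduced special fibres are part of `TwoComponents`);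
* `C₁ C₂ : H46.ChartFrob` := helper84's `chartFrob_of_twoComponents` from the G1 facts
  (`hΨ`, `hΨR`, `hΨπ`, the semilinear reductions `h1Ψ h2Ψ`, `hW`);
* the rationality of the nodes (`hrat`) discharged: `A'' / π` is algebraically closed and the charts
  are of finite type over `A''` (`H83.hres_of_residue`).

Left as hypotheses: the two `TwoComponents` packages, `J^{±1} ∉ ker red_k`, the identification of the
valuation rings of the two charts (`hVp hVq`: both are the valuation ring of the same place,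
helper84's `valuationSubringAt_ker_eq_place`), the G1 facts, `hFrobR`, (E2), (E3).
-/
import Mathlib
import Fermat.Agent.S35.H18_GeoTop
import Fermat.Agent.S35.H18_GeoCoreTC

set_option autoImplicit false
set_option linter.unusedSectionVars false
set_option linter.style.haveILetI false
set_option synthInstance.maxHeartbeats 400000
set_option maxHeartbeats 3200000

noncomputable section

namespace Fermat.Agent.S35.H18

open ModularCurve AlgebraicCurve HahnSeries IntermediateField IsLocalRing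
open Fermat.Agent.S18 Fermat.Agent.S18.H45 Fermat.Agent.S34

local notation "Qbar" => AlgebraicClosure ℚ
local notation "GQ" => (AlgebraicClosure ℚ ≃ₐ[ℚ] AlgebraicClosure ℚ)



variable {A : ValuationSubring Qbar} {q : ℕ} [NeZero q] (hq : q.Prime) (hA : A.LiesOverPrime q)
variable (E : IntermediateField (unrCyclo q) Qbar) [FiniteDimensional (unrCyclo q) E]
variable (hE : ∀ (τ : GQ) (x : Qbar), x ∈ E → τ x ∈ E)
variable (M0 : ℕ) [NeZero M0]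

set_option quotPrecheck false

local notation "JE" => (H95.JK ↥E (M0 * q) q (dvd_mul_left q M0))
local notation "FE" => ↥(modularFunctionFieldFullC ↥E (M0 * q))
local notation "FEM" => ↥(modularFunctionFieldFullC ↥E M0)
local notation "RE" => ↥(cutOver A E)
local notation "B₁E" => ↥(H40.chartB (cutOver A E) JE)
local notation "B₂E" => ↥(H40.chartB (cutOver A E) JE⁻¹)

include hq hA in
/-- **`GeoFnE'` at the concrete types from the two `E`-level `TwoComponents` packages.** -/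
theorem geoFnE'_of_twoComponents
    [IsFractionRing B₁E FE] [IsFractionRing B₂E FE]
    [IsNoetherianRing B₁E] [IsIntegrallyClosed B₁E]
    [IsNoetherianRing B₂E] [IsIntegrallyClosed B₂E]
    {p : ℕ} (hp : p.Prime) (hpq : p ≠ q) (φ : GQ) (n : ℕ)
    (T : Set (Place Qbar (S24.FN (M0 * q))))
    (π : RE) (hmax : maximalIdeal RE = Ideal.span {π})
    -- chart 1
    {D₁ BM₁ : Type*} [CommRing D₁] [IsDedekindDomain D₁] [CommRing BM₁]
    {red₁₁ red₁₂ : B₁E →+* D₁} {ι₁ V₁ : BM₁ →+* B₁E} {rbar₁ : BM₁ →+* D₁} {W₁ : D₁ →+* D₁}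
    {e₁ : ℕ}
    (TC₁ : H83.TwoComponents red₁₁ red₁₂ ι₁ V₁ rbar₁ W₁ e₁ (algebraMap RE B₁E π))
    (hπ₁₁ : red₁₁ (algebraMap RE B₁E π) = 0) (hπ₁₂ : red₁₂ (algebraMap RE B₁E π) = 0)
    (hne₁₁ : ∃ z, red₁₁ z = 0 ∧ red₁₂ z ≠ 0) (hne₁₂ : ∃ z, red₁₂ z = 0 ∧ red₁₁ z ≠ 0)
    (he₁ : 2 ≤ e₁) (hD₁ : ¬ IsField D₁)
    (hJ₁₁ : red₁₁ (⟨JE, H40.self_mem_chartB _⟩ : B₁E) ≠ 0)
    (hJ₁₂ : red₁₂ (⟨JE, H40.self_mem_chartB _⟩ : B₁E) ≠ 0)
    -- chart 2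
    {D₂ BM₂ : Type*} [CommRing D₂] [IsDedekindDomain D₂] [CommRing BM₂]
    {red₂₁ red₂₂ : B₂E →+* D₂} {ι₂ V₂ : BM₂ →+* B₂E} {rbar₂ : BM₂ →+* D₂} {W₂ : D₂ →+* D₂}
    {e₂ : ℕ}
    (TC₂ : H83.TwoComponents red₂₁ red₂₂ ι₂ V₂ rbar₂ W₂ e₂ (algebraMap RE B₂E π))
    (hπ₂₁ : red₂₁ (algebraMap RE B₂E π) = 0) (hπ₂₂ : red₂₂ (algebraMap RE B₂E π) = 0)
    (hne₂₁ : ∃ z, red₂₁ z = 0 ∧ red₂₂ z ≠ 0) (hne₂₂ : ∃ z, red₂₂ z = 0 ∧ red₂₁ z ≠ 0)
    (he₂ : 2 ≤ e₂) (hD₂ : ¬ IsField D₂)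
    (hJ₂₁ : red₂₁ (⟨JE⁻¹, H40.self_mem_chartB _⟩ : B₂E) ≠ 0)
    (hJ₂₂ : red₂₂ (⟨JE⁻¹, H40.self_mem_chartB _⟩ : B₂E) ≠ 0)
    -- the first (second) components of the two charts are the same place
    (hVp : ∀ [(RingHom.ker red₁₁).IsPrime] [(RingHom.ker red₂₁).IsPrime]
      (h1 : (RingHom.ker red₁₁).height = 1) (h2 : (RingHom.ker red₂₁).height = 1),
      H56.valuationSubringAt (K := FE) (RingHom.ker red₁₁) h1 =
        H56.valuationSubringAt (K := FE) (RingHom.ker red₂₁) h2)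
    (hVq : ∀ [(RingHom.ker red₁₂).IsPrime] [(RingHom.ker red₂₂).IsPrime]
      (h1 : (RingHom.ker red₁₂).height = 1) (h2 : (RingHom.ker red₂₂).height = 1),
      H56.valuationSubringAt (K := FE) (RingHom.ker red₁₂) h1 =
        H56.valuationSubringAt (K := FE) (RingHom.ker red₂₂) h2)
    -- G1 facts
    (ΨB₁ : B₁E ≃+* B₁E) (ΨB₂ : B₂E ≃+* B₂E) (ΨR : RE →+* RE)
    (hΨ₁ : ∀ b : B₁E, galActFullC E hE (M0 * q) φ (galActFullC E hE (M0 * q) φ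
      (algebraMap B₁E FE b)) = algebraMap B₁E FE (ΨB₁ b))
    (hΨ₂ : ∀ b : B₂E, galActFullC E hE (M0 * q) φ (galActFullC E hE (M0 * q) φ
      (algebraMap B₂E FE b)) = algebraMap B₂E FE (ΨB₂ b))
    (hΨR₁ : ∀ r : RE, ΨB₁ (algebraMap RE B₁E r) = algebraMap RE B₁E (ΨR r))
    (hΨR₂ : ∀ r : RE, ΨB₂ (algebraMap RE B₂E r) = algebraMap RE B₂E (ΨR r))
    (hΨπ : π ∣ ΨR π)
    (ΨD₁₁ ΨD₁₂ : D₁ →+* D₁) (hinj₁₁ : Function.Injective ΨD₁₁) (hinj₁₂ : Function.Injective ΨD₁₂)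
    (h1Ψ₁ : ∀ z, red₁₁ (ΨB₁ z) = ΨD₁₁ (red₁₁ z)) (h2Ψ₁ : ∀ z, red₁₂ (ΨB₁ z) = ΨD₁₂ (red₁₂ z))
    (hW₁ : ∀ r, W₁ (W₁ (ΨD₁₁ r)) = r ^ (q ^ 2))
    (ΨD₂₁ ΨD₂₂ : D₂ →+* D₂) (hinj₂₁ : Function.Injective ΨD₂₁) (hinj₂₂ : Function.Injective ΨD₂₂)
    (h1Ψ₂ : ∀ z, red₂₁ (ΨB₂ z) = ΨD₂₁ (red₂₁ z)) (h2Ψ₂ : ∀ z, red₂₂ (ΨB₂ z) = ΨD₂₂ (red₂₂ z))
    (hW₂ : ∀ r, W₂ (W₂ (ΨD₂₁ r)) = r ^ (q ^ 2))
    (hFrobR : ∀ r : RE, π ∣ ΨR r - r ^ (q ^ 2))
    -- (E2)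
    (hE2₁ : ∀ f : FE, H61.Admissible ↥E f (p ^ n) →
      (∀ v ∈ T, v.ord (H99.toBar ↥E (M0 * q) f) = 0) →
      ∀ m : Ideal B₁E, m.IsMaximal → algebraMap RE B₁E π ∈ m →
        H46.ChartWeakAt (F := FE) (algebraMap RE B₁E π) m
          (galActFullC E hE (M0 * q) φ (galActFullC E hE (M0 * q) φ f) / f) (p ^ n))
    (hE2₂ : ∀ f : FE, H61.Admissible ↥E f (p ^ n) →
      (∀ v ∈ T, v.ord (H99.toBar ↥E (M0 * q) f) = 0) →
      ∀ m : Ideal B₂E, m.IsMaximal → algebraMap RE B₂E π ∈ m →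
        H46.ChartWeakAt (F := FE) (algebraMap RE B₂E π) m
          (galActFullC E hE (M0 * q) φ (galActFullC E hE (M0 * q) φ f) / f) (p ^ n))
    -- (E3)
    (hE3 : ∀ f : FE, H61.Admissible ↥E f (p ^ n) →
      (∀ v ∈ T, v.ord (H99.toBar ↥E (M0 * q) f) = 0) →
      (∃ (c : ↥E) (h : FEM), c ≠ 0 ∧ h ≠ 0 ∧
        (letI := H16.degAlgebra ↥E M0 (M0 * q) (dvd_mul_right M0 q);
          Algebra.norm FEM f) = algebraMap ↥E FEM c * h ^ (p ^ n)) →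
      (∃ (c : ↥E) (h : FEM), c ≠ 0 ∧ h ≠ 0 ∧
        (letI := S35.H16.vAlgebra ↥E q M0 (M0 * q) (dvd_of_eq (mul_comm q M0));
          Algebra.norm FEM f) = algebraMap ↥E FEM c * h ^ (p ^ n)) →
      ∀ [(RingHom.ker red₁₁).IsPrime] [(RingHom.ker red₁₂).IsPrime]
        (h1 : (RingHom.ker red₁₁).height = 1) (h2 : (RingHom.ker red₁₂).height = 1),
      ∃ G : FE, G ≠ 0 ∧
        H47.OneU (H56.valuationSubringAt (K := FE) (RingHom.ker red₁₁) h1)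
          (ratE (galActFullC E hE (M0 * q) φ) 1 (ratE (galActFullC E hE (M0 * q) φ) 1 f) /
            G ^ (p ^ n)) ∧
        H47.OneU (H56.valuationSubringAt (K := FE) (RingHom.ker red₁₂) h2)
          (ratE (galActFullC E hE (M0 * q) φ) 1 (ratE (galActFullC E hE (M0 * q) φ) 1 f) /
            G ^ (p ^ n))) :
    GeoFnE' M0 q E hE φ q (p ^ n) T := by
  haveI := isDiscreteValuationRing_cutOver hq hA E
  haveI := isAlgClosed_residueField_cutOver hq hA E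
  haveI := H95.finiteDimensional_JK ↥E (M0 * q) q (dvd_mul_left q M0)
    (H99.natCast_ne_zero₀ (M0 * q) ↥E)
  haveI := H95.isSeparable_JK ↥E (M0 * q) q (dvd_mul_left q M0)
  have htr := H95.transcendental_JK ↥E (M0 * q) q (dvd_mul_left q M0)
  have hπ : Irreducible π := irreducible_of_maximalIdeal_cutOver_eq hq hA E hmax
  have hnd : ¬ q ∣ p := fun h => hpq ((Nat.prime_dvd_prime_iff_eq hq hp).mp h).symm
  obtain ⟨ζ, hζ⟩ := H47.exists_isPrimitiveRoot_cutOver (A := A) E hp.ne_zero hnd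
  have hpu := H47.isUnit_natCast_cutOver hq hA E hnd
  have hcl : ∀ z : FE, IsAlgebraic ↥E z → z ∈ (algebraMap ↥E FE).range := fun z hz =>
    Fermat.Agent.CA.H92.mem_range_of_isAlgebraic_intermediateField
      (modularFunctionFieldFullC ↥E (M0 * q)) z hz
  have hQ : 0 < q ^ 2 := pow_pos hq.pos 2
  intro f hadm hT hα hβ
  have hf0 : f ≠ 0 := hadm.1
  have hu₁0 : ratE (galActFullC E hE (M0 * q) φ) 1 f ≠ 0 := ratE_ne_zero _ 1 hf0
  have h₁ := hE2₁ f hadm hT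
  have h₂ := hE2₂ f hadm hT
  rw [← ratE_one] at h₁ h₂
  haveI hp₁₁ : (RingHom.ker red₁₁).IsPrime := RingHom.ker_isPrime red₁₁
  haveI hp₁₂ : (RingHom.ker red₁₂).IsPrime := RingHom.ker_isPrime red₁₂
  have h3 : ∀ (h1 : (RingHom.ker red₁₁).height = 1) (h2 : (RingHom.ker red₁₂).height = 1),
      ∃ G : FE, G ≠ 0 ∧
        H47.OneU (H56.valuationSubringAt (K := FE) (RingHom.ker red₁₁) h1)
          ((galActFullC E hE (M0 * q) φ (galActFullC E hE (M0 * q) φ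
            (ratE (galActFullC E hE (M0 * q) φ) 1 f)) /
              ratE (galActFullC E hE (M0 * q) φ) 1 f) / G ^ (p ^ n)) ∧
        H47.OneU (H56.valuationSubringAt (K := FE) (RingHom.ker red₁₂) h2)
          ((galActFullC E hE (M0 * q) φ (galActFullC E hE (M0 * q) φ
            (ratE (galActFullC E hE (M0 * q) φ) 1 f)) /
              ratE (galActFullC E hE (M0 * q) φ) 1 f) / G ^ (p ^ n)) := by
    intro h1 h2
    have h4 := hE3 f hadm hT hα hβ h1 h2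
    rw [ratE_one (galActFullC E hE (M0 * q) φ) (ratE (galActFullC E hE (M0 * q) φ) 1 f)] at h4
    exact h4
  obtain ⟨c, w, -, hw, hrel⟩ := exists_const_mul_pow_of_twoComponents
    (R := RE) (K := ↥E) JE htr hcl π hmax hπ hp hpu hζ
    (fun r hr => H47.exists_root_mod hmax hp.pos r hr)
    TC₁ hπ₁₁ hπ₁₂ hne₁₁ hne₁₂ he₁ hD₁ hJ₁₁ hJ₁₂
    TC₂ hπ₂₁ hπ₂₂ hne₂₁ hne₂₂ he₂ hD₂ hJ₂₁ hJ₂₂ hVp hVq
    ((galActFullC E hE (M0 * q) φ).trans (galActFullC E hE (M0 * q) φ)) ΨB₁ ΨB₂ ΨR hQ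
    hΨ₁ hΨ₂ hΨR₁ hΨR₂ hΨπ ΨD₁₁ ΨD₁₂ hinj₁₁ hinj₁₂ h1Ψ₁ h2Ψ₁ hW₁
    ΨD₂₁ ΨD₂₂ hinj₂₁ hinj₂₂ h1Ψ₂ h2Ψ₂ hW₂ hFrobR n hu₁0 h₁ h₂ (fun h1 h2 => h3 h1 h2)
  refine ⟨c, w, hw, ?_⟩
  rw [ratE, ratE_one (galActFullC E hE (M0 * q) φ) (ratE (galActFullC E hE (M0 * q) φ) 1 f)]
  exact hrel

end Fermat.Agent.S35.H18
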