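import Mathlib

/-!
# S35, row R0 (helper57): the final algebra of the second clause

`O` a commutative ring, `M` an `O`-module without zero-smul-divisors (hypothesis `htf`), `v ≠ 0` in
`M`, `φ : Module.End O M`, `q : O` with `q ≠ 0` (in the application `q` is a prime and `O` a domain
of characteristic `0`).  If

* `φ² = t φ - q` (the quadratic relation of the S30 lattice at a Frobenius lift `φ` at `q`), and
* `(φ² - q²)(φ² - 1)² = 0` (the geometric input (KEY)),

then `t = q + 1` or `t = -(q + 1)`: some `a ∈ {q, -q, 1, -1}` is an eigenvalue of `φ`, and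
`a² - t a + q = 0`.

* `trace_eq_of_eigenvalue` : `φ w = a w`, `w ≠ 0`, `a ∈ {q, -q, 1, -1}` ⟹ `t = ± (q + 1)`.
* `trace_eq_or_eq_neg` : the statement above.
-/

set_option autoImplicit false

namespace Fermat.Agent.S35.H57

variable {O M : Type*} [CommRing O] [AddCommGroup M] [Module O M]

/-- An eigenvalue `a ∈ {q, -q, 1, -1}` of `φ` forces `t = ± (q + 1)`. -/
theorem trace_eq_of_eigenvalue
    (htf : ∀ (a : O) (w : M), a • w = 0 → a = 0 ∨ w = 0) [IsDomain O]
    (φ : Module.End O M) (q t : O) (hq : q ≠ 0)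
    (hquad : ∀ w : M, φ (φ w) = t • φ w - q • w)
    {a : O} {w : M} (hw : w ≠ 0) (hφ : φ w = a • w)
    (ha : a = q ∨ a = -q ∨ a = 1 ∨ a = -1) :
    t = q + 1 ∨ t = -(q + 1) := by
  -- `a² - t a + q = 0`
  have h1 : (a * a - t * a + q) • w = 0 := by
    have h2 := hquad w
    rw [hφ, map_smul, hφ] at h2
    have : (a * a - t * a + q) • w = a • a • w - (t • a • w - q • w) := by
      rw [add_smul, sub_smul, mul_smul, mul_smul]; abel
    rw [this, h2, sub_self]
  have h3 : a * a - t * a + q = 0 := (htf _ _ h1).resolve_right hw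
  rcases ha with rfl | rfl | rfl | rfl
  · -- `a = q` : `q (q - t + 1) = 0`
    left
    have : a * (a - t + 1) = 0 := by linear_combination h3
    rcases mul_eq_zero.mp this with h | h
    · exact absurd h hq
    · linear_combination -h
  · -- `a = -q` : `q (q + t + 1) = 0`
    right
    have : q * (q + t + 1) = 0 := by linear_combination h3
    rcases mul_eq_zero.mp this with h | h
    · exact absurd h hq
    · linear_combination h
  · left
    linear_combination -h3
  · right
    linear_combination h3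

/-- **Final algebra of S35, clause (ii).** -/
theorem trace_eq_or_eq_neg
    (htf : ∀ (a : O) (w : M), a • w = 0 → a = 0 ∨ w = 0) [IsDomain O]
    (φ : Module.End O M) (q t : O) (hq : q ≠ 0)
    (hquad : ∀ w : M, φ (φ w) = t • φ w - q • w)
    (hP : ∀ w : M,
      (φ - q • 1) ((φ + q • 1) ((φ - 1) ((φ - 1) ((φ + 1) ((φ + 1) w))))) = 0)
    {v : M} (hv : v ≠ 0) :
    t = q + 1 ∨ t = -(q + 1) := by
  have key : ∀ {a : O} {w : M}, w ≠ 0 → φ w = a • w → (a = q ∨ a = -q ∨ a = 1 ∨ a = -1) →
      t = q + 1 ∨ t = -(q + 1) :=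
    fun hw hφ ha => trace_eq_of_eigenvalue htf φ q t hq hquad hw hφ ha
  -- the successive images of `v`
  set w1 : M := (φ + 1) v with hw1
  set w2 : M := (φ + 1) w1 with hw2
  set w3 : M := (φ - 1) w2 with hw3
  set w4 : M := (φ - 1) w3 with hw4
  set w5 : M := (φ + q • 1) w4 with hw5
  have h6 : (φ - q • 1) w5 = 0 := hP v
  by_cases h1 : w1 = 0
  · -- `φ v = - v`
    refine key hv (a := -1) ?_ (Or.inr (Or.inr (Or.inr rfl)))
    have : φ v + v = 0 := by simpa [hw1] using h1
    rw [neg_one_smul]
    exact eq_neg_of_add_eq_zero_left this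
  by_cases h2 : w2 = 0
  · refine key h1 (a := -1) ?_ (Or.inr (Or.inr (Or.inr rfl)))
    have : φ w1 + w1 = 0 := by simpa [hw2] using h2
    rw [neg_one_smul]
    exact eq_neg_of_add_eq_zero_left this
  by_cases h3 : w3 = 0
  · refine key h2 (a := 1) ?_ (Or.inr (Or.inr (Or.inl rfl)))
    have : φ w2 - w2 = 0 := by simpa [hw3] using h3
    rw [one_smul]
    exact sub_eq_zero.mp this
  by_cases h4 : w4 = 0
  · refine key h3 (a := 1) ?_ (Or.inr (Or.inr (Or.inl rfl)))
    have : φ w3 - w3 = 0 := by simpa [hw4] using h4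
    rw [one_smul]
    exact sub_eq_zero.mp this
  by_cases h5 : w5 = 0
  · refine key h4 (a := -q) ?_ (Or.inr (Or.inl rfl))
    have : φ w4 + q • w4 = 0 := by simpa [hw5] using h5
    rw [neg_smul]
    exact eq_neg_of_add_eq_zero_left this
  · refine key h5 (a := q) ?_ (Or.inl rfl)
    have : φ w5 - q • w5 = 0 := by simpa using h6
    exact sub_eq_zero.mp this

end Fermat.Agent.S35.H57
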