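/-
S35, row R1 (helper57), part A: the conclusion of the frozen statement S35 from a "midpoint with
Frobenius polynomial at the bad primes".

Same input as `S30.H31.s30_of_quadRel` (a nonzero finite free `𝒪'`-module `M` with an adically
continuous action `ρ` of `G_ℚ` all of whose elements satisfy `ρ(g)² = t(g) ρ(g) - ε_p(g)`, with
`t(Frob_ℓ) = χ(T_ℓ)` at the good primes), plus

`(KEY)` for every prime `q ≠ p` with `q ∥ N` and every Frobenius lift `φ` at `q`: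
`(ρφ - q)(ρφ + q)(ρφ - 1)²(ρφ + 1)² = 0` on `M`.

Output: the conclusion of S35 with `𝒪'' := 𝒪'`.  The second clause is `H57.trace_eq_or_eq_neg`
(final algebra): `t(φ) = ±(q + 1)`, and `det = ε_p(φ) = q`.
-/
import Mathlib
import Fermat.Agent.S30.H31_S30Assembly
import Fermat.Agent.S35.H57_FinalAlgebra

set_option autoImplicit false

namespace Fermat.Agent.S35.H57

open Matrix Module Polynomial CuspForm IsLocalRing
open Fermat.Agent.S30 Fermat.Agent.S30.H31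

local notation "Qbar" => AlgebraicClosure ℚ
local notation "GQ" => (AlgebraicClosure ℚ ≃ₐ[ℚ] AlgebraicClosure ℚ)

/-- The polynomial `(X - q)(X + q)(X - 1)²(X + 1)²` evaluated at an endomorphism, applied to a
vector (written as iterated application, innermost factor first). -/
def frobPoly {O M : Type*} [CommRing O] [AddCommGroup M] [Module O M] (φ : Module.End O M) (q : O)
    (w : M) : M :=
  (φ - q • 1) ((φ + q • 1) ((φ - 1) ((φ - 1) ((φ + 1) ((φ + 1) w)))))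

/-- **S35 from the quadratic midpoint and (KEY)** (with `𝒪'' := 𝒪'`). -/
theorem s35_of_quadRel (p : ℕ) [Fact p.Prime] (N : ℕ) [NeZero N] (S : Finset ℕ) (hpS : p ∈ S)
    (𝒪' : Type) [CommRing 𝒪'] [IsDomain 𝒪'] [IsDiscreteValuationRing 𝒪']
    [IsAdicComplete (IsLocalRing.maximalIdeal 𝒪') 𝒪'] [Finite (IsLocalRing.ResidueField 𝒪')]
    [CharZero 𝒪'] (hp𝒪' : (p : 𝒪') ∈ IsLocalRing.maximalIdeal 𝒪')
    (χ : CuspForm.heckeAlgebra N 2 (↑S : Set ℕ) →+* 𝒪')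
    (M : Type) [AddCommGroup M] [Module 𝒪' M] [Module.Free 𝒪' M] [Module.Finite 𝒪' M]
    [Nontrivial M] (ρ : GQ →* Module.End 𝒪' M) (hcont : GaloisActionIsAdicContinuous 𝒪' ρ)
    (t : GQ → 𝒪')
    (hquad : ∀ g, ρ g * ρ g = t g • ρ g -
      ((H68.cycloAdic p (IsLocalRing.maximalIdeal 𝒪') hp𝒪' g : 𝒪'ˣ) : 𝒪') • (1 : Module.End 𝒪' M))
    (ht : ∀ (ℓ : ℕ) (hℓ : ℓ.Prime) (hℓN : ¬ ℓ ∣ N) (hℓS : ℓ ∉ (↑S : Set ℕ)),
      ∀ A : ValuationSubring Qbar, A.LiesOverPrime ℓ → ∀ σ : GQ, A.IsFrobeniusAt σ ℓ →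
        t σ = χ (CuspForm.heckeAlgebra.T hℓ hℓN hℓS))
    (hkey : ∀ q : ℕ, q.Prime → q ≠ p → q ∣ N → ¬ q ^ 2 ∣ N →
      ∀ A : ValuationSubring Qbar, A.LiesOverPrime q → ∀ σ : GQ, A.IsFrobeniusAt σ q →
        ∀ w : M, frobPoly (ρ σ) (q : 𝒪') w = 0) :
    ∃ (𝒪'' : Type) (_ : CommRing 𝒪'') (_ : IsDomain 𝒪'') (_ : IsDiscreteValuationRing 𝒪'')
      (_ : IsAdicComplete (IsLocalRing.maximalIdeal 𝒪'') 𝒪'')
      (_ : Finite (IsLocalRing.ResidueField 𝒪'')) (_ : CharZero 𝒪'')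
      (_ : Algebra 𝒪' 𝒪'') (_ : Module.Finite 𝒪' 𝒪'') (_ : IsLocalHom (algebraMap 𝒪' 𝒪'')),
    Function.Injective (algebraMap 𝒪' 𝒪'') ∧
    ∃ ρ : GaloisRepAdic 𝒪'',
      (∀ (ℓ : ℕ) (hℓ : ℓ.Prime) (hℓN : ¬ ℓ ∣ N) (hℓS : ℓ ∉ (↑S : Set ℕ)),
        ∀ A : ValuationSubring (AlgebraicClosure ℚ), A.LiesOverPrime ℓ →
          ∀ σ : AlgebraicClosure ℚ ≃ₐ[ℚ] AlgebraicClosure ℚ, A.IsFrobeniusAt σ ℓ →
            LinearMap.charpoly (ρ.ρ σ) =
              X ^ 2 - C (algebraMap 𝒪' 𝒪'' (χ (CuspForm.heckeAlgebra.T hℓ hℓN hℓS))) * X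
                + C ((ℓ : 𝒪''))) ∧
      (∀ q : ℕ, q.Prime → q ≠ p → q ∣ N → ¬ q ^ 2 ∣ N →
        ∀ A : ValuationSubring (AlgebraicClosure ℚ), A.LiesOverPrime q →
          ∀ σ : AlgebraicClosure ℚ ≃ₐ[ℚ] AlgebraicClosure ℚ, A.IsFrobeniusAt σ q →
            LinearMap.charpoly (ρ.ρ σ) = X ^ 2 - C ((q : 𝒪'') + 1) * X + C ((q : 𝒪'')) ∨
            LinearMap.charpoly (ρ.ρ σ) = X ^ 2 + C ((q : 𝒪'') + 1) * X + C ((q : 𝒪''))) := by
  classical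
  set 𝔪 := IsLocalRing.maximalIdeal 𝒪' with h𝔪
  set d := H68.cycloAdic p 𝔪 hp𝒪' with hd
  obtain ⟨σ, hσ, hσc⟩ := exists_matrixRep_of_module (two_ne_zero : (2 : 𝒪') ≠ 0) ρ t d hquad
    complexConjugation complexConjugation_mul_self (H68.cycloAdic_complexConjugation p 𝔪 hp𝒪')
  obtain ⟨ϖ, hϖ⟩ := IsDiscreteValuationRing.exists_irreducible 𝒪'
  have h𝔪ϖ : ∀ n : ℕ, 𝔪 ^ n = Ideal.span {ϖ ^ n} := by
    intro n
    rw [h𝔪, hϖ.maximalIdeal_eq, Ideal.span_singleton_pow]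
  -- continuity
  have hcontσ : GaloisActionIsAdicContinuous 𝒪' (linOfMatrix σ) := by
    intro n
    obtain ⟨L₁, hL₁f, hL₁⟩ := hcont n
    obtain ⟨L₂, hL₂f, hL₂⟩ := H68.cycloAdic_continuity p 𝔪 hp𝒪' n
    refine ⟨L₁ ⊔ L₂, IntermediateField.finiteDimensional_sup L₁ L₂, fun τ hτ v => ?_⟩
    have hτ₁ : ∀ x ∈ L₁, τ x = x := fun x hx => hτ x ((le_sup_left : L₁ ≤ L₁ ⊔ L₂) hx)
    have hτ₂ : ∀ x ∈ L₂, τ x = x := fun x hx => hτ x ((le_sup_right : L₂ ≤ L₁ ⊔ L₂) hx)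
    have h1 : ∀ v, ρ τ v - v ∈ Ideal.span {ϖ ^ n} • (⊤ : Submodule 𝒪' M) := by
      intro v
      rw [← h𝔪ϖ n]
      exact hL₁ τ hτ₁ v
    have h2 : ϖ ^ n ∣ ((d τ : 𝒪'ˣ) : 𝒪') - 1 := by
      rw [← Ideal.mem_span_singleton, ← h𝔪ϖ n]
      exact H68.span_natCast_pow_le p 𝔪 hp𝒪' n (hL₂ τ hτ₂)
    have h3 := hσc (ϖ ^ n) τ h1 h2
    rw [h𝔪ϖ n]
    apply mem_smul_top_of_forall_mem
    intro i
    have h4 : (linOfMatrix σ τ v - v) i = ∑ j, (σ τ - 1) i j * v j := by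
      rw [linOfMatrix_apply, Pi.sub_apply, Matrix.toLin'_apply, Matrix.mulVec, dotProduct]
      have : v i = ∑ j, (1 : Matrix (Fin 2) (Fin 2) 𝒪') i j * v j := by
        simp [Matrix.one_apply]
      rw [this, ← Finset.sum_sub_distrib]
      refine Finset.sum_congr rfl fun j _ => ?_
      rw [Matrix.sub_apply, sub_mul]
    rw [h4]
    exact Ideal.sum_mem _ fun j _ =>
      Ideal.mul_mem_right _ _ (Ideal.mem_span_singleton.mpr (h3 i j))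
  refine ⟨𝒪', inferInstance, inferInstance, inferInstance, inferInstance, inferInstance,
    inferInstance, Algebra.id 𝒪', Module.Finite.self 𝒪', ?_, Function.injective_id, ?_⟩
  · exact ⟨fun a ha => ha⟩
  refine ⟨{ V := Fin 2 → 𝒪'
            finrank_eq := by rw [Module.finrank_fin_fun]
            ρ := linOfMatrix σ
            isAdicContinuous := hcontσ }, ?_, ?_⟩
  · intro ℓ hℓ hℓN hℓS A hA τ hτ
    have hℓp : ℓ ≠ p := by
      rintro rfl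
      exact hℓS (Finset.mem_coe.mpr hpS)
    show LinearMap.charpoly (linOfMatrix σ τ) = _
    rw [linOfMatrix_apply, Matrix.charpoly_toLin', Matrix.charpoly_fin_two, (hσ τ).1, (hσ τ).2,
      ht ℓ hℓ hℓN hℓS A hA τ hτ, hd, H68.cycloAdic_frobenius p 𝔪 hp𝒪' hℓ hℓp hA hτ]
    rfl
  · intro q hq hqp hqN hq2 A hA τ hτ
    have hdq : ((d τ : 𝒪'ˣ) : 𝒪') = (q : 𝒪') := by
      rw [hd]; exact H68.cycloAdic_frobenius p 𝔪 hp𝒪' hq hqp hA hτ
    have hq0 : (q : 𝒪') ≠ 0 := Nat.cast_ne_zero.mpr hq.ne_zero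
    -- the final algebra on `M`
    obtain ⟨v, hv⟩ := exists_ne (0 : M)
    have htf : ∀ (a : 𝒪') (w : M), a • w = 0 → a = 0 ∨ w = 0 := fun a w h => smul_eq_zero.mp h
    have hquad' : ∀ w : M, ρ τ (ρ τ w) = t τ • ρ τ w - (q : 𝒪') • w := by
      intro w
      have h := LinearMap.congr_fun (hquad τ) w
      rw [hdq] at h
      simpa using h
    have htr : t τ = (q : 𝒪') + 1 ∨ t τ = -((q : 𝒪') + 1) :=
      trace_eq_or_eq_neg htf (ρ τ) (q : 𝒪') (t τ) hq0 hquad'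
        (fun w => hkey q hq hqp hqN hq2 A hA τ hτ w) hv
    have hcp : LinearMap.charpoly (linOfMatrix σ τ)
        = X ^ 2 - C (t τ) * X + C ((q : 𝒪')) := by
      rw [linOfMatrix_apply, Matrix.charpoly_toLin', Matrix.charpoly_fin_two, (hσ τ).1, (hσ τ).2,
        hdq]
    show LinearMap.charpoly (linOfMatrix σ τ) = _ ∨ LinearMap.charpoly (linOfMatrix σ τ) = _
    rcases htr with h | h
    · left
      rw [hcp, h]
    · right
      rw [hcp, h, C_neg, neg_mul, sub_neg_eq_add]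

end Fermat.Agent.S35.H57
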