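/-
S35, row R1 (helper57), part B: the conclusion of the frozen statement S35 from an ABSTRACT
`G_ℚ`-module `J` (in the application: the subgroup `J₀(N)^{q-new}` of `JZero N` killed by the two
pushforwards to level `N / q`, or `JZero N` itself) with commuting "Hecke" operators `τ ℓ`, such that

* `J[p]` is finite and the stabilisers of the `p`-power torsion are open;
* Eichler–Shimura holds on the `p`-power torsion at the good primes;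
* a nonzero `χ`-eigenvector exists in `𝒪' ⊗ T_p J`;
* `(KEY)` at every Frobenius lift `φ` at a prime `q ≠ p`, `q ∥ N`:
  `(φ - q)(φ + q)(φ - 1)²(φ + 1)²` kills the `p`-power torsion of `J`.
-/
import Mathlib
import Fermat.Agent.S30.H57_S30Input
import Fermat.Agent.S30.H10_DensityInst
import Fermat.Agent.S35.H57_S35QuadRel

set_option autoImplicit false

namespace Fermat.Agent.S35.H57

open scoped TensorProduct
open Polynomial CuspForm IsLocalRing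
open Fermat.Agent.S30 Fermat.Agent.S30.H57

local notation "Qbar" => AlgebraicClosure ℚ
local notation "GQ" => (AlgebraicClosure ℚ ≃ₐ[ℚ] AlgebraicClosure ℚ)

noncomputable section

/-- The operator `(f - q)(f + q)(f - 1)²(f + 1)²` for an additive endomorphism `f`. -/
def frobPolyEnd {J : Type*} [AddCommGroup J] (f : AddMonoid.End J) (q : ℕ) : AddMonoid.End J :=
  (f - (q : AddMonoid.End J)) * ((f + (q : AddMonoid.End J)) * ((f - 1) * ((f - 1) *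
    ((f + 1) * (f + 1)))))

section Transfer

variable {p : ℕ} [hp : Fact p.Prime] {J : Type*} [AddCommGroup J]
  {O : Type*} [CommRing O] [Algebra ℤ_[p] O] {ι : Type*} {τ : ι → AddMonoid.End J} {c : ι → O}
  {G : Type*} [Group G] (ρJ : G →* AddMonoid.End J) (hcomm : ∀ g i, Commute (ρJ g) (τ i))

/-- `(KEY)` transfers from the `p`-power torsion of `J` to the eigenspace of `O ⊗ T_p J`. -/
theorem eigenRep_frobPoly {g : G} (q : ℕ)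
    (h : ∀ y : J, (∃ n : ℕ, p ^ n • y = 0) → frobPolyEnd (ρJ g) q y = 0)
    (m : eigen p J O τ c) :
    frobPoly (eigenRep (p := p) (O := O) (c := c) ρJ hcomm g) (q : O) m = 0 := by
  have h0 : tateRep p J O (frobPolyEnd (ρJ g) q) = 0 :=
    tateRep_eq_zero_of_eqOn_torsion (fun y hy => h y hy)
  rw [frobPolyEnd] at h0
  simp only [map_mul, map_sub, map_add, map_natCast, map_one] at h0
  have h1 := LinearMap.congr_fun h0 (m : O ⊗[ℤ_[p]] Tate p J)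
  rw [LinearMap.zero_apply] at h1
  refine Subtype.ext ?_
  rw [Submodule.coe_zero, ← h1]
  simp only [frobPoly, LinearMap.sub_apply, LinearMap.add_apply, LinearMap.smul_apply,
    Module.End.one_apply, Module.End.mul_apply, Submodule.coe_sub, Submodule.coe_add,
    Submodule.coe_smul, coe_eigenRep_apply, Module.End.natCast_apply]
  simp only [Nat.cast_smul_eq_nsmul O]

end Transfer

/-- **S35 from an abstract Galois module with (KEY).** -/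
theorem s35_of_inputs (p : ℕ) [hp : Fact p.Prime] (N : ℕ) [NeZero N] (S : Finset ℕ) (hpS : p ∈ S)
    (𝒪' : Type) [CommRing 𝒪'] [IsDomain 𝒪'] [IsDiscreteValuationRing 𝒪']
    [IsAdicComplete (IsLocalRing.maximalIdeal 𝒪') 𝒪'] [Finite (IsLocalRing.ResidueField 𝒪')]
    [CharZero 𝒪'] (hp𝒪' : (p : 𝒪') ∈ IsLocalRing.maximalIdeal 𝒪')
    (χ : CuspForm.heckeAlgebra N 2 (↑S : Set ℕ) →+* 𝒪')
    {J : Type} [AddCommGroup J] (ρJ : GQ →* AddMonoid.End J)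
    (τ : GoodPrime N S → AddMonoid.End J) (hcomm : ∀ g ℓ, Commute (ρJ g) (τ ℓ))
    (hfin : Set.Finite {y : J | p • y = 0})
    (hopen : ∀ n : ℕ, ∃ E : IntermediateField ℚ Qbar, FiniteDimensional ℚ E ∧
      ∀ σ : GQ, (∀ a ∈ E, σ a = a) → ∀ y : J, p ^ n • y = 0 → ρJ σ y = y)
    (hfrob : ∀ (ℓ : GoodPrime N S) (A : ValuationSubring Qbar), A.LiesOverPrime ℓ.1 →
      ∀ σ : GQ, A.IsFrobeniusAt σ ℓ.1 → ∀ y : J, (∃ n : ℕ, p ^ n • y = 0) →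
        ρJ σ (ρJ σ y) - τ ℓ (ρJ σ y) + ℓ.1 • y = 0)
    (hne : letI : Algebra ℤ_[p] 𝒪' := (H83.zpTo p 𝒪' hp𝒪').toAlgebra
      ∃ m : 𝒪' ⊗[ℤ_[p]] Tate p J, m ≠ 0 ∧
        ∀ ℓ : GoodPrime N S, tateRep p J 𝒪' (τ ℓ) m = eigenval N χ ℓ • m)
    (hkey : ∀ q : ℕ, q.Prime → q ≠ p → q ∣ N → ¬ q ^ 2 ∣ N →
      ∀ A : ValuationSubring Qbar, A.LiesOverPrime q → ∀ σ : GQ, A.IsFrobeniusAt σ q →
        ∀ y : J, (∃ n : ℕ, p ^ n • y = 0) → frobPolyEnd (ρJ σ) q y = 0) :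
    ∃ (𝒪'' : Type) (_ : CommRing 𝒪'') (_ : IsDomain 𝒪'') (_ : IsDiscreteValuationRing 𝒪'')
      (_ : IsAdicComplete (IsLocalRing.maximalIdeal 𝒪'') 𝒪'')
      (_ : Finite (IsLocalRing.ResidueField 𝒪'')) (_ : CharZero 𝒪'')
      (_ : Algebra 𝒪' 𝒪'') (_ : Module.Finite 𝒪' 𝒪'') (_ : IsLocalHom (algebraMap 𝒪' 𝒪'')),
    Function.Injective (algebraMap 𝒪' 𝒪'') ∧
    ∃ ρ : GaloisRepAdic 𝒪'',
      (∀ (ℓ : ℕ) (hℓ : ℓ.Prime) (hℓN : ¬ ℓ ∣ N) (hℓS : ℓ ∉ (↑S : Set ℕ)),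
        ∀ A : ValuationSubring (AlgebraicClosure ℚ), A.LiesOverPrime ℓ →
          ∀ σ : AlgebraicClosure ℚ ≃ₐ[ℚ] AlgebraicClosure ℚ, A.IsFrobeniusAt σ ℓ →
            LinearMap.charpoly (ρ.ρ σ) =
              X ^ 2 - C (algebraMap 𝒪' 𝒪'' (χ (CuspForm.heckeAlgebra.T hℓ hℓN hℓS))) * X
                + C ((ℓ : 𝒪''))) ∧
      (∀ q : ℕ, q.Prime → q ≠ p → q ∣ N → ¬ q ^ 2 ∣ N →
        ∀ A : ValuationSubring (AlgebraicClosure ℚ), A.LiesOverPrime q →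
          ∀ σ : AlgebraicClosure ℚ ≃ₐ[ℚ] AlgebraicClosure ℚ, A.IsFrobeniusAt σ q →
            LinearMap.charpoly (ρ.ρ σ) = X ^ 2 - C ((q : 𝒪'') + 1) * X + C ((q : 𝒪'')) ∨
            LinearMap.charpoly (ρ.ρ σ) = X ^ 2 + C ((q : 𝒪'') + 1) * X + C ((q : 𝒪''))) := by
  classical
  letI : Algebra ℤ_[p] 𝒪' := (H83.zpTo p 𝒪' hp𝒪').toAlgebra
  have hpO : (p : 𝒪') ≠ 0 := Nat.cast_ne_zero.mpr hp.out.ne_zero
  -- the eigenspace and its structure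
  have hT1 : Module.Finite ℤ_[p] (Tate p J) := Tate.finite_of_finite_torsion hfin
  have hT2 : Module.Free ℤ_[p] (Tate p J) := Tate.free_of_finite_torsion hfin
  have hM1 : Module.Free 𝒪' (𝒪' ⊗[ℤ_[p]] Tate p J) := inferInstance
  have hM2 : Module.Finite 𝒪' (𝒪' ⊗[ℤ_[p]] Tate p J) := inferInstance
  have hM3 : Module.IsTorsionFree 𝒪' (𝒪' ⊗[ℤ_[p]] Tate p J) := inferInstance
  set c : GoodPrime N S → 𝒪' := eigenval N χ with hc
  have hE1 : Module.Finite 𝒪' (eigen p J 𝒪' τ c) := inferInstance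
  have hE2 : Module.IsTorsionFree 𝒪' (eigen p J 𝒪' τ c) := inferInstance
  have hE3 : Module.Free 𝒪' (eigen p J 𝒪' τ c) := inferInstance
  have hE4 : Nontrivial (eigen p J 𝒪' τ c) := by
    obtain ⟨m, hm0, hm⟩ := hne
    exact ⟨⟨⟨m, mem_eigen.mpr hm⟩, 0, fun h => hm0 (congrArg Subtype.val h)⟩⟩
  set ρ : GQ →* Module.End 𝒪' (eigen p J 𝒪' τ c) :=
    eigenRep (p := p) (O := 𝒪') (c := c) ρJ hcomm with hρ
  -- continuity
  have hcont : GaloisActionIsAdicContinuous 𝒪' ρ := by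
    intro n
    obtain ⟨E, hE, hfix⟩ := hopen n
    refine ⟨E, hE, fun σ hσ v => ?_⟩
    obtain ⟨m', hm'⟩ := exists_eigenRep_sub_eq_smul (p := p) (O := 𝒪') (c := c) ρJ hcomm hpO n
      (fun y hy => hfix σ hσ y hy) v
    rw [hm']
    refine Submodule.smul_mem_smul ?_ Submodule.mem_top
    exact Ideal.pow_mem_pow hp𝒪' n
  -- the bad set and the eigenvalue function
  set T : Finset ℕ := S ∪ N.primeFactors with hT
  have hpT : p ∈ T := Finset.mem_union_left _ hpS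
  set cc : ℕ → 𝒪' := fun ℓ =>
    if h : ℓ.Prime ∧ ¬ ℓ ∣ N ∧ ℓ ∉ (↑S : Set ℕ) then χ (CuspForm.heckeAlgebra.T h.1 h.2.1 h.2.2)
    else 0 with hcc
  have hgood : ∀ ℓ : ℕ, ℓ.Prime → ℓ ∉ T → ¬ ℓ ∣ N ∧ ℓ ∉ (↑S : Set ℕ) := by
    intro ℓ hℓ hℓT
    rw [hT, Finset.mem_union, not_or] at hℓT
    refine ⟨fun hdvd => hℓT.2 ?_, fun hS => hℓT.1 (Finset.mem_coe.mp hS)⟩
    exact Nat.mem_primeFactors.mpr ⟨hℓ, hdvd, NeZero.ne N⟩
  have hnotT : ∀ ℓ : ℕ, ℓ.Prime → ¬ ℓ ∣ N → ℓ ∉ (↑S : Set ℕ) → ℓ ∉ T := by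
    intro ℓ hℓ hℓN hℓS hℓT
    rw [hT, Finset.mem_union] at hℓT
    rcases hℓT with h | h
    · exact hℓS (Finset.mem_coe.mpr h)
    · exact hℓN (Nat.mem_primeFactors.mp h).2.1
  have hcval : ∀ (ℓ : ℕ) (hℓ : ℓ.Prime) (hℓN : ¬ ℓ ∣ N) (hℓS : ℓ ∉ (↑S : Set ℕ)),
      cc ℓ = χ (CuspForm.heckeAlgebra.T hℓ hℓN hℓS) := by
    intro ℓ hℓ hℓN hℓS
    rw [hcc]
    exact dif_pos ⟨hℓ, hℓN, hℓS⟩
  have hquadF : ∀ ℓ : ℕ, ℓ.Prime → ℓ ∉ T → ∀ A : ValuationSubring (AlgebraicClosure ℚ),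
      A.LiesOverPrime ℓ → ∀ σ : AlgebraicClosure ℚ ≃ₐ[ℚ] AlgebraicClosure ℚ,
        A.IsFrobeniusAt σ ℓ →
          ρ σ * ρ σ = cc ℓ • ρ σ - (ℓ : 𝒪') • (1 : Module.End 𝒪' (eigen p J 𝒪' τ c)) := by
    intro ℓ hℓ hℓT A hA σ hσ
    obtain ⟨hℓN, hℓS⟩ := hgood ℓ hℓ hℓT
    rw [hcval ℓ hℓ hℓN hℓS]
    exact eigenRep_quadratic (p := p) (O := 𝒪') (c := c) ρJ hcomm ⟨ℓ, hℓ, hℓN, hℓS⟩ ℓ
      (fun y hy => hfrob ⟨ℓ, hℓ, hℓN, hℓS⟩ A hA σ hσ y hy)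
  obtain ⟨t, hquad, htF⟩ :=
    H10.exists_trace_of_frobenius_quad p hp𝒪' ρ hcont T hpT cc hquadF
  refine s35_of_quadRel p N S hpS 𝒪' hp𝒪' χ (eigen p J 𝒪' τ c) ρ hcont t hquad ?_ ?_
  · intro ℓ hℓ hℓN hℓS A hA σ hσ
    rw [htF ℓ hℓ (hnotT ℓ hℓ hℓN hℓS) A hA σ hσ, hcval ℓ hℓ hℓN hℓS]
  · intro q hq hqp hqN hq2 A hA σ hσ w
    exact eigenRep_frobPoly (p := p) (O := 𝒪') (c := c) ρJ hcomm q
      (fun y hy => hkey q hq hqp hqN hq2 A hA σ hσ y hy) w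

end

end Fermat.Agent.S35.H57
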