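/-
S35, row G6 (helper86), part 2: the interface `(IF-GEO)` of helper57's S35 assembly from the
function-field statement `(GEO-fn)`.

* `frobPolyEnd_eq`        : `(f - q)(f + q)(f - 1)²(f + 1)² = (f² - q²)(f² - 1)²` in `AddMonoid.End`;
* `frobPolyEnd_galJ_apply`: the value of `frobPolyEnd (galJ N φ) q` at `y` via three differences;
* `frobPolyEnd_eq_zero_of_geoFnJ` : `(GEO-fn)` at `(φ, q, m, T)` kills
  `{y ∈ J₀(M₀q)[m] : α_* y = β_* y = 0}`;
* `ifGeo_of_geoFnJ`       : the statement `(IF-GEO)` from `(GEO-fn)` at all Frobenius lifts at `q` and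
  all `p`-power exponents.
-/
import Mathlib
import Fermat.Agent.S35.H86_Pushforward
import Fermat.Agent.S35.H57_S35Inputs

set_option autoImplicit false

noncomputable section

namespace Fermat.Agent.S35.H86

open Polynomial AlgebraicCurve ModularCurve
open Fermat.Agent.S35.H57 Fermat.Agent.S30.H57

local notation "Qb" => AlgebraicClosure ℚ
local notation "GQ" => (AlgebraicClosure ℚ ≃ₐ[ℚ] AlgebraicClosure ℚ)

/-- `(f - q)(f + q)(f - 1)²(f + 1)² = (f² - q²)(f² - 1)²`. -/
theorem frobPolyEnd_eq {J : Type*} [AddCommGroup J] (f : AddMonoid.End J) (q : ℕ) :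
    frobPolyEnd f q
      = (f * f - ((q ^ 2 : ℕ) : AddMonoid.End J)) * ((f * f - 1) * (f * f - 1)) := by
  have h1 : frobPolyEnd f q = Polynomial.aeval f
      (((X : ℤ[X]) - (q : ℤ[X])) * ((X + (q : ℤ[X])) * ((X - 1) * ((X - 1) *
        ((X + 1) * (X + 1)))))) := by
    simp only [frobPolyEnd, map_mul, map_sub, map_add, Polynomial.aeval_X, map_natCast, map_one]
  have h2 : (f * f - ((q ^ 2 : ℕ) : AddMonoid.End J)) * ((f * f - 1) * (f * f - 1))
      = Polynomial.aeval f
        (((X : ℤ[X]) * X - ((q ^ 2 : ℕ) : ℤ[X])) * ((X * X - 1) * (X * X - 1))) := by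
    simp only [map_mul, map_sub, Polynomial.aeval_X, map_natCast, map_one]
  rw [h1, h2]
  congr 1
  push_cast
  ring

theorem end_sub_apply {J : Type*} [AddCommGroup J] (f g : AddMonoid.End J) (y : J) :
    (f - g) y = f y - g y := rfl

theorem end_one_apply {J : Type*} [AddCommGroup J] (y : J) : (1 : AddMonoid.End J) y = y := rfl

/-- The value of `frobPolyEnd f q` via three successive differences. -/
theorem frobPolyEnd_apply {J : Type*} [AddCommGroup J] (f : AddMonoid.End J) (q : ℕ) (y : J) :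
    frobPolyEnd f q y
      = f (f (f (f (f (f y) - y)) - (f (f y) - y)))
        - (q ^ 2) • (f (f (f (f y) - y)) - (f (f y) - y)) := by
  rw [frobPolyEnd_eq]
  simp only [AddMonoid.End.coe_mul, Function.comp_apply, end_sub_apply, end_one_apply,
    AddMonoid.End.natCast_apply]

section Modular

variable (M0 q : ℕ) [NeZero M0] [NeZero q]

/-- **`(GEO-fn) ⇒ (GEO)` in the `frobPolyEnd` vocabulary**: `(GEO-fn)` at `(φ, r, m, T)` kills
`{y ∈ J₀(M₀q)[m] : α_* y = β_* y = 0}` (in the application `r = q`). -/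
theorem frobPolyEnd_eq_zero_of_geoFnJ (φ : GQ) {r m : ℕ} (hm : m ≠ 0)
    {T : Set (Place Qb (modularFunctionFieldBar (M0 * q)))} (hT : T.Finite)
    (hG : GeoFnJ M0 q φ r m T) (y : JZero (M0 * q)) (hy : m • y = 0)
    (hα : pushAlpha M0 q y = 0) (hβ : pushBeta M0 q y = 0) :
    frobPolyEnd (galJ (M0 * q) φ) r y = 0 := by
  rw [frobPolyEnd_apply]
  simp only [galJ_apply]
  exact geo_jzero M0 q φ hm hT hG y hy hα hβ

/-- The same with a general predicate on the representatives. -/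
theorem frobPolyEnd_eq_zero_of_geoFnPJ (φ : GQ) {r m : ℕ} (hm : m ≠ 0)
    {P : Divisor Qb (modularFunctionFieldBar (M0 * q)) → Prop}
    (hG : GeoFnPJ M0 q φ r m P) (y : JZero (M0 * q))
    (hP : ∃ D : Divisor.degZero (K := Qb) (F := modularFunctionFieldBar (M0 * q)),
      Pic0.mk D = y ∧ P (D : Divisor Qb (modularFunctionFieldBar (M0 * q))))
    (hy : m • y = 0) (hα : pushAlpha M0 q y = 0) (hβ : pushBeta M0 q y = 0) :
    frobPolyEnd (galJ (M0 * q) φ) r y = 0 := by
  rw [frobPolyEnd_apply]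
  simp only [galJ_apply]
  exact geo_jzeroP M0 q φ hm hG y hP hy hα hβ

/-- **`(IF-GEO)`** (the geometric input of helper57's `s35_of_inputs`, level `M₀ q`) from
`(GEO-fn)` at every Frobenius lift at `q` and every `p`-power exponent. -/
theorem ifGeo_of_geoFnJ {p : ℕ} (hp : p.Prime)
    (h : ∀ A : ValuationSubring Qb, A.LiesOverPrime q → ∀ φ : GQ, A.IsFrobeniusAt φ q →
      ∀ n : ℕ, ∃ T : Set (Place Qb (modularFunctionFieldBar (M0 * q))), T.Finite ∧
        GeoFnJ M0 q φ q (p ^ n) T) :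
    ∀ y : JZero (M0 * q), (∃ n : ℕ, p ^ n • y = 0) → pushAlpha M0 q y = 0 →
      pushBeta M0 q y = 0 → ∀ A : ValuationSubring Qb, A.LiesOverPrime q → ∀ φ : GQ,
        A.IsFrobeniusAt φ q → frobPolyEnd (galJ (M0 * q) φ) q y = 0 := by
  intro y ⟨n, hn⟩ hα hβ A hA φ hφ
  obtain ⟨T, hT, hG⟩ := h A hA φ hφ n
  exact frobPolyEnd_eq_zero_of_geoFnJ M0 q φ (pow_ne_zero n hp.ne_zero) hT hG y hn hα hβ

end Modular

end Fermat.Agent.S35.H86
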