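/-
helper18 — S35 rows DESC35 + G6 composed: helper57's interface `(IF-GEO)` (the geometric input of
`H57.s35_of_inputs` at level `M₀ q`) from the level-`E` statements `GeoFnE` / `GeoFnE'` of
`S35/H18_Desc35.lean` at every finite Galois, `Gal(Qbar / ℚ)`-stable `E / K1`
(`K1 = H45.unrCyclo l`; in the application `l = q`), for every Frobenius lift `φ` at `q` and every
`p`-power exponent.  Composite of `H18.geoFnJ_of_geoFnE` with helper86's `H86.ifGeo_of_geoFnJ`.
-/
import Mathlib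
import Fermat.Agent.S35.H18_Desc35
import Fermat.Agent.S35.H86_GeoWiring

set_option autoImplicit false
set_option linter.unusedSectionVars false
set_option synthInstance.maxHeartbeats 400000

noncomputable section

namespace Fermat.Agent.S35.H18

open ModularCurve AlgebraicCurve IntermediateField
open Fermat.Agent.S18 Fermat.Agent.S34
open Fermat.Agent.S35.H57 Fermat.Agent.S30.H57

local notation "Qbar" => AlgebraicClosure ℚ
local notation "GQ" => (AlgebraicClosure ℚ ≃ₐ[ℚ] AlgebraicClosure ℚ)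

variable (M0 q : ℕ) [NeZero M0] [NeZero q]

/-- **`(IF-GEO)` from the level-`E` statements** (`Qbar`-level conclusion form). -/
theorem ifGeo_of_geoFnE {l p : ℕ} (hq : q.Prime) (hqM : ¬ q ∣ M0) (hp : p.Prime)
    (h : ∀ A : ValuationSubring Qbar, A.LiesOverPrime q → ∀ φ : GQ, A.IsFrobeniusAt φ q →
      ∀ n : ℕ, ∃ (T : Set (Place Qbar (S24.FN (M0 * q)))) (S' : Finset Qbar), T.Finite ∧
        ∀ (E : IntermediateField (H45.unrCyclo l) Qbar)
          [FiniteDimensional (H45.unrCyclo l) E] [IsGalois (H45.unrCyclo l) E],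
          (∀ (τ : GQ) (x : Qbar), x ∈ E → τ x ∈ E) → (∀ x ∈ S', x ∈ E) →
          GeoFnE M0 q E φ q (p ^ n) T) :
    ∀ y : JZero (M0 * q), (∃ n : ℕ, p ^ n • y = 0) → H86.pushAlpha M0 q y = 0 →
      H86.pushBeta M0 q y = 0 → ∀ A : ValuationSubring Qbar, A.LiesOverPrime q → ∀ φ : GQ,
        A.IsFrobeniusAt φ q → frobPolyEnd (galJ (M0 * q) φ) q y = 0 := by
  refine H86.ifGeo_of_geoFnJ M0 q hp (fun A hA φ hφ n => ?_)
  obtain ⟨T, S', hT, H⟩ := h A hA φ hφ n
  exact ⟨T, hT, geoFnJ_of_geoFnE M0 q hq hqM φ q (p ^ n) T S' H⟩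

/-- **`(IF-GEO)` from the level-`E` statements** (level-`E` conclusion form, helper45's
coefficientwise action `H45.galActFullC`). -/
theorem ifGeo_of_geoFnE' {l p : ℕ} (hq : q.Prime) (hqM : ¬ q ∣ M0) (hp : p.Prime)
    (h : ∀ A : ValuationSubring Qbar, A.LiesOverPrime q → ∀ φ : GQ, A.IsFrobeniusAt φ q →
      ∀ n : ℕ, ∃ (T : Set (Place Qbar (S24.FN (M0 * q)))) (S' : Finset Qbar), T.Finite ∧
        ∀ (E : IntermediateField (H45.unrCyclo l) Qbar)
          [FiniteDimensional (H45.unrCyclo l) E] [IsGalois (H45.unrCyclo l) E]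
          (hE : ∀ (τ : GQ) (x : Qbar), x ∈ E → τ x ∈ E), (∀ x ∈ S', x ∈ E) →
          GeoFnE' M0 q E hE φ q (p ^ n) T) :
    ∀ y : JZero (M0 * q), (∃ n : ℕ, p ^ n • y = 0) → H86.pushAlpha M0 q y = 0 →
      H86.pushBeta M0 q y = 0 → ∀ A : ValuationSubring Qbar, A.LiesOverPrime q → ∀ φ : GQ,
        A.IsFrobeniusAt φ q → frobPolyEnd (galJ (M0 * q) φ) q y = 0 := by
  refine H86.ifGeo_of_geoFnJ M0 q hp (fun A hA φ hφ n => ?_)
  obtain ⟨T, S', hT, H⟩ := h A hA φ hφ n
  exact ⟨T, hT, geoFnJ_of_geoFnE' M0 q hq hqM φ q (p ^ n) T S' H⟩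

end Fermat.Agent.S35.H18
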