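/-
helper18 — S35 row G2, abstract core: the RATIO LEMMA (g1) of the S35 chain, in the chart
vocabulary of helper56's S34 files (`H56.IsUnitAt`, `H56.isUnitAt_div_localEq`, local Hartogs).

`B` a noetherian integrally closed domain (a chart of the normal model), `K = Frac B`,
`s : K ≃+* K` an ARBITRARY automorphism with `s (B) = B` (`sB`); no triviality modulo `π`
is assumed (for S35, `s = φ²` is a power of a Frobenius lift, it permutes the closed points of the
special fibre).  `n` a prime of `B` (closed point), `n' := n.comap sB`, so `s (B_{n'}) = B_n`.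
`w`, `w'` local equations of the horizontal part of `div f / m` at `n`, `n'`.

* `isUnitAt_ratio` : `s (f / w' ^ m) / (f / w ^ m) = (s f / f) / (s w' / w) ^ m ∈ (B_n)ˣ`;
* `exists_ratio_decomp` : `s f / f = η * g ^ m`, `η ∈ (B_n)ˣ`, `g = s w' / w` a unit at the
  vertical primes through `n`;
* `isUnitAt_map_div_of_units` (smooth points) / `isUnitAt_map_div_self_of_fixed` (nodes): the two
  ways to see that `g` is a unit at the vertical primes;
* `horizontal_of_localEq` : `w = ∏ ω_j ^ k_j` from served-point data (shape of `H56.local_datum`);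
* `decomp_map_div`, `decomp_map_div_pow` : the iterates `u₂ = s u₁ / u₁`, `u₃ = s u₂ / u₂ ^ Q`;
* `memAt_map_iff`, `isUnitAt_map_iff`, `memAt_map_iff_of_stable`, `map_mem_valuationSubringAt_iff`,
  `valuation_map_eq_one_iff` : `s (B_{n'}) = B_n`, `s (V_P) = V_P`.
-/
import Mathlib
import Fermat.Agent.S34.H56_LocalDatum

set_option autoImplicit false
set_option linter.unusedSectionVars false
set_option linter.style.haveILetI false

namespace Fermat.Agent.S35.H18

open Fermat.Agent.S34.H56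

variable {B K : Type*} [CommRing B] [IsDomain B] [Field K] [Algebra B K] [IsFractionRing B K]

/-! ### transport of `IsUnitAt` -/

omit [IsDomain B] [IsFractionRing B K] in
/-- `IsUnitAt` only depends on the prime as a set. -/
theorem isUnitAt_congr {p p' : Ideal B} (h : ∀ b, b ∈ p ↔ b ∈ p') {x : K} (hx : IsUnitAt p x) :
    IsUnitAt p' x := by
  obtain ⟨a, b, ha, hb, hab⟩ := hx
  exact ⟨a, b, fun h' => ha ((h a).mpr h'), fun h' => hb ((h b).mpr h'), hab⟩

omit [IsDomain B] [IsFractionRing B K] in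
/-- Transport along an automorphism fixing the prime. -/
theorem isUnitAt_map_of_stable {sB : B ≃+* B} {s : K ≃+* K}
    (hs : ∀ b, s (algebraMap B K b) = algebraMap B K (sB b)) {p : Ideal B}
    (hstab : ∀ b, sB b ∈ p ↔ b ∈ p) {x : K} (hx : IsUnitAt p x) : IsUnitAt p (s x) := by
  refine IsUnitAt.map hs (isUnitAt_congr (fun b => ?_) hx)
  rw [Ideal.mem_comap]
  exact (hstab b).symm

omit [IsDomain B] [IsFractionRing B K] in
theorem symm_algebraMap {sB : B ≃+* B} {s : K ≃+* K}
    (hs : ∀ b, s (algebraMap B K b) = algebraMap B K (sB b)) (b : B) :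
    s.symm (algebraMap B K b) = algebraMap B K (sB.symm b) := by
  rw [RingEquiv.symm_apply_eq, hs, RingEquiv.apply_symm_apply]

omit [IsDomain B] [IsFractionRing B K] in
/-- `s (B_{p'}) = B_p` for `p' = p.comap sB` (`(PhiO)` of helper62's G5 interface, in the field
form `H56.MemAt` = membership in `H21.locSubring`). -/
theorem memAt_map_iff {sB : B ≃+* B} {s : K ≃+* K}
    (hs : ∀ b, s (algebraMap B K b) = algebraMap B K (sB b)) (p : Ideal B) (x : K) :
    MemAt p (s x) ↔ MemAt (p.comap (sB : B →+* B)) x := by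
  constructor
  · rintro ⟨a, b, hb, hab⟩
    refine ⟨sB.symm a, sB.symm b, ?_, ?_⟩
    · rw [Ideal.mem_comap]
      simpa using hb
    · have := congrArg s.symm hab
      rw [map_mul, RingEquiv.symm_apply_apply, symm_algebraMap hs, symm_algebraMap hs] at this
      exact this
  · rintro ⟨a, b, hb, hab⟩
    refine ⟨sB a, sB b, hb, ?_⟩
    rw [← hs, ← hs, ← map_mul, hab]

omit [IsDomain B] [IsFractionRing B K] in
theorem isUnitAt_map_iff {sB : B ≃+* B} {s : K ≃+* K}
    (hs : ∀ b, s (algebraMap B K b) = algebraMap B K (sB b)) (p : Ideal B) (x : K) :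
    IsUnitAt p (s x) ↔ IsUnitAt (p.comap (sB : B →+* B)) x := by
  constructor
  · rintro ⟨a, b, ha, hb, hab⟩
    refine ⟨sB.symm a, sB.symm b, ?_, ?_, ?_⟩
    · rw [Ideal.mem_comap]
      simpa using ha
    · rw [Ideal.mem_comap]
      simpa using hb
    · have := congrArg s.symm hab
      rw [map_mul, RingEquiv.symm_apply_apply, symm_algebraMap hs, symm_algebraMap hs] at this
      exact this
  · exact IsUnitAt.map hs

omit [IsDomain B] [IsFractionRing B K] in
/-- For an `s`-stable prime: `s x ∈ B_P ↔ x ∈ B_P` (`(PhiV)` of helper62's G5 interface, for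
`V k = H56.valuationSubringAt P`). -/
theorem memAt_map_iff_of_stable {sB : B ≃+* B} {s : K ≃+* K}
    (hs : ∀ b, s (algebraMap B K b) = algebraMap B K (sB b)) {P : Ideal B}
    (hstab : ∀ b, sB b ∈ P ↔ b ∈ P) (x : K) : MemAt P (s x) ↔ MemAt P x := by
  rw [memAt_map_iff hs]
  constructor
  · rintro ⟨a, b, hb, hab⟩
    exact ⟨a, b, fun h => hb (by rw [Ideal.mem_comap]; exact (hstab b).mpr h), hab⟩
  · rintro ⟨a, b, hb, hab⟩
    exact ⟨a, b, fun h => hb ((hstab b).mp (by rwa [Ideal.mem_comap] at h)), hab⟩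

/-! ### the algebraic identities -/

omit [IsDomain B] [Algebra B K] [IsFractionRing B K] in
theorem ratio_identity (s : K ≃+* K) (f w w' : K) (hf : f ≠ 0) (hw : w ≠ 0) (hw' : w' ≠ 0)
    (m : ℕ) :
    s (f / w' ^ m) / (f / w ^ m) = (s f / f) / (s w' / w) ^ m := by
  have h1 : s w' ≠ 0 := (map_ne_zero s).mpr hw'
  have h2 : s f ≠ 0 := (map_ne_zero s).mpr hf
  rw [map_div₀, map_pow, div_pow]
  field_simp

omit [IsDomain B] [Algebra B K] [IsFractionRing B K] in
/-- If `u = η' * g' ^ m` (decomposition at `n'`) and `u = η * g ^ m` (decomposition at `n`), then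
`s u / u = (s η' / η) * (s g' / g) ^ m`. -/
theorem decomp_map_div (s : K ≃+* K) {u η η' g g' : K} (m : ℕ) (hη : η ≠ 0) (hg : g ≠ 0)
    (h' : u = η' * g' ^ m) (h : u = η * g ^ m) :
    s u / u = (s η' / η) * (s g' / g) ^ m := by
  have e1 : s u = s η' * s g' ^ m := by rw [h', map_mul, map_pow]
  have hgm : g ^ m ≠ 0 := pow_ne_zero _ hg
  rw [e1, div_pow]
  rw [h]
  field_simp

omit [IsDomain B] [Algebra B K] [IsFractionRing B K] in
/-- The same for `s u / u ^ Q`. -/
theorem decomp_map_div_pow (s : K ≃+* K) {u η η' g g' : K} (m Q : ℕ) (hη : η ≠ 0) (hg : g ≠ 0)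
    (h' : u = η' * g' ^ m) (h : u = η * g ^ m) :
    s u / u ^ Q = (s η' / η ^ Q) * (s g' / g ^ Q) ^ m := by
  have e1 : s u = s η' * s g' ^ m := by rw [h', map_mul, map_pow]
  have hgm : g ^ m ≠ 0 := pow_ne_zero _ hg
  have hgQ : g ^ Q ≠ 0 := pow_ne_zero _ hg
  have hηQ : η ^ Q ≠ 0 := pow_ne_zero _ hη
  rw [e1, div_pow, h, mul_pow, ← pow_mul, ← pow_mul, mul_comm m Q]
  field_simp

section Main

variable [IsNoetherianRing B] [IsIntegrallyClosed B]

/-! ### the ratio lemma -/

/-- **RATIO LEMMA (g1), core.**  `η := f / w ^ m` is a unit at the horizontal height-one primes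
through `n`, `η' := f / w' ^ m` at those through `n' = n.comap sB`; the vertical height-one
primes through `n` are `s`-stable and `g := s w' / w` is a unit there.  Then
`s η' / η = (s f / f) / g ^ m` is a unit of `B_n`. -/
theorem isUnitAt_ratio (n : Ideal B) [hn : n.IsPrime] (π : B)
    (sB : B ≃+* B) (s : K ≃+* K)
    (hs : ∀ b, s (algebraMap B K b) = algebraMap B K (sB b))
    (hπ : ∀ p : Ideal B, p.IsPrime → (sB π ∈ p ↔ π ∈ p))
    (f w w' : K) (hf : f ≠ 0) (hw : w ≠ 0) (hw' : w' ≠ 0) (m : ℕ)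
    (hhor : ∀ p : Ideal B, p.IsPrime → p.height = 1 → p ≤ n → π ∉ p → IsUnitAt p (f / w ^ m))
    (hhor' : ∀ p : Ideal B, p.IsPrime → p.height = 1 → p ≤ n.comap (sB : B →+* B) → π ∉ p →
      IsUnitAt p (f / w' ^ m))
    (hstab : ∀ P : Ideal B, P.IsPrime → P.height = 1 → P ≤ n → π ∈ P → ∀ b, sB b ∈ P ↔ b ∈ P)
    (hg : ∀ P : Ideal B, P.IsPrime → P.height = 1 → P ≤ n → π ∈ P → IsUnitAt P (s w' / w)) :
    IsUnitAt n ((s f / f) / (s w' / w) ^ m) := by
  have hη0 : f / w ^ m ≠ 0 := div_ne_zero hf (pow_ne_zero _ hw)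
  have hη0' : f / w' ^ m ≠ 0 := div_ne_zero hf (pow_ne_zero _ hw')
  rw [← ratio_identity s f w w' hf hw hw' m]
  refine isUnitAt_of_forall_height_one_le n _ (fun p hp h1 hle => ?_)
    (div_ne_zero ((map_ne_zero s).mpr hη0') hη0)
  by_cases hπp : π ∈ p
  · -- vertical prime
    rw [ratio_identity s f w w' hf hw hw' m]
    haveI := hp
    exact (isUnitAt_map_div_self_of_stable p h1 sB s hs (hstab p hp h1 hle hπp) f hf).div
      ((hg p hp h1 hle hπp).pow m)
  · -- horizontal prime: use the conjugate prime through `n'`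
    have hp' : (p.comap (sB : B →+* B)).IsPrime := Ideal.comap_isPrime _ _
    have h1' : (p.comap (sB : B →+* B)).height = 1 := by
      have := RingEquiv.height_comap sB p
      rw [← h1, ← this]; rfl
    have hle' : p.comap (sB : B →+* B) ≤ n.comap (sB : B →+* B) := Ideal.comap_mono hle
    have hπp' : π ∉ p.comap (sB : B →+* B) := by
      intro h
      have h2 : sB π ∈ p := h
      exact hπp ((hπ p hp).mp h2)
    haveI := hp
    exact (IsUnitAt.map hs (hhor' _ hp' h1' hle' hπp')).div (hhor p hp h1 hle hπp)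

/-- **RATIO LEMMA (g1), decomposition form**: `s f / f = η * g ^ m` with `η ∈ (B_n)ˣ` and
`g = s w' / w` (a unit at the vertical primes through `n` by `hg`). -/
theorem exists_ratio_decomp (n : Ideal B) [hn : n.IsPrime] (π : B)
    (sB : B ≃+* B) (s : K ≃+* K)
    (hs : ∀ b, s (algebraMap B K b) = algebraMap B K (sB b))
    (hπ : ∀ p : Ideal B, p.IsPrime → (sB π ∈ p ↔ π ∈ p))
    (f w w' : K) (hf : f ≠ 0) (hw : w ≠ 0) (hw' : w' ≠ 0) (m : ℕ)
    (hhor : ∀ p : Ideal B, p.IsPrime → p.height = 1 → p ≤ n → π ∉ p → IsUnitAt p (f / w ^ m))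
    (hhor' : ∀ p : Ideal B, p.IsPrime → p.height = 1 → p ≤ n.comap (sB : B →+* B) → π ∉ p →
      IsUnitAt p (f / w' ^ m))
    (hstab : ∀ P : Ideal B, P.IsPrime → P.height = 1 → P ≤ n → π ∈ P → ∀ b, sB b ∈ P ↔ b ∈ P)
    (hg : ∀ P : Ideal B, P.IsPrime → P.height = 1 → P ≤ n → π ∈ P → IsUnitAt P (s w' / w)) :
    ∃ η g : K, IsUnitAt n η ∧ g ≠ 0 ∧ g = s w' / w ∧
      (∀ P : Ideal B, P.IsPrime → P.height = 1 → P ≤ n → π ∈ P → IsUnitAt P g) ∧
      s f / f = η * g ^ m := by
  have hg0 : s w' / w ≠ 0 := div_ne_zero ((map_ne_zero s).mpr hw') hw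
  refine ⟨(s f / f) / (s w' / w) ^ m, s w' / w,
    isUnitAt_ratio n π sB s hs hπ f w w' hf hw hw' m hhor hhor' hstab hg, hg0, rfl, hg, ?_⟩
  rw [div_mul_cancel₀ _ (pow_ne_zero m hg0)]

/-! ### the vertical primes: two ways to see that `g = s w' / w` is a unit there -/

/-- Smooth points: the local equations are units at the vertical prime. -/
theorem isUnitAt_map_div_of_units (sB : B ≃+* B) (s : K ≃+* K)
    (hs : ∀ b, s (algebraMap B K b) = algebraMap B K (sB b)) (P : Ideal B) [P.IsPrime]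
    (hstab : ∀ b, sB b ∈ P ↔ b ∈ P) {w w' : K} (hw : IsUnitAt P w) (hw' : IsUnitAt P w') :
    IsUnitAt P (s w' / w) :=
  (isUnitAt_map_of_stable hs hstab hw').div hw

/-- Nodes: `n' = n` and `w' = w`; the vertical orders cancel because the vertical primes are
`s`-stable. -/
theorem isUnitAt_map_div_self_of_fixed (sB : B ≃+* B) (s : K ≃+* K)
    (hs : ∀ b, s (algebraMap B K b) = algebraMap B K (sB b)) (P : Ideal B) [hP : P.IsPrime]
    (h1 : P.height = 1) (hstab : ∀ b, sB b ∈ P ↔ b ∈ P) {w : K} (hw : w ≠ 0) :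
    IsUnitAt P (s w / w) :=
  isUnitAt_map_div_self_of_stable P h1 sB s hs hstab w hw

/-! ### local equations from served-point data -/

/-- The local equation `w = ∏ ω_j ^ k_j` of `div f / m` at the horizontal primes through `n`,
from served-point data in the shape of `H56.local_datum` (without any stability clause: for S35
the divisor is moved away from the never-served points). -/
theorem horizontal_of_localEq (n : Ideal B) (π : B) {ι : Type*} (S : Finset ι) (q : ι → Ideal B)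
    (hqinj : ∀ i ∈ S, ∀ j ∈ S, q i = q j → i = j)
    (ω : ι → K) (k : ι → ℤ) (f : K) (m : ℕ)
    (hsingle : ∀ j ∈ S, ∀ p : Ideal B, p.IsPrime → p.height = 1 → p ≤ n → π ∉ p →
      p ≠ q j → IsUnitAt p (ω j))
    (hf : ∀ j ∈ S, IsUnitAt (q j) (f / (ω j ^ k j) ^ m))
    (hf' : ∀ p : Ideal B, p.IsPrime → p.height = 1 → p ≤ n → π ∉ p →
      (∀ j ∈ S, p ≠ q j) → IsUnitAt p f)
    (p : Ideal B) (hp : p.IsPrime) (h1 : p.height = 1) (hpn : p ≤ n) (hπp : π ∉ p) :
    IsUnitAt p (f / (∏ j ∈ S, ω j ^ k j) ^ m) :=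
  isUnitAt_div_localEq S q hqinj ω k f m p
    (fun j hj hne => hsingle j hj p hp h1 hpn hπp hne)
    (fun j hj he => he ▸ hf j hj)
    (fun hne => hf' p hp h1 hpn hπp hne)

/-- A product of vertical units is a vertical unit (`w = ∏ ω_j ^ k_j` at a smooth point). -/
theorem isUnitAt_prod_zpow {ι : Type*} (S : Finset ι) (ω : ι → K) (k : ι → ℤ) (P : Ideal B)
    [P.IsPrime] (h : ∀ j ∈ S, IsUnitAt P (ω j)) : IsUnitAt P (∏ j ∈ S, ω j ^ k j) :=
  IsUnitAt.prod S _ fun j hj => (h j hj).zpow _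

/-! ### the iterates -/

/-- `u₂ := s u₁ / u₁`: from decompositions `u₁ = η' g'^m` at `n' = n.comap sB` and
`u₁ = η g^m` at `n` one gets `u₂ = η₂ g₂^m`, `η₂ = s η' / η ∈ (B_n)ˣ`, `g₂ = s g' / g`. -/
theorem exists_decomp_map_div (n : Ideal B) [hn : n.IsPrime] (sB : B ≃+* B) (s : K ≃+* K)
    (hs : ∀ b, s (algebraMap B K b) = algebraMap B K (sB b))
    {u η η' g g' : K} (m : ℕ) (hη : IsUnitAt n η)
    (hη' : IsUnitAt (n.comap (sB : B →+* B)) η') (hg : g ≠ 0)
    (h' : u = η' * g' ^ m) (h : u = η * g ^ m) :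
    IsUnitAt n (s η' / η) ∧ s u / u = (s η' / η) * (s g' / g) ^ m :=
  ⟨(IsUnitAt.map hs hη').div hη, decomp_map_div s m hη.ne_zero hg h' h⟩

/-- `u₃ := s u₂ / u₂ ^ Q`. -/
theorem exists_decomp_map_div_pow (n : Ideal B) [hn : n.IsPrime] (sB : B ≃+* B) (s : K ≃+* K)
    (hs : ∀ b, s (algebraMap B K b) = algebraMap B K (sB b))
    {u η η' g g' : K} (m Q : ℕ) (hη : IsUnitAt n η)
    (hη' : IsUnitAt (n.comap (sB : B →+* B)) η') (hg : g ≠ 0)
    (h' : u = η' * g' ^ m) (h : u = η * g ^ m) :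
    IsUnitAt n (s η' / η ^ Q) ∧ s u / u ^ Q = (s η' / η ^ Q) * (s g' / g ^ Q) ^ m :=
  ⟨(IsUnitAt.map hs hη').div (hη.pow Q), decomp_map_div_pow s m Q hη.ne_zero hg h' h⟩

/-- `s (V_P) = V_P` for an `s`-stable height-one prime `P`. -/
theorem map_mem_valuationSubringAt_iff (sB : B ≃+* B) (s : K ≃+* K)
    (hs : ∀ b, s (algebraMap B K b) = algebraMap B K (sB b)) (P : Ideal B) [hP : P.IsPrime]
    (h1 : P.height = 1) (hstab : ∀ b, sB b ∈ P ↔ b ∈ P) (x : K) :
    s x ∈ valuationSubringAt (K := K) P h1 ↔ x ∈ valuationSubringAt (K := K) P h1 := by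
  rw [mem_valuationSubringAt, mem_valuationSubringAt]
  exact memAt_map_iff_of_stable hs hstab x

/-- `v_P ∘ s = v_P` on units: `v_P (s x) = 1 ↔ v_P x = 1` for an `s`-stable height-one prime. -/
theorem valuation_map_eq_one_iff (sB : B ≃+* B) (s : K ≃+* K)
    (hs : ∀ b, s (algebraMap B K b) = algebraMap B K (sB b)) (P : Ideal B) [hP : P.IsPrime]
    (h1 : P.height = 1) (hstab : ∀ b, sB b ∈ P ↔ b ∈ P) (x : K) :
    (valuationSubringAt (K := K) P h1).valuation (s x) = 1 ↔
      (valuationSubringAt (K := K) P h1).valuation x = 1 := by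
  rw [valuation_eq_one_iff, valuation_eq_one_iff, isUnitAt_map_iff hs]
  constructor
  · exact isUnitAt_congr fun b => by rw [Ideal.mem_comap]; exact hstab b
  · exact isUnitAt_congr fun b => by rw [Ideal.mem_comap]; exact (hstab b).symm

end Main

end Fermat.Agent.S35.H18
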