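/-
S35 (helper31): ABSTRACT ASSEMBLY (row R1-abstract of helper57's S35 plan).

* `trace_eq_of_key` (R0, self-contained copy): an endomorphism `φ` of a nontrivial finite free
  module over a domain of characteristic zero with `φ² = t φ - q` and
  `(φ² - q²)(φ² - 1)² = 0` has `t = q + 1` or `t = -(q + 1)`.
* `Midpoint35 lam M S 𝒪₁ χ₁`: the S30 midpoint (`H57.Midpoint`) WITHOUT the unramifiedness clause,
  PLUS the (KEY) relation `(φ² - q²)(φ² - 1)² = 0` for every Frobenius lift `φ` at every prime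
  `q ≠ lam` exactly dividing the level.
* `s35_of_midpoint35`: the exact conclusion of the frozen statement S35 (with `𝒪'' := 𝒪₁`)
  from `Midpoint35 lam M S 𝒪₁ ((algebraMap 𝒪' 𝒪₁).comp χ)`.
-/
import Mathlib
import Fermat.Agent.S30.H31_S30Assembly
import Fermat.Agent.S30.H10_DensityInst

set_option autoImplicit false

namespace Fermat.Agent.S35.H31

open Polynomial Module

section FinalAlgebra

variable {O : Type*} [CommRing O] [IsDomain O] [CharZero O]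
  {V : Type*} [AddCommGroup V] [Module O V] [Module.Free O V] [Nontrivial V]

omit [CharZero O] in
/-- a scalar acting as zero on a nontrivial free module over a domain is zero -/
theorem eq_zero_of_smul_one_eq_zero {c : O} (h : c • (1 : Module.End O V) = 0) : c = 0 := by
  obtain ⟨v, hv⟩ := exists_ne (0 : V)
  have h1 : c • v = 0 := by
    have := congrArg (fun f : Module.End O V => f v) h
    simpa using this
  rcases smul_eq_zero.mp h1 with h2 | h2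
  · exact h2
  · exact absurd h2 hv

/-- **(R0) FINAL ALGEBRA.** -/
theorem trace_eq_of_key (φ : Module.End O V) (t : O) (q : ℕ) (hq : q ≠ 0)
    (hquad : φ * φ = t • φ - (q : O) • (1 : Module.End O V))
    (hkey : (φ * φ - ((q : O) ^ 2) • (1 : Module.End O V)) * (φ * φ - 1) ^ 2 = 0) :
    t = (q : O) + 1 ∨ t = -((q : O) + 1) := by
  -- the two polynomials
  set A : O[X] := X ^ 2 - C t * X + C (q : O) with hA
  set P : O[X] := (X ^ 2 - C ((q : O) ^ 2)) * (X ^ 2 - 1) ^ 2 with hP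
  have hAφ : aeval φ A = 0 := by
    simp only [hA, map_add, map_sub, map_mul, map_pow, aeval_X, aeval_C,
      Algebra.algebraMap_eq_smul_one]
    rw [pow_two, hquad]
    simp only [smul_mul_assoc, one_mul]
    abel
  have hPφ : aeval φ P = 0 := by
    simp only [hP, map_sub, map_mul, map_pow, aeval_X, aeval_C, map_one]
    rw [pow_two φ, ← map_pow, Algebra.algebraMap_eq_smul_one]
    exact hkey
  -- the values of `A` at `q, -q, 1, -1`
  set a₁ : O := (q : O) * ((q : O) + 1 - t) with ha₁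
  set a₂ : O := (q : O) * ((q : O) + 1 + t) with ha₂
  set a₃ : O := (q : O) + 1 - t with ha₃
  set a₄ : O := (q : O) + 1 + t with ha₄
  -- the cofactor identity
  have hid : ((X + C (q : O) - C t) * (X - C (q : O) - C t) * (X + 1 - C t) ^ 2 *
        (X - 1 - C t) ^ 2) * P =
      (A - C a₁) * (A - C a₂) * (A - C a₃) ^ 2 * (A - C a₄) ^ 2 := by
    simp only [hA, hP, ha₁, ha₂, ha₃, ha₄, map_add, map_sub, map_mul, map_pow, map_one]
    ring
  have hsub : ∀ a : O, aeval φ (A - C a) = algebraMap O (Module.End O V) (-a) := by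
    intro a
    rw [map_sub, hAφ, zero_sub, aeval_C, map_neg]
  have h2 : algebraMap O (Module.End O V) ((-a₁) * (-a₂) * (-a₃) ^ 2 * (-a₄) ^ 2) = 0 := by
    rw [map_mul, map_mul, map_mul, map_pow, map_pow, ← hsub, ← hsub, ← hsub, ← hsub, ← map_pow,
      ← map_pow, ← map_mul, ← map_mul, ← map_mul, ← hid, map_mul, hPφ, mul_zero]
  rw [Algebra.algebraMap_eq_smul_one] at h2
  have h3 := eq_zero_of_smul_one_eq_zero h2
  have hq0 : (q : O) ≠ 0 := Nat.cast_ne_zero.mpr hq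
  simp only [ha₁, ha₂, mul_eq_zero, pow_eq_zero_iff, ne_eq, OfNat.ofNat_ne_zero,
    not_false_eq_true, neg_eq_zero, hq0, false_or] at h3
  rcases h3 with ((h | h) | h) | h
  · left; linear_combination -h
  · right; linear_combination h
  · left; linear_combination -h
  · right; linear_combination h

end FinalAlgebra

section Assembly

open CuspForm IsLocalRing Fermat.Agent.S30 Fermat.Agent.S30.H31

local notation "Qbar" => AlgebraicClosure ℚ
local notation "GQ" => (AlgebraicClosure ℚ ≃ₐ[ℚ] AlgebraicClosure ℚ)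

/-- The midpoint of the S35 pipeline: `H57.Midpoint` without unramifiedness, plus (KEY). -/
def Midpoint35 (lam M : ℕ) [NeZero M] (S : Finset ℕ) (𝒪₁ : Type) [CommRing 𝒪₁] [IsLocalRing 𝒪₁]
    (χ₁ : heckeAlgebra M 2 (↑S : Set ℕ) →+* 𝒪₁) : Prop :=
  ∃ (V : Type) (_ : AddCommGroup V) (_ : Module 𝒪₁ V) (_ : Module.Free 𝒪₁ V)
    (_ : Module.Finite 𝒪₁ V) (ρ : GQ →* Module.End 𝒪₁ V),
    Nontrivial V ∧ GaloisActionIsAdicContinuous 𝒪₁ ρ ∧
    (∀ (ℓ : ℕ) (hℓ : ℓ.Prime) (hℓM : ¬ ℓ ∣ M) (hℓS : ℓ ∉ (↑S : Set ℕ)),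
      ∀ A : ValuationSubring Qbar, A.LiesOverPrime ℓ →
        ∀ σ : GQ, A.IsFrobeniusAt σ ℓ →
          ρ σ * ρ σ = χ₁ (heckeAlgebra.T hℓ hℓM hℓS) • ρ σ - (ℓ : 𝒪₁) • (1 : Module.End 𝒪₁ V)) ∧
    (∀ q : ℕ, q.Prime → q ≠ lam → q ∣ M → ¬ q ^ 2 ∣ M →
      ∀ A : ValuationSubring Qbar, A.LiesOverPrime q →
        ∀ σ : GQ, A.IsFrobeniusAt σ q →
          (ρ σ * ρ σ - ((q : 𝒪₁) ^ 2) • (1 : Module.End 𝒪₁ V)) * (ρ σ * ρ σ - 1) ^ 2 = 0)

/-- **S35 from the midpoint** (with `𝒪'' := 𝒪₁`). -/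
theorem s35_of_midpoint35 {M : ℕ} [NeZero M] (lam : ℕ) [Fact lam.Prime] (S : Finset ℕ)
    (hlamS : lam ∈ S)
    (𝒪' : Type) [CommRing 𝒪']
    (χ : CuspForm.heckeAlgebra M 2 (↑S : Set ℕ) →+* 𝒪')
    (𝒪₁ : Type) [CommRing 𝒪₁] [IsDomain 𝒪₁] [IsDiscreteValuationRing 𝒪₁]
    [IsAdicComplete (IsLocalRing.maximalIdeal 𝒪₁) 𝒪₁] [Finite (IsLocalRing.ResidueField 𝒪₁)]
    [CharZero 𝒪₁] [Algebra 𝒪' 𝒪₁] [Module.Finite 𝒪' 𝒪₁] [IsLocalHom (algebraMap 𝒪' 𝒪₁)]
    (hinj : Function.Injective (algebraMap 𝒪' 𝒪₁))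
    (hlam𝒪₁ : (lam : 𝒪₁) ∈ IsLocalRing.maximalIdeal 𝒪₁)
    (hmid : Midpoint35 lam M S 𝒪₁ ((algebraMap 𝒪' 𝒪₁).comp χ)) :
    ∃ (O'' : Type) (_ : CommRing O'') (_ : IsDomain O'') (_ : IsDiscreteValuationRing O'')
      (_ : IsAdicComplete (IsLocalRing.maximalIdeal O'') O'')
      (_ : Finite (IsLocalRing.ResidueField O''))
      (_ : CharZero O'') (_ : Algebra 𝒪' O'') (_ : Module.Finite 𝒪' O'')
      (_ : IsLocalHom (algebraMap 𝒪' O'')),
      Function.Injective (algebraMap 𝒪' O'') ∧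
      ∃ ρ : GaloisRepAdic O'',
        (∀ (ℓ : ℕ) (hℓ : ℓ.Prime) (hℓM : ¬ ℓ ∣ M) (hℓS : ℓ ∉ (↑S : Set ℕ)),
          ∀ A : ValuationSubring (AlgebraicClosure ℚ), A.LiesOverPrime ℓ →
            ∀ σ : AlgebraicClosure ℚ ≃ₐ[ℚ] AlgebraicClosure ℚ, A.IsFrobeniusAt σ ℓ →
              LinearMap.charpoly (ρ.ρ σ) =
                X ^ 2 - C (algebraMap 𝒪' O'' (χ (CuspForm.heckeAlgebra.T hℓ hℓM hℓS))) * X
                  + C ((ℓ : O''))) ∧
        (∀ q : ℕ, q.Prime → q ≠ lam → q ∣ M → ¬ q ^ 2 ∣ M →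
          ∀ A : ValuationSubring (AlgebraicClosure ℚ), A.LiesOverPrime q →
            ∀ σ : AlgebraicClosure ℚ ≃ₐ[ℚ] AlgebraicClosure ℚ, A.IsFrobeniusAt σ q →
              LinearMap.charpoly (ρ.ρ σ) = X ^ 2 - C ((q : O'') + 1) * X + C ((q : O'')) ∨
              LinearMap.charpoly (ρ.ρ σ) = X ^ 2 + C ((q : O'') + 1) * X + C ((q : O''))) := by
  classical
  obtain ⟨V, i1, i2, i3, i4, ρ, hnt, hcont, hfrob, hkey⟩ := hmid
  set χ₁ : CuspForm.heckeAlgebra M 2 (↑S : Set ℕ) →+* 𝒪₁ := (algebraMap 𝒪' 𝒪₁).comp χ with hχ₁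
  -- the bad set and the eigenvalue function
  set T : Finset ℕ := S ∪ M.primeFactors with hT
  have hpT : lam ∈ T := Finset.mem_union_left _ hlamS
  set c : ℕ → 𝒪₁ := fun ℓ =>
    if h : ℓ.Prime ∧ ¬ ℓ ∣ M ∧ ℓ ∉ (↑S : Set ℕ) then χ₁ (CuspForm.heckeAlgebra.T h.1 h.2.1 h.2.2)
    else 0 with hc
  have hgood : ∀ ℓ : ℕ, ℓ.Prime → ℓ ∉ T → ¬ ℓ ∣ M ∧ ℓ ∉ (↑S : Set ℕ) := by
    intro ℓ hℓ hℓT
    rw [hT, Finset.mem_union, not_or] at hℓT
    refine ⟨fun hdvd => hℓT.2 ?_, fun hS => hℓT.1 (Finset.mem_coe.mp hS)⟩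
    exact Nat.mem_primeFactors.mpr ⟨hℓ, hdvd, NeZero.ne M⟩
  have hnotT : ∀ ℓ : ℕ, ℓ.Prime → ¬ ℓ ∣ M → ℓ ∉ (↑S : Set ℕ) → ℓ ∉ T := by
    intro ℓ hℓ hℓN hℓS hℓT
    rw [hT, Finset.mem_union] at hℓT
    rcases hℓT with h | h
    · exact hℓS (Finset.mem_coe.mpr h)
    · exact hℓN (Nat.mem_primeFactors.mp h).2.1
  have hcval : ∀ (ℓ : ℕ) (hℓ : ℓ.Prime) (hℓN : ¬ ℓ ∣ M) (hℓS : ℓ ∉ (↑S : Set ℕ)),
      c ℓ = χ₁ (CuspForm.heckeAlgebra.T hℓ hℓN hℓS) := by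
    intro ℓ hℓ hℓN hℓS
    rw [hc]
    exact dif_pos ⟨hℓ, hℓN, hℓS⟩
  have hquadF : ∀ ℓ : ℕ, ℓ.Prime → ℓ ∉ T → ∀ A : ValuationSubring Qbar,
      A.LiesOverPrime ℓ → ∀ σ : GQ, A.IsFrobeniusAt σ ℓ →
          ρ σ * ρ σ = c ℓ • ρ σ - (ℓ : 𝒪₁) • (1 : Module.End 𝒪₁ V) := by
    intro ℓ hℓ hℓT A hA σ hσ
    obtain ⟨hℓN, hℓS⟩ := hgood ℓ hℓ hℓT
    rw [hcval ℓ hℓ hℓN hℓS]
    exact hfrob ℓ hℓ hℓN hℓS A hA σ hσ
  obtain ⟨t, hquad, htF⟩ :=
    H10.exists_trace_of_frobenius_quad lam hlam𝒪₁ ρ hcont T hpT c hquadF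
  set 𝔪 := IsLocalRing.maximalIdeal 𝒪₁ with h𝔪
  set d := H68.cycloAdic lam 𝔪 hlam𝒪₁ with hd
  obtain ⟨σ, hσ, hσc⟩ := exists_matrixRep_of_module (two_ne_zero : (2 : 𝒪₁) ≠ 0) ρ t d hquad
    complexConjugation complexConjugation_mul_self (H68.cycloAdic_complexConjugation lam 𝔪 hlam𝒪₁)
  obtain ⟨ϖ, hϖ⟩ := IsDiscreteValuationRing.exists_irreducible 𝒪₁
  have h𝔪ϖ : ∀ n : ℕ, 𝔪 ^ n = Ideal.span {ϖ ^ n} := by
    intro n
    rw [h𝔪, hϖ.maximalIdeal_eq, Ideal.span_singleton_pow]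
  -- continuity
  have hcontσ : GaloisActionIsAdicContinuous 𝒪₁ (linOfMatrix σ) := by
    intro n
    obtain ⟨L₁, hL₁f, hL₁⟩ := hcont n
    obtain ⟨L₂, hL₂f, hL₂⟩ := H68.cycloAdic_continuity lam 𝔪 hlam𝒪₁ n
    refine ⟨L₁ ⊔ L₂, IntermediateField.finiteDimensional_sup L₁ L₂, fun τ hτ v => ?_⟩
    have hτ₁ : ∀ x ∈ L₁, τ x = x := fun x hx => hτ x ((le_sup_left : L₁ ≤ L₁ ⊔ L₂) hx)
    have hτ₂ : ∀ x ∈ L₂, τ x = x := fun x hx => hτ x ((le_sup_right : L₂ ≤ L₁ ⊔ L₂) hx)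
    have h1 : ∀ v, ρ τ v - v ∈ Ideal.span {ϖ ^ n} • (⊤ : Submodule 𝒪₁ V) := by
      intro v
      rw [← h𝔪ϖ n]
      exact hL₁ τ hτ₁ v
    have h2 : ϖ ^ n ∣ ((d τ : 𝒪₁ˣ) : 𝒪₁) - 1 := by
      rw [← Ideal.mem_span_singleton, ← h𝔪ϖ n]
      exact H68.span_natCast_pow_le lam 𝔪 hlam𝒪₁ n (hL₂ τ hτ₂)
    have h3 := hσc (ϖ ^ n) τ h1 h2
    rw [h𝔪ϖ n]
    apply mem_smul_top_of_forall_mem
    intro i
    have h4 : (linOfMatrix σ τ v - v) i = ∑ j, (σ τ - 1) i j * v j := by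
      rw [linOfMatrix_apply, Pi.sub_apply, Matrix.toLin'_apply, Matrix.mulVec, dotProduct]
      have : v i = ∑ j, (1 : Matrix (Fin 2) (Fin 2) 𝒪₁) i j * v j := by
        simp [Matrix.one_apply]
      rw [this, ← Finset.sum_sub_distrib]
      refine Finset.sum_congr rfl fun j _ => ?_
      rw [Matrix.sub_apply, sub_mul]
    rw [h4]
    exact Ideal.sum_mem _ fun j _ =>
      Ideal.mul_mem_right _ _ (Ideal.mem_span_singleton.mpr (h3 i j))
  refine ⟨𝒪₁, inferInstance, inferInstance, inferInstance, inferInstance, inferInstance,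
    inferInstance, inferInstance, inferInstance, inferInstance, hinj, ?_⟩
  refine ⟨{ V := Fin 2 → 𝒪₁
            finrank_eq := by rw [Module.finrank_fin_fun]
            ρ := linOfMatrix σ
            isAdicContinuous := hcontσ }, ?_, ?_⟩
  · intro ℓ hℓ hℓN hℓS A hA τ hτ
    have hℓp : ℓ ≠ lam := by
      rintro rfl
      exact hℓS (Finset.mem_coe.mpr hlamS)
    show LinearMap.charpoly (linOfMatrix σ τ) = _
    rw [linOfMatrix_apply, Matrix.charpoly_toLin', Matrix.charpoly_fin_two, (hσ τ).1, (hσ τ).2,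
      htF ℓ hℓ (hnotT ℓ hℓ hℓN hℓS) A hA τ hτ, hcval ℓ hℓ hℓN hℓS, hd,
      H68.cycloAdic_frobenius lam 𝔪 hlam𝒪₁ hℓ hℓp hA hτ]
    rfl
  · intro q hq hqlam hqM hq2 A hA τ hτ
    have hdq : ((d τ : 𝒪₁ˣ) : 𝒪₁) = (q : 𝒪₁) := by
      rw [hd]
      exact H68.cycloAdic_frobenius lam 𝔪 hlam𝒪₁ hq hqlam hA hτ
    have hquadτ : ρ τ * ρ τ = t τ • ρ τ - (q : 𝒪₁) • (1 : Module.End 𝒪₁ V) := by
      rw [← hdq]
      exact hquad τ
    have htq := trace_eq_of_key (ρ τ) (t τ) q hq.ne_zero hquadτ (hkey q hq hqlam hqM hq2 A hA τ hτ)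
    have hcp : LinearMap.charpoly (linOfMatrix σ τ) = X ^ 2 - C (t τ) * X + C (q : 𝒪₁) := by
      rw [linOfMatrix_apply, Matrix.charpoly_toLin', Matrix.charpoly_fin_two, (hσ τ).1,
        (hσ τ).2, hdq]
    rcases htq with h | h
    · left
      show LinearMap.charpoly (linOfMatrix σ τ) = _
      rw [hcp, h]
    · right
      show LinearMap.charpoly (linOfMatrix σ τ) = _
      rw [hcp, h, map_neg]
      ring

/-- **S35 from the midpoint, in the binder shape of the frozen statement** (the hypotheses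
`hg`, `hchig`, `hMS` of S35 are consumed by the PRODUCER of the midpoint, not here). -/
theorem s35_of_exists_midpoint35 {M : ℕ} [NeZero M] (lam : ℕ) [Fact lam.Prime] (S : Finset ℕ)
    (O' : Type) [CommRing O'] [IsDomain O'] [IsDiscreteValuationRing O']
    [IsAdicComplete (IsLocalRing.maximalIdeal O') O'] [Finite (IsLocalRing.ResidueField O')]
    [CharZero O'] (hlamO' : (lam : O') ∈ IsLocalRing.maximalIdeal O')
    (χ : CuspForm.heckeAlgebra M 2 (↑S : Set ℕ) →+* O')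
    (hlamS : lam ∈ S)
    (hmid : ∃ (O₁ : Type) (_ : CommRing O₁) (_ : IsDomain O₁) (_ : IsDiscreteValuationRing O₁)
      (_ : IsAdicComplete (IsLocalRing.maximalIdeal O₁) O₁)
      (_ : Finite (IsLocalRing.ResidueField O₁))
      (_ : CharZero O₁) (_ : Algebra O' O₁) (_ : Module.Finite O' O₁)
      (_ : IsLocalHom (algebraMap O' O₁)),
      Function.Injective (algebraMap O' O₁) ∧
      Midpoint35 lam M S O₁ ((algebraMap O' O₁).comp χ)) :
    ∃ (O'' : Type) (_ : CommRing O'') (_ : IsDomain O'') (_ : IsDiscreteValuationRing O'')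
      (_ : IsAdicComplete (IsLocalRing.maximalIdeal O'') O'')
      (_ : Finite (IsLocalRing.ResidueField O''))
      (_ : CharZero O'') (_ : Algebra O' O'') (_ : Module.Finite O' O'')
      (_ : IsLocalHom (algebraMap O' O'')),
      Function.Injective (algebraMap O' O'') ∧
      ∃ ρ : GaloisRepAdic O'',
        (∀ (ℓ : ℕ) (hℓ : ℓ.Prime) (hℓM : ¬ ℓ ∣ M) (hℓS : ℓ ∉ (↑S : Set ℕ)),
          ∀ A : ValuationSubring (AlgebraicClosure ℚ), A.LiesOverPrime ℓ →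
            ∀ σ : AlgebraicClosure ℚ ≃ₐ[ℚ] AlgebraicClosure ℚ, A.IsFrobeniusAt σ ℓ →
              LinearMap.charpoly (ρ.ρ σ) =
                X ^ 2 - C (algebraMap O' O'' (χ (CuspForm.heckeAlgebra.T hℓ hℓM hℓS))) * X
                  + C ((ℓ : O''))) ∧
        (∀ q : ℕ, q.Prime → q ≠ lam → q ∣ M → ¬ q ^ 2 ∣ M →
          ∀ A : ValuationSubring (AlgebraicClosure ℚ), A.LiesOverPrime q →
            ∀ σ : AlgebraicClosure ℚ ≃ₐ[ℚ] AlgebraicClosure ℚ, A.IsFrobeniusAt σ q →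
              LinearMap.charpoly (ρ.ρ σ) = X ^ 2 - C ((q : O'') + 1) * X + C ((q : O'')) ∨
              LinearMap.charpoly (ρ.ρ σ) = X ^ 2 + C ((q : O'') + 1) * X + C ((q : O''))) := by
  obtain ⟨O₁, i1, i2, i3, i4, i5, i6, i7, i8, i9, hinj, hmid⟩ := hmid
  have hlamO₁ : (lam : O₁) ∈ IsLocalRing.maximalIdeal O₁ := by
    have h1 : (algebraMap O' O₁) (lam : O') ∈ IsLocalRing.maximalIdeal O₁ := by
      rw [IsLocalRing.mem_maximalIdeal] at hlamO' ⊢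
      intro hu
      exact hlamO' (isUnit_of_map_unit (algebraMap O' O₁) _ hu)
    simpa using h1
  exact s35_of_midpoint35 lam S hlamS O' χ O₁ hinj hlamO₁ hmid

/-- pointwise form of (KEY), for producers working with vectors -/
theorem key_of_forall {O : Type*} [CommRing O] {V : Type*} [AddCommGroup V] [Module O V]
    (φ : Module.End O V) (a : O)
    (h : ∀ v : V, (φ * φ - a • (1 : Module.End O V))
      (((φ * φ - (1 : Module.End O V)) ^ 2 : Module.End O V) v) = 0) :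
    (φ * φ - a • (1 : Module.End O V)) * (φ * φ - 1) ^ 2 = 0 :=
  LinearMap.ext fun v => by simpa using h v

end Assembly

end Fermat.Agent.S35.H31
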