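/-
S35, row G4 (chart level), helper42: producers of the fields `hsat`, `hbranch`, `hlift` (via
`hsum`), `happrox` (and `hrat` for `hfix`) of helper62's interface `S35.H62.FrobHyp`, for ONE chart
`B` (a noetherian integrally closed domain with fraction field `F`), in helper56/helper21's
"in the field" vocabulary: `O n = H21.locSubring n` (carrier `H56.MemAt n`),
`V k = H56.valuationSubringAt (P k) (h1 k)`, `Thr n k = (P k ≤ n)`.
-/
import Mathlib
import Fermat.Agent.S34.H21_ModelHypCharts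
import Fermat.Agent.S35.H62_ThreeRatios

set_option autoImplicit false
set_option linter.unusedSectionVars false

namespace Fermat.Agent.S35.H42

open Fermat.Agent.S34 Fermat.Agent.S34.H47

variable {B F : Type*} [CommRing B] [IsDomain B] [Field F] [Algebra B F] [IsFractionRing B F]
  [IsNoetherianRing B] [IsIntegrallyClosed B]

/-! ### Valuation of chart elements at a height-one prime -/

theorem val_algebraMap_eq_one (P : Ideal B) [hP : P.IsPrime] (h1 : P.height = 1) {b : B}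
    (hb : b ∉ P) : (H56.valuationSubringAt (K := F) P h1).valuation (algebraMap B F b) = 1 :=
  (H56.valuation_eq_one_iff h1).mpr (H56.isUnitAt_algebraMap hb hP.ne_top)

theorem val_algebraMap_lt_one (P : Ideal B) [hP : P.IsPrime] (h1 : P.height = 1) {b : B}
    (hb : b ∈ P) : (H56.valuationSubringAt (K := F) P h1).valuation (algebraMap B F b) < 1 :=
  (H56.algebraMap_mem_nonunits_iff h1 b).mpr hb

theorem algebraMap_ne_zero_of_not_mem (P : Ideal B) {b : B} (hb : b ∉ P) :
    algebraMap B F b ≠ 0 := by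
  intro h
  have : b = 0 := (IsFractionRing.injective B F) (by rw [h, map_zero])
  exact hb (this ▸ P.zero_mem)

/-- `x d = c`, `d ∉ P`, `c ∈ P` ⟹ `v_P x < 1`. -/
theorem val_lt_one_of_mul_eq (P : Ideal B) [hP : P.IsPrime] (h1 : P.height = 1) {x : F}
    {d c : B} (hd : d ∉ P) (hc : c ∈ P) (h : x * algebraMap B F d = algebraMap B F c) :
    (H56.valuationSubringAt (K := F) P h1).valuation x < 1 := by
  have := congrArg (H56.valuationSubringAt (K := F) P h1).valuation h
  rw [map_mul, val_algebraMap_eq_one P h1 hd, mul_one] at this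
  rw [this]
  exact val_algebraMap_lt_one P h1 hc

/-- `(ψ - 1) d = c`, `d ∉ P`, `c ∈ P` ⟹ `ψ` is a `1`-unit at `P`. -/
theorem oneU_of_mul_eq (P : Ideal B) [hP : P.IsPrime] (h1 : P.height = 1) {ψ : F}
    {d c : B} (hd : d ∉ P) (hc : c ∈ P) (h : (ψ - 1) * algebraMap B F d = algebraMap B F c) :
    OneU (H56.valuationSubringAt (K := F) P h1) ψ :=
  val_lt_one_of_mul_eq P h1 hd hc h

/-- `x d = c`, `d ∉ P`, `v_P x < 1` ⟹ `c ∈ P`. -/
theorem mem_of_val_lt_one (P : Ideal B) [hP : P.IsPrime] (h1 : P.height = 1) {x : F}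
    {d c : B} (hd : d ∉ P) (h : x * algebraMap B F d = algebraMap B F c)
    (hx : (H56.valuationSubringAt (K := F) P h1).valuation x < 1) : c ∈ P := by
  rw [← H56.algebraMap_mem_nonunits_iff (K := F) h1, ← h, map_mul,
    val_algebraMap_eq_one P h1 hd, mul_one]
  exact hx

/-! ### `happrox` -/

/-- **`happrox`**: finitely many pairwise incomparable height-one primes; any family of units at
the `P k` is simultaneously approximated (`Ψ ≡ x k` at every `P k`). -/
theorem exists_oneU_approx {κ : Type*} [Finite κ] (P : κ → Ideal B) [hP : ∀ k, (P k).IsPrime]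
    (h1 : ∀ k, (P k).height = 1) (hinc : ∀ j k, P j ≤ P k → j = k) (x : κ → F)
    (hx : ∀ k, (H56.valuationSubringAt (K := F) (P k) (h1 k)).valuation (x k) = 1) :
    ∃ Ψ : F, Ψ ≠ 0 ∧ ∀ k, OneU (H56.valuationSubringAt (K := F) (P k) (h1 k)) (Ψ / x k) := by
  classical
  cases nonempty_fintype κ
  rcases isEmpty_or_nonempty κ with hκ | hκ
  · exact ⟨1, one_ne_zero, fun k => (hκ.false k).elim⟩
  have hxs : ∀ k, ∃ a s : B, a ∉ P k ∧ s ∉ P k ∧ x k * algebraMap B F s = algebraMap B F a :=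
    fun k => (H56.valuation_eq_one_iff (h1 k)).1 (hx k)
  choose a s ha hs has using hxs
  have hc : ∀ k, ∃ c : B, c ∉ P k ∧ ∀ j, j ≠ k → c ∈ P j := by
    intro k
    have hjk : ∀ j, j ≠ k → ∃ c : B, c ∈ P j ∧ c ∉ P k := by
      intro j hj
      by_contra hcon
      refine hj (hinc j k fun c hc => ?_)
      by_contra hck
      exact hcon ⟨c, hc, hck⟩
    choose! c hcj hck using hjk
    refine ⟨∏ j ∈ Finset.univ.erase k, c j, ?_, ?_⟩
    · intro hmem
      obtain ⟨j, hj, hjm⟩ := (Ideal.IsPrime.prod_mem_iff (hp := hP k)).1 hmem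
      exact hck j (Finset.ne_of_mem_erase hj) hjm
    · intro j hj
      exact Ideal.mem_of_dvd _ (Finset.dvd_prod_of_mem c
        (Finset.mem_erase.2 ⟨hj, Finset.mem_univ j⟩)) (hcj j hj)
  choose c hck hcj using hc
  have hA : ∀ j, (∑ k, c k * a k) - c j * a j ∈ P j := by
    intro j
    rw [← Finset.add_sum_erase Finset.univ (fun k => c k * a k) (Finset.mem_univ j),
      add_sub_cancel_left]
    exact Ideal.sum_mem _ fun k hk =>
      Ideal.mul_mem_right _ _ (hcj k j (Finset.ne_of_mem_erase hk).symm)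
  have hT : ∀ j, (∑ k, c k * s k) - c j * s j ∈ P j := by
    intro j
    rw [← Finset.add_sum_erase Finset.univ (fun k => c k * s k) (Finset.mem_univ j),
      add_sub_cancel_left]
    exact Ideal.sum_mem _ fun k hk =>
      Ideal.mul_mem_right _ _ (hcj k j (Finset.ne_of_mem_erase hk).symm)
  set A : B := ∑ k, c k * a k with hAdef
  set T : B := ∑ k, c k * s k with hTdef
  have hAP : ∀ j, A ∉ P j := fun j hmem => by
    have : c j * a j ∈ P j := by
      have := (P j).sub_mem hmem (hA j)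
      rwa [sub_sub_cancel] at this
    exact ((hP j).mem_or_mem this).elim (hck j) (ha j)
  have hTP : ∀ j, T ∉ P j := fun j hmem => by
    have : c j * s j ∈ P j := by
      have := (P j).sub_mem hmem (hT j)
      rwa [sub_sub_cancel] at this
    exact ((hP j).mem_or_mem this).elim (hck j) (hs j)
  obtain ⟨j₀⟩ := hκ
  have hA0 : algebraMap B F A ≠ 0 := algebraMap_ne_zero_of_not_mem (P j₀) (hAP j₀)
  have hT0 : algebraMap B F T ≠ 0 := algebraMap_ne_zero_of_not_mem (P j₀) (hTP j₀)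
  refine ⟨algebraMap B F A / algebraMap B F T, div_ne_zero hA0 hT0, fun j => ?_⟩
  have hs0 : algebraMap B F (s j) ≠ 0 := algebraMap_ne_zero_of_not_mem (P j) (hs j)
  have ha0 : algebraMap B F (a j) ≠ 0 := algebraMap_ne_zero_of_not_mem (P j) (ha j)
  have hxj : x j = algebraMap B F (a j) / algebraMap B F (s j) := by
    rw [eq_div_iff hs0]; exact has j
  have hmemP : A * s j - a j * T ∈ P j := by
    have : A * s j - a j * T = (A - c j * a j) * s j - a j * (T - c j * s j) := by ring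
    rw [this]
    exact (P j).sub_mem (Ideal.mul_mem_right _ _ (hA j)) (Ideal.mul_mem_left _ _ (hT j))
  refine oneU_of_mul_eq (P j) (h1 j) (d := T * a j) (c := A * s j - a j * T)
    (fun h => ((hP j).mem_or_mem h).elim (hTP j) (ha j)) hmemP ?_
  rw [hxj, map_mul, map_sub, map_mul, map_mul]
  field_simp

/-! ### `hsum` (hence `hlift`) at a node -/

/-- **`hsum`** of `H62.lift_of_two_branches` for `S := H21.locSubring n`, from the node condition
`𝔪_n ⊆ P₁ + P₂` in chart form. -/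
theorem hsum_of_node (n : Ideal B) [hn : n.IsPrime] (P₁ P₂ : Ideal B) [hP₁ : P₁.IsPrime]
    [hP₂ : P₂.IsPrime] (h1₁ : P₁.height = 1) (h1₂ : P₂.height = 1) (hP₁n : P₁ ≤ n)
    (hP₂n : P₂ ≤ n) (hnode : ∀ z ∈ n, ∃ t, t ∉ n ∧ t * z ∈ P₁ ⊔ P₂) :
    ∀ x ∈ H21.locSubring (F := F) n, ¬ UnitIn (H21.locSubring (F := F) n) x →
      ∃ p₁ ∈ H21.locSubring (F := F) n, ∃ p₂ ∈ H21.locSubring (F := F) n, x = p₁ + p₂ ∧
        (H56.valuationSubringAt (K := F) P₁ h1₁).valuation p₁ < 1 ∧
        (H56.valuationSubringAt (K := F) P₂ h1₂).valuation p₂ < 1 := by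
  rintro x ⟨z, s, hs, hzs⟩ hxu
  have hzn : z ∈ n := by
    by_contra hz
    exact hxu (H21.unitIn_locSubring_iff.2 ⟨z, s, hz, hs, hzs⟩)
  obtain ⟨t, ht, htz⟩ := hnode z hzn
  obtain ⟨a₁, ha₁, a₂, ha₂, hsum⟩ := Submodule.mem_sup.1 htz
  have hst : s * t ∉ n := fun h => (hn.mem_or_mem h).elim hs ht
  have hst0 : algebraMap B F (s * t) ≠ 0 := algebraMap_ne_zero_of_not_mem n hst
  have hs0 : algebraMap B F s ≠ 0 := algebraMap_ne_zero_of_not_mem n hs
  have ht0 : algebraMap B F t ≠ 0 := algebraMap_ne_zero_of_not_mem n ht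
  refine ⟨algebraMap B F a₁ / algebraMap B F (s * t), ⟨a₁, s * t, hst, by field_simp⟩,
    algebraMap B F a₂ / algebraMap B F (s * t), ⟨a₂, s * t, hst, by field_simp⟩, ?_, ?_, ?_⟩
  · have hx : x = algebraMap B F z / algebraMap B F s := by rw [eq_div_iff hs0]; exact hzs
    have hsum' : algebraMap B F a₁ + algebraMap B F a₂ = algebraMap B F t * algebraMap B F z := by
      rw [← map_add, hsum, map_mul]
    rw [hx, ← add_div, hsum', map_mul]
    field_simp
  · exact val_lt_one_of_mul_eq P₁ h1₁ (d := s * t) (c := a₁) (fun h => hst (hP₁n h)) ha₁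
      (by field_simp)
  · exact val_lt_one_of_mul_eq P₂ h1₂ (d := s * t) (c := a₂) (fun h => hst (hP₂n h)) ha₂
      (by field_simp)

/-- The node condition from the L1 output `𝔪_n = (ϖ, x, y)` locally, `ϖ, x ∈ P₁`, `y ∈ P₂`. -/
theorem hnode_of_locGen (n : Ideal B) (P₁ P₂ : Ideal B) {ϖ x y : B} (hϖ : ϖ ∈ P₁) (hx : x ∈ P₁)
    (hy : y ∈ P₂) (hgen : ∀ z ∈ n, ∃ t, t ∉ n ∧ t * z ∈ Ideal.span {ϖ, x, y}) :
    ∀ z ∈ n, ∃ t, t ∉ n ∧ t * z ∈ P₁ ⊔ P₂ := by
  intro z hz
  obtain ⟨t, ht, htz⟩ := hgen z hz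
  refine ⟨t, ht, ?_⟩
  have hle : Ideal.span {ϖ, x, y} ≤ P₁ ⊔ P₂ := by
    rw [Ideal.span_le]
    rintro w (rfl | rfl | rfl)
    · exact Ideal.mem_sup_left hϖ
    · exact Ideal.mem_sup_left hx
    · exact Ideal.mem_sup_right hy
  exact hle htz

/-! ### `hsat` -/

/-- **`hsat`**: an element of `B_n` lying in the maximal ideal of every vertical valuation ring
through `n` is in `π B_n` (`hred`, `hsat` in the shapes of `H69.kummer_descent_pow`). -/
theorem piIn_of_vertical {R₀ : Type*} [CommRing R₀] [Algebra R₀ B] [Algebra R₀ F]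
    [IsScalarTower R₀ B F] (π : R₀) {κ : Type*} [Finite κ] (P : κ → Ideal B)
    [hP : ∀ k, (P k).IsPrime] (h1 : ∀ k, (P k).height = 1)
    (hred : ∀ i, ∀ b ∈ P i, ∃ s, s ∉ P i ∧ algebraMap R₀ B π ∣ s * b)
    (hsat : ∀ b : B, (∀ i, ∃ s, s ∉ P i ∧ algebraMap R₀ B π ∣ s * b) → algebraMap R₀ B π ∣ b)
    (n : Ideal B) [hn : n.IsPrime] {x : F} (hx : x ∈ H21.locSubring (F := F) n)
    (hv : ∀ k, P k ≤ n → (H56.valuationSubringAt (K := F) (P k) (h1 k)).valuation x < 1) :
    PiIn π (H21.locSubring (F := F) n) x := by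
  classical
  cases nonempty_fintype κ
  obtain ⟨a, s, hs, has⟩ := hx
  -- `a ∈ P k` for the `P k` through `n`
  have ha : ∀ k, P k ≤ n → a ∈ P k := fun k hk =>
    mem_of_val_lt_one (P k) (h1 k) (fun h => hs (hk h)) has (hv k hk)
  -- elements `t k ∈ P k \ n` for the others
  have ht : ∀ k, ∃ t : B, t ∉ n ∧ (¬ P k ≤ n → t ∈ P k) := by
    intro k
    by_cases hk : P k ≤ n
    · exact ⟨1, fun h => hn.ne_top ((Ideal.eq_top_iff_one _).2 h), fun h => (h hk).elim⟩
    · obtain ⟨t, htP, htn⟩ := Set.not_subset.1 hk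
      exact ⟨t, htn, fun _ => htP⟩
  choose t htn htP using ht
  have hprod : ∏ k, t k ∉ n := fun h => by
    obtain ⟨k, -, hk⟩ := (Ideal.IsPrime.prod_mem_iff (hp := hn)).1 h
    exact htn k hk
  have hall : ∀ k, (∏ k, t k) * a ∈ P k := by
    intro k
    by_cases hk : P k ≤ n
    · exact Ideal.mul_mem_left _ _ (ha k hk)
    · exact Ideal.mul_mem_right _ _ (Ideal.mem_of_dvd _
        (Finset.dvd_prod_of_mem t (Finset.mem_univ k)) (htP k hk))
  obtain ⟨c, hc⟩ := hsat ((∏ k, t k) * a) fun i => hred i _ (hall i)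
  have hst : s * ∏ k, t k ∉ n := fun h => (hn.mem_or_mem h).elim hs hprod
  have hst0 : algebraMap B F (s * ∏ k, t k) ≠ 0 := algebraMap_ne_zero_of_not_mem n hst
  have hs0 : algebraMap B F s ≠ 0 := algebraMap_ne_zero_of_not_mem n hs
  have hp0 : algebraMap B F (∏ k, t k) ≠ 0 := algebraMap_ne_zero_of_not_mem n hprod
  refine ⟨algebraMap B F c / algebraMap B F (s * ∏ k, t k), ⟨c, s * ∏ k, t k, hst, by field_simp⟩,
    ?_⟩
  have hx' : x = algebraMap B F a / algebraMap B F s := by rw [eq_div_iff hs0]; exact has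
  have hc' : algebraMap B F (∏ k, t k) * algebraMap B F a
      = algebraMap R₀ F π * algebraMap B F c := by
    rw [← map_mul, hc, map_mul, ← IsScalarTower.algebraMap_apply]
  rw [hx', map_mul]
  field_simp
  linear_combination hc'

/-! ### `hbranch` -/

/-- In an integrally closed domain `R`: if `ā ^ m d̄ = s̄ ^ m c̄` (`m > 0`, `ā, s̄ ≠ 0`) then
`z := ā / s̄` satisfies `z d̄ = r ∈ R`, `z⁻¹ c̄ = r' ∈ R`; in `R`: `ā d̄ = r s̄`, `r r' = c̄ d̄`. -/
theorem exists_mul_eq_of_pow_mul_eq {R : Type*} [CommRing R] [IsDomain R] [IsIntegrallyClosed R]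
    {K' : Type*} [Field K'] [Algebra R K'] [IsFractionRing R K'] {a s c d : R} (ha : a ≠ 0)
    (hs : s ≠ 0) (m' : ℕ) (hR : a ^ (m' + 1) * d = s ^ (m' + 1) * c) :
    ∃ r r' : R, a * d = r * s ∧ r * r' = c * d := by
  have hinj : Function.Injective (algebraMap R K') := IsFractionRing.injective R K'
  have ha' : algebraMap R K' a ≠ 0 := fun h => ha (hinj (by rw [h, map_zero]))
  have hs' : algebraMap R K' s ≠ 0 := fun h => hs (hinj (by rw [h, map_zero]))
  have hR' : algebraMap R K' a ^ (m' + 1) * algebraMap R K' d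
      = algebraMap R K' s ^ (m' + 1) * algebraMap R K' c := by
    have := congrArg (algebraMap R K') hR
    simpa only [map_mul, map_pow] using this
  -- `z d` is integral
  have h1' : (algebraMap R K' a / algebraMap R K' s * algebraMap R K' d) ^ (m' + 1)
      = algebraMap R K' (c * d ^ m') := by
    rw [map_mul, map_pow, mul_pow, div_pow, div_mul_eq_mul_div, div_eq_iff (pow_ne_zero _ hs')]
    linear_combination (algebraMap R K' d) ^ m' * hR'
  have hint1 : IsIntegral R (algebraMap R K' a / algebraMap R K' s * algebraMap R K' d) :=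
    IsIntegral.of_pow (Nat.succ_pos m') (by rw [h1']; exact isIntegral_algebraMap)
  obtain ⟨r, hr⟩ := IsIntegrallyClosed.isIntegral_iff.1 hint1
  -- `z⁻¹ c` is integral
  have h2' : (algebraMap R K' s / algebraMap R K' a * algebraMap R K' c) ^ (m' + 1)
      = algebraMap R K' (c ^ m' * d) := by
    rw [map_mul, map_pow, mul_pow, div_pow, div_mul_eq_mul_div, div_eq_iff (pow_ne_zero _ ha')]
    linear_combination (-(algebraMap R K' c) ^ m') * hR'
  have hint2 : IsIntegral R (algebraMap R K' s / algebraMap R K' a * algebraMap R K' c) :=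
    IsIntegral.of_pow (Nat.succ_pos m') (by rw [h2']; exact isIntegral_algebraMap)
  obtain ⟨r', hr'⟩ := IsIntegrallyClosed.isIntegral_iff.1 hint2
  refine ⟨r, r', hinj ?_, hinj ?_⟩
  · rw [map_mul, map_mul, hr]
    field_simp
  · rw [map_mul, map_mul, hr, hr']
    field_simp

/-- **`hbranch`**: the branch `B / P` through `n` is normal (`red : B → R` onto an integrally
closed domain with kernel `P`): a unit `y` at `P` whose `m`-th power is congruent at `P` to a
unit `e` of `B_n` is itself congruent at `P` to a unit of `B_n`. -/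
theorem exists_isUnitAt_oneU_of_pow {R : Type*} [CommRing R] [IsDomain R] [IsIntegrallyClosed R]
    (red : B →+* R) (hsurj : Function.Surjective red) (P : Ideal B) [hP : P.IsPrime]
    (h1 : P.height = 1) (hker : ∀ b, red b = 0 ↔ b ∈ P) (n : Ideal B) [hn : n.IsPrime]
    (hPn : P ≤ n) {m : ℕ} (hm : 0 < m) {y e : F}
    (hy : (H56.valuationSubringAt (K := F) P h1).valuation y = 1) (he : H56.IsUnitAt n e)
    (hye : OneU (H56.valuationSubringAt (K := F) P h1) (y ^ m / e)) :
    ∃ ℓ : F, H56.IsUnitAt n ℓ ∧ OneU (H56.valuationSubringAt (K := F) P h1) (y / ℓ) := by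
  obtain ⟨a, s, ha, hs, has⟩ := (H56.valuation_eq_one_iff h1).1 hy
  obtain ⟨c, d, hc, hd, hcd⟩ := he
  have hcP : c ∉ P := fun h => hc (hPn h)
  have hdP : d ∉ P := fun h => hd (hPn h)
  have hs0 : algebraMap B F s ≠ 0 := algebraMap_ne_zero_of_not_mem P hs
  have ha0 : algebraMap B F a ≠ 0 := algebraMap_ne_zero_of_not_mem P ha
  have hc0 : algebraMap B F c ≠ 0 := algebraMap_ne_zero_of_not_mem P hcP
  have hd0 : algebraMap B F d ≠ 0 := algebraMap_ne_zero_of_not_mem P hdP
  have hyx : y = algebraMap B F a / algebraMap B F s := by rw [eq_div_iff hs0]; exact has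
  have hex : e = algebraMap B F c / algebraMap B F d := by rw [eq_div_iff hd0]; exact hcd
  -- the congruence `a ^ m d ≡ s ^ m c` modulo `P`
  have hcong : a ^ m * d - s ^ m * c ∈ P := by
    refine mem_of_val_lt_one P h1 (x := y ^ m / e - 1) (d := s ^ m * c)
      (fun h => ((hP.mem_or_mem h).elim (fun h' => hs (hP.mem_of_pow_mem m h')) hcP)) ?_ hye
    rw [hyx, hex, map_sub, map_mul, map_mul, map_pow, map_pow, div_pow]
    field_simp
  -- pass to `R`
  have hne : ∀ b, b ∉ P → red b ≠ 0 := fun b hb h => hb ((hker b).1 h)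
  have hR : red a ^ m * red d = red s ^ m * red c := by
    have := (hker _).2 hcong
    rwa [map_sub, map_mul, map_mul, map_pow, map_pow, sub_eq_zero] at this
  obtain ⟨m', rfl⟩ : ∃ m', m = m' + 1 := ⟨m - 1, by omega⟩
  obtain ⟨r, r', hrel1, hrel2⟩ := exists_mul_eq_of_pow_mul_eq (K' := FractionRing R)
    (hne a ha) (hne s hs) m' hR
  -- lift to `B`
  obtain ⟨r₀, rfl⟩ := hsurj r
  obtain ⟨r₀', rfl⟩ := hsurj r'
  have hmem : r₀ * r₀' - c * d ∈ P := by
    rw [← hker, map_sub, map_mul, map_mul, hrel2, sub_self]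
  have hr₀ : r₀ ∉ n := by
    intro h
    have h1 : r₀ * r₀' ∈ n := Ideal.mul_mem_right _ _ h
    have h2 : c * d ∈ n := by
      have := n.sub_mem h1 (hPn hmem)
      rwa [sub_sub_cancel] at this
    exact (hn.mem_or_mem h2).elim hc hd
  have hr₀P : r₀ ∉ P := fun h => hr₀ (hPn h)
  have hr0 : algebraMap B F r₀ ≠ 0 := algebraMap_ne_zero_of_not_mem P hr₀P
  refine ⟨algebraMap B F r₀ / algebraMap B F d, ⟨r₀, d, hr₀, hd, by field_simp⟩, ?_⟩
  have hmem2 : a * d - r₀ * s ∈ P := by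
    rw [← hker, map_sub, map_mul, map_mul, hrel1, sub_self]
  refine oneU_of_mul_eq P h1 (d := s * r₀) (c := a * d - r₀ * s)
    (fun h => (hP.mem_or_mem h).elim hs hr₀P) hmem2 ?_
  rw [hyx, map_sub, map_mul, map_mul, map_mul]
  field_simp

/-! ### `hrat` (for `hfix`) -/

/-- **`hrat`** of `H62.not_unitIn_frob_ratio`: the residue field of `B` at `n` is that of the base
ring `R₀` (`hres`), `R₀` local with `𝔪_{R₀}` below `n` (`hunit`). -/
theorem hrat_of_hres {R₀ : Type*} [CommRing R₀] [Algebra R₀ B] [Algebra R₀ F]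
    [IsScalarTower R₀ B F] (n : Ideal B) [hn : n.IsPrime]
    (hres : ∀ b : B, ∃ r : R₀, b - algebraMap R₀ B r ∈ n)
    (hunit : ∀ r : R₀, algebraMap R₀ B r ∉ n → IsUnit r) :
    ∀ x ∈ H21.locSubring (F := F) n,
      ∃ r : R₀, ¬ UnitIn (H21.locSubring (F := F) n) (x - algebraMap R₀ F r) := by
  rintro x ⟨a, s, hs, has⟩
  obtain ⟨ra, hra⟩ := hres a
  obtain ⟨rs, hrs⟩ := hres s
  have hrsn : algebraMap R₀ B rs ∉ n := fun h => hs (by
    have := n.add_mem hrs h
    rwa [sub_add_cancel] at this)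
  obtain ⟨u, hu⟩ := hunit rs hrsn
  refine ⟨ra * ↑u⁻¹, fun hunitIn => ?_⟩
  -- `(x - r) s = w ∈ n`
  have hw : a - algebraMap R₀ B (ra * ↑u⁻¹) * s ∈ n := by
    have h1 : algebraMap R₀ B (ra * ↑u⁻¹) * algebraMap R₀ B rs = algebraMap R₀ B ra := by
      rw [← map_mul, ← hu, mul_assoc, Units.inv_mul, mul_one]
    have : a - algebraMap R₀ B (ra * ↑u⁻¹) * s
        = (a - algebraMap R₀ B ra) - algebraMap R₀ B (ra * ↑u⁻¹) * (s - algebraMap R₀ B rs) := by
      rw [mul_sub, h1]; ring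
    rw [this]
    exact n.sub_mem hra (Ideal.mul_mem_left _ _ hrs)
  have hws : (x - algebraMap R₀ F (ra * ↑u⁻¹)) * algebraMap B F s
      = algebraMap B F (a - algebraMap R₀ B (ra * ↑u⁻¹) * s) := by
    rw [sub_mul, has, map_sub, map_mul (algebraMap B F), ← IsScalarTower.algebraMap_apply R₀ B F]
  obtain ⟨a', b', ha', hb', hab'⟩ := H21.unitIn_locSubring_iff.1 hunitIn
  have : a' * s = (a - algebraMap R₀ B (ra * ↑u⁻¹) * s) * b' := by
    apply IsFractionRing.injective B F
    rw [map_mul, map_mul, ← hab', ← hws]; ring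
  have hmem : a' * s ∈ n := this ▸ Ideal.mul_mem_right _ _ hw
  exact (hn.mem_or_mem hmem).elim ha' hs

/-! ### `hlift` at a closed point of the chart -/

theorem locSubring_le_valuationSubringAt (n : Ideal B) [hn : n.IsPrime] (P : Ideal B)
    [hP : P.IsPrime] (h1 : P.height = 1) (hPn : P ≤ n) :
    ∀ x ∈ H21.locSubring (F := F) n, x ∈ H56.valuationSubringAt (K := F) P h1 := by
  rintro x ⟨a, s, hs, has⟩
  exact ⟨a, s, fun h => hs (hPn h), has⟩

theorem isLoc_locSubring (n : Ideal B) [hn : n.IsPrime] :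
    H62.IsLoc (H21.locSubring (F := F) n) :=
  fun _ _ ha hb hbu => H21.locSubring_local n ha hb hbu

/-- **`hlift`** at a closed point `n` of the chart: either at most one vertical prime passes
through `n`, or exactly two, `P k₁` and `P k₂`, and `𝔪_n ⊆ P k₁ + P k₂` locally at `n`. -/
theorem hlift_chart {κ : Type*} (P : κ → Ideal B) [hP : ∀ k, (P k).IsPrime]
    (h1 : ∀ k, (P k).height = 1) (n : Ideal B) [hn : n.IsPrime]
    (hcase : (∀ k k', P k ≤ n → P k' ≤ n → k = k') ∨
      ∃ k₁ k₂, P k₁ ≤ n ∧ P k₂ ≤ n ∧ (∀ k, P k ≤ n → k = k₁ ∨ k = k₂) ∧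
        ∀ z ∈ n, ∃ t, t ∉ n ∧ t * z ∈ P k₁ ⊔ P k₂)
    (e : κ → F) (he : ∀ k, P k ≤ n → UnitIn (H21.locSubring (F := F) n) (e k))
    (hcompat : ∀ k k', P k ≤ n → P k' ≤ n →
      ¬ UnitIn (H21.locSubring (F := F) n) (e k - e k')) :
    ∃ t : F, UnitIn (H21.locSubring (F := F) n) t ∧
      ∀ k, P k ≤ n → OneU (H56.valuationSubringAt (K := F) (P k) (h1 k)) (t / e k) := by
  rcases hcase with huniq | ⟨k₁, k₂, hk₁, hk₂, hT, hnode⟩
  · exact H62.lift_of_unique_branch (S := H21.locSubring (F := F) n)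
      (V := fun k => H56.valuationSubringAt (K := F) (P k) (h1 k)) (T := fun k => P k ≤ n)
      huniq e he
  · exact H62.lift_of_two_branches (S := H21.locSubring (F := F) n)
      (V := fun k => H56.valuationSubringAt (K := F) (P k) (h1 k)) (T := fun k => P k ≤ n)
      (isLoc_locSubring n) hT
      (locSubring_le_valuationSubringAt n (P k₁) (h1 k₁) hk₁)
      (locSubring_le_valuationSubringAt n (P k₂) (h1 k₂) hk₂)
      (hsum_of_node n (P k₁) (P k₂) (h1 k₁) (h1 k₂) hk₁ hk₂ hnode) e (he k₁ hk₁) (he k₂ hk₂)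
      (hcompat k₁ k₂ hk₁ hk₂)

end Fermat.Agent.S35.H42
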