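/-
S35 project (helper45), node (E3): the residue of `Ψ_M c / c` for a nonzero constant `c ∈ E`
(`hc` of `S35.H46.hasRes_norm_ratio`).

For `τ` in the decomposition group of `A`, `τ c / c` is a unit `u` of `A'' = A ∩ E`
(`S35.H45.exists_unit_galActE_eq_mul`), hence `Φ_M (const c) / const c = const u` and its residue at
every place of `F_M(E)` above `A''` is the constant `resE u ∈ kAˣ`:

* `galActFullC_const_div` : `Φ_M (const c) / const c = const u`;
* `exists_unit_resME_galActFullC_div` : the statement at helper92's Gauss ring `VME` / `resME`;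
* `hasRes_galActFullC_div_const`, `hasRes_trans_galActFullC_div_const` : `S35.H46.ResPlace` form, for
  `Φ_M = galActFullC τ` and for `Ψ_M = Φ_M ∘ Φ_M`, at an arbitrary place `PM` whose residue map is
  `ιk ∘ resE` on the constants of `A''`.
-/
import Mathlib
import Fermat.Agent.S35.H45_NormEquiv
import Fermat.Agent.S35.H92_GaussLevelME
import Fermat.Agent.S35.H46_G3Assembly

set_option autoImplicit false
set_option linter.unusedSectionVars false
set_option linter.style.haveILetI false
set_option synthInstance.maxHeartbeats 400000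

namespace Fermat.Agent.S35.H45

open ModularCurve HahnSeries IsLocalRing
open Fermat.Agent.S18.H45

noncomputable section

local notation "Qbar" => AlgebraicClosure ℚ

variable {A : ValuationSubring Qbar} {ℓ : ℕ} (hℓ : ℓ.Prime) (hA : A.LiesOverPrime ℓ)
variable (E : IntermediateField (unrCyclo ℓ) Qbar)
variable (hE : ∀ (τ : Qbar ≃ₐ[ℚ] Qbar) (x : Qbar), x ∈ E → τ x ∈ E)
variable (M : ℕ) [NeZero M]

set_option maxHeartbeats 1600000 in
include hℓ hA in
/-- `Φ_M (const c) / const c = const u` with `u` a unit of `A'' = A ∩ E`. -/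
theorem galActFullC_const_div [FiniteDimensional (unrCyclo ℓ) E] (τ : Qbar ≃ₐ[ℚ] Qbar)
    (hτ : τ ∈ A.decompositionSubgroup ℚ) (c : ↥E) (hc : c ≠ 0) :
    ∃ u : (cutOver A E)ˣ,
      galActFullC E hE M τ (algebraMap ↥E (modularFunctionFieldFullC ↥E M) c) /
          algebraMap ↥E (modularFunctionFieldFullC ↥E M) c =
        algebraMap ↥E (modularFunctionFieldFullC ↥E M) (((u : (cutOver A E)ˣ) : cutOver A E) : ↥E) := by
  obtain ⟨u, hu⟩ := galActFullC_algebraMap_eq_unit_mul hℓ hA E hE M τ hτ c hc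
  refine ⟨u, ?_⟩
  have hc' : algebraMap ↥E (modularFunctionFieldFullC ↥E M) c ≠ 0 :=
    (map_ne_zero_iff _ (algebraMap ↥E (modularFunctionFieldFullC ↥E M)).injective).mpr hc
  rw [hu, map_mul, mul_div_assoc, div_self hc', mul_one]

/-- The residue of a unit of `A'' = A ∩ E` in the residue field of `A`, as a unit. -/
def resUnit (u : (cutOver A E)ˣ) : (ResidueField A)ˣ :=
  Units.map ((residue A).comp (inclCutOver A E) : cutOver A E →* ResidueField A) u

@[simp] theorem coe_resUnit (u : (cutOver A E)ˣ) :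
    ((resUnit E u : (ResidueField A)ˣ) : ResidueField A) =
      residue A (inclCutOver A E (u : cutOver A E)) := rfl

/-! ### `ResPlace` form -/

section ResPlace

variable {κF : Type*} [Field κF]
  (PM : S35.H46.ResPlace (modularFunctionFieldFullC ↥E M) κF) (ιk : ResidueField A →+* κF)
  (hPM : ∀ a : cutOver A E,
    ∃ h : algebraMap ↥E (modularFunctionFieldFullC ↥E M) (a : ↥E) ∈ PM.O1,
      PM.res ⟨_, h⟩ = ιk (residue A (inclCutOver A E a)))

set_option maxHeartbeats 1600000 in
include hℓ hA hPM in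
/-- **`hc` of `S35.H46.hasRes_norm_ratio` for `Φ_M = galActFullC τ`.** -/
theorem hasRes_galActFullC_div_const [FiniteDimensional (unrCyclo ℓ) E] (τ : Qbar ≃ₐ[ℚ] Qbar)
    (hτ : τ ∈ A.decompositionSubgroup ℚ) (c : ↥E) (hc : c ≠ 0) :
    ∃ r : (ResidueField A)ˣ,
      PM.HasRes
        (galActFullC E hE M τ (algebraMap ↥E (modularFunctionFieldFullC ↥E M) c) /
          algebraMap ↥E (modularFunctionFieldFullC ↥E M) c)
        (Units.map (ιk : ResidueField A →* κF) r) := by
  obtain ⟨u, hu⟩ := galActFullC_const_div hℓ hA E hE M τ hτ c hc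
  obtain ⟨h, hres⟩ := hPM (u : cutOver A E)
  refine ⟨resUnit E u, ?_⟩
  rw [hu]
  exact ⟨h, hres⟩

set_option maxHeartbeats 1600000 in
include hℓ hA hPM in
/-- **`hc` of `S35.H46.hasRes_norm_ratio` for `Ψ_M = Φ_M ∘ Φ_M`**, `Φ_M = galActFullC φ`. -/
theorem hasRes_trans_galActFullC_div_const [FiniteDimensional (unrCyclo ℓ) E]
    (φ : Qbar ≃ₐ[ℚ] Qbar) (hφ : φ ∈ A.decompositionSubgroup ℚ) (c : ↥E) (hc : c ≠ 0) :
    ∃ r : (ResidueField A)ˣ,
      PM.HasRes
        (((galActFullC E hE M φ).trans (galActFullC E hE M φ))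
            (algebraMap ↥E (modularFunctionFieldFullC ↥E M) c) /
          algebraMap ↥E (modularFunctionFieldFullC ↥E M) c)
        (Units.map (ιk : ResidueField A →* κF) r) := by
  obtain ⟨r, hr⟩ := hasRes_galActFullC_div_const hℓ hA E hE M PM ιk hPM (φ * φ)
    (mul_mem hφ hφ) c hc
  refine ⟨r, ?_⟩
  have h1 : ((galActFullC E hE M φ).trans (galActFullC E hE M φ))
      (algebraMap ↥E (modularFunctionFieldFullC ↥E M) c) =
      galActFullC E hE M (φ * φ) (algebraMap ↥E (modularFunctionFieldFullC ↥E M) c) := by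
    rw [galActFullC_mul]
    rfl
  rw [h1]
  exact hr

end ResPlace

/-! ### the statement at the E-level Gauss ring `VME` -/

section VME

variable {ℓ' : ℕ} [hℓ' : Fact ℓ'.Prime] (hℓM : ¬ ℓ' ∣ M)
  (A' : ValuationSubring Qbar) (hA' : A'.LiesOverPrime ℓ')
  (E' : IntermediateField (unrCyclo ℓ') Qbar)
  (hE' : ∀ (τ : Qbar ≃ₐ[ℚ] Qbar) (x : Qbar), x ∈ E' → τ x ∈ E')

set_option maxHeartbeats 1600000 in
/-- At the E-level Gauss ring: `Φ_M (const c) / const c ∈ V_M(E)` with residue the constant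
`resE u`, `u` a unit of `A''`. -/
theorem exists_unit_resME_galActFullC_div [FiniteDimensional (unrCyclo ℓ') E']
    (τ : Qbar ≃ₐ[ℚ] Qbar) (hτ : τ ∈ A'.decompositionSubgroup ℚ) (c : ↥E') (hc : c ≠ 0) :
    ∃ (u : (cutOver A' E')ˣ)
      (h : galActFullC E' hE' M τ (algebraMap ↥E' (modularFunctionFieldFullC ↥E' M) c) /
          algebraMap ↥E' (modularFunctionFieldFullC ↥E' M) c ∈ S35.H92.VME M hℓM A' hA' E'),
      S35.H92.resME M hℓM A' hA' E' ⟨_, h⟩ =
        HahnSeries.C (S35.H92.resE A' E' (u : cutOver A' E')) := by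
  obtain ⟨u, hu⟩ := galActFullC_const_div hℓ'.out hA' E' hE' M τ hτ c hc
  have hmem : algebraMap ↥E' (modularFunctionFieldFullC ↥E' M)
      (((u : (cutOver A' E')ˣ) : cutOver A' E') : ↥E') ∈ S35.H92.VME M hℓM A' hA' E' :=
    (S35.H92.constVME M hℓM A' hA' E' (u : cutOver A' E')).2
  refine ⟨u, hu ▸ hmem, ?_⟩
  have h2 := S35.H92.resME_const M hℓM A' hA' E' (u : cutOver A' E')
  rw [← h2]
  congr 1
  exact Subtype.ext hu

set_option maxHeartbeats 1600000 in
/-- Adapter: a `ResPlace` on `F_M(E)` which restricts to `resME` on the Gauss ring `VME`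
(helper16's `hPM` with `O := VME`, `ι := resME`) satisfies the hypothesis `hPM` of
`hasRes_galActFullC_div_const` with `ιk := HahnSeries.C`. -/
theorem hPM_const_of_VME
    (PM : S35.H46.ResPlace (modularFunctionFieldFullC ↥E' M) (LaurentSeries (ResidueField A')))
    (hPM : ∀ n : S35.H92.VME M hℓM A' hA' E',
      ∃ h : algebraMap (S35.H92.VME M hℓM A' hA' E') (modularFunctionFieldFullC ↥E' M) n ∈ PM.O1,
        PM.res ⟨_, h⟩ = S35.H92.resME M hℓM A' hA' E' n)
    (a : cutOver A' E') :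
    ∃ h : algebraMap ↥E' (modularFunctionFieldFullC ↥E' M) (a : ↥E') ∈ PM.O1,
      PM.res ⟨_, h⟩ = (HahnSeries.C : ResidueField A' →+* LaurentSeries (ResidueField A'))
        (residue A' (inclCutOver A' E' a)) := by
  obtain ⟨h, hres⟩ := hPM (S35.H92.constVME M hℓM A' hA' E' a)
  refine ⟨h, ?_⟩
  refine Eq.trans hres ?_
  rw [S35.H92.resME_const]
  rfl

set_option maxHeartbeats 1600000 in
/-- **`hc` for `Ψ_M = Φ_M ∘ Φ_M` at a place restricting to `resME` on `VME`**: the residue of
`Ψ_M (const c) / const c` is a constant `C r`, `r ∈ kAˣ`. -/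
theorem hasRes_trans_galActFullC_div_const_VME [FiniteDimensional (unrCyclo ℓ') E']
    (PM : S35.H46.ResPlace (modularFunctionFieldFullC ↥E' M) (LaurentSeries (ResidueField A')))
    (hPM : ∀ n : S35.H92.VME M hℓM A' hA' E',
      ∃ h : algebraMap (S35.H92.VME M hℓM A' hA' E') (modularFunctionFieldFullC ↥E' M) n ∈ PM.O1,
        PM.res ⟨_, h⟩ = S35.H92.resME M hℓM A' hA' E' n)
    (φ : Qbar ≃ₐ[ℚ] Qbar) (hφ : φ ∈ A'.decompositionSubgroup ℚ) (c : ↥E') (hc : c ≠ 0) :
    ∃ r : (ResidueField A')ˣ,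
      PM.HasRes
        (((galActFullC E' hE' M φ).trans (galActFullC E' hE' M φ))
            (algebraMap ↥E' (modularFunctionFieldFullC ↥E' M) c) /
          algebraMap ↥E' (modularFunctionFieldFullC ↥E' M) c)
        (Units.map ((HahnSeries.C : ResidueField A' →+* LaurentSeries (ResidueField A')) :
          ResidueField A' →* LaurentSeries (ResidueField A')) r) :=
  hasRes_trans_galActFullC_div_const hℓ'.out hA' E' hE' M PM HahnSeries.C
    (hPM_const_of_VME M hℓM A' hA' E' PM hPM) φ hφ c hc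

end VME

end

end Fermat.Agent.S35.H45
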