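/-
S35, second clause, node (E3) (helper46): **the hypothesis `hE3` of helper18's
`H18.geoFnEN_of_twoComponents` / `H18.geoFnE'_of_twoComponents`, LITERALLY**, from

* the `E`-level `TwoComponents` package of chart 1 and the G1 facts of chart 1 (they give the units
  `hup huq`, through helper84's `chartFrob_of_twoComponents` and `H46.valuation_ratio_eq_one_of_chartFrob`);
* the compatibility `incl_k (red₁k z) = P_k''.res1 z` of the two reductions of chart 1 with the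
  `E`-level places of the two types (helper6's `H6.chartE_compat_of_comp` output, for all places).

Everything else ((E3) itself) is `H46.hE3_level`.
-/
import Mathlib
import Fermat.Agent.S35.H46_G3Level
import Fermat.Agent.S35.H18_GeoCoreTC
import Fermat.Agent.S34.H61_MiddleCutOver

set_option autoImplicit false
set_option linter.unusedSectionVars false
set_option linter.style.haveILetI false
set_option synthInstance.maxHeartbeats 400000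

noncomputable section

namespace Fermat.Agent.S35.H46

open ModularCurve AlgebraicCurve IsLocalRing IntermediateField
open Fermat.Agent.S18 Fermat.Agent.S34 Fermat.Agent.S34.H47 Fermat.Agent.S35.H92 Fermat.Agent.S34.H16

/-! ### generic: the units from a `TwoComponents` package and the G1 facts -/

section Generic

variable {R B F : Type*} [CommRing R] [CommRing B] [IsDomain B] [Field F] [Algebra R B]
  [Algebra B F] [Algebra R F] [IsScalarTower R B F] [IsFractionRing B F]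
  [IsNoetherianRing B] [IsIntegrallyClosed B]
  {D BM : Type*} [CommRing D] [IsDedekindDomain D] [CommRing BM]
  {red₁ red₂ : B →+* D} {ι V : BM →+* B} {rbar : BM →+* D} {W : D →+* D} {e : ℕ} {π : R}

/-- `Φ f / f` is a unit at the two vertical primes `ker red₁`, `ker red₂`. -/
theorem valuation_ratio_eq_one_of_twoComponents
    (h : H83.TwoComponents red₁ red₂ ι V rbar W e (algebraMap R B π))
    (hπ₁ : red₁ (algebraMap R B π) = 0) (hπ₂ : red₂ (algebraMap R B π) = 0)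
    (hne₁ : ∃ z, red₁ z = 0 ∧ red₂ z ≠ 0) (hne₂ : ∃ z, red₂ z = 0 ∧ red₁ z ≠ 0)
    (he : 2 ≤ e) (hD : ¬ IsField D)
    (Φ : F ≃+* F) (ΦB : B ≃+* B) (ΦR : R →+* R) {Q : ℕ} (hQ : 0 < Q)
    (hΦ : ∀ b : B, Φ (algebraMap B F b) = algebraMap B F (ΦB b))
    (hΦR : ∀ r : R, ΦB (algebraMap R B r) = algebraMap R B (ΦR r))
    (hΦπ : π ∣ ΦR π)
    (ΦD₁ ΦD₂ : D →+* D) (hinj₁ : Function.Injective ΦD₁) (hinj₂ : Function.Injective ΦD₂)
    (h1Φ : ∀ z, red₁ (ΦB z) = ΦD₁ (red₁ z)) (h2Φ : ∀ z, red₂ (ΦB z) = ΦD₂ (red₂ z))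
    (hW : ∀ r, W (W (ΦD₁ r)) = r ^ Q)
    (hrat : ∀ n : Ideal B, n.IsMaximal → RingHom.ker red₁ ≤ n → RingHom.ker red₂ ≤ n →
      ∀ b : B, ∃ r : R, b - algebraMap R B r ∈ n)
    (hπ0 : algebraMap R B π ≠ 0) {f : F} (hf : f ≠ 0)
    [(RingHom.ker red₁).IsPrime] [(RingHom.ker red₂).IsPrime]
    (h1 : (RingHom.ker red₁).height = 1) (h2 : (RingHom.ker red₂).height = 1) :
    (H56.valuationSubringAt (K := F) (RingHom.ker red₁) h1).valuation (Φ f / f) = 1 ∧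
      (H56.valuationSubringAt (K := F) (RingHom.ker red₂) h2).valuation (Φ f / f) = 1 := by
  have C := H84.chartFrob_of_twoComponents (F := F) h hπ₁ hπ₂ hne₁ hne₂ he hD
    Φ ΦB ΦR hQ hΦ hΦR hΦπ ΦD₁ ΦD₂ hinj₁ hinj₂ h1Φ h2Φ hW hrat
  have hh := H84.height_vertTC h hπ0 hπ₁ hπ₂ hne₁ hne₂
  have hπP : ∀ k, algebraMap R B π ∈ H84.vertTC red₁ red₂ k := by
    intro k
    cases k
    · exact (RingHom.mem_ker).mpr hπ₂
    · exact (RingHom.mem_ker).mpr hπ₁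
  exact ⟨valuation_ratio_eq_one_of_chartFrob hh C hπP hπ0 hf true,
    valuation_ratio_eq_one_of_chartFrob hh C hπP hπ0 hf false⟩

/-- the bridge facts `hB`, `hred` of `H46.exists_hG_E` from `incl (red z) = P.res1 z`, for a chart
which is a subalgebra of the field. -/
theorem exists_bridge_of_incl {R₀ L : Type*} [CommRing R₀] [Field L] [Algebra R₀ L]
    (S : Subalgebra R₀ L) {O : Type*} [CommRing O] [Algebra O L] {Fk : Type*} [Field Fk]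
    {ϖ : O} {θ : L} {ι₀ : O →+* Fk} {θb : Fk} (P : CA.H99.PlaceOver ϖ θ ι₀ θb)
    {D₀ : Type*} [CommRing D₀] (red : ↥S →+* D₀) (incl : D₀ →+* Fk)
    (hincl : Function.Injective incl)
    (hc : ∀ z : ↥S, ∃ hz : (z : L) ∈ P.O1, incl (red z) = P.res1 ⟨(z : L), hz⟩) :
    ∃ hB : ∀ b : ↥S, algebraMap ↥S L b ∈ P.O1,
      ∀ b : ↥S, b ∈ RingHom.ker red ↔ P.res1 ⟨algebraMap ↥S L b, hB b⟩ = 0 := by
  refine ⟨fun b => (hc b).1, fun b => ?_⟩
  obtain ⟨hz, hzz⟩ := hc b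
  rw [RingHom.mem_ker, ← map_eq_zero_iff incl hincl, hzz]
  rfl

end Generic

/-! ### the literal `hE3` -/

local notation "Qbar" => AlgebraicClosure ℚ
local notation "GQ" => (AlgebraicClosure ℚ ≃ₐ[ℚ] AlgebraicClosure ℚ)

variable {A : ValuationSubring Qbar} {q : ℕ} [NeZero q] [hqF : Fact q.Prime]
  (hA : A.LiesOverPrime q)
variable (E : IntermediateField (H45.unrCyclo q) Qbar) [FiniteDimensional (H45.unrCyclo q) E]
variable (hE : ∀ (τ : GQ) (x : Qbar), x ∈ E → τ x ∈ E)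
variable (M0 : ℕ) [NeZero M0] (hqM0 : ¬ q ∣ M0) (N : ℕ) [NeZero N] (hN : N = q * M0)
  (hqN : q ∣ N) (hM0N : M0 ∣ N) (hqM0N : q * M0 ∣ N)

set_option quotPrecheck false

local notation "kA" => IsLocalRing.ResidueField A
local notation "JE" => (H95.JK ↥E N q hqN)
local notation "FE" => ↥(modularFunctionFieldFullC ↥E N)
local notation "FEM" => ↥(modularFunctionFieldFullC ↥E M0)
local notation "RE" => ↥(H45.cutOver A E)
local notation "B₁E" => ↥(H40.chartB (H45.cutOver A E) JE)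

set_option maxHeartbeats 6400000 in
/-- the bridge hypothesis `hbridge` of `H46.hE3_level` from the compatibilities
`incl_k (red₁k z) = P_k''.res1 z`. -/
theorem hbridge_of_incl [IsFractionRing B₁E FE] [IsNoetherianRing B₁E] [IsIntegrallyClosed B₁E]
    (π : RE) {D₁ : Type*} [CommRing D₁]
    (red₁₁ red₁₂ : B₁E →+* D₁)
    (incl₁ incl₂ : D₁ →+* LaurentSeries kA) (hincl₁ : Function.Injective incl₁)
    (hincl₂ : Function.Injective incl₂)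
    (hcinf : letI := algebraVMEFNat M0 hqM0 A hA E N hM0N
      ∀ (Pinf : CA.H99.PlaceOver (L := modularFunctionFieldFullC (↥E) N)
          (constVME M0 hqM0 A hA E π) (S18.H16.jNK (↥E) N) (resME M0 hqM0 A hA E)
          (resME M0 hqM0 A hA E (jMVE M0 hqM0 A hA E) ^ q)) (z : B₁E),
        ∃ hz : (z : FE) ∈ Pinf.O1, incl₁ (red₁₁ z) = Pinf.res1 ⟨(z : FE), hz⟩)
    (hc0 : letI := algebraVMEFNat M0 hqM0 A hA E N hM0N
      ∀ (P0 : CA.H99.PlaceOver (L := modularFunctionFieldFullC (↥E) N)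
          (constVME M0 hqM0 A hA E π) (S18.H16.jNK (↥E) N) (iotaZeroE M0 hqM0 A hA E)
          (resME M0 hqM0 A hA E (jMVE M0 hqM0 A hA E))) (z : B₁E),
        ∃ hz : (z : FE) ∈ P0.O1, incl₂ (red₁₂ z) = P0.res1 ⟨(z : FE), hz⟩) :
    letI := algebraVMEFNat M0 hqM0 A hA E N hM0N
    ∀ (Pinf : CA.H99.PlaceOver (L := modularFunctionFieldFullC (↥E) N)
        (constVME M0 hqM0 A hA E π) (S18.H16.jNK (↥E) N) (resME M0 hqM0 A hA E)
        (resME M0 hqM0 A hA E (jMVE M0 hqM0 A hA E) ^ q))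
      (P0 : CA.H99.PlaceOver (L := modularFunctionFieldFullC (↥E) N)
        (constVME M0 hqM0 A hA E π) (S18.H16.jNK (↥E) N) (iotaZeroE M0 hqM0 A hA E)
        (resME M0 hqM0 A hA E (jMVE M0 hqM0 A hA E))),
      ∃ (hBinf : ∀ b : B₁E, algebraMap B₁E (modularFunctionFieldFullC (↥E) N) b ∈ Pinf.O1)
        (hB0 : ∀ b : B₁E, algebraMap B₁E (modularFunctionFieldFullC (↥E) N) b ∈ P0.O1),
        (∀ b : B₁E, b ∈ RingHom.ker red₁₁ ↔
          Pinf.res1 ⟨algebraMap B₁E (modularFunctionFieldFullC (↥E) N) b, hBinf b⟩ = 0) ∧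
        ∀ b : B₁E, b ∈ RingHom.ker red₁₂ ↔
          P0.res1 ⟨algebraMap B₁E (modularFunctionFieldFullC (↥E) N) b, hB0 b⟩ = 0 := by
  letI := algebraVMEFNat M0 hqM0 A hA E N hM0N
  intro Pinf P0
  have ki := hcinf Pinf
  have k0 := hc0 P0
  have ei := exists_bridge_of_incl (H40.chartB (H45.cutOver A E) JE) Pinf red₁₁ incl₁ hincl₁ ki
  have e0 := exists_bridge_of_incl (H40.chartB (H45.cutOver A E) JE) P0 red₁₂ incl₂ hincl₂ k0
  obtain ⟨hBi, hri⟩ := ei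
  obtain ⟨hB0, hr0⟩ := e0
  exact ⟨hBi, hB0, hri, hr0⟩

include hA in
set_option maxHeartbeats 6400000 in
/-- the unit hypothesis `hunit` of `H46.hE3_level` from the `TwoComponents` package and the G1
facts of chart 1. -/
theorem hunit_of_twoComponents
    [IsFractionRing B₁E FE] [IsNoetherianRing B₁E] [IsIntegrallyClosed B₁E]
    (φ : GQ) (π : RE) (hmax : maximalIdeal RE = Ideal.span {π})
    {D₁ BM₁ : Type*} [CommRing D₁] [IsDedekindDomain D₁] [CommRing BM₁]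
    {red₁₁ red₁₂ : B₁E →+* D₁} {ι₁ V₁ : BM₁ →+* B₁E} {rbar₁ : BM₁ →+* D₁} {W₁ : D₁ →+* D₁}
    {e₁ : ℕ}
    (TC₁ : H83.TwoComponents red₁₁ red₁₂ ι₁ V₁ rbar₁ W₁ e₁ (algebraMap RE B₁E π))
    (hπ₁₁ : red₁₁ (algebraMap RE B₁E π) = 0) (hπ₁₂ : red₁₂ (algebraMap RE B₁E π) = 0)
    (hne₁₁ : ∃ z, red₁₁ z = 0 ∧ red₁₂ z ≠ 0) (hne₁₂ : ∃ z, red₁₂ z = 0 ∧ red₁₁ z ≠ 0)
    (he₁ : 2 ≤ e₁) (hD₁ : ¬ IsField D₁)
    (ΨB₁ : B₁E ≃+* B₁E) (ΨR : RE →+* RE)
    (hΨ₁ : ∀ b : B₁E, H45.galActFullC E hE N φ (H45.galActFullC E hE N φ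
      (algebraMap B₁E FE b)) = algebraMap B₁E FE (ΨB₁ b))
    (hΨR₁ : ∀ r : RE, ΨB₁ (algebraMap RE B₁E r) = algebraMap RE B₁E (ΨR r))
    (hΨπ : π ∣ ΨR π)
    (ΨD₁₁ ΨD₁₂ : D₁ →+* D₁) (hinj₁₁ : Function.Injective ΨD₁₁) (hinj₁₂ : Function.Injective ΨD₁₂)
    (h1Ψ₁ : ∀ z, red₁₁ (ΨB₁ z) = ΨD₁₁ (red₁₁ z)) (h2Ψ₁ : ∀ z, red₁₂ (ΨB₁ z) = ΨD₁₂ (red₁₂ z))
    (hW₁ : ∀ r, W₁ (W₁ (ΨD₁₁ r)) = r ^ (q ^ 2))
    [(RingHom.ker red₁₁).IsPrime] [(RingHom.ker red₁₂).IsPrime]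
    (h1 : (RingHom.ker red₁₁).height = 1) (h2 : (RingHom.ker red₁₂).height = 1) :
    ∀ f : FE, f ≠ 0 →
      (H56.valuationSubringAt (K := FE) (RingHom.ker red₁₁) h1).valuation
          (((H45.galActFullC E hE N φ).trans (H45.galActFullC E hE N φ)) f / f) = 1 ∧
        (H56.valuationSubringAt (K := FE) (RingHom.ker red₁₂) h2).valuation
          (((H45.galActFullC E hE N φ).trans (H45.galActFullC E hE N φ)) f / f) = 1 := by
  have hq : q.Prime := hqF.out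
  haveI := H45.isDiscreteValuationRing_cutOver hq hA E
  haveI := H45.isAlgClosed_residueField_cutOver hq hA E
  haveI := H95.finiteDimensional_JK ↥E N q hqN (H99.natCast_ne_zero₀ N ↥E)
  haveI := H95.isSeparable_JK ↥E N q hqN
  have htr := H95.transcendental_JK ↥E N q hqN
  have hπ : Irreducible π := H45.irreducible_of_maximalIdeal_cutOver_eq hq hA E hmax
  haveI hft₁ : Algebra.FiniteType RE B₁E := H83.finiteType_chartB (R := RE) (K := ↥E) JE htr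
  have hπ0₁ := S35.H18.algebraMap_chart_ne_zero (R := RE) (↥E) (H40.chartB (H45.cutOver A E) JE)
    hπ.ne_zero
  have hQ : 0 < q ^ 2 := pow_pos hq.pos 2
  have hrat₁ : ∀ m : Ideal B₁E, m.IsMaximal → RingHom.ker red₁₁ ≤ m →
      RingHom.ker red₁₂ ≤ m → ∀ b : B₁E, ∃ r : RE, b - algebraMap RE B₁E r ∈ m :=
    fun m hm h1 _ b =>
      haveI := hm
      S35.H18.exists_sub_mem_of_isAlgClosed_residue hmax m (h1 ((RingHom.mem_ker).mpr hπ₁₁)) b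
  intro g hg
  exact valuation_ratio_eq_one_of_twoComponents (R := RE) (F := FE) TC₁ hπ₁₁ hπ₁₂ hne₁₁ hne₁₂
    he₁ hD₁ ((H45.galActFullC E hE N φ).trans (H45.galActFullC E hE N φ)) ΨB₁ ΨR hQ hΨ₁ hΨR₁
    hΨπ ΨD₁₁ ΨD₁₂ hinj₁₁ hinj₁₂ h1Ψ₁ h2Ψ₁ hW₁ hrat₁ hπ0₁ hg h1 h2

include hN hA in
set_option maxHeartbeats 6400000 in
/-- **The hypothesis `hE3` of `H18.geoFnEN_of_twoComponents`, literally.** -/
theorem hE3_of_twoComponents
    [IsFractionRing B₁E FE] [IsNoetherianRing B₁E] [IsIntegrallyClosed B₁E]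
    {p : ℕ} (hp : p.Prime) (φ : GQ) (hF : A.IsFrobeniusAt φ q) (n : ℕ)
    (T : Set (Place Qbar (S24.FN N)))
    (π : RE) (hmax : maximalIdeal RE = Ideal.span {π})
    {D₁ BM₁ : Type*} [CommRing D₁] [IsDedekindDomain D₁] [CommRing BM₁]
    {red₁₁ red₁₂ : B₁E →+* D₁} {ι₁ V₁ : BM₁ →+* B₁E} {rbar₁ : BM₁ →+* D₁} {W₁ : D₁ →+* D₁}
    {e₁ : ℕ}
    (TC₁ : H83.TwoComponents red₁₁ red₁₂ ι₁ V₁ rbar₁ W₁ e₁ (algebraMap RE B₁E π))
    (hπ₁₁ : red₁₁ (algebraMap RE B₁E π) = 0) (hπ₁₂ : red₁₂ (algebraMap RE B₁E π) = 0)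
    (hne₁₁ : ∃ z, red₁₁ z = 0 ∧ red₁₂ z ≠ 0) (hne₁₂ : ∃ z, red₁₂ z = 0 ∧ red₁₁ z ≠ 0)
    (he₁ : 2 ≤ e₁) (hD₁ : ¬ IsField D₁)
    -- G1 facts of chart 1
    (ΨB₁ : B₁E ≃+* B₁E) (ΨR : RE →+* RE)
    (hΨ₁ : ∀ b : B₁E, H45.galActFullC E hE N φ (H45.galActFullC E hE N φ
      (algebraMap B₁E FE b)) = algebraMap B₁E FE (ΨB₁ b))
    (hΨR₁ : ∀ r : RE, ΨB₁ (algebraMap RE B₁E r) = algebraMap RE B₁E (ΨR r))
    (hΨπ : π ∣ ΨR π)
    (ΨD₁₁ ΨD₁₂ : D₁ →+* D₁) (hinj₁₁ : Function.Injective ΨD₁₁) (hinj₁₂ : Function.Injective ΨD₁₂)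
    (h1Ψ₁ : ∀ z, red₁₁ (ΨB₁ z) = ΨD₁₁ (red₁₁ z)) (h2Ψ₁ : ∀ z, red₁₂ (ΨB₁ z) = ΨD₁₂ (red₁₂ z))
    (hW₁ : ∀ r, W₁ (W₁ (ΨD₁₁ r)) = r ^ (q ^ 2))
    -- the bridge: the two reductions are the residue maps of the `E`-level places
    (incl₁ incl₂ : D₁ →+* LaurentSeries kA) (hincl₁ : Function.Injective incl₁)
    (hincl₂ : Function.Injective incl₂)
    (hcinf : letI := algebraVMEFNat M0 hqM0 A hA E N hM0N
      ∀ (Pinf : CA.H99.PlaceOver (L := modularFunctionFieldFullC (↥E) N)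
          (constVME M0 hqM0 A hA E π) (S18.H16.jNK (↥E) N) (resME M0 hqM0 A hA E)
          (resME M0 hqM0 A hA E (jMVE M0 hqM0 A hA E) ^ q)) (z : B₁E),
        ∃ hz : (z : FE) ∈ Pinf.O1, incl₁ (red₁₁ z) = Pinf.res1 ⟨(z : FE), hz⟩)
    (hc0 : letI := algebraVMEFNat M0 hqM0 A hA E N hM0N
      ∀ (P0 : CA.H99.PlaceOver (L := modularFunctionFieldFullC (↥E) N)
          (constVME M0 hqM0 A hA E π) (S18.H16.jNK (↥E) N) (iotaZeroE M0 hqM0 A hA E)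
          (resME M0 hqM0 A hA E (jMVE M0 hqM0 A hA E))) (z : B₁E),
        ∃ hz : (z : FE) ∈ P0.O1, incl₂ (red₁₂ z) = P0.res1 ⟨(z : FE), hz⟩) :
    ∀ f : FE, H61.Admissible ↥E f (p ^ n) →
      (∀ v ∈ T, v.ord (H99.toBar ↥E N f) = 0) →
      (∃ (c : ↥E) (h : FEM), c ≠ 0 ∧ h ≠ 0 ∧
        (letI := H16.degAlgebra ↥E M0 N hM0N;
          Algebra.norm FEM f) = algebraMap ↥E FEM c * h ^ (p ^ n)) →
      (∃ (c : ↥E) (h : FEM), c ≠ 0 ∧ h ≠ 0 ∧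
        (letI := S35.H16.vAlgebra ↥E q M0 N hqM0N;
          Algebra.norm FEM f) = algebraMap ↥E FEM c * h ^ (p ^ n)) →
      ∀ [(RingHom.ker red₁₁).IsPrime] [(RingHom.ker red₁₂).IsPrime]
        (h1 : (RingHom.ker red₁₁).height = 1) (h2 : (RingHom.ker red₁₂).height = 1),
      ∃ G : FE, G ≠ 0 ∧
        H47.OneU (H56.valuationSubringAt (K := FE) (RingHom.ker red₁₁) h1)
          (S35.H18.ratE (H45.galActFullC E hE N φ) 1
            (S35.H18.ratE (H45.galActFullC E hE N φ) 1 f) / G ^ (p ^ n)) ∧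
        H47.OneU (H56.valuationSubringAt (K := FE) (RingHom.ker red₁₂) h2)
          (S35.H18.ratE (H45.galActFullC E hE N φ) 1
            (S35.H18.ratE (H45.galActFullC E hE N φ) 1 f) / G ^ (p ^ n)) := by
  have hpq₁ : RingHom.ker red₁₁ ≠ RingHom.ker red₁₂ := by
    obtain ⟨z, hz1, hz2⟩ := hne₁₁
    intro h
    have : z ∈ RingHom.ker red₁₂ := h ▸ (RingHom.mem_ker).mpr hz1
    exact hz2 ((RingHom.mem_ker).mp this)
  intro f hadm _hT hα hβ hp₁₁ hp₁₂ h1 h2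
  have hm : 0 < p ^ n := pow_pos hp.pos n
  have hb := hbridge_of_incl hA E M0 hqM0 N hqN hM0N π red₁₁ red₁₂ incl₁ incl₂ hincl₁ hincl₂
    hcinf hc0
  have hu := hunit_of_twoComponents hA E hE N hqN φ π hmax TC₁ hπ₁₁ hπ₁₂ hne₁₁ hne₁₂ he₁ hD₁
    ΨB₁ ΨR hΨ₁ hΨR₁ hΨπ ΨD₁₁ ΨD₁₂ hinj₁₁ hinj₁₂ h1Ψ₁ h2Ψ₁ hW₁ h1 h2
  exact hE3_level M0 hqM0 A hA E π hmax hE N hN hM0N hqM0N hF (RingHom.ker red₁₁)
    (RingHom.ker red₁₂) h1 h2 hpq₁ hb hu hm f hadm.1 hα hβ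

end Fermat.Agent.S35.H46
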