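/-
helper57 — S35, G-side: **`H18.geoFnEN_of_twoComponents` without the hypotheses `hVp hVq`.**

`H57.vert_val_eq_or_swap` (`S35/H57_VertSwap.lean`) shows that the two vertical valuation rings of
the two charts agree up to renaming the two components of the second chart.  This file propagates
that through helper18's consumer chain (proofs copied from `S35/H18_GeoCore(TC)`, `S35/H18_GeoTopN`
with the last call replaced):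

* `exists_const_mul_pow_of_chartFrob_bool'` (generic, `Bool`-indexed primes; needs `hp₂ hq₂ hpq₂`);
* `exists_const_mul_pow_of_twoComponents'` (generic, two `TwoComponents` packages);
* `geoFnEN_of_twoComponents'` : `H18.geoFnEN_of_twoComponents` VERBATIM minus `hVp hVq`.

So the place bridge (`b ∈ ker red_k ↔ P_k.res1 b = 0`) is only needed on chart 1 (for `(E3)`).
-/
import Mathlib
import Fermat.Agent.S35.H57_VertSwap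
import Fermat.Agent.S35.H18_GeoTopN

set_option autoImplicit false
set_option linter.unusedSectionVars false
set_option linter.style.haveILetI false
set_option synthInstance.maxHeartbeats 400000
set_option maxHeartbeats 3200000

open Polynomial IntermediateField IsLocalRing Fermat.Agent.S18 Fermat.Agent.S34

namespace Fermat.Agent.S35.H57

universe v

section Generic

variable {R : Type*} [CommRing R] [IsDomain R] [IsDiscreteValuationRing R]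
  {K : Type*} [Field K] [Algebra R K] [IsFractionRing R K]
  {F : Type v} [Field F] [Algebra R F] [Algebra K F] [IsScalarTower R K F]

/-- `H18.exists_const_mul_pow_of_chartFrob_bool` without the two valuation-ring hypotheses. -/
theorem exists_const_mul_pow_of_chartFrob_bool'
    (J : F) (htr : Transcendental K J) [FiniteDimensional K⟮J⟯ F] [Algebra.IsSeparable K⟮J⟯ F]
    [IsFractionRing ↥(H40.chartB R J) F] [IsFractionRing ↥(H40.chartB R J⁻¹) F]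
    [IsNoetherianRing ↥(H40.chartB R J)] [IsIntegrallyClosed ↥(H40.chartB R J)]
    [IsNoetherianRing ↥(H40.chartB R J⁻¹)] [IsIntegrallyClosed ↥(H40.chartB R J⁻¹)]
    (hcl : ∀ z : F, IsAlgebraic K z → z ∈ (algebraMap K F).range)
    (π : R) (hπ : Irreducible π)
    {l : ℕ} (hl : l.Prime) (hlu : IsUnit ((l : ℕ) : R)) {ζ : R} (hζ : IsPrimitiveRoot ζ l)
    (hroot : ∀ r : R, IsUnit r → ∃ γ : R, IsUnit γ ∧ π ∣ γ ^ l * r - 1)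
    (hrad₁ : ∀ b : ↥(H40.chartB R J),
      (∃ n : ℕ, algebraMap R ↥(H40.chartB R J) π ∣ b ^ n) →
        algebraMap R ↥(H40.chartB R J) π ∣ b)
    (hrad₂ : ∀ b : ↥(H40.chartB R J⁻¹),
      (∃ n : ℕ, algebraMap R ↥(H40.chartB R J⁻¹) π ∣ b ^ n) →
        algebraMap R ↥(H40.chartB R J⁻¹) π ∣ b)
    (p₁ q₁ : Ideal ↥(H40.chartB R J)) [p₁.IsPrime] [q₁.IsPrime]
    (p₂ q₂ : Ideal ↥(H40.chartB R J⁻¹)) [p₂.IsPrime] [q₂.IsPrime]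
    (hp₁ : p₁ ∈ (Ideal.span {algebraMap R ↥(H40.chartB R J) π}).minimalPrimes)
    (hq₁ : q₁ ∈ (Ideal.span {algebraMap R ↥(H40.chartB R J) π}).minimalPrimes) (hpq₁ : p₁ ≠ q₁)
    (hall₁ : ∀ P ∈ (Ideal.span {algebraMap R ↥(H40.chartB R J) π}).minimalPrimes,
      P = p₁ ∨ P = q₁)
    (hp₂ : p₂ ∈ (Ideal.span {algebraMap R ↥(H40.chartB R J⁻¹) π}).minimalPrimes)
    (hq₂ : q₂ ∈ (Ideal.span {algebraMap R ↥(H40.chartB R J⁻¹) π}).minimalPrimes) (hpq₂ : p₂ ≠ q₂)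
    (hall₂ : ∀ P ∈ (Ideal.span {algebraMap R ↥(H40.chartB R J⁻¹) π}).minimalPrimes,
      P = p₂ ∨ P = q₂)
    (hJp₁ : (⟨J, H40.self_mem_chartB J⟩ : ↥(H40.chartB R J)) ∉ p₁)
    (hJq₁ : (⟨J, H40.self_mem_chartB J⟩ : ↥(H40.chartB R J)) ∉ q₁)
    (hJp₂ : (⟨J⁻¹, H40.self_mem_chartB J⁻¹⟩ : ↥(H40.chartB R J⁻¹)) ∉ p₂)
    (hJq₂ : (⟨J⁻¹, H40.self_mem_chartB J⁻¹⟩ : ↥(H40.chartB R J⁻¹)) ∉ q₂)
    (hph₁ : p₁.height = 1) (hqh₁ : q₁.height = 1) (hph₂ : p₂.height = 1) (hqh₂ : q₂.height = 1)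
    (Ψ : F ≃+* F) (ΨB₁ : ↥(H40.chartB R J) ≃+* ↥(H40.chartB R J))
    (ΨB₂ : ↥(H40.chartB R J⁻¹) ≃+* ↥(H40.chartB R J⁻¹)) (ΨR : R →+* R) (Q : ℕ)
    (C₁ : H46.ChartFrob (F := F) (fun b : Bool => cond b p₁ q₁) π Ψ ΨB₁ ΨR Q)
    (C₂ : H46.ChartFrob (F := F) (fun b : Bool => cond b p₂ q₂) π Ψ ΨB₂ ΨR Q)
    (hFrobR : ∀ r : R, π ∣ ΨR r - r ^ Q)
    (k : ℕ) {u₁ G : F} (hu₁0 : u₁ ≠ 0)
    (h₁ : ∀ n : Ideal ↥(H40.chartB R J), n.IsMaximal → algebraMap R ↥(H40.chartB R J) π ∈ n →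
      H46.ChartWeakAt (F := F) (algebraMap R ↥(H40.chartB R J) π) n u₁ (l ^ k))
    (h₂ : ∀ n : Ideal ↥(H40.chartB R J⁻¹), n.IsMaximal →
      algebraMap R ↥(H40.chartB R J⁻¹) π ∈ n →
      H46.ChartWeakAt (F := F) (algebraMap R ↥(H40.chartB R J⁻¹) π) n u₁ (l ^ k))
    (hG0 : G ≠ 0)
    (hGp : H47.OneU (H56.valuationSubringAt (K := F) p₁ hph₁) ((Ψ u₁ / u₁) / G ^ (l ^ k)))
    (hGq : H47.OneU (H56.valuationSubringAt (K := F) q₁ hqh₁) ((Ψ u₁ / u₁) / G ^ (l ^ k))) :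
    ∃ (c : K) (w : F), c ≠ 0 ∧ w ≠ 0 ∧
      Ψ (Ψ u₁ / u₁) / (Ψ u₁ / u₁) ^ Q = algebraMap K F c * w ^ (l ^ k) := by
  rcases vert_val_eq_or_swap (R := R) (K := K) J htr π hπ hrad₁ hrad₂ p₁ q₁ p₂ q₂ hp₁ hq₁ hpq₁ hall₁
      hp₂ hq₂ hpq₂ hall₂ hJp₁ hJq₁ hJp₂ hJq₂ hph₁ hqh₁ hph₂ hqh₂ with ⟨hVp, hVq⟩ | ⟨hVp, hVq⟩
  · exact H18.exists_const_mul_pow_of_chartFrob_bool (R := R) (K := K) J htr hcl π hπ hl hlu hζ
      hroot hrad₁ hrad₂ p₁ q₁ p₂ q₂ hp₁ hq₁ hpq₁ hall₁ hall₂ hJp₁ hJq₁ hJp₂ hJq₂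
      hph₁ hqh₁ hph₂ hqh₂ hVp hVq Ψ ΨB₁ ΨB₂ ΨR Q C₁ C₂ hFrobR k hu₁0 h₁ h₂ hG0 hGp hGq
  · have hfun : (fun k' : Bool => (fun b : Bool => cond b p₂ q₂) (Equiv.boolNot k')) =
        fun b : Bool => cond b q₂ p₂ := by
      funext b; cases b <;> rfl
    have C₂' : H46.ChartFrob (F := F) (fun b : Bool => cond b q₂ p₂) π Ψ ΨB₂ ΨR Q :=
      hfun ▸ H84.chartFrob_reindex C₂ Equiv.boolNot
    exact H18.exists_const_mul_pow_of_chartFrob_bool (R := R) (K := K) J htr hcl π hπ hl hlu hζ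
      hroot hrad₁ hrad₂ p₁ q₁ q₂ p₂ hp₁ hq₁ hpq₁ hall₁ (fun P hP => (hall₂ P hP).symm)
      hJp₁ hJq₁ hJq₂ hJp₂ hph₁ hqh₁ hqh₂ hph₂ hVp hVq Ψ ΨB₁ ΨB₂ ΨR Q C₁ C₂' hFrobR k hu₁0
      h₁ h₂ hG0 hGp hGq

/-- `H18.exists_const_mul_pow_of_twoComponents` without the two valuation-ring hypotheses. -/
theorem exists_const_mul_pow_of_twoComponents'
    (J : F) (htr : Transcendental K J) [FiniteDimensional K⟮J⟯ F] [Algebra.IsSeparable K⟮J⟯ F]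
    [IsFractionRing ↥(H40.chartB R J) F] [IsFractionRing ↥(H40.chartB R J⁻¹) F]
    [IsNoetherianRing ↥(H40.chartB R J)] [IsIntegrallyClosed ↥(H40.chartB R J)]
    [IsNoetherianRing ↥(H40.chartB R J⁻¹)] [IsIntegrallyClosed ↥(H40.chartB R J⁻¹)]
    [IsAlgClosed (ResidueField R)]
    (hcl : ∀ z : F, IsAlgebraic K z → z ∈ (algebraMap K F).range)
    (π : R) (hmax : maximalIdeal R = Ideal.span {π}) (hπ : Irreducible π)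
    {l : ℕ} (hl : l.Prime) (hlu : IsUnit ((l : ℕ) : R)) {ζ : R} (hζ : IsPrimitiveRoot ζ l)
    (hroot : ∀ r : R, IsUnit r → ∃ γ : R, IsUnit γ ∧ π ∣ γ ^ l * r - 1)
    -- chart 1
    {D₁ BM₁ : Type*} [CommRing D₁] [IsDedekindDomain D₁] [CommRing BM₁]
    {red₁₁ red₁₂ : ↥(H40.chartB R J) →+* D₁} {ι₁ V₁ : BM₁ →+* ↥(H40.chartB R J)}
    {rbar₁ : BM₁ →+* D₁} {W₁ : D₁ →+* D₁} {e₁ : ℕ}
    (TC₁ : H83.TwoComponents red₁₁ red₁₂ ι₁ V₁ rbar₁ W₁ e₁ (algebraMap R ↥(H40.chartB R J) π))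
    (hπ₁₁ : red₁₁ (algebraMap R ↥(H40.chartB R J) π) = 0)
    (hπ₁₂ : red₁₂ (algebraMap R ↥(H40.chartB R J) π) = 0)
    (hne₁₁ : ∃ z, red₁₁ z = 0 ∧ red₁₂ z ≠ 0) (hne₁₂ : ∃ z, red₁₂ z = 0 ∧ red₁₁ z ≠ 0)
    (he₁ : 2 ≤ e₁) (hD₁ : ¬ IsField D₁)
    (hJ₁₁ : red₁₁ (⟨J, H40.self_mem_chartB J⟩ : ↥(H40.chartB R J)) ≠ 0)
    (hJ₁₂ : red₁₂ (⟨J, H40.self_mem_chartB J⟩ : ↥(H40.chartB R J)) ≠ 0)
    -- chart 2
    {D₂ BM₂ : Type*} [CommRing D₂] [IsDedekindDomain D₂] [CommRing BM₂]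
    {red₂₁ red₂₂ : ↥(H40.chartB R J⁻¹) →+* D₂} {ι₂ V₂ : BM₂ →+* ↥(H40.chartB R J⁻¹)}
    {rbar₂ : BM₂ →+* D₂} {W₂ : D₂ →+* D₂} {e₂ : ℕ}
    (TC₂ : H83.TwoComponents red₂₁ red₂₂ ι₂ V₂ rbar₂ W₂ e₂
      (algebraMap R ↥(H40.chartB R J⁻¹) π))
    (hπ₂₁ : red₂₁ (algebraMap R ↥(H40.chartB R J⁻¹) π) = 0)
    (hπ₂₂ : red₂₂ (algebraMap R ↥(H40.chartB R J⁻¹) π) = 0)
    (hne₂₁ : ∃ z, red₂₁ z = 0 ∧ red₂₂ z ≠ 0) (hne₂₂ : ∃ z, red₂₂ z = 0 ∧ red₂₁ z ≠ 0)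
    (he₂ : 2 ≤ e₂) (hD₂ : ¬ IsField D₂)
    (hJ₂₁ : red₂₁ (⟨J⁻¹, H40.self_mem_chartB J⁻¹⟩ : ↥(H40.chartB R J⁻¹)) ≠ 0)
    (hJ₂₂ : red₂₂ (⟨J⁻¹, H40.self_mem_chartB J⁻¹⟩ : ↥(H40.chartB R J⁻¹)) ≠ 0)
    -- G1 facts
    (Ψ : F ≃+* F) (ΨB₁ : ↥(H40.chartB R J) ≃+* ↥(H40.chartB R J))
    (ΨB₂ : ↥(H40.chartB R J⁻¹) ≃+* ↥(H40.chartB R J⁻¹)) (ΨR : R →+* R) {Q : ℕ} (hQ : 0 < Q)
    (hΨ₁ : ∀ b : ↥(H40.chartB R J),
      Ψ (algebraMap ↥(H40.chartB R J) F b) = algebraMap ↥(H40.chartB R J) F (ΨB₁ b))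
    (hΨ₂ : ∀ b : ↥(H40.chartB R J⁻¹),
      Ψ (algebraMap ↥(H40.chartB R J⁻¹) F b) = algebraMap ↥(H40.chartB R J⁻¹) F (ΨB₂ b))
    (hΨR₁ : ∀ r : R, ΨB₁ (algebraMap R ↥(H40.chartB R J) r) =
      algebraMap R ↥(H40.chartB R J) (ΨR r))
    (hΨR₂ : ∀ r : R, ΨB₂ (algebraMap R ↥(H40.chartB R J⁻¹) r) =
      algebraMap R ↥(H40.chartB R J⁻¹) (ΨR r))
    (hΨπ : π ∣ ΨR π)
    (ΨD₁₁ ΨD₁₂ : D₁ →+* D₁) (hinj₁₁ : Function.Injective ΨD₁₁) (hinj₁₂ : Function.Injective ΨD₁₂)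
    (h1Ψ₁ : ∀ z, red₁₁ (ΨB₁ z) = ΨD₁₁ (red₁₁ z)) (h2Ψ₁ : ∀ z, red₁₂ (ΨB₁ z) = ΨD₁₂ (red₁₂ z))
    (hW₁ : ∀ r, W₁ (W₁ (ΨD₁₁ r)) = r ^ Q)
    (ΨD₂₁ ΨD₂₂ : D₂ →+* D₂) (hinj₂₁ : Function.Injective ΨD₂₁) (hinj₂₂ : Function.Injective ΨD₂₂)
    (h1Ψ₂ : ∀ z, red₂₁ (ΨB₂ z) = ΨD₂₁ (red₂₁ z)) (h2Ψ₂ : ∀ z, red₂₂ (ΨB₂ z) = ΨD₂₂ (red₂₂ z))
    (hW₂ : ∀ r, W₂ (W₂ (ΨD₂₁ r)) = r ^ Q)
    (hFrobR : ∀ r : R, π ∣ ΨR r - r ^ Q)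
    (k : ℕ) {u₁ : F} (hu₁0 : u₁ ≠ 0)
    -- (E2)
    (h₁ : ∀ n : Ideal ↥(H40.chartB R J), n.IsMaximal → algebraMap R ↥(H40.chartB R J) π ∈ n →
      H46.ChartWeakAt (F := F) (algebraMap R ↥(H40.chartB R J) π) n u₁ (l ^ k))
    (h₂ : ∀ n : Ideal ↥(H40.chartB R J⁻¹), n.IsMaximal →
      algebraMap R ↥(H40.chartB R J⁻¹) π ∈ n →
      H46.ChartWeakAt (F := F) (algebraMap R ↥(H40.chartB R J⁻¹) π) n u₁ (l ^ k))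
    -- (E3)
    (hG : ∀ [(RingHom.ker red₁₁).IsPrime] [(RingHom.ker red₁₂).IsPrime]
      (h1 : (RingHom.ker red₁₁).height = 1) (h2 : (RingHom.ker red₁₂).height = 1),
      ∃ G : F, G ≠ 0 ∧
        H47.OneU (H56.valuationSubringAt (K := F) (RingHom.ker red₁₁) h1)
          ((Ψ u₁ / u₁) / G ^ (l ^ k)) ∧
        H47.OneU (H56.valuationSubringAt (K := F) (RingHom.ker red₁₂) h2)
          ((Ψ u₁ / u₁) / G ^ (l ^ k))) :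
    ∃ (c : K) (w : F), c ≠ 0 ∧ w ≠ 0 ∧
      Ψ (Ψ u₁ / u₁) / (Ψ u₁ / u₁) ^ Q = algebraMap K F c * w ^ (l ^ k) := by
  haveI hft₁ : Algebra.FiniteType R ↥(H40.chartB R J) :=
    H83.finiteType_chartB (R := R) (K := K) J htr
  haveI hft₂ : Algebra.FiniteType R ↥(H40.chartB R J⁻¹) :=
    H18.finiteType_chartB_inv (R := R) (K := K) J htr
  haveI hp₁₁ : (RingHom.ker red₁₁).IsPrime := RingHom.ker_isPrime red₁₁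
  haveI hp₁₂ : (RingHom.ker red₁₂).IsPrime := RingHom.ker_isPrime red₁₂
  haveI hp₂₁ : (RingHom.ker red₂₁).IsPrime := RingHom.ker_isPrime red₂₁
  haveI hp₂₂ : (RingHom.ker red₂₂).IsPrime := RingHom.ker_isPrime red₂₂
  have hπ0₁ := H18.algebraMap_chart_ne_zero (R := R) K (H40.chartB R J) hπ.ne_zero
  have hπ0₂ := H18.algebraMap_chart_ne_zero (R := R) K (H40.chartB R J⁻¹) hπ.ne_zero
  have hh₁ := H84.height_vertTC TC₁ hπ0₁ hπ₁₁ hπ₁₂ hne₁₁ hne₁₂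
  have hh₂ := H84.height_vertTC TC₂ hπ0₂ hπ₂₁ hπ₂₂ hne₂₁ hne₂₂
  have hph₁ : (RingHom.ker red₁₁).height = 1 := hh₁ true
  have hqh₁ : (RingHom.ker red₁₂).height = 1 := hh₁ false
  have hph₂ : (RingHom.ker red₂₁).height = 1 := hh₂ true
  have hqh₂ : (RingHom.ker red₂₂).height = 1 := hh₂ false
  have hpq₁ : RingHom.ker red₁₁ ≠ RingHom.ker red₁₂ := by
    obtain ⟨z, hz1, hz2⟩ := hne₁₁
    intro h
    have : z ∈ RingHom.ker red₁₂ := h ▸ (RingHom.mem_ker).mpr hz1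
    exact hz2 ((RingHom.mem_ker).mp this)
  have hpq₂ : RingHom.ker red₂₁ ≠ RingHom.ker red₂₂ := by
    obtain ⟨z, hz1, hz2⟩ := hne₂₁
    intro h
    have : z ∈ RingHom.ker red₂₂ := h ▸ (RingHom.mem_ker).mpr hz1
    exact hz2 ((RingHom.mem_ker).mp this)
  have hall₁ : ∀ P ∈ (Ideal.span {algebraMap R ↥(H40.chartB R J) π}).minimalPrimes,
      P = RingHom.ker red₁₁ ∨ P = RingHom.ker red₁₂ := by
    intro P hP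
    obtain ⟨k, hk⟩ := H84.eq_vertTC_of_mem_minimalPrimes TC₁ hπ₁₁ hπ₁₂ hP
    cases k
    · exact Or.inr hk
    · exact Or.inl hk
  have hall₂ : ∀ P ∈ (Ideal.span {algebraMap R ↥(H40.chartB R J⁻¹) π}).minimalPrimes,
      P = RingHom.ker red₂₁ ∨ P = RingHom.ker red₂₂ := by
    intro P hP
    obtain ⟨k, hk⟩ := H84.eq_vertTC_of_mem_minimalPrimes TC₂ hπ₂₁ hπ₂₂ hP
    cases k
    · exact Or.inr hk
    · exact Or.inl hk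
  have hrat₁ : ∀ m : Ideal ↥(H40.chartB R J), m.IsMaximal → RingHom.ker red₁₁ ≤ m →
      RingHom.ker red₁₂ ≤ m →
      ∀ b : ↥(H40.chartB R J), ∃ r : R, b - algebraMap R ↥(H40.chartB R J) r ∈ m :=
    fun m hm h1 _ b =>
      haveI := hm
      H18.exists_sub_mem_of_isAlgClosed_residue hmax m (h1 ((RingHom.mem_ker).mpr hπ₁₁)) b
  have hrat₂ : ∀ m : Ideal ↥(H40.chartB R J⁻¹), m.IsMaximal → RingHom.ker red₂₁ ≤ m →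
      RingHom.ker red₂₂ ≤ m →
      ∀ b : ↥(H40.chartB R J⁻¹), ∃ r : R, b - algebraMap R ↥(H40.chartB R J⁻¹) r ∈ m :=
    fun m hm h1 _ b =>
      haveI := hm
      H18.exists_sub_mem_of_isAlgClosed_residue hmax m (h1 ((RingHom.mem_ker).mpr hπ₂₁)) b
  have C₁ := H84.chartFrob_of_twoComponents (F := F) TC₁ hπ₁₁ hπ₁₂ hne₁₁ hne₁₂ he₁ hD₁
    Ψ ΨB₁ ΨR hQ hΨ₁ hΨR₁ hΨπ ΨD₁₁ ΨD₁₂ hinj₁₁ hinj₁₂ h1Ψ₁ h2Ψ₁ hW₁ hrat₁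
  have C₂ := H84.chartFrob_of_twoComponents (F := F) TC₂ hπ₂₁ hπ₂₂ hne₂₁ hne₂₂ he₂ hD₂
    Ψ ΨB₂ ΨR hQ hΨ₂ hΨR₂ hΨπ ΨD₂₁ ΨD₂₂ hinj₂₁ hinj₂₂ h1Ψ₂ h2Ψ₂ hW₂ hrat₂
  obtain ⟨G, hG0, hGp, hGq⟩ := hG hph₁ hqh₁
  exact exists_const_mul_pow_of_chartFrob_bool' (R := R) (K := K) J htr hcl π hπ hl hlu hζ hroot
    (H3.hrad_of_twoComponents TC₁ hπ₁₁ hπ₁₂) (H3.hrad_of_twoComponents TC₂ hπ₂₁ hπ₂₂)
    (RingHom.ker red₁₁) (RingHom.ker red₁₂) (RingHom.ker red₂₁) (RingHom.ker red₂₂)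
    (H84.ker_red₁_mem_minimalPrimes TC₁ hπ₁₁ hne₁₂) (H84.ker_red₂_mem_minimalPrimes TC₁ hπ₁₂ hne₁₁)
    hpq₁ hall₁
    (H84.ker_red₁_mem_minimalPrimes TC₂ hπ₂₁ hne₂₂) (H84.ker_red₂_mem_minimalPrimes TC₂ hπ₂₂ hne₂₁)
    hpq₂ hall₂
    (fun h => hJ₁₁ ((RingHom.mem_ker).mp h)) (fun h => hJ₁₂ ((RingHom.mem_ker).mp h))
    (fun h => hJ₂₁ ((RingHom.mem_ker).mp h)) (fun h => hJ₂₂ ((RingHom.mem_ker).mp h))
    hph₁ hqh₁ hph₂ hqh₂ Ψ ΨB₁ ΨB₂ ΨR Q C₁ C₂ hFrobR k hu₁0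
    h₁ h₂ hG0 hGp hGq


end Generic

noncomputable section

open ModularCurve AlgebraicCurve HahnSeries
open Fermat.Agent.S18.H45 Fermat.Agent.S35.H18

local notation "Qbar" => AlgebraicClosure ℚ
local notation "GQ" => (AlgebraicClosure ℚ ≃ₐ[ℚ] AlgebraicClosure ℚ)

variable {A : ValuationSubring Qbar} {q : ℕ} [NeZero q] (hq : q.Prime) (hA : A.LiesOverPrime q)
variable (E : IntermediateField (unrCyclo q) Qbar) [FiniteDimensional (unrCyclo q) E]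
variable (hE : ∀ (τ : GQ) (x : Qbar), x ∈ E → τ x ∈ E)
variable (M0 : ℕ) [NeZero M0] (N : ℕ) [NeZero N] (hqN : q ∣ N) (hM0N : M0 ∣ N)
  (hqM0N : q * M0 ∣ N)

set_option quotPrecheck false

local notation "JE" => (H95.JK ↥E N q hqN)
local notation "FE" => ↥(modularFunctionFieldFullC ↥E N)
local notation "FEM" => ↥(modularFunctionFieldFullC ↥E M0)
local notation "RE" => ↥(cutOver A E)
local notation "B₁E" => ↥(H40.chartB (cutOver A E) JE)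
local notation "B₂E" => ↥(H40.chartB (cutOver A E) JE⁻¹)

include hq hA in
/-- `H18.geoFnEN_of_twoComponents` without the two valuation-ring hypotheses. -/
theorem geoFnEN_of_twoComponents'
    [IsFractionRing B₁E FE] [IsFractionRing B₂E FE]
    [IsNoetherianRing B₁E] [IsIntegrallyClosed B₁E]
    [IsNoetherianRing B₂E] [IsIntegrallyClosed B₂E]
    {p : ℕ} (hp : p.Prime) (hpq : p ≠ q) (φ : GQ) (n : ℕ)
    (T : Set (Place Qbar (S24.FN N)))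
    (π : RE) (hmax : maximalIdeal RE = Ideal.span {π})
    -- chart 1
    {D₁ BM₁ : Type*} [CommRing D₁] [IsDedekindDomain D₁] [CommRing BM₁]
    {red₁₁ red₁₂ : B₁E →+* D₁} {ι₁ V₁ : BM₁ →+* B₁E} {rbar₁ : BM₁ →+* D₁} {W₁ : D₁ →+* D₁}
    {e₁ : ℕ}
    (TC₁ : H83.TwoComponents red₁₁ red₁₂ ι₁ V₁ rbar₁ W₁ e₁ (algebraMap RE B₁E π))
    (hπ₁₁ : red₁₁ (algebraMap RE B₁E π) = 0) (hπ₁₂ : red₁₂ (algebraMap RE B₁E π) = 0)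
    (hne₁₁ : ∃ z, red₁₁ z = 0 ∧ red₁₂ z ≠ 0) (hne₁₂ : ∃ z, red₁₂ z = 0 ∧ red₁₁ z ≠ 0)
    (he₁ : 2 ≤ e₁) (hD₁ : ¬ IsField D₁)
    (hJ₁₁ : red₁₁ (⟨JE, H40.self_mem_chartB _⟩ : B₁E) ≠ 0)
    (hJ₁₂ : red₁₂ (⟨JE, H40.self_mem_chartB _⟩ : B₁E) ≠ 0)
    -- chart 2
    {D₂ BM₂ : Type*} [CommRing D₂] [IsDedekindDomain D₂] [CommRing BM₂]
    {red₂₁ red₂₂ : B₂E →+* D₂} {ι₂ V₂ : BM₂ →+* B₂E} {rbar₂ : BM₂ →+* D₂} {W₂ : D₂ →+* D₂}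
    {e₂ : ℕ}
    (TC₂ : H83.TwoComponents red₂₁ red₂₂ ι₂ V₂ rbar₂ W₂ e₂ (algebraMap RE B₂E π))
    (hπ₂₁ : red₂₁ (algebraMap RE B₂E π) = 0) (hπ₂₂ : red₂₂ (algebraMap RE B₂E π) = 0)
    (hne₂₁ : ∃ z, red₂₁ z = 0 ∧ red₂₂ z ≠ 0) (hne₂₂ : ∃ z, red₂₂ z = 0 ∧ red₂₁ z ≠ 0)
    (he₂ : 2 ≤ e₂) (hD₂ : ¬ IsField D₂)
    (hJ₂₁ : red₂₁ (⟨JE⁻¹, H40.self_mem_chartB _⟩ : B₂E) ≠ 0)
    (hJ₂₂ : red₂₂ (⟨JE⁻¹, H40.self_mem_chartB _⟩ : B₂E) ≠ 0)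
    -- G1 facts
    (ΨB₁ : B₁E ≃+* B₁E) (ΨB₂ : B₂E ≃+* B₂E) (ΨR : RE →+* RE)
    (hΨ₁ : ∀ b : B₁E, galActFullC E hE N φ (galActFullC E hE N φ
      (algebraMap B₁E FE b)) = algebraMap B₁E FE (ΨB₁ b))
    (hΨ₂ : ∀ b : B₂E, galActFullC E hE N φ (galActFullC E hE N φ
      (algebraMap B₂E FE b)) = algebraMap B₂E FE (ΨB₂ b))
    (hΨR₁ : ∀ r : RE, ΨB₁ (algebraMap RE B₁E r) = algebraMap RE B₁E (ΨR r))
    (hΨR₂ : ∀ r : RE, ΨB₂ (algebraMap RE B₂E r) = algebraMap RE B₂E (ΨR r))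
    (hΨπ : π ∣ ΨR π)
    (ΨD₁₁ ΨD₁₂ : D₁ →+* D₁) (hinj₁₁ : Function.Injective ΨD₁₁) (hinj₁₂ : Function.Injective ΨD₁₂)
    (h1Ψ₁ : ∀ z, red₁₁ (ΨB₁ z) = ΨD₁₁ (red₁₁ z)) (h2Ψ₁ : ∀ z, red₁₂ (ΨB₁ z) = ΨD₁₂ (red₁₂ z))
    (hW₁ : ∀ r, W₁ (W₁ (ΨD₁₁ r)) = r ^ (q ^ 2))
    (ΨD₂₁ ΨD₂₂ : D₂ →+* D₂) (hinj₂₁ : Function.Injective ΨD₂₁) (hinj₂₂ : Function.Injective ΨD₂₂)
    (h1Ψ₂ : ∀ z, red₂₁ (ΨB₂ z) = ΨD₂₁ (red₂₁ z)) (h2Ψ₂ : ∀ z, red₂₂ (ΨB₂ z) = ΨD₂₂ (red₂₂ z))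
    (hW₂ : ∀ r, W₂ (W₂ (ΨD₂₁ r)) = r ^ (q ^ 2))
    (hFrobR : ∀ r : RE, π ∣ ΨR r - r ^ (q ^ 2))
    -- (E2)
    (hE2₁ : ∀ f : FE, H61.Admissible ↥E f (p ^ n) →
      (∀ v ∈ T, v.ord (H99.toBar ↥E N f) = 0) →
      ∀ m : Ideal B₁E, m.IsMaximal → algebraMap RE B₁E π ∈ m →
        H46.ChartWeakAt (F := FE) (algebraMap RE B₁E π) m
          (galActFullC E hE N φ (galActFullC E hE N φ f) / f) (p ^ n))
    (hE2₂ : ∀ f : FE, H61.Admissible ↥E f (p ^ n) →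
      (∀ v ∈ T, v.ord (H99.toBar ↥E N f) = 0) →
      ∀ m : Ideal B₂E, m.IsMaximal → algebraMap RE B₂E π ∈ m →
        H46.ChartWeakAt (F := FE) (algebraMap RE B₂E π) m
          (galActFullC E hE N φ (galActFullC E hE N φ f) / f) (p ^ n))
    -- (E3)
    (hE3 : ∀ f : FE, H61.Admissible ↥E f (p ^ n) →
      (∀ v ∈ T, v.ord (H99.toBar ↥E N f) = 0) →
      (∃ (c : ↥E) (h : FEM), c ≠ 0 ∧ h ≠ 0 ∧
        (letI := H16.degAlgebra ↥E M0 N hM0N;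
          Algebra.norm FEM f) = algebraMap ↥E FEM c * h ^ (p ^ n)) →
      (∃ (c : ↥E) (h : FEM), c ≠ 0 ∧ h ≠ 0 ∧
        (letI := S35.H16.vAlgebra ↥E q M0 N hqM0N;
          Algebra.norm FEM f) = algebraMap ↥E FEM c * h ^ (p ^ n)) →
      ∀ [(RingHom.ker red₁₁).IsPrime] [(RingHom.ker red₁₂).IsPrime]
        (h1 : (RingHom.ker red₁₁).height = 1) (h2 : (RingHom.ker red₁₂).height = 1),
      ∃ G : FE, G ≠ 0 ∧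
        H47.OneU (H56.valuationSubringAt (K := FE) (RingHom.ker red₁₁) h1)
          (ratE (galActFullC E hE N φ) 1 (ratE (galActFullC E hE N φ) 1 f) /
            G ^ (p ^ n)) ∧
        H47.OneU (H56.valuationSubringAt (K := FE) (RingHom.ker red₁₂) h2)
          (ratE (galActFullC E hE N φ) 1 (ratE (galActFullC E hE N φ) 1 f) /
            G ^ (p ^ n))) :
    GeoFnEN M0 q N hM0N hqM0N E hE φ q (p ^ n) T := by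
  haveI := isDiscreteValuationRing_cutOver hq hA E
  haveI := isAlgClosed_residueField_cutOver hq hA E
  haveI := H95.finiteDimensional_JK ↥E N q hqN
    (H99.natCast_ne_zero₀ N ↥E)
  haveI := H95.isSeparable_JK ↥E N q hqN
  have htr := H95.transcendental_JK ↥E N q hqN
  have hπ : Irreducible π := irreducible_of_maximalIdeal_cutOver_eq hq hA E hmax
  have hnd : ¬ q ∣ p := fun h => hpq ((Nat.prime_dvd_prime_iff_eq hq hp).mp h).symm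
  obtain ⟨ζ, hζ⟩ := H47.exists_isPrimitiveRoot_cutOver (A := A) E hp.ne_zero hnd
  have hpu := H47.isUnit_natCast_cutOver hq hA E hnd
  have hcl : ∀ z : FE, IsAlgebraic ↥E z → z ∈ (algebraMap ↥E FE).range := fun z hz =>
    Fermat.Agent.CA.H92.mem_range_of_isAlgebraic_intermediateField
      (modularFunctionFieldFullC ↥E N) z hz
  have hQ : 0 < q ^ 2 := pow_pos hq.pos 2
  intro f hadm hT hα hβ
  have hf0 : f ≠ 0 := hadm.1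
  have hu₁0 : ratE (galActFullC E hE N φ) 1 f ≠ 0 := ratE_ne_zero _ 1 hf0
  have h₁ := hE2₁ f hadm hT
  have h₂ := hE2₂ f hadm hT
  rw [← ratE_one] at h₁ h₂
  haveI hp₁₁ : (RingHom.ker red₁₁).IsPrime := RingHom.ker_isPrime red₁₁
  haveI hp₁₂ : (RingHom.ker red₁₂).IsPrime := RingHom.ker_isPrime red₁₂
  have h3 : ∀ (h1 : (RingHom.ker red₁₁).height = 1) (h2 : (RingHom.ker red₁₂).height = 1),
      ∃ G : FE, G ≠ 0 ∧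
        H47.OneU (H56.valuationSubringAt (K := FE) (RingHom.ker red₁₁) h1)
          ((galActFullC E hE N φ (galActFullC E hE N φ
            (ratE (galActFullC E hE N φ) 1 f)) /
              ratE (galActFullC E hE N φ) 1 f) / G ^ (p ^ n)) ∧
        H47.OneU (H56.valuationSubringAt (K := FE) (RingHom.ker red₁₂) h2)
          ((galActFullC E hE N φ (galActFullC E hE N φ
            (ratE (galActFullC E hE N φ) 1 f)) /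
              ratE (galActFullC E hE N φ) 1 f) / G ^ (p ^ n)) := by
    intro h1 h2
    have h4 := hE3 f hadm hT hα hβ h1 h2
    rw [ratE_one (galActFullC E hE N φ) (ratE (galActFullC E hE N φ) 1 f)] at h4
    exact h4
  obtain ⟨c, w, -, hw, hrel⟩ := exists_const_mul_pow_of_twoComponents'
    (R := RE) (K := ↥E) JE htr hcl π hmax hπ hp hpu hζ
    (fun r hr => H47.exists_root_mod hmax hp.pos r hr)
    TC₁ hπ₁₁ hπ₁₂ hne₁₁ hne₁₂ he₁ hD₁ hJ₁₁ hJ₁₂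
    TC₂ hπ₂₁ hπ₂₂ hne₂₁ hne₂₂ he₂ hD₂ hJ₂₁ hJ₂₂
    ((galActFullC E hE N φ).trans (galActFullC E hE N φ)) ΨB₁ ΨB₂ ΨR hQ
    hΨ₁ hΨ₂ hΨR₁ hΨR₂ hΨπ ΨD₁₁ ΨD₁₂ hinj₁₁ hinj₁₂ h1Ψ₁ h2Ψ₁ hW₁
    ΨD₂₁ ΨD₂₂ hinj₂₁ hinj₂₂ h1Ψ₂ h2Ψ₂ hW₂ hFrobR n hu₁0 h₁ h₂ (fun h1 h2 => h3 h1 h2)
  refine ⟨c, w, hw, ?_⟩
  rw [ratE, ratE_one (galActFullC E hE N φ) (ratE (galActFullC E hE N φ) 1 f)]
  exact hrel


end

end Fermat.Agent.S35.H57
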