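/-
S35, second clause, node (E3) (helper46): **helper57's `H57.geoFnEN_of_twoComponents'`
(= helper18's `H18.geoFnEN_of_twoComponents` without `hVp hVq`) with the hypothesis `hE3` DISCHARGED**
(by `H46.hE3_of_twoComponents`), at the level `N = q * M0`.  Twin of `H46.geoFnEN_of_twoComponents_bridge`
(`S35/H46_G3GeoTop.lean`): no place bridge on chart 2 at all.
-/
import Mathlib
import Fermat.Agent.S35.H46_G3Geo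
import Fermat.Agent.S35.H57_VertSwapTC

set_option autoImplicit false
set_option linter.unusedSectionVars false
set_option linter.style.haveILetI false
set_option synthInstance.maxHeartbeats 400000
set_option maxHeartbeats 6400000

noncomputable section

namespace Fermat.Agent.S35.H46

open ModularCurve AlgebraicCurve HahnSeries IntermediateField IsLocalRing
open Fermat.Agent.S18 Fermat.Agent.S18.H45 Fermat.Agent.S34 Fermat.Agent.S35.H92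

local notation "Qbar" => AlgebraicClosure ℚ
local notation "GQ" => (AlgebraicClosure ℚ ≃ₐ[ℚ] AlgebraicClosure ℚ)

variable {A : ValuationSubring Qbar} {q : ℕ} [NeZero q] [hqF : Fact q.Prime]
  (hA : A.LiesOverPrime q)
variable (E : IntermediateField (unrCyclo q) Qbar) [FiniteDimensional (unrCyclo q) E]
variable (hE : ∀ (τ : GQ) (x : Qbar), x ∈ E → τ x ∈ E)
variable (M0 : ℕ) [NeZero M0] (hqM0 : ¬ q ∣ M0) (N : ℕ) [NeZero N] (hN : N = q * M0)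
  (hqN : q ∣ N) (hM0N : M0 ∣ N) (hqM0N : q * M0 ∣ N)

set_option quotPrecheck false

local notation "kA" => IsLocalRing.ResidueField A
local notation "JE" => (H95.JK ↥E N q hqN)
local notation "FE" => ↥(modularFunctionFieldFullC ↥E N)
local notation "FEM" => ↥(modularFunctionFieldFullC ↥E M0)
local notation "RE" => ↥(cutOver A E)
local notation "B₁E" => ↥(H40.chartB (cutOver A E) JE)
local notation "B₂E" => ↥(H40.chartB (cutOver A E) JE⁻¹)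

include hA hN in
/-- **`H57.geoFnEN_of_twoComponents'` without `hE3`** (no `hVp hVq`, no `hE3`). -/
theorem geoFnEN_of_twoComponents_bridge'
    [IsFractionRing B₁E FE] [IsFractionRing B₂E FE]
    [IsNoetherianRing B₁E] [IsIntegrallyClosed B₁E]
    [IsNoetherianRing B₂E] [IsIntegrallyClosed B₂E]
    {p : ℕ} (hp : p.Prime) (hpq : p ≠ q) (φ : GQ) (hF : A.IsFrobeniusAt φ q) (n : ℕ)
    (T : Set (Place Qbar (S24.FN N)))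
    (π : RE) (hmax : maximalIdeal RE = Ideal.span {π})
    -- chart 1
    {D₁ BM₁ : Type*} [CommRing D₁] [IsDedekindDomain D₁] [CommRing BM₁]
    {red₁₁ red₁₂ : B₁E →+* D₁} {ι₁ V₁ : BM₁ →+* B₁E} {rbar₁ : BM₁ →+* D₁} {W₁ : D₁ →+* D₁}
    {e₁ : ℕ}
    (TC₁ : H83.TwoComponents red₁₁ red₁₂ ι₁ V₁ rbar₁ W₁ e₁ (algebraMap RE B₁E π))
    (hπ₁₁ : red₁₁ (algebraMap RE B₁E π) = 0) (hπ₁₂ : red₁₂ (algebraMap RE B₁E π) = 0)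
    (hne₁₁ : ∃ z, red₁₁ z = 0 ∧ red₁₂ z ≠ 0) (hne₁₂ : ∃ z, red₁₂ z = 0 ∧ red₁₁ z ≠ 0)
    (he₁ : 2 ≤ e₁) (hD₁ : ¬ IsField D₁)
    (hJ₁₁ : red₁₁ (⟨JE, H40.self_mem_chartB _⟩ : B₁E) ≠ 0)
    (hJ₁₂ : red₁₂ (⟨JE, H40.self_mem_chartB _⟩ : B₁E) ≠ 0)
    -- chart 2
    {D₂ BM₂ : Type*} [CommRing D₂] [IsDedekindDomain D₂] [CommRing BM₂]
    {red₂₁ red₂₂ : B₂E →+* D₂} {ι₂ V₂ : BM₂ →+* B₂E} {rbar₂ : BM₂ →+* D₂} {W₂ : D₂ →+* D₂}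
    {e₂ : ℕ}
    (TC₂ : H83.TwoComponents red₂₁ red₂₂ ι₂ V₂ rbar₂ W₂ e₂ (algebraMap RE B₂E π))
    (hπ₂₁ : red₂₁ (algebraMap RE B₂E π) = 0) (hπ₂₂ : red₂₂ (algebraMap RE B₂E π) = 0)
    (hne₂₁ : ∃ z, red₂₁ z = 0 ∧ red₂₂ z ≠ 0) (hne₂₂ : ∃ z, red₂₂ z = 0 ∧ red₂₁ z ≠ 0)
    (he₂ : 2 ≤ e₂) (hD₂ : ¬ IsField D₂)
    (hJ₂₁ : red₂₁ (⟨JE⁻¹, H40.self_mem_chartB _⟩ : B₂E) ≠ 0)
    (hJ₂₂ : red₂₂ (⟨JE⁻¹, H40.self_mem_chartB _⟩ : B₂E) ≠ 0)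
    -- G1 facts
    (ΨB₁ : B₁E ≃+* B₁E) (ΨB₂ : B₂E ≃+* B₂E) (ΨR : RE →+* RE)
    (hΨ₁ : ∀ b : B₁E, galActFullC E hE N φ (galActFullC E hE N φ
      (algebraMap B₁E FE b)) = algebraMap B₁E FE (ΨB₁ b))
    (hΨ₂ : ∀ b : B₂E, galActFullC E hE N φ (galActFullC E hE N φ
      (algebraMap B₂E FE b)) = algebraMap B₂E FE (ΨB₂ b))
    (hΨR₁ : ∀ r : RE, ΨB₁ (algebraMap RE B₁E r) = algebraMap RE B₁E (ΨR r))
    (hΨR₂ : ∀ r : RE, ΨB₂ (algebraMap RE B₂E r) = algebraMap RE B₂E (ΨR r))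
    (hΨπ : π ∣ ΨR π)
    (ΨD₁₁ ΨD₁₂ : D₁ →+* D₁) (hinj₁₁ : Function.Injective ΨD₁₁) (hinj₁₂ : Function.Injective ΨD₁₂)
    (h1Ψ₁ : ∀ z, red₁₁ (ΨB₁ z) = ΨD₁₁ (red₁₁ z)) (h2Ψ₁ : ∀ z, red₁₂ (ΨB₁ z) = ΨD₁₂ (red₁₂ z))
    (hW₁ : ∀ r, W₁ (W₁ (ΨD₁₁ r)) = r ^ (q ^ 2))
    (ΨD₂₁ ΨD₂₂ : D₂ →+* D₂) (hinj₂₁ : Function.Injective ΨD₂₁) (hinj₂₂ : Function.Injective ΨD₂₂)
    (h1Ψ₂ : ∀ z, red₂₁ (ΨB₂ z) = ΨD₂₁ (red₂₁ z)) (h2Ψ₂ : ∀ z, red₂₂ (ΨB₂ z) = ΨD₂₂ (red₂₂ z))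
    (hW₂ : ∀ r, W₂ (W₂ (ΨD₂₁ r)) = r ^ (q ^ 2))
    (hFrobR : ∀ r : RE, π ∣ ΨR r - r ^ (q ^ 2))
    -- (E2)
    (hE2₁ : ∀ f : FE, H61.Admissible ↥E f (p ^ n) →
      (∀ v ∈ T, v.ord (H99.toBar ↥E N f) = 0) →
      ∀ m : Ideal B₁E, m.IsMaximal → algebraMap RE B₁E π ∈ m →
        H46.ChartWeakAt (F := FE) (algebraMap RE B₁E π) m
          (galActFullC E hE N φ (galActFullC E hE N φ f) / f) (p ^ n))
    (hE2₂ : ∀ f : FE, H61.Admissible ↥E f (p ^ n) →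
      (∀ v ∈ T, v.ord (H99.toBar ↥E N f) = 0) →
      ∀ m : Ideal B₂E, m.IsMaximal → algebraMap RE B₂E π ∈ m →
        H46.ChartWeakAt (F := FE) (algebraMap RE B₂E π) m
          (galActFullC E hE N φ (galActFullC E hE N φ f) / f) (p ^ n))
    -- (E3): the bridge chart 1 ↔ the two `E`-level places
    (incl₁ incl₂ : D₁ →+* LaurentSeries kA) (hincl₁ : Function.Injective incl₁)
    (hincl₂ : Function.Injective incl₂)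
    (hcinf : letI := algebraVMEFNat M0 hqM0 A hA E N hM0N
      ∀ (Pinf : CA.H99.PlaceOver (L := modularFunctionFieldFullC (↥E) N)
          (constVME M0 hqM0 A hA E π) (S18.H16.jNK (↥E) N) (resME M0 hqM0 A hA E)
          (resME M0 hqM0 A hA E (jMVE M0 hqM0 A hA E) ^ q)) (z : B₁E),
        ∃ hz : (z : FE) ∈ Pinf.O1, incl₁ (red₁₁ z) = Pinf.res1 ⟨(z : FE), hz⟩)
    (hc0 : letI := algebraVMEFNat M0 hqM0 A hA E N hM0N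
      ∀ (P0 : CA.H99.PlaceOver (L := modularFunctionFieldFullC (↥E) N)
          (constVME M0 hqM0 A hA E π) (S18.H16.jNK (↥E) N) (iotaZeroE M0 hqM0 A hA E)
          (resME M0 hqM0 A hA E (jMVE M0 hqM0 A hA E))) (z : B₁E),
        ∃ hz : (z : FE) ∈ P0.O1, incl₂ (red₁₂ z) = P0.res1 ⟨(z : FE), hz⟩) :
    S35.H18.GeoFnEN M0 q N hM0N hqM0N E hE φ q (p ^ n) T :=
  S35.H57.geoFnEN_of_twoComponents' hqF.out hA E hE M0 N hqN hM0N hqM0N hp hpq φ n T π hmax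
    TC₁ hπ₁₁ hπ₁₂ hne₁₁ hne₁₂ he₁ hD₁ hJ₁₁ hJ₁₂
    TC₂ hπ₂₁ hπ₂₂ hne₂₁ hne₂₂ he₂ hD₂ hJ₂₁ hJ₂₂
    ΨB₁ ΨB₂ ΨR hΨ₁ hΨ₂ hΨR₁ hΨR₂ hΨπ ΨD₁₁ ΨD₁₂ hinj₁₁ hinj₁₂ h1Ψ₁ h2Ψ₁ hW₁
    ΨD₂₁ ΨD₂₂ hinj₂₁ hinj₂₂ h1Ψ₂ h2Ψ₂ hW₂ hFrobR hE2₁ hE2₂
    (hE3_of_twoComponents hA E hE M0 hqM0 N hN hqN hM0N hqM0N hp φ hF n T π hmax
      TC₁ hπ₁₁ hπ₁₂ hne₁₁ hne₁₂ he₁ hD₁ ΨB₁ ΨR hΨ₁ hΨR₁ hΨπ ΨD₁₁ ΨD₁₂ hinj₁₁ hinj₁₂
      h1Ψ₁ h2Ψ₁ hW₁ incl₁ incl₂ hincl₁ hincl₂ hcinf hc0)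

end Fermat.Agent.S35.H46
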