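/-
S35, row N5 (helper57), part (b): generic flatness lemma (Mathlib only).

For a finite family of `ℤ`-linear maps `V j : Λ → Λ' j` and a flat `ℤ`-algebra `O`:
an element `u : O ⊗[ℤ] Λ` killed by every `(V j).baseChange O` comes from
`O ⊗[ℤ] (⨅ j, ker (V j))`.  If moreover `u ≠ 0` is a simultaneous eigenvector of operators
`θ i` preserving the kernel lattice, its coordinates in a `ℤ`-basis of the kernel lattice form a
nonzero coordinate eigenvector (the input shape of `S30.H57.exists_eigenvector_tensor_tate`).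
-/
import Mathlib

set_option autoImplicit false

namespace Fermat.Agent.S35.H57

open scoped TensorProduct

noncomputable section

section KerLat

variable {O : Type*} [CommRing O]
  {Λ : Type*} [AddCommGroup Λ] {ι : Type*} {Λ' : ι → Type*} [∀ j, AddCommGroup (Λ' j)]
  (V : ∀ j, Λ →ₗ[ℤ] Λ' j)

/-- The common kernel of a family of linear maps. -/
def kerLat : Submodule ℤ Λ := ⨅ j, LinearMap.ker (V j)

theorem mem_kerLat {x : Λ} : x ∈ kerLat V ↔ ∀ j, V j x = 0 := by
  simp [kerLat, Submodule.mem_iInf]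

theorem kerLat_eq_ker_pi : kerLat V = LinearMap.ker (LinearMap.pi V) := by
  rw [LinearMap.ker_pi]
  rfl

/-- The kernel lattice is saturated when the targets are torsion-free. -/
theorem mem_kerLat_of_nsmul_mem [∀ j, IsAddTorsionFree (Λ' j)] {n : ℕ} (hn : n ≠ 0) {y : Λ}
    (h : n • y ∈ kerLat V) : y ∈ kerLat V := by
  rw [mem_kerLat] at h ⊢
  intro j
  have h1 := h j
  rw [map_nsmul] at h1
  exact (nsmul_eq_zero_iff_right hn).mp h1

variable [Fintype ι]

theorem lTensor_pi_eq_zero (u : O ⊗[ℤ] Λ) (hV : ∀ j, (V j).baseChange O u = 0) :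
    (LinearMap.pi V).lTensor O u = 0 := by
  classical
  have key : ∀ w : O ⊗[ℤ] Λ, TensorProduct.piRight ℤ ℤ O Λ' ((LinearMap.pi V).lTensor O w) =
      fun j => (V j).lTensor O w := by
    intro w
    induction w using TensorProduct.induction_on with
    | zero => simp only [map_zero]; rfl
    | tmul o x =>
      funext j
      simp [TensorProduct.piRight_apply, TensorProduct.piRightHom_tmul]
    | add a b ha hb =>
      rw [map_add, map_add, ha, hb]
      funext j
      simp
  apply (TensorProduct.piRight ℤ ℤ O Λ').injective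
  rw [key u, map_zero]
  funext j
  have := hV j
  rw [LinearMap.baseChange_eq_ltensor] at this
  exact this

variable [Module.Flat ℤ O]

/-- **Flatness**: an element of `O ⊗ Λ` killed by all `V j ⊗ 1` lies in `O ⊗ (⨅ ker V j)`. -/
theorem exists_baseChange_subtype_eq (u : O ⊗[ℤ] Λ) (hV : ∀ j, (V j).baseChange O u = 0) :
    ∃ u' : O ⊗[ℤ] ↥(kerLat V), (kerLat V).subtype.baseChange O u' = u := by
  have hex : Function.Exact ((LinearMap.ker (LinearMap.pi V)).subtype.lTensor O)
      ((LinearMap.pi V).lTensor O) :=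
    Module.Flat.lTensor_exact O (LinearMap.exact_subtype_ker_map (LinearMap.pi V))
  have h0 := lTensor_pi_eq_zero V u hV
  obtain ⟨u', hu'⟩ := (hex u).mp h0
  have hk := kerLat_eq_ker_pi V
  revert u' hex
  rw [← hk]
  intro hex u' hu'
  exact ⟨u', by rw [LinearMap.baseChange_eq_ltensor]; exact hu'⟩

theorem baseChange_subtype_injective (L : Submodule ℤ Λ) :
    Function.Injective (L.subtype.baseChange O) := by
  have := Module.Flat.lTensor_preserves_injective_linearMap (M := O) L.subtype
    L.injective_subtype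
  intro a b hab
  apply this
  rw [LinearMap.baseChange_eq_ltensor] at hab
  exact hab

end KerLat

section Coordinates

variable {O : Type*} [CommRing O] {L : Type*} [AddCommGroup L]

/-- Coordinates of an eigenvector of `O ⊗[ℤ] L` in a `ℤ`-basis of `L`. -/
theorem exists_coordinates_of_eigenvector {κ : Type*} [Fintype κ] (b : Module.Basis κ ℤ L)
    {I : Type*} (θ : I → L →ₗ[ℤ] L) (c : I → O) (u : O ⊗[ℤ] L) (hu : u ≠ 0)
    (h : ∀ i, (θ i).baseChange O u = c i • u) :
    ∃ a : κ → O, a ≠ 0 ∧
      ∀ i j, ∑ l, ((b.coord j (θ i (b l)) : ℤ) : O) * a l = c i * a j := by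
  classical
  set B := Algebra.TensorProduct.basis O b with hB
  set a : κ → O := fun l => B.repr u l with ha
  have hsum : u = ∑ l, a l • ((1 : O) ⊗ₜ[ℤ] b l) := by
    conv_lhs => rw [← B.sum_repr u]
    refine Finset.sum_congr rfl fun l _ => ?_
    rw [hB, Algebra.TensorProduct.basis_apply]
  refine ⟨a, ?_, ?_⟩
  · intro h0
    apply hu
    rw [hsum]
    refine Finset.sum_eq_zero fun l _ => ?_
    rw [h0, Pi.zero_apply, zero_smul]
  · intro i j
    have h1 := congrArg (fun z => B.repr z j) (h i)
    simp only [map_smul, Finsupp.smul_apply, smul_eq_mul] at h1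
    rw [← h1]
    conv_rhs => rw [hsum]
    rw [map_sum, map_sum, Finsupp.finsetSum_apply]
    refine Finset.sum_congr rfl fun l _ => ?_
    rw [map_smul, map_smul, Finsupp.smul_apply, LinearMap.baseChange_tmul, hB,
      Algebra.TensorProduct.basis_repr_tmul, one_smul, Finsupp.mapRange_apply, smul_eq_mul,
      mul_comm]
    rfl

end Coordinates

section Main

variable {O : Type*} [CommRing O] [Module.Flat ℤ O]
  {Λ : Type*} [AddCommGroup Λ] {ι : Type*} [Fintype ι] {Λ' : ι → Type*}
  [∀ j, AddCommGroup (Λ' j)] (V : ∀ j, Λ →ₗ[ℤ] Λ' j)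

/-- **Eigen-coordinates in the kernel lattice.** -/
theorem exists_coordinates_kerLat {I : Type*} (θ : I → Λ →ₗ[ℤ] Λ)
    (hθ : ∀ i, ∀ x ∈ kerLat V, θ i x ∈ kerLat V) (c : I → O) (u : O ⊗[ℤ] Λ) (hu : u ≠ 0)
    (heig : ∀ i, (θ i).baseChange O u = c i • u) (hV : ∀ j, (V j).baseChange O u = 0)
    {κ : Type*} [Fintype κ] (b : Module.Basis κ ℤ ↥(kerLat V)) :
    ∃ a : κ → O, a ≠ 0 ∧
      ∀ i j, ∑ l, ((b.coord j ((θ i).restrict (hθ i) (b l)) : ℤ) : O) * a l = c i * a j := by
  obtain ⟨u', hu'⟩ := exists_baseChange_subtype_eq V u hV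
  have hinj := baseChange_subtype_injective (O := O) (kerLat V)
  have hu'0 : u' ≠ 0 := by
    rintro rfl
    exact hu (by rw [← hu', map_zero])
  refine exists_coordinates_of_eigenvector b (fun i => (θ i).restrict (hθ i)) c u' hu'0 ?_
  intro i
  apply hinj
  rw [map_smul, hu', ← heig i, ← hu', ← LinearMap.comp_apply, ← LinearMap.comp_apply,
    ← LinearMap.baseChange_comp, ← LinearMap.baseChange_comp]
  rfl

end Main

end

end Fermat.Agent.S35.H57
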