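/-
S35, row R1 (helper57), part C: helper31's `H31.Midpoint35` from an ABSTRACT `G_ℚ`-module `J`
with commuting "Hecke" operators (same inputs as `H57.s35_of_inputs`, but over an arbitrary
coefficient ring `𝒪₁` and an arbitrary character `χ₁ : 𝕋 → 𝒪₁`; in the application `𝒪₁` is the
extension `𝒪''` of `𝒪'` produced by row N1 and `χ₁ = (algebraMap 𝒪' 𝒪₁).comp χ`).
Combined with `H31.s35_of_midpoint35` this gives the frozen S35 conclusion.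
-/
import Mathlib
import Fermat.Agent.S35.H57_S35Inputs
import Fermat.Agent.S35.H31_S35Assembly

set_option autoImplicit false

namespace Fermat.Agent.S35.H57

open scoped TensorProduct
open Polynomial CuspForm IsLocalRing
open Fermat.Agent.S30 Fermat.Agent.S30.H57

local notation "Qbar" => AlgebraicClosure ℚ
local notation "GQ" => (AlgebraicClosure ℚ ≃ₐ[ℚ] AlgebraicClosure ℚ)

noncomputable section

/-- the ring identity behind `frobPoly`: `(f-c)(f+c)(f-1)²(f+1)² = (f²-c²)(f²-1)²` for `c`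
commuting with `f`. -/
theorem frob_ring_identity {R : Type*} [Ring R] (f c : R) (hc : Commute f c) :
    (f - c) * ((f + c) * ((f - 1) * ((f - 1) * ((f + 1) * (f + 1))))) =
      (f * f - c * c) * (f * f - 1) ^ 2 := by
  have h1 : (f - c) * (f + c) = f * f - c * c := (hc.mul_self_sub_mul_self_eq').symm
  have h2 : (f - 1) * ((f - 1) * ((f + 1) * (f + 1))) = (f * f - 1) ^ 2 := by
    noncomm_ring
  rw [h2, ← mul_assoc, h1]

/-- `frobPoly φ q = 0` pointwise gives helper31's End-equation `(φ² - q²)(φ² - 1)² = 0`. -/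
theorem key_of_frobPoly {O V : Type*} [CommRing O] [AddCommGroup V] [Module O V]
    (φ : Module.End O V) (q : O) (h : ∀ w : V, frobPoly φ q w = 0) :
    (φ * φ - (q ^ 2) • (1 : Module.End O V)) * (φ * φ - 1) ^ 2 = 0 := by
  have hc : Commute φ (q • (1 : Module.End O V)) := by
    refine LinearMap.ext fun v => ?_
    simp
  have hid := frob_ring_identity φ (q • (1 : Module.End O V)) hc
  have hqq : (q • (1 : Module.End O V)) * (q • (1 : Module.End O V)) =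
      (q ^ 2) • (1 : Module.End O V) := by
    rw [smul_mul_smul_comm, one_mul, sq]
  rw [hqq] at hid
  rw [← hid]
  refine LinearMap.ext fun w => ?_
  have := h w
  rw [frobPoly] at this
  simpa [Module.End.mul_apply] using this

/-- **`H31.Midpoint35` from an abstract Galois module with (KEY).** -/
theorem midpoint35_of_inputs (p : ℕ) [hp : Fact p.Prime] (N : ℕ) [NeZero N] (S : Finset ℕ)
    (𝒪₁ : Type) [CommRing 𝒪₁] [IsDomain 𝒪₁] [IsDiscreteValuationRing 𝒪₁]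
    [IsAdicComplete (IsLocalRing.maximalIdeal 𝒪₁) 𝒪₁] [CharZero 𝒪₁]
    (hp𝒪₁ : (p : 𝒪₁) ∈ IsLocalRing.maximalIdeal 𝒪₁)
    (χ₁ : CuspForm.heckeAlgebra N 2 (↑S : Set ℕ) →+* 𝒪₁)
    {J : Type} [AddCommGroup J] (ρJ : GQ →* AddMonoid.End J)
    (τ : GoodPrime N S → AddMonoid.End J) (hcomm : ∀ g ℓ, Commute (ρJ g) (τ ℓ))
    (hfin : Set.Finite {y : J | p • y = 0})
    (hopen : ∀ n : ℕ, ∃ E : IntermediateField ℚ Qbar, FiniteDimensional ℚ E ∧
      ∀ σ : GQ, (∀ a ∈ E, σ a = a) → ∀ y : J, p ^ n • y = 0 → ρJ σ y = y)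
    (hfrob : ∀ (ℓ : GoodPrime N S) (A : ValuationSubring Qbar), A.LiesOverPrime ℓ.1 →
      ∀ σ : GQ, A.IsFrobeniusAt σ ℓ.1 → ∀ y : J, (∃ n : ℕ, p ^ n • y = 0) →
        ρJ σ (ρJ σ y) - τ ℓ (ρJ σ y) + ℓ.1 • y = 0)
    (hne : letI : Algebra ℤ_[p] 𝒪₁ := (H83.zpTo p 𝒪₁ hp𝒪₁).toAlgebra
      ∃ m : 𝒪₁ ⊗[ℤ_[p]] Tate p J, m ≠ 0 ∧
        ∀ ℓ : GoodPrime N S, tateRep p J 𝒪₁ (τ ℓ) m = eigenval N χ₁ ℓ • m)
    (hkey : ∀ q : ℕ, q.Prime → q ≠ p → q ∣ N → ¬ q ^ 2 ∣ N →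
      ∀ A : ValuationSubring Qbar, A.LiesOverPrime q → ∀ σ : GQ, A.IsFrobeniusAt σ q →
        ∀ y : J, (∃ n : ℕ, p ^ n • y = 0) → frobPolyEnd (ρJ σ) q y = 0) :
    H31.Midpoint35 p N S 𝒪₁ χ₁ := by
  classical
  letI : Algebra ℤ_[p] 𝒪₁ := (H83.zpTo p 𝒪₁ hp𝒪₁).toAlgebra
  have hpO : (p : 𝒪₁) ≠ 0 := Nat.cast_ne_zero.mpr hp.out.ne_zero
  have hT1 : Module.Finite ℤ_[p] (Tate p J) := Tate.finite_of_finite_torsion hfin
  have hT2 : Module.Free ℤ_[p] (Tate p J) := Tate.free_of_finite_torsion hfin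
  have hM1 : Module.Free 𝒪₁ (𝒪₁ ⊗[ℤ_[p]] Tate p J) := inferInstance
  have hM2 : Module.Finite 𝒪₁ (𝒪₁ ⊗[ℤ_[p]] Tate p J) := inferInstance
  have hM3 : Module.IsTorsionFree 𝒪₁ (𝒪₁ ⊗[ℤ_[p]] Tate p J) := inferInstance
  set c : GoodPrime N S → 𝒪₁ := eigenval N χ₁ with hc
  have hE1 : Module.Finite 𝒪₁ (eigen p J 𝒪₁ τ c) := inferInstance
  have hE2 : Module.IsTorsionFree 𝒪₁ (eigen p J 𝒪₁ τ c) := inferInstance
  have hE3 : Module.Free 𝒪₁ (eigen p J 𝒪₁ τ c) := inferInstance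
  have hE4 : Nontrivial (eigen p J 𝒪₁ τ c) := by
    obtain ⟨m, hm0, hm⟩ := hne
    exact ⟨⟨⟨m, mem_eigen.mpr hm⟩, 0, fun h => hm0 (congrArg Subtype.val h)⟩⟩
  set ρ : GQ →* Module.End 𝒪₁ (eigen p J 𝒪₁ τ c) :=
    eigenRep (p := p) (O := 𝒪₁) (c := c) ρJ hcomm with hρ
  have hcont : GaloisActionIsAdicContinuous 𝒪₁ ρ := by
    intro n
    obtain ⟨E, hE, hfix⟩ := hopen n
    refine ⟨E, hE, fun σ hσ v => ?_⟩
    obtain ⟨m', hm'⟩ := exists_eigenRep_sub_eq_smul (p := p) (O := 𝒪₁) (c := c) ρJ hcomm hpO n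
      (fun y hy => hfix σ hσ y hy) v
    rw [hm']
    refine Submodule.smul_mem_smul ?_ Submodule.mem_top
    exact Ideal.pow_mem_pow hp𝒪₁ n
  refine ⟨eigen p J 𝒪₁ τ c, inferInstance, inferInstance, hE3, hE1, ρ, hE4, hcont, ?_, ?_⟩
  · intro ℓ hℓ hℓN hℓS A hA σ hσ
    exact eigenRep_quadratic (p := p) (O := 𝒪₁) (c := c) ρJ hcomm ⟨ℓ, hℓ, hℓN, hℓS⟩ ℓ
      (fun y hy => hfrob ⟨ℓ, hℓ, hℓN, hℓS⟩ A hA σ hσ y hy)
  · intro q hq hqp hqN hq2 A hA σ hσ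
    refine key_of_frobPoly (ρ σ) (q : 𝒪₁) fun w => ?_
    exact eigenRep_frobPoly (p := p) (O := 𝒪₁) (c := c) ρJ hcomm q
      (fun y hy => hkey q hq hqp hqN hq2 A hA σ hσ y hy) w

end

end Fermat.Agent.S35.H57
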