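/-
S35, row N5 (helper57), part (a): restriction of a Galois/Hecke module structure to a stable
subgroup, and the "new" subgroup cut out by a family of additive maps `P j` (the pushforwards to
lower level) together with all Hecke words.
-/
import Mathlib
import Fermat.Agent.S35.H57_S35Inputs

set_option autoImplicit false

namespace Fermat.Agent.S35.H57

noncomputable section

section Restrict

variable {J : Type*} [AddCommGroup J] (H : AddSubgroup J)

/-- Restriction of an additive endomorphism to a stable subgroup. -/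
def restrictEnd (f : AddMonoid.End J) (hf : ∀ y ∈ H, f y ∈ H) : AddMonoid.End H :=
  AddMonoidHom.codRestrict (AddMonoidHom.comp f H.subtype) H (fun y => hf y y.2)

@[simp] theorem coe_restrictEnd (f : AddMonoid.End J) (hf : ∀ y ∈ H, f y ∈ H) (y : H) :
    ((restrictEnd H f hf y : H) : J) = f y := rfl

/-- Restriction of a representation by additive endomorphisms to a stable subgroup. -/
def restrictRep {G : Type*} [Group G] (ρ : G →* AddMonoid.End J)
    (hρ : ∀ g, ∀ y ∈ H, ρ g y ∈ H) : G →* AddMonoid.End H where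
  toFun g := restrictEnd H (ρ g) (hρ g)
  map_one' := by
    refine DFunLike.ext _ _ fun y => Subtype.ext ?_
    show ρ 1 (y : J) = (y : J)
    rw [map_one]
    rfl
  map_mul' g h := by
    refine DFunLike.ext _ _ fun y => Subtype.ext ?_
    show ρ (g * h) (y : J) = ρ g (ρ h (y : J))
    rw [map_mul]
    rfl

@[simp] theorem coe_restrictRep {G : Type*} [Group G] (ρ : G →* AddMonoid.End J)
    (hρ : ∀ g, ∀ y ∈ H, ρ g y ∈ H) (g : G) (y : H) :
    ((restrictRep H ρ hρ g y : H) : J) = ρ g y := rfl

theorem commute_restrictEnd {f g : AddMonoid.End J} (hf : ∀ y ∈ H, f y ∈ H)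
    (hg : ∀ y ∈ H, g y ∈ H) (h : Commute f g) :
    Commute (restrictEnd H f hf) (restrictEnd H g hg) := by
  refine DFunLike.ext _ _ fun y => Subtype.ext ?_
  have := DFunLike.congr_fun h.eq (y : J)
  exact this

theorem finite_torsion_subgroup {p : ℕ} (hfin : Set.Finite {y : J | p • y = 0}) :
    Set.Finite {y : H | p • y = 0} := by
  have h1 := hfin.preimage (f := (Subtype.val : H → J)) Subtype.val_injective.injOn
  refine h1.subset ?_
  intro y hy
  show p • (y : J) = 0
  have hy' : p • y = 0 := hy
  have : ((p • y : H) : J) = 0 := by rw [hy']; rfl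
  rwa [AddSubgroup.coe_nsmul] at this

theorem coe_nsmul_eq_zero_iff {n : ℕ} {y : H} : n • y = 0 ↔ n • (y : J) = 0 := by
  constructor
  · intro h
    have : ((n • y : H) : J) = 0 := by rw [h]; rfl
    rwa [AddSubgroup.coe_nsmul] at this
  · intro h
    apply Subtype.ext
    rw [AddSubgroup.coe_nsmul, h]
    rfl

theorem coe_frobPolyEnd_restrictEnd (f : AddMonoid.End J) (hf : ∀ y ∈ H, f y ∈ H) (q : ℕ)
    (y : H) : ((frobPolyEnd (restrictEnd H f hf) q y : H) : J) = frobPolyEnd f q (y : J) := by
  have hsub : ∀ (c : AddMonoid.End H) (d : AddMonoid.End J),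
      (∀ z : H, ((c z : H) : J) = d (z : J)) → ∀ z : H,
        (((restrictEnd H f hf - c) z : H) : J) = (f - d) (z : J) := by
    intro c d hcd z
    show ((restrictEnd H f hf z - c z : H) : J) = f z - d z
    rw [AddSubgroup.coe_sub, coe_restrictEnd, hcd]
  have hadd : ∀ (c : AddMonoid.End H) (d : AddMonoid.End J),
      (∀ z : H, ((c z : H) : J) = d (z : J)) → ∀ z : H,
        (((restrictEnd H f hf + c) z : H) : J) = (f + d) (z : J) := by
    intro c d hcd z
    show ((restrictEnd H f hf z + c z : H) : J) = f z + d z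
    rw [AddSubgroup.coe_add, coe_restrictEnd, hcd]
  have hq : ∀ z : H, ((((q : AddMonoid.End H)) z : H) : J) = (q : AddMonoid.End J) (z : J) := by
    intro z
    rw [AddMonoid.End.natCast_apply, AddMonoid.End.natCast_apply, AddSubgroup.coe_nsmul]
  have h1 : ∀ z : H, ((((1 : AddMonoid.End H)) z : H) : J) = (1 : AddMonoid.End J) (z : J) :=
    fun z => rfl
  have e1 : ∀ z : J, frobPolyEnd f q z = (f - (q : AddMonoid.End J)) ((f + (q : AddMonoid.End J))
      ((f - 1) ((f - 1) ((f + 1) ((f + 1) z))))) := fun _ => rfl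
  have e2 : ∀ z : H, frobPolyEnd (restrictEnd H f hf) q z =
      (restrictEnd H f hf - (q : AddMonoid.End H)) ((restrictEnd H f hf + (q : AddMonoid.End H))
      ((restrictEnd H f hf - 1) ((restrictEnd H f hf - 1) ((restrictEnd H f hf + 1)
        ((restrictEnd H f hf + 1) z))))) := fun _ => rfl
  rw [e1, e2, hsub _ _ hq, hadd _ _ hq, hsub _ _ h1, hsub _ _ h1, hadd _ _ h1, hadd _ _ h1]

end Restrict

section NewSub

variable {J : Type*} [AddCommGroup J] {ι : Type*} {J' : ι → Type*} [∀ j, AddCommGroup (J' j)]
  (P : ∀ j, J →+ J' j) {I : Type*} (τ : I → AddMonoid.End J)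

/-- The subgroup of `J` on which every `P j` vanishes after every word in the operators `τ i`. -/
def newSub : AddSubgroup J where
  carrier := {y | ∀ (w : List I) (j : ι), P j ((w.map τ).prod y) = 0}
  zero_mem' := fun w j => by rw [map_zero, map_zero]
  add_mem' := fun {a b} ha hb w j => by rw [map_add, map_add, ha w j, hb w j, add_zero]
  neg_mem' := fun {a} ha w j => by rw [map_neg, map_neg, ha w j, neg_zero]

theorem mem_newSub {y : J} : y ∈ newSub P τ ↔ ∀ (w : List I) (j : ι), P j ((w.map τ).prod y) = 0 :=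
  Iff.rfl

theorem apply_eq_zero_of_mem_newSub {y : J} (hy : y ∈ newSub P τ) (j : ι) : P j y = 0 := by
  have := hy [] j
  simpa using this

theorem hecke_mem_newSub (i : I) {y : J} (hy : y ∈ newSub P τ) : τ i y ∈ newSub P τ := by
  intro w j
  have := hy (w ++ [i]) j
  rw [List.map_append, List.prod_append] at this
  simpa using this

theorem commute_mem_newSub (f : AddMonoid.End J) (hf : ∀ i, Commute f (τ i))
    (hP : ∀ j y, P j y = 0 → P j (f y) = 0) {y : J} (hy : y ∈ newSub P τ) :
    f y ∈ newSub P τ := by
  intro w j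
  have hc : Commute f (w.map τ).prod := by
    apply Commute.list_prod_right
    intro x hx
    obtain ⟨i, _, rfl⟩ := List.mem_map.mp hx
    exact hf i
  have h1 : (w.map τ).prod (f y) = f ((w.map τ).prod y) := by
    have := DFunLike.congr_fun hc.eq y
    exact this.symm
  rw [h1]
  exact hP j _ (hy w j)

/-- A map `lamN : L → J` intertwining operators `θ i` on `L` with `τ i`, and sending a
`θ`-stable subgroup `L₀` into the common kernel of the `P j`, sends `L₀` into `newSub`. -/
theorem map_mem_newSub {L : Type*} [AddCommGroup L] (lamN : L →+ J) (θ : I → L →+ L)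
    (hT : ∀ i x, lamN (θ i x) = τ i (lamN x)) (L₀ : AddSubgroup L)
    (hθ : ∀ i, ∀ x ∈ L₀, θ i x ∈ L₀) (h0 : ∀ x ∈ L₀, ∀ j, P j (lamN x) = 0) {x : L}
    (hx : x ∈ L₀) : lamN x ∈ newSub P τ := by
  intro w
  induction w generalizing x with
  | nil =>
    intro j
    simpa using h0 x hx j
  | cons i w ih =>
    intro j
    rw [List.map_cons, List.prod_cons, AddMonoid.End.coe_mul, Function.comp_apply]
    -- `(w.map τ).prod (lamN x) = lamN x'` for some `x' ∈ L₀`: prove the stronger statement
    have key : ∀ (w : List I) (x : L), x ∈ L₀ →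
        ∃ x' ∈ L₀, (w.map τ).prod (lamN x) = lamN x' := by
      intro w
      induction w with
      | nil => intro x hx; exact ⟨x, hx, by simp⟩
      | cons i w ih2 =>
        intro x hx
        obtain ⟨x', hx', he⟩ := ih2 x hx
        refine ⟨θ i x', hθ i x' hx', ?_⟩
        rw [List.map_cons, List.prod_cons, AddMonoid.End.coe_mul, Function.comp_apply, he, hT]
    obtain ⟨x', hx', he⟩ := key w x hx
    rw [he, ← hT]
    exact h0 _ (hθ i x' hx') j

end NewSub

end

end Fermat.Agent.S35.H57
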