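import Mathlib
import Fermat.Agent.S35.H90_NormEquivAbs
import Fermat.Agent.S29.H38_BcJHecke
import Fermat.Agent.S29.H80_Interface
import Fermat.Agent.S37.H8_FinDimL
import Fermat.Agent.S29.H85_KummerPoincare

/-!
# S35 / row (N3-bc) (helper72): the degeneracy push-forwards `α_*`, `β_*` and base change `ℚ̄ → ℂ`

* `baseChangePic0_pic0Push` : generic — base change of divisor classes along a square of
  constant field extensions commutes with helper90's `H90.pic0Push`.
* `alphaPush L M q`, `betaPush L M q : Pic⁰(L F_{Mq}) →+ Pic⁰(L F_M)` : the push-forwards along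
  the two degeneracy maps `heckeAlphaBar L M q` (`f(τ) ↦ f(τ)`), `heckeBetaBar L M q`
  (`f(τ) ↦ f(qτ)`) of level `M` at `q`, for every algebraically closed `L ⊇ ℚ`;
  `eq_alphaPush_of_mk`, `eq_betaPush_of_mk` : any additive map with the same values on `Pic0.mk`
  is equal to them (bridge to other definitions of the same push-forward).
* `bcJ_alphaPush`, `bcJ_betaPush` : `bcJ M ∘ α_*^{ℚ̄} = α_*^{ℂ} ∘ bcJ (M q)` and the same for `β`.
* `lamC N hn`, `lamQ N hn` : the Kummer–Poincaré maps over `ℂ` and over `ℚ̄` at level `N` and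
  modulus `n` as DEFINITIONS (`bcJ_lamQ : bcJ N (lamQ N hn x) = lamC N hn x`), with the three
  clauses of `H80.exists_lam_JZero` (`lamQ_zsmul`, `lamQ_eq_zero`, `lamQ_cohT`, `lamQ_spec`).
* `alphaPush_lamQ_eq_zero`, `betaPush_lamQ_eq_zero`, `alphaPush_lamQ_eq`, `betaPush_lamQ_eq` :
  transfer `ℂ → ℚ̄` of vanishing / intertwining statements for `α_* ∘ lam`, `β_* ∘ lam`.
-/

set_option autoImplicit false
set_option linter.style.haveILetI false

noncomputable section

namespace Fermat.Agent.S35.H72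

open AlgebraicCurve ModularCurve Fermat.Agent.S29 Fermat.Agent.S29.H20
  Fermat.Agent.S29.H20.ConstExt Fermat.Agent.S29.H38 Fermat.Agent.S29.H62

section Generic

variable {k K F₁ F₂ F₁' F₂' : Type*} [Field k] [Field K] [Field F₁] [Field F₂] [Field F₁']
  [Field F₂'] [Algebra k K] [Algebra k F₁] [Algebra k F₂] [Algebra K F₁'] [Algebra K F₂']
  {E₁ : ConstExt k K F₁ F₁'} {E₂ : ConstExt k K F₂ F₂'}
  {φ : F₁ →ₐ[k] F₂} {φ' : F₁' →ₐ[K] F₂'}

/-- Base change on `Pic⁰` commutes with the push-forward along a square of field embeddings. -/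
theorem baseChangePic0_pic0Push (h₁ : E₁.DegOne) (h₂ : E₂.DegOne)
    (hφ : φ.toRingHom.IsIntegral) (hφ' : φ'.toRingHom.IsIntegral) (hsq : Square E₁ E₂ φ φ')
    (hfin : FiniteAlong k φ) (hN : NormFormulaAlong k φ hfin)
    (hfin' : FiniteAlong K φ') (hN' : NormFormulaAlong K φ' hfin') (x : Pic0 k F₂) :
    baseChangePic0 h₁ (H90.pic0Push φ hφ hfin hN x)
      = H90.pic0Push φ' hφ' hfin' hN' (baseChangePic0 h₂ x) := by
  obtain ⟨D, rfl⟩ := Pic0.mk_surjective x
  rw [H90.pic0Push_mk, baseChangePic0_mk, baseChangePic0_mk, H90.pic0Push_mk]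
  refine congrArg Pic0.mk (Subtype.ext ?_)
  rw [coe_baseChangeDegZero, H90.coe_degZeroPush, H90.coe_degZeroPush, coe_baseChangeDegZero]
  exact baseChangeDiv_pushforwardAlong h₁ h₂ hφ hφ' hsq _

end Generic

/-! ### The two degeneracy push-forwards over an algebraically closed `L ⊇ ℚ` -/

section Push

variable (L : Type*) [Field L] [Algebra ℚ L] (M q : ℕ) [NeZero M] [NeZero q]

/-- `heckeAlphaBar L M q` is a finite embedding. -/
theorem finiteAlong_alpha : FiniteAlong L (heckeAlphaBar L M q) :=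
  haveI : CharZero L := charZero_of_injective_algebraMap (algebraMap ℚ L).injective
  S37.H8.finiteAlong_of_transcendental (K := L) (S37.H8.jL L M) (S37.H8.jL L (M * q))
    (S37.H8.transcendental_jL L M) (S37.H8.transcendental_jL L (M * q)) _

/-- `heckeBetaBar L M q` is a finite embedding. -/
theorem finiteAlong_beta : FiniteAlong L (heckeBetaBar L M q) :=
  haveI : CharZero L := charZero_of_injective_algebraMap (algebraMap ℚ L).injective
  S37.H8.finiteAlong_of_transcendental (K := L) (S37.H8.jL L M) (S37.H8.jL L (M * q))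
    (S37.H8.transcendental_jL L M) (S37.H8.transcendental_jL L (M * q)) _

theorem isIntegral_alpha : (heckeAlphaBar L M q).toRingHom.IsIntegral :=
  S37.H8.isIntegral_of_finiteAlong _ (finiteAlong_alpha L M q)

theorem isIntegral_beta : (heckeBetaBar L M q).toRingHom.IsIntegral :=
  S37.H8.isIntegral_of_finiteAlong _ (finiteAlong_beta L M q)

variable [IsAlgClosed L]

theorem normFormulaAlong_alpha :
    NormFormulaAlong L (heckeAlphaBar L M q) (finiteAlong_alpha L M q) :=
  haveI : CharZero L := charZero_of_injective_algebraMap (algebraMap ℚ L).injective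
  S37.H8.normFormulaAlong_of_transcendental (K := L) (S37.H8.jL L M) (S37.H8.jL L (M * q))
    (S37.H8.transcendental_jL L M) (S37.H8.transcendental_jL L (M * q)) _ _

theorem normFormulaAlong_beta :
    NormFormulaAlong L (heckeBetaBar L M q) (finiteAlong_beta L M q) :=
  haveI : CharZero L := charZero_of_injective_algebraMap (algebraMap ℚ L).injective
  S37.H8.normFormulaAlong_of_transcendental (K := L) (S37.H8.jL L M) (S37.H8.jL L (M * q))
    (S37.H8.transcendental_jL L M) (S37.H8.transcendental_jL L (M * q)) _ _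

/-- `α_* : Pic⁰(L F_{Mq}) →+ Pic⁰(L F_M)`, the push-forward along `f(τ) ↦ f(τ)`. -/
def alphaPush : H80.JL L (M * q) →+ H80.JL L M :=
  H90.pic0Push (heckeAlphaBar L M q) (isIntegral_alpha L M q) (finiteAlong_alpha L M q)
    (normFormulaAlong_alpha L M q)

/-- `β_* : Pic⁰(L F_{Mq}) →+ Pic⁰(L F_M)`, the push-forward along `f(τ) ↦ f(qτ)`. -/
def betaPush : H80.JL L (M * q) →+ H80.JL L M :=
  H90.pic0Push (heckeBetaBar L M q) (isIntegral_beta L M q) (finiteAlong_beta L M q)
    (normFormulaAlong_beta L M q)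

theorem alphaPush_mk (D : Divisor.degZero (K := L) (F := H80.FL L (M * q))) :
    alphaPush L M q (Pic0.mk D)
      = Pic0.mk (H90.degZeroPush (heckeAlphaBar L M q) (isIntegral_alpha L M q) D) :=
  H90.pic0Push_mk _ _ _ _ D

theorem betaPush_mk (D : Divisor.degZero (K := L) (F := H80.FL L (M * q))) :
    betaPush L M q (Pic0.mk D)
      = Pic0.mk (H90.degZeroPush (heckeBetaBar L M q) (isIntegral_beta L M q) D) :=
  H90.pic0Push_mk _ _ _ _ D

omit [IsAlgClosed L] in
/-- The coercion of `degZeroPush` along `α`. -/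
theorem coe_degZeroPush_alpha (D : Divisor.degZero (K := L) (F := H80.FL L (M * q))) :
    (H90.degZeroPush (heckeAlphaBar L M q) (isIntegral_alpha L M q) D : Divisor L (H80.FL L M))
      = Divisor.pushforwardAlong (heckeAlphaBar L M q) (isIntegral_alpha L M q)
          (D : Divisor L (H80.FL L (M * q))) :=
  H90.coe_degZeroPush _ _ D

omit [IsAlgClosed L] in
/-- The coercion of `degZeroPush` along `β`. -/
theorem coe_degZeroPush_beta (D : Divisor.degZero (K := L) (F := H80.FL L (M * q))) :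
    (H90.degZeroPush (heckeBetaBar L M q) (isIntegral_beta L M q) D : Divisor L (H80.FL L M))
      = Divisor.pushforwardAlong (heckeBetaBar L M q) (isIntegral_beta L M q)
          (D : Divisor L (H80.FL L (M * q))) :=
  H90.coe_degZeroPush _ _ D

/-- Bridge: an additive map with the values of `α_*` on `Pic0.mk` IS `alphaPush`. -/
theorem eq_alphaPush_of_mk (P : H80.JL L (M * q) →+ H80.JL L M)
    (hP : ∀ D : Divisor.degZero (K := L) (F := H80.FL L (M * q)),
      ∃ E : Divisor.degZero (K := L) (F := H80.FL L M),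
        (E : Divisor L (H80.FL L M))
            = Divisor.pushforwardAlong (heckeAlphaBar L M q) (isIntegral_alpha L M q)
                (D : Divisor L (H80.FL L (M * q))) ∧
          P (Pic0.mk D) = Pic0.mk E) :
    P = alphaPush L M q := by
  refine AddMonoidHom.ext fun x => ?_
  obtain ⟨D, rfl⟩ := Pic0.mk_surjective x
  obtain ⟨E, hE, hPE⟩ := hP D
  rw [hPE, alphaPush_mk]
  exact congrArg Pic0.mk (Subtype.ext (hE.trans (coe_degZeroPush_alpha L M q D).symm))

/-- Bridge: an additive map with the values of `β_*` on `Pic0.mk` IS `betaPush`. -/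
theorem eq_betaPush_of_mk (P : H80.JL L (M * q) →+ H80.JL L M)
    (hP : ∀ D : Divisor.degZero (K := L) (F := H80.FL L (M * q)),
      ∃ E : Divisor.degZero (K := L) (F := H80.FL L M),
        (E : Divisor L (H80.FL L M))
            = Divisor.pushforwardAlong (heckeBetaBar L M q) (isIntegral_beta L M q)
                (D : Divisor L (H80.FL L (M * q))) ∧
          P (Pic0.mk D) = Pic0.mk E) :
    P = betaPush L M q := by
  refine AddMonoidHom.ext fun x => ?_
  obtain ⟨D, rfl⟩ := Pic0.mk_surjective x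
  obtain ⟨E, hE, hPE⟩ := hP D
  rw [hPE, betaPush_mk]
  exact congrArg Pic0.mk (Subtype.ext (hE.trans (coe_degZeroPush_beta L M q D).symm))

end Push

/-! ### Base change `k ⊆ K` (algebraically closed) commutes with `α_*`, `β_*` -/

section BcPush

variable {k K : Type*} [Field k] [Field K] [Algebra ℚ k] [Algebra ℚ K] [Algebra k K]
  [IsScalarTower ℚ k K] [IsAlgClosed k] [IsAlgClosed K] (M q : ℕ) [NeZero M] [NeZero q]

theorem baseChangePic0_alphaPush
    (h₁ : (constExtLaurent k K (modularFunctionFieldFull M)).DegOne)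
    (h₂ : (constExtLaurent k K (modularFunctionFieldFull (M * q))).DegOne)
    (y : H80.JL k (M * q)) :
    baseChangePic0 h₁ (alphaPush k M q y) = alphaPush K M q (baseChangePic0 h₂ y) :=
  baseChangePic0_pic0Push h₁ h₂ _ _ (square_heckeAlphaBar k K M q) _ _ _ _ y

theorem baseChangePic0_betaPush
    (h₁ : (constExtLaurent k K (modularFunctionFieldFull M)).DegOne)
    (h₂ : (constExtLaurent k K (modularFunctionFieldFull (M * q))).DegOne)
    (y : H80.JL k (M * q)) :
    baseChangePic0 h₁ (betaPush k M q y) = betaPush K M q (baseChangePic0 h₂ y) :=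
  baseChangePic0_pic0Push h₁ h₂ _ _ (square_heckeBetaBar k K M q) _ _ _ _ y

end BcPush

section BcJ

attribute [local instance] H62.algebraQbarComplex H62.isScalarTower_qbar_complex

variable (M q : ℕ) [NeZero M] [NeZero q]

/-- `bcJ M ∘ α_*^{ℚ̄} = α_*^{ℂ} ∘ bcJ (M q)`. -/
theorem bcJ_alphaPush (y : JZero (M * q)) :
    H80.bcJ M (alphaPush (AlgebraicClosure ℚ) M q y) = alphaPush ℂ M q (H80.bcJ (M * q) y) :=
  baseChangePic0_alphaPush (k := AlgebraicClosure ℚ) (K := ℂ) M q (H62.degOne_constExtJ M)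
    (H62.degOne_constExtJ (M * q)) y

/-- `bcJ M ∘ β_*^{ℚ̄} = β_*^{ℂ} ∘ bcJ (M q)`. -/
theorem bcJ_betaPush (y : JZero (M * q)) :
    H80.bcJ M (betaPush (AlgebraicClosure ℚ) M q y) = betaPush ℂ M q (H80.bcJ (M * q) y) :=
  baseChangePic0_betaPush (k := AlgebraicClosure ℚ) (K := ℂ) M q (H62.degOne_constExtJ M)
    (H62.degOne_constExtJ (M * q)) y

end BcJ

/-! ### The Kummer–Poincaré maps as definitions, over `ℂ` and over `ℚ̄` -/

section Lam

attribute [local instance] Fermat.Agent.S29.H85.merAlgebra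

variable (N : ℕ) [NeZero N] {n : ℕ} (hn : 0 < n)

/-- The Kummer–Poincaré map `Lat N → Pic⁰(ℂ F_N)[n]` (the witness of `H85.kummerPoincare`). -/
def lamC : H80.Lat N →+ H80.JL ℂ N := H65.lamW (H85.kummerSetupFinal N hn) hn

theorem lamC_def : lamC N hn = H65.lamW (H85.kummerSetupFinal N hn) hn := rfl

theorem lamC_zsmul (x : H80.Lat N) : (n : ℤ) • lamC N hn x = 0 :=
  H65.lamW_zsmul _ hn x

theorem lamC_eq_zero {x : H80.Lat N} (hx : lamC N hn x = 0) : ∃ y : H80.Lat N, x = (n : ℤ) • y :=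
  H65.lamW_eq_zero _ hn hx

theorem lamC_cohT (ℓ : Nat.Primes) (x : H80.Lat N) :
    lamC N hn (H80.cohT N ℓ x) = H80.TL ℂ N ℓ (lamC N hn x) :=
  H85.lamW_cohT N hn ℓ x

/-- The underlying function of `lamQ`. -/
def lamQFun (x : H80.Lat N) : JZero N :=
  Classical.choose (H80.exists_bcJ_eq_of_torsion N hn (lamC N hn x) (lamC_zsmul N hn x))

theorem bcJ_lamQFun (x : H80.Lat N) : H80.bcJ N (lamQFun N hn x) = lamC N hn x :=
  Classical.choose_spec
    (H80.exists_bcJ_eq_of_torsion N hn (lamC N hn x) (lamC_zsmul N hn x))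

/-- The Kummer–Poincaré map over `ℚ̄` : `bcJ⁻¹ ∘ lamC` (a fixed definition at each level). -/
def lamQ : H80.Lat N →+ JZero N where
  toFun := lamQFun N hn
  map_zero' := by
    apply H80.bcJ_injective N
    rw [bcJ_lamQFun, map_zero, map_zero]
  map_add' x y := by
    apply H80.bcJ_injective N
    rw [map_add, bcJ_lamQFun, bcJ_lamQFun, bcJ_lamQFun, map_add]

/-- The defining property of `lamQ`. -/
theorem bcJ_lamQ (x : H80.Lat N) : H80.bcJ N (lamQ N hn x) = lamC N hn x :=
  bcJ_lamQFun N hn x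

theorem lamQ_zsmul (x : H80.Lat N) : (n : ℤ) • lamQ N hn x = 0 := by
  apply H80.bcJ_injective N
  rw [map_zsmul, bcJ_lamQ, lamC_zsmul, map_zero]

theorem lamQ_nsmul (x : H80.Lat N) : n • lamQ N hn x = 0 := by
  rw [← natCast_zsmul]
  exact lamQ_zsmul N hn x

theorem lamQ_eq_zero {x : H80.Lat N} (hx : lamQ N hn x = 0) : ∃ y : H80.Lat N, x = (n : ℤ) • y := by
  apply lamC_eq_zero N hn
  rw [← bcJ_lamQ, hx, map_zero]

theorem lamQ_cohT (ℓ : Nat.Primes) (x : H80.Lat N) :
    lamQ N hn (H80.cohT N ℓ x) = heckeOperatorBar N ℓ (lamQ N hn x) := by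
  apply H80.bcJ_injective N
  rw [bcJ_lamQ, H80.heckeOperatorBar_eq_TL, H38.bcHecke N ℓ, bcJ_lamQ]
  exact lamC_cohT N hn ℓ x

/-- `lamQ` packaged in the shape of `H80.exists_lam_JZero`. -/
theorem lamQ_spec :
    (∀ x : H80.Lat N, (n : ℤ) • lamQ N hn x = 0) ∧
    (∀ x : H80.Lat N, lamQ N hn x = 0 → ∃ y : H80.Lat N, x = (n : ℤ) • y) ∧
    ∀ (ℓ : Nat.Primes) (x : H80.Lat N),
      lamQ N hn (H80.cohT N ℓ x) = heckeOperatorBar N ℓ (lamQ N hn x) :=
  ⟨lamQ_zsmul N hn, fun _ hx => lamQ_eq_zero N hn hx, lamQ_cohT N hn⟩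

end Lam

/-! ### Transfer `ℂ → ℚ̄` of vanishing / intertwining for `α_*`, `β_*` -/

section Transfer

variable (M q : ℕ) [NeZero M] [NeZero q] {n : ℕ} (hn : 0 < n)

theorem alphaPush_lamQ_eq_zero (x : H80.Lat (M * q))
    (h : alphaPush ℂ M q (lamC (M * q) hn x) = 0) :
    alphaPush (AlgebraicClosure ℚ) M q (lamQ (M * q) hn x) = 0 := by
  apply H80.bcJ_injective M
  rw [bcJ_alphaPush, bcJ_lamQ, h, map_zero]

theorem betaPush_lamQ_eq_zero (x : H80.Lat (M * q))
    (h : betaPush ℂ M q (lamC (M * q) hn x) = 0) :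
    betaPush (AlgebraicClosure ℚ) M q (lamQ (M * q) hn x) = 0 := by
  apply H80.bcJ_injective M
  rw [bcJ_betaPush, bcJ_lamQ, h, map_zero]

theorem alphaPush_lamQ_eq (x : H80.Lat (M * q)) (y : H80.Lat M)
    (h : alphaPush ℂ M q (lamC (M * q) hn x) = lamC M hn y) :
    alphaPush (AlgebraicClosure ℚ) M q (lamQ (M * q) hn x) = lamQ M hn y := by
  apply H80.bcJ_injective M
  rw [bcJ_alphaPush, bcJ_lamQ, h, bcJ_lamQ]

theorem betaPush_lamQ_eq (x : H80.Lat (M * q)) (y : H80.Lat M)
    (h : betaPush ℂ M q (lamC (M * q) hn x) = lamC M hn y) :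
    betaPush (AlgebraicClosure ℚ) M q (lamQ (M * q) hn x) = lamQ M hn y := by
  apply H80.bcJ_injective M
  rw [bcJ_betaPush, bcJ_lamQ, h, bcJ_lamQ]

end Transfer

end Fermat.Agent.S35.H72
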