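/-
S35, row G6 (helper86), bridge: the `Pic⁰`-pushforward `H86.pic0PushAlong` of
`S35/H86_Pushforward.lean` and helper90's `H90.pic0Push` of `S35/H90_NormEquivAbs.lean` are the
same map (both are `QuotientAddGroup.map` of the restricted `Divisor.pushforwardAlong`); likewise
the two norms along `φ`.  Hence `pushAlpha N ℓ`, `pushBeta N ℓ` are `H90.pic0Push` along
`heckeAlphaBar`, `heckeBetaBar` over `Qbar`.
-/
import Mathlib
import Fermat.Agent.S35.H86_Pushforward
import Fermat.Agent.S35.H90_NormEquivAbs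

set_option autoImplicit false

noncomputable section

namespace Fermat.Agent.S35.H86

open AlgebraicCurve ModularCurve

section Generic

variable {K F F' : Type*} [Field K] [Field F] [Field F'] [Algebra K F] [Algebra K F']

theorem degZeroPushAlong_eq_degZeroPush (φ : F →ₐ[K] F') (hφ : φ.toRingHom.IsIntegral) :
    degZeroPushAlong φ hφ = Fermat.Agent.S35.H90.degZeroPush φ hφ := rfl

theorem pic0PushAlong_eq_pic0Push (φ : F →ₐ[K] F') (hφ : φ.toRingHom.IsIntegral)
    (hfin : FiniteAlong K φ) (hN : NormFormulaAlong K φ hfin) :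
    pic0PushAlong φ hφ hfin hN = Fermat.Agent.S35.H90.pic0Push φ hφ hfin hN := rfl

theorem normAlong_eq_normAlong (φ : F →ₐ[K] F') (f : F') :
    normAlong φ f = Fermat.Agent.S29.H65.normAlong φ f := rfl

end Generic

section Modular

local notation "Qb" => AlgebraicClosure ℚ

variable (N ℓ : ℕ) [NeZero N] [NeZero ℓ]

theorem pushAlpha_eq_pic0Push :
    pushAlpha N ℓ = Fermat.Agent.S35.H90.pic0Push (heckeAlphaBar Qb N ℓ)
      (Fermat.Agent.S37.H8.heckeAlphaBarIntegral N ℓ)
      (Fermat.Agent.S37.H8.finiteAlong_heckeAlphaBar N ℓ)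
      (normFormulaAlong_heckeAlphaBar N ℓ) := rfl

theorem pushBeta_eq_pic0Push :
    pushBeta N ℓ = Fermat.Agent.S35.H90.pic0Push (heckeBetaBar Qb N ℓ)
      (Fermat.Agent.S37.H8.heckeBetaBarIntegral N ℓ)
      (Fermat.Agent.S37.H8.finiteAlong_heckeBetaBar N ℓ)
      (normFormulaAlong_heckeBetaBar N ℓ) := rfl

end Modular

end Fermat.Agent.S35.H86
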