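import Mathlib
import Fermat.Agent.S35.H72_BcPush
import Fermat.Agent.S35.H90_VerAB
import Fermat.Agent.S35.H86_PushBridge

/-!
# S35 / row N3, final assembly over `ℚ̄` (helper72)

Glue of helper90's analytic NORM-EQUIV (`H90.lamW_verA`, over `ℂ`), helper86's `ℚ̄`-level
push-forwards `H86.pushAlpha`, `H86.pushBeta` and the base change of `H72_BcPush`:

* `alphaPush_complex_eq`, `betaPush_complex_eq`, `alphaPush_qbar_eq`, `betaPush_qbar_eq` : the three
  vocabularies for `α_*`, `β_*` agree (`rfl`);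
* `pushAlpha_lamQ` : `pushAlpha M q (lamQ (M q) hn x) = lamQ M hn (verA D hq hqM x)` for the
  canonical Kummer–Poincaré maps `lamQ` (definitions, independent of `q`);
* `pushBeta_lamQ_of` : the same for `β` / `verB`, from the `ℂ`-level statement `lamW_verB`;
* `pushAlpha_eq_zero_of_verA_eq_zero`, `pushBeta_eq_zero_of_verB_eq_zero_of` : the kernel form
  consumed by the assembly of S35;
* `push_lam_of_canonical` : the same for ANY `lamN` with `bcJ ∘ lamN = lamW`.
-/

set_option autoImplicit false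
set_option linter.style.haveILetI false
set_option linter.unusedSectionVars false

noncomputable section

namespace Fermat.Agent.S35.H72

open AlgebraicCurve ModularCurve Fermat.Agent.S29
open Fermat.Agent.S41.H72 (ALData)

attribute [local instance] Fermat.Agent.S29.H85.merAlgebra

/-! ### The vocabularies agree -/

section Vocab

variable (M q : ℕ) [NeZero M] [NeZero q]

theorem alphaPush_complex_eq : alphaPush ℂ M q = H90.alphaPush M q := rfl

theorem betaPush_complex_eq : betaPush ℂ M q = H90.betaPush M q := rfl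

theorem alphaPush_qbar_eq : alphaPush (AlgebraicClosure ℚ) M q = H86.pushAlpha M q := rfl

theorem betaPush_qbar_eq : betaPush (AlgebraicClosure ℚ) M q = H86.pushBeta M q := rfl

end Vocab

/-! ### NORM-EQUIV over `ℚ̄` for the canonical maps `lamQ` -/

section Main

variable {M q : ℕ} [NeZero M]

/-- **NORM-EQUIV for `α` over `ℚ̄`**: `α_* (lamQ_{Mq} x) = lamQ_M (Ver_A x)`. -/
theorem pushAlpha_lamQ (D : ALData M q) (hq : q.Prime) (hqM : ¬ q ∣ M) {n : ℕ} (hn : 0 < n)
    (x : H80.Lat (M * q)) :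
    haveI : NeZero q := ⟨hq.ne_zero⟩
    H86.pushAlpha M q (lamQ (M * q) hn x) = lamQ M hn (H90.verA D hq hqM x) := by
  haveI : NeZero q := ⟨hq.ne_zero⟩
  rw [← alphaPush_qbar_eq]
  refine alphaPush_lamQ_eq M q hn x _ ?_
  rw [alphaPush_complex_eq]
  exact (H90.lamW_verA D hq hqM hn x).symm

/-- **NORM-EQUIV for `β` over `ℚ̄`** from the `ℂ`-level statement (helper90's `lamW_verB`). -/
theorem pushBeta_lamQ_of (D : ALData M q) (hq : q.Prime) (hqM : ¬ q ∣ M) {n : ℕ} (hn : 0 < n)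
    (hB : haveI : NeZero q := ⟨hq.ne_zero⟩
      ∀ x : H80.Lat (M * q), H65.lamW (H85.kummerSetupFinal M hn) hn (H90.verB D hq hqM x)
        = H90.betaPush M q (H65.lamW (H85.kummerSetupFinal (M * q) hn) hn x))
    (x : H80.Lat (M * q)) :
    haveI : NeZero q := ⟨hq.ne_zero⟩
    H86.pushBeta M q (lamQ (M * q) hn x) = lamQ M hn (H90.verB D hq hqM x) := by
  haveI : NeZero q := ⟨hq.ne_zero⟩
  rw [← betaPush_qbar_eq]
  refine betaPush_lamQ_eq M q hn x _ ?_
  rw [betaPush_complex_eq]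
  exact (hB x).symm

/-- Kernel form for `α` (the shape consumed by the S35 assembly). -/
theorem pushAlpha_eq_zero_of_verA_eq_zero (D : ALData M q) (hq : q.Prime) (hqM : ¬ q ∣ M)
    {n : ℕ} (hn : 0 < n) (x : H80.Lat (M * q))
    (hx : haveI : NeZero q := ⟨hq.ne_zero⟩
      H90.verA D hq hqM x = 0) :
    haveI : NeZero q := ⟨hq.ne_zero⟩
    H86.pushAlpha M q (lamQ (M * q) hn x) = 0 := by
  haveI : NeZero q := ⟨hq.ne_zero⟩
  rw [pushAlpha_lamQ D hq hqM hn x, hx, map_zero]

/-- Kernel form for `β` (from the `ℂ`-level statement `lamW_verB`). -/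
theorem pushBeta_eq_zero_of_verB_eq_zero_of (D : ALData M q) (hq : q.Prime) (hqM : ¬ q ∣ M)
    {n : ℕ} (hn : 0 < n)
    (hB : haveI : NeZero q := ⟨hq.ne_zero⟩
      ∀ x : H80.Lat (M * q), H65.lamW (H85.kummerSetupFinal M hn) hn (H90.verB D hq hqM x)
        = H90.betaPush M q (H65.lamW (H85.kummerSetupFinal (M * q) hn) hn x))
    (x : H80.Lat (M * q))
    (hx : haveI : NeZero q := ⟨hq.ne_zero⟩
      H90.verB D hq hqM x = 0) :
    haveI : NeZero q := ⟨hq.ne_zero⟩
    H86.pushBeta M q (lamQ (M * q) hn x) = 0 := by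
  haveI : NeZero q := ⟨hq.ne_zero⟩
  rw [pushBeta_lamQ_of D hq hqM hn hB x, hx, map_zero]

/-- Any `lamN` with `bcJ ∘ lamN = lamW` IS `lamQ`. -/
theorem eq_lamQ_of_canonical (N : ℕ) [NeZero N] {n : ℕ} (hn : 0 < n)
    (lamN : H80.Lat N →+ JZero N)
    (hcan : ∀ x, H80.bcJ N (lamN x) = H65.lamW (H85.kummerSetupFinal N hn) hn x) :
    lamN = lamQ N hn := by
  refine AddMonoidHom.ext fun x => H80.bcJ_injective N ?_
  rw [hcan, bcJ_lamQ]
  rfl

/-- helper57's shape (#2789 (1)), `α`-half unconditional, `β`-half from `lamW_verB`. -/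
theorem push_lam_of_canonical (D : ALData M q) (hq : q.Prime) (hqM : ¬ q ∣ M) {n : ℕ}
    (hn : 0 < n)
    (hB : haveI : NeZero q := ⟨hq.ne_zero⟩
      ∀ x : H80.Lat (M * q), H65.lamW (H85.kummerSetupFinal M hn) hn (H90.verB D hq hqM x)
        = H90.betaPush M q (H65.lamW (H85.kummerSetupFinal (M * q) hn) hn x))
    (lamN : haveI : NeZero q := ⟨hq.ne_zero⟩
      H80.Lat (M * q) →+ JZero (M * q))
    (hcan : haveI : NeZero q := ⟨hq.ne_zero⟩
      ∀ x, H80.bcJ (M * q) (lamN x) = H65.lamW (H85.kummerSetupFinal (M * q) hn) hn x) :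
    haveI : NeZero q := ⟨hq.ne_zero⟩
    ∃ lamM : H80.Lat M →+ JZero M,
      (∀ x, H86.pushAlpha M q (lamN x) = lamM (H90.verA D hq hqM x)) ∧
      (∀ x, H86.pushBeta M q (lamN x) = lamM (H90.verB D hq hqM x)) := by
  haveI : NeZero q := ⟨hq.ne_zero⟩
  have h := eq_lamQ_of_canonical (M * q) hn lamN hcan
  subst h
  exact ⟨lamQ M hn, pushAlpha_lamQ D hq hqM hn, pushBeta_lamQ_of D hq hqM hn hB⟩

end Main

end Fermat.Agent.S35.H72
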