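/-
S35 / row N4, complex half (helper85): a simultaneous eigenvector of the `T_ℓ` (`ℓ` in a set of
primes prime to the level) in `H¹_par(Γ₀(M), ℂ)` produces a NORMALISED EIGENFORM of level `M` with
the same eigenvalues.

Assembly of landed assets: the Hecke-equivariant Eichler–Shimura isomorphism `S41.H85.esEquiv`
(from S21), the common-eigenvector lemma `S49.H70.exists_eigenvector`, the normalisation lemma
`S49.H90.isNormalizedEigenform_of_eigen`, `S23.H70.finiteDimensional_cuspForm`.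

Consequence: `GoodEigensystemOccursAt g M` from an eigenvector of level `M` with the good
eigenvalues of `g`.
-/
import Mathlib
import Fermat.Prelude.Def_CuspForm_HeckeAlgebra
import Fermat.Prelude.Def_CuspForm_Newforms
import Fermat.Agent.S23.H70_FiniteDim
import Fermat.Agent.S49.H70_Algebra
import Fermat.Agent.S49.H90_Normalize
import Fermat.Agent.S41.H85_HeckeModule

set_option autoImplicit false
set_option linter.unusedSectionVars false
set_option linter.style.haveILetI false

open CongruenceSubgroup ModularFormClass UpperHalfPlane ModularCurve ModularCurve.Period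

noncomputable section

namespace Fermat.Agent.S35.H85

open Fermat.Agent.S41.H85

variable {M : ℕ} [NeZero M]

/-- The simultaneous eigenspace of the `T_ℓ`, `ℓ ∤ M` prime with `P ℓ`, for the eigenvalues `c ℓ`. -/
def eigSpace (M : ℕ) [NeZero M] (P : ℕ → Prop) (c : ℕ → ℂ) :
    Submodule ℂ (CuspForm (Gamma0 M) 2) where
  carrier := {f | ∀ (l : ℕ) (hl : l.Prime) (hlM : ¬ l ∣ M), P l →
    CuspForm.heckeTLin 2 hl hlM f = c l • f}
  add_mem' := by
    intro f g hf hg l hl hlM hP
    rw [map_add, hf l hl hlM hP, hg l hl hlM hP, smul_add]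
  zero_mem' := by
    intro l hl hlM _
    rw [map_zero, smul_zero]
  smul_mem' := by
    intro a f hf l hl hlM hP
    rw [map_smul, hf l hl hlM hP, smul_comm]

theorem mem_eigSpace {P : ℕ → Prop} {c : ℕ → ℂ} {f : CuspForm (Gamma0 M) 2} :
    f ∈ eigSpace M P c ↔ ∀ (l : ℕ) (hl : l.Prime) (hlM : ¬ l ∣ M), P l →
      CuspForm.heckeTLin 2 hl hlM f = c l • f := Iff.rfl

/-- The full Hecke algebra preserves the eigenspace. -/
theorem map_mem_eigSpace {P : ℕ → Prop} {c : ℕ → ℂ} (T : CuspForm.heckeAlgebra M 2 ∅)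
    {f : CuspForm (Gamma0 M) 2} (hf : f ∈ eigSpace M P c) :
    (T : Module.End ℂ (CuspForm (Gamma0 M) 2)) f ∈ eigSpace M P c := by
  intro l hl hlM hP
  have hcomm : (CuspForm.heckeAlgebra.T hl hlM (Set.notMem_empty l) : CuspForm.heckeAlgebra M 2 ∅) * T
      = T * CuspForm.heckeAlgebra.T hl hlM (Set.notMem_empty l) := mul_comm _ _
  have h2 := congrArg (fun X : CuspForm.heckeAlgebra M 2 ∅ =>
    (X : Module.End ℂ (CuspForm (Gamma0 M) 2)) f) hcomm
  simp only [MulMemClass.coe_mul, CuspForm.heckeAlgebra.coe_T, Module.End.mul_apply] at h2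
  rw [h2, hf l hl hlM hP, map_smul]

/-- The action of the full Hecke algebra on the eigenspace. -/
def eigRep (M : ℕ) [NeZero M] (P : ℕ → Prop) (c : ℕ → ℂ) :
    CuspForm.heckeAlgebra M 2 ∅ →+* Module.End ℂ (eigSpace M P c) where
  toFun T := (T : Module.End ℂ (CuspForm (Gamma0 M) 2)).restrict
    (fun _ hf => map_mem_eigSpace T hf)
  map_one' := by ext; rfl
  map_mul' _ _ := by ext; rfl
  map_zero' := by ext; rfl
  map_add' _ _ := by ext; rfl

theorem coe_eigRep_apply {P : ℕ → Prop} {c : ℕ → ℂ} (T : CuspForm.heckeAlgebra M 2 ∅)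
    (v : eigSpace M P c) :
    ((eigRep M P c T v : eigSpace M P c) : CuspForm (Gamma0 M) 2) =
      (T : Module.End ℂ (CuspForm (Gamma0 M) 2)) v := rfl

/-- A nonzero simultaneous eigenspace contains (a multiple of) a normalised eigenform. -/
theorem exists_isNormalizedEigenform_of_eigSpace_ne_bot {P : ℕ → Prop} {c : ℕ → ℂ}
    (hE : eigSpace M P c ≠ ⊥) :
    ∃ h : CuspForm (Gamma0 M) 2, h.IsNormalizedEigenform ∧
      ∀ l : ℕ, l.Prime → ¬ l ∣ M → P l → qCoeff h l = c l := by
  haveI hfd : FiniteDimensional ℂ (CuspForm (Gamma0 M) 2) :=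
    Fermat.Agent.S23.H70.finiteDimensional_cuspForm M 2
  haveI : Nontrivial (eigSpace M P c) := (Submodule.nontrivial_iff_ne_bot).mpr hE
  -- a maximal ideal above the kernel of the action
  have hker : RingHom.ker (eigRep M P c) ≠ ⊤ := by
    intro h
    have h1 : (1 : CuspForm.heckeAlgebra M 2 ∅) ∈ RingHom.ker (eigRep M P c) := by
      rw [h]; exact Submodule.mem_top
    rw [RingHom.mem_ker, map_one] at h1
    obtain ⟨v, hv⟩ := exists_ne (0 : eigSpace M P c)
    apply hv
    have := congrArg (fun F : Module.End ℂ (eigSpace M P c) => F v) h1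
    simpa using this
  obtain ⟨𝔫, h𝔫max, h𝔫⟩ := Ideal.exists_le_maximal _ hker
  haveI : 𝔫.IsPrime := h𝔫max.isPrime
  obtain ⟨v, lam, hv, heig, -⟩ :=
    Fermat.Agent.S49.H70.exists_eigenvector (eigRep M P c) 𝔫 h𝔫
  set g0 : CuspForm (Gamma0 M) 2 := (v : CuspForm (Gamma0 M) 2) with hg0
  have hg0mem : g0 ∈ eigSpace M P c := v.2
  have hg0ne : g0 ≠ 0 := fun h => hv (Subtype.ext h)
  have heig' : ∀ T : CuspForm.heckeAlgebra M 2 ∅,
      (T : Module.End ℂ (CuspForm (Gamma0 M) 2)) g0 = lam T • g0 := by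
    intro T
    have := congrArg (fun w : eigSpace M P c => (w : CuspForm (Gamma0 M) 2)) (heig T)
    simpa [coe_eigRep_apply] using this
  let lam' : ℕ → ℂ := fun l =>
    if h : l.Prime then
      (if hM : l ∣ M then lam (CuspForm.heckeAlgebra.U h hM (Set.notMem_empty l))
        else lam (CuspForm.heckeAlgebra.T h hM (Set.notMem_empty l)))
    else 0
  have hT : ∀ (l : ℕ) (hl : l.Prime) (hlM : ¬ l ∣ M),
      CuspForm.heckeTLin 2 hl hlM g0 = lam' l • g0 := by
    intro l hl hlM
    have h1 := heig' (CuspForm.heckeAlgebra.T hl hlM (Set.notMem_empty l))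
    rw [CuspForm.heckeAlgebra.coe_T] at h1
    rw [h1]
    simp only [lam', dif_pos hl, dif_neg hlM]
  have hU : ∀ (r : ℕ) (_ : r.Prime) (hrM : r ∣ M),
      CuspForm.heckeULin 2 hrM g0 = lam' r • g0 := by
    intro r hr hrM
    have h1 := heig' (CuspForm.heckeAlgebra.U hr hrM (Set.notMem_empty r))
    rw [CuspForm.heckeAlgebra.coe_U] at h1
    rw [h1]
    simp only [lam', dif_pos hr, dif_pos hrM]
  obtain ⟨-, hnorm, hcoeff⟩ :=
    Fermat.Agent.S49.H90.isNormalizedEigenform_of_eigen g0 hg0ne lam' hT hU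
  refine ⟨(qCoeff g0 1)⁻¹ • g0, hnorm, ?_⟩
  intro l hl hlM hP
  rw [hcoeff l hl]
  -- `lam' l = c l` since `g0` lies in the eigenspace
  have h1 := hT l hl hlM
  rw [hg0mem l hl hlM hP] at h1
  exact (smul_left_injective ℂ hg0ne h1).symm

/-- **Row N4, complex half.**  A nonzero simultaneous eigenvector of the cohomological `T_ℓ` in
`H¹_par(Γ₀(M), ℂ)` gives a normalised eigenform of level `M` with the same eigenvalues. -/
theorem exists_isNormalizedEigenform_of_parabolic_eigenvector (P : ℕ → Prop) (c : ℕ → ℂ)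
    (v : parabolicHoms ℂ (Gamma0 M) ℂ) (hv : v ≠ 0)
    (heig : ∀ (l : ℕ) (hl : l.Prime) (hlM : ¬ l ∣ M), P l →
      heckeTPar ℂ ℂ hl hlM v = c l • v) :
    ∃ h : CuspForm (Gamma0 M) 2, h.IsNormalizedEigenform ∧
      ∀ l : ℕ, l.Prime → ¬ l ∣ M → P l → qCoeff h l = c l := by
  apply exists_isNormalizedEigenform_of_eigSpace_ne_bot
  set x := (esEquiv M).symm v with hx
  have hxv : esEquiv M x = v := (esEquiv M).apply_symm_apply v
  have hx0 : x ≠ 0 := by
    intro h0
    apply hv
    rw [← hxv, h0, map_zero]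
  have hboth : ∀ (l : ℕ) (hl : l.Prime) (hlM : ¬ l ∣ M), P l →
      (CuspForm.heckeTLin 2 hl hlM).prodMap (CuspForm.heckeTLin 2 hl hlM) x = c l • x := by
    intro l hl hlM hP
    apply (esEquiv M).injective
    rw [esEquiv_heckeTLin hl hlM x, hxv, heig l hl hlM hP, map_smul, hxv]
  have h1 : x.1 ∈ eigSpace M P c := fun l hl hlM hP =>
    congrArg Prod.fst (hboth l hl hlM hP)
  have h2 : x.2 ∈ eigSpace M P c := fun l hl hlM hP =>
    congrArg Prod.snd (hboth l hl hlM hP)
  intro hbot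
  apply hx0
  rw [hbot, Submodule.mem_bot] at h1 h2
  exact Prod.ext h1 h2

/-- **Consequence**: the good eigensystem of `g` (level `N`) occurs at the level `M ∣ N` as soon
as `H¹_par(Γ₀(M), ℂ)` contains a nonzero eigenvector with the eigenvalues `a_ℓ(g)`, `ℓ ∤ N`. -/
theorem goodEigensystemOccursAt_of_parabolic_eigenvector {N : ℕ} (hMN : M ∣ N)
    (g : CuspForm (Gamma0 N) 2) (v : parabolicHoms ℂ (Gamma0 M) ℂ) (hv : v ≠ 0)
    (heig : ∀ (l : ℕ) (hl : l.Prime) (hlM : ¬ l ∣ M), ¬ l ∣ N →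
      heckeTPar ℂ ℂ hl hlM v = qCoeff g l • v) :
    g.GoodEigensystemOccursAt M := by
  obtain ⟨h, hh, hcoeff⟩ :=
    exists_isNormalizedEigenform_of_parabolic_eigenvector (fun l => ¬ l ∣ N)
      (fun l => qCoeff g l) v hv heig
  exact ⟨h, hh, fun l hl hlN => hcoeff l hl (fun hlM => hlN (hlM.trans hMN)) hlN⟩

end Fermat.Agent.S35.H85
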