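/-
S35 / row N4, descent half (helper85).

`Lat M = parabolicHoms ℤ Γ₀(M) ℤ`.  A nonzero simultaneous eigenvector of the `T_ℓ` (`ℓ ∤ N` prime,
`M ∣ N`) in `K ⊗[ℤ] Lat M`, `K` ANY integral domain, whose eigenvalues are the images `j r_ℓ` of
elements `r_ℓ` of a ring `R` under an INJECTIVE ring hom `j : R →+* K`, and such that
`i r_ℓ = a_ℓ(g)` for a ring hom `i : R →+* ℂ`, forces the good eigensystem of `g` to occur at the
level `M`:

* `latC M : ℂ ⊗[ℤ] Lat M →ₗ[ℂ] parabolicHoms ℂ Γ₀(M) ℂ`, injective, Hecke-equivariant;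
* `exists_eigenvalue_tensor`, `tensorEigenChar` : the `R`-valued eigencharacter of the Hecke algebra
  `heckeAlgebra M 2 S` attached to the eigenvector;
* `goodEigensystemOccursAt_of_tensor_eigenvector` : the statement above;
* `eq_zero_of_isNewform_of_tensor_eigenvector` : for `g` a NEWFORM of level `N` and `M ≠ N` such an
  eigenvector is `0`.

No Galois conjugation of forms is needed: the character `i ∘ χ_R` of the faithful Hecke algebra
occurs in `ℂ ⊗ Lat M` by `S30.H10.exists_eigenvector_domain`.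
-/
import Mathlib
import Fermat.Agent.S30.H10_SupportEigenO
import Fermat.Agent.S35.H85_OldEigen

set_option autoImplicit false
set_option linter.unusedSectionVars false

open CongruenceSubgroup ModularFormClass UpperHalfPlane ModularCurve ModularCurve.Period
open scoped TensorProduct

noncomputable section

namespace Fermat.Agent.S35.H85

open Fermat.Agent.S41.H85

/-! ### `ℂ ⊗ Lat M → H¹_par(Γ₀(M), ℂ)` -/

section latC

variable (M : ℕ)

/-- The `ℂ`-linear map `ℂ ⊗[ℤ] Lat M → parabolicHoms ℂ Γ₀(M) ℂ`, `c ⊗ φ ↦ c • φ`. -/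
def latC : ℂ ⊗[ℤ] parabolicHoms ℤ (Gamma0 M) ℤ →ₗ[ℂ] parabolicHoms ℂ (Gamma0 M) ℂ :=
  LinearMap.liftBaseChange ℂ (parabolicBC M)

@[simp] theorem latC_tmul (c : ℂ) (φ : parabolicHoms ℤ (Gamma0 M) ℤ) :
    latC M (c ⊗ₜ[ℤ] φ) = c • parabolicBC M φ :=
  LinearMap.liftBaseChange_tmul ℂ (parabolicBC M) c φ

theorem latC_injective [NeZero M] : Function.Injective (latC M) := by
  classical
  have hFG : Group.FG (Gamma0 M) := Fermat.Agent.S22.H82.groupFG_Gamma0 M
  obtain ⟨S, hS⟩ := Group.fg_def.mp hFG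
  have hcl : Subgroup.closure (Set.range (fun s : S => (s : Gamma0 M))) = ⊤ := by
    rw [Subtype.range_coe_subtype]
    simpa using hS
  set g : S → Gamma0 M := fun s => (s : Gamma0 M) with hg
  -- evaluation at the generators, on the lattice
  set e : parabolicHoms ℤ (Gamma0 M) ℤ →ₗ[ℤ] (S → ℤ) :=
    (evalAt g) ∘ₗ (parabolicHoms ℤ (Gamma0 M) ℤ).subtype with he
  have he_inj : Function.Injective e := by
    intro x y hxy
    exact Subtype.ext (evalAt_injective g hcl hxy)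
  have hflat : Function.Injective (LinearMap.lTensor ℂ e) :=
    Module.Flat.lTensor_preserves_injective_linearMap e he_inj
  have key : ∀ x : ℂ ⊗[ℤ] parabolicHoms ℤ (Gamma0 M) ℤ,
      TensorProduct.piScalarRight ℤ ℂ ℂ S (LinearMap.lTensor ℂ e x)
        = fun s => (latC M x).1 (Additive.ofMul (g s)) := by
    intro x
    induction x using TensorProduct.induction_on with
    | zero =>
      rw [map_zero, map_zero, map_zero]
      rfl
    | tmul c φ =>
      rw [LinearMap.lTensor_tmul, TensorProduct.piScalarRight_apply,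
        TensorProduct.piScalarRightHom_tmul, latC_tmul]
      funext s
      show (e φ s) • c = c • ((parabolicBC M φ).1 (Additive.ofMul (g s)))
      rw [parabolicBC_apply, zsmul_eq_mul, smul_eq_mul, mul_comm]
      rfl
    | add x y hx hy =>
      rw [map_add, map_add, hx, hy, map_add]
      rfl
  intro x y hxy
  apply hflat
  apply (TensorProduct.piScalarRight ℤ ℂ ℂ S).injective
  rw [key x, key y, hxy]

variable {M} {l : ℕ}

/-- `latC` is equivariant for the cohomological `T_ℓ`. -/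
theorem latC_heckeTPar (hl : l.Prime) (hlM : ¬ l ∣ M)
    (x : ℂ ⊗[ℤ] parabolicHoms ℤ (Gamma0 M) ℤ) :
    latC M ((heckeTPar ℤ ℤ hl hlM).baseChange ℂ x) = heckeTPar ℂ ℂ hl hlM (latC M x) := by
  induction x using TensorProduct.induction_on with
  | zero => simp
  | tmul c φ =>
    rw [LinearMap.baseChange_tmul, latC_tmul, latC_tmul, map_smul, parabolicBC_heckeTPar]
  | add x y hx hy => rw [map_add, map_add, hx, hy, map_add, map_add]

end latC

/-! ### The eigencharacter of an eigenvector in `K ⊗ Lat M` -/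

section eigenChar

variable {M : ℕ} [NeZero M] {K R : Type*} [CommRing K] [CommRing R]

/-- The eigen-predicate: `t` acts on `u` through a scalar of `j(R)`. -/
def IsEigAt (j : R →+* K) (S : Set ℕ) (u : K ⊗[ℤ] parabolicHoms ℤ (Gamma0 M) ℤ)
    (t : CuspForm.heckeAlgebra M 2 S) : Prop :=
  ∃ r : R, ((cohHeckeRep M S t).baseChange K : _ →ₗ[K] _) u = j r • u

theorem IsEigAt.add {j : R →+* K} {S : Set ℕ} {u : K ⊗[ℤ] parabolicHoms ℤ (Gamma0 M) ℤ}
    {s t : CuspForm.heckeAlgebra M 2 S} (hs : IsEigAt j S u s) (ht : IsEigAt j S u t) :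
    IsEigAt j S u (s + t) := by
  obtain ⟨c, hc⟩ := hs
  obtain ⟨c', hc'⟩ := ht
  refine ⟨c + c', ?_⟩
  rw [map_add, LinearMap.baseChange_add, LinearMap.add_apply, hc, hc', map_add, add_smul]

theorem IsEigAt.mul {j : R →+* K} {S : Set ℕ} {u : K ⊗[ℤ] parabolicHoms ℤ (Gamma0 M) ℤ}
    {s t : CuspForm.heckeAlgebra M 2 S} (hs : IsEigAt j S u s) (ht : IsEigAt j S u t) :
    IsEigAt j S u (s * t) := by
  obtain ⟨c, hc⟩ := hs
  obtain ⟨c', hc'⟩ := ht
  refine ⟨c * c', ?_⟩
  have hcomp : ((cohHeckeRep M S (s * t)).baseChange K : _ →ₗ[K] _)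
      = ((cohHeckeRep M S s).baseChange K) ∘ₗ ((cohHeckeRep M S t).baseChange K) := by
    rw [map_mul, Module.End.mul_eq_comp, LinearMap.baseChange_comp]
  rw [hcomp, LinearMap.comp_apply, hc', LinearMap.map_smul, hc, smul_smul, map_mul, mul_comm]

theorem IsEigAt.intCast (j : R →+* K) (S : Set ℕ) (u : K ⊗[ℤ] parabolicHoms ℤ (Gamma0 M) ℤ)
    (n : ℤ) : IsEigAt j S u (n : CuspForm.heckeAlgebra M 2 S) := by
  refine ⟨(n : R), ?_⟩
  rw [map_intCast, map_intCast]
  have h2 : ((n : Module.End ℤ (parabolicHoms ℤ (Gamma0 M) ℤ))) =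
      n • (LinearMap.id : parabolicHoms ℤ (Gamma0 M) ℤ →ₗ[ℤ] _) := by
    ext x
    simp
  rw [h2, LinearMap.baseChange_smul, LinearMap.baseChange_id]
  simp [Int.cast_smul_eq_zsmul]

/-- If `u` is an eigenvector of the generators `T_ℓ`, `U_q` of `heckeAlgebra M 2 S` with
eigenvalues in `j(R)`, it is an eigenvector of the whole algebra, with eigenvalues in `j(R)`. -/
theorem exists_eigenvalue_tensor (j : R →+* K) (S : Set ℕ)
    (u : K ⊗[ℤ] parabolicHoms ℤ (Gamma0 M) ℤ)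
    (hT : ∀ (l : ℕ) (hl : l.Prime) (hlM : ¬ l ∣ M), l ∉ S →
      ∃ r : R, (heckeTPar ℤ ℤ hl hlM).baseChange K u = j r • u)
    (hU : ∀ (q : ℕ) (hq : q.Prime) (hqM : q ∣ M), q ∉ S →
      ∃ r : R, (haveI : NeZero q := ⟨hq.ne_zero⟩
        (heckeUPar ℤ ℤ hqM).baseChange K u) = j r • u)
    (t : CuspForm.heckeAlgebra M 2 S) : IsEigAt j S u t := by
  obtain ⟨t, ht⟩ := t
  induction ht using Algebra.adjoin_induction with
  | mem T hT' =>
    rcases hT' with ⟨ℓ, hℓ, hℓN, hℓS, rfl⟩ | ⟨q, hqN, hq, hqS, rfl⟩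
    · obtain ⟨r, hr⟩ := hT ℓ hℓ hℓN hℓS
      refine ⟨r, ?_⟩
      have h1 : cohHeckeRep M S ⟨CuspForm.heckeTLin 2 hℓ hℓN, Algebra.subset_adjoin
          (Or.inl ⟨ℓ, hℓ, hℓN, hℓS, rfl⟩)⟩ = heckeTPar ℤ ℤ hℓ hℓN :=
        cohHeckeRep_T hℓ hℓN hℓS
      rw [h1]
      exact hr
    · obtain ⟨r, hr⟩ := hU q hq hqN hqS
      refine ⟨r, ?_⟩
      have : NeZero q := ⟨hq.ne_zero⟩
      have h1 : cohHeckeRep M S ⟨CuspForm.heckeULin 2 hqN, Algebra.subset_adjoin
          (Or.inr ⟨q, hqN, hq, hqS, rfl⟩)⟩ = heckeUPar ℤ ℤ hqN :=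
        cohHeckeRep_U hq hqN hqS
      rw [h1]
      exact hr
  | algebraMap n =>
    have h1 : (⟨algebraMap ℤ _ n, Subalgebra.algebraMap_mem _ n⟩ : CuspForm.heckeAlgebra M 2 S)
        = ((n : ℤ) : CuspForm.heckeAlgebra M 2 S) := by
      apply Subtype.ext
      simp
    have h2 := IsEigAt.intCast j S u n
    rw [← h1] at h2
    exact h2
  | add T T' hT1 hT2 ihT ihT' =>
    exact IsEigAt.add (s := ⟨T, hT1⟩) (t := ⟨T', hT2⟩) ihT ihT'
  | mul T T' hT1 hT2 ihT ihT' =>
    exact IsEigAt.mul (s := ⟨T, hT1⟩) (t := ⟨T', hT2⟩) ihT ihT'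

end eigenChar

/-! ### The `R`-valued eigencharacter, and the descent to `ℂ` -/

section main

variable {M : ℕ} [NeZero M] {K R : Type*} [CommRing K] [IsDomain K] [CommRing R]

theorem eig_unique {j : R →+* K} (hj : Function.Injective j)
    {u : K ⊗[ℤ] parabolicHoms ℤ (Gamma0 M) ℤ} (hu : u ≠ 0) {r r' : R}
    (h : j r • u = j r' • u) : r = r' := by
  apply hj
  have h1 : (j r - j r') • u = 0 := by rw [sub_smul, h, sub_self]
  rcases smul_eq_zero.mp h1 with h2 | h2
  · exact sub_eq_zero.mp h2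
  · exact absurd h2 hu

theorem eig_add {j : R →+* K} {S : Set ℕ} {u : K ⊗[ℤ] parabolicHoms ℤ (Gamma0 M) ℤ}
    {s t : CuspForm.heckeAlgebra M 2 S} {a b : R}
    (hs : ((cohHeckeRep M S s).baseChange K : _ →ₗ[K] _) u = j a • u)
    (ht : ((cohHeckeRep M S t).baseChange K : _ →ₗ[K] _) u = j b • u) :
    ((cohHeckeRep M S (s + t)).baseChange K : _ →ₗ[K] _) u = j (a + b) • u := by
  rw [map_add, LinearMap.baseChange_add, LinearMap.add_apply, hs, ht, map_add, add_smul]

theorem eig_mul {j : R →+* K} {S : Set ℕ} {u : K ⊗[ℤ] parabolicHoms ℤ (Gamma0 M) ℤ}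
    {s t : CuspForm.heckeAlgebra M 2 S} {a b : R}
    (hs : ((cohHeckeRep M S s).baseChange K : _ →ₗ[K] _) u = j a • u)
    (ht : ((cohHeckeRep M S t).baseChange K : _ →ₗ[K] _) u = j b • u) :
    ((cohHeckeRep M S (s * t)).baseChange K : _ →ₗ[K] _) u = j (a * b) • u := by
  have hcomp : ((cohHeckeRep M S (s * t)).baseChange K : _ →ₗ[K] _)
      = ((cohHeckeRep M S s).baseChange K) ∘ₗ ((cohHeckeRep M S t).baseChange K) := by
    rw [map_mul, Module.End.mul_eq_comp, LinearMap.baseChange_comp]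
  rw [hcomp, LinearMap.comp_apply, ht, LinearMap.map_smul, hs, smul_smul, map_mul, mul_comm]

theorem eig_one (j : R →+* K) (S : Set ℕ) (u : K ⊗[ℤ] parabolicHoms ℤ (Gamma0 M) ℤ) :
    ((cohHeckeRep M S 1).baseChange K : _ →ₗ[K] _) u = j 1 • u := by
  rw [map_one, map_one, one_smul, Module.End.one_eq_id, LinearMap.baseChange_id,
    LinearMap.id_apply]

theorem eig_zero (j : R →+* K) (S : Set ℕ) (u : K ⊗[ℤ] parabolicHoms ℤ (Gamma0 M) ℤ) :
    ((cohHeckeRep M S 0).baseChange K : _ →ₗ[K] _) u = j 0 • u := by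
  rw [map_zero, map_zero, zero_smul, LinearMap.baseChange_zero, LinearMap.zero_apply]

/-- The eigenvalue (in `R`) of `t` on `u`. -/
def eigVal {j : R →+* K} {S : Set ℕ} {u : K ⊗[ℤ] parabolicHoms ℤ (Gamma0 M) ℤ}
    (hall : ∀ t : CuspForm.heckeAlgebra M 2 S, IsEigAt j S u t)
    (t : CuspForm.heckeAlgebra M 2 S) : R :=
  Classical.choose (hall t)

theorem eigVal_spec {j : R →+* K} {S : Set ℕ} {u : K ⊗[ℤ] parabolicHoms ℤ (Gamma0 M) ℤ}
    (hall : ∀ t : CuspForm.heckeAlgebra M 2 S, IsEigAt j S u t)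
    (t : CuspForm.heckeAlgebra M 2 S) :
    ((cohHeckeRep M S t).baseChange K : _ →ₗ[K] _) u = j (eigVal hall t) • u :=
  Classical.choose_spec (hall t)

theorem eigVal_eq {j : R →+* K} (hj : Function.Injective j) {S : Set ℕ}
    {u : K ⊗[ℤ] parabolicHoms ℤ (Gamma0 M) ℤ} (hu : u ≠ 0)
    (hall : ∀ t : CuspForm.heckeAlgebra M 2 S, IsEigAt j S u t)
    (t : CuspForm.heckeAlgebra M 2 S) {r : R}
    (hr : ((cohHeckeRep M S t).baseChange K : _ →ₗ[K] _) u = j r • u) :
    eigVal hall t = r :=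
  eig_unique hj hu ((eigVal_spec hall t).symm.trans hr)

/-- The `R`-valued eigencharacter of the Hecke algebra `heckeAlgebra M 2 S` attached to an
eigenvector `u ≠ 0` of its generators with eigenvalues in `j(R)`, `j` injective. -/
def tensorEigenChar (j : R →+* K) (hj : Function.Injective j) (S : Set ℕ)
    (u : K ⊗[ℤ] parabolicHoms ℤ (Gamma0 M) ℤ) (hu : u ≠ 0)
    (hall : ∀ t : CuspForm.heckeAlgebra M 2 S, IsEigAt j S u t) :
    CuspForm.heckeAlgebra M 2 S →+* R where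
  toFun t := eigVal hall t
  map_one' := eigVal_eq hj hu hall 1 (eig_one j S u)
  map_mul' s t := eigVal_eq hj hu hall (s * t) (eig_mul (eigVal_spec hall s) (eigVal_spec hall t))
  map_zero' := eigVal_eq hj hu hall 0 (eig_zero j S u)
  map_add' s t := eigVal_eq hj hu hall (s + t) (eig_add (eigVal_spec hall s) (eigVal_spec hall t))

theorem tensorEigenChar_spec (j : R →+* K) (hj : Function.Injective j) (S : Set ℕ)
    (u : K ⊗[ℤ] parabolicHoms ℤ (Gamma0 M) ℤ) (hu : u ≠ 0)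
    (hall : ∀ t : CuspForm.heckeAlgebra M 2 S, IsEigAt j S u t)
    (t : CuspForm.heckeAlgebra M 2 S) :
    ((cohHeckeRep M S t).baseChange K : _ →ₗ[K] _) u = j (tensorEigenChar j hj S u hu hall t) • u :=
  eigVal_spec hall t

theorem tensorEigenChar_eq (j : R →+* K) (hj : Function.Injective j) (S : Set ℕ)
    (u : K ⊗[ℤ] parabolicHoms ℤ (Gamma0 M) ℤ) (hu : u ≠ 0)
    (hall : ∀ t : CuspForm.heckeAlgebra M 2 S, IsEigAt j S u t)
    (t : CuspForm.heckeAlgebra M 2 S) {r : R}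
    (hr : ((cohHeckeRep M S t).baseChange K : _ →ₗ[K] _) u = j r • u) :
    tensorEigenChar j hj S u hu hall t = r :=
  eigVal_eq hj hu hall t hr

/-- **Row N4 (descent).**  `M ∣ N`, `g` of level `N`.  A nonzero vector `u ∈ K ⊗[ℤ] Lat M` (`K` any
integral domain) which is an eigenvector of every `T_ℓ`, `ℓ ∤ N` prime, with an eigenvalue `j r_ℓ`
such that `i r_ℓ = a_ℓ(g)` (`j : R →+* K` injective, `i : R →+* ℂ`), forces the good eigensystem
of `g` to occur at level `M`. -/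
theorem goodEigensystemOccursAt_of_tensor_eigenvector {N : ℕ} (hMN : M ∣ N)
    (g : CuspForm (Gamma0 N) 2) (j : R →+* K) (hj : Function.Injective j) (i : R →+* ℂ)
    (u : K ⊗[ℤ] parabolicHoms ℤ (Gamma0 M) ℤ) (hu : u ≠ 0)
    (heig : ∀ (l : ℕ) (hl : l.Prime) (hlM : ¬ l ∣ M), ¬ l ∣ N →
      ∃ r : R, i r = qCoeff g l ∧ (heckeTPar ℤ ℤ hl hlM).baseChange K u = j r • u) :
    g.GoodEigensystemOccursAt M := by
  set S : Set ℕ := {l | l ∣ N} with hS
  have hall : ∀ t : CuspForm.heckeAlgebra M 2 S, IsEigAt j S u t := by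
    apply exists_eigenvalue_tensor j S u
    · intro l hl hlM hlS
      obtain ⟨r, -, hr⟩ := heig l hl hlM hlS
      exact ⟨r, hr⟩
    · intro q _ hqM hqS
      exact absurd (hqM.trans hMN) hqS
  set χ : CuspForm.heckeAlgebra M 2 S →+* ℂ := i.comp (tensorEigenChar j hj S u hu hall) with hχ
  obtain ⟨w, hw0, hw⟩ := Fermat.Agent.S30.H10.exists_eigenvector_domain (cohHeckeRep M S)
    cohHeckeRep_injective χ
  refine goodEigensystemOccursAt_of_parabolic_eigenvector hMN g (latC M w) ?_ ?_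
  · intro h0
    apply hw0
    apply latC_injective M
    rw [h0, map_zero]
  · intro l hl hlM hlN
    obtain ⟨r, hir, hr⟩ := heig l hl hlM hlN
    have hlS : l ∉ S := hlN
    have h1 := hw (CuspForm.heckeAlgebra.T hl hlM hlS)
    rw [cohHeckeRep_T hl hlM hlS] at h1
    have h2 : χ (CuspForm.heckeAlgebra.T hl hlM hlS) = qCoeff g l := by
      rw [hχ, RingHom.comp_apply, ← hir]
      congr 1
      apply tensorEigenChar_eq
      rw [cohHeckeRep_T hl hlM hlS]
      exact hr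
    rw [← latC_heckeTPar, h1, map_smul, h2]

/-- **Row N4, newform form.**  For a NEWFORM `g` of level `N` and a proper divisor `M` of `N`, an
eigenvector as above is zero. -/
theorem eq_zero_of_isNewform_of_tensor_eigenvector {N : ℕ} (hMN : M ∣ N) (hne : M ≠ N)
    {g : CuspForm (Gamma0 N) 2} (hg : g.IsNewform)
    (j : R →+* K) (hj : Function.Injective j) (i : R →+* ℂ)
    (u : K ⊗[ℤ] parabolicHoms ℤ (Gamma0 M) ℤ)
    (heig : ∀ (l : ℕ) (hl : l.Prime) (hlM : ¬ l ∣ M), ¬ l ∣ N →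
      ∃ r : R, i r = qCoeff g l ∧ (heckeTPar ℤ ℤ hl hlM).baseChange K u = j r • u) :
    u = 0 := by
  by_contra hu
  exact hg.2 M hMN hne
    (goodEigensystemOccursAt_of_tensor_eigenvector hMN g j hj i u hu heig)

end main

end Fermat.Agent.S35.H85
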