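/-
S35 / rows N2 + N4 combined (helper85).

Level names: `M` prime to the prime `q`, `g` a NEWFORM of level `M * q`.  The two transfers
("Verlagerung") `corPar`, `corcPar : Lat (M * q) →ₗ[ℤ] Lat M` of `S41.H85_DegPar` (the transfer
`Γ₀(Mq) → Γ₀(M)` and its `diag(q,1)`-twisted twin; they ARE row N2: they commute with `T_ℓ`,
`ℓ ∤ M q`) KILL every simultaneous eigenvector `u ∈ K ⊗[ℤ] Lat (M * q)` of the `T_ℓ`, `ℓ ∤ M q`,
with the eigenvalues of `g`:

* `corPar_heckeTPar`, `corcPar_heckeTPar` : the commutation on the integral lattices;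
* `baseChange_corPar_heckeTPar`, `baseChange_corcPar_heckeTPar` : the same after `K ⊗ -`;
* `baseChange_corPar_eq_zero_of_isNewform`, `baseChange_corcPar_eq_zero_of_isNewform`.
-/
import Mathlib
import Fermat.Agent.S41.H85_DegPar
import Fermat.Agent.S35.H85_EigenDescent

set_option autoImplicit false
set_option linter.unusedSectionVars false

open CongruenceSubgroup ModularFormClass UpperHalfPlane ModularCurve ModularCurve.Period
open scoped TensorProduct

noncomputable section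

namespace Fermat.Agent.S35.H85

open Fermat.Agent.S41.H85 Fermat.Agent.S41.H72 Fermat.Agent.S41

variable {M q l : ℕ}

/-- `cor ∘ T_ℓ = T_ℓ ∘ cor` on the integral lattices, `ℓ ∤ M q`. -/
theorem corPar_heckeTPar (D : ALData M q) (hq : q.Prime) (hqM : ¬ q ∣ M) (hM : M ≠ 0)
    (hl : l.Prime) (hlN : ¬ l ∣ M * q) (y : Lat (M * q)) :
    corPar D hq hqM hM (heckeTPar ℤ ℤ hl hlN y)
      = heckeTPar ℤ ℤ hl (H65.not_dvd_left_of_not_dvd_mul hlN) (corPar D hq hqM hM y) :=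
  congrArg Prod.fst (heckeTPar_degBetaPar D hq hqM hM hl hlN y)

/-- `corc ∘ T_ℓ = T_ℓ ∘ corc` on the integral lattices, `ℓ ∤ M q`. -/
theorem corcPar_heckeTPar (D : ALData M q) (hq : q.Prime) (hqM : ¬ q ∣ M) (hM : M ≠ 0)
    (hl : l.Prime) (hlN : ¬ l ∣ M * q) (y : Lat (M * q)) :
    corcPar D hq hqM hM (heckeTPar ℤ ℤ hl hlN y)
      = heckeTPar ℤ ℤ hl (H65.not_dvd_left_of_not_dvd_mul hlN) (corcPar D hq hqM hM y) :=
  congrArg Prod.snd (heckeTPar_degBetaPar D hq hqM hM hl hlN y)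

section baseChange

variable (K : Type*) [CommRing K]

theorem baseChange_corPar_heckeTPar (D : ALData M q) (hq : q.Prime) (hqM : ¬ q ∣ M) (hM : M ≠ 0)
    (hl : l.Prime) (hlN : ¬ l ∣ M * q) (hlM : ¬ l ∣ M) (u : K ⊗[ℤ] Lat (M * q)) :
    (corPar D hq hqM hM).baseChange K ((heckeTPar ℤ ℤ hl hlN).baseChange K u)
      = (heckeTPar ℤ ℤ hl hlM).baseChange K ((corPar D hq hqM hM).baseChange K u) := by
  have h : (corPar D hq hqM hM) ∘ₗ (heckeTPar ℤ ℤ hl hlN)
      = (heckeTPar ℤ ℤ hl hlM) ∘ₗ (corPar D hq hqM hM) :=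
    LinearMap.ext fun y => corPar_heckeTPar D hq hqM hM hl hlN y
  rw [← LinearMap.comp_apply, ← LinearMap.baseChange_comp, h, LinearMap.baseChange_comp,
    LinearMap.comp_apply]

theorem baseChange_corcPar_heckeTPar (D : ALData M q) (hq : q.Prime) (hqM : ¬ q ∣ M) (hM : M ≠ 0)
    (hl : l.Prime) (hlN : ¬ l ∣ M * q) (hlM : ¬ l ∣ M) (u : K ⊗[ℤ] Lat (M * q)) :
    (corcPar D hq hqM hM).baseChange K ((heckeTPar ℤ ℤ hl hlN).baseChange K u)
      = (heckeTPar ℤ ℤ hl hlM).baseChange K ((corcPar D hq hqM hM).baseChange K u) := by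
  have h : (corcPar D hq hqM hM) ∘ₗ (heckeTPar ℤ ℤ hl hlN)
      = (heckeTPar ℤ ℤ hl hlM) ∘ₗ (corcPar D hq hqM hM) :=
    LinearMap.ext fun y => corcPar_heckeTPar D hq hqM hM hl hlN y
  rw [← LinearMap.comp_apply, ← LinearMap.baseChange_comp, h, LinearMap.baseChange_comp,
    LinearMap.comp_apply]

end baseChange

section newform

variable {K R : Type*} [CommRing K] [IsDomain K] [CommRing R]

/-- Any `ℤ`-linear `V : Lat (M q) → Lat M` commuting with the `T_ℓ`, `ℓ ∤ M q`, kills (after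
`K ⊗ -`) the eigenvectors with the good eigenvalues of a newform of level `M q`. -/
theorem baseChange_eq_zero_of_isNewform_of_commute (hq : q.Prime) (hM : M ≠ 0)
    {g : CuspForm (Gamma0 (M * q)) 2} (hg : g.IsNewform)
    (V : Lat (M * q) →ₗ[ℤ] Lat M)
    (hV : ∀ (l : ℕ) (hl : l.Prime) (hlN : ¬ l ∣ M * q) (hlM : ¬ l ∣ M) (y : Lat (M * q)),
      V (heckeTPar ℤ ℤ hl hlN y) = heckeTPar ℤ ℤ hl hlM (V y))
    (j : R →+* K) (hj : Function.Injective j) (i : R →+* ℂ)
    (u : K ⊗[ℤ] Lat (M * q))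
    (heig : ∀ (l : ℕ) (hl : l.Prime) (hlN : ¬ l ∣ M * q),
      ∃ r : R, i r = qCoeff g l ∧ (heckeTPar ℤ ℤ hl hlN).baseChange K u = j r • u) :
    V.baseChange K u = 0 := by
  have : NeZero M := ⟨hM⟩
  have hne : M ≠ M * q := by
    intro h
    have h1 : M * 1 = M * q := by rw [mul_one]; exact h
    have h2 : 1 = q := Nat.eq_of_mul_eq_mul_left (Nat.pos_of_ne_zero hM) h1
    exact hq.one_lt.ne h2
  refine eq_zero_of_isNewform_of_tensor_eigenvector (M := M) (N := M * q) (dvd_mul_right M q) hne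
    hg j hj i (V.baseChange K u) ?_
  intro l hl hlM hlN
  obtain ⟨r, hir, hr⟩ := heig l hl hlN
  refine ⟨r, hir, ?_⟩
  have h : V ∘ₗ (heckeTPar ℤ ℤ hl hlN) = (heckeTPar ℤ ℤ hl hlM) ∘ₗ V :=
    LinearMap.ext fun y => hV l hl hlN hlM y
  have h1 : V.baseChange K ((heckeTPar ℤ ℤ hl hlN).baseChange K u)
      = (heckeTPar ℤ ℤ hl hlM).baseChange K (V.baseChange K u) := by
    rw [← LinearMap.comp_apply, ← LinearMap.baseChange_comp, h, LinearMap.baseChange_comp,
      LinearMap.comp_apply]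
  rw [← h1, hr, LinearMap.map_smul]

/-- **(NEW), α-half**: the transfer `cor : Lat (M q) → Lat M` kills `x_g`. -/
theorem baseChange_corPar_eq_zero_of_isNewform (D : ALData M q) (hq : q.Prime) (hqM : ¬ q ∣ M)
    (hM : M ≠ 0) {g : CuspForm (Gamma0 (M * q)) 2} (hg : g.IsNewform)
    (j : R →+* K) (hj : Function.Injective j) (i : R →+* ℂ)
    (u : K ⊗[ℤ] Lat (M * q))
    (heig : ∀ (l : ℕ) (hl : l.Prime) (hlN : ¬ l ∣ M * q),
      ∃ r : R, i r = qCoeff g l ∧ (heckeTPar ℤ ℤ hl hlN).baseChange K u = j r • u) :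
    (corPar D hq hqM hM).baseChange K u = 0 :=
  baseChange_eq_zero_of_isNewform_of_commute hq hM hg (corPar D hq hqM hM)
    (fun _ hl hlN _ y => corPar_heckeTPar D hq hqM hM hl hlN y) j hj i u heig

/-- **(NEW), β-half**: the twisted transfer `corc : Lat (M q) → Lat M` kills `x_g`. -/
theorem baseChange_corcPar_eq_zero_of_isNewform (D : ALData M q) (hq : q.Prime) (hqM : ¬ q ∣ M)
    (hM : M ≠ 0) {g : CuspForm (Gamma0 (M * q)) 2} (hg : g.IsNewform)
    (j : R →+* K) (hj : Function.Injective j) (i : R →+* ℂ)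
    (u : K ⊗[ℤ] Lat (M * q))
    (heig : ∀ (l : ℕ) (hl : l.Prime) (hlN : ¬ l ∣ M * q),
      ∃ r : R, i r = qCoeff g l ∧ (heckeTPar ℤ ℤ hl hlN).baseChange K u = j r • u) :
    (corcPar D hq hqM hM).baseChange K u = 0 :=
  baseChange_eq_zero_of_isNewform_of_commute hq hM hg (corcPar D hq hqM hM)
    (fun _ hl hlN _ y => corcPar_heckeTPar D hq hqM hM hl hlN y) j hj i u heig

end newform

end Fermat.Agent.S35.H85
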