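/-
S35 / row N2 wrapper (helper85): the transfers in the `lamW`-normalisation of helper90's N3,

  `VerA := w_M ∘ cor ∘ w_{Mq}` (= `H90.verA`),   `VerB := w_M ∘ corc ∘ w_{Mq}`,

as `ℤ`-LINEAR maps `Lat (M * q) →ₗ[ℤ] Lat M`; their commutation with the cohomological Hecke
operators `T_ℓ`, `ℓ ∤ M q` (`heckeTPar` and `S29.H80.cohT` vocabulary) [= (A3) of the S35 assembly],
and the vanishing `(VerA).baseChange K u = 0`, `(VerB).baseChange K u = 0` on the eigenvectors `u`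
with the good eigenvalues of a NEWFORM of level `M q` [= (A5)].
-/
import Mathlib
import Fermat.Agent.S29.H80_Interface
import Fermat.Agent.S29.H65_HeckeInst
import Fermat.Agent.S35.H90_NormEquivAlpha
import Fermat.Agent.S35.H85_VerKills

set_option autoImplicit false
set_option linter.unusedSectionVars false

open CongruenceSubgroup ModularFormClass UpperHalfPlane ModularCurve ModularCurve.Period
open scoped TensorProduct

noncomputable section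

namespace Fermat.Agent.S35.H85

open Fermat.Agent.S41.H85 Fermat.Agent.S41.H72 Fermat.Agent.S41 Fermat.Agent.S29

/-! ### `w_N` on the lattice is `ℤ`-linear and commutes with `T_ℓ` -/

section wPar

variable {N l : ℕ}

/-- The Atkin–Lehner involution of the lattice as a `ℤ`-linear map. -/
def wParL (hN : N ≠ 0) : Lat N →ₗ[ℤ] Lat N := (H65.wPar hN).toIntLinearMap

@[simp] theorem wParL_apply (hN : N ≠ 0) (x : Lat N) : wParL hN x = H65.wPar hN x := rfl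

theorem wParL_wParL (hN : N ≠ 0) (x : Lat N) : wParL hN (wParL hN x) = x := H65.wPar_wPar hN x

theorem wParL_injective (hN : N ≠ 0) : Function.Injective (wParL hN) :=
  Function.LeftInverse.injective (wParL_wParL hN)

/-- **`w_N ∘ T_ℓ = T_ℓ ∘ w_N`** on the lattice, `ℓ ∤ N`. -/
theorem wPar_heckeTPar (hN : N ≠ 0) (hl : l.Prime) (hlN : ¬ l ∣ N) (x : Lat N) :
    H65.wPar hN (heckeTPar ℤ ℤ hl hlN x) = heckeTPar ℤ ℤ hl hlN (H65.wPar hN x) := by
  apply Subtype.ext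
  rw [H65.coe_wPar, coe_heckeTPar_apply, coe_heckeTPar_apply, H65.coe_wPar]
  exact H65.wOp_heckeTHom hN hl hlN x.1

end wPar

/-! ### Conjugation of a transfer by `w` -/

section conj

variable {M q : ℕ}

/-- `w_M ∘ V ∘ w_{Mq}`. -/
def conjW (hM : M ≠ 0) (hMq : M * q ≠ 0) (V : Lat (M * q) →ₗ[ℤ] Lat M) :
    Lat (M * q) →ₗ[ℤ] Lat M :=
  (wParL hM) ∘ₗ V ∘ₗ (wParL hMq)

@[simp] theorem conjW_apply (hM : M ≠ 0) (hMq : M * q ≠ 0) (V : Lat (M * q) →ₗ[ℤ] Lat M)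
    (x : Lat (M * q)) : conjW hM hMq V x = H65.wPar hM (V (H65.wPar hMq x)) := rfl

theorem conjW_eq_zero_iff (hM : M ≠ 0) (hMq : M * q ≠ 0) (V : Lat (M * q) →ₗ[ℤ] Lat M)
    (x : Lat (M * q)) : conjW hM hMq V x = 0 ↔ V (H65.wPar hMq x) = 0 := by
  rw [conjW_apply]
  constructor
  · intro h
    have := congrArg (H65.wPar hM) h
    rwa [H65.wPar_wPar, map_zero] at this
  · intro h
    rw [h, map_zero]

/-- If `V` commutes with the `T_ℓ`, so does `w ∘ V ∘ w`. -/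
theorem conjW_heckeTPar (hM : M ≠ 0) (hMq : M * q ≠ 0) (V : Lat (M * q) →ₗ[ℤ] Lat M)
    {l : ℕ} (hl : l.Prime) (hlN : ¬ l ∣ M * q) (hlM : ¬ l ∣ M)
    (hV : ∀ y, V (heckeTPar ℤ ℤ hl hlN y) = heckeTPar ℤ ℤ hl hlM (V y)) (y : Lat (M * q)) :
    conjW hM hMq V (heckeTPar ℤ ℤ hl hlN y) = heckeTPar ℤ ℤ hl hlM (conjW hM hMq V y) := by
  rw [conjW_apply, conjW_apply, wPar_heckeTPar hMq hl hlN, hV, wPar_heckeTPar hM hl hlM]

end conj

/-! ### `VerA`, `VerB` -/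

section ver

variable {M q : ℕ}

/-- `VerA = w_M ∘ cor ∘ w_{Mq}` as a `ℤ`-linear map. -/
def verAL (D : ALData M q) (hq : q.Prime) (hqM : ¬ q ∣ M) (hM : M ≠ 0) :
    Lat (M * q) →ₗ[ℤ] Lat M :=
  conjW hM (Nat.mul_ne_zero hM hq.ne_zero) (corPar D hq hqM hM)

/-- `VerB = w_M ∘ corc ∘ w_{Mq}` as a `ℤ`-linear map. -/
def verBL (D : ALData M q) (hq : q.Prime) (hqM : ¬ q ∣ M) (hM : M ≠ 0) :
    Lat (M * q) →ₗ[ℤ] Lat M :=
  conjW hM (Nat.mul_ne_zero hM hq.ne_zero) (corcPar D hq hqM hM)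

theorem verAL_apply (D : ALData M q) (hq : q.Prime) (hqM : ¬ q ∣ M) (hM : M ≠ 0)
    (x : Lat (M * q)) :
    verAL D hq hqM hM x = H65.wPar hM (corPar D hq hqM hM
      (H65.wPar (Nat.mul_ne_zero hM hq.ne_zero) x)) := rfl

theorem verBL_apply (D : ALData M q) (hq : q.Prime) (hqM : ¬ q ∣ M) (hM : M ≠ 0)
    (x : Lat (M * q)) :
    verBL D hq hqM hM x = H65.wPar hM (corcPar D hq hqM hM
      (H65.wPar (Nat.mul_ne_zero hM hq.ne_zero) x)) := rfl

/-- `verAL` is helper90's `H90.verA`. -/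
theorem verAL_eq_verA [NeZero M] (D : ALData M q) (hq : q.Prime) (hqM : ¬ q ∣ M)
    (x : Lat (M * q)) :
    verAL D hq hqM (NeZero.ne M) x = S35.H90.verA D hq hqM x := rfl

theorem verAL_heckeTPar (D : ALData M q) (hq : q.Prime) (hqM : ¬ q ∣ M) (hM : M ≠ 0)
    {l : ℕ} (hl : l.Prime) (hlN : ¬ l ∣ M * q) (hlM : ¬ l ∣ M) (y : Lat (M * q)) :
    verAL D hq hqM hM (heckeTPar ℤ ℤ hl hlN y) = heckeTPar ℤ ℤ hl hlM (verAL D hq hqM hM y) :=
  conjW_heckeTPar hM _ _ hl hlN hlM (fun y => corPar_heckeTPar D hq hqM hM hl hlN y) y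

theorem verBL_heckeTPar (D : ALData M q) (hq : q.Prime) (hqM : ¬ q ∣ M) (hM : M ≠ 0)
    {l : ℕ} (hl : l.Prime) (hlN : ¬ l ∣ M * q) (hlM : ¬ l ∣ M) (y : Lat (M * q)) :
    verBL D hq hqM hM (heckeTPar ℤ ℤ hl hlN y) = heckeTPar ℤ ℤ hl hlM (verBL D hq hqM hM y) :=
  conjW_heckeTPar hM _ _ hl hlN hlM (fun y => corcPar_heckeTPar D hq hqM hM hl hlN y) y

/-! #### `cohT` vocabulary (S29.H80) -/

theorem cohT_of_not_dvd {N : ℕ} (l : Nat.Primes) (h : ¬ (l : ℕ) ∣ N) :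
    H80.cohT N l = heckeTPar ℤ ℤ l.2 h := by
  unfold H80.cohT
  rw [dif_neg h]

/-- **(A3)** `VerA ∘ cohT_ℓ = cohT_ℓ ∘ VerA`, `ℓ ∤ M q`. -/
theorem verAL_cohT (D : ALData M q) (hq : q.Prime) (hqM : ¬ q ∣ M) (hM : M ≠ 0)
    (l : Nat.Primes) (hlN : ¬ (l : ℕ) ∣ M * q) (y : Lat (M * q)) :
    verAL D hq hqM hM (H80.cohT (M * q) l y) = H80.cohT M l (verAL D hq hqM hM y) := by
  have hlM : ¬ (l : ℕ) ∣ M := fun h => hlN (h.mul_right q)
  rw [cohT_of_not_dvd l hlN, cohT_of_not_dvd l hlM]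
  exact verAL_heckeTPar D hq hqM hM l.2 hlN hlM y

/-- **(A3)** `VerB ∘ cohT_ℓ = cohT_ℓ ∘ VerB`, `ℓ ∤ M q`. -/
theorem verBL_cohT (D : ALData M q) (hq : q.Prime) (hqM : ¬ q ∣ M) (hM : M ≠ 0)
    (l : Nat.Primes) (hlN : ¬ (l : ℕ) ∣ M * q) (y : Lat (M * q)) :
    verBL D hq hqM hM (H80.cohT (M * q) l y) = H80.cohT M l (verBL D hq hqM hM y) := by
  have hlM : ¬ (l : ℕ) ∣ M := fun h => hlN (h.mul_right q)
  rw [cohT_of_not_dvd l hlN, cohT_of_not_dvd l hlM]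
  exact verBL_heckeTPar D hq hqM hM l.2 hlN hlM y

theorem verAL_eq_zero_iff (D : ALData M q) (hq : q.Prime) (hqM : ¬ q ∣ M) (hM : M ≠ 0)
    (x : Lat (M * q)) :
    verAL D hq hqM hM x = 0 ↔
      corPar D hq hqM hM (H65.wPar (Nat.mul_ne_zero hM hq.ne_zero) x) = 0 :=
  conjW_eq_zero_iff hM _ _ x

theorem verBL_eq_zero_iff (D : ALData M q) (hq : q.Prime) (hqM : ¬ q ∣ M) (hM : M ≠ 0)
    (x : Lat (M * q)) :
    verBL D hq hqM hM x = 0 ↔
      corcPar D hq hqM hM (H65.wPar (Nat.mul_ne_zero hM hq.ne_zero) x) = 0 :=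
  conjW_eq_zero_iff hM _ _ x

end ver

/-! ### (A5): `VerA`, `VerB` kill `x_g` -/

section newform

variable {M q : ℕ} {K R : Type*} [CommRing K] [IsDomain K] [CommRing R]

/-- **(A5), α-half.** -/
theorem baseChange_verAL_eq_zero_of_isNewform (D : ALData M q) (hq : q.Prime) (hqM : ¬ q ∣ M)
    (hM : M ≠ 0) {g : CuspForm (Gamma0 (M * q)) 2} (hg : g.IsNewform)
    (j : R →+* K) (hj : Function.Injective j) (i : R →+* ℂ)
    (u : K ⊗[ℤ] Lat (M * q))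
    (heig : ∀ (l : ℕ) (hl : l.Prime) (hlN : ¬ l ∣ M * q),
      ∃ r : R, i r = qCoeff g l ∧ (heckeTPar ℤ ℤ hl hlN).baseChange K u = j r • u) :
    (verAL D hq hqM hM).baseChange K u = 0 :=
  baseChange_eq_zero_of_isNewform_of_commute hq hM hg (verAL D hq hqM hM)
    (fun _ hl hlN hlM y => verAL_heckeTPar D hq hqM hM hl hlN hlM y) j hj i u heig

/-- **(A5), β-half.** -/
theorem baseChange_verBL_eq_zero_of_isNewform (D : ALData M q) (hq : q.Prime) (hqM : ¬ q ∣ M)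
    (hM : M ≠ 0) {g : CuspForm (Gamma0 (M * q)) 2} (hg : g.IsNewform)
    (j : R →+* K) (hj : Function.Injective j) (i : R →+* ℂ)
    (u : K ⊗[ℤ] Lat (M * q))
    (heig : ∀ (l : ℕ) (hl : l.Prime) (hlN : ¬ l ∣ M * q),
      ∃ r : R, i r = qCoeff g l ∧ (heckeTPar ℤ ℤ hl hlN).baseChange K u = j r • u) :
    (verBL D hq hqM hM).baseChange K u = 0 :=
  baseChange_eq_zero_of_isNewform_of_commute hq hM hg (verBL D hq hqM hM)
    (fun _ hl hlN hlM y => verBL_heckeTPar D hq hqM hM hl hlN hlM y) j hj i u heig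

end newform

end Fermat.Agent.S35.H85
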