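/-
S35, row N5 (helper57), part (c): the WIRING of the abstract NEW-assembly
(`H57.midpoint35_of_new`) with the concrete degeneracy data

* `V j` = helper85's `verAL` / `verBL` (`= w ∘ corPar ∘ w`, `w ∘ corcPar ∘ w`),
* `P j` = helper86's `pushAlpha` / `pushBeta`,

for all primes `q ∥ M`, `q ≠ p` at once.  The levels `M` and `(M / q) * q` are identified along
`h : M = M0 * q` by the casts `castLat`, `castJ` (every property is proved by `subst h`).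
-/
import Mathlib
import Fermat.Agent.S35.H57_NewAssembly
import Fermat.Agent.S35.H72_N3Final
import Fermat.Agent.S35.H85_VerWrap
import Fermat.Agent.S35.H49_OldEigen
import Fermat.Agent.S35.H86_GeoWiring
import Fermat.Agent.S30.H57_S30Final

set_option autoImplicit false
set_option linter.style.haveILetI false
set_option linter.unusedSectionVars false

namespace Fermat.Agent.S35.H57

open scoped TensorProduct
open Polynomial CuspForm IsLocalRing ModularCurve ModularCurve.Period CongruenceSubgroup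
open Fermat.Agent.S30 Fermat.Agent.S30.H57 Fermat.Agent.S29.H80
open Fermat.Agent.S41.H72 (ALData)
open Fermat.Agent.S41.H85 (heckeTPar)

local notation "Qbar" => AlgebraicClosure ℚ
local notation "GQ" => (AlgebraicClosure ℚ ≃ₐ[ℚ] AlgebraicClosure ℚ)

noncomputable section

attribute [local instance] Fermat.Agent.S29.H85.merAlgebra

/-! ### Casts along an equality of levels -/

/-- The identity `Lat M → Lat M'` along `h : M = M'`. -/
def castLat {M M' : ℕ} (h : M = M') : Lat M →ₗ[ℤ] Lat M' := by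
  subst h
  exact LinearMap.id

/-- The identity `JZero M → JZero M'` along `h : M = M'`. -/
def castJ {M M' : ℕ} [NeZero M] [NeZero M'] (h : M = M') : JZero M →+ JZero M' := by
  subst h
  exact AddMonoidHom.id _

@[simp] theorem castLat_rfl {M : ℕ} (x : Lat M) : castLat (rfl : M = M) x = x := rfl

@[simp] theorem castJ_rfl {M : ℕ} [NeZero M] (y : JZero M) : castJ (rfl : M = M) y = y := rfl

/-! ### One prime `q`, level `M = M0 * q` -/

section Level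

variable {M M0 q : ℕ} [NeZero M] [NeZero M0] (hq : q.Prime) (hqM0 : ¬ q ∣ M0) (h : M = M0 * q)
  (D : ALData M0 q)

/-- `Ver_A` at level `M = M0 * q`. -/
def VA : Lat M →ₗ[ℤ] Lat M0 := (H85.verAL D hq hqM0 (NeZero.ne M0)).comp (castLat h)

/-- `Ver_B` at level `M = M0 * q`. -/
def VB : Lat M →ₗ[ℤ] Lat M0 := (H85.verBL D hq hqM0 (NeZero.ne M0)).comp (castLat h)

/-- `α_*` at level `M = M0 * q`. -/
def PA : JZero M →+ JZero M0 :=
  haveI : NeZero q := ⟨hq.ne_zero⟩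
  (H86.pushAlpha M0 q).comp (castJ h)

/-- `β_*` at level `M = M0 * q`. -/
def PB : JZero M →+ JZero M0 :=
  haveI : NeZero q := ⟨hq.ne_zero⟩
  (H86.pushBeta M0 q).comp (castJ h)

/-- (A2) for `α_*`. -/
theorem PA_smul (σ : GQ) (y : JZero M) (hy : PA hq h y = 0) : PA hq h (σ • y) = 0 := by
  haveI : NeZero q := ⟨hq.ne_zero⟩
  subst h
  have h1 : H86.pushAlpha M0 q y = 0 := hy
  show H86.pushAlpha M0 q (σ • y) = 0
  rw [H86.pushAlpha_smul, h1]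
  exact map_zero (galJ M0 σ)

/-- (A2) for `β_*`. -/
theorem PB_smul (σ : GQ) (y : JZero M) (hy : PB hq h y = 0) : PB hq h (σ • y) = 0 := by
  haveI : NeZero q := ⟨hq.ne_zero⟩
  subst h
  have h1 : H86.pushBeta M0 q y = 0 := hy
  show H86.pushBeta M0 q (σ • y) = 0
  rw [H86.pushBeta_smul, h1]
  exact map_zero (galJ M0 σ)

/-- (A3) for `Ver_A`. -/
theorem VA_cohT (ℓ : Nat.Primes) (hℓ : ¬ (ℓ : ℕ) ∣ M) (x : Lat M) (hx : VA hq hqM0 h D x = 0) :
    VA hq hqM0 h D (cohT M ℓ x) = 0 := by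
  subst h
  have h1 : H85.verAL D hq hqM0 (NeZero.ne M0) x = 0 := hx
  show H85.verAL D hq hqM0 (NeZero.ne M0) (cohT (M0 * q) ℓ x) = 0
  rw [H85.verAL_cohT D hq hqM0 (NeZero.ne M0) ℓ hℓ, h1, map_zero]

/-- (A3) for `Ver_B`. -/
theorem VB_cohT (ℓ : Nat.Primes) (hℓ : ¬ (ℓ : ℕ) ∣ M) (x : Lat M) (hx : VB hq hqM0 h D x = 0) :
    VB hq hqM0 h D (cohT M ℓ x) = 0 := by
  subst h
  have h1 : H85.verBL D hq hqM0 (NeZero.ne M0) x = 0 := hx
  show H85.verBL D hq hqM0 (NeZero.ne M0) (cohT (M0 * q) ℓ x) = 0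
  rw [H85.verBL_cohT D hq hqM0 (NeZero.ne M0) ℓ hℓ, h1, map_zero]

/-- (A4) for `α`: the canonical Kummer map sends `ker Ver_A` into `ker α_*`. -/
theorem PA_lamQ {n : ℕ} (hn : 0 < n) (x : Lat M) (hx : VA hq hqM0 h D x = 0) :
    PA hq h (H72.lamQ M hn x) = 0 := by
  haveI : NeZero q := ⟨hq.ne_zero⟩
  subst h
  have h1 : H90.verA D hq hqM0 x = 0 := hx
  show H86.pushAlpha M0 q (H72.lamQ (M0 * q) hn x) = 0
  exact H72.pushAlpha_eq_zero_of_verA_eq_zero D hq hqM0 hn x h1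

/-- (A4) for `β`, from the `ℂ`-level statement `lamW_verB`. -/
theorem PB_lamQ_of {n : ℕ} (hn : 0 < n)
    (hB : haveI : NeZero q := ⟨hq.ne_zero⟩
      ∀ x : Lat (M0 * q), S29.H65.lamW (S29.H85.kummerSetupFinal M0 hn) hn (H90.verB D hq hqM0 x)
        = H90.betaPush M0 q (S29.H65.lamW (S29.H85.kummerSetupFinal (M0 * q) hn) hn x))
    (x : Lat M) (hx : VB hq hqM0 h D x = 0) :
    PB hq h (H72.lamQ M hn x) = 0 := by
  haveI : NeZero q := ⟨hq.ne_zero⟩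
  subst h
  have h1 : H90.verB D hq hqM0 x = 0 := hx
  show H86.pushBeta M0 q (H72.lamQ (M0 * q) hn x) = 0
  exact H72.pushBeta_eq_zero_of_verB_eq_zero_of D hq hqM0 hn hB x h1

/-- `Ver_A` commutes with the `T_ℓ`, `ℓ ∤ M` (the input shape of `H49`). -/
theorem VA_heckeTPar {ℓ : ℕ} (hℓ : ℓ.Prime) (hℓM : ¬ ℓ ∣ M) (hℓM0 : ¬ ℓ ∣ M0) :
    VA hq hqM0 h D ∘ₗ heckeTPar ℤ ℤ hℓ hℓM = heckeTPar ℤ ℤ hℓ hℓM0 ∘ₗ VA hq hqM0 h D := by
  subst h
  refine LinearMap.ext fun y => ?_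
  exact H85.verAL_heckeTPar D hq hqM0 (NeZero.ne M0) hℓ hℓM hℓM0 y

/-- `Ver_B` commutes with the `T_ℓ`, `ℓ ∤ M`. -/
theorem VB_heckeTPar {ℓ : ℕ} (hℓ : ℓ.Prime) (hℓM : ¬ ℓ ∣ M) (hℓM0 : ¬ ℓ ∣ M0) :
    VB hq hqM0 h D ∘ₗ heckeTPar ℤ ℤ hℓ hℓM = heckeTPar ℤ ℤ hℓ hℓM0 ∘ₗ VB hq hqM0 h D := by
  subst h
  refine LinearMap.ext fun y => ?_
  exact H85.verBL_heckeTPar D hq hqM0 (NeZero.ne M0) hℓ hℓM hℓM0 y

/-- (A6): `(IF-GEO)` at level `M0 * q` in helper86's shape gives it at level `M`. -/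
theorem geo_cast {p : ℕ}
    (hGEO : haveI : NeZero q := ⟨hq.ne_zero⟩
      ∀ y : JZero (M0 * q), (∃ n : ℕ, p ^ n • y = 0) → H86.pushAlpha M0 q y = 0 →
        H86.pushBeta M0 q y = 0 → ∀ A : ValuationSubring Qbar, A.LiesOverPrime q → ∀ φ : GQ,
          A.IsFrobeniusAt φ q → frobPolyEnd (galJ (M0 * q) φ) q y = 0)
    (y : JZero M) (hy : ∃ n : ℕ, p ^ n • y = 0) (ha : PA hq h y = 0) (hb : PB hq h y = 0)
    (A : ValuationSubring Qbar) (hA : A.LiesOverPrime q) (φ : GQ) (hφ : A.IsFrobeniusAt φ q) :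
    frobPolyEnd (galJ M φ) q y = 0 := by
  haveI : NeZero q := ⟨hq.ne_zero⟩
  subst h
  exact hGEO y hy ha hb A hA φ hφ

end Level

/-! ### All primes `q ∥ M`, `q ≠ p` at once -/

section Global

variable (M p : ℕ) [NeZero M]

/-- The primes `q ≠ p` exactly dividing `M`. -/
def BadPrime : Type := {q : ℕ // q.Prime ∧ q ≠ p ∧ q ∣ M ∧ ¬ q ^ 2 ∣ M}

instance badPrime_finite : Finite (BadPrime M p) := by
  have hfin : Finite {q : ℕ // q ∈ Nat.divisors M} := inferInstance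
  exact Finite.of_injective
    (fun q : BadPrime M p =>
      (⟨q.1, Nat.mem_divisors.mpr ⟨q.2.2.2.1, NeZero.ne M⟩⟩ : {q : ℕ // q ∈ Nat.divisors M}))
    (fun a b hab => Subtype.ext (congrArg (fun x => x.1) hab))

variable {M p}

theorem BadPrime.level_eq (q : BadPrime M p) : M = M / q.1 * q.1 :=
  (Nat.div_mul_cancel q.2.2.2.1).symm

theorem BadPrime.not_dvd (q : BadPrime M p) : ¬ q.1 ∣ M / q.1 := fun h =>
  q.2.2.2.2 (by rw [sq]; exact Nat.mul_dvd_of_dvd_div q.2.2.2.1 h)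

instance BadPrime.neZero (q : BadPrime M p) : NeZero (M / q.1) :=
  ⟨(Nat.div_pos (Nat.le_of_dvd (NeZero.pos M) q.2.2.2.1) q.2.1.pos).ne'⟩

theorem BadPrime.div_dvd (q : BadPrime M p) : M / q.1 ∣ M := Nat.div_dvd_of_dvd q.2.2.2.1

theorem BadPrime.div_ne (q : BadPrime M p) : M / q.1 ≠ M := fun h => by
  have h1 := q.level_eq
  rw [h] at h1
  have h2 : M * 1 = M * q.1 := by rw [mul_one]; exact h1
  have h3 := Nat.eq_of_mul_eq_mul_left (NeZero.pos M) h2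
  exact q.2.1.one_lt.ne h3

/-- Atkin–Lehner data for `(M / q, q)`. -/
def BadPrime.al (q : BadPrime M p) : ALData (M / q.1) q.1 :=
  Classical.choice (Fermat.Agent.S41.H72.nonempty_alData
    ((Nat.Prime.coprime_iff_not_dvd q.2.1).mpr q.not_dvd))

/-- The family of lattice maps `Ver_A` (`false`), `Ver_B` (`true`). -/
def famV (j : BadPrime M p × Bool) : Lat M →ₗ[ℤ] Lat (M / j.1.1) :=
  bif j.2 then VB j.1.2.1 j.1.not_dvd j.1.level_eq j.1.al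
  else VA j.1.2.1 j.1.not_dvd j.1.level_eq j.1.al

/-- The family of pushforwards `α_*` (`false`), `β_*` (`true`). -/
def famP (j : BadPrime M p × Bool) : JZero M →+ JZero (M / j.1.1) :=
  bif j.2 then PB j.1.2.1 j.1.level_eq else PA j.1.2.1 j.1.level_eq

end Global

/-- **S35 from a new eigenvector (row N1), `lamW_verB` (row N3c) and (IF-GEO) (rows G).** -/
theorem s35_of_new_eigenvector {M : ℕ} [NeZero M] {g : CuspForm (Gamma0 M) 2} (hg : g.IsNewform)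
    (p : ℕ) [hp : Fact p.Prime] (S : Finset ℕ) (hpS : p ∈ S)
    (O' : Type) [CommRing O'] (χ : CuspForm.heckeAlgebra M 2 (↑S : Set ℕ) →+* O')
    (𝒪₁ : Type) [CommRing 𝒪₁] [IsDomain 𝒪₁] [IsDiscreteValuationRing 𝒪₁]
    [IsAdicComplete (IsLocalRing.maximalIdeal 𝒪₁) 𝒪₁] [Finite (IsLocalRing.ResidueField 𝒪₁)]
    [CharZero 𝒪₁] [Algebra O' 𝒪₁] [Module.Finite O' 𝒪₁] [IsLocalHom (algebraMap O' 𝒪₁)]
    (hinj : Function.Injective (algebraMap O' 𝒪₁))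
    (hp𝒪₁ : (p : 𝒪₁) ∈ IsLocalRing.maximalIdeal 𝒪₁)
    -- row N1
    (χ1 : CuspForm.heckeAlgebra M 2 (∅ : Set ℕ) →+* 𝒪₁)
    (hcompat : ∀ (ℓ : ℕ) (hℓ : ℓ.Prime) (hℓM : ¬ ℓ ∣ M) (hℓS : ℓ ∉ (↑S : Set ℕ)),
      χ1 (CuspForm.heckeAlgebra.T hℓ hℓM (Set.notMem_empty ℓ))
        = algebraMap O' 𝒪₁ (χ (CuspForm.heckeAlgebra.T hℓ hℓM hℓS)))
    (hχ1 : ∀ t, Fermat.Agent.S41.H85.eigenChar hg.1 ∅ t = 0 → χ1 t = 0)
    (u : 𝒪₁ ⊗[ℤ] Lat M) (hu : u ≠ 0)
    (hueig : ∀ (ℓ : ℕ) (hℓ : ℓ.Prime) (hℓM : ¬ ℓ ∣ M),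
      (heckeTPar ℤ ℤ hℓ hℓM).baseChange 𝒪₁ u
        = χ1 (CuspForm.heckeAlgebra.T hℓ hℓM (Set.notMem_empty ℓ)) • u)
    -- Stage 2
    (hS37 : HeckeOperatorsCommuteBar M → letI := heckeModuleBar M
      ∀ (_ : SMulCommClass GQ HeckeAlg (JZero M)),
        SpecializationExists (K := ℚ) (L := Qbar) M p (JZero M))
    -- row N3c (`lamW_verB`)
    (hB : ∀ (M0 q : ℕ) [NeZero M0] (D : ALData M0 q) (hq : q.Prime) (hqM0 : ¬ q ∣ M0) {n : ℕ}
      (hn : 0 < n), haveI : NeZero q := ⟨hq.ne_zero⟩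
      ∀ x : Lat (M0 * q), S29.H65.lamW (S29.H85.kummerSetupFinal M0 hn) hn (H90.verB D hq hqM0 x)
        = H90.betaPush M0 q (S29.H65.lamW (S29.H85.kummerSetupFinal (M0 * q) hn) hn x))
    -- (IF-GEO)
    (hGEO : ∀ (M0 q : ℕ) [NeZero M0] (hq : q.Prime), ¬ q ∣ M0 → q ≠ p → M = M0 * q →
      haveI : NeZero q := ⟨hq.ne_zero⟩
      ∀ y : JZero (M0 * q), (∃ n : ℕ, p ^ n • y = 0) → H86.pushAlpha M0 q y = 0 →
        H86.pushBeta M0 q y = 0 → ∀ A : ValuationSubring Qbar, A.LiesOverPrime q → ∀ φ : GQ,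
          A.IsFrobeniusAt φ q → frobPolyEnd (galJ (M0 * q) φ) q y = 0) :
    ∃ (O'' : Type) (_ : CommRing O'') (_ : IsDomain O'') (_ : IsDiscreteValuationRing O'')
      (_ : IsAdicComplete (IsLocalRing.maximalIdeal O'') O'')
      (_ : Finite (IsLocalRing.ResidueField O''))
      (_ : CharZero O'') (_ : Algebra O' O'') (_ : Module.Finite O' O'')
      (_ : IsLocalHom (algebraMap O' O'')),
      Function.Injective (algebraMap O' O'') ∧
      ∃ ρ : GaloisRepAdic O'',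
        (∀ (ℓ : ℕ) (hℓ : ℓ.Prime) (hℓM : ¬ ℓ ∣ M) (hℓS : ℓ ∉ (↑S : Set ℕ)),
          ∀ A : ValuationSubring (AlgebraicClosure ℚ), A.LiesOverPrime ℓ →
            ∀ σ : AlgebraicClosure ℚ ≃ₐ[ℚ] AlgebraicClosure ℚ, A.IsFrobeniusAt σ ℓ →
              LinearMap.charpoly (ρ.ρ σ) =
                X ^ 2 - C (algebraMap O' O'' (χ (CuspForm.heckeAlgebra.T hℓ hℓM hℓS))) * X
                  + C ((ℓ : O''))) ∧
        (∀ q : ℕ, q.Prime → q ≠ p → q ∣ M → ¬ q ^ 2 ∣ M →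
          ∀ A : ValuationSubring (AlgebraicClosure ℚ), A.LiesOverPrime q →
            ∀ σ : AlgebraicClosure ℚ ≃ₐ[ℚ] AlgebraicClosure ℚ, A.IsFrobeniusAt σ q →
              LinearMap.charpoly (ρ.ρ σ) = X ^ 2 - C ((q : O'') + 1) * X + C ((q : O'')) ∨
              LinearMap.charpoly (ρ.ρ σ) = X ^ 2 + C ((q : O'') + 1) * X + C ((q : O''))) := by
  classical
  have hcomm : HeckeOperatorsCommuteBar M := heckeOperatorsCommuteBar M
  obtain ⟨_, hfrob⟩ :=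
    Fermat.Agent.S30.H31.unr_frob_of_specializationExists p M hcomm (hS37 hcomm)
  have hfin : Set.Finite {y : JZero M | p • y = 0} := finite_torsion_JZero_nat M hp.out.pos
  letI : Fintype (BadPrime M p × Bool) := Fintype.ofFinite _
  refine H31.s35_of_midpoint35 p S hpS O' χ 𝒪₁ hinj hp𝒪₁ ?_
  refine midpoint35_of_new p S hpS 𝒪₁ hp𝒪₁ ((algebraMap O' 𝒪₁).comp χ) hfrob hfin
    (ι := BadPrime M p × Bool) (famV (M := M) (p := p)) (famP (M := M) (p := p))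
    ?_ ?_ ?_ u hu ?_ ?_ ?_
  · -- (A2)
    rintro ⟨q, _ | _⟩ σ y hy
    · exact PA_smul q.2.1 q.level_eq σ y hy
    · exact PB_smul q.2.1 q.level_eq σ y hy
  · -- (A3)
    intro ℓ x hx
    rintro ⟨q, _ | _⟩
    · exact VA_cohT q.2.1 q.not_dvd q.level_eq q.al ⟨ℓ.1, ℓ.2.1⟩ ℓ.2.2.1 x (hx (q, false))
    · exact VB_cohT q.2.1 q.not_dvd q.level_eq q.al ⟨ℓ.1, ℓ.2.1⟩ ℓ.2.2.1 x (hx (q, true))
  · -- (A4)
    intro k
    have hn : 0 < p ^ k := pow_pos hp.out.pos k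
    refine ⟨H72.lamQ M hn, fun x => H72.lamQ_nsmul M hn x, fun x hx => ?_,
      fun l x => H72.lamQ_cohT M hn l x, fun x hx => ?_⟩
    · obtain ⟨y, hy⟩ := H72.lamQ_eq_zero M hn hx
      exact ⟨y, by rw [hy, natCast_zsmul]⟩
    · rintro ⟨q, _ | _⟩
      · exact PA_lamQ q.2.1 q.not_dvd q.level_eq q.al hn x (hx (q, false))
      · exact PB_lamQ_of q.2.1 q.not_dvd q.level_eq q.al hn
          (hB (M / q.1) q.1 q.al q.2.1 q.not_dvd hn) x (hx (q, true))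
  · -- the eigen-equation
    intro ℓ
    rw [cohT_of_not_dvd M ℓ.2.1 ℓ.2.2.1, hueig ℓ.1 ℓ.2.1 ℓ.2.2.1, hcompat ℓ.1 ℓ.2.1 ℓ.2.2.1 ℓ.2.2.2]
    rfl
  · -- newness
    rintro ⟨q, _ | _⟩
    · exact H49.baseChange_eq_zero_of_isNewform hg q.div_dvd q.div_ne χ1 hχ1 u hueig _
        (fun ℓ hℓ hℓM => VA_heckeTPar q.2.1 q.not_dvd q.level_eq q.al hℓ hℓM _)
    · exact H49.baseChange_eq_zero_of_isNewform hg q.div_dvd q.div_ne χ1 hχ1 u hueig _
        (fun ℓ hℓ hℓM => VB_heckeTPar q.2.1 q.not_dvd q.level_eq q.al hℓ hℓM _)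
  · -- (GEO)
    intro q hq hqp hqM hq2 A hA σ hσ y hy hP
    let qq : BadPrime M p := ⟨q, hq, hqp, hqM, hq2⟩
    haveI : NeZero (M / q) := BadPrime.neZero qq
    exact geo_cast hq qq.level_eq
      (hGEO (M / q) q hq qq.not_dvd hqp qq.level_eq) y hy (hP (qq, false)) (hP (qq, true))
      A hA σ hσ

end

end Fermat.Agent.S35.H57
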