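/-
helper57 — S35, G-side: **the hypotheses `hVp hVq` of `H18.geoFnE'_inst` are redundant.**

In the two-chart model `B₁ = chartB R J`, `B₂ = chartB R J⁻¹` with reduced special fibres, if each
chart has exactly two vertical primes (`p₁ ≠ q₁`, `p₂ ≠ q₂`), none containing `J^{±1}`, then the
canonical index `H3.VertIdx J π` (vertical primes of the overlap chart) is in bijection with `Bool`
through either chart, and `H18.vert_valuationSubringAt_eq` identifies the valuation rings along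
the canonical index.  Hence `V_{p₁} = V_{p₂} ∧ V_{q₁} = V_{q₂}` or
`V_{p₁} = V_{q₂} ∧ V_{q₁} = V_{p₂}`; in the second case one renames `p₂ ↔ q₂`
(`H84.chartFrob_reindex` along `Bool.not`).

* `vert_val_eq_or_swap` : the dichotomy (generic two-chart model);
* `exists_const_mul_pow_of_chartFrob_bool'` : `H18.exists_const_mul_pow_of_chartFrob_bool` without
  `hVp hVq` (but with `hp₂ hq₂ hpq₂`);
* `geoFnE'_inst'` : `H18.geoFnE'_inst` without `hVp hVq` (but with `hp₂ hq₂ hpq₂`).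
-/
import Mathlib
import Fermat.Agent.S35.H18_GeoTop

set_option autoImplicit false
set_option linter.unusedSectionVars false
set_option linter.style.haveILetI false
set_option synthInstance.maxHeartbeats 400000
set_option maxHeartbeats 3200000

open Polynomial IntermediateField Fermat.Agent.S18 Fermat.Agent.S34

namespace Fermat.Agent.S35.H57

universe v

section Core

variable {R : Type*} [CommRing R] [IsDomain R] [IsDiscreteValuationRing R]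
  {K : Type*} [Field K] [Algebra R K] [IsFractionRing R K]
  {F : Type v} [Field F] [Algebra R F] [Algebra K F] [IsScalarTower R K F]

/-- **The two vertical valuation rings of the two charts agree, up to renaming.** -/
theorem vert_val_eq_or_swap
    (J : F) (htr : Transcendental K J) [FiniteDimensional K⟮J⟯ F] [Algebra.IsSeparable K⟮J⟯ F]
    [IsFractionRing ↥(H40.chartB R J) F] [IsFractionRing ↥(H40.chartB R J⁻¹) F]
    [IsNoetherianRing ↥(H40.chartB R J)] [IsIntegrallyClosed ↥(H40.chartB R J)]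
    [IsNoetherianRing ↥(H40.chartB R J⁻¹)] [IsIntegrallyClosed ↥(H40.chartB R J⁻¹)]
    (π : R) (hπ : Irreducible π)
    (hrad₁ : ∀ b : ↥(H40.chartB R J),
      (∃ n : ℕ, algebraMap R ↥(H40.chartB R J) π ∣ b ^ n) →
        algebraMap R ↥(H40.chartB R J) π ∣ b)
    (hrad₂ : ∀ b : ↥(H40.chartB R J⁻¹),
      (∃ n : ℕ, algebraMap R ↥(H40.chartB R J⁻¹) π ∣ b ^ n) →
        algebraMap R ↥(H40.chartB R J⁻¹) π ∣ b)
    (p₁ q₁ : Ideal ↥(H40.chartB R J)) [p₁.IsPrime] [q₁.IsPrime]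
    (p₂ q₂ : Ideal ↥(H40.chartB R J⁻¹)) [p₂.IsPrime] [q₂.IsPrime]
    (hp₁ : p₁ ∈ (Ideal.span {algebraMap R ↥(H40.chartB R J) π}).minimalPrimes)
    (hq₁ : q₁ ∈ (Ideal.span {algebraMap R ↥(H40.chartB R J) π}).minimalPrimes) (hpq₁ : p₁ ≠ q₁)
    (hall₁ : ∀ P ∈ (Ideal.span {algebraMap R ↥(H40.chartB R J) π}).minimalPrimes,
      P = p₁ ∨ P = q₁)
    (hp₂ : p₂ ∈ (Ideal.span {algebraMap R ↥(H40.chartB R J⁻¹) π}).minimalPrimes)
    (hq₂ : q₂ ∈ (Ideal.span {algebraMap R ↥(H40.chartB R J⁻¹) π}).minimalPrimes) (hpq₂ : p₂ ≠ q₂)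
    (hall₂ : ∀ P ∈ (Ideal.span {algebraMap R ↥(H40.chartB R J⁻¹) π}).minimalPrimes,
      P = p₂ ∨ P = q₂)
    (hJp₁ : (⟨J, H40.self_mem_chartB J⟩ : ↥(H40.chartB R J)) ∉ p₁)
    (hJq₁ : (⟨J, H40.self_mem_chartB J⟩ : ↥(H40.chartB R J)) ∉ q₁)
    (hJp₂ : (⟨J⁻¹, H40.self_mem_chartB J⁻¹⟩ : ↥(H40.chartB R J⁻¹)) ∉ p₂)
    (hJq₂ : (⟨J⁻¹, H40.self_mem_chartB J⁻¹⟩ : ↥(H40.chartB R J⁻¹)) ∉ q₂)
    (hph₁ : p₁.height = 1) (hqh₁ : q₁.height = 1) (hph₂ : p₂.height = 1) (hqh₂ : q₂.height = 1) :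
    (H56.valuationSubringAt (K := F) p₁ hph₁ = H56.valuationSubringAt (K := F) p₂ hph₂ ∧
      H56.valuationSubringAt (K := F) q₁ hqh₁ = H56.valuationSubringAt (K := F) q₂ hqh₂) ∨
    (H56.valuationSubringAt (K := F) p₁ hph₁ = H56.valuationSubringAt (K := F) q₂ hqh₂ ∧
      H56.valuationSubringAt (K := F) q₁ hqh₁ = H56.valuationSubringAt (K := F) p₂ hph₂) := by
  have hJ0 : J ≠ 0 := fun h => htr (h ▸ isAlgebraic_zero)
  have hh₁ := H3.height_vertP₁ (R := R) (K := K) J htr π hπ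
  have hh₂ := H3.height_vertP₂ (R := R) (K := K) J htr π hπ
  have hVeq := H18.vert_valuationSubringAt_eq (R := R) (K := K) J htr π hπ hrad₁ hrad₂ hh₁ hh₂
  obtain ⟨e, he⟩ := H18.exists_vertIdx_equiv_bool (R := R) J hJ0 π p₁ q₁ hp₁ hq₁ hpq₁ hall₁
    hJp₁ hJq₁
  obtain ⟨e', he'⟩ := H18.exists_vertIdx_equiv_bool_inv (R := R) J hJ0 π p₂ q₂ hp₂ hq₂ hpq₂ hall₂
    hJp₂ hJq₂
  -- the two canonical indices
  have h1p : H3.vertP₁ J π (e.symm true) = p₁ := by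
    have := he (e.symm true); rwa [Equiv.apply_symm_apply] at this
  have h1q : H3.vertP₁ J π (e.symm false) = q₁ := by
    have := he (e.symm false); rwa [Equiv.apply_symm_apply] at this
  have hne : e' (e.symm true) ≠ e' (e.symm false) := fun h => by
    have := e.symm.injective (e'.injective h)
    exact Bool.noConfusion this
  -- `V` along the canonical index
  have key : ∀ (k : H3.VertIdx J π) (P₁ : Ideal ↥(H40.chartB R J)) [P₁.IsPrime]
      (P₂ : Ideal ↥(H40.chartB R J⁻¹)) [P₂.IsPrime] (h1 : P₁.height = 1) (h2 : P₂.height = 1),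
      H3.vertP₁ J π k = P₁ → H3.vertP₂ J π k = P₂ →
      H56.valuationSubringAt (K := F) P₁ h1 = H56.valuationSubringAt (K := F) P₂ h2 := by
    intro k P₁ _ P₂ _ h1 h2 hk₁ hk₂
    rw [← H18.valuationSubringAt_congr (K := F) hk₁ (hh₁ k) h1,
      ← H18.valuationSubringAt_congr (K := F) hk₂ (hh₂ k) h2]
    exact hVeq k
  have h2t := he' (e.symm true)
  have h2f := he' (e.symm false)
  cases ht : e' (e.symm true) with
  | true =>
    have hf : e' (e.symm false) = false := by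
      cases hf : e' (e.symm false) with
      | true => exact absurd (ht.trans hf.symm) hne
      | false => rfl
    rw [ht] at h2t
    rw [hf] at h2f
    exact Or.inl ⟨key _ p₁ p₂ hph₁ hph₂ h1p h2t, key _ q₁ q₂ hqh₁ hqh₂ h1q h2f⟩
  | false =>
    have hf : e' (e.symm false) = true := by
      cases hf : e' (e.symm false) with
      | true => rfl
      | false => exact absurd (ht.trans hf.symm) hne
    rw [ht] at h2t
    rw [hf] at h2f
    exact Or.inr ⟨key _ p₁ q₂ hph₁ hqh₂ h1p h2t, key _ q₁ p₂ hqh₁ hph₂ h1q h2f⟩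

end Core

noncomputable section

open ModularCurve AlgebraicCurve HahnSeries IsLocalRing
open Fermat.Agent.S18.H45 Fermat.Agent.S35.H18

local notation "Qbar" => AlgebraicClosure ℚ
local notation "GQ" => (AlgebraicClosure ℚ ≃ₐ[ℚ] AlgebraicClosure ℚ)

variable {A : ValuationSubring Qbar} {q : ℕ} [NeZero q] (hq : q.Prime) (hA : A.LiesOverPrime q)
variable (E : IntermediateField (unrCyclo q) Qbar) [FiniteDimensional (unrCyclo q) E]
variable (hE : ∀ (τ : GQ) (x : Qbar), x ∈ E → τ x ∈ E)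
variable (M0 : ℕ) [NeZero M0]

set_option quotPrecheck false

local notation "JE" => (H95.JK ↥E (M0 * q) q (dvd_mul_left q M0))
local notation "FE" => ↥(modularFunctionFieldFullC ↥E (M0 * q))
local notation "FEM" => ↥(modularFunctionFieldFullC ↥E M0)
local notation "RE" => ↥(cutOver A E)
local notation "B₁E" => ↥(H40.chartB (cutOver A E) JE)
local notation "B₂E" => ↥(H40.chartB (cutOver A E) JE⁻¹)

include hq hA in
/-- **`H18.geoFnE'_inst` without the hypotheses `hVp hVq`** (they hold up to renaming `p₂ ↔ q₂`,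
`vert_val_eq_or_swap`); the price is `hp₂ hq₂ hpq₂` (the chart-2 twins of `hp₁ hq₁ hpq₁`). -/
theorem geoFnE'_inst'
    [IsFractionRing B₁E FE] [IsFractionRing B₂E FE]
    [IsNoetherianRing B₁E] [IsIntegrallyClosed B₁E]
    [IsNoetherianRing B₂E] [IsIntegrallyClosed B₂E]
    {p : ℕ} (hp : p.Prime) (hpq : p ≠ q) (φ : GQ) (n : ℕ)
    (T : Set (Place Qbar (S24.FN (M0 * q))))
    (π : RE) (hmax : maximalIdeal RE = Ideal.span {π})
    (hrad₁ : ∀ b : B₁E, (∃ n : ℕ, algebraMap RE B₁E π ∣ b ^ n) → algebraMap RE B₁E π ∣ b)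
    (hrad₂ : ∀ b : B₂E, (∃ n : ℕ, algebraMap RE B₂E π ∣ b ^ n) → algebraMap RE B₂E π ∣ b)
    (p₁ q₁ : Ideal B₁E) [p₁.IsPrime] [q₁.IsPrime]
    (p₂ q₂ : Ideal B₂E) [p₂.IsPrime] [q₂.IsPrime]
    (hp₁ : p₁ ∈ (Ideal.span {algebraMap RE B₁E π}).minimalPrimes)
    (hq₁ : q₁ ∈ (Ideal.span {algebraMap RE B₁E π}).minimalPrimes)
    (hpq₁ : p₁ ≠ q₁)
    (hall₁ : ∀ P ∈ (Ideal.span {algebraMap RE B₁E π}).minimalPrimes, P = p₁ ∨ P = q₁)
    (hp₂ : p₂ ∈ (Ideal.span {algebraMap RE B₂E π}).minimalPrimes)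
    (hq₂ : q₂ ∈ (Ideal.span {algebraMap RE B₂E π}).minimalPrimes)
    (hpq₂ : p₂ ≠ q₂)
    (hall₂ : ∀ P ∈ (Ideal.span {algebraMap RE B₂E π}).minimalPrimes, P = p₂ ∨ P = q₂)
    (hJp₁ : (⟨JE, H40.self_mem_chartB _⟩ : B₁E) ∉ p₁)
    (hJq₁ : (⟨JE, H40.self_mem_chartB _⟩ : B₁E) ∉ q₁)
    (hJp₂ : (⟨JE⁻¹, H40.self_mem_chartB _⟩ : B₂E) ∉ p₂)
    (hJq₂ : (⟨JE⁻¹, H40.self_mem_chartB _⟩ : B₂E) ∉ q₂)
    (hph₁ : p₁.height = 1) (hqh₁ : q₁.height = 1) (hph₂ : p₂.height = 1) (hqh₂ : q₂.height = 1)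
    (ΨB₁ : B₁E ≃+* B₁E) (ΨB₂ : B₂E ≃+* B₂E) (ΨR : RE →+* RE)
    (C₁ : H46.ChartFrob (F := FE) (fun b : Bool => cond b p₁ q₁) π
      ((galActFullC E hE (M0 * q) φ).trans (galActFullC E hE (M0 * q) φ)) ΨB₁ ΨR (q ^ 2))
    (C₂ : H46.ChartFrob (F := FE) (fun b : Bool => cond b p₂ q₂) π
      ((galActFullC E hE (M0 * q) φ).trans (galActFullC E hE (M0 * q) φ)) ΨB₂ ΨR (q ^ 2))
    (hFrobR : ∀ r : RE, π ∣ ΨR r - r ^ (q ^ 2))
    (hE2₁ : ∀ f : FE, H61.Admissible ↥E f (p ^ n) →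
      (∀ v ∈ T, v.ord (H99.toBar ↥E (M0 * q) f) = 0) →
      ∀ m : Ideal B₁E, m.IsMaximal → algebraMap RE B₁E π ∈ m →
        H46.ChartWeakAt (F := FE) (algebraMap RE B₁E π) m
          (galActFullC E hE (M0 * q) φ (galActFullC E hE (M0 * q) φ f) / f) (p ^ n))
    (hE2₂ : ∀ f : FE, H61.Admissible ↥E f (p ^ n) →
      (∀ v ∈ T, v.ord (H99.toBar ↥E (M0 * q) f) = 0) →
      ∀ m : Ideal B₂E, m.IsMaximal → algebraMap RE B₂E π ∈ m →
        H46.ChartWeakAt (F := FE) (algebraMap RE B₂E π) m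
          (galActFullC E hE (M0 * q) φ (galActFullC E hE (M0 * q) φ f) / f) (p ^ n))
    (hE3 : ∀ f : FE, H61.Admissible ↥E f (p ^ n) →
      (∀ v ∈ T, v.ord (H99.toBar ↥E (M0 * q) f) = 0) →
      (∃ (c : ↥E) (h : FEM), c ≠ 0 ∧ h ≠ 0 ∧
        (letI := H16.degAlgebra ↥E M0 (M0 * q) (dvd_mul_right M0 q);
          Algebra.norm FEM f) = algebraMap ↥E FEM c * h ^ (p ^ n)) →
      (∃ (c : ↥E) (h : FEM), c ≠ 0 ∧ h ≠ 0 ∧
        (letI := S35.H16.vAlgebra ↥E q M0 (M0 * q) (dvd_of_eq (mul_comm q M0));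
          Algebra.norm FEM f) = algebraMap ↥E FEM c * h ^ (p ^ n)) →
      ∃ G : FE, G ≠ 0 ∧
        H47.OneU (H56.valuationSubringAt (K := FE) p₁ hph₁)
          (ratE (galActFullC E hE (M0 * q) φ) 1 (ratE (galActFullC E hE (M0 * q) φ) 1 f) /
            G ^ (p ^ n)) ∧
        H47.OneU (H56.valuationSubringAt (K := FE) q₁ hqh₁)
          (ratE (galActFullC E hE (M0 * q) φ) 1 (ratE (galActFullC E hE (M0 * q) φ) 1 f) /
            G ^ (p ^ n))) :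
    GeoFnE' M0 q E hE φ q (p ^ n) T := by
  haveI := isDiscreteValuationRing_cutOver hq hA E
  haveI := H95.finiteDimensional_JK ↥E (M0 * q) q (dvd_mul_left q M0)
    (H99.natCast_ne_zero₀ (M0 * q) ↥E)
  haveI := H95.isSeparable_JK ↥E (M0 * q) q (dvd_mul_left q M0)
  have hπ : Irreducible π := irreducible_of_maximalIdeal_cutOver_eq hq hA E hmax
  rcases vert_val_eq_or_swap (R := RE) (K := ↥E) JE
      (H95.transcendental_JK ↥E (M0 * q) q (dvd_mul_left q M0)) π hπ hrad₁ hrad₂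
      p₁ q₁ p₂ q₂ hp₁ hq₁ hpq₁ hall₁ hp₂ hq₂ hpq₂ hall₂ hJp₁ hJq₁ hJp₂ hJq₂
      hph₁ hqh₁ hph₂ hqh₂ with ⟨hVp, hVq⟩ | ⟨hVp, hVq⟩
  · exact geoFnE'_inst hq hA E hE M0 hp hpq φ n T π hmax hrad₁ hrad₂ p₁ q₁ p₂ q₂ hp₁ hq₁ hpq₁
      hall₁ hall₂ hJp₁ hJq₁ hJp₂ hJq₂ hph₁ hqh₁ hph₂ hqh₂ hVp hVq ΨB₁ ΨB₂ ΨR C₁ C₂ hFrobR
      hE2₁ hE2₂ hE3
  · have hfun : (fun k' : Bool => (fun b : Bool => cond b p₂ q₂) (Equiv.boolNot k')) =
        fun b : Bool => cond b q₂ p₂ := by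
      funext b; cases b <;> rfl
    have C₂' : H46.ChartFrob (F := FE) (fun b : Bool => cond b q₂ p₂) π
        ((galActFullC E hE (M0 * q) φ).trans (galActFullC E hE (M0 * q) φ)) ΨB₂ ΨR (q ^ 2) :=
      hfun ▸ H84.chartFrob_reindex C₂ Equiv.boolNot
    exact geoFnE'_inst hq hA E hE M0 hp hpq φ n T π hmax hrad₁ hrad₂ p₁ q₁ q₂ p₂ hp₁ hq₁ hpq₁
      hall₁ (fun P hP => (hall₂ P hP).symm) hJp₁ hJq₁ hJq₂ hJp₂ hph₁ hqh₁ hqh₂ hph₂ hVp hVq
      ΨB₁ ΨB₂ ΨR C₁ C₂' hFrobR hE2₁ hE2₂ hE3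

end

end Fermat.Agent.S35.H57
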