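import Fermat.Agent.S35.H46_FrobModelCharts
import Fermat.Agent.S35.H62_Approx
import Fermat.Agent.S34.H69_KummerPowConn

/-!
# S35, row G5 (concrete skeleton), helper69

The geometric statement (GEO) of the S35 blueprint at the level of the two-chart normal model, as
ONE hypothesis-parametric theorem on generic types (no `cutOver`, no `fullC`):

* vertical block + Kummer criterion = the binder block of `S34.H69.kummer_descent_pow_conn`;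
* the Frobenius package = helper46's `H46.ChartFrob` for the two charts (+ `hFrobR`);
* the ratio lemma (g1) = `H46.WeakDatum` for `u₁` (the consumer takes `u₁ := Φ f / f`);
* the residue computation (g3) = per-component statements `u₂ ≡ G_k ^ m` at `V k`
  (merged by helper62's weak approximation `H62.exists_simultaneous_root`);

conclusion: `Φ u₂ / u₂ ^ Q = c * w ^ (l ^ k)` for `u₂ := Φ u₁ / u₁`.
-/

set_option autoImplicit false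

open Polynomial IntermediateField Fermat.Agent.S18 Fermat.Agent.S34

namespace Fermat.Agent.S35.H69

universe v

/-- **(GEO), chart form, one index type.** -/
theorem geo_of_chartFrob
    {R : Type*} [CommRing R] [IsDomain R] [IsDiscreteValuationRing R]
    {K : Type*} [Field K] [Algebra R K] [IsFractionRing R K]
    {F : Type v} [Field F] [Algebra R F] [Algebra K F] [IsScalarTower R K F]
    (J : F) (htr : Transcendental K J) [FiniteDimensional K⟮J⟯ F] [Algebra.IsSeparable K⟮J⟯ F]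
    [IsFractionRing ↥(H40.chartB R J) F] [IsFractionRing ↥(H40.chartB R J⁻¹) F]
    [IsNoetherianRing ↥(H40.chartB R J)] [IsIntegrallyClosed ↥(H40.chartB R J)]
    [IsNoetherianRing ↥(H40.chartB R J⁻¹)] [IsIntegrallyClosed ↥(H40.chartB R J⁻¹)]
    (hcl : ∀ z : F, IsAlgebraic K z → z ∈ (algebraMap K F).range)
    (π : R) (hπ : Irreducible π)
    {l : ℕ} (hl : l.Prime) (hlu : IsUnit ((l : ℕ) : R)) {ζ : R} (hζ : IsPrimitiveRoot ζ l)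
    (hroot : ∀ r : R, IsUnit r → ∃ γ : R, IsUnit γ ∧ π ∣ γ ^ l * r - 1)
    {ι : Type*} [Finite ι] [Nonempty ι]
    (P₁ : ι → Ideal ↥(H40.chartB R J)) (P₂ : ι → Ideal ↥(H40.chartB R J⁻¹))
    (P₁₂ : ι → Ideal ↥(H83.chart12 R J))
    [hP₁ : ∀ i, (P₁ i).IsPrime] [hP₂ : ∀ i, (P₂ i).IsPrime] [hP₁₂ : ∀ k, (P₁₂ k).IsPrime]
    (hh₁ : ∀ k, (P₁ k).height = 1) (hh₂ : ∀ k, (P₂ k).height = 1)
    (hinc : ∀ j k, P₁ j ≤ P₁ k → j = k)
    (hπP₁ : ∀ i, algebraMap R ↥(H40.chartB R J) π ∈ P₁ i)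
    (hπP₂ : ∀ i, algebraMap R ↥(H40.chartB R J⁻¹) π ∈ P₂ i)
    (hπP₁₂ : ∀ i, algebraMap R ↥(H83.chart12 R J) π ∈ P₁₂ i)
    (hcomp₁ : ∀ k, ∀ s : ↥(H40.chartB R J), s ∉ P₁ k →
      Subalgebra.inclusion (H83.chartB_le_chart12 (R := R) J) s ∉ P₁₂ k)
    (hcomp₂ : ∀ k, ∀ s : ↥(H40.chartB R J⁻¹), s ∉ P₂ k →
      Subalgebra.inclusion (H83.chartB_inv_le_chart12 (R := R) J) s ∉ P₁₂ k)
    (hsat₁₂ : ∀ b : ↥(H83.chart12 R J),
      (∀ k, ∃ s, s ∉ P₁₂ k ∧ algebraMap R ↥(H83.chart12 R J) π ∣ s * b) →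
      algebraMap R ↥(H83.chart12 R J) π ∣ b)
    (hall₁ : ∀ n : Ideal ↥(H40.chartB R J), n.IsMaximal →
      algebraMap R ↥(H40.chartB R J) π ∈ n → ∃ k, P₁ k ≤ n)
    (hall₂ : ∀ n : Ideal ↥(H40.chartB R J⁻¹), n.IsMaximal →
      algebraMap R ↥(H40.chartB R J⁻¹) π ∈ n → ∃ k, P₂ k ≤ n)
    (Φ : F ≃+* F) (ΦB₁ : ↥(H40.chartB R J) ≃+* ↥(H40.chartB R J))
    (ΦB₂ : ↥(H40.chartB R J⁻¹) ≃+* ↥(H40.chartB R J⁻¹)) (ΦR : R →+* R) (Q : ℕ)
    (C₁ : H46.ChartFrob (F := F) P₁ π Φ ΦB₁ ΦR Q) (C₂ : H46.ChartFrob (F := F) P₂ π Φ ΦB₂ ΦR Q)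
    (hFrobR : ∀ r : R, π ∣ ΦR r - r ^ Q)
    (k : ℕ) (u₁ : F) (hu₁0 : u₁ ≠ 0)
    (hu₁ : H46.WeakDatum (H21.ptO (H40.chartB R J) (H40.chartB R J⁻¹) π)
      (fun k => H56.valuationSubringAt (K := F) (P₁ k) (hh₁ k))
      (H21.primeThr (π := π) P₁ P₂) u₁ (l ^ k))
    (hG : ∀ i, ∃ G : F, (H56.valuationSubringAt (K := F) (P₁ i) (hh₁ i)).valuation G = 1 ∧
      H47.OneU (H56.valuationSubringAt (K := F) (P₁ i) (hh₁ i)) ((Φ u₁ / u₁) / G ^ (l ^ k))) :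
    ∃ (c : K) (w : F), c ≠ 0 ∧ w ≠ 0 ∧
      Φ (Φ u₁ / u₁) / (Φ u₁ / u₁) ^ Q = algebraMap K F c * w ^ (l ^ k) := by
  have hVeq : ∀ i, H56.valuationSubringAt (K := F) (P₁ i) (hh₁ i)
      = H56.valuationSubringAt (K := F) (P₂ i) (hh₂ i) := fun i =>
    have := H69.isFractionRing_chart12 (R := R) (K := K) J
    H21.valuationSubringAt_eq K hπ (H83.chartB_le_chart12 (R := R) J)
      (H83.chartB_inv_le_chart12 (R := R) J) (P₁ i) (P₂ i) (P₁₂ i) (hh₁ i) (hh₂ i) (hπP₁ i)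
      (hπP₂ i) (hπP₁₂ i) (hcomp₁ i) (hcomp₂ i) (C₁.hred i) (C₂.hred i)
  have H := H46.frobModel_of_charts hh₁ hh₂ hVeq Φ ΦB₁ ΦB₂ ΦR Q (l ^ k)
    (pow_pos hl.pos k) C₁ C₂ hFrobR
  obtain ⟨G, hG0, -, hGu⟩ := H62.exists_simultaneous_root P₁ hh₁ hinc (Φ u₁ / u₁) (l ^ k) hG
  exact H46.exists_const_mul_pow_of_threeRatios (K0 := K) H
    (fun x hx hD => H69.kummer_descent_pow_conn J htr hcl π hπ hl hlu hζ hroot P₁ P₂ P₁₂
      hh₁ hh₂ hπP₁ hπP₂ hπP₁₂ hcomp₁ hcomp₂ C₁.hred C₂.hred C₁.hsat C₂.hsat hsat₁₂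
      hall₁ hall₂ k x hx hD)
    hu₁0 hu₁ hG0 hGu

end Fermat.Agent.S35.H69
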