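import Mathlib
import Fermat.Agent.S28.H96_HasModPoly
import Fermat.Agent.S34.H55_L0Final
import Fermat.Agent.S34.H40_L0Consumers
import Fermat.Agent.S34.H61_MiddleL0

/-!
# S35, row (E0)/(E4), helper69: reducedness of the special fibres of the `E`-level charts,
hypothesis-free

`hrad₁ hrad₂` of helper18's `S35.H18.geoFnE'_inst` (= `hrad₁ hrad₂` of `H61.middle_of_chartPkg_hrad`)
at an ARBITRARY level `N` with `q ∣ N`, `¬ q ^ 2 ∣ N` (level seam `N = q * M` closed by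
`obtain ⟨M, rfl⟩`), and at the level `M0 * q` of `H18.GeoFnE'`:

* `hradB_JK_of_dvd`, `hradB_JK_inv_of_dvd` : the `A₁`-charts (`A₁ = A0 A q`), from L0 final
  (`H55.exists_twoComponents_JK(_inv)` + `H40.hradB_JK(_inv)` + `S28.H96.hasModPoly`);
* `hL1_JK_of_dvd`, `hL1_JK_inv_of_dvd` : the L1 output at every closed point of the special fibre
  of the `A₁`-charts, at the same generic level (`H40.hL1_JK(_inv)`);
* `hrad_cutOver_JK`, `hrad_cutOver_JK_inv` : the `A''`-charts (`A'' = cutOver A E`), via helper40's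
  (a)' and `H61.hrad_chartB_cutOver`;
* `hrad₁_geoTop`, `hrad₂_geoTop` : the same at `N := M0 * q`, `hq := dvd_mul_left q M0`, i.e.
  VERBATIM the two hypotheses of `H18.geoFnE'_inst`.
-/

set_option autoImplicit false
set_option linter.unusedSectionVars false
set_option linter.style.haveILetI false
set_option synthInstance.maxHeartbeats 400000
set_option maxHeartbeats 3200000

noncomputable section

namespace Fermat.Agent.S35.H69

open ModularCurve HahnSeries IntermediateField IsLocalRing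
open Fermat.Agent.S18 Fermat.Agent.S18.H45 Fermat.Agent.S34

local notation "Qbar" => AlgebraicClosure ℚ

/-- The arithmetic of the level seam. -/
theorem not_dvd_of_not_sq_dvd_mul {q M : ℕ} (h : ¬ q ^ 2 ∣ q * M) : ¬ q ∣ M := by
  rintro ⟨c, rfl⟩
  exact h ⟨c, by ring⟩

/-- `¬ q ∣ M0 → ¬ q ^ 2 ∣ M0 * q`. -/
theorem not_sq_dvd_mul_of_not_dvd {q M0 : ℕ} (hq0 : q ≠ 0) (h : ¬ q ∣ M0) :
    ¬ q ^ 2 ∣ M0 * q := by
  rintro ⟨c, hc⟩
  apply h
  refine ⟨c, ?_⟩
  have h1 : M0 * q = (q * c) * q := by rw [hc]; ring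
  exact Nat.eq_of_mul_eq_mul_right (Nat.pos_of_ne_zero hq0) h1

variable {A : ValuationSubring Qbar} {q : ℕ} [NeZero q] (hq : q.Prime) (hA : A.LiesOverPrime q)

section A1

variable (N : ℕ) [NeZero N] (hqN : q ∣ N) (hq2 : ¬ q ^ 2 ∣ N)

include hq hA hq2 in
/-- **Reduced special fibre of the `A₁`-chart `chartB A₁ J`, any level `N` with `q ∥ N`.** -/
theorem hradB_JK_of_dvd :
    ∀ b : ↥(H40.chartB (A0 A q) (H95.JK (unrCyclo q) N q hqN)),
      (∃ n : ℕ, algebraMap (A0 A q) ↥(H40.chartB (A0 A q) (H95.JK (unrCyclo q) N q hqN))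
          ((q : ℕ) : A0 A q) ∣ b ^ n) →
        algebraMap (A0 A q) ↥(H40.chartB (A0 A q) (H95.JK (unrCyclo q) N q hqN))
          ((q : ℕ) : A0 A q) ∣ b := by
  obtain ⟨M, rfl⟩ := hqN
  haveI : Fact q.Prime := ⟨hq⟩
  haveI : NeZero M := ⟨fun h => NeZero.ne (q * M) (by rw [h, mul_zero])⟩
  have hqM : ¬ q ∣ M := not_dvd_of_not_sq_dvd_mul hq2
  obtain ⟨D, hD⟩ := Fermat.Agent.S28.H96.hasModPoly q
  obtain ⟨red₁, red₂, hTC⟩ := H55.exists_twoComponents_JK M hqM A hA D hD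
  exact S34.H40.hradB_JK M A hA hTC

include hq hA hq2 in
/-- **Reduced special fibre of the `A₁`-chart `chartB A₁ J⁻¹`, any level `N` with `q ∥ N`.** -/
theorem hradB_JK_inv_of_dvd :
    ∀ b : ↥(H40.chartB (A0 A q) (H95.JK (unrCyclo q) N q hqN)⁻¹),
      (∃ n : ℕ, algebraMap (A0 A q) ↥(H40.chartB (A0 A q) (H95.JK (unrCyclo q) N q hqN)⁻¹)
          ((q : ℕ) : A0 A q) ∣ b ^ n) →
        algebraMap (A0 A q) ↥(H40.chartB (A0 A q) (H95.JK (unrCyclo q) N q hqN)⁻¹)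
          ((q : ℕ) : A0 A q) ∣ b := by
  obtain ⟨M, rfl⟩ := hqN
  haveI : Fact q.Prime := ⟨hq⟩
  haveI : NeZero M := ⟨fun h => NeZero.ne (q * M) (by rw [h, mul_zero])⟩
  have hqM : ¬ q ∣ M := not_dvd_of_not_sq_dvd_mul hq2
  obtain ⟨D, hD⟩ := Fermat.Agent.S28.H96.hasModPoly q
  obtain ⟨red₁, red₂, hTC⟩ := H55.exists_twoComponents_JK_inv M hqM A hA D hD
  exact S34.H40.hradB_JK_inv M A hA hTC

include hq hA hq2 in
/-- **L1 at every closed point of the special fibre of `chartB A₁ J`, any level with `q ∥ N`.** -/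
theorem hL1_JK_of_dvd
    (n₁ : Ideal ↥(H40.chartB (A0 A q) (H95.JK (unrCyclo q) N q hqN))) [n₁.IsMaximal]
    (hn : algebraMap (A0 A q) ↥(H40.chartB (A0 A q) (H95.JK (unrCyclo q) N q hqN))
      ((q : ℕ) : A0 A q) ∈ n₁) :
    H61.L1At ((q : ℕ) : A0 A q) n₁ := by
  obtain ⟨M, rfl⟩ := hqN
  haveI : Fact q.Prime := ⟨hq⟩
  haveI : NeZero M := ⟨fun h => NeZero.ne (q * M) (by rw [h, mul_zero])⟩
  have hqM : ¬ q ∣ M := not_dvd_of_not_sq_dvd_mul hq2
  obtain ⟨D, hD⟩ := Fermat.Agent.S28.H96.hasModPoly q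
  obtain ⟨red₁, red₂, hTC⟩ := H55.exists_twoComponents_JK M hqM A hA D hD
  exact S34.H40.hL1_JK M hqM A hA hTC hq.two_le n₁ hn

include hq hA hq2 in
/-- **L1 at every closed point of the special fibre of `chartB A₁ J⁻¹`.** -/
theorem hL1_JK_inv_of_dvd
    (n₁ : Ideal ↥(H40.chartB (A0 A q) (H95.JK (unrCyclo q) N q hqN)⁻¹)) [n₁.IsMaximal]
    (hn : algebraMap (A0 A q) ↥(H40.chartB (A0 A q) (H95.JK (unrCyclo q) N q hqN)⁻¹)
      ((q : ℕ) : A0 A q) ∈ n₁) :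
    H61.L1At ((q : ℕ) : A0 A q) n₁ := by
  obtain ⟨M, rfl⟩ := hqN
  haveI : Fact q.Prime := ⟨hq⟩
  haveI : NeZero M := ⟨fun h => NeZero.ne (q * M) (by rw [h, mul_zero])⟩
  have hqM : ¬ q ∣ M := not_dvd_of_not_sq_dvd_mul hq2
  obtain ⟨D, hD⟩ := Fermat.Agent.S28.H96.hasModPoly q
  obtain ⟨red₁, red₂, hTC⟩ := H55.exists_twoComponents_JK_inv M hqM A hA D hD
  exact S34.H40.hL1_JK_inv M hqM A hA hTC hq.two_le n₁ hn

end A1

section CutOver

variable (E : IntermediateField (unrCyclo q) Qbar) [FiniteDimensional (unrCyclo q) E]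
variable (N : ℕ) [NeZero N] (hqN : q ∣ N) (hq2 : ¬ q ^ 2 ∣ N)

include hq hA hq2 in
/-- **Reduced special fibre of the `A''`-chart `chartB (cutOver A E) J_E`**, any level `N` with
`q ∥ N`; no hypothesis left. -/
theorem hrad_cutOver_JK (π : cutOver A E) (hmax : maximalIdeal (cutOver A E) = Ideal.span {π}) :
    ∀ b : ↥(H40.chartB (cutOver A E) (H95.JK ↥E N q hqN)),
      (∃ n : ℕ, algebraMap (cutOver A E) ↥(H40.chartB (cutOver A E) (H95.JK ↥E N q hqN)) π ∣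
        b ^ n) →
        algebraMap (cutOver A E) ↥(H40.chartB (cutOver A E) (H95.JK ↥E N q hqN)) π ∣ b := by
  have hradB := hradB_JK_of_dvd hq hA N hqN hq2
  have hbc : baseChangeE E N (H95.JK (unrCyclo q) N q hqN) = H95.JK ↥E N q hqN :=
    H95.baseChangeE_JK E N q hqN
  haveI := H95.finiteDimensional_JK (unrCyclo q) N q hqN (H99.natCast_ne_zero₀ N (unrCyclo q))
  haveI hR : IsReduced (↥(H40.chartB (A0 A q) (H95.JK (unrCyclo q) N q hqN)) ⧸
      Ideal.span {algebraMap (A0 A q) ↥(H40.chartB (A0 A q) (H95.JK (unrCyclo q) N q hqN))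
        ((q : ℕ) : A0 A q)}) := H3.isReduced_of_hrad hradB
  have hmem := H61.mem_chartB_cutOver_iff' hq hA E N (H95.JK (unrCyclo q) N q hqN)
    (H95.JK ↥E N q hqN) hbc
  exact H61.hrad_chartB_cutOver hq hA E N _ _ π hmax hmem hradB

include hq hA hq2 in
/-- **Reduced special fibre of the `A''`-chart `chartB (cutOver A E) J_E⁻¹`.** -/
theorem hrad_cutOver_JK_inv (π : cutOver A E)
    (hmax : maximalIdeal (cutOver A E) = Ideal.span {π}) :
    ∀ b : ↥(H40.chartB (cutOver A E) (H95.JK ↥E N q hqN)⁻¹),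
      (∃ n : ℕ, algebraMap (cutOver A E) ↥(H40.chartB (cutOver A E) (H95.JK ↥E N q hqN)⁻¹) π ∣
        b ^ n) →
        algebraMap (cutOver A E) ↥(H40.chartB (cutOver A E) (H95.JK ↥E N q hqN)⁻¹) π ∣ b := by
  have hradB := hradB_JK_inv_of_dvd hq hA N hqN hq2
  have hbc : baseChangeE E N (H95.JK (unrCyclo q) N q hqN)⁻¹ = (H95.JK ↥E N q hqN)⁻¹ := by
    rw [map_inv₀, H95.baseChangeE_JK E N q hqN]
  haveI := H95.finiteDimensional_JK_inv (unrCyclo q) N q hqN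
    (H99.natCast_ne_zero₀ N (unrCyclo q))
  haveI hR : IsReduced (↥(H40.chartB (A0 A q) (H95.JK (unrCyclo q) N q hqN)⁻¹) ⧸
      Ideal.span {algebraMap (A0 A q) ↥(H40.chartB (A0 A q) (H95.JK (unrCyclo q) N q hqN)⁻¹)
        ((q : ℕ) : A0 A q)}) := H3.isReduced_of_hrad hradB
  have hmem := H61.mem_chartB_cutOver_iff' hq hA E N (H95.JK (unrCyclo q) N q hqN)⁻¹
    (H95.JK ↥E N q hqN)⁻¹ hbc
  exact H61.hrad_chartB_cutOver hq hA E N _ _ π hmax hmem hradB

end CutOver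

section GeoTop

variable (E : IntermediateField (unrCyclo q) Qbar) [FiniteDimensional (unrCyclo q) E]
variable (M0 : ℕ) [NeZero M0] (hqM0 : ¬ q ∣ M0)

include hq hA hqM0 in
/-- **`hrad₁` of `H18.geoFnE'_inst`, VERBATIM.** -/
theorem hrad₁_geoTop (π : cutOver A E) (hmax : maximalIdeal (cutOver A E) = Ideal.span {π}) :
    ∀ b : ↥(H40.chartB (cutOver A E) (H95.JK ↥E (M0 * q) q (dvd_mul_left q M0))),
      (∃ n : ℕ, algebraMap (cutOver A E)
        ↥(H40.chartB (cutOver A E) (H95.JK ↥E (M0 * q) q (dvd_mul_left q M0))) π ∣ b ^ n) →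
        algebraMap (cutOver A E)
          ↥(H40.chartB (cutOver A E) (H95.JK ↥E (M0 * q) q (dvd_mul_left q M0))) π ∣ b :=
  hrad_cutOver_JK hq hA E (M0 * q) (dvd_mul_left q M0)
    (not_sq_dvd_mul_of_not_dvd hq.ne_zero hqM0) π hmax

include hq hA hqM0 in
/-- **`hrad₂` of `H18.geoFnE'_inst`, VERBATIM.** -/
theorem hrad₂_geoTop (π : cutOver A E) (hmax : maximalIdeal (cutOver A E) = Ideal.span {π}) :
    ∀ b : ↥(H40.chartB (cutOver A E) (H95.JK ↥E (M0 * q) q (dvd_mul_left q M0))⁻¹),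
      (∃ n : ℕ, algebraMap (cutOver A E)
        ↥(H40.chartB (cutOver A E) (H95.JK ↥E (M0 * q) q (dvd_mul_left q M0))⁻¹) π ∣ b ^ n) →
        algebraMap (cutOver A E)
          ↥(H40.chartB (cutOver A E) (H95.JK ↥E (M0 * q) q (dvd_mul_left q M0))⁻¹) π ∣ b :=
  hrad_cutOver_JK_inv hq hA E (M0 * q) (dvd_mul_left q M0)
    (not_sq_dvd_mul_of_not_dvd hq.ne_zero hqM0) π hmax

end GeoTop

end Fermat.Agent.S35.H69
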