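import Mathlib
import Fermat.Agent.S35.H70_TwoComponentsBCFinal

/-!
# S35, row TC-BC (helper70): uniqueness of the extended reduction map

A ring hom `red'' : chartB A'' (bc J₁) → R₀` which is `red` on the image of the `A₁`-chart and
`red` of the `A₁`-part on the constants IS `redE red` (`eq_redE`); in the `(J₁, J_E, hJ)` form with
helper95's `chartBC`: `eq_of_chartBC` (two such maps are equal).  So every statement proved for
`H70.redE` holds for ARBITRARY maps with the characterising properties exported by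
`H70.exists_twoComponents_chartBC`.
-/

set_option autoImplicit false
set_option linter.unusedSectionVars false
set_option linter.style.haveILetI false
set_option synthInstance.maxHeartbeats 400000
set_option maxHeartbeats 3200000

noncomputable section

namespace Fermat.Agent.S35.H70

open ModularCurve HahnSeries IsLocalRing
open Fermat.Agent.S18 Fermat.Agent.CA Fermat.Agent.CA.H79 Fermat.Agent.S34.H83

/-! ### Generic part -/

section Generic

variable {A₁ A₂ B E : Type*} [CommRing A₁] [IsDomain A₁] [IsPrincipalIdealRing A₁]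
  [CommRing A₂] [Algebra A₁ A₂] [Module.IsTorsionFree A₁ A₂]
  [CommRing B] [Algebra A₁ B]
  [CommRing E] [Algebra A₁ E] [Algebra A₂ E] [Algebra B E]
  [IsScalarTower A₁ A₂ E] [IsScalarTower A₁ B E]
  {R₀ : Type*} [CommRing R₀]
  {S : Type*} [SetLike S E] [SubringClass S E]

/-- A ring hom on a subring `s` with the elements of `genRing`, equal to `red` on `B` and to `red`
of the `A₁`-part on the constants, is `redGen red` (through `genEquiv`). -/
theorem eq_redGen_comp_genEquiv (q : A₁) (π : A₂)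
    (h1 : ∀ a : A₂, ∃ c : A₁, ∃ a' : A₂, a = algebraMap A₁ A₂ c + π * a')
    (h2 : ∀ c : A₁, π ∣ algebraMap A₁ A₂ c → q ∣ c)
    (h3 : π ∣ algebraMap A₁ A₂ q)
    (hLD : ∀ (r : ℕ) (m : Fin r → A₂), LinearIndependent A₁ m →
      LinearIndependent B (fun l => algebraMap A₂ E (m l)))
    (red : B →+* R₀) (hq : red (algebraMap A₁ B q) = 0)
    (s : S) (hs : ∀ z : E, z ∈ s ↔ z ∈ genRing A₂ B E)
    (red'' : s →+* R₀)
    (hcomp : ∀ (b : B) (hb : algebraMap B E b ∈ s), red'' ⟨algebraMap B E b, hb⟩ = red b)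
    (hconst : ∀ (a : A₂) (c : A₁) (a' : A₂), a = algebraMap A₁ A₂ c + π * a' →
      ∀ ha : algebraMap A₂ E a ∈ s, red'' ⟨algebraMap A₂ E a, ha⟩ = red (algebraMap A₁ B c)) :
    red'' = (redGen (E := E) q π h1 h2 h3 hLD red hq).comp
      (genEquiv s (genRing A₂ B E) hs : s →+* genRing A₂ B E) := by
  have key := genRing_ringHom_ext
    (f := red''.comp ((genEquiv s (genRing A₂ B E) hs).symm : genRing A₂ B E →+* s))
    (g := redGen (E := E) q π h1 h2 h3 hLD red hq)
    (fun b => by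
      rw [redGen_algebraMap]
      exact hcomp b ((hs _).2 (algebraMap B (genRing A₂ B E) b).2))
    (fun a => by
      obtain ⟨c, a', hca⟩ := h1 a
      rw [redGen_constGen q π h1 h2 h3 hLD red hq hca]
      exact hconst a c a' hca ((hs _).2 (constGen (B := B) (E := E) a).2))
  refine RingHom.ext fun z => ?_
  have := RingHom.congr_fun key (genEquiv s (genRing A₂ B E) hs z)
  rw [RingHom.comp_apply] at this
  exact this

end Generic

/-! ### Concrete part -/

section Concrete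

local notation "Qbar" => AlgebraicClosure ℚ

variable {A : ValuationSubring Qbar} {ℓ : ℕ} (hℓ : ℓ.Prime) (hA : A.LiesOverPrime ℓ)
variable (E : IntermediateField (H45.unrCyclo ℓ) Qbar) (N : ℕ) [NeZero N]
variable (J₁ : ↥(modularFunctionFieldFullC ↥(H45.unrCyclo ℓ) N))
  (π : ↥(H45.cutOver A E)) (hπ : maximalIdeal ↥(H45.cutOver A E) = Ideal.span {π})
  (h : GenBy (A := A) E N J₁) {R₀ : Type*} [CommRing R₀]
  (red : ↥(H40.chartB ↥(H45.A0 A ℓ) J₁) →+* R₀)
  (hq : red (algebraMap ↥(H45.A0 A ℓ) ↥(H40.chartB ↥(H45.A0 A ℓ) J₁)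
    ((ℓ : ℕ) : ↥(H45.A0 A ℓ))) = 0)

/-- **Uniqueness of `redE`.** -/
theorem eq_redE
    (red'' : ↥(H40.chartB ↥(H45.cutOver A E) (H45.baseChangeE E N J₁)) →+* R₀)
    (hcomp : ∀ b, red'' (S34.H70.chartMapE (A := A) E N J₁ b) = red b)
    (hconst : ∀ (a : ↥(H45.cutOver A E)) (c : ↥(H45.A0 A ℓ)) (a' : ↥(H45.cutOver A E)),
      a = algebraMap ↥(H45.A0 A ℓ) ↥(H45.cutOver A E) c + π * a' →
      red'' (algebraMap ↥(H45.cutOver A E)
        ↥(H40.chartB ↥(H45.cutOver A E) (H45.baseChangeE E N J₁)) a) =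
          red (algebraMap ↥(H45.A0 A ℓ) ↥(H40.chartB ↥(H45.A0 A ℓ) J₁) c)) :
    red'' = redE hℓ hA E N J₁ π hπ h red hq := by
  letI := S34.H70.algA0FE (A := A) E N
  letI := S34.H70.algSubFE (A := A) E N (H40.chartB ↥(H45.A0 A ℓ) J₁)
  haveI := S34.H70.isScalarTower_A0_cutOver_FE (A := A) (q := ℓ) E N
  haveI := S34.H70.isScalarTower_A0_sub_FE (A := A) (q := ℓ) E N (H40.chartB ↥(H45.A0 A ℓ) J₁)
  haveI := H45.isDiscreteValuationRing_A0 hℓ hA
  exact eq_redGen_comp_genEquiv (E := ↥(modularFunctionFieldFullC ↥E N))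
    ((ℓ : ℕ) : ↥(H45.A0 A ℓ)) π
    (S34.H70.h1_inst hℓ hA E π hπ) (S34.H70.h2_inst hℓ hA E π hπ)
    (S34.H70.h3_inst hℓ hA E π hπ)
    (S34.H70.hLD_inst (A := A) (q := ℓ) E N (H40.chartB ↥(H45.A0 A ℓ) J₁)) red hq
    (H40.chartB ↥(H45.cutOver A E) (H45.baseChangeE E N J₁))
    (mem_chartB_iff_mem_genRing (A := A) E N J₁ h) red''
    (fun b _ => hcomp b) (fun a c a' hca _ => hconst a c a' hca)

include hℓ hA hπ h hq in
/-- **Uniqueness, consumer form**: two ring homs on `chartB A'' J_E` (`J_E = baseChangeE E N J₁`)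
which are `red` along helper95's `chartBC` and `red` of the `A₁`-part on the constants (= the
clauses of `exists_twoComponents_chartBC`) are equal. -/
theorem eq_of_chartBC (J_E : ↥(modularFunctionFieldFullC ↥E N))
    (hJ : H45.baseChangeE E N J₁ = J_E)
    (r r' : ↥(H40.chartB ↥(H45.cutOver A E) J_E) →+* R₀)
    (hcomp : ∀ b, r (S34.H95.chartBC (A := A) E N J₁ J_E hJ b) = red b)
    (hconst : ∀ (a : ↥(H45.cutOver A E)) (c : ↥(H45.A0 A ℓ)) (a' : ↥(H45.cutOver A E)),
      a = algebraMap ↥(H45.A0 A ℓ) ↥(H45.cutOver A E) c + π * a' →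
      r (algebraMap ↥(H45.cutOver A E) ↥(H40.chartB ↥(H45.cutOver A E) J_E) a) =
          red (algebraMap ↥(H45.A0 A ℓ) ↥(H40.chartB ↥(H45.A0 A ℓ) J₁) c))
    (hcomp' : ∀ b, r' (S34.H95.chartBC (A := A) E N J₁ J_E hJ b) = red b)
    (hconst' : ∀ (a : ↥(H45.cutOver A E)) (c : ↥(H45.A0 A ℓ)) (a' : ↥(H45.cutOver A E)),
      a = algebraMap ↥(H45.A0 A ℓ) ↥(H45.cutOver A E) c + π * a' →
      r' (algebraMap ↥(H45.cutOver A E) ↥(H40.chartB ↥(H45.cutOver A E) J_E) a) =
          red (algebraMap ↥(H45.A0 A ℓ) ↥(H40.chartB ↥(H45.A0 A ℓ) J₁) c)) :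
    r = r' := by
  subst hJ
  rw [eq_redE hℓ hA E N J₁ π hπ h red hq r (fun b => hcomp b) hconst,
    eq_redE hℓ hA E N J₁ π hπ h red hq r' (fun b => hcomp' b) hconst']

include hℓ hA hπ h hq in
/-- In the `(J₁, J_E, hJ)` form, a map with the clauses of `exists_twoComponents_chartBC` is
`redE red` transported along `hJ` (stated after `subst`: at `J_E := baseChangeE E N J₁`). -/
theorem eq_redE_of_chartBC
    (hJ : H45.baseChangeE E N J₁ = H45.baseChangeE E N J₁)
    (r : ↥(H40.chartB ↥(H45.cutOver A E) (H45.baseChangeE E N J₁)) →+* R₀)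
    (hcomp : ∀ b, r (S34.H95.chartBC (A := A) E N J₁ (H45.baseChangeE E N J₁) hJ b) = red b)
    (hconst : ∀ (a : ↥(H45.cutOver A E)) (c : ↥(H45.A0 A ℓ)) (a' : ↥(H45.cutOver A E)),
      a = algebraMap ↥(H45.A0 A ℓ) ↥(H45.cutOver A E) c + π * a' →
      r (algebraMap ↥(H45.cutOver A E)
        ↥(H40.chartB ↥(H45.cutOver A E) (H45.baseChangeE E N J₁)) a) =
          red (algebraMap ↥(H45.A0 A ℓ) ↥(H40.chartB ↥(H45.A0 A ℓ) J₁) c)) :
    r = redE hℓ hA E N J₁ π hπ h red hq :=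
  eq_redE hℓ hA E N J₁ π hπ h red hq r (fun b => hcomp b) hconst

end Concrete

end Fermat.Agent.S35.H70
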