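/-
S35 / node (VB), E-level bridge in the SHARED-WITNESS form (helper6).

helper85's `chartE_res1_eq / chartE_hred / chartE_mem` are stated for helper70's `redE red`
LITERALLY, on `chartB A'' (baseChangeE E (ℓM) J₁)`.  The final assembly (`H18.geoFnEN_of_twoComponents`,
`H46.hE3_level`) has ARBITRARY maps `red'' : chartB A'' J_E →+* R₀` with the clauses of
`H70.exists_twoComponents_chartBC` (`hcomp`, `hconst`), `J_E` a fixed term with
`hJ : baseChangeE E (ℓM) J₁ = J_E`.  Here: the same three facts for such `red''`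
(`subst hJ` + `H70.eq_redE_of_chartBC`), and the `hbridge` package of `H46.hE3_level`.
-/
import Mathlib
import Fermat.Agent.S35.H85_ChartPlaceE
import Fermat.Agent.S35.H70_TwoComponentsBCUniq

set_option autoImplicit false
set_option linter.unusedSectionVars false
set_option linter.style.haveILetI false
set_option synthInstance.maxHeartbeats 400000
set_option maxHeartbeats 3200000

noncomputable section

namespace Fermat.Agent.S35.H6

open ModularCurve Polynomial IsLocalRing Fermat.Agent.S28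
open Fermat.Agent.S18 Fermat.Agent.S34.H92 Fermat.Agent.S34.H16 Fermat.Agent.S35.H92

local notation "Qbar" => AlgebraicClosure ℚ

section Chart

variable (M : ℕ) [NeZero M] {ℓ : ℕ} [hℓ : Fact ℓ.Prime] (hℓM : ¬ ℓ ∣ M)
  (A : ValuationSubring Qbar) (hA : A.LiesOverPrime ℓ)
  (E : IntermediateField (H45.unrCyclo ℓ) Qbar) [FiniteDimensional (H45.unrCyclo ℓ) E]

local notation "kA" => IsLocalRing.ResidueField A
local notation "L₁" => H45.unrCyclo ℓ
local notation "A₁" => H45.A0 A ℓ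
local notation "A₂" => H45.cutOver A E
local notation "FM" => modularFunctionFieldFullC (H45.unrCyclo ℓ) M
local notation "FN" => modularFunctionFieldFullC (H45.unrCyclo ℓ) (ℓ * M)
local notation "V" => VM M hℓM A hA
set_option quotPrecheck false in
local notation "FME" => modularFunctionFieldFullC (↥E) M
set_option quotPrecheck false in
local notation "FNE" => modularFunctionFieldFullC (↥E) (ℓ * M)
set_option quotPrecheck false in
local notation "VE" => VME M hℓM A hA E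

/-- **The E-level place bridge for ARBITRARY extended reductions**, `(J₁, J_E, hJ)` form:
`B'' = chartB A'' J_E ⊆ P''.O1`, `incl ∘ red'' = P''.res1` on `B''`, and
`b ∈ ker red'' ↔ P''.res1 b = 0`. -/
theorem chartE_bridge_JE (J₁ : FN) (π : A₂) (hπ : maximalIdeal A₂ = Ideal.span {π})
    (h : H70.GenBy (A := A) E (ℓ * M) J₁)
    {ϖV : V} {ϖV' : VE} {ι : V →+* LaurentSeries kA} {ι' : VE →+* LaurentSeries kA}
    {θb θb' : LaurentSeries kA}
    (hι : ∀ (a : V) (h : H45.baseChangeE E M (a : FM) ∈ VE), ι' ⟨_, h⟩ = ι a)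
    (hθb : θb' = θb)
    (hιc : ∀ a : A₂, ι' (constVME M hℓM A hA E a) = HahnSeries.C (resE A E a))
    {R₀ : Type*} [CommRing R₀] (red : ↥(H40.chartB A₁ J₁) →+* R₀)
    (hq : red (algebraMap A₁ ↥(H40.chartB A₁ J₁) ((ℓ : ℕ) : A₁)) = 0)
    (incl : R₀ →+* LaurentSeries kA) (hincl : Function.Injective incl)
    (J_E : FNE) (hJ : H45.baseChangeE E (ℓ * M) J₁ = J_E)
    (red'' : ↥(H40.chartB A₂ J_E) →+* R₀)
    (hcomp : ∀ b, red'' (S34.H95.chartBC (A := A) E (ℓ * M) J₁ J_E hJ b) = red b)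
    (hconst : ∀ (a : A₂) (c : A₁) (a' : A₂), a = algebraMap A₁ A₂ c + π * a' →
      red'' (algebraMap A₂ ↥(H40.chartB A₂ J_E) a) =
        red (algebraMap A₁ ↥(H40.chartB A₁ J₁) c)) :
    letI := algebraVMFN M hℓM A hA
    letI := algebraVMEFN M hℓM A hA E
    ∀ (P : CA.H99.PlaceOver (L := FN) ϖV (S18.H16.jNK L₁ (ℓ * M)) ι θb)
      (P' : CA.H99.PlaceOver (L := FNE) ϖV' (S18.H16.jNK (↥E) (ℓ * M)) ι' θb')
      (hBO : ∀ b : ↥(H40.chartB A₁ J₁), (b : FN) ∈ P.O1)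
      (_ : ∀ b : ↥(H40.chartB A₁ J₁), incl (red b) = P.res1 ⟨(b : FN), hBO b⟩),
      ∃ hB : ∀ z : ↥(H40.chartB A₂ J_E), (z : FNE) ∈ P'.O1,
        (∀ z : ↥(H40.chartB A₂ J_E), incl (red'' z) = P'.res1 ⟨(z : FNE), hB z⟩) ∧
        ∀ z : ↥(H40.chartB A₂ J_E),
          z ∈ RingHom.ker red'' ↔ P'.res1 ⟨(z : FNE), hB z⟩ = 0 := by
  letI := algebraVMFN M hℓM A hA
  letI := algebraVMEFN M hℓM A hA E
  subst hJ
  have e := H70.eq_redE_of_chartBC hℓ.out hA E (ℓ * M) J₁ π hπ h red hq rfl red''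
    (fun b => hcomp b) hconst
  subst e
  intro P P' hBO hspec
  have kmem := H85.chartE_mem M hℓM A hA E J₁ h hι hθb P P' hBO
  have kres := H85.chartE_res1_eq M hℓM A hA E J₁ π hπ h hι hθb hιc red hq incl P P' hBO hspec
  have khred := H85.chartE_hred M hℓM A hA E J₁ π hπ h hι hθb hιc red hq incl hincl P P' hBO hspec
  refine ⟨kmem, fun z => ?_, fun z => ?_⟩
  · have k := kres z
    obtain ⟨hz, e1⟩ := k
    exact e1.symm
  · have k := khred z (kmem z)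
    exact RingHom.mem_ker.trans k

/-- **`hbridge` of `H46.hE3_level` / `hBinf hredinf hB0 hred0` of `H46.exists_hG_E`**, for ARBITRARY
extended reductions `red₁'' red₂''` of the chart `chartB A'' J_E` (clauses of
`H70.exists_twoComponents_chartBC` / `exists_twoComponentsE_JK`), from the `A₁`-level compatibility
of `red₁ red₂` with ONE pair of `A₁`-level L0 places (`H55.L0ChartFacts.mem_inf/res_inf/mem_zero/
res_zero`).  It holds for EVERY pair of `E`-level places of helper92's types. -/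
theorem hbridge_chartBC (J₁ : FN) (π : A₂) (hπ : maximalIdeal A₂ = Ideal.span {π})
    (h : H70.GenBy (A := A) E (ℓ * M) J₁) (ϖ : A₂)
    {R₀ : Type*} [CommRing R₀] (red₁ red₂ : ↥(H40.chartB A₁ J₁) →+* R₀)
    (hq₁ : red₁ (algebraMap A₁ ↥(H40.chartB A₁ J₁) ((ℓ : ℕ) : A₁)) = 0)
    (hq₂ : red₂ (algebraMap A₁ ↥(H40.chartB A₁ J₁) ((ℓ : ℕ) : A₁)) = 0)
    (incl : R₀ →+* LaurentSeries kA) (hincl : Function.Injective incl)
    (J_E : FNE) (hJ : H45.baseChangeE E (ℓ * M) J₁ = J_E)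
    (red₁'' red₂'' : ↥(H40.chartB A₂ J_E) →+* R₀)
    (hc₁ : ∀ b, red₁'' (S34.H95.chartBC (A := A) E (ℓ * M) J₁ J_E hJ b) = red₁ b)
    (hc₂ : ∀ b, red₂'' (S34.H95.chartBC (A := A) E (ℓ * M) J₁ J_E hJ b) = red₂ b)
    (hk₁ : ∀ (a : A₂) (c : A₁) (a' : A₂), a = algebraMap A₁ A₂ c + π * a' →
      red₁'' (algebraMap A₂ ↥(H40.chartB A₂ J_E) a) =
        red₁ (algebraMap A₁ ↥(H40.chartB A₁ J₁) c))
    (hk₂ : ∀ (a : A₂) (c : A₁) (a' : A₂), a = algebraMap A₁ A₂ c + π * a' →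
      red₂'' (algebraMap A₂ ↥(H40.chartB A₂ J_E) a) =
        red₂ (algebraMap A₁ ↥(H40.chartB A₁ J₁) c)) :
    letI := algebraVMFN M hℓM A hA
    letI := algebraVMEFN M hℓM A hA E
    ∀ (Pi : CA.H99.PlaceOver (L := FN) ((ℓ : ℕ) : V) (S18.H16.jNK L₁ (ℓ * M))
        (resM M hℓM A hA) (resM M hℓM A hA (jMV M hℓM A hA) ^ ℓ))
      (P0 : CA.H99.PlaceOver (L := FN) ((ℓ : ℕ) : V) (S18.H16.jNK L₁ (ℓ * M))
        (iotaZero M hℓM A hA) (resM M hℓM A hA (jMV M hℓM A hA)))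
      (hBOi : ∀ b : ↥(H40.chartB A₁ J₁), (b : FN) ∈ Pi.O1)
      (_ : ∀ b : ↥(H40.chartB A₁ J₁), incl (red₁ b) = Pi.res1 ⟨(b : FN), hBOi b⟩)
      (hBO0 : ∀ b : ↥(H40.chartB A₁ J₁), (b : FN) ∈ P0.O1)
      (_ : ∀ b : ↥(H40.chartB A₁ J₁), incl (red₂ b) = P0.res1 ⟨(b : FN), hBO0 b⟩)
      (Pinf : CA.H99.PlaceOver (L := FNE) (constVME M hℓM A hA E ϖ) (S18.H16.jNK (↥E) (ℓ * M))
        (resME M hℓM A hA E) (resME M hℓM A hA E (jMVE M hℓM A hA E) ^ ℓ))
      (P0' : CA.H99.PlaceOver (L := FNE) (constVME M hℓM A hA E ϖ) (S18.H16.jNK (↥E) (ℓ * M))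
        (iotaZeroE M hℓM A hA E) (resME M hℓM A hA E (jMVE M hℓM A hA E))),
      ∃ (hBinf : ∀ b : ↥(H40.chartB A₂ J_E),
          algebraMap ↥(H40.chartB A₂ J_E) FNE b ∈ Pinf.O1)
        (hB0 : ∀ b : ↥(H40.chartB A₂ J_E), algebraMap ↥(H40.chartB A₂ J_E) FNE b ∈ P0'.O1),
        (∀ b : ↥(H40.chartB A₂ J_E), b ∈ RingHom.ker red₁'' ↔
          Pinf.res1 ⟨algebraMap ↥(H40.chartB A₂ J_E) FNE b, hBinf b⟩ = 0) ∧
        ∀ b : ↥(H40.chartB A₂ J_E), b ∈ RingHom.ker red₂'' ↔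
          P0'.res1 ⟨algebraMap ↥(H40.chartB A₂ J_E) FNE b, hB0 b⟩ = 0 := by
  letI := algebraVMFN M hℓM A hA
  letI := algebraVMEFN M hℓM A hA E
  intro Pi P0 hBOi hspeci hBO0 hspec0 Pinf P0'
  have hθ1 : resME M hℓM A hA E (jMVE M hℓM A hA E) ^ ℓ =
      resM M hℓM A hA (jMV M hℓM A hA) ^ ℓ := by rw [H85.resME_jMVE_eq]
  have k1 := chartE_bridge_JE M hℓM A hA E J₁ π hπ h
    (ϖV := ((ℓ : ℕ) : V)) (ϖV' := constVME M hℓM A hA E ϖ)
    (ι := resM M hℓM A hA) (ι' := resME M hℓM A hA E)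
    (θb := resM M hℓM A hA (jMV M hℓM A hA) ^ ℓ)
    (θb' := resME M hℓM A hA E (jMVE M hℓM A hA E) ^ ℓ)
    (H85.resME_baseChangeE M hℓM A hA E) hθ1
    (H85.hιc_infty M hℓM A hA E) red₁ hq₁ incl hincl J_E hJ red₁'' hc₁ hk₁
  have k1' := k1 Pi Pinf hBOi hspeci
  have k2 := chartE_bridge_JE M hℓM A hA E J₁ π hπ h
    (ϖV := ((ℓ : ℕ) : V)) (ϖV' := constVME M hℓM A hA E ϖ)
    (ι := iotaZero M hℓM A hA) (ι' := iotaZeroE M hℓM A hA E)
    (θb := resM M hℓM A hA (jMV M hℓM A hA))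
    (θb' := resME M hℓM A hA E (jMVE M hℓM A hA E))
    (H85.iotaZeroE_baseChangeE M hℓM A hA E)
    (H85.resME_jMVE_eq M hℓM A hA E)
    (H85.hιc_zero M hℓM A hA E) red₂ hq₂ incl hincl J_E hJ red₂'' hc₂ hk₂
  have k2' := k2 P0 P0' hBO0 hspec0
  obtain ⟨hB1, -, h1⟩ := k1'
  obtain ⟨hB2, -, h2⟩ := k2'
  exact ⟨hB1, hB2, h1, h2⟩

end Chart

end Fermat.Agent.S35.H6
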