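/-
S35 / node (VB), second file (helper6): the GLUE lemmas between
* the `A₁`-level L0 package (`H55.exists_twoComponents`: `TwoComponents` + `incl ∘ red_k = res1`),
* helper70's base change (W1) (`red_k'' ∘ chartBC = red_k`),
* helper85's `hred` (`incl (red_k'' b) = P_k''.res1 b` on the `E`-level chart),
and the consumers `H18.geoFnE'_of_twoComponents` (`hne hJ hVp hVq`) and `H46.exists_hG_E`
(`hBinf hredinf hB0 hred0`, `hpq₁`).  Everything generic, in the consumers' literal shapes.
-/
import Mathlib
import Fermat.Agent.S35.H6_VertBlock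

set_option autoImplicit false
set_option linter.unusedSectionVars false

namespace Fermat.Agent.S35.H6

open Fermat.Agent.S34 Fermat.Agent.S34.H83 Fermat.Agent.S35.H84 Fermat.Agent.CA.H99

/-! ### transfer along a chart map `ψ : B₁ → B''` with `red_k'' ∘ ψ = red_k` -/

section Transfer

variable {B₁ B D : Type*} [CommRing B₁] [CommRing B] [CommRing D]
  {red₁ red₂ : B₁ →+* D} {red₁' red₂' : B →+* D} (ψ : B₁ →+* B)

/-- `hne` passes to the base-changed chart. -/
theorem exists_ne_of_comp (h₁ : ∀ b, red₁' (ψ b) = red₁ b) (h₂ : ∀ b, red₂' (ψ b) = red₂ b)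
    (hne : ∃ z, red₁ z = 0 ∧ red₂ z ≠ 0) : ∃ z, red₁' z = 0 ∧ red₂' z ≠ 0 := by
  obtain ⟨z, hz1, hz2⟩ := hne
  exact ⟨ψ z, by rw [h₁, hz1], by rw [h₂]; exact hz2⟩

/-- `hJ` passes to the base-changed chart. -/
theorem red_ne_zero_of_comp {red : B₁ →+* D} {red' : B →+* D} (h : ∀ b, red' (ψ b) = red b)
    {u : B₁} (hu : red u ≠ 0) {u' : B} (huu : ψ u = u') : red' u' ≠ 0 := by
  rw [← huu, h]
  exact hu

end Transfer

/-! ### from `incl (red b) = res1 b` to the bridge facts -/

section Incl

variable {O : Type*} [CommRing O] {L : Type*} [Field L] [Algebra O L] {Fk : Type*} [Field Fk]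
  {ϖ : O} {θ : L} {ι : O →+* Fk} {θb : Fk} (P : PlaceOver ϖ θ ι θb)
  {B : Type*} [CommRing B] [Algebra B L] {D : Type*} [CommRing D]

/-- `hred` (kernel form) from the compatibility of a reduction with the place. -/
theorem red_eq_zero_iff_of_incl (red : B →+* D) (incl : D →+* Fk)
    (hincl : Function.Injective incl) (hB : ∀ b : B, algebraMap B L b ∈ P.O1)
    (hcompat : ∀ b : B, incl (red b) = P.res1 ⟨algebraMap B L b, hB b⟩) (b : B) :
    red b = 0 ↔ P.res1 ⟨algebraMap B L b, hB b⟩ = 0 := by
  rw [← hcompat b, map_eq_zero_iff incl hincl]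

/-- `hredinf` / `hred0` of `H46.exists_hG_E` at `p := ker red`. -/
theorem mem_ker_iff_of_incl (red : B →+* D) (incl : D →+* Fk)
    (hincl : Function.Injective incl) (hB : ∀ b : B, algebraMap B L b ∈ P.O1)
    (hcompat : ∀ b : B, incl (red b) = P.res1 ⟨algebraMap B L b, hB b⟩) (b : B) :
    b ∈ RingHom.ker red ↔ P.res1 ⟨algebraMap B L b, hB b⟩ = 0 := by
  rw [RingHom.mem_ker]
  exact red_eq_zero_iff_of_incl P red incl hincl hB hcompat b

/-- a coordinate with non-zero residue is outside the vertical prime. -/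
theorem red_ne_zero_of_res1_ne_zero (red : B →+* D) (incl : D →+* Fk)
    (hB : ∀ b : B, algebraMap B L b ∈ P.O1)
    (hcompat : ∀ b : B, incl (red b) = P.res1 ⟨algebraMap B L b, hB b⟩) {u : B}
    (hu : P.res1 ⟨algebraMap B L u, hB u⟩ ≠ 0) : red u ≠ 0 := by
  intro h0
  apply hu
  rw [← hcompat u, h0, map_zero]

end Incl

/-! ### `hVp` / `hVq` in the literal shape of `H18.geoFnE'_of_twoComponents` -/

section HV

variable {O : Type*} [CommRing O] {L : Type*} [Field L] [Algebra O L] {Fk : Type*} [Field Fk]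
  {ϖ : O} {θ : L} {ι : O →+* Fk} {θb : Fk} (P : PlaceOver ϖ θ ι θb)
  {B : Type*} [CommRing B] [IsDomain B] [Algebra B L] [IsFractionRing B L]
  [IsNoetherianRing B] [IsIntegrallyClosed B]
  {B' : Type*} [CommRing B'] [IsDomain B'] [Algebra B' L] [IsFractionRing B' L]
  [IsNoetherianRing B'] [IsIntegrallyClosed B']
  {D D' : Type*} [CommRing D] [CommRing D']

/-- **`hVp` / `hVq`**: the vertical primes `ker red`, `ker red'` of two charts of the same field,
whose reductions are both compatible with the SAME place `P`, have the same valuation ring. -/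
theorem valuationSubringAt_ker_eq_of_incl (red : B →+* D) (incl : D →+* Fk)
    (hincl : Function.Injective incl) (hB : ∀ b : B, algebraMap B L b ∈ P.O1)
    (hcompat : ∀ b : B, incl (red b) = P.res1 ⟨algebraMap B L b, hB b⟩)
    (red' : B' →+* D') (incl' : D' →+* Fk)
    (hincl' : Function.Injective incl') (hB' : ∀ b : B', algebraMap B' L b ∈ P.O1)
    (hcompat' : ∀ b : B', incl' (red' b) = P.res1 ⟨algebraMap B' L b, hB' b⟩) :
    ∀ [(RingHom.ker red).IsPrime] [(RingHom.ker red').IsPrime]
      (h1 : (RingHom.ker red).height = 1) (h2 : (RingHom.ker red').height = 1),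
      H56.valuationSubringAt (K := L) (RingHom.ker red) h1 =
        H56.valuationSubringAt (K := L) (RingHom.ker red') h2 := by
  intro _ _ h1 h2
  exact valuationSubringAt_eq_of_place P (RingHom.ker red) h1 hB
    (mem_ker_iff_of_incl P red incl hincl hB hcompat) (RingHom.ker red') h2 hB'
    (mem_ker_iff_of_incl P red' incl' hincl' hB' hcompat')

end HV

end Fermat.Agent.S35.H6
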