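import Mathlib
import Fermat.Agent.S35.H70_TwoComponentsBCInst

/-!
# S35, row TC-BC (helper70): semilinear / Frobenius compatibility of `redE`

If `Φ_S` is a ring endomorphism of the `A''`-chart which restricts to `Φ_B` on the `A₁`-chart and
to `Φ_A` on the constants `A''`, and `red ∘ Φ_B = Φ_R ∘ red` on the `A₁`-chart, then
`redE red ∘ Φ_S = Φ_R ∘ redE red` on the `A''`-chart, provided the same holds on the constants
(`redE_semilinear`); e.g. when `Φ_A a ≡ a ^ l (mod 𝔪)` and `Φ_R = (·)^l` on the residues of the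
`A₁`-constants (`redE_frobenius`).  This is `h1Φ` of `S35.H84.node_stable` at the `A''`-chart.
-/

set_option autoImplicit false
set_option linter.unusedSectionVars false
set_option linter.style.haveILetI false
set_option synthInstance.maxHeartbeats 400000
set_option maxHeartbeats 3200000

noncomputable section

namespace Fermat.Agent.S35.H70

open ModularCurve HahnSeries IsLocalRing
open Fermat.Agent.S18 Fermat.Agent.CA Fermat.Agent.S34.H83

local notation "Qbar" => AlgebraicClosure ℚ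

variable {A : ValuationSubring Qbar} {ℓ : ℕ} (hℓ : ℓ.Prime) (hA : A.LiesOverPrime ℓ)
variable (E : IntermediateField (H45.unrCyclo ℓ) Qbar) (N : ℕ) [NeZero N] (M : ℕ) [NeZero M]

section GenericEquiv

open Fermat.Agent.CA.H79 in
/-- `redGen_semilinear` read through a ring isomorphism `e : S' ≃ genRing`. -/
theorem redGen_semilinear_equiv {A₁ A₂ B F : Type*} [CommRing A₁] [IsDomain A₁]
    [IsPrincipalIdealRing A₁] [CommRing A₂] [Algebra A₁ A₂] [Module.IsTorsionFree A₁ A₂]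
    [CommRing B] [Algebra A₁ B] [CommRing F] [Algebra A₁ F] [Algebra A₂ F] [Algebra B F]
    [IsScalarTower A₁ A₂ F] [IsScalarTower A₁ B F] {R₀ : Type*} [CommRing R₀]
    (q : A₁) (π : A₂)
    (h1 : ∀ a : A₂, ∃ c : A₁, ∃ a' : A₂, a = algebraMap A₁ A₂ c + π * a')
    (h2 : ∀ c : A₁, π ∣ algebraMap A₁ A₂ c → q ∣ c)
    (h3 : π ∣ algebraMap A₁ A₂ q)
    (hLD : ∀ (r : ℕ) (m : Fin r → A₂), LinearIndependent A₁ m →
      LinearIndependent B (fun l => algebraMap A₂ F (m l)))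
    (red : B →+* R₀) (hq : red (algebraMap A₁ B q) = 0)
    {S' : Type*} [CommRing S'] (e : S' ≃+* genRing A₂ B F) (ΦS : S' →+* S') (ΦB : B →+* B)
    (ΦA : A₂ →+* A₂) (ΦR : R₀ →+* R₀)
    (hΦB : ∀ b : B, ΦS (e.symm (algebraMap B (genRing A₂ B F) b)) =
      e.symm (algebraMap B (genRing A₂ B F) (ΦB b)))
    (hΦA : ∀ a : A₂, ΦS (e.symm (constGen a)) = e.symm (constGen (ΦA a)))
    (hred : ∀ b : B, red (ΦB b) = ΦR (red b))
    (hconst : ∀ a : A₂, redGen (E := F) q π h1 h2 h3 hLD red hq (constGen (ΦA a)) =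
      ΦR (redGen (E := F) q π h1 h2 h3 hLD red hq (constGen a)))
    (z : S') :
    redGen (E := F) q π h1 h2 h3 hLD red hq (e (ΦS z)) =
      ΦR (redGen (E := F) q π h1 h2 h3 hLD red hq (e z)) := by
  have key := redGen_semilinear (E := F) q π h1 h2 h3 hLD red hq
    ((e : S' →+* genRing A₂ B F).comp (ΦS.comp (e.symm : genRing A₂ B F →+* S'))) ΦB ΦA ΦR
    (fun b => by
      show e (ΦS (e.symm _)) = _
      rw [hΦB, RingEquiv.apply_symm_apply])
    (fun a => by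
      show e (ΦS (e.symm _)) = _
      rw [hΦA, RingEquiv.apply_symm_apply])
    hred hconst (e z)
  have h2' : ((e : S' →+* genRing A₂ B F).comp (ΦS.comp (e.symm : genRing A₂ B F →+* S')))
      (e z) = e (ΦS z) := by
    show e (ΦS (e.symm (e z))) = _
    rw [RingEquiv.symm_apply_apply]
  rw [h2'] at key
  exact key

open Fermat.Agent.CA.H79 in
/-- `redGen_frobenius` read through a ring isomorphism `e : S' ≃ genRing`. -/
theorem redGen_frobenius_equiv {A₁ A₂ B F : Type*} [CommRing A₁] [IsDomain A₁]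
    [IsPrincipalIdealRing A₁] [CommRing A₂] [Algebra A₁ A₂] [Module.IsTorsionFree A₁ A₂]
    [CommRing B] [Algebra A₁ B] [CommRing F] [Algebra A₁ F] [Algebra A₂ F] [Algebra B F]
    [IsScalarTower A₁ A₂ F] [IsScalarTower A₁ B F] {R₀ : Type*} [CommRing R₀]
    (q : A₁) (π : A₂)
    (h1 : ∀ a : A₂, ∃ c : A₁, ∃ a' : A₂, a = algebraMap A₁ A₂ c + π * a')
    (h2 : ∀ c : A₁, π ∣ algebraMap A₁ A₂ c → q ∣ c)
    (h3 : π ∣ algebraMap A₁ A₂ q)
    (hLD : ∀ (r : ℕ) (m : Fin r → A₂), LinearIndependent A₁ m →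
      LinearIndependent B (fun l => algebraMap A₂ F (m l)))
    (red : B →+* R₀) (hq : red (algebraMap A₁ B q) = 0)
    {S' : Type*} [CommRing S'] (e : S' ≃+* genRing A₂ B F) (ΦS : S' →+* S') (ΦB : B →+* B)
    (ΦA : A₂ →+* A₂) (ΦR : R₀ →+* R₀) (l : ℕ)
    (hΦB : ∀ b : B, ΦS (e.symm (algebraMap B (genRing A₂ B F) b)) =
      e.symm (algebraMap B (genRing A₂ B F) (ΦB b)))
    (hΦA : ∀ a : A₂, ΦS (e.symm (constGen a)) = e.symm (constGen (ΦA a)))
    (hred : ∀ b : B, red (ΦB b) = ΦR (red b))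
    (hΦAl : ∀ a : A₂, ∃ a'' : A₂, ΦA a = a ^ l + π * a'')
    (hΦRl : ∀ c : A₁, ΦR (red (algebraMap A₁ B c)) = red (algebraMap A₁ B c) ^ l)
    (z : S') :
    redGen (E := F) q π h1 h2 h3 hLD red hq (e (ΦS z)) =
      ΦR (redGen (E := F) q π h1 h2 h3 hLD red hq (e z)) := by
  refine redGen_semilinear_equiv q π h1 h2 h3 hLD red hq e ΦS ΦB ΦA ΦR hΦB hΦA hred
    (fun a => ?_) z
  obtain ⟨c, a', hca⟩ := h1 a
  obtain ⟨a'', ha''⟩ := hΦAl a
  rw [redGen_constGen q π h1 h2 h3 hLD red hq hca, hΦRl, ha'']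
  simp only [map_add, map_mul, map_pow]
  rw [constGen_eq_piGen (B := B) (E := F) π, redGen_piGen, zero_mul, add_zero,
    redGen_constGen q π h1 h2 h3 hLD red hq hca]

end GenericEquiv

section Frob

variable (J₁ : ↥(modularFunctionFieldFullC ↥(H45.unrCyclo ℓ) N))
  (π : ↥(H45.cutOver A E)) (hπ : maximalIdeal ↥(H45.cutOver A E) = Ideal.span {π})
  (h : GenBy (A := A) E N J₁) {R₀ : Type*} [CommRing R₀]
  (red : ↥(H40.chartB ↥(H45.A0 A ℓ) J₁) →+* R₀)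
  (hq : red (algebraMap ↥(H45.A0 A ℓ) ↥(H40.chartB ↥(H45.A0 A ℓ) J₁)
    ((ℓ : ℕ) : ↥(H45.A0 A ℓ))) = 0)
  (ΦS : ↥(H40.chartB ↥(H45.cutOver A E) (H45.baseChangeE E N J₁)) →+*
    ↥(H40.chartB ↥(H45.cutOver A E) (H45.baseChangeE E N J₁)))
  (ΦB : ↥(H40.chartB ↥(H45.A0 A ℓ) J₁) →+* ↥(H40.chartB ↥(H45.A0 A ℓ) J₁))
  (ΦA : ↥(H45.cutOver A E) →+* ↥(H45.cutOver A E)) (ΦR : R₀ →+* R₀)

/-- Semilinear compatibility `red ∘ Φ = Φ_R ∘ red` passes from the `A₁`-chart to the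
`A''`-chart. -/
theorem redE_semilinear
    (hΦB : ∀ b : ↥(H40.chartB ↥(H45.A0 A ℓ) J₁),
      ΦS (S34.H70.chartMapE (A := A) E N J₁ b) = S34.H70.chartMapE (A := A) E N J₁ (ΦB b))
    (hΦA : ∀ a : ↥(H45.cutOver A E),
      ΦS (algebraMap ↥(H45.cutOver A E)
          ↥(H40.chartB ↥(H45.cutOver A E) (H45.baseChangeE E N J₁)) a) =
        algebraMap ↥(H45.cutOver A E)
          ↥(H40.chartB ↥(H45.cutOver A E) (H45.baseChangeE E N J₁)) (ΦA a))
    (hred : ∀ b : ↥(H40.chartB ↥(H45.A0 A ℓ) J₁), red (ΦB b) = ΦR (red b))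
    (hconst : ∀ a : ↥(H45.cutOver A E),
      redE hℓ hA E N J₁ π hπ h red hq
          (algebraMap ↥(H45.cutOver A E)
            ↥(H40.chartB ↥(H45.cutOver A E) (H45.baseChangeE E N J₁)) (ΦA a)) =
        ΦR (redE hℓ hA E N J₁ π hπ h red hq
          (algebraMap ↥(H45.cutOver A E)
            ↥(H40.chartB ↥(H45.cutOver A E) (H45.baseChangeE E N J₁)) a)))
    (z : ↥(H40.chartB ↥(H45.cutOver A E) (H45.baseChangeE E N J₁))) :
    redE hℓ hA E N J₁ π hπ h red hq (ΦS z) = ΦR (redE hℓ hA E N J₁ π hπ h red hq z) := by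
  letI := S34.H70.algA0FE (A := A) E N
  letI := S34.H70.algSubFE (A := A) E N (H40.chartB ↥(H45.A0 A ℓ) J₁)
  haveI := S34.H70.isScalarTower_A0_cutOver_FE (A := A) (q := ℓ) E N
  haveI := S34.H70.isScalarTower_A0_sub_FE (A := A) (q := ℓ) E N (H40.chartB ↥(H45.A0 A ℓ) J₁)
  haveI := H45.isDiscreteValuationRing_A0 hℓ hA
  exact redGen_semilinear_equiv (F := ↥(modularFunctionFieldFullC ↥E N))
    ((ℓ : ℕ) : ↥(H45.A0 A ℓ)) π
    (S34.H70.h1_inst hℓ hA E π hπ) (S34.H70.h2_inst hℓ hA E π hπ)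
    (S34.H70.h3_inst hℓ hA E π hπ)
    (S34.H70.hLD_inst (A := A) (q := ℓ) E N (H40.chartB ↥(H45.A0 A ℓ) J₁)) red hq
    (chartGenEquiv (A := A) E N J₁ h) ΦS ΦB ΦA ΦR (fun b => hΦB b) (fun a => hΦA a) hred
    hconst z

/-- **Frobenius form.**  `Φ_A a ≡ a ^ l (mod π)` on `A''` and `Φ_R = (·)^l` on the residues of
the `A₁`-constants. -/
theorem redE_frobenius (l : ℕ)
    (hΦB : ∀ b : ↥(H40.chartB ↥(H45.A0 A ℓ) J₁),
      ΦS (S34.H70.chartMapE (A := A) E N J₁ b) = S34.H70.chartMapE (A := A) E N J₁ (ΦB b))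
    (hΦA : ∀ a : ↥(H45.cutOver A E),
      ΦS (algebraMap ↥(H45.cutOver A E)
          ↥(H40.chartB ↥(H45.cutOver A E) (H45.baseChangeE E N J₁)) a) =
        algebraMap ↥(H45.cutOver A E)
          ↥(H40.chartB ↥(H45.cutOver A E) (H45.baseChangeE E N J₁)) (ΦA a))
    (hred : ∀ b : ↥(H40.chartB ↥(H45.A0 A ℓ) J₁), red (ΦB b) = ΦR (red b))
    (hΦAl : ∀ a : ↥(H45.cutOver A E), ΦA a - a ^ l ∈ maximalIdeal ↥(H45.cutOver A E))
    (hΦRl : ∀ c : ↥(H45.A0 A ℓ),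
      ΦR (red (algebraMap ↥(H45.A0 A ℓ) ↥(H40.chartB ↥(H45.A0 A ℓ) J₁) c)) =
        red (algebraMap ↥(H45.A0 A ℓ) ↥(H40.chartB ↥(H45.A0 A ℓ) J₁) c) ^ l)
    (z : ↥(H40.chartB ↥(H45.cutOver A E) (H45.baseChangeE E N J₁))) :
    redE hℓ hA E N J₁ π hπ h red hq (ΦS z) = ΦR (redE hℓ hA E N J₁ π hπ h red hq z) := by
  letI := S34.H70.algA0FE (A := A) E N
  letI := S34.H70.algSubFE (A := A) E N (H40.chartB ↥(H45.A0 A ℓ) J₁)
  haveI := S34.H70.isScalarTower_A0_cutOver_FE (A := A) (q := ℓ) E N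
  haveI := S34.H70.isScalarTower_A0_sub_FE (A := A) (q := ℓ) E N (H40.chartB ↥(H45.A0 A ℓ) J₁)
  haveI := H45.isDiscreteValuationRing_A0 hℓ hA
  have hΦAl' : ∀ a : ↥(H45.cutOver A E), ∃ a'' : ↥(H45.cutOver A E),
      ΦA a = a ^ l + π * a'' := fun a => by
    have h2 := hΦAl a
    rw [hπ, Ideal.mem_span_singleton] at h2
    obtain ⟨a'', ha''⟩ := h2
    exact ⟨a'', by rw [← ha'']; ring⟩
  exact redGen_frobenius_equiv (F := ↥(modularFunctionFieldFullC ↥E N))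
    ((ℓ : ℕ) : ↥(H45.A0 A ℓ)) π
    (S34.H70.h1_inst hℓ hA E π hπ) (S34.H70.h2_inst hℓ hA E π hπ)
    (S34.H70.h3_inst hℓ hA E π hπ)
    (S34.H70.hLD_inst (A := A) (q := ℓ) E N (H40.chartB ↥(H45.A0 A ℓ) J₁)) red hq
    (chartGenEquiv (A := A) E N J₁ h) ΦS ΦB ΦA ΦR l (fun b => hΦB b) (fun a => hΦA a) hred
    hΦAl' hΦRl z

end Frob

end Fermat.Agent.S35.H70
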