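import Mathlib
import Fermat.Agent.S35.H70_TwoComponentsBCInst

/-!
# S35, row TC-BC (helper70): `TwoComponents` for the `A''`-charts (main theorem)

`mapE` : the restriction of a ring hom `ιE : F_E(M) → F_E(N)` (compatible with
`ι : chartB A₁ c₁ → chartB A₁ J₁` through `baseChangeE`, identity on the constants `A''`) to the
`A''`-charts; `twoComponents_cutOver` : `S34.H83.TwoComponents` for the `A₁`-charts gives
`S34.H83.TwoComponents` for the `A''`-charts, with `red_k'' := redE red_k`, the same `R₀`, `W`, `q`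
and `qB := π`.
-/

set_option autoImplicit false
set_option linter.unusedSectionVars false
set_option linter.style.haveILetI false
set_option synthInstance.maxHeartbeats 400000
set_option maxHeartbeats 3200000

noncomputable section

namespace Fermat.Agent.S35.H70

open ModularCurve HahnSeries IsLocalRing
open Fermat.Agent.S18 Fermat.Agent.CA Fermat.Agent.S34.H83

local notation "Qbar" => AlgebraicClosure ℚ

variable {A : ValuationSubring Qbar} {ℓ : ℕ} (hℓ : ℓ.Prime) (hA : A.LiesOverPrime ℓ)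
variable (E : IntermediateField (H45.unrCyclo ℓ) Qbar) (N : ℕ) [NeZero N] (M : ℕ) [NeZero M]

section MapE

variable (J₁ : ↥(modularFunctionFieldFullC ↥(H45.unrCyclo ℓ) N))
  (c₁ : ↥(modularFunctionFieldFullC ↥(H45.unrCyclo ℓ) M))
  (hN : GenBy (A := A) E N J₁) (hM : GenBy (A := A) E M c₁)
  (ιE : ↥(modularFunctionFieldFullC ↥E M) →+* ↥(modularFunctionFieldFullC ↥E N))
  (ι : ↥(H40.chartB ↥(H45.A0 A ℓ) c₁) →+* ↥(H40.chartB ↥(H45.A0 A ℓ) J₁))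
  (hιbc : ∀ b : ↥(H40.chartB ↥(H45.A0 A ℓ) c₁),
    ιE (H45.baseChangeE E M (b : ↥(modularFunctionFieldFullC ↥(H45.unrCyclo ℓ) M))) =
      H45.baseChangeE E N
        ((ι b : ↥(H40.chartB ↥(H45.A0 A ℓ) J₁)) :
          ↥(modularFunctionFieldFullC ↥(H45.unrCyclo ℓ) N)))
  (hιc : ∀ a : ↥(H45.cutOver A E),
    ιE (algebraMap ↥(H45.cutOver A E) ↥(modularFunctionFieldFullC ↥E M) a) =
      algebraMap ↥(H45.cutOver A E) ↥(modularFunctionFieldFullC ↥E N) a)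

/-- The restriction of `ιE : F_E(M) → F_E(N)` to the `A''`-charts. -/
def mapE : ↥(H40.chartB ↥(H45.cutOver A E) (H45.baseChangeE E M c₁)) →+*
    ↥(H40.chartB ↥(H45.cutOver A E) (H45.baseChangeE E N J₁)) :=
  letI := S34.H70.algA0FE (A := A) E N
  letI := S34.H70.algSubFE (A := A) E N (H40.chartB ↥(H45.A0 A ℓ) J₁)
  letI := S34.H70.algA0FE (A := A) E M
  letI := S34.H70.algSubFE (A := A) E M (H40.chartB ↥(H45.A0 A ℓ) c₁)
  ((chartGenEquiv (A := A) E N J₁ hN).symm : _ →+* _).comp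
    ((mapGen (A₂ := ↥(H45.cutOver A E)) (E := ↥(modularFunctionFieldFullC ↥E N))
        (EM := ↥(modularFunctionFieldFullC ↥E M)) ιE ι hιbc hιc).comp
      (chartGenEquiv (A := A) E M c₁ hM : _ →+* _))

@[simp] theorem coe_mapE (x : ↥(H40.chartB ↥(H45.cutOver A E) (H45.baseChangeE E M c₁))) :
    ((mapE E N M J₁ c₁ hN hM ιE ι hιbc hιc x :
      ↥(H40.chartB ↥(H45.cutOver A E) (H45.baseChangeE E N J₁))) :
        ↥(modularFunctionFieldFullC ↥E N)) =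
      ιE (x : ↥(modularFunctionFieldFullC ↥E M)) := rfl

end MapE

section Main

variable (J₁ : ↥(modularFunctionFieldFullC ↥(H45.unrCyclo ℓ) N))
  (c₁ : ↥(modularFunctionFieldFullC ↥(H45.unrCyclo ℓ) M))
  (π : ↥(H45.cutOver A E)) (hπ : maximalIdeal ↥(H45.cutOver A E) = Ideal.span {π})
  (hN : GenBy (A := A) E N J₁) (hM : GenBy (A := A) E M c₁)
  {R₀ : Type*} [CommRing R₀]
  {red₁ red₂ : ↥(H40.chartB ↥(H45.A0 A ℓ) J₁) →+* R₀}
  {ι V : ↥(H40.chartB ↥(H45.A0 A ℓ) c₁) →+* ↥(H40.chartB ↥(H45.A0 A ℓ) J₁)}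
  {rbar : ↥(H40.chartB ↥(H45.A0 A ℓ) c₁) →+* R₀} {W : R₀ →+* R₀} {qn : ℕ}

/-- **`TwoComponents` for the `A''`-charts from `TwoComponents` for the `A₁`-charts.** -/
theorem twoComponents_cutOver
    (TC : TwoComponents red₁ red₂ ι V rbar W qn
      (algebraMap ↥(H45.A0 A ℓ) ↥(H40.chartB ↥(H45.A0 A ℓ) J₁) ((ℓ : ℕ) : ↥(H45.A0 A ℓ))))
    (hιA₁ : ∀ c : ↥(H45.A0 A ℓ),
      ι (algebraMap ↥(H45.A0 A ℓ) ↥(H40.chartB ↥(H45.A0 A ℓ) c₁) c) =
        algebraMap ↥(H45.A0 A ℓ) ↥(H40.chartB ↥(H45.A0 A ℓ) J₁) c)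
    (hVA₁ : ∀ c : ↥(H45.A0 A ℓ),
      V (algebraMap ↥(H45.A0 A ℓ) ↥(H40.chartB ↥(H45.A0 A ℓ) c₁) c) =
        algebraMap ↥(H45.A0 A ℓ) ↥(H40.chartB ↥(H45.A0 A ℓ) J₁) c)
    (hq₁ : red₁ (algebraMap ↥(H45.A0 A ℓ) ↥(H40.chartB ↥(H45.A0 A ℓ) J₁)
      ((ℓ : ℕ) : ↥(H45.A0 A ℓ))) = 0)
    (hq₂ : red₂ (algebraMap ↥(H45.A0 A ℓ) ↥(H40.chartB ↥(H45.A0 A ℓ) J₁)
      ((ℓ : ℕ) : ↥(H45.A0 A ℓ))) = 0)
    (hqM : rbar (algebraMap ↥(H45.A0 A ℓ) ↥(H40.chartB ↥(H45.A0 A ℓ) c₁)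
      ((ℓ : ℕ) : ↥(H45.A0 A ℓ))) = 0)
    (ιE VE : ↥(modularFunctionFieldFullC ↥E M) →+* ↥(modularFunctionFieldFullC ↥E N))
    (hιbc : ∀ b : ↥(H40.chartB ↥(H45.A0 A ℓ) c₁),
      ιE (H45.baseChangeE E M (b : ↥(modularFunctionFieldFullC ↥(H45.unrCyclo ℓ) M))) =
        H45.baseChangeE E N
          ((ι b : ↥(H40.chartB ↥(H45.A0 A ℓ) J₁)) :
            ↥(modularFunctionFieldFullC ↥(H45.unrCyclo ℓ) N)))
    (hιc : ∀ a : ↥(H45.cutOver A E),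
      ιE (algebraMap ↥(H45.cutOver A E) ↥(modularFunctionFieldFullC ↥E M) a) =
        algebraMap ↥(H45.cutOver A E) ↥(modularFunctionFieldFullC ↥E N) a)
    (hVbc : ∀ b : ↥(H40.chartB ↥(H45.A0 A ℓ) c₁),
      VE (H45.baseChangeE E M (b : ↥(modularFunctionFieldFullC ↥(H45.unrCyclo ℓ) M))) =
        H45.baseChangeE E N
          ((V b : ↥(H40.chartB ↥(H45.A0 A ℓ) J₁)) :
            ↥(modularFunctionFieldFullC ↥(H45.unrCyclo ℓ) N)))
    (hVc : ∀ a : ↥(H45.cutOver A E),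
      VE (algebraMap ↥(H45.cutOver A E) ↥(modularFunctionFieldFullC ↥E M) a) =
        algebraMap ↥(H45.cutOver A E) ↥(modularFunctionFieldFullC ↥E N) a) :
    TwoComponents (redE hℓ hA E N J₁ π hπ hN red₁ hq₁) (redE hℓ hA E N J₁ π hπ hN red₂ hq₂)
      (mapE E N M J₁ c₁ hN hM ιE ι hιbc hιc) (mapE E N M J₁ c₁ hN hM VE V hVbc hVc)
      (redE hℓ hA E M c₁ π hπ hM rbar hqM) W qn
      (algebraMap ↥(H45.cutOver A E)
        ↥(H40.chartB ↥(H45.cutOver A E) (H45.baseChangeE E N J₁)) π) := by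
  letI := S34.H70.algA0FE (A := A) E N
  letI := S34.H70.algSubFE (A := A) E N (H40.chartB ↥(H45.A0 A ℓ) J₁)
  haveI := S34.H70.isScalarTower_A0_cutOver_FE (A := A) (q := ℓ) E N
  haveI := S34.H70.isScalarTower_A0_sub_FE (A := A) (q := ℓ) E N (H40.chartB ↥(H45.A0 A ℓ) J₁)
  letI := S34.H70.algA0FE (A := A) E M
  letI := S34.H70.algSubFE (A := A) E M (H40.chartB ↥(H45.A0 A ℓ) c₁)
  haveI := S34.H70.isScalarTower_A0_cutOver_FE (A := A) (q := ℓ) E M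
  haveI := S34.H70.isScalarTower_A0_sub_FE (A := A) (q := ℓ) E M (H40.chartB ↥(H45.A0 A ℓ) c₁)
  haveI := H45.isDiscreteValuationRing_A0 hℓ hA
  exact twoComponents_subring (E := ↥(modularFunctionFieldFullC ↥E N))
    (EM := ↥(modularFunctionFieldFullC ↥E M)) ((ℓ : ℕ) : ↥(H45.A0 A ℓ)) π
    (S34.H70.h1_inst hℓ hA E π hπ) (S34.H70.h2_inst hℓ hA E π hπ)
    (S34.H70.h3_inst hℓ hA E π hπ)
    (S34.H70.hLD_inst (A := A) (q := ℓ) E N (H40.chartB ↥(H45.A0 A ℓ) J₁))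
    (S34.H70.hLD_inst (A := A) (q := ℓ) E M (H40.chartB ↥(H45.A0 A ℓ) c₁))
    TC hιA₁ hVA₁ hq₁ hq₂ hqM ιE VE hιbc hιc hVbc hVc
    (H40.chartB ↥(H45.cutOver A E) (H45.baseChangeE E N J₁))
    (mem_chartB_iff_mem_genRing (A := A) E N J₁ hN)
    (H40.chartB ↥(H45.cutOver A E) (H45.baseChangeE E M c₁))
    (mem_chartB_iff_mem_genRing (A := A) E M c₁ hM)

end Main

end Fermat.Agent.S35.H70
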