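import Mathlib
import Fermat.Agent.S30.H12_Compat

/-!
# Joint compatible systems of Kummer-type maps (helper72, S35 row N3d)

`S30.H12.exists_compatible_system` produces, from level-wise Kummer-type maps `L →+ J` (killed by
`p ^ k`, kernel `p ^ k L`, equivariant for a family of operators), a compatible system
`p • lam (k + 1) = lam k`.

Here we do the same for a **pair** of such systems `l₁ k : L₁ →+ J₁`, `l₂ k : L₂ →+ J₂` which are
moreover intertwined by families `Ver i : L₁ →+ L₂`, `P i : J₁ →+ J₂`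
(`l₂ (Ver i x) = P i (l₁ x)`).  The proof uses `H12.exists_compatible_system` as a black box on
`L₁ × L₂ →+ J₁ × J₂`; adding the two coordinate idempotents to the operator family forces the
limit system to be diagonal, and the off-diagonal operators `(x, y) ↦ (0, Ver i x)`,
`(u, v) ↦ (0, P i u)` encode the intertwining relation.

In the application (S35, clause (ii)): `L₁ = Lat (M q)`, `L₂ = Lat M`, `J₁ = JZero (M q)`,
`J₂ = JZero M`, `Ver` = the two transfers, `P` = the two degeneracy push-forwards `α_*`, `β_*`.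
-/

set_option autoImplicit false

namespace Fermat.Agent.S35.H72

open Fermat.Agent.S30

section Joint

variable {L₁ L₂ J₁ J₂ : Type*} [AddCommGroup L₁] [AddCommGroup L₂] [AddCommGroup J₁]
  [AddCommGroup J₂]

/-- The operator family on `L₁ × L₂` (resp. `J₁ × J₂`) used in the proof of
`exists_joint_compatible_system`. -/
def jointOp {A₁ A₂ : Type*} [AddCommGroup A₁] [AddCommGroup A₂] {I₁ I₂ I₃ : Type*}
    (t₁ : I₁ → A₁ →+ A₁) (t₂ : I₂ → A₂ →+ A₂) (V : I₃ → A₁ →+ A₂) :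
    (I₁ ⊕ I₂) ⊕ (I₃ ⊕ Bool) → (A₁ × A₂ →+ A₁ × A₂)
  | Sum.inl (Sum.inl i) => (AddMonoidHom.inl A₁ A₂).comp ((t₁ i).comp (AddMonoidHom.fst A₁ A₂))
  | Sum.inl (Sum.inr i) => (AddMonoidHom.inr A₁ A₂).comp ((t₂ i).comp (AddMonoidHom.snd A₁ A₂))
  | Sum.inr (Sum.inl i) => (AddMonoidHom.inr A₁ A₂).comp ((V i).comp (AddMonoidHom.fst A₁ A₂))
  | Sum.inr (Sum.inr true) => (AddMonoidHom.inl A₁ A₂).comp (AddMonoidHom.fst A₁ A₂)
  | Sum.inr (Sum.inr false) => (AddMonoidHom.inr A₁ A₂).comp (AddMonoidHom.snd A₁ A₂)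

variable [Module.Finite ℤ L₁] [Module.Finite ℤ L₂] [IsAddTorsionFree L₁] [IsAddTorsionFree L₂]

/-- **Joint compactness.**  Level-wise existence of a pair of Kummer-type maps
`l₁ : L₁ →+ J₁`, `l₂ : L₂ →+ J₂` (each killed by `p ^ k`, with kernel `p ^ k L`, equivariant for
its own operator family) which are intertwined by `Ver i`, `P i` implies the existence of a pair
of *compatible* systems with the same properties.  All scalar multiplications are by natural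
numbers. -/
theorem exists_joint_compatible_system (p : ℕ) (hp : 0 < p) {I₁ I₂ I₃ : Type*}
    (th₁ : I₁ → L₁ →+ L₁) (ta₁ : I₁ → J₁ →+ J₁) (th₂ : I₂ → L₂ →+ L₂) (ta₂ : I₂ → J₂ →+ J₂)
    (Ver : I₃ → L₁ →+ L₂) (P : I₃ → J₁ →+ J₂)
    (hfin₁ : ∀ k, Set.Finite {y : J₁ | p ^ k • y = 0})
    (hfin₂ : ∀ k, Set.Finite {y : J₂ | p ^ k • y = 0})
    (h : ∀ k, ∃ (l₁ : L₁ →+ J₁) (l₂ : L₂ →+ J₂),
      ((∀ x, p ^ k • l₁ x = 0) ∧ (∀ x, l₁ x = 0 → ∃ y, x = p ^ k • y) ∧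
        ∀ i x, l₁ (th₁ i x) = ta₁ i (l₁ x)) ∧
      ((∀ x, p ^ k • l₂ x = 0) ∧ (∀ x, l₂ x = 0 → ∃ y, x = p ^ k • y) ∧
        ∀ i x, l₂ (th₂ i x) = ta₂ i (l₂ x)) ∧
      ∀ i x, l₂ (Ver i x) = P i (l₁ x)) :
    ∃ (l₁ : ℕ → L₁ →+ J₁) (l₂ : ℕ → L₂ →+ J₂),
      ((∀ k x, p ^ k • l₁ k x = 0) ∧ (∀ k x, l₁ k x = 0 → ∃ y, x = p ^ k • y) ∧
        (∀ k i x, l₁ k (th₁ i x) = ta₁ i (l₁ k x)) ∧ ∀ k x, p • l₁ (k + 1) x = l₁ k x) ∧
      ((∀ k x, p ^ k • l₂ k x = 0) ∧ (∀ k x, l₂ k x = 0 → ∃ y, x = p ^ k • y) ∧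
        (∀ k i x, l₂ k (th₂ i x) = ta₂ i (l₂ k x)) ∧ ∀ k x, p • l₂ (k + 1) x = l₂ k x) ∧
      ∀ k i x, l₂ k (Ver i x) = P i (l₁ k x) := by
  classical
  have hfin : ∀ k, Set.Finite {y : J₁ × J₂ | p ^ k • y = 0} := by
    intro k
    refine ((hfin₁ k).prod (hfin₂ k)).subset ?_
    rintro ⟨u, v⟩ huv
    have h1 : p ^ k • u = 0 := congrArg Prod.fst huv
    have h2 : p ^ k • v = 0 := congrArg Prod.snd huv
    exact ⟨h1, h2⟩
  obtain ⟨lam, h0, hker, hT, hc⟩ := H12.exists_compatible_system (L := L₁ × L₂) (J := J₁ × J₂) p hp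
    (jointOp th₁ th₂ Ver) (jointOp ta₁ ta₂ P) hfin (by
      intro k
      obtain ⟨l₁, l₂, ⟨a1, a2, a3⟩, ⟨b1, b2, b3⟩, hV⟩ := h k
      refine ⟨l₁.prodMap l₂, ?_, ?_, ?_⟩
      · rintro ⟨x, y⟩
        exact Prod.ext (a1 x) (b1 y)
      · rintro ⟨x, y⟩ hxy
        have h1 : l₁ x = 0 := congrArg Prod.fst hxy
        have h2 : l₂ y = 0 := congrArg Prod.snd hxy
        obtain ⟨x', hx'⟩ := a2 x h1
        obtain ⟨y', hy'⟩ := b2 y h2
        exact ⟨(x', y'), Prod.ext hx' hy'⟩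
      · rintro ((i | i) | (i | (_ | _))) ⟨x, y⟩
        · exact Prod.ext (a3 i x) (map_zero l₂)
        · exact Prod.ext (map_zero l₁) (b3 i y)
        · exact Prod.ext (map_zero l₁) (hV i x)
        · exact Prod.ext (map_zero l₁) rfl
        · exact Prod.ext rfl (map_zero l₂))
  -- the limit system is diagonal
  have hd1 : ∀ k x, (lam k (x, 0)).2 = 0 := by
    intro k x
    have := congrArg Prod.snd (hT k (Sum.inr (Sum.inr true)) (x, 0))
    simpa [jointOp] using this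
  have hd2 : ∀ k y, (lam k (0, y)).1 = 0 := by
    intro k y
    have := congrArg Prod.fst (hT k (Sum.inr (Sum.inr false)) (0, y))
    simpa [jointOp] using this
  refine ⟨fun k => (AddMonoidHom.fst J₁ J₂).comp ((lam k).comp (AddMonoidHom.inl L₁ L₂)),
    fun k => (AddMonoidHom.snd J₁ J₂).comp ((lam k).comp (AddMonoidHom.inr L₁ L₂)),
    ⟨fun k x => ?_, fun k x hx => ?_, fun k i x => ?_, fun k x => ?_⟩,
    ⟨fun k y => ?_, fun k y hy => ?_, fun k i y => ?_, fun k y => ?_⟩, fun k i x => ?_⟩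
  · exact congrArg Prod.fst (h0 k (x, 0))
  · have hx0 : lam k (x, 0) = 0 := Prod.ext hx (hd1 k x)
    obtain ⟨⟨y₁, y₂⟩, hy⟩ := hker k _ hx0
    exact ⟨y₁, congrArg Prod.fst hy⟩
  · have := congrArg Prod.fst (hT k (Sum.inl (Sum.inl i)) (x, 0))
    simpa [jointOp] using this
  · exact congrArg Prod.fst (hc k (x, 0))
  · exact congrArg Prod.snd (h0 k (0, y))
  · have hy0 : lam k (0, y) = 0 := Prod.ext (hd2 k y) hy
    obtain ⟨⟨y₁, y₂⟩, hy'⟩ := hker k _ hy0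
    exact ⟨y₂, congrArg Prod.snd hy'⟩
  · have := congrArg Prod.snd (hT k (Sum.inl (Sum.inr i)) (0, y))
    simpa [jointOp] using this
  · exact congrArg Prod.snd (hc k (0, y))
  · have := congrArg Prod.snd (hT k (Sum.inr (Sum.inl i)) (x, 0))
    simpa [jointOp] using this

end Joint

end Fermat.Agent.S35.H72
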