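import Mathlib
import Fermat.Agent.S35.H72_N3Final
import Fermat.Agent.S35.H90_NormEquivBeta

/-!
# S35 / row N3 over `ℚ̄`, unconditional (helper72)

With helper90's `H90.lamW_verB` on main, the `β`-half of `H72_N3Final` becomes unconditional:

* `pushBeta_lamQ` : `pushBeta M q (lamQ (M q) hn x) = lamQ M hn (verB D hq hqM x)`;
* `pushBeta_eq_zero_of_verB_eq_zero` : the kernel form;
* `push_lamQ` : both halves, for the canonical `lamQ`;
* `push_lam_canonical` : both halves for ANY `lamN` with `bcJ ∘ lamN = lamW`;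
* `exists_lam_push` : the shape `(A4)` of the S35 assembly at one prime `q` — for every modulus `n`
  ONE map `lamN` at level `M q` (not depending on `q`: it is `lamQ (M q) hn`) with the three
  Kummer–Poincaré clauses and the two kernel clauses.
-/

set_option autoImplicit false
set_option linter.style.haveILetI false
set_option linter.unusedSectionVars false

noncomputable section

namespace Fermat.Agent.S35.H72

open AlgebraicCurve ModularCurve Fermat.Agent.S29
open Fermat.Agent.S41.H72 (ALData)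

attribute [local instance] Fermat.Agent.S29.H85.merAlgebra

variable {M q : ℕ} [NeZero M]

/-- **NORM-EQUIV for `β` over `ℚ̄`**: `β_* (lamQ_{Mq} x) = lamQ_M (Ver_B x)`. -/
theorem pushBeta_lamQ (D : ALData M q) (hq : q.Prime) (hqM : ¬ q ∣ M) {n : ℕ} (hn : 0 < n)
    (x : H80.Lat (M * q)) :
    haveI : NeZero q := ⟨hq.ne_zero⟩
    H86.pushBeta M q (lamQ (M * q) hn x) = lamQ M hn (H90.verB D hq hqM x) :=
  pushBeta_lamQ_of D hq hqM hn (fun y => H90.lamW_verB D hq hqM hn y) x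

/-- Kernel form for `β`. -/
theorem pushBeta_eq_zero_of_verB_eq_zero (D : ALData M q) (hq : q.Prime) (hqM : ¬ q ∣ M)
    {n : ℕ} (hn : 0 < n) (x : H80.Lat (M * q))
    (hx : haveI : NeZero q := ⟨hq.ne_zero⟩
      H90.verB D hq hqM x = 0) :
    haveI : NeZero q := ⟨hq.ne_zero⟩
    H86.pushBeta M q (lamQ (M * q) hn x) = 0 :=
  pushBeta_eq_zero_of_verB_eq_zero_of D hq hqM hn (fun y => H90.lamW_verB D hq hqM hn y) x hx

/-- Both halves of NORM-EQUIV over `ℚ̄` for the canonical maps `lamQ`. -/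
theorem push_lamQ (D : ALData M q) (hq : q.Prime) (hqM : ¬ q ∣ M) {n : ℕ} (hn : 0 < n) :
    haveI : NeZero q := ⟨hq.ne_zero⟩
    (∀ x, H86.pushAlpha M q (lamQ (M * q) hn x) = lamQ M hn (H90.verA D hq hqM x)) ∧
    (∀ x, H86.pushBeta M q (lamQ (M * q) hn x) = lamQ M hn (H90.verB D hq hqM x)) :=
  ⟨pushAlpha_lamQ D hq hqM hn, pushBeta_lamQ D hq hqM hn⟩

/-- helper57's shape (#2789 (1)), unconditional. -/
theorem push_lam_canonical (D : ALData M q) (hq : q.Prime) (hqM : ¬ q ∣ M) {n : ℕ}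
    (hn : 0 < n)
    (lamN : haveI : NeZero q := ⟨hq.ne_zero⟩
      H80.Lat (M * q) →+ JZero (M * q))
    (hcan : haveI : NeZero q := ⟨hq.ne_zero⟩
      ∀ x, H80.bcJ (M * q) (lamN x) = H65.lamW (H85.kummerSetupFinal (M * q) hn) hn x) :
    haveI : NeZero q := ⟨hq.ne_zero⟩
    ∃ lamM : H80.Lat M →+ JZero M,
      (∀ x, H86.pushAlpha M q (lamN x) = lamM (H90.verA D hq hqM x)) ∧
      (∀ x, H86.pushBeta M q (lamN x) = lamM (H90.verB D hq hqM x)) :=
  push_lam_of_canonical D hq hqM hn (fun y => H90.lamW_verB D hq hqM hn y) lamN hcan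

/-- The shape `(A4)` of the S35 assembly at one prime `q ∥ M q`: the canonical Kummer–Poincaré map
at level `M q` and modulus `n` has the three clauses of `H80.exists_lam_JZero` and sends
`ker Ver_A` into `ker α_*` and `ker Ver_B` into `ker β_*`. -/
theorem lamQ_spec_push (D : ALData M q) (hq : q.Prime) (hqM : ¬ q ∣ M) {n : ℕ} (hn : 0 < n) :
    haveI : NeZero q := ⟨hq.ne_zero⟩
    (∀ x : H80.Lat (M * q), (n : ℤ) • lamQ (M * q) hn x = 0) ∧
    (∀ x : H80.Lat (M * q), lamQ (M * q) hn x = 0 → ∃ y : H80.Lat (M * q), x = (n : ℤ) • y) ∧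
    (∀ (ℓ : Nat.Primes) (x : H80.Lat (M * q)),
      lamQ (M * q) hn (H80.cohT (M * q) ℓ x) = heckeOperatorBar (M * q) ℓ (lamQ (M * q) hn x)) ∧
    (∀ x : H80.Lat (M * q), H90.verA D hq hqM x = 0 →
      H86.pushAlpha M q (lamQ (M * q) hn x) = 0) ∧
    (∀ x : H80.Lat (M * q), H90.verB D hq hqM x = 0 →
      H86.pushBeta M q (lamQ (M * q) hn x) = 0) := by
  haveI : NeZero q := ⟨hq.ne_zero⟩
  obtain ⟨h1, h2, h3⟩ := lamQ_spec (M * q) hn
  exact ⟨h1, h2, h3, fun x hx => pushAlpha_eq_zero_of_verA_eq_zero D hq hqM hn x hx,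
    fun x hx => pushBeta_eq_zero_of_verB_eq_zero D hq hqM hn x hx⟩

end Fermat.Agent.S35.H72
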