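/-
helper82 — S35 row G4 (c) / review remark (c2): the crossing points of the two components of the
special fibre are fixed by the square of Frobenius, in the *ideal-stability* form needed by the
`(g4)` step of the S35 chain (`(phibar^2 lam)(n) = lam(n)^(q^2)` at a node) and by the ratio lemma
(`n' = n` at nodes).  Everything is derived from helper83's L0 → L1 interface
`S34.H83.TwoComponents` alone; no `F_q`-structure of the branch ring is used.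

`R` the branch ring (level-`M` special fibre), `W : R → R` the substitution `t ↦ t ^ q`,
`Fr : R → R` the coefficientwise Frobenius, related by `z ^ q = W (Fr z)`.
If `n` is a point of `B` lying on both components, with images `𝔞`, `𝔟` in `R`, then
`W 𝔞 ⊆ 𝔟`, `W 𝔟 ⊆ 𝔞`, hence `W² z ∈ 𝔟 ↔ z ∈ 𝔟` and `Fr² z ∈ 𝔟 ↔ z ∈ 𝔟` (same for `𝔞`).
If an automorphism `sB` of the chart `B` reduces to `Fr` on both components, then `sB² n = n`.
-/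
import Mathlib
import Fermat.Agent.S34.H83_L0Target

set_option autoImplicit false

namespace Fermat.Agent.S35.H82

open Fermat.Agent.S34.H83

variable {B R BM : Type*} [CommRing B] [CommRing R] [CommRing BM]
  {red₁ red₂ : B →+* R} {ι V : BM →+* B} {rbar : BM →+* R} {W : R →+* R} {q : ℕ} {qB : B}

/-- At a crossing point, `W` maps the image on the first component into the image on the
second one. -/
theorem W_mem_snd_of_mem_fst (h : TwoComponents red₁ red₂ ι V rbar W q qB)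
    (n : Ideal B) (𝔞 𝔟 : Ideal R)
    (hn₁ : ∀ z : B, z ∈ n ↔ red₁ z ∈ 𝔞) (hn₂ : ∀ z : B, z ∈ n ↔ red₂ z ∈ 𝔟)
    {θ : R} (hθ : θ ∈ 𝔞) : W θ ∈ 𝔟 := by
  obtain ⟨ψ, rfl⟩ := h.hrbar θ
  have h1 : ι ψ ∈ n := (hn₁ _).2 (by rw [h.h1ι]; exact hθ)
  have h2 := (hn₂ _).1 h1
  rwa [h.h2ι] at h2

/-- At a crossing point, `W` maps the image on the second component into the image on the
first one. -/
theorem W_mem_fst_of_mem_snd (h : TwoComponents red₁ red₂ ι V rbar W q qB)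
    (n : Ideal B) (𝔞 𝔟 : Ideal R)
    (hn₁ : ∀ z : B, z ∈ n ↔ red₁ z ∈ 𝔞) (hn₂ : ∀ z : B, z ∈ n ↔ red₂ z ∈ 𝔟)
    {θ : R} (hθ : θ ∈ 𝔟) : W θ ∈ 𝔞 := by
  obtain ⟨ψ, rfl⟩ := h.hrbar θ
  have h1 : V ψ ∈ n := (hn₂ _).2 (by rw [h.h2V]; exact hθ)
  have h2 := (hn₁ _).1 h1
  rwa [h.h1V] at h2

/-- A ring endomorphism mapping a maximal ideal into itself reflects membership. -/
theorem mem_iff_of_map_le {R : Type*} [CommRing R] (T : R →+* R) (𝔪 : Ideal R)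
    (hm : 𝔪.IsMaximal) (hT : ∀ z ∈ 𝔪, T z ∈ 𝔪) (z : R) : T z ∈ 𝔪 ↔ z ∈ 𝔪 := by
  refine ⟨fun hz => ?_, hT z⟩
  have hle : 𝔪 ≤ 𝔪.comap T := fun x hx => hT x hx
  have hne : 𝔪.comap T ≠ ⊤ := by
    intro htop
    have h1 : (1 : R) ∈ 𝔪.comap T := by rw [htop]; trivial
    rw [Ideal.mem_comap, map_one] at h1
    exact hm.ne_top ((Ideal.eq_top_iff_one _).mpr h1)
  have heq : 𝔪 = 𝔪.comap T := hm.eq_of_le hne hle
  rw [heq]
  exact hz

/-- `W²` preserves and reflects the image of a crossing point on the second component. -/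
theorem W_W_mem_snd_iff (h : TwoComponents red₁ red₂ ι V rbar W q qB)
    (n : Ideal B) (𝔞 𝔟 : Ideal R) (h𝔟 : 𝔟.IsMaximal)
    (hn₁ : ∀ z : B, z ∈ n ↔ red₁ z ∈ 𝔞) (hn₂ : ∀ z : B, z ∈ n ↔ red₂ z ∈ 𝔟) (z : R) :
    W (W z) ∈ 𝔟 ↔ z ∈ 𝔟 := by
  have := mem_iff_of_map_le (W.comp W) 𝔟 h𝔟
    (fun x hx => W_mem_snd_of_mem_fst h n 𝔞 𝔟 hn₁ hn₂
      (W_mem_fst_of_mem_snd h n 𝔞 𝔟 hn₁ hn₂ hx)) z
  simpa using this

/-- `W²` preserves and reflects the image of a crossing point on the first component. -/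
theorem W_W_mem_fst_iff (h : TwoComponents red₁ red₂ ι V rbar W q qB)
    (n : Ideal B) (𝔞 𝔟 : Ideal R) (h𝔞 : 𝔞.IsMaximal)
    (hn₁ : ∀ z : B, z ∈ n ↔ red₁ z ∈ 𝔞) (hn₂ : ∀ z : B, z ∈ n ↔ red₂ z ∈ 𝔟) (z : R) :
    W (W z) ∈ 𝔞 ↔ z ∈ 𝔞 := by
  have := mem_iff_of_map_le (W.comp W) 𝔞 h𝔞
    (fun x hx => W_mem_fst_of_mem_snd h n 𝔞 𝔟 hn₁ hn₂
      (W_mem_snd_of_mem_fst h n 𝔞 𝔟 hn₁ hn₂ hx)) z
  simpa using this

/-- `z ^ (q * q) = W (W (Fr (Fr z)))` when `z ^ q = W (Fr z)` for all `z`. -/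
theorem pow_mul_self_eq (W Fr : R →+* R) (q : ℕ) (hFr : ∀ z : R, z ^ q = W (Fr z)) (z : R) :
    z ^ (q * q) = W (W (Fr (Fr z))) := by
  rw [pow_mul, hFr z, ← map_pow, hFr (Fr z)]

/-- **Crossing points are `Frob²`-rational (second component).** -/
theorem frob_frob_mem_snd_iff (h : TwoComponents red₁ red₂ ι V rbar W q qB) (hq : 0 < q)
    (Fr : R →+* R) (hFr : ∀ z : R, z ^ q = W (Fr z))
    (n : Ideal B) (𝔞 𝔟 : Ideal R) (h𝔟 : 𝔟.IsMaximal)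
    (hn₁ : ∀ z : B, z ∈ n ↔ red₁ z ∈ 𝔞) (hn₂ : ∀ z : B, z ∈ n ↔ red₂ z ∈ 𝔟) (z : R) :
    Fr (Fr z) ∈ 𝔟 ↔ z ∈ 𝔟 := by
  have hprime : 𝔟.IsPrime := h𝔟.isPrime
  rw [← W_W_mem_snd_iff h n 𝔞 𝔟 h𝔟 hn₁ hn₂ (Fr (Fr z)), ← pow_mul_self_eq W Fr q hFr z]
  constructor
  · exact fun hz => hprime.mem_of_pow_mem _ hz
  · exact fun hz => Ideal.pow_mem_of_mem _ hz _ (Nat.mul_pos hq hq)

/-- **Crossing points are `Frob²`-rational (first component).** -/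
theorem frob_frob_mem_fst_iff (h : TwoComponents red₁ red₂ ι V rbar W q qB) (hq : 0 < q)
    (Fr : R →+* R) (hFr : ∀ z : R, z ^ q = W (Fr z))
    (n : Ideal B) (𝔞 𝔟 : Ideal R) (h𝔞 : 𝔞.IsMaximal)
    (hn₁ : ∀ z : B, z ∈ n ↔ red₁ z ∈ 𝔞) (hn₂ : ∀ z : B, z ∈ n ↔ red₂ z ∈ 𝔟) (z : R) :
    Fr (Fr z) ∈ 𝔞 ↔ z ∈ 𝔞 := by
  have hprime : 𝔞.IsPrime := h𝔞.isPrime
  rw [← W_W_mem_fst_iff h n 𝔞 𝔟 h𝔞 hn₁ hn₂ (Fr (Fr z)), ← pow_mul_self_eq W Fr q hFr z]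
  constructor
  · exact fun hz => hprime.mem_of_pow_mem _ hz
  · exact fun hz => Ideal.pow_mem_of_mem _ hz _ (Nat.mul_pos hq hq)

/-- **A crossing point of the chart is fixed by the square of a Frobenius lift.**
`sB` an endomorphism of the chart `B` which reduces to `Fr` on the first component. -/
theorem map_map_mem_iff_of_crossing (h : TwoComponents red₁ red₂ ι V rbar W q qB) (hq : 0 < q)
    (Fr : R →+* R) (hFr : ∀ z : R, z ^ q = W (Fr z))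
    (sB : B →+* B) (hs₁ : ∀ z : B, red₁ (sB z) = Fr (red₁ z))
    (n : Ideal B) (𝔞 𝔟 : Ideal R) (h𝔞 : 𝔞.IsMaximal)
    (hn₁ : ∀ z : B, z ∈ n ↔ red₁ z ∈ 𝔞) (hn₂ : ∀ z : B, z ∈ n ↔ red₂ z ∈ 𝔟) (z : B) :
    sB (sB z) ∈ n ↔ z ∈ n := by
  rw [hn₁, hs₁, hs₁, frob_frob_mem_fst_iff h hq Fr hFr n 𝔞 𝔟 h𝔞 hn₁ hn₂, ← hn₁]

/-- Evaluation at a `Frob²`-stable point: if `ev : R → k` is a surjection with kernel `𝔟`,
`R` a `k`-algebra with `ev` a retraction, and `Fr` is `Frobenius`-semilinear, then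
`ev (Fr (Fr z)) = (ev z) ^ (q * q)`. -/
theorem eval_frob_frob {k : Type*} [Field k] [Algebra k R] (Fr : R →+* R) (q : ℕ)
    (hsemi : ∀ c : k, Fr (algebraMap k R c) = algebraMap k R (c ^ q))
    (ev : R →ₐ[k] k) (𝔟 : Ideal R) (hker : ∀ z : R, ev z = 0 ↔ z ∈ 𝔟)
    (hstab : ∀ z : R, z ∈ 𝔟 → Fr (Fr z) ∈ 𝔟) (z : R) :
    ev (Fr (Fr z)) = ev z ^ (q * q) := by
  have hz : z - algebraMap k R (ev z) ∈ 𝔟 := by
    rw [← hker, map_sub, AlgHom.commutes, Algebra.algebraMap_self_apply, sub_self]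
  have h1 := hstab _ hz
  rw [map_sub, map_sub, hsemi, hsemi, ← hker, map_sub, AlgHom.commutes,
    Algebra.algebraMap_self_apply, sub_eq_zero] at h1
  rw [h1, pow_mul]

end Fermat.Agent.S35.H82
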