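/-
S35 / row G1 hedge (helper84), NOTE 2 of helper65's review: **the compatibility of the Frobenius
lift with the SECOND reduction follows from the compatibility with the first one and the level-`M`
compatibilities.**

`TwoComponents red₁ red₂ ι V rbar W q πB` (helper83).  Let `ΦB` be an automorphism of the chart `B`
which stabilises `ker red₁` (e.g. `red₁ ∘ ΦB = ΦD₁ ∘ red₁`, `ΦD₁` injective) and sends `πB` into
`ker red₂`.  Then

* `map_mem_ker_red₂` : `ΦB (ker red₂) ⊆ ker red₂` (`ΦB` permutes the two primes over `πB`);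
* `red₂_map` : if moreover `ΦB ∘ V = V ∘ ΦBM` and `rbar ∘ ΦBM = ΦD ∘ rbar` (level-`M` data), then
  `red₂ ∘ ΦB = ΦD ∘ red₂` -- because `B = V(BM) + ker red₂` (`red₂ ∘ V = rbar` is onto).
* `red₁_map` : the mirror statement with `ι`.
-/
import Mathlib
import Fermat.Agent.S35.H84_ChartFrobTC

set_option autoImplicit false
set_option linter.unusedSectionVars false
set_option linter.style.haveILetI false

namespace Fermat.Agent.S35.H84

open Fermat.Agent.S34.H83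

variable {B D BM : Type*} [CommRing B] [IsDomain B] [CommRing D] [IsDomain D] [CommRing BM]
  {red₁ red₂ : B →+* D} {ι V : BM →+* B} {rbar : BM →+* D} {W : D →+* D} {q : ℕ} {πB : B}

/-- An automorphism of `B` which stabilises `ker red₁` maps `ker red₂` into itself. -/
theorem map_mem_ker_red₂ (h : TwoComponents red₁ red₂ ι V rbar W q πB) (ΦB : B ≃+* B)
    (hπ : red₂ (ΦB πB) = 0) (hstab₁ : ∀ b, red₁ (ΦB b) = 0 ↔ red₁ b = 0)
    (hne₁ : ∃ z, red₁ z = 0 ∧ red₂ z ≠ 0) {z : B} (hz : red₂ z = 0) : red₂ (ΦB z) = 0 := by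
  -- `p := ΦB⁻¹ (ker red₂)` is a prime containing `πB`
  haveI hk₂ : (RingHom.ker red₂).IsPrime := RingHom.ker_isPrime red₂
  haveI hp : ((RingHom.ker red₂).comap (ΦB : B →+* B)).IsPrime :=
    Ideal.comap_isPrime _ _
  have hπp : πB ∈ (RingHom.ker red₂).comap (ΦB : B →+* B) := by
    rw [Ideal.mem_comap, RingHom.mem_ker]
    exact hπ
  rcases vertTC_le_of_mem h _ hπp with h1 | h2
  · exfalso
    obtain ⟨z₀, hz₁, hz₂⟩ := hne₁
    -- `ΦB.symm z₀ ∈ ker red₁`, hence `z₀ = ΦB (ΦB.symm z₀) ∈ ker red₂`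
    have hs : red₁ (ΦB.symm z₀) = 0 := by
      rw [← hstab₁, RingEquiv.apply_symm_apply]
      exact hz₁
    have := h1 ((RingHom.mem_ker).mpr hs)
    rw [Ideal.mem_comap, RingHom.mem_ker] at this
    have h3 : red₂ z₀ = 0 := by
      have h4 : (ΦB : B →+* B) (ΦB.symm z₀) = z₀ := ΦB.apply_symm_apply z₀
      rw [h4] at this
      exact this
    exact hz₂ h3
  · have := h2 ((RingHom.mem_ker).mpr hz)
    rw [Ideal.mem_comap, RingHom.mem_ker] at this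
    exact this

omit [IsDomain B] [IsDomain D] in
/-- **`red₂ ∘ ΦB = ΦD ∘ red₂`** from the level-`M` compatibilities and `ΦB (ker red₂) ⊆ ker red₂`. -/
theorem red₂_map_of_ker (h : TwoComponents red₁ red₂ ι V rbar W q πB) (ΦB : B →+* B)
    (ΦBM : BM →+* BM) (ΦD : D →+* D) (hV : ∀ ψ, ΦB (V ψ) = V (ΦBM ψ))
    (hrb : ∀ ψ, rbar (ΦBM ψ) = ΦD (rbar ψ))
    (hker : ∀ z, red₂ z = 0 → red₂ (ΦB z) = 0) (z : B) : red₂ (ΦB z) = ΦD (red₂ z) := by
  obtain ⟨ψ, hψ⟩ := h.hrbar (red₂ z)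
  have h0 : red₂ (z - V ψ) = 0 := by rw [map_sub, h.h2V, hψ, sub_self]
  have h1 := hker _ h0
  rw [map_sub, map_sub, sub_eq_zero] at h1
  rw [h1, hV, h.h2V, hrb, hψ]

omit [IsDomain B] [IsDomain D] in
/-- the mirror statement: `red₁ ∘ ΦB = ΦD ∘ red₁` from `ΦB ∘ ι = ι ∘ ΦBM`. -/
theorem red₁_map_of_ker (h : TwoComponents red₁ red₂ ι V rbar W q πB) (ΦB : B →+* B)
    (ΦBM : BM →+* BM) (ΦD : D →+* D) (hι : ∀ ψ, ΦB (ι ψ) = ι (ΦBM ψ))
    (hrb : ∀ ψ, rbar (ΦBM ψ) = ΦD (rbar ψ))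
    (hker : ∀ z, red₁ z = 0 → red₁ (ΦB z) = 0) (z : B) : red₁ (ΦB z) = ΦD (red₁ z) := by
  obtain ⟨ψ, hψ⟩ := h.hrbar (red₁ z)
  have h0 : red₁ (z - ι ψ) = 0 := by rw [map_sub, h.h1ι, hψ, sub_self]
  have h1 := hker _ h0
  rw [map_sub, map_sub, sub_eq_zero] at h1
  rw [h1, hι, h.h1ι, hrb, hψ]

/-- **NOTE 2.** `red₂ ∘ ΦB = ΦD ∘ red₂` for an automorphism `ΦB` stabilising `ker red₁`. -/
theorem red₂_map (h : TwoComponents red₁ red₂ ι V rbar W q πB) (ΦB : B ≃+* B)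
    (ΦBM : BM →+* BM) (ΦD : D →+* D) (hV : ∀ ψ, ΦB (V ψ) = V (ΦBM ψ))
    (hrb : ∀ ψ, rbar (ΦBM ψ) = ΦD (rbar ψ))
    (hπ : red₂ (ΦB πB) = 0) (hstab₁ : ∀ b, red₁ (ΦB b) = 0 ↔ red₁ b = 0)
    (hne₁ : ∃ z, red₁ z = 0 ∧ red₂ z ≠ 0) (z : B) : red₂ (ΦB z) = ΦD (red₂ z) :=
  red₂_map_of_ker h (ΦB : B →+* B) ΦBM ΦD hV hrb
    (fun _ hz => map_mem_ker_red₂ h ΦB hπ hstab₁ hne₁ hz) z

end Fermat.Agent.S35.H84
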