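/-
helper84 — S35 row G2 (escape points), abstract, on top of helper47's Morse tower files.

`eq_of_not_served` : at a node, two points (with values in the same noetherian local ring `A'`)
which are *never served* by a Morse tower coincide.  Hence there is at most one never-served
("escape") point per node, and the escape set is finite as soon as the nodes are
(`S35.H84.nodes_finite`).  Proof = L2(a) (`CA.H47.sub_mem_span_of_genBy`) at every level `N`
plus Krull's intersection theorem in `A'`.
-/
import Mathlib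
import Fermat.Agent.CA.H47_ServedOrStable

set_option autoImplicit false

namespace Fermat.Agent.S35.H84

open IsLocalRing Fermat.Agent.CA.H47

variable {A₁ O A' : Type*} [CommRing A₁] [CommRing O] [Algebra A₁ O] [CommRing A']
  [Algebra A₁ A'] [IsLocalRing A'] [IsNoetherianRing A']

/-- A never-served point has both Morse coordinates of level `N` divisible by `q ^ (N+1)`. -/
theorem dvd_of_not_served {q : A₁} {xs ys : ℕ → O} {P : O →ₐ[A₁] A'} {N : ℕ}
    (h : ¬ Served q xs ys P N) :
    algebraMap A₁ A' q ^ (N + 1) ∣ P (xs N) ∧ algebraMap A₁ A' q ^ (N + 1) ∣ P (ys N) := by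
  unfold Served at h
  rw [not_or, not_not, not_not] at h
  exact h

/-- **At most one never-served point per node.** -/
theorem eq_of_not_served {q : A₁} {x y : O} {xs ys Gs : ℕ → O} {cs : ℕ → A₁}
    (hT : IsMorseTower q x y xs ys Gs cs) (hgen : GenBy q ![x, y])
    (hq : algebraMap A₁ A' q ∈ maximalIdeal A')
    (P P' : O →ₐ[A₁] A') (hP : ∀ N, ¬ Served q xs ys P N) (hP' : ∀ N, ¬ Served q xs ys P' N) :
    P = P' := by
  refine AlgHom.ext fun b => ?_
  have hmem : ∀ N : ℕ, P b - P' b ∈ maximalIdeal A' ^ (N + 1) := by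
    intro N
    have hgN : GenBy q ![xs N, ys N] := (hT N).1.genBy hgen
    obtain ⟨hx, hy⟩ := dvd_of_not_served (hP N)
    obtain ⟨hx', hy'⟩ := dvd_of_not_served (hP' N)
    have hqN : ∀ z : A', algebraMap A₁ A' q ^ (N + 1) ∣ z → z ∈ maximalIdeal A' ^ (N + 1) := by
      rintro z ⟨w, rfl⟩
      exact Ideal.mul_mem_right _ _ (Ideal.pow_mem_pow hq _)
    have hPm : ∀ i, P (![xs N, ys N] i) ∈ maximalIdeal A' := by
      intro i
      have hle : maximalIdeal A' ^ (N + 1) ≤ maximalIdeal A' := Ideal.pow_le_self (Nat.succ_ne_zero N)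
      fin_cases i
      · exact hle (hqN _ hx)
      · exact hle (hqN _ hy)
    have hb := sub_mem_span_of_genBy hgN P P' hq hPm b
    refine (Ideal.span_le.mpr ?_) hb
    rintro _ ⟨i, rfl⟩
    fin_cases i
    · exact Ideal.sub_mem _ (hqN _ hx) (hqN _ hx')
    · exact Ideal.sub_mem _ (hqN _ hy) (hqN _ hy')
  have hbot : (⨅ i : ℕ, maximalIdeal A' ^ i) = ⊥ :=
    Ideal.iInf_pow_eq_bot_of_isLocalRing _ (maximalIdeal.isMaximal A').ne_top
  have : P b - P' b ∈ (⨅ i : ℕ, maximalIdeal A' ^ i) := by
    rw [Ideal.mem_iInf]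
    intro i
    exact Ideal.pow_le_pow_right (Nat.le_succ i) (hmem i)
  rw [hbot, Ideal.mem_bot, sub_eq_zero] at this
  exact this

end Fermat.Agent.S35.H84
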