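import Mathlib
import Fermat.Agent.S18.H45_CutOverField
import Fermat.Agent.S34.H16_RelDeg
import Fermat.Agent.S35.H16_RelDegV

/-!
S35 / TC-BC glue (helper85): the coefficientwise base change `baseChangeE E N : F_N(K₁) → F_N(E)`
commutes with BOTH embeddings `F_M → F_N` (the inclusion `S34.H16.degAlgebra` and
`V_q = S34.H36.vSub` / `S35.H16.vAlgebra`), and more generally so does every
`S18.H99.fullCMap φ N`.
-/

set_option autoImplicit false
set_option linter.unusedSectionVars false
set_option linter.style.haveILetI false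
set_option synthInstance.maxHeartbeats 400000

noncomputable section

namespace Fermat.Agent.S35.H85

open ModularCurve Fermat.Agent.S18 Fermat.Agent.S34.H16 Fermat.Agent.S35.H16

local notation "Qbar" => AlgebraicClosure ℚ

section FullCMap

variable {K K' : Type} [Field K] [Field K'] (φ : K →+* K') (M N : ℕ) [NeZero M] [NeZero N]

/-- `fullCMap φ` commutes with the inclusions `F_M ⊆ F_N`. -/
theorem fullCMap_degAlgebra (h : M ∣ N) (x : modularFunctionFieldFullC K M) :
    H99.fullCMap φ N
        (@algebraMap (modularFunctionFieldFullC K M) (modularFunctionFieldFullC K N) _ _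
          (degAlgebra K M N h) x) =
      @algebraMap (modularFunctionFieldFullC K' M) (modularFunctionFieldFullC K' N) _ _
        (degAlgebra K' M N h) (H99.fullCMap φ M x) := by
  apply Subtype.ext
  rw [H99.coe_fullCMap, degAlgebra_algebraMap_coe, degAlgebra_algebraMap_coe, H99.coe_fullCMap]

/-- `fullCMap φ` commutes with `V_q : F_M → F_N`. -/
theorem fullCMap_vSub (q : ℕ) [NeZero q] (h : q * M ∣ N) (x : modularFunctionFieldFullC K M) :
    H99.fullCMap φ N (S34.H36.vSub K q M N h x) =
      S34.H36.vSub K' q M N h (H99.fullCMap φ M x) := by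
  apply Subtype.ext
  rw [H99.coe_fullCMap, S34.H36.coe_vSub, S34.H36.coe_vSub, H99.coe_fullCMap, coeffMap_qExpand]

/-- `fullCMap φ` commutes with the `V_q`-algebra structures. -/
theorem fullCMap_vAlgebra (q : ℕ) [NeZero q] (h : q * M ∣ N) (x : modularFunctionFieldFullC K M) :
    H99.fullCMap φ N
        (@algebraMap (modularFunctionFieldFullC K M) (modularFunctionFieldFullC K N) _ _
          (vAlgebra K q M N h) x) =
      @algebraMap (modularFunctionFieldFullC K' M) (modularFunctionFieldFullC K' N) _ _
        (vAlgebra K' q M N h) (H99.fullCMap φ M x) := by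
  rw [vAlgebra_algebraMap_eq, vAlgebra_algebraMap_eq]
  exact fullCMap_vSub φ M N q h x

end FullCMap

section BaseChangeE

variable {ℓ : ℕ} (E : IntermediateField (H45.unrCyclo ℓ) Qbar) (M N : ℕ) [NeZero M] [NeZero N]

/-- `baseChangeE` commutes with `V_q : F_M → F_N`. -/
theorem baseChangeE_vSub (q : ℕ) [NeZero q] (h : q * M ∣ N)
    (x : modularFunctionFieldFullC (H45.unrCyclo ℓ) M) :
    H45.baseChangeE E N (S34.H36.vSub (H45.unrCyclo ℓ) q M N h x) =
      S34.H36.vSub (↥E) q M N h (H45.baseChangeE E M x) :=
  fullCMap_vSub _ M N q h x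

/-- `baseChangeE` commutes with the `V_q`-algebra structures. -/
theorem baseChangeE_vAlgebra (q : ℕ) [NeZero q] (h : q * M ∣ N)
    (x : modularFunctionFieldFullC (H45.unrCyclo ℓ) M) :
    H45.baseChangeE E N
        (@algebraMap (modularFunctionFieldFullC (H45.unrCyclo ℓ) M)
          (modularFunctionFieldFullC (H45.unrCyclo ℓ) N) _ _
          (vAlgebra (H45.unrCyclo ℓ) q M N h) x) =
      @algebraMap (modularFunctionFieldFullC (↥E) M) (modularFunctionFieldFullC (↥E) N) _ _
        (vAlgebra (↥E) q M N h) (H45.baseChangeE E M x) :=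
  fullCMap_vAlgebra _ M N q h x

/-- `baseChangeE` commutes with the inclusions `F_M ⊆ F_N` (copy of
`S35.H85.baseChangeE_degAlgebra` of `H85_PlaceRestrict`, stated here through `fullCMap`). -/
theorem baseChangeE_degAlgebra' (h : M ∣ N)
    (x : modularFunctionFieldFullC (H45.unrCyclo ℓ) M) :
    H45.baseChangeE E N
        (@algebraMap (modularFunctionFieldFullC (H45.unrCyclo ℓ) M)
          (modularFunctionFieldFullC (H45.unrCyclo ℓ) N) _ _
          (degAlgebra (H45.unrCyclo ℓ) M N h) x) =
      @algebraMap (modularFunctionFieldFullC (↥E) M) (modularFunctionFieldFullC (↥E) N) _ _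
        (degAlgebra (↥E) M N h) (H45.baseChangeE E M x) :=
  fullCMap_degAlgebra _ M N h x

end BaseChangeE

end Fermat.Agent.S35.H85
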