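import Mathlib
import Fermat.Agent.S35.H92_GaussLevelME
import Fermat.Agent.S34.H16_L0Places
import Fermat.Agent.S35.H16_L0PlacesV

/-!
S35 / (E3) prerequisites (helper85): the E-LEVEL twin of `S34/H16_L0Places` and
`S35/H16_L0PlacesV`.  The two CONCRETE places of `F_N(E) = FullC ↥E (ℓ * M)` over the level-`M`
Gauss ring `V_M(E) = S35.H92.VME M hℓM A hA E` of `F_M(E) = FullC ↥E M` w.r.t. `A'' = cutOver A E`
(uniformiser `constVME ϖ`), for BOTH embeddings `F_M(E) → F_N(E)` (inclusion `degAlgebra`,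
and `V_ℓ` = `vAlgebra`).  Instantiation of `S34.H16_TwoPlacesJN` / `S35.H16_KroneckerExt` at
helper92's `H92_GaussLevelME`.  Names = helper16's with `E` appended.
-/

set_option autoImplicit false
set_option linter.unusedSectionVars false
set_option linter.style.haveILetI false
set_option synthInstance.maxHeartbeats 400000

noncomputable section

namespace Fermat.Agent.S35.H85

open ModularCurve Polynomial IsLocalRing Fermat.Agent.S28
open Fermat.Agent.S18 Fermat.Agent.S35.H92 Fermat.Agent.S34.H16 Fermat.Agent.S35.H16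

local notation "Qbar" => AlgebraicClosure ℚ

section L0E

variable (M : ℕ) [NeZero M] {ℓ : ℕ} [hℓ : Fact ℓ.Prime] (hℓM : ¬ ℓ ∣ M)
  (A : ValuationSubring Qbar) (hA : A.LiesOverPrime ℓ)
  (E : IntermediateField (H45.unrCyclo ℓ) Qbar)

local notation "kA" => IsLocalRing.ResidueField A
local notation "A₂" => H45.cutOver A E
set_option quotPrecheck false in
local notation "FME" => modularFunctionFieldFullC (↥E) M
set_option quotPrecheck false in
local notation "FNE" => modularFunctionFieldFullC (↥E) (ℓ * M)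
set_option quotPrecheck false in
local notation "VE" => VME M hℓM A hA E

/-- `V_M(E) → F_N(E)`: the composite `V_M(E) ⊆ F_M(E) ⊆ F_N(E)`. -/
abbrev algebraVMEFN : Algebra VE FNE :=
  ((@algebraMap FME FNE _ _ (degAlgebra (↥E) M (ℓ * M) (dvd_level M))).comp
    (algebraMap VE FME)).toAlgebra

theorem isScalarTower_VMEFN :
    letI := degAlgebra (↥E) M (ℓ * M) (dvd_level M)
    letI := algebraVMEFN M hℓM A hA E
    IsScalarTower VE FME FNE := by
  letI := degAlgebra (↥E) M (ℓ * M) (dvd_level M)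
  letI := algebraVMEFN M hℓM A hA E
  exact IsScalarTower.of_algebraMap_eq (fun _ => rfl)

/-- `V_M(E) → F_N(E)` along `V_ℓ`: the composite `V_M(E) ⊆ F_M(E) → F_N(E)`, `f(t) ↦ f(t^ℓ)`. -/
abbrev algebraVMEFNv : Algebra VE FNE :=
  ((@algebraMap FME FNE _ _ (vAlgebra (↥E) ℓ M (ℓ * M) dvd_rfl)).comp
    (algebraMap VE FME)).toAlgebra

theorem isScalarTower_VMEFNv :
    letI := vAlgebra (↥E) ℓ M (ℓ * M) dvd_rfl
    letI := algebraVMEFNv M hℓM A hA E
    IsScalarTower VE FME FNE := by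
  letI := vAlgebra (↥E) ℓ M (ℓ * M) dvd_rfl
  letI := algebraVMEFNv M hℓM A hA E
  exact IsScalarTower.of_algebraMap_eq (fun _ => rfl)

/-- `j_M` as an element of `V_M(E)`. -/
def jMVE : VE := ⟨S18.H16.jNK (↥E) M, (jNK_mem_VME M hℓM A hA E).1⟩

theorem coe_jMVE : ((jMVE M hℓM A hA E : VE) : FME) = S18.H16.jNK (↥E) M := rfl

theorem resME_jMVE : resME M hℓM A hA E (jMVE M hℓM A hA E) = qExpand kA M (jqModC kA) :=
  (jNK_mem_VME M hℓM A hA E).2

/-- `j` as an element of `V_M(E)`. -/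
def jVE : VE := ⟨S18.H16.jK (↥E) M, (jK_mem_VME M hℓM A hA E).1⟩

theorem coe_jVE : ((jVE M hℓM A hA E : VE) : FME) = S18.H16.jK (↥E) M := rfl

theorem resME_jVE : resME M hℓM A hA E (jVE M hℓM A hA E) = jqModC kA :=
  (jK_mem_VME M hℓM A hA E).2

/-- `ℤ[X] → V_M(E)`, `X ↦ j_M`. -/
def phiVE : ℤ[X] →+* VE := evalAt (jMVE M hℓM A hA E)

theorem phiVE_X : phiVE M hℓM A hA E X = jMVE M hℓM A hA E := evalAt_X _

theorem algebraMap_phiVE_X :
    algebraMap VE FME (phiVE M hℓM A hA E X) = S18.H16.jNK (↥E) M := by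
  rw [phiVE_X]
  rfl

/-- `ℤ[X] → V_M(E)`, `X ↦ j`. -/
def phiVjE : ℤ[X] →+* VE := evalAt (jVE M hℓM A hA E)

theorem phiVjE_X : phiVjE M hℓM A hA E X = jVE M hℓM A hA E := evalAt_X _

theorem algebraMap_phiVjE_X :
    algebraMap VE FME (phiVjE M hℓM A hA E X) = S18.H16.jK (↥E) M := by
  rw [phiVjE_X]
  rfl

/-- `j̄_M(t^ℓ) = j̄_M(t)^ℓ` in `kA((t))`. -/
theorem qExpand_resME_jMVE :
    qExpand kA ℓ (resME M hℓM A hA E (jMVE M hℓM A hA E))
      = resME M hℓM A hA E (jMVE M hℓM A hA E) ^ ℓ := by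
  haveI : CharP kA ℓ := Fermat.Agent.S18.H92.charP_residueField A hA
  rw [resME_jMVE]
  exact S34.H36.qExpand_jd_char kA ℓ M

theorem qExpand_resME_jVE :
    qExpand kA ℓ (resME M hℓM A hA E (jVE M hℓM A hA E))
      = resME M hℓM A hA E (jVE M hℓM A hA E) ^ ℓ := by
  haveI : CharP kA ℓ := Fermat.Agent.S18.H92.charP_residueField A hA
  rw [resME_jVE]
  have h := S34.H36.qExpand_jd_char kA ℓ 1
  rwa [qExpand_one_apply] at h

/-- the reduction map of the `0`-component restricted to `V_M(E)`: `f ↦ (f mod ϖ)(t^ℓ)`. -/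
def iotaZeroE : VE →+* LaurentSeries kA := (qExpand kA ℓ).comp (resME M hℓM A hA E)

theorem iotaZeroE_apply (f : VE) :
    iotaZeroE M hℓM A hA E f = qExpand kA ℓ (resME M hℓM A hA E f) := rfl

theorem natCast_levelE_ne_zero : (((ℓ * M : ℕ) : ℕ) : ↥E) ≠ 0 :=
  Nat.cast_ne_zero.2 (NeZero.ne (ℓ * M))

section DVR

variable [FiniteDimensional (H45.unrCyclo ℓ) E] (ϖ : H45.cutOver A E)
  (hϖ : IsLocalRing.maximalIdeal (H45.cutOver A E) = Ideal.span {ϖ})

include hϖ in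
theorem resME_uniformizer : resME M hℓM A hA E (constVME M hℓM A hA E ϖ) = 0 := by
  rw [resME_const, resE_uniformizer A E ϖ hϖ, map_zero]

include hϖ in
theorem iotaZeroE_uniformizer : iotaZeroE M hℓM A hA E (constVME M hℓM A hA E ϖ) = 0 := by
  rw [iotaZeroE_apply, resME_uniformizer M hℓM A hA E ϖ hϖ, map_zero]

include hA hϖ in
/-- `ℓ` lies in the maximal ideal of `V_M(E)`. -/
theorem natCast_mem_maximalIdeal_VME : ((ℓ : ℕ) : VE) ∈ maximalIdeal VE := by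
  haveI := isDiscreteValuationRing_VME M hℓM A hA E ϖ hϖ
  have h0 : resME M hℓM A hA E ((ℓ : ℕ) : VE) = 0 := by
    haveI : CharP kA ℓ := Fermat.Agent.S18.H92.charP_residueField A hA
    haveI : CharP (LaurentSeries kA) ℓ :=
      charP_of_injective_ringHom (HahnSeries.C_injective (Γ := ℤ) (R := kA)) ℓ
    rw [map_natCast]
    exact CharP.cast_eq_zero _ ℓ
  by_contra h
  have hu : IsUnit ((ℓ : ℕ) : VE) := by
    by_contra hnu
    exact h ((mem_maximalIdeal _).2 hnu)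
  exact ((resME_eq_zero_iff_not_isUnit M hℓM A hA E _).1 h0) hu

include hA hϖ in
/-- the residue field of `V_M(E)` has characteristic `ℓ`. -/
theorem charP_residueField_VME :
    haveI := isDiscreteValuationRing_VME M hℓM A hA E ϖ hϖ
    CharP (ResidueField VE) ℓ := by
  haveI := isDiscreteValuationRing_VME M hℓM A hA E ϖ hϖ
  rw [CharP.charP_iff_prime_eq_zero hℓ.out]
  have h2 : residue VE ((ℓ : ℕ) : VE) = 0 :=
    (residue_eq_zero_iff _).2 (natCast_mem_maximalIdeal_VME M hℓM A hA E ϖ hϖ)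
  rwa [map_natCast] at h2

/-- the embedding of the residue field of `V_M(E)` into `kA((t))` induced by `resME`. -/
def rhoVE : haveI := isDiscreteValuationRing_VME M hℓM A hA E ϖ hϖ
    ResidueField VE →+* LaurentSeries kA :=
  haveI := isDiscreteValuationRing_VME M hℓM A hA E ϖ hϖ
  CA.H99.resLift (maximalIdeal_VME M hℓM A hA E ϖ hϖ) (resME M hℓM A hA E)
    (resME_uniformizer M hℓM A hA E ϖ hϖ)

theorem rhoVE_residue (y : VE) :
    haveI := isDiscreteValuationRing_VME M hℓM A hA E ϖ hϖ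
    rhoVE M hℓM A hA E ϖ hϖ (residue VE y) = resME M hℓM A hA E y := rfl

theorem order_rhoVE_jMVE :
    haveI := isDiscreteValuationRing_VME M hℓM A hA E ϖ hϖ
    (rhoVE M hℓM A hA E ϖ hϖ (residue VE (phiVE M hℓM A hA E X))).order = -(M : ℤ) := by
  haveI := isDiscreteValuationRing_VME M hℓM A hA E ϖ hϖ
  rw [rhoVE_residue, phiVE_X, resME_jMVE, S28.H39.order_qExpand, S28.H39.order_jqModC]
  ring

include hℓM in
theorem not_dvd_order_rhoVE_jMVE :
    haveI := isDiscreteValuationRing_VME M hℓM A hA E ϖ hϖ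
    ¬ (ℓ : ℤ) ∣ (rhoVE M hℓM A hA E ϖ hϖ (residue VE (phiVE M hℓM A hA E X))).order := by
  haveI := isDiscreteValuationRing_VME M hℓM A hA E ϖ hϖ
  rw [order_rhoVE_jMVE, dvd_neg]
  exact_mod_cast hℓM

theorem not_dvd_order_rhoVE_jVE :
    haveI := isDiscreteValuationRing_VME M hℓM A hA E ϖ hϖ
    ¬ (ℓ : ℤ) ∣ (rhoVE M hℓM A hA E ϖ hϖ (residue VE (phiVjE M hℓM A hA E X))).order := by
  haveI := isDiscreteValuationRing_VME M hℓM A hA E ϖ hϖ
  rw [rhoVE_residue, phiVjE_X, resME_jVE, S28.H39.order_jqModC, dvd_neg]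
  intro h
  have h1 : (ℓ : ℤ) ∣ 1 := h
  have h2 : ℓ ∣ 1 := by exact_mod_cast h1
  exact hℓ.out.one_lt.ne' (Nat.dvd_one.1 h2)

include hϖ in
/-- **The `∞`-place of `F_N(E)` over `V_M(E)`**: reduction `resME` on `V_M(E)`,
`j_N ↦ j̄_M(t)^ℓ`. -/
theorem nonempty_placeInftyE (D : ModularPolynomialData ℓ)
    (hD : ∀ (k : Type) [Field k] (ζ : kˣ), IsPrimitiveRoot ζ ℓ → RootsAt k ℓ ζ D.Φ) :
    letI := degAlgebra (↥E) M (ℓ * M) (dvd_level M)
    letI := algebraVMEFN M hℓM A hA E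
    haveI := isDiscreteValuationRing_VME M hℓM A hA E ϖ hϖ
    Nonempty (CA.H99.PlaceOver (L := FNE) (constVME M hℓM A hA E ϖ) (S18.H16.jNK (↥E) (ℓ * M))
      (resME M hℓM A hA E) (resME M hℓM A hA E (jMVE M hℓM A hA E) ^ ℓ)) := by
  letI := degAlgebra (↥E) M (ℓ * M) (dvd_level M)
  letI := algebraVMEFN M hℓM A hA E
  haveI := isDiscreteValuationRing_VME M hℓM A hA E ϖ hϖ
  haveI := charP_residueField_VME M hℓM A hA E ϖ hϖ
  exact nonempty_placeOver_infty (↥E) M (ℓ * M) (dvd_level M) ℓ hℓM rfl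
    (natCast_levelE_ne_zero M E) D hD (isScalarTower_VMEFN M hℓM A hA E) (phiVE M hℓM A hA E)
    (algebraMap_phiVE_X M hℓM A hA E) (rhoVE M hℓM A hA E ϖ hϖ)
    (not_dvd_order_rhoVE_jMVE M hℓM A hA E ϖ hϖ)
    (maximalIdeal_VME M hℓM A hA E ϖ hϖ) (resME M hℓM A hA E)
    (resME_uniformizer M hℓM A hA E ϖ hϖ) _
    (by rw [phiVE_X])

include hϖ in
/-- **The `0`-place of `F_N(E)` over `V_M(E)`**: reduction `f ↦ (f mod ϖ)(t^ℓ)` on `V_M(E)`,
`j_N ↦ j̄_M(t)`. -/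
theorem nonempty_placeZeroE (D : ModularPolynomialData ℓ)
    (hD : ∀ (k : Type) [Field k] (ζ : kˣ), IsPrimitiveRoot ζ ℓ → RootsAt k ℓ ζ D.Φ) :
    letI := degAlgebra (↥E) M (ℓ * M) (dvd_level M)
    letI := algebraVMEFN M hℓM A hA E
    haveI := isDiscreteValuationRing_VME M hℓM A hA E ϖ hϖ
    Nonempty (CA.H99.PlaceOver (L := FNE) (constVME M hℓM A hA E ϖ) (S18.H16.jNK (↥E) (ℓ * M))
      (iotaZeroE M hℓM A hA E) (resME M hℓM A hA E (jMVE M hℓM A hA E))) := by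
  letI := degAlgebra (↥E) M (ℓ * M) (dvd_level M)
  letI := algebraVMEFN M hℓM A hA E
  haveI := isDiscreteValuationRing_VME M hℓM A hA E ϖ hϖ
  haveI := charP_residueField_VME M hℓM A hA E ϖ hϖ
  exact nonempty_placeOver_zero (↥E) M (ℓ * M) (dvd_level M) ℓ hℓM rfl
    (natCast_levelE_ne_zero M E) D hD (isScalarTower_VMEFN M hℓM A hA E) (phiVE M hℓM A hA E)
    (algebraMap_phiVE_X M hℓM A hA E) (rhoVE M hℓM A hA E ϖ hϖ)
    (not_dvd_order_rhoVE_jMVE M hℓM A hA E ϖ hϖ)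
    (maximalIdeal_VME M hℓM A hA E ϖ hϖ) (iotaZeroE M hℓM A hA E)
    (iotaZeroE_uniformizer M hℓM A hA E ϖ hϖ) _
    (by rw [phiVE_X, iotaZeroE_apply, qExpand_resME_jMVE])

/-- the field-level data of the `V_ℓ`-side over `E`: relation. -/
theorem vRelE (D : ModularPolynomialData ℓ)
    (hD : ∀ (k : Type) [Field k] (ζ : kˣ), IsPrimitiveRoot ζ ℓ → RootsAt k ℓ ζ D.Φ) :
    letI := vAlgebra (↥E) ℓ M (ℓ * M) dvd_rfl
    Polynomial.aeval (S18.H16.jK (↥E) (ℓ * M)) (relPolyAt ℓ D (S18.H16.jK (↥E) M)) = 0 :=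
  vAlgebra_rel (↥E) ℓ M (ℓ * M) dvd_rfl D hD

include hϖ in
/-- **The place of `F_N(E)` over `V_ℓ(V_M(E))` for the linear factor `Y - j_ℓ^ℓ`**. -/
theorem nonempty_placeV_linE (D : ModularPolynomialData ℓ)
    (hD : ∀ (k : Type) [Field k] (ζ : kˣ), IsPrimitiveRoot ζ ℓ → RootsAt k ℓ ζ D.Φ) :
    letI := vAlgebra (↥E) ℓ M (ℓ * M) dvd_rfl
    letI := algebraVMEFNv M hℓM A hA E
    haveI := isDiscreteValuationRing_VME M hℓM A hA E ϖ hϖ
    Nonempty (CA.H99.PlaceOver (L := FNE) (constVME M hℓM A hA E ϖ) (S18.H16.jK (↥E) (ℓ * M))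
      (resME M hℓM A hA E) (resME M hℓM A hA E (jVE M hℓM A hA E) ^ ℓ)) := by
  letI := vAlgebra (↥E) ℓ M (ℓ * M) dvd_rfl
  letI := algebraVMEFNv M hℓM A hA E
  haveI := isDiscreteValuationRing_VME M hℓM A hA E ϖ hϖ
  haveI := charP_residueField_VME M hℓM A hA E ϖ hϖ
  haveI := isScalarTower_VMEFNv M hℓM A hA E
  exact nonempty_placeOver_lin ℓ D hD (vRelE M E D hD)
    (vAlgebra_adjoin_jK_eq_top (↥E) ℓ M (ℓ * M) rfl (natCast_levelE_ne_zero M E))
    (finrank_vSub (↥E) ℓ M (ℓ * M) hℓ.out hℓM rfl (natCast_levelE_ne_zero M E))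
    (phiVjE M hℓM A hA E) (algebraMap_phiVjE_X M hℓM A hA E) (rhoVE M hℓM A hA E ϖ hϖ)
    (not_dvd_order_rhoVE_jVE M hℓM A hA E ϖ hϖ) (maximalIdeal_VME M hℓM A hA E ϖ hϖ)
    (resME M hℓM A hA E) (resME_uniformizer M hℓM A hA E ϖ hϖ) _ (by rw [phiVjE_X])

include hϖ in
/-- **The place of `F_N(E)` over `V_ℓ(V_M(E))` for the factor `Y^ℓ - j_ℓ`**. -/
theorem nonempty_placeV_powE (D : ModularPolynomialData ℓ)
    (hD : ∀ (k : Type) [Field k] (ζ : kˣ), IsPrimitiveRoot ζ ℓ → RootsAt k ℓ ζ D.Φ) :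
    letI := vAlgebra (↥E) ℓ M (ℓ * M) dvd_rfl
    letI := algebraVMEFNv M hℓM A hA E
    haveI := isDiscreteValuationRing_VME M hℓM A hA E ϖ hϖ
    Nonempty (CA.H99.PlaceOver (L := FNE) (constVME M hℓM A hA E ϖ) (S18.H16.jK (↥E) (ℓ * M))
      (iotaZeroE M hℓM A hA E) (resME M hℓM A hA E (jVE M hℓM A hA E))) := by
  letI := vAlgebra (↥E) ℓ M (ℓ * M) dvd_rfl
  letI := algebraVMEFNv M hℓM A hA E
  haveI := isDiscreteValuationRing_VME M hℓM A hA E ϖ hϖ
  haveI := charP_residueField_VME M hℓM A hA E ϖ hϖ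
  haveI := isScalarTower_VMEFNv M hℓM A hA E
  exact nonempty_placeOver_pow ℓ D hD (vRelE M E D hD)
    (vAlgebra_adjoin_jK_eq_top (↥E) ℓ M (ℓ * M) rfl (natCast_levelE_ne_zero M E))
    (finrank_vSub (↥E) ℓ M (ℓ * M) hℓ.out hℓM rfl (natCast_levelE_ne_zero M E))
    (phiVjE M hℓM A hA E) (algebraMap_phiVjE_X M hℓM A hA E) (rhoVE M hℓM A hA E ϖ hϖ)
    (not_dvd_order_rhoVE_jVE M hℓM A hA E ϖ hϖ) (maximalIdeal_VME M hℓM A hA E ϖ hϖ)
    (iotaZeroE M hℓM A hA E) (iotaZeroE_uniformizer M hℓM A hA E ϖ hϖ) _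
    (by rw [phiVjE_X, iotaZeroE_apply, qExpand_resME_jVE])

end DVR

end L0E

end Fermat.Agent.S35.H85
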