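/-
S35 / (A5) WITHOUT row N1 (helper85): the eigenvector `x_g` directly in `O' ⊗[ℤ] Lat M`, inside the
NEW sublattice, with NO extension of the coefficient ring.

Setting of the frozen S35: `g` a normalised eigenform of level `M`, `S ⊇ {primes dividing M}`,
`chig : heckeAlgebra M 2 S →+* ℂ` with `chig (T_ℓ) = a_ℓ(g)` (`ℓ ∉ S`), `iota : chig.range →+* O'`,
`O'` a domain, flat over `ℤ`.  Let `V j : Lat M →ₗ[ℤ] L' j` (`j` in a finite type) be `ℤ`-linear maps
whose kernels are stable under the `T_ℓ` (`ℓ ∤ M`, `ℓ ∉ S`) and which kill (after `ℂ ⊗ -`) every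
eigenvector of ALL `T_ℓ`, `ℓ ∤ M`, with the eigenvalues `a_ℓ(g)` [newness; `H85_VerWrap` at `K = ℂ`].
Then there is `u ≠ 0` in `O' ⊗[ℤ] Lat M` with

* `(T_ℓ).baseChange O' u = iota (chig (T_ℓ)) • u` for all `ℓ ∤ M`, `ℓ ∉ S`;
* `(V j).baseChange O' u = 0` for all `j`.

Proof: the complex eigenclass of `g` lies in `ℂ ⊗ L`, `L := ⋂ ker V j` (flatness of `ℂ`), so `chig`
factors through the faithful quotient of the Hecke algebra acting on the free `ℤ`-module `L`;
support-eigen (`S30.H10.exists_eigenvector_domain`) on `L`.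
-/
import Mathlib
import Fermat.Agent.S41.H85_EigenDict
import Fermat.Agent.S35.H85_EigenDescent

set_option autoImplicit false
set_option linter.unusedSectionVars false

open CongruenceSubgroup ModularFormClass UpperHalfPlane ModularCurve ModularCurve.Period
open scoped TensorProduct

noncomputable section

namespace Fermat.Agent.S35.H85

open Fermat.Agent.S41.H85

/-! ### The complex eigenclass in `ℂ ⊗ Lat M` -/

section complexClass

variable {M : ℕ} [NeZero M]

theorem latC_surjective : Function.Surjective (latC M) := by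
  have h : LinearMap.range (latC M) = ⊤ := by
    rw [eq_top_iff, ← span_range_parabolicBC M, Submodule.span_le]
    rintro _ ⟨φ, rfl⟩
    exact ⟨(1 : ℂ) ⊗ₜ[ℤ] φ, by rw [latC_tmul, one_smul]⟩
  exact LinearMap.range_eq_top.mp h

/-- The eigenclass of a normalised eigenform, in `ℂ ⊗[ℤ] Lat M`: a nonzero eigenvector of ALL
`T_ℓ`, `ℓ ∤ M`, with eigenvalues `a_ℓ(g)`. -/
theorem exists_complex_eigenvector {g : CuspForm (Gamma0 M) 2} (hg : g.IsNormalizedEigenform) :
    ∃ c : ℂ ⊗[ℤ] parabolicHoms ℤ (Gamma0 M) ℤ, c ≠ 0 ∧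
      ∀ (l : ℕ) (hl : l.Prime) (hlM : ¬ l ∣ M),
        (heckeTPar ℤ ℤ hl hlM).baseChange ℂ c = qCoeff g l • c := by
  obtain ⟨c, hc⟩ := latC_surjective (eigenClass M g)
  refine ⟨c, ?_, ?_⟩
  · rintro rfl
    exact eigenClass_ne_zero hg (by rw [← hc, map_zero])
  · intro l hl hlM
    apply latC_injective M
    rw [latC_heckeTPar, hc, map_smul, hc]
    have h := heckeEndC_eigenClass hg ∅ (CuspForm.heckeAlgebra.T hl hlM (Set.notMem_empty l))
    rw [heckeEndC_T, eigenChar_T] at h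
    exact h

end complexClass

/-! ### From the generators to the whole Hecke algebra, for a given character -/

section generators

variable {M : ℕ} [NeZero M] {K R : Type*} [CommRing K] [IsDomain K] [CommRing R]

theorem eig_intCast (j : R →+* K) (S : Set ℕ) (u : K ⊗[ℤ] parabolicHoms ℤ (Gamma0 M) ℤ) (n : ℤ) :
    ((cohHeckeRep M S (n : CuspForm.heckeAlgebra M 2 S)).baseChange K : _ →ₗ[K] _) u
      = j (n : R) • u := by
  rw [map_intCast, map_intCast]
  have h2 : ((n : Module.End ℤ (parabolicHoms ℤ (Gamma0 M) ℤ))) =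
      n • (LinearMap.id : parabolicHoms ℤ (Gamma0 M) ℤ →ₗ[ℤ] _) := by
    ext x
    simp
  rw [h2, LinearMap.baseChange_smul, LinearMap.baseChange_id]
  simp [Int.cast_smul_eq_zsmul]

/-- The predicate "`t` acts on `u` through `j (χ t)`". -/
def ActsBy (j : R →+* K) (S : Set ℕ) (u : K ⊗[ℤ] parabolicHoms ℤ (Gamma0 M) ℤ)
    (χ : CuspForm.heckeAlgebra M 2 S →+* R) (t : CuspForm.heckeAlgebra M 2 S) : Prop :=
  ((cohHeckeRep M S t).baseChange K : _ →ₗ[K] _) u = j (χ t) • u

theorem ActsBy.add {j : R →+* K} {S : Set ℕ} {u : K ⊗[ℤ] parabolicHoms ℤ (Gamma0 M) ℤ}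
    {χ : CuspForm.heckeAlgebra M 2 S →+* R} {s t : CuspForm.heckeAlgebra M 2 S}
    (hs : ActsBy j S u χ s) (ht : ActsBy j S u χ t) : ActsBy j S u χ (s + t) := by
  unfold ActsBy
  rw [map_add χ]
  exact eig_add hs ht

theorem ActsBy.mul {j : R →+* K} {S : Set ℕ} {u : K ⊗[ℤ] parabolicHoms ℤ (Gamma0 M) ℤ}
    {χ : CuspForm.heckeAlgebra M 2 S →+* R} {s t : CuspForm.heckeAlgebra M 2 S}
    (hs : ActsBy j S u χ s) (ht : ActsBy j S u χ t) : ActsBy j S u χ (s * t) := by
  unfold ActsBy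
  rw [map_mul χ]
  exact eig_mul hs ht

theorem ActsBy.intCast (j : R →+* K) (S : Set ℕ) (u : K ⊗[ℤ] parabolicHoms ℤ (Gamma0 M) ℤ)
    (χ : CuspForm.heckeAlgebra M 2 S →+* R) (n : ℤ) :
    ActsBy j S u χ (n : CuspForm.heckeAlgebra M 2 S) := by
  unfold ActsBy
  rw [map_intCast χ]
  exact eig_intCast j S u n

/-- If the generators of `heckeAlgebra M 2 S` act on `u` through `j ∘ χ`, so does the whole
algebra. -/
theorem actsBy_of_generators (j : R →+* K) (S : Set ℕ)
    (u : K ⊗[ℤ] parabolicHoms ℤ (Gamma0 M) ℤ) (χ : CuspForm.heckeAlgebra M 2 S →+* R)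
    (hT : ∀ (l : ℕ) (hl : l.Prime) (hlM : ¬ l ∣ M) (hlS : l ∉ S),
      (heckeTPar ℤ ℤ hl hlM).baseChange K u = j (χ (CuspForm.heckeAlgebra.T hl hlM hlS)) • u)
    (hU : ∀ (q : ℕ) (hq : q.Prime) (hqM : q ∣ M) (hqS : q ∉ S),
      (haveI : NeZero q := ⟨hq.ne_zero⟩; (heckeUPar ℤ ℤ hqM).baseChange K u)
        = j (χ (CuspForm.heckeAlgebra.U hq hqM hqS)) • u)
    (t : CuspForm.heckeAlgebra M 2 S) : ActsBy j S u χ t := by
  obtain ⟨t, ht⟩ := t
  induction ht using Algebra.adjoin_induction with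
  | mem T hT' =>
    rcases hT' with ⟨ℓ, hℓ, hℓN, hℓS, rfl⟩ | ⟨q, hqN, hq, hqS, rfl⟩
    · show ((cohHeckeRep M S (CuspForm.heckeAlgebra.T hℓ hℓN hℓS)).baseChange K : _ →ₗ[K] _) u
        = j (χ (CuspForm.heckeAlgebra.T hℓ hℓN hℓS)) • u
      rw [cohHeckeRep_T hℓ hℓN hℓS]
      exact hT ℓ hℓ hℓN hℓS
    · have : NeZero q := ⟨hq.ne_zero⟩
      show ((cohHeckeRep M S (CuspForm.heckeAlgebra.U hq hqN hqS)).baseChange K : _ →ₗ[K] _) u
        = j (χ (CuspForm.heckeAlgebra.U hq hqN hqS)) • u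
      rw [cohHeckeRep_U hq hqN hqS]
      exact hU q hq hqN hqS
  | algebraMap n =>
    have h1 : (⟨algebraMap ℤ _ n, Subalgebra.algebraMap_mem _ n⟩ : CuspForm.heckeAlgebra M 2 S)
        = ((n : ℤ) : CuspForm.heckeAlgebra M 2 S) := by
      apply Subtype.ext
      simp
    have h2 := ActsBy.intCast j S u χ n
    rw [← h1] at h2
    exact h2
  | add T T' hT1 hT2 ihT ihT' =>
    exact ActsBy.add (s := ⟨T, hT1⟩) (t := ⟨T', hT2⟩) ihT ihT'
  | mul T T' hT1 hT2 ihT ihT' =>
    exact ActsBy.mul (s := ⟨T, hT1⟩) (t := ⟨T', hT2⟩) ihT ihT'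

end generators

/-! ### The new sublattice and the Hecke action on it -/

section newLattice

variable {M : ℕ} [NeZero M] {ι : Type*} {L' : ι → Type*} [∀ j, AddCommGroup (L' j)]

/-- `L = ⋂ ker V j`, as the kernel of the product map. -/
def newLat (V : ∀ j, parabolicHoms ℤ (Gamma0 M) ℤ →ₗ[ℤ] L' j) :
    Submodule ℤ (parabolicHoms ℤ (Gamma0 M) ℤ) :=
  LinearMap.ker (LinearMap.pi V)

theorem mem_newLat {V : ∀ j, parabolicHoms ℤ (Gamma0 M) ℤ →ₗ[ℤ] L' j}
    {x : parabolicHoms ℤ (Gamma0 M) ℤ} : x ∈ newLat V ↔ ∀ j, V j x = 0 := by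
  unfold newLat
  rw [LinearMap.mem_ker]
  constructor
  · intro h j
    exact congrFun h j
  · intro h
    funext j
    exact h j

/-- The set of Hecke operators preserving `L`. -/
def Preserves (S : Set ℕ) (V : ∀ j, parabolicHoms ℤ (Gamma0 M) ℤ →ₗ[ℤ] L' j)
    (t : CuspForm.heckeAlgebra M 2 S) : Prop :=
  ∀ x ∈ newLat V, cohHeckeRep M S t x ∈ newLat V

theorem Preserves.add {S : Set ℕ} {V : ∀ j, parabolicHoms ℤ (Gamma0 M) ℤ →ₗ[ℤ] L' j}
    {s t : CuspForm.heckeAlgebra M 2 S} (hs : Preserves S V s) (ht : Preserves S V t) :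
    Preserves S V (s + t) := by
  intro x hx
  rw [map_add, LinearMap.add_apply]
  exact Submodule.add_mem _ (hs x hx) (ht x hx)

theorem Preserves.mul {S : Set ℕ} {V : ∀ j, parabolicHoms ℤ (Gamma0 M) ℤ →ₗ[ℤ] L' j}
    {s t : CuspForm.heckeAlgebra M 2 S} (hs : Preserves S V s) (ht : Preserves S V t) :
    Preserves S V (s * t) := by
  intro x hx
  rw [map_mul, Module.End.mul_apply]
  exact hs _ (ht x hx)

theorem Preserves.intCast (S : Set ℕ) (V : ∀ j, parabolicHoms ℤ (Gamma0 M) ℤ →ₗ[ℤ] L' j)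
    (n : ℤ) : Preserves S V (n : CuspForm.heckeAlgebra M 2 S) := by
  intro x hx
  rw [map_intCast, Module.End.intCast_apply]
  exact Submodule.smul_mem _ n hx

theorem preserves_of_generators (S : Set ℕ) (hMS : ∀ q : ℕ, q.Prime → q ∣ M → q ∈ S)
    (V : ∀ j, parabolicHoms ℤ (Gamma0 M) ℤ →ₗ[ℤ] L' j)
    (hVT : ∀ (l : ℕ) (hl : l.Prime) (hlM : ¬ l ∣ M), l ∉ S →
      ∀ x : parabolicHoms ℤ (Gamma0 M) ℤ, (∀ j, V j x = 0) →
        ∀ j, V j (heckeTPar ℤ ℤ hl hlM x) = 0)
    (t : CuspForm.heckeAlgebra M 2 S) : Preserves S V t := by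
  obtain ⟨t, ht⟩ := t
  induction ht using Algebra.adjoin_induction with
  | mem T hT' =>
    rcases hT' with ⟨ℓ, hℓ, hℓN, hℓS, rfl⟩ | ⟨q, hqN, hq, hqS, rfl⟩
    · intro x hx
      show cohHeckeRep M S (CuspForm.heckeAlgebra.T hℓ hℓN hℓS) x ∈ newLat V
      rw [cohHeckeRep_T hℓ hℓN hℓS, mem_newLat]
      exact hVT ℓ hℓ hℓN hℓS x (mem_newLat.mp hx)
    · exact absurd (hMS q hq hqN) hqS
  | algebraMap n =>
    have h1 : (⟨algebraMap ℤ _ n, Subalgebra.algebraMap_mem _ n⟩ : CuspForm.heckeAlgebra M 2 S)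
        = ((n : ℤ) : CuspForm.heckeAlgebra M 2 S) := by
      apply Subtype.ext
      simp
    have h2 := Preserves.intCast S V n
    rw [← h1] at h2
    exact h2
  | add T T' hT1 hT2 ihT ihT' =>
    exact Preserves.add (s := ⟨T, hT1⟩) (t := ⟨T', hT2⟩) ihT ihT'
  | mul T T' hT1 hT2 ihT ihT' =>
    exact Preserves.mul (s := ⟨T, hT1⟩) (t := ⟨T', hT2⟩) ihT ihT'

/-- The Hecke action restricted to the new sublattice. -/
def thetaL (S : Set ℕ) (V : ∀ j, parabolicHoms ℤ (Gamma0 M) ℤ →ₗ[ℤ] L' j)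
    (hP : ∀ t : CuspForm.heckeAlgebra M 2 S, Preserves S V t) :
    CuspForm.heckeAlgebra M 2 S →+* Module.End ℤ (newLat V) where
  toFun t := (cohHeckeRep M S t).restrict (hP t)
  map_one' := by
    refine LinearMap.ext fun x => Subtype.ext ?_
    show cohHeckeRep M S 1 x.1 = x.1
    rw [map_one]
    rfl
  map_mul' s t := by
    refine LinearMap.ext fun x => Subtype.ext ?_
    show cohHeckeRep M S (s * t) x.1 = cohHeckeRep M S s (cohHeckeRep M S t x.1)
    rw [map_mul]
    rfl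
  map_zero' := by
    refine LinearMap.ext fun x => Subtype.ext ?_
    show cohHeckeRep M S 0 x.1 = 0
    rw [map_zero]
    rfl
  map_add' s t := by
    refine LinearMap.ext fun x => Subtype.ext ?_
    show cohHeckeRep M S (s + t) x.1 = cohHeckeRep M S s x.1 + cohHeckeRep M S t x.1
    rw [map_add]
    rfl

theorem subtype_comp_thetaL (S : Set ℕ) (V : ∀ j, parabolicHoms ℤ (Gamma0 M) ℤ →ₗ[ℤ] L' j)
    (hP : ∀ t : CuspForm.heckeAlgebra M 2 S, Preserves S V t)
    (t : CuspForm.heckeAlgebra M 2 S) :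
    (newLat V).subtype ∘ₗ (thetaL S V hP t) = (cohHeckeRep M S t) ∘ₗ (newLat V).subtype :=
  LinearMap.ext fun _ => rfl

/-- After any base change: the inclusion of `A ⊗ L` intertwines the two actions. -/
theorem baseChange_subtype_thetaL (A : Type*) [CommRing A] (S : Set ℕ)
    (V : ∀ j, parabolicHoms ℤ (Gamma0 M) ℤ →ₗ[ℤ] L' j)
    (hP : ∀ t : CuspForm.heckeAlgebra M 2 S, Preserves S V t)
    (t : CuspForm.heckeAlgebra M 2 S) (y : A ⊗[ℤ] (newLat V)) :
    (newLat V).subtype.baseChange A ((thetaL S V hP t).baseChange A y)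
      = (cohHeckeRep M S t).baseChange A ((newLat V).subtype.baseChange A y) := by
  rw [← LinearMap.comp_apply, ← LinearMap.baseChange_comp, subtype_comp_thetaL,
    LinearMap.baseChange_comp, LinearMap.comp_apply]

theorem baseChange_comp_subtype_eq_zero (A : Type*) [CommRing A]
    (V : ∀ j, parabolicHoms ℤ (Gamma0 M) ℤ →ₗ[ℤ] L' j) (j : ι) (y : A ⊗[ℤ] (newLat V)) :
    (V j).baseChange A ((newLat V).subtype.baseChange A y) = 0 := by
  have h : (V j) ∘ₗ (newLat V).subtype = 0 :=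
    LinearMap.ext fun x => mem_newLat.mp x.2 j
  rw [← LinearMap.comp_apply, ← LinearMap.baseChange_comp, h, LinearMap.baseChange_zero,
    LinearMap.zero_apply]

/-- **Flatness**: an element of `A ⊗ Lat M` killed by all `V j` comes from `A ⊗ L` (`A` flat over
`ℤ`, `ι` finite). -/
theorem exists_of_baseChange_eq_zero [Finite ι] (A : Type*) [CommRing A] [Module.Flat ℤ A]
    (V : ∀ j, parabolicHoms ℤ (Gamma0 M) ℤ →ₗ[ℤ] L' j)
    (c : A ⊗[ℤ] parabolicHoms ℤ (Gamma0 M) ℤ) (hc : ∀ j, (V j).baseChange A c = 0) :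
    ∃ y : A ⊗[ℤ] (newLat V), (newLat V).subtype.baseChange A y = c := by
  classical
  have : Fintype ι := Fintype.ofFinite ι
  have hex : Function.Exact ((newLat V).subtype.lTensor A) ((LinearMap.pi V).lTensor A) :=
    Module.Flat.lTensor_exact A (LinearMap.exact_subtype_ker_map (LinearMap.pi V))
  have key : ∀ x : A ⊗[ℤ] parabolicHoms ℤ (Gamma0 M) ℤ,
      TensorProduct.piRight ℤ ℤ A L' ((LinearMap.pi V).lTensor A x)
        = fun j => (V j).lTensor A x := by
    intro x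
    induction x using TensorProduct.induction_on with
    | zero =>
      rw [map_zero, map_zero]
      funext j
      rw [map_zero]
      rfl
    | tmul a x =>
      rw [LinearMap.lTensor_tmul, TensorProduct.piRight_apply, TensorProduct.piRightHom_tmul]
      funext j
      rw [LinearMap.lTensor_tmul]
      rfl
    | add x y hx hy =>
      rw [map_add, map_add, hx, hy]
      funext j
      rw [map_add]
      rfl
  have h0 : (LinearMap.pi V).lTensor A c = 0 := by
    apply (TensorProduct.piRight ℤ ℤ A L').injective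
    rw [key, map_zero]
    funext j
    have := hc j
    rw [LinearMap.baseChange_eq_ltensor] at this
    exact this
  obtain ⟨y, hy⟩ := (hex c).mp h0
  refine ⟨y, ?_⟩
  rw [LinearMap.baseChange_eq_ltensor]
  exact hy

end newLattice

/-! ### The main statement -/

section main

variable {M : ℕ} [NeZero M] {ι : Type*} [Finite ι] {L' : ι → Type*} [∀ j, AddCommGroup (L' j)]

set_option maxHeartbeats 1600000 in
/-- **(A5) without N1.** -/
theorem exists_new_eigenvector {g : CuspForm (Gamma0 M) 2} (hg : g.IsNormalizedEigenform)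
    (S : Set ℕ) (hMS : ∀ q : ℕ, q.Prime → q ∣ M → q ∈ S)
    {O' : Type*} [CommRing O'] [IsDomain O'] [Module.Flat ℤ O']
    (chig : CuspForm.heckeAlgebra M 2 S →+* ℂ)
    (hchig : ∀ (l : ℕ) (hl : l.Prime) (hlM : ¬ l ∣ M) (hlS : l ∉ S),
      chig (CuspForm.heckeAlgebra.T hl hlM hlS) = qCoeff g l)
    (iota : chig.range →+* O')
    (V : ∀ j, parabolicHoms ℤ (Gamma0 M) ℤ →ₗ[ℤ] L' j)
    (hVT : ∀ (l : ℕ) (hl : l.Prime) (hlM : ¬ l ∣ M), l ∉ S →
      ∀ x : parabolicHoms ℤ (Gamma0 M) ℤ, (∀ j, V j x = 0) →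
        ∀ j, V j (heckeTPar ℤ ℤ hl hlM x) = 0)
    (hkill : ∀ c : ℂ ⊗[ℤ] parabolicHoms ℤ (Gamma0 M) ℤ,
      (∀ (l : ℕ) (hl : l.Prime) (hlM : ¬ l ∣ M),
        (heckeTPar ℤ ℤ hl hlM).baseChange ℂ c = qCoeff g l • c) →
      ∀ j, (V j).baseChange ℂ c = 0) :
    ∃ u : O' ⊗[ℤ] parabolicHoms ℤ (Gamma0 M) ℤ, u ≠ 0 ∧
      (∀ (l : ℕ) (hl : l.Prime) (hlM : ¬ l ∣ M) (hlS : l ∉ S),
        (heckeTPar ℤ ℤ hl hlM).baseChange O' u
          = iota (chig.rangeRestrict (CuspForm.heckeAlgebra.T hl hlM hlS)) • u) ∧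
      ∀ j, (V j).baseChange O' u = 0 := by
  -- the Hecke algebra preserves `L`
  have hP : ∀ t : CuspForm.heckeAlgebra M 2 S, Preserves S V t :=
    preserves_of_generators S hMS V hVT
  -- the complex eigenclass lies in `ℂ ⊗ L`
  obtain ⟨c, hc0, hc⟩ := exists_complex_eigenvector hg
  obtain ⟨y, hy⟩ := exists_of_baseChange_eq_zero ℂ V c (hkill c hc)
  -- `chig` kills the kernel of the action on `L`
  have hact : ∀ t : CuspForm.heckeAlgebra M 2 S, ActsBy (RingHom.id ℂ) S c chig t := by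
    apply actsBy_of_generators (RingHom.id ℂ) S c chig
    · intro l hl hlM hlS
      rw [hc l hl hlM, hchig l hl hlM hlS]
      rfl
    · intro q hq hqM hqS
      exact absurd (hMS q hq hqM) hqS
  have hker : ∀ t : CuspForm.heckeAlgebra M 2 S, thetaL S V hP t = 0 → chig t = 0 := by
    intro t ht
    have h1 : ((cohHeckeRep M S t).baseChange ℂ : _ →ₗ[ℂ] _) c = 0 := by
      rw [← hy, ← baseChange_subtype_thetaL ℂ S V hP t y, ht, LinearMap.baseChange_zero,
        LinearMap.zero_apply, map_zero]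
    have h2 : (RingHom.id ℂ) (chig t) • c = 0 := by
      rw [← h1]
      exact (hact t).symm
    rcases smul_eq_zero.mp h2 with h3 | h3
    · exact h3
    · exact absurd h3 hc0
  -- the faithful quotient and its character to `O'`
  have hχ0 : ∀ t ∈ RingHom.ker (thetaL S V hP), (iota.comp chig.rangeRestrict) t = 0 := by
    intro t ht
    have h1 : chig t = 0 := hker t ((RingHom.mem_ker).mp ht)
    have h2 : chig.rangeRestrict t = 0 := Subtype.ext h1
    rw [RingHom.comp_apply, h2, map_zero]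
  obtain ⟨uL, huL0, huL⟩ := Fermat.Agent.S30.H10.exists_eigenvector_domain
    (RingHom.kerLift (thetaL S V hP)) (RingHom.kerLift_injective (thetaL S V hP))
    (Ideal.Quotient.lift (RingHom.ker (thetaL S V hP)) (iota.comp chig.rangeRestrict) hχ0)
  refine ⟨(newLat V).subtype.baseChange O' uL, ?_, ?_, ?_⟩
  · intro h0
    apply huL0
    have hinj : Function.Injective ((newLat V).subtype.lTensor O') :=
      Module.Flat.lTensor_preserves_injective_linearMap _ (Submodule.injective_subtype _)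
    apply hinj
    rw [map_zero, ← LinearMap.baseChange_eq_ltensor]
    exact h0
  · intro l hl hlM hlS
    have h1 : ((thetaL S V hP (CuspForm.heckeAlgebra.T hl hlM hlS)).baseChange O' : _ →ₗ[O'] _) uL
        = (iota.comp chig.rangeRestrict) (CuspForm.heckeAlgebra.T hl hlM hlS) • uL :=
      huL (Ideal.Quotient.mk (RingHom.ker (thetaL S V hP))
        (CuspForm.heckeAlgebra.T hl hlM hlS))
    have h2 := baseChange_subtype_thetaL O' S V hP (CuspForm.heckeAlgebra.T hl hlM hlS) uL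
    rw [cohHeckeRep_T hl hlM hlS] at h2
    rw [← h2, h1, LinearMap.map_smul]
    rfl
  · intro j
    exact baseChange_comp_subtype_eq_zero O' V j uL

end main

end Fermat.Agent.S35.H85
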