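/-
S35 (helper85): the seam `H85_NewEigen` ∘ `H85_VerWrap`, typechecked.

* `baseChange_verAL_complex_eq_zero`, `baseChange_verBL_complex_eq_zero` : the `hkill` hypothesis of
  `exists_new_eigenvector` for `VerA`, `VerB` (newness over `ℂ`, i.e. `H85_VerWrap` at `K = R = ℂ`);
* `verAL_ker_stable`, `verBL_ker_stable` : the `hVT` hypothesis (= (A3));
* `exists_new_eigenvector_single` : (A5) at level `M * q` for the single prime `q` (family `Bool`):
  a nonzero `u ∈ O' ⊗[ℤ] Lat (M * q)`, eigenvector of the `T_ℓ` (`ℓ ∤ M q`, `ℓ ∉ S`) with eigenvalues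
  `iota (chig T_ℓ)`, killed by `VerA` and `VerB`.  No extension of `O'`.
-/
import Mathlib
import Fermat.Agent.S35.H85_VerWrap
import Fermat.Agent.S35.H85_NewEigen

set_option autoImplicit false
set_option linter.unusedSectionVars false

open CongruenceSubgroup ModularFormClass UpperHalfPlane ModularCurve ModularCurve.Period
open scoped TensorProduct

noncomputable section

namespace Fermat.Agent.S35.H85

open Fermat.Agent.S41.H85 Fermat.Agent.S41.H72 Fermat.Agent.S41 Fermat.Agent.S29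

variable {M q : ℕ}

/-- `hkill` for `VerA`. -/
theorem baseChange_verAL_complex_eq_zero (D : ALData M q) (hq : q.Prime) (hqM : ¬ q ∣ M)
    (hM : M ≠ 0) {g : CuspForm (Gamma0 (M * q)) 2} (hg : g.IsNewform)
    (c : ℂ ⊗[ℤ] Lat (M * q))
    (hc : ∀ (l : ℕ) (hl : l.Prime) (hlN : ¬ l ∣ M * q),
      (heckeTPar ℤ ℤ hl hlN).baseChange ℂ c = qCoeff g l • c) :
    (verAL D hq hqM hM).baseChange ℂ c = 0 :=
  baseChange_verAL_eq_zero_of_isNewform D hq hqM hM hg (RingHom.id ℂ) Function.injective_id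
    (RingHom.id ℂ) c (fun l hl hlN => ⟨qCoeff g l, rfl, hc l hl hlN⟩)

/-- `hkill` for `VerB`. -/
theorem baseChange_verBL_complex_eq_zero (D : ALData M q) (hq : q.Prime) (hqM : ¬ q ∣ M)
    (hM : M ≠ 0) {g : CuspForm (Gamma0 (M * q)) 2} (hg : g.IsNewform)
    (c : ℂ ⊗[ℤ] Lat (M * q))
    (hc : ∀ (l : ℕ) (hl : l.Prime) (hlN : ¬ l ∣ M * q),
      (heckeTPar ℤ ℤ hl hlN).baseChange ℂ c = qCoeff g l • c) :
    (verBL D hq hqM hM).baseChange ℂ c = 0 :=
  baseChange_verBL_eq_zero_of_isNewform D hq hqM hM hg (RingHom.id ℂ) Function.injective_id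
    (RingHom.id ℂ) c (fun l hl hlN => ⟨qCoeff g l, rfl, hc l hl hlN⟩)

/-- `hVT` for `VerA`: its kernel is stable under the `T_ℓ`, `ℓ ∤ M q`. -/
theorem verAL_ker_stable (D : ALData M q) (hq : q.Prime) (hqM : ¬ q ∣ M) (hM : M ≠ 0)
    {l : ℕ} (hl : l.Prime) (hlN : ¬ l ∣ M * q) (x : Lat (M * q))
    (hx : verAL D hq hqM hM x = 0) : verAL D hq hqM hM (heckeTPar ℤ ℤ hl hlN x) = 0 := by
  rw [verAL_heckeTPar D hq hqM hM hl hlN (fun h => hlN (h.mul_right q)), hx, map_zero]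

/-- `hVT` for `VerB`. -/
theorem verBL_ker_stable (D : ALData M q) (hq : q.Prime) (hqM : ¬ q ∣ M) (hM : M ≠ 0)
    {l : ℕ} (hl : l.Prime) (hlN : ¬ l ∣ M * q) (x : Lat (M * q))
    (hx : verBL D hq hqM hM x = 0) : verBL D hq hqM hM (heckeTPar ℤ ℤ hl hlN x) = 0 := by
  rw [verBL_heckeTPar D hq hqM hM hl hlN (fun h => hlN (h.mul_right q)), hx, map_zero]

/-- **(A5) for a single prime `q ∥ N = M q`**, coefficients `O'` itself. -/
theorem exists_new_eigenvector_single [NeZero (M * q)] (D : ALData M q) (hq : q.Prime)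
    (hqM : ¬ q ∣ M) (hM : M ≠ 0) {g : CuspForm (Gamma0 (M * q)) 2} (hg : g.IsNewform)
    (S : Set ℕ) (hMS : ∀ r : ℕ, r.Prime → r ∣ M * q → r ∈ S)
    {O' : Type*} [CommRing O'] [IsDomain O'] [Module.Flat ℤ O']
    (chig : CuspForm.heckeAlgebra (M * q) 2 S →+* ℂ)
    (hchig : ∀ (l : ℕ) (hl : l.Prime) (hlN : ¬ l ∣ M * q) (hlS : l ∉ S),
      chig (CuspForm.heckeAlgebra.T hl hlN hlS) = qCoeff g l)
    (iota : chig.range →+* O') :
    ∃ u : O' ⊗[ℤ] Lat (M * q), u ≠ 0 ∧
      (∀ (l : ℕ) (hl : l.Prime) (hlN : ¬ l ∣ M * q) (hlS : l ∉ S),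
        (heckeTPar ℤ ℤ hl hlN).baseChange O' u
          = iota (chig.rangeRestrict (CuspForm.heckeAlgebra.T hl hlN hlS)) • u) ∧
      (verAL D hq hqM hM).baseChange O' u = 0 ∧ (verBL D hq hqM hM).baseChange O' u = 0 := by
  obtain ⟨u, hu0, hu, hV⟩ := exists_new_eigenvector (ι := Bool) (L' := fun _ => Lat M)
    hg.1 S hMS chig hchig iota
    (fun b => if b then verBL D hq hqM hM else verAL D hq hqM hM)
    (by
      intro l hl hlN _ x hx b
      cases b
      · exact verAL_ker_stable D hq hqM hM hl hlN x (hx false)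
      · exact verBL_ker_stable D hq hqM hM hl hlN x (hx true))
    (by
      intro c hc b
      cases b
      · exact baseChange_verAL_complex_eq_zero D hq hqM hM hg c hc
      · exact baseChange_verBL_complex_eq_zero D hq hqM hM hg c hc)
  exact ⟨u, hu0, hu, hV false, hV true⟩

end Fermat.Agent.S35.H85
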