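/-
S35 / (E3) glue (helper85): the coefficientwise automorphisms of the modular function fields commute
with the two embeddings `F_M → F_N` (inclusion = `H16.degAlgebra`, `V_q` = `S35.H16.vAlgebra`) and
hence with the two norms:

  `Algebra.norm F_M (s_N y) = s_M (Algebra.norm F_M y)`

for `s_N = S37.H53.coeffRingAut K N s` (ANY field `K`, ANY ring automorphism `s` of `K`), and for
`H45.galActFullC E hE N τ` (ANY `τ ∈ Gal(Qbar/ℚ)`), and for the composites `Ψ = Φ ∘ Φ`
(`RingEquiv.trans`), in the shape `hNΦ : ∀ x, N (Φ x) = ΦM (N x)` of `H46.hasRes_norm_ratio`.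
-/
import Mathlib
import Fermat.Agent.S18.H45_DecompBase
import Fermat.Agent.S34.H16_RelDeg
import Fermat.Agent.S35.H16_RelDegV

set_option autoImplicit false
set_option linter.unusedSectionVars false
set_option linter.style.haveILetI false

noncomputable section

namespace Fermat.Agent.S35.H85

open ModularCurve HahnSeries
open Fermat.Agent.S34.H16 Fermat.Agent.S35.H16 Fermat.Agent.S37.H53

/-! ### Generic field of constants -/

section generic

variable (K : Type) [Field K] (s : K ≃+* K) (M N : ℕ) [NeZero M] [NeZero N]

/-- The coefficientwise action commutes with the inclusion `F_M ⊆ F_N`. -/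
theorem coeffRingAut_degAlgebra (h : M ∣ N) (x : modularFunctionFieldFullC K M) :
    letI := degAlgebra K M N h
    coeffRingAut K N s (algebraMap (modularFunctionFieldFullC K M) (modularFunctionFieldFullC K N) x)
      = algebraMap (modularFunctionFieldFullC K M) (modularFunctionFieldFullC K N)
          (coeffRingAut K M s x) := by
  letI := degAlgebra K M N h
  apply Subtype.ext
  rw [coe_coeffRingAut_apply, degAlgebra_algebraMap_coe, degAlgebra_algebraMap_coe,
    coe_coeffRingAut_apply]

/-- The coefficientwise action commutes with `V_q : F_M → F_N`. -/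
theorem coeffRingAut_vAlgebra (q : ℕ) [NeZero q] (h : q * M ∣ N)
    (x : modularFunctionFieldFullC K M) :
    letI := vAlgebra K q M N h
    coeffRingAut K N s (algebraMap (modularFunctionFieldFullC K M) (modularFunctionFieldFullC K N) x)
      = algebraMap (modularFunctionFieldFullC K M) (modularFunctionFieldFullC K N)
          (coeffRingAut K M s x) := by
  letI := vAlgebra K q M N h
  apply Subtype.ext
  rw [coe_coeffRingAut_apply, vAlgebra_algebraMap_coe, vAlgebra_algebraMap_coe,
    coe_coeffRingAut_apply, coeffMap_qExpand]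

/-- **The norm along the inclusion commutes with the coefficientwise action.** -/
theorem norm_coeffRingAut_deg (h : M ∣ N) (y : modularFunctionFieldFullC K N) :
    letI := degAlgebra K M N h
    Algebra.norm (modularFunctionFieldFullC K M) (coeffRingAut K N s y)
      = coeffRingAut K M s (Algebra.norm (modularFunctionFieldFullC K M) y) := by
  letI := degAlgebra K M N h
  have he : RingHom.comp (algebraMap (modularFunctionFieldFullC K M)
        (modularFunctionFieldFullC K N)) ((coeffRingAut K M s : _ ≃+* _) : _ →+* _)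
      = RingHom.comp ((coeffRingAut K N s : _ ≃+* _) : _ →+* _)
        (algebraMap (modularFunctionFieldFullC K M) (modularFunctionFieldFullC K N)) := by
    refine RingHom.ext fun x => ?_
    exact (coeffRingAut_degAlgebra K s M N h x).symm
  have h1 := Algebra.norm_eq_of_equiv_equiv (coeffRingAut K M s) (coeffRingAut K N s) he y
  rw [h1, RingEquiv.apply_symm_apply]

/-- **The norm along `V_q` commutes with the coefficientwise action.** -/
theorem norm_coeffRingAut_v (q : ℕ) [NeZero q] (h : q * M ∣ N)
    (y : modularFunctionFieldFullC K N) :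
    letI := vAlgebra K q M N h
    Algebra.norm (modularFunctionFieldFullC K M) (coeffRingAut K N s y)
      = coeffRingAut K M s (Algebra.norm (modularFunctionFieldFullC K M) y) := by
  letI := vAlgebra K q M N h
  have he : RingHom.comp (algebraMap (modularFunctionFieldFullC K M)
        (modularFunctionFieldFullC K N)) ((coeffRingAut K M s : _ ≃+* _) : _ →+* _)
      = RingHom.comp ((coeffRingAut K N s : _ ≃+* _) : _ →+* _)
        (algebraMap (modularFunctionFieldFullC K M) (modularFunctionFieldFullC K N)) := by
    refine RingHom.ext fun x => ?_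
    exact (coeffRingAut_vAlgebra K s M N q h x).symm
  have h1 := Algebra.norm_eq_of_equiv_equiv (coeffRingAut K M s) (coeffRingAut K N s) he y
  rw [h1, RingEquiv.apply_symm_apply]

end generic

/-! ### `galActFullC` and its square -/

section galois

open Fermat.Agent.S18.H45

local notation "Qbar" => AlgebraicClosure ℚ

variable {ℓ : ℕ} (E : IntermediateField (unrCyclo ℓ) Qbar)
  (hE : ∀ (τ : Qbar ≃ₐ[ℚ] Qbar) (x : Qbar), x ∈ E → τ x ∈ E)
  (τ : Qbar ≃ₐ[ℚ] Qbar) (M N : ℕ) [NeZero M] [NeZero N]

theorem galActFullC_degAlgebra (h : M ∣ N) (x : modularFunctionFieldFullC ↥E M) :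
    letI := degAlgebra ↥E M N h
    galActFullC E hE N τ (algebraMap (modularFunctionFieldFullC ↥E M)
        (modularFunctionFieldFullC ↥E N) x)
      = algebraMap (modularFunctionFieldFullC ↥E M) (modularFunctionFieldFullC ↥E N)
          (galActFullC E hE M τ x) :=
  coeffRingAut_degAlgebra ↥E (galActE E hE τ) M N h x

theorem galActFullC_vAlgebra (q : ℕ) [NeZero q] (h : q * M ∣ N)
    (x : modularFunctionFieldFullC ↥E M) :
    letI := vAlgebra ↥E q M N h
    galActFullC E hE N τ (algebraMap (modularFunctionFieldFullC ↥E M)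
        (modularFunctionFieldFullC ↥E N) x)
      = algebraMap (modularFunctionFieldFullC ↥E M) (modularFunctionFieldFullC ↥E N)
          (galActFullC E hE M τ x) :=
  coeffRingAut_vAlgebra ↥E (galActE E hE τ) M N q h x

/-- **`N_ι ∘ Φ_N = Φ_M ∘ N_ι`.** -/
theorem norm_galActFullC_deg (h : M ∣ N) (y : modularFunctionFieldFullC ↥E N) :
    letI := degAlgebra ↥E M N h
    Algebra.norm (modularFunctionFieldFullC ↥E M) (galActFullC E hE N τ y)
      = galActFullC E hE M τ (Algebra.norm (modularFunctionFieldFullC ↥E M) y) :=
  norm_coeffRingAut_deg ↥E (galActE E hE τ) M N h y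

/-- **`N_{V_q} ∘ Φ_N = Φ_M ∘ N_{V_q}`.** -/
theorem norm_galActFullC_v (q : ℕ) [NeZero q] (h : q * M ∣ N)
    (y : modularFunctionFieldFullC ↥E N) :
    letI := vAlgebra ↥E q M N h
    Algebra.norm (modularFunctionFieldFullC ↥E M) (galActFullC E hE N τ y)
      = galActFullC E hE M τ (Algebra.norm (modularFunctionFieldFullC ↥E M) y) :=
  norm_coeffRingAut_v ↥E (galActE E hE τ) M N q h y

/-- `Ψ_N := Φ_N ∘ Φ_N`. -/
def galActFullCSq : modularFunctionFieldFullC ↥E N ≃+* modularFunctionFieldFullC ↥E N :=
  (galActFullC E hE N τ).trans (galActFullC E hE N τ)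

@[simp] theorem galActFullCSq_apply (y : modularFunctionFieldFullC ↥E N) :
    galActFullCSq E hE τ N y = galActFullC E hE N τ (galActFullC E hE N τ y) := rfl

/-- `hNΦ` of `H46.hasRes_norm_ratio` for `N_ι` and `Ψ = Φ ∘ Φ`. -/
theorem norm_galActFullCSq_deg (h : M ∣ N) (y : modularFunctionFieldFullC ↥E N) :
    letI := degAlgebra ↥E M N h
    Algebra.norm (modularFunctionFieldFullC ↥E M) (galActFullCSq E hE τ N y)
      = galActFullCSq E hE τ M (Algebra.norm (modularFunctionFieldFullC ↥E M) y) := by
  have h1 := norm_galActFullC_deg E hE τ M N h (galActFullC E hE N τ y)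
  have h2 := norm_galActFullC_deg E hE τ M N h y
  exact h1.trans (congrArg (galActFullC E hE M τ) h2)

/-- `hNΦ` of `H46.hasRes_norm_ratio` for `N_{V_q}` and `Ψ = Φ ∘ Φ`. -/
theorem norm_galActFullCSq_v (q : ℕ) [NeZero q] (h : q * M ∣ N)
    (y : modularFunctionFieldFullC ↥E N) :
    letI := vAlgebra ↥E q M N h
    Algebra.norm (modularFunctionFieldFullC ↥E M) (galActFullCSq E hE τ N y)
      = galActFullCSq E hE τ M (Algebra.norm (modularFunctionFieldFullC ↥E M) y) := by
  have h1 := norm_galActFullC_v E hE τ M N q h (galActFullC E hE N τ y)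
  have h2 := norm_galActFullC_v E hE τ M N q h y
  exact h1.trans (congrArg (galActFullC E hE M τ) h2)

end galois

end Fermat.Agent.S35.H85
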