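/-
S35, descent row (helper86): NORM BASE CHANGE `K → Qbar` for the two degeneracy embeddings.

For a field `K ⊆ Qbar` (e.g. `K = ↥E`, `E` an intermediate field), `q` prime, `q ∤ M`, and
`f ∈ F_K(Mq) = modularFunctionFieldFullC K (M * q)`:

* `normAlpha_toBar` : `N_α (toBar f) = toBar (N_{F_K(Mq)/F_K(M)} f)`   (inclusion, `S34.H16.degAlgebra`);
* `normBeta_toBar`  : `N_β (toBar f) = toBar (N_{F_K(Mq)/V_q F_K(M)} f)` (`f(t) ↦ f(t^q)`, `S35.H16.vAlgebra`);

where `N_α = H86.normAlpha M q`, `N_β = H86.normBeta M q` are the norms along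
`heckeAlphaBar / heckeBetaBar Qbar M q` used in `(GEO-fn)`, and `toBar` is the coefficientwise
embedding `F_K(·) → F_Qbar(·)`.  Proof: helper22's norm base change in a square of fields
(`S29.H22.norm_map_of_adjoin_of_finrank`): `toBar` has dense image and both relative degrees are
`q + 1` (helper16's `finrank_fullC_prime`, `finrank_vSub`; `S37.H6` at `Qbar`).

Also: `finrankAlong_heckeBetaBar_of_not_dvd : [F_{Mq} : β F_M] = q + 1` over `Qbar`.
-/
import Mathlib
import Fermat.Agent.S35.H86_Pushforward
import Fermat.Agent.S29.H22_NormBaseChange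
import Fermat.Agent.S34.H16_RelDeg
import Fermat.Agent.S35.H16_RelDegV
import Fermat.Agent.S18.H99_F1Basics
import Fermat.Agent.S37.H6_LevelDegree

set_option autoImplicit false
set_option linter.style.haveILetI false
set_option linter.unusedSectionVars false

noncomputable section

namespace Fermat.Agent.S35.H86

open AlgebraicCurve ModularCurve Module
open Fermat.Agent.S18 Fermat.Agent.S24

local notation "Qb" => AlgebraicClosure ℚ

section Alpha

variable (K : Type) [Field K] [CharZero K] [Algebra K Qb] (M q : ℕ) [NeZero M] [NeZero q]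

theorem natCast_level_ne_zero : ((M * q : ℕ) : K) ≠ 0 :=
  Nat.cast_ne_zero.mpr (NeZero.ne (M * q))

/-- **Norm base change, inclusion side.** -/
theorem normAlpha_toBar (hq : q.Prime) (hqM : ¬ q ∣ M)
    (f : modularFunctionFieldFullC K (M * q)) :
    letI := S34.H16.degAlgebra K M (M * q) (dvd_mul_right M q)
    normAlpha M q (H99.toBar K (M * q) f)
      = H99.toBar K M (Algebra.norm (modularFunctionFieldFullC K M) f) := by
  letI algK := S34.H16.degAlgebra K M (M * q) (dvd_mul_right M q)
  letI algQ : Algebra (FN M) (FN (M * q)) := algebraAlong (heckeAlphaBar Qb M q)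
  haveI : IsScalarTower Qb (FN M) (FN (M * q)) := isScalarTower_along (heckeAlphaBar Qb M q)
  have hNK := natCast_level_ne_zero K M q
  haveI : FiniteDimensional (modularFunctionFieldFullC K M) (modularFunctionFieldFullC K (M * q)) :=
    S34.H16.finiteDimensional_fullC_prime K M (M * q) (dvd_mul_right M q) q hq hqM
      (Nat.mul_comm M q) hNK
  have hij : ∀ a : modularFunctionFieldFullC K M,
      H99.toBar K (M * q) (algebraMap (modularFunctionFieldFullC K M)
        (modularFunctionFieldFullC K (M * q)) a)
        = algebraMap (FN M) (FN (M * q)) (H99.toBar K M a) := by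
    intro a
    apply Subtype.ext
    rw [H99.coe_toBar, S34.H16.degAlgebra_algebraMap_coe]
    show _ = ((heckeAlphaBar Qb M q (H99.toBar K M a) : FN (M * q)) : LaurentSeries Qb)
    rw [coe_heckeAlphaBar, H99.coe_toBar]
  have hgen : IntermediateField.adjoin (FN M) (Set.range (H99.toBar K (M * q))) = ⊤ :=
    IntermediateField.adjoin_eq_top_of_adjoin_eq_top Qb (H99.adjoin_range_toBar_eq_top K (M * q))
  have hdeg : finrank (FN M) (FN (M * q))
      = finrank (modularFunctionFieldFullC K M) (modularFunctionFieldFullC K (M * q)) := by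
    rw [S34.H16.finrank_fullC_prime K M (M * q) (dvd_mul_right M q) q hq hqM (Nat.mul_comm M q) hNK]
    exact S37.H6.finrankAlong_heckeAlphaBar_of_not_dvd M q hq hqM
  exact S29.H22.norm_map_of_adjoin_of_finrank (H99.toBar K M) (H99.toBar K (M * q)) hij hgen hdeg f

end Alpha

section BetaDegree

variable (M q : ℕ) [NeZero M] [NeZero q]

/-- `[F_{Mq}(L) : β F_M(L)] = q + 1` over ANY field `L ⊇ ℚ` (`q` prime, `q ∤ M`; e.g. `L = ℂ`,
`L = Qbar`): helper16's generic `finrank_vSub`, transported along
`FullC L N = laurentBaseChange L (modularFunctionFieldFull N)`. -/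
theorem finrankAlong_heckeBetaBar_of_not_dvd_gen (L : Type) [Field L] [Algebra ℚ L]
    (hq : q.Prime) (hqM : ¬ q ∣ M) :
    finrankAlong L (heckeBetaBar L M q) = q + 1 := by
  haveI : CharZero L := charZero_of_injective_algebraMap (algebraMap ℚ L).injective
  letI algK := S35.H16.vAlgebra L q M (M * q) (dvd_of_eq (Nat.mul_comm q M))
  letI algQ : Algebra (laurentBaseChange L (modularFunctionFieldFull M))
      (laurentBaseChange L (modularFunctionFieldFull (M * q))) := algebraAlong (heckeBetaBar L M q)
  have hNK : ((M * q : ℕ) : L) ≠ 0 := Nat.cast_ne_zero.mpr (NeZero.ne (M * q))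
  have h1 := S35.H16.finrank_vSub L q M (M * q) hq hqM (Nat.mul_comm M q) hNK
  show finrank (laurentBaseChange L (modularFunctionFieldFull M))
    (laurentBaseChange L (modularFunctionFieldFull (M * q))) = q + 1
  rw [← h1]
  symm
  refine Algebra.finrank_eq_of_equiv_equiv
    (IntermediateField.equivOfEq (H99.fullC_eq_laurentBaseChange L M)).toRingEquiv
    (IntermediateField.equivOfEq (H99.fullC_eq_laurentBaseChange L (M * q))).toRingEquiv ?_
  refine RingHom.ext fun x => Subtype.ext ?_
  show ((heckeBetaBar L M q (IntermediateField.equivOfEq (H99.fullC_eq_laurentBaseChange L M) x) :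
      laurentBaseChange L (modularFunctionFieldFull (M * q))) : LaurentSeries L)
    = ((IntermediateField.equivOfEq (H99.fullC_eq_laurentBaseChange L (M * q))
        (algebraMap (modularFunctionFieldFullC L M) (modularFunctionFieldFullC L (M * q)) x) :
          laurentBaseChange L (modularFunctionFieldFull (M * q))) : LaurentSeries L)
  rw [coe_heckeBetaBar]
  show qExpand L q (x : LaurentSeries L)
    = ((algebraMap (modularFunctionFieldFullC L M) (modularFunctionFieldFullC L (M * q)) x :
        modularFunctionFieldFullC L (M * q)) : LaurentSeries L)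
  rw [S35.H16.vAlgebra_algebraMap_coe]

/-- `[F_{Mq} : β F_M] = q + 1` over `Qbar` (`q` prime, `q ∤ M`). -/
theorem finrankAlong_heckeBetaBar_of_not_dvd (hq : q.Prime) (hqM : ¬ q ∣ M) :
    finrankAlong Qb (heckeBetaBar Qb M q) = q + 1 :=
  finrankAlong_heckeBetaBar_of_not_dvd_gen M q Qb hq hqM

/-- `[F_{Mq}(ℂ) : β F_M(ℂ)] = q + 1` (`q` prime, `q ∤ M`). -/
theorem finrankAlong_heckeBetaBar_complex (hq : q.Prime) (hqM : ¬ q ∣ M) :
    finrankAlong ℂ (heckeBetaBar ℂ M q) = q + 1 :=
  finrankAlong_heckeBetaBar_of_not_dvd_gen M q ℂ hq hqM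

end BetaDegree

section Beta

variable (K : Type) [Field K] [CharZero K] [Algebra K Qb] (M q : ℕ) [NeZero M] [NeZero q]

/-- **Norm base change, `V_q`-side.** -/
theorem normBeta_toBar (hq : q.Prime) (hqM : ¬ q ∣ M)
    (f : modularFunctionFieldFullC K (M * q)) :
    letI := S35.H16.vAlgebra K q M (M * q) (dvd_of_eq (Nat.mul_comm q M))
    normBeta M q (H99.toBar K (M * q) f)
      = H99.toBar K M (Algebra.norm (modularFunctionFieldFullC K M) f) := by
  letI algK := S35.H16.vAlgebra K q M (M * q) (dvd_of_eq (Nat.mul_comm q M))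
  letI algQ : Algebra (FN M) (FN (M * q)) := algebraAlong (heckeBetaBar Qb M q)
  haveI : IsScalarTower Qb (FN M) (FN (M * q)) := isScalarTower_along (heckeBetaBar Qb M q)
  have hNK := natCast_level_ne_zero K M q
  have hfr := S35.H16.finrank_vSub K q M (M * q) hq hqM (Nat.mul_comm M q) hNK
  haveI : FiniteDimensional (modularFunctionFieldFullC K M) (modularFunctionFieldFullC K (M * q)) :=
    Module.finite_of_finrank_pos (by rw [hfr]; exact Nat.succ_pos q)
  have hij : ∀ a : modularFunctionFieldFullC K M,
      H99.toBar K (M * q) (algebraMap (modularFunctionFieldFullC K M)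
        (modularFunctionFieldFullC K (M * q)) a)
        = algebraMap (FN M) (FN (M * q)) (H99.toBar K M a) := by
    intro a
    apply Subtype.ext
    rw [H99.coe_toBar, S35.H16.vAlgebra_algebraMap_coe]
    show _ = ((heckeBetaBar Qb M q (H99.toBar K M a) : FN (M * q)) : LaurentSeries Qb)
    rw [coe_heckeBetaBar, H99.coe_toBar, ModularCurve.coeffMap_qExpand]
  have hgen : IntermediateField.adjoin (FN M) (Set.range (H99.toBar K (M * q))) = ⊤ :=
    IntermediateField.adjoin_eq_top_of_adjoin_eq_top Qb (H99.adjoin_range_toBar_eq_top K (M * q))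
  have hdeg : finrank (FN M) (FN (M * q))
      = finrank (modularFunctionFieldFullC K M) (modularFunctionFieldFullC K (M * q)) := by
    rw [hfr]
    exact finrankAlong_heckeBetaBar_of_not_dvd M q hq hqM
  exact S29.H22.norm_map_of_adjoin_of_finrank (H99.toBar K M) (H99.toBar K (M * q)) hij hgen hdeg f

end Beta

end Fermat.Agent.S35.H86
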