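/-
helper8 — S35 node (E2)+(E5) at the pinned charts of the L0 package, level `N = ℓ * M`:
`hE2_JK`, `hE2_JK_inv` = the hypotheses `hE2₁`, `hE2₂` of helper18's
`H18.geoFnEN_of_twoComponents` / `H18.geoFnEN_of_l0Pkg` (at `N := ℓ * M`, `q := ℓ`) for every
avoided set `T` containing helper16's escape set `H16.escTChart` of the chart.

Discharged inside: `hJ₁`, `hcl` (helper27's `coeffRingAut_JK`, `hcl_JK`), `hL1`
(`H8.hL1_refined_JK`), `h` (`H95.baseChangeE_JK`), `hT` (helper16's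
`hT_of_escTChart_subset_JE` + helper92's `exists_nodeTowerAt_JK`).
Remaining inputs: the `A₁`-level and `E`-level `TwoComponents` with their links `hc_k`, `hπ_k`
(helper55's `exists_l0Pkg`, helper70's `exists_twoComponentsE_JK`) and the G1 block (helper27's
`H27_G1JK`).
-/
import Mathlib
import Fermat.Agent.S35.H8_E2InstFinal
import Fermat.Agent.S35.H8_L1RefinedInst
import Fermat.Agent.S35.H27_G1JK
import Fermat.Agent.S35.H16_EscTConsumerJE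
import Fermat.Agent.S35.H92_NodeOfIsNodeInst

set_option autoImplicit false
set_option linter.unusedSectionVars false
set_option linter.style.haveILetI false
set_option synthInstance.maxHeartbeats 400000

noncomputable section

namespace Fermat.Agent.S35.H8

open ModularCurve AlgebraicCurve IsLocalRing
open Fermat.Agent.S18 Fermat.Agent.S18.H45 Fermat.Agent.S34

local notation "Qbar" => AlgebraicClosure ℚ

variable (M : ℕ) [NeZero M] {ℓ : ℕ} [hℓ : Fact ℓ.Prime] (hℓM : ¬ ℓ ∣ M)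
  {A : ValuationSubring Qbar} (hA : A.LiesOverPrime ℓ)
variable (E : IntermediateField (unrCyclo ℓ) Qbar) [FiniteDimensional (unrCyclo ℓ) E]
variable (hE : ∀ (τ : Qbar ≃ₐ[ℚ] Qbar) (x : Qbar), x ∈ E → τ x ∈ E)

local notation "kA" => IsLocalRing.ResidueField A
local notation "A₁" => H45.A0 A ℓ
local notation "L₁" => H45.unrCyclo ℓ
local notation "FkM" => modularFunctionFieldFullC (IsLocalRing.ResidueField A) M
local notation "FN" => modularFunctionFieldFullC (H45.unrCyclo ℓ) (ℓ * M)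
set_option quotPrecheck false in
local notation "FE" => modularFunctionFieldFullC (↥E) (ℓ * M)
set_option quotPrecheck false in
local notation "JE" => H95.JK (↥E) (ℓ * M) ℓ (Dvd.intro M rfl)
local notation "D₁" => integralClosure
  (Algebra.adjoin (IsLocalRing.ResidueField A) {S18.H16.jK (IsLocalRing.ResidueField A) M})
  (modularFunctionFieldFullC (IsLocalRing.ResidueField A) M)
local notation "D₂" => integralClosure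
  (Algebra.adjoin (IsLocalRing.ResidueField A) {(S18.H16.jK (IsLocalRing.ResidueField A) M)⁻¹})
  (modularFunctionFieldFullC (IsLocalRing.ResidueField A) M)

set_option maxHeartbeats 3200000 in
include hℓM hA in
/-- **`hE2₁`** at `N = ℓ * M`: chart `chartB A'' J_E`. -/
theorem hE2_JK
    [IsNoetherianRing ↥(H40.chartB (cutOver A E) JE)]
    [IsIntegrallyClosed ↥(H40.chartB (cutOver A E) JE)]
    [IsFractionRing ↥(H40.chartB (cutOver A E) JE) FE]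
    {φ : Qbar ≃ₐ[ℚ] Qbar} (hφ : φ ∈ A.decompositionSubgroup ℚ)
    (π : cutOver A E) (hmax : maximalIdeal (cutOver A E) = Ideal.span {π})
    {BM BM'' : Type*} [CommRing BM] [CommRing BM'']
    {red₁ red₂ : ↥(H40.chartB A₁ (H55.JN M (ℓ := ℓ))) →+* ↥D₁}
    {ι V : BM →+* ↥(H40.chartB A₁ (H55.JN M (ℓ := ℓ)))} {rbar : BM →+* ↥D₁}
    {W : ↥D₁ →+* ↥D₁} {e : ℕ}
    (hTC : H83.TwoComponents red₁ red₂ ι V rbar W e
      (algebraMap A₁ ↥(H40.chartB A₁ (H55.JN M (ℓ := ℓ))) ((ℓ : ℕ) : A₁)))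
    (he : 2 ≤ e)
    (hq₁ : red₁ (algebraMap A₁ ↥(H40.chartB A₁ (H55.JN M (ℓ := ℓ))) ((ℓ : ℕ) : A₁)) = 0)
    (hq₂ : red₂ (algebraMap A₁ ↥(H40.chartB A₁ (H55.JN M (ℓ := ℓ))) ((ℓ : ℕ) : A₁)) = 0)
    {red₁'' red₂'' : ↥(H40.chartB (cutOver A E) JE) →+* ↥D₁}
    {ι'' V'' : BM'' →+* ↥(H40.chartB (cutOver A E) JE)} {rbar'' : BM'' →+* ↥D₁}
    {W'' : ↥D₁ →+* ↥D₁} {e'' : ℕ}
    (TC'' : H83.TwoComponents red₁'' red₂'' ι'' V'' rbar'' W'' e''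
      (algebraMap (cutOver A E) ↥(H40.chartB (cutOver A E) JE) π))
    (hc₁ : ∀ b, red₁'' (H95.chartBC (A := A) E (ℓ * M) (H55.JN M (ℓ := ℓ)) JE
      (H95.baseChangeE_JK E (ℓ * M) ℓ (Dvd.intro M rfl)) b) = red₁ b)
    (hc₂ : ∀ b, red₂'' (H95.chartBC (A := A) E (ℓ * M) (H55.JN M (ℓ := ℓ)) JE
      (H95.baseChangeE_JK E (ℓ * M) ℓ (Dvd.intro M rfl)) b) = red₂ b)
    (hπ₁ : red₁'' (algebraMap (cutOver A E) ↥(H40.chartB (cutOver A E) JE) π) = 0)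
    (hπ₂ : red₂'' (algebraMap (cutOver A E) ↥(H40.chartB (cutOver A E) JE) π) = 0)
    (ΨB : ↥(H40.chartB (cutOver A E) JE) ≃+* ↥(H40.chartB (cutOver A E) JE))
    (hΨ : ∀ b : ↥(H40.chartB (cutOver A E) JE),
      galActFullC E hE (ℓ * M) φ (galActFullC E hE (ℓ * M) φ
        (algebraMap ↥(H40.chartB (cutOver A E) JE) FE b)) =
      algebraMap ↥(H40.chartB (cutOver A E) JE) FE (ΨB b))
    (ΨD₁ ΨD₂ : ↥D₁ →+* ↥D₁) (hinj₁ : Function.Injective ΨD₁) (hinj₂ : Function.Injective ΨD₂)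
    (h1Ψ : ∀ z, red₁'' (ΨB z) = ΨD₁ (red₁'' z)) (h2Ψ : ∀ z, red₂'' (ΨB z) = ΨD₂ (red₂'' z))
    {Q : ℕ} (hQ : 0 < Q) (hW : ∀ r, W'' (W'' (ΨD₁ r)) = r ^ Q)
    (T : Set (Place Qbar (S24.FN (ℓ * M))))
    (hsub : S35.H16.escTChart (A := A) (ℓ * M) (H55.JN M (ℓ := ℓ))
      (fun n₁ => RingHom.ker red₁ ≤ n₁ ∧ RingHom.ker red₂ ≤ n₁) ⊆ T)
    (m' : ℕ) :
    ∀ f : FE, H61.Admissible ↥E f m' →
      (∀ v ∈ T, v.ord (H99.toBar ↥E (ℓ * M) f) = 0) →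
      ∀ m : Ideal ↥(H40.chartB (cutOver A E) JE), m.IsMaximal →
        algebraMap (cutOver A E) ↥(H40.chartB (cutOver A E) JE) π ∈ m →
        H46.ChartWeakAt (F := FE)
          (algebraMap (cutOver A E) ↥(H40.chartB (cutOver A E) JE) π) m
          (galActFullC E hE (ℓ * M) φ (galActFullC E hE (ℓ * M) φ f) / f) m' := by
  have hcl := S35.H27.hcl_JK M hℓM hA E
  have hT := S35.H16.hT_of_escTChart_subset_JE hℓ.out hA (ℓ * M) (H55.JN M (ℓ := ℓ))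
    (fun n₁ => RingHom.ker red₁ ≤ n₁ ∧ RingHom.ker red₂ ≤ n₁)
    (fun n₁ _ hnode => S35.H92.exists_nodeTowerAt_JK M hℓM A hA hTC he hq₁ hq₂ n₁ hnode)
    E JE (H95.baseChangeE_JK E (ℓ * M) ℓ (Dvd.intro M rfl)) π hmax hcl T hsub
  have hL1 : ∀ (n₁ : Ideal ↥(H40.chartB A₁ (H55.JN M (ℓ := ℓ)))) [n₁.IsMaximal],
      algebraMap A₁ ↥(H40.chartB A₁ (H55.JN M (ℓ := ℓ))) ((ℓ : ℕ) : A₁) ∈ n₁ →
      SmoothAt ((ℓ : ℕ) : A₁) n₁ ∨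
        ((RingHom.ker red₁ ≤ n₁ ∧ RingHom.ker red₂ ≤ n₁) ∧ NodeAt ((ℓ : ℕ) : A₁) n₁) :=
    fun n₁ _ hn => hL1_refined_JK M hℓM A hA hTC he n₁ hn
  have hJ := S35.H27.coeffRingAut_JK L₁ (ℓ * M) ℓ (Dvd.intro M rfl) (galActK1 ℓ φ)
  -- NB: no expected type here (`exact hE2_of_twoComponents ..` against the goal times out)
  have key := hE2_of_twoComponents hℓ.out hA E hE (ℓ * M) (H55.JN M (ℓ := ℓ)) JE
    (H95.baseChangeE_JK E (ℓ * M) ℓ (Dvd.intro M rfl)) φ hφ hJ π hmax hcl hL1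
    TC'' hc₁ hc₂ hπ₁ hπ₂ ΨB hΨ ΨD₁ ΨD₂ hinj₁ hinj₂ h1Ψ h2Ψ hQ hW T
  exact key hT m'

set_option maxHeartbeats 3200000 in
include hℓM hA in
/-- **`hE2₂`** at `N = ℓ * M`: chart `chartB A'' J_E⁻¹`. -/
theorem hE2_JK_inv
    [IsNoetherianRing ↥(H40.chartB (cutOver A E) JE⁻¹)]
    [IsIntegrallyClosed ↥(H40.chartB (cutOver A E) JE⁻¹)]
    [IsFractionRing ↥(H40.chartB (cutOver A E) JE⁻¹) FE]
    {φ : Qbar ≃ₐ[ℚ] Qbar} (hφ : φ ∈ A.decompositionSubgroup ℚ)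
    (π : cutOver A E) (hmax : maximalIdeal (cutOver A E) = Ideal.span {π})
    {BM BM'' : Type*} [CommRing BM] [CommRing BM'']
    {red₁ red₂ : ↥(H40.chartB A₁ (H55.JN M (ℓ := ℓ))⁻¹) →+* ↥D₂}
    {ι V : BM →+* ↥(H40.chartB A₁ (H55.JN M (ℓ := ℓ))⁻¹)} {rbar : BM →+* ↥D₂}
    {W : ↥D₂ →+* ↥D₂} {e : ℕ}
    (hTC : H83.TwoComponents red₁ red₂ ι V rbar W e
      (algebraMap A₁ ↥(H40.chartB A₁ (H55.JN M (ℓ := ℓ))⁻¹) ((ℓ : ℕ) : A₁)))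
    (he : 2 ≤ e)
    (hq₁ : red₁ (algebraMap A₁ ↥(H40.chartB A₁ (H55.JN M (ℓ := ℓ))⁻¹) ((ℓ : ℕ) : A₁)) = 0)
    (hq₂ : red₂ (algebraMap A₁ ↥(H40.chartB A₁ (H55.JN M (ℓ := ℓ))⁻¹) ((ℓ : ℕ) : A₁)) = 0)
    {red₁'' red₂'' : ↥(H40.chartB (cutOver A E) JE⁻¹) →+* ↥D₂}
    {ι'' V'' : BM'' →+* ↥(H40.chartB (cutOver A E) JE⁻¹)} {rbar'' : BM'' →+* ↥D₂}
    {W'' : ↥D₂ →+* ↥D₂} {e'' : ℕ}
    (TC'' : H83.TwoComponents red₁'' red₂'' ι'' V'' rbar'' W'' e''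
      (algebraMap (cutOver A E) ↥(H40.chartB (cutOver A E) JE⁻¹) π))
    (hc₁ : ∀ b, red₁'' (H95.chartBC (A := A) E (ℓ * M) (H55.JN M (ℓ := ℓ))⁻¹ JE⁻¹
      (H95.baseChangeE_JK_inv E (ℓ * M) ℓ (Dvd.intro M rfl)) b) = red₁ b)
    (hc₂ : ∀ b, red₂'' (H95.chartBC (A := A) E (ℓ * M) (H55.JN M (ℓ := ℓ))⁻¹ JE⁻¹
      (H95.baseChangeE_JK_inv E (ℓ * M) ℓ (Dvd.intro M rfl)) b) = red₂ b)
    (hπ₁ : red₁'' (algebraMap (cutOver A E) ↥(H40.chartB (cutOver A E) JE⁻¹) π) = 0)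
    (hπ₂ : red₂'' (algebraMap (cutOver A E) ↥(H40.chartB (cutOver A E) JE⁻¹) π) = 0)
    (ΨB : ↥(H40.chartB (cutOver A E) JE⁻¹) ≃+* ↥(H40.chartB (cutOver A E) JE⁻¹))
    (hΨ : ∀ b : ↥(H40.chartB (cutOver A E) JE⁻¹),
      galActFullC E hE (ℓ * M) φ (galActFullC E hE (ℓ * M) φ
        (algebraMap ↥(H40.chartB (cutOver A E) JE⁻¹) FE b)) =
      algebraMap ↥(H40.chartB (cutOver A E) JE⁻¹) FE (ΨB b))
    (ΨD₁ ΨD₂ : ↥D₂ →+* ↥D₂) (hinj₁ : Function.Injective ΨD₁) (hinj₂ : Function.Injective ΨD₂)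
    (h1Ψ : ∀ z, red₁'' (ΨB z) = ΨD₁ (red₁'' z)) (h2Ψ : ∀ z, red₂'' (ΨB z) = ΨD₂ (red₂'' z))
    {Q : ℕ} (hQ : 0 < Q) (hW : ∀ r, W'' (W'' (ΨD₁ r)) = r ^ Q)
    (T : Set (Place Qbar (S24.FN (ℓ * M))))
    (hsub : S35.H16.escTChart (A := A) (ℓ * M) (H55.JN M (ℓ := ℓ))⁻¹
      (fun n₁ => RingHom.ker red₁ ≤ n₁ ∧ RingHom.ker red₂ ≤ n₁) ⊆ T)
    (m' : ℕ) :
    ∀ f : FE, H61.Admissible ↥E f m' →
      (∀ v ∈ T, v.ord (H99.toBar ↥E (ℓ * M) f) = 0) →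
      ∀ m : Ideal ↥(H40.chartB (cutOver A E) JE⁻¹), m.IsMaximal →
        algebraMap (cutOver A E) ↥(H40.chartB (cutOver A E) JE⁻¹) π ∈ m →
        H46.ChartWeakAt (F := FE)
          (algebraMap (cutOver A E) ↥(H40.chartB (cutOver A E) JE⁻¹) π) m
          (galActFullC E hE (ℓ * M) φ (galActFullC E hE (ℓ * M) φ f) / f) m' := by
  have hcl := S35.H27.hcl_JK_inv M hℓM hA E
  have hT := S35.H16.hT_of_escTChart_subset_JE hℓ.out hA (ℓ * M) (H55.JN M (ℓ := ℓ))⁻¹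
    (fun n₁ => RingHom.ker red₁ ≤ n₁ ∧ RingHom.ker red₂ ≤ n₁)
    (fun n₁ _ hnode => S35.H92.exists_nodeTowerAt_JK_inv M hℓM A hA hTC he hq₁ hq₂ n₁ hnode)
    E JE⁻¹ (H95.baseChangeE_JK_inv E (ℓ * M) ℓ (Dvd.intro M rfl)) π hmax hcl T hsub
  have hL1 : ∀ (n₁ : Ideal ↥(H40.chartB A₁ (H55.JN M (ℓ := ℓ))⁻¹)) [n₁.IsMaximal],
      algebraMap A₁ ↥(H40.chartB A₁ (H55.JN M (ℓ := ℓ))⁻¹) ((ℓ : ℕ) : A₁) ∈ n₁ →
      SmoothAt ((ℓ : ℕ) : A₁) n₁ ∨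
        ((RingHom.ker red₁ ≤ n₁ ∧ RingHom.ker red₂ ≤ n₁) ∧ NodeAt ((ℓ : ℕ) : A₁) n₁) :=
    fun n₁ _ hn => hL1_refined_JK_inv M hℓM A hA hTC he n₁ hn
  have hJ := S35.H27.coeffRingAut_JK_inv L₁ (ℓ * M) ℓ (Dvd.intro M rfl) (galActK1 ℓ φ)
  have key := hE2_of_twoComponents hℓ.out hA E hE (ℓ * M) (H55.JN M (ℓ := ℓ))⁻¹ JE⁻¹
    (H95.baseChangeE_JK_inv E (ℓ * M) ℓ (Dvd.intro M rfl)) φ hφ hJ π hmax hcl hL1
    TC'' hc₁ hc₂ hπ₁ hπ₂ ΨB hΨ ΨD₁ ΨD₂ hinj₁ hinj₂ h1Ψ h2Ψ hQ hW T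
  exact key hT m'

end Fermat.Agent.S35.H8
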