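/-
helper8 — S35 nodes (E2)+(E5), FINAL statement in the shape asked by helper18 (#3023):
`exists_T_hE2` : from helper55's `A₁`-level L0 package, a FINITE set `T` of places of
`FN (ℓ * M) / Qbar`, independent of the level `E`, such that for every good `E` the two hypotheses
`hE2₁`, `hE2₂` of `H18.geoFnEN_of_l0Pkg` hold (literally).

`T` = helper16's escape sets of the two charts (`H16.escTChart`) for the node predicate
`ker red₁ ≤ n₁ ∧ ker red₂ ≤ n₁`; finiteness = `H16.escTChart_finite` + helper84's `nodes_finite'`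
+ helper92's towers; per level: helper70's `E`-level package, helper27's G1 block, and
`H8.hE2_JK`, `H8.hE2_JK_inv`.
-/
import Mathlib
import Fermat.Agent.S35.H8_E2JK
import Fermat.Agent.S35.H16_EscTFinite
import Fermat.Agent.S35.H70_TwoComponentsBCPkg
import Fermat.Agent.S35.H55_L0Pkg

set_option autoImplicit false
set_option linter.unusedSectionVars false
set_option linter.style.haveILetI false
set_option synthInstance.maxHeartbeats 400000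
set_option maxHeartbeats 3200000

noncomputable section

namespace Fermat.Agent.S35.H8

open ModularCurve AlgebraicCurve HahnSeries IntermediateField IsLocalRing
open Fermat.Agent.S18 Fermat.Agent.S18.H45 Fermat.Agent.S34
open Fermat.Agent.S34.H55

local notation "Qbar" => AlgebraicClosure ℚ
local notation "GQ" => (AlgebraicClosure ℚ ≃ₐ[ℚ] AlgebraicClosure ℚ)

variable (M : ℕ) [NeZero M] {ℓ : ℕ} [NeZero ℓ] [hℓ : Fact ℓ.Prime] (hℓM : ¬ ℓ ∣ M)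
  (A : ValuationSubring Qbar) (hA : A.LiesOverPrime ℓ)

local notation "kA" => IsLocalRing.ResidueField A
local notation "A₁" => H45.A0 A ℓ
local notation "FkM" => modularFunctionFieldFullC (IsLocalRing.ResidueField A) M
local notation "J₁" => H55.JN M (ℓ := ℓ)
local notation "RM" => integralClosure
  (Algebra.adjoin (IsLocalRing.ResidueField A) {S18.H16.jK (IsLocalRing.ResidueField A) M})
  (modularFunctionFieldFullC (IsLocalRing.ResidueField A) M)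
local notation "RM'" => integralClosure
  (Algebra.adjoin (IsLocalRing.ResidueField A) {(S18.H16.jK (IsLocalRing.ResidueField A) M)⁻¹})
  (modularFunctionFieldFullC (IsLocalRing.ResidueField A) M)

set_option maxHeartbeats 64000000 in
include hℓM hA in
/-- **(E2)+(E5), final form**: the finite avoided set `T` and the two chart hypotheses
`hE2₁ hE2₂` of `H18.geoFnEN_of_l0Pkg` at every level `E`. -/
theorem exists_T_hE2
    (Pi : PlaceInf M hℓM A hA) (P0 : PlaceZero M hℓM A hA)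
    (r₁₁ r₁₂ : ↥(H40.chartB A₁ J₁) →+* ↥RM)
    (TC₁ : H83.TwoComponents r₁₁ r₁₂
      (chartMap (iotaMN M (ℓ := ℓ)) (iotaMN_algebraMap M A) (hιint1 M A))
      (chartMap (VMN M (ℓ := ℓ)) (VMN_algebraMap M A) (hVint1 M A))
      (rbarB (Mod M hℓM A hA) (Mod M hℓM A hA).x_mem (Mod M hℓM A hA).res1_x)
      (WR (FrM M A hA) ℓ (hFrx M A hA)) ℓ
      (algebraMap A₁ ↥(H40.chartB A₁ J₁) ((ℓ : ℕ) : A₁)))
    (F₁ : S35.H55.L0ChartFacts M hℓM A hA Pi P0 r₁₁ r₁₂)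
    (r₂₁ r₂₂ : ↥(H40.chartB A₁ J₁⁻¹) →+* ↥RM')
    (TC₂ : H83.TwoComponents r₂₁ r₂₂
      (chartMap (iotaMN M (ℓ := ℓ)) (iotaMN_algebraMap M A) (hιint2 M A))
      (chartMap (VMN M (ℓ := ℓ)) (VMN_algebraMap M A) (hVint2 M A))
      (rbarB (Mod M hℓM A hA) (hc2 M hℓM A hA) (hcw2 M hℓM A hA))
      (WR (FrM M A hA) ℓ (hFrx_inv M A hA)) ℓ
      (algebraMap A₁ ↥(H40.chartB A₁ J₁⁻¹) ((ℓ : ℕ) : A₁)))
    (F₂ : S35.H55.L0ChartFacts M hℓM A hA Pi P0 r₂₁ r₂₂)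
    {p : ℕ} (hp : p.Prime) (hpℓ : p ≠ ℓ) (φ : GQ) (hφ : A.IsFrobeniusAt φ ℓ) (n : ℕ) :
    ∃ T : Set (Place Qbar (S24.FN (ℓ * M))), T.Finite ∧
      ∀ (E : IntermediateField (unrCyclo ℓ) Qbar) [FiniteDimensional (unrCyclo ℓ) E]
        [IsGalois (unrCyclo ℓ) E] (hE : ∀ (τ : GQ) (x : Qbar), x ∈ E → τ x ∈ E)
        (π : ↥(cutOver A E)) (_ : maximalIdeal ↥(cutOver A E) = Ideal.span {π}),
        (∀ f : ↥(modularFunctionFieldFullC ↥E (ℓ * M)), H61.Admissible ↥E f (p ^ n) →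
          (∀ v ∈ T, v.ord (H99.toBar ↥E (ℓ * M) f) = 0) →
          ∀ m : Ideal ↥(H40.chartB (cutOver A E) (H95.JK ↥E (ℓ * M) ℓ (Dvd.intro M rfl))),
            m.IsMaximal →
            algebraMap ↥(cutOver A E)
              ↥(H40.chartB (cutOver A E) (H95.JK ↥E (ℓ * M) ℓ (Dvd.intro M rfl))) π ∈ m →
            H46.ChartWeakAt (F := ↥(modularFunctionFieldFullC ↥E (ℓ * M)))
              (algebraMap ↥(cutOver A E)
                ↥(H40.chartB (cutOver A E) (H95.JK ↥E (ℓ * M) ℓ (Dvd.intro M rfl))) π) m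
              (galActFullC E hE (ℓ * M) φ (galActFullC E hE (ℓ * M) φ f) / f) (p ^ n)) ∧
        (∀ f : ↥(modularFunctionFieldFullC ↥E (ℓ * M)), H61.Admissible ↥E f (p ^ n) →
          (∀ v ∈ T, v.ord (H99.toBar ↥E (ℓ * M) f) = 0) →
          ∀ m : Ideal ↥(H40.chartB (cutOver A E) (H95.JK ↥E (ℓ * M) ℓ (Dvd.intro M rfl))⁻¹),
            m.IsMaximal →
            algebraMap ↥(cutOver A E)
              ↥(H40.chartB (cutOver A E) (H95.JK ↥E (ℓ * M) ℓ (Dvd.intro M rfl))⁻¹) π ∈ m →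
            H46.ChartWeakAt (F := ↥(modularFunctionFieldFullC ↥E (ℓ * M)))
              (algebraMap ↥(cutOver A E)
                ↥(H40.chartB (cutOver A E) (H95.JK ↥E (ℓ * M) ℓ (Dvd.intro M rfl))⁻¹) π) m
              (galActFullC E hE (ℓ * M) φ (galActFullC E hE (ℓ * M) φ f) / f) (p ^ n)) := by
  -- branch rings
  haveI := S18.H16.isAlgClosed_k A
  haveI := S18.H16.finiteDimensional_Fk M hℓM A hA
  haveI := S18.H16.isSeparable_Fk M hℓM A hA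
  haveI := S18.H97.finiteDimensional_adjoin_inv (k := kA) (S18.H16.jK kA M)
  haveI := S18.H97.isSeparable_adjoin_inv (k := kA) (S18.H16.jK kA M)
  haveI hDed₁ : IsDedekindDomain ↥RM :=
    S18.H97.isDedekindDomain_intRing_of_isSeparable (S18.H16.jK kA M)
      (S18.H16.transcendental_jk M A)
  haveI hDed₂ : IsDedekindDomain ↥RM' :=
    S18.H97.isDedekindDomain_intRing_of_isSeparable (S18.H16.jK kA M)⁻¹
      (S18.H97.transcendental_inv (S18.H16.transcendental_jk M A))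
  have he : 2 ≤ ℓ := hℓ.out.two_le
  -- the avoided set
  have htower₁ : ∀ (n₁ : Ideal ↥(H40.chartB A₁ J₁)) [n₁.IsPrime],
      (RingHom.ker r₁₁ ≤ n₁ ∧ RingHom.ker r₁₂ ≤ n₁) →
      ∃ xs ys, NodeTowerAt ((ℓ : ℕ) : A₁) n₁ xs ys := fun n₁ _ hnode =>
    S35.H92.exists_nodeTowerAt_JK M hℓM A hA TC₁ he F₁.red₁_ell F₁.red₂_ell n₁ hnode
  have htower₂ : ∀ (n₁ : Ideal ↥(H40.chartB A₁ J₁⁻¹)) [n₁.IsPrime],
      (RingHom.ker r₂₁ ≤ n₁ ∧ RingHom.ker r₂₂ ≤ n₁) →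
      ∃ xs ys, NodeTowerAt ((ℓ : ℕ) : A₁) n₁ xs ys := fun n₁ _ hnode =>
    S35.H92.exists_nodeTowerAt_JK_inv M hℓM A hA TC₂ he F₂.red₁_ell F₂.red₂_ell n₁ hnode
  have hfin₁ := S35.H16.escTChart_finite hℓ.out hA (ℓ * M) J₁
    (fun n₁ => RingHom.ker r₁₁ ≤ n₁ ∧ RingHom.ker r₁₂ ≤ n₁) htower₁
    (S35.H84.nodes_finite' TC₁ he F₁.notField)
  have hfin₂ := S35.H16.escTChart_finite hℓ.out hA (ℓ * M) J₁⁻¹
    (fun n₁ => RingHom.ker r₂₁ ≤ n₁ ∧ RingHom.ker r₂₂ ≤ n₁) htower₂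
    (S35.H84.nodes_finite' TC₂ he F₂.notField)
  refine ⟨S35.H16.escTChart (A := A) (ℓ * M) J₁
      (fun n₁ => RingHom.ker r₁₁ ≤ n₁ ∧ RingHom.ker r₁₂ ≤ n₁) ∪
    S35.H16.escTChart (A := A) (ℓ * M) J₁⁻¹
      (fun n₁ => RingHom.ker r₂₁ ≤ n₁ ∧ RingHom.ker r₂₂ ≤ n₁),
    hfin₁.union hfin₂, fun E _ _ hE π hmax => ?_⟩
  -- chart instances
  haveI := H95.finiteDimensional_JK ↥E (ℓ * M) ℓ (Dvd.intro M rfl)
    (H99.natCast_ne_zero₀ (ℓ * M) ↥E)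
  haveI := H95.isSeparable_JK ↥E (ℓ * M) ℓ (Dvd.intro M rfl)
  haveI := H95.isFractionRing_chartB_JK (A := A) E (ℓ * M) ℓ (Dvd.intro M rfl)
  haveI := H95.isFractionRing_chartB_JK_inv (A := A) E (ℓ * M) ℓ (Dvd.intro M rfl)
  haveI := H95.isNoetherianRing_chartB_JK hℓ.out hA E (ℓ * M) ℓ (Dvd.intro M rfl)
  haveI := H95.isNoetherianRing_chartB_JK_inv hℓ.out hA E (ℓ * M) ℓ (Dvd.intro M rfl)
  haveI := H95.isIntegrallyClosed_chartB_JK (A := A) E (ℓ * M) ℓ (Dvd.intro M rfl)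
  haveI := H95.isIntegrallyClosed_chartB_JK_inv (A := A) E (ℓ * M) ℓ (Dvd.intro M rfl)
  -- the E-level packages (helper70)
  have k1 := S35.H70.exists_twoComponentsE_JK M hℓM A hA E π hmax TC₁ F₁.red₁_ell F₁.red₂_ell
    F₁.coord₁ F₁.coord₂
  obtain ⟨ρ₁₁, ρ₁₂, hc₁₁, hc₁₂, hπ₁₁, hπ₁₂, -, -, -, -, TC₁E⟩ := k1
  have k2 := S35.H70.exists_twoComponentsE_JK_inv M hℓM A hA E π hmax TC₂ F₂.red₁_ell
    F₂.red₂_ell F₂.coord₁ F₂.coord₂
  obtain ⟨ρ₂₁, ρ₂₂, hc₂₁, hc₂₂, hπ₂₁, hπ₂₂, -, -, -, -, TC₂E⟩ := k2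
  -- G1 (helper27)
  have hφd := hφ.mem_decompositionSubgroup
  have hQ : 0 < ℓ ^ 2 := pow_pos hℓ.out.pos 2
  have h1Ψ₁ := S35.H27.red_psiB_JK_infty M hℓM hA E hE hφ Pi r₁₁ (fun b _ => F₁.res_inf b)
    π hmax ρ₁₁ hc₁₁ hπ₁₁
  have h2Ψ₁ := S35.H27.red_psiB_JK_zero M hℓM hA E hE hφ P0 r₁₂ (fun b _ => F₁.res_zero b)
    π hmax ρ₁₂ hc₁₂ hπ₁₂
  have h1Ψ₂ := S35.H27.red_psiB_JK_inv_infty M hℓM hA E hE hφ Pi r₂₁
    (fun b _ => F₂.res_inf b) π hmax ρ₂₁ hc₂₁ hπ₂₁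
  have h2Ψ₂ := S35.H27.red_psiB_JK_inv_zero M hℓM hA E hE hφ P0 r₂₂
    (fun b _ => F₂.res_zero b) π hmax ρ₂₂ hc₂₂ hπ₂₂
  -- NB: no expected type (`exact hE2_JK ..` against the goal is slow)
  have key₁ := hE2_JK M hℓM hA E hE hφd π hmax TC₁ he F₁.red₁_ell F₁.red₂_ell TC₁E hc₁₁ hc₁₂
    hπ₁₁ hπ₁₂ (S35.H27.psiB_JK M E hE φ hφd) (S35.H27.algebraMap_psiB_JK M E hE φ hφd)
    (S35.H27.psiD_jK M hA) (S35.H27.psiD_jK M hA) (S35.H27.psiD_jK_injective M hA)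
    (S35.H27.psiD_jK_injective M hA) h1Ψ₁ h2Ψ₁ hQ (S35.H27.WR_WR_psiD_jK M hA)
    (S35.H16.escTChart (A := A) (ℓ * M) J₁
        (fun n₁ => RingHom.ker r₁₁ ≤ n₁ ∧ RingHom.ker r₁₂ ≤ n₁) ∪
      S35.H16.escTChart (A := A) (ℓ * M) J₁⁻¹
        (fun n₁ => RingHom.ker r₂₁ ≤ n₁ ∧ RingHom.ker r₂₂ ≤ n₁))
    Set.subset_union_left (p ^ n)
  have key₂ := hE2_JK_inv M hℓM hA E hE hφd π hmax TC₂ he F₂.red₁_ell F₂.red₂_ell TC₂E hc₂₁
    hc₂₂ hπ₂₁ hπ₂₂ (S35.H27.psiB_JK_inv M E hE φ hφd)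
    (S35.H27.algebraMap_psiB_JK_inv M E hE φ hφd)
    (S35.H27.psiD_jK_inv M hA) (S35.H27.psiD_jK_inv M hA) (S35.H27.psiD_jK_inv_injective M hA)
    (S35.H27.psiD_jK_inv_injective M hA) h1Ψ₂ h2Ψ₂ hQ (S35.H27.WR_WR_psiD_jK_inv M hA)
    (S35.H16.escTChart (A := A) (ℓ * M) J₁
        (fun n₁ => RingHom.ker r₁₁ ≤ n₁ ∧ RingHom.ker r₁₂ ≤ n₁) ∪
      S35.H16.escTChart (A := A) (ℓ * M) J₁⁻¹
        (fun n₁ => RingHom.ker r₂₁ ≤ n₁ ∧ RingHom.ker r₂₂ ≤ n₁))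
    Set.subset_union_right (p ^ n)
  exact ⟨key₁, key₂⟩

end Fermat.Agent.S35.H8
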