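/-
helper8 — S35, FAST twin of helper18's `S35/H18_GeoInstE` (`geoFnEN_final`, `geo_final`): the same
two statements, proved from `H8.exists_T_hE2` (`S35/H8_E2E5Final`, 45 s on top of `S35/H8_E2JK`,
134 s) instead of `H18.exists_T_hE2` (`S35/H18_GeoInstD` 814 s + `S35/H18_GeoInstD2` 929 s).
Importing this file instead of `H18_GeoInstE` removes `H18_GeoInstD/D2/E` from the closure.

* `geoFnEN_final'` = `H18.geoFnEN_final` (the hypothesis `h` of `H18.geo_of_geoFnEN`);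
* `geo_final'` = `H18.geo_final` = the `hGEO` argument of `H57.s35_of_geo` VERBATIM.
-/
import Mathlib
import Fermat.Agent.S35.H18_GeoInstC
import Fermat.Agent.S35.H8_E2E5Final

set_option autoImplicit false
set_option linter.unusedSectionVars false
set_option linter.style.haveILetI false
set_option synthInstance.maxHeartbeats 400000
set_option maxHeartbeats 3200000

noncomputable section

namespace Fermat.Agent.S35.H8

open ModularCurve AlgebraicCurve HahnSeries IntermediateField IsLocalRing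
open Fermat.Agent.S18 Fermat.Agent.S18.H45 Fermat.Agent.S34
open Fermat.Agent.S34.H55

local notation "Qbar" => AlgebraicClosure ℚ
local notation "GQ" => (AlgebraicClosure ℚ ≃ₐ[ℚ] AlgebraicClosure ℚ)

set_option maxHeartbeats 32000000 in
/-- **The hypothesis `h` of `H18.geo_of_geoFnEN`** (fast twin of `H18.geoFnEN_final`). -/
theorem geoFnEN_final' :
    ∀ (M0 q : ℕ) [NeZero M0] [NeZero q], q.Prime → ¬ q ∣ M0 → ∀ p : ℕ, p.Prime → p ≠ q →
      ∀ A : ValuationSubring Qbar, A.LiesOverPrime q → ∀ φ : GQ, A.IsFrobeniusAt φ q →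
        ∀ n : ℕ, ∃ (T : Set (Place Qbar (S24.FN (q * M0)))) (S' : Finset Qbar),
          T.Finite ∧
          ∀ (E : IntermediateField (H45.unrCyclo q) Qbar)
            [FiniteDimensional (H45.unrCyclo q) E] [IsGalois (H45.unrCyclo q) E]
            (hE : ∀ (τ : GQ) (x : Qbar), x ∈ E → τ x ∈ E), (∀ x ∈ S', x ∈ E) →
            S35.H18.GeoFnEN M0 q (q * M0) (dvd_mul_left M0 q) dvd_rfl E hE φ q (p ^ n) T := by
  intro M0 q _ _ hq hqM p hp hpq A hA φ hφ n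
  haveI : Fact q.Prime := ⟨hq⟩
  have k0 := S35.H55.exists_l0Pkg M0 hqM A hA
  obtain ⟨Pi, P0, ⟨r₁₁, r₁₂, TC₁, F₁⟩, ⟨r₂₁, r₂₂, TC₂, F₂⟩⟩ := k0
  have k1 := exists_T_hE2 M0 hqM A hA Pi P0 r₁₁ r₁₂ TC₁ F₁ r₂₁ r₂₂ TC₂ F₂ hp hpq φ hφ n
  obtain ⟨T, hTfin, hT⟩ := k1
  refine ⟨T, ∅, hTfin, fun E _ _ hE _ => ?_⟩
  have k2 := exists_uniformizer_cutOver hq hA E
  obtain ⟨π, -, -, -, -, -, hmax⟩ := k2
  have k3 := hT E hE π hmax
  exact S35.H18.geoFnEN_of_l0Pkg M0 hqM A hA E hE Pi P0 r₁₁ r₁₂ TC₁ F₁ r₂₁ r₂₂ TC₂ F₂ hp hpq φ hφ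
    n T π hmax k3.1 k3.2

/-- **`(GEO)` of `H57.s35_of_geo`, hypothesis-free** (fast twin of `H18.geo_final`). -/
theorem geo_final' :
    ∀ (M0 q : ℕ) [NeZero M0] [NeZero q], q.Prime → ¬ q ∣ M0 → ∀ p : ℕ, p.Prime → p ≠ q →
      ∀ A : ValuationSubring Qbar, A.LiesOverPrime q → ∀ φ : GQ, A.IsFrobeniusAt φ q →
        ∀ n : ℕ, ∃ T : Set (Place Qbar (modularFunctionFieldBar (M0 * q))), T.Finite ∧
          H86.GeoFnJ M0 q φ q (p ^ n) T :=
  S35.H18.geo_of_geoFnEN geoFnEN_final'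

end Fermat.Agent.S35.H8
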