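import Mathlib
import Fermat.Agent.S18.H95_PlaceExt

set_option autoImplicit false
set_option linter.unusedSectionVars false
set_option linter.style.haveILetI false

/-!
# S35 (G2c-inst), generic part: a place of degree one has at most ONE extension to a constant
field extension

`helper8`.  Generic (no modular curves).  `F / K` and `F' / K'` function fields in the vocabulary of
`S18.H95_PlaceExt` / `S34.H65_DescOrd` (`F → F'` compatible with `K → K'`; instance: `K = E`,
`F = F_E`, `K' = Qbar`, `F' = FN N`).  "`v` lies above `w`" is the relation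
`∀ x : F, x ∈ w.toValuationSubring ↔ algebraMap F F' x ∈ v.toValuationSubring`
(the third output of `H95.exists_place_extension`, the second of
`H65.exists_place_above_of_ord_ne_zero`).

* `exists_const_add_mul_of_deg_eq_one` : `deg w = 1`, `ord_w t = 1` : `𝒪_w = K + t 𝒪_w`;
* `eq_of_above_of_deg_eq_one` : **uniqueness** : if `F'` is generated as a `K'`-algebra by the
  image of `F` (`hgen : Algebra.adjoin K' (Set.range (algebraMap F F')) = ⊤`), a place `w` of
  `F / K` of degree one lies under at most one place of `F' / K'`;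
* `exists_int_ord_eq_mul_of_above`, `ord_algebraMap_uniformiser_of_above`,
  `ord_algebraMap_eq_of_above` : and then `ord_v (x) = ord_w (x)` on `F` (no ramification).
-/

noncomputable section

namespace Fermat.Agent.S35.H8

open AlgebraicCurve
open Fermat.Agent.S24

section DegOne

variable {K F : Type*} [Field K] [Field F] [Algebra K F]

/-- At a place of degree one with uniformiser `t`: `𝒪_w = K + t 𝒪_w`. -/
theorem exists_const_add_mul_of_deg_eq_one (w : Place K F) (hdeg : w.deg = 1) {t : F}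
    (ht0 : t ≠ 0) (ht : w.ord t = 1) {x : F} (hx : x ∈ w.toValuationSubring) :
    ∃ (c : K) (x₁ : F), x₁ ∈ w.toValuationSubring ∧ x = algebraMap K F c + t * x₁ := by
  have h1 : (1 : w.ResidueField) ≠ 0 := one_ne_zero
  obtain ⟨c, hc⟩ := (finrank_eq_one_iff_of_nonzero' (1 : w.ResidueField) h1).mp hdeg
    (IsLocalRing.residue w.toValuationSubring ⟨x, hx⟩)
  have hmem : (⟨x, hx⟩ : w.toValuationSubring) - algebraMap K w.toValuationSubring c ∈
      IsLocalRing.maximalIdeal w.toValuationSubring := by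
    rw [← IsLocalRing.residue_eq_zero_iff, map_sub, sub_eq_zero, ← hc, Algebra.smul_def, mul_one,
      IsScalarTower.algebraMap_apply K w.toValuationSubring w.ResidueField,
      IsLocalRing.ResidueField.algebraMap_eq]
  refine ⟨c, (x - algebraMap K F c) / t, ?_, by field_simp; ring⟩
  by_cases h0 : x - algebraMap K F c = 0
  · rw [h0, zero_div]; exact zero_mem _
  · have hne : (⟨x, hx⟩ : w.toValuationSubring) - algebraMap K w.toValuationSubring c ≠ 0 := by
      intro h
      apply h0
      have := congrArg Subtype.val h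
      simpa using this
    have hpos := (H27.ord_pos_iff_mem_maximalIdeal w _ hne).mpr hmem
    have hcoe : (((⟨x, hx⟩ : w.toValuationSubring) - algebraMap K w.toValuationSubring c :
        w.toValuationSubring) : F) = x - algebraMap K F c := by
      simp
    rw [hcoe] at hpos
    rw [H27.mem_toValuationSubring_of_ne_zero w (div_ne_zero h0 ht0), div_eq_mul_inv,
      w.ord_mul h0 (inv_ne_zero ht0), w.ord_inv, ht]
    omega

end DegOne

section Unique

variable {K F K' F' : Type*} [Field K] [Field F] [Algebra K F] [Field K'] [Field F']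
  [Algebra K' F'] [Algebra K K'] [Algebra F F'] [Algebra K F'] [IsScalarTower K F F']
  [IsScalarTower K K' F']

/-- the `K'`-subalgebra of `F'` generated by the image of `𝒪_w`. -/
def spanO (K' : Type*) {K F F' : Type*} [Field K] [Field F] [Algebra K F] [Field K'] [Field F']
    [Algebra K' F'] [Algebra F F'] (w : Place K F) : Subalgebra K' F' :=
  Algebra.adjoin K' ((algebraMap F F') '' (w.toValuationSubring : Set F))

theorem algebraMap_mem_spanO (w : Place K F) {x : F} (hx : x ∈ w.toValuationSubring) :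
    algebraMap F F' x ∈ spanO K' (F' := F') w :=
  Algebra.subset_adjoin ⟨x, hx, rfl⟩

/-- the valuation ring of a place, as a subalgebra over the constants. -/
def placeSubalgebra (v : Place K' F') : Subalgebra K' F' :=
  { v.toValuationSubring.toSubring with algebraMap_mem' := v.algebraMap_mem' }

theorem mem_placeSubalgebra (v : Place K' F') (z : F') :
    z ∈ placeSubalgebra v ↔ z ∈ v.toValuationSubring := Iff.rfl

theorem spanO_le (v : Place K' F') (w : Place K F)
    (hvw : ∀ x : F, x ∈ w.toValuationSubring ↔ algebraMap F F' x ∈ v.toValuationSubring) :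
    spanO K' (F' := F') w ≤ placeSubalgebra v := by
  apply Algebra.adjoin_le
  rintro _ ⟨x, hx, rfl⟩
  exact (hvw x).mp hx

/-- a uniformiser of `w` has positive order at every place above `w`. -/
theorem ord_algebraMap_pos_of_above (v : Place K' F') (w : Place K F)
    (hvw : ∀ x : F, x ∈ w.toValuationSubring ↔ algebraMap F F' x ∈ v.toValuationSubring)
    {t : F} (ht0 : t ≠ 0) (ht : 0 < w.ord t) : 0 < v.ord (algebraMap F F' t) := by
  have ht' : algebraMap F F' t ≠ 0 := (_root_.map_ne_zero _).mpr ht0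
  have h1 : t⁻¹ ∉ w.toValuationSubring := by
    rw [H27.mem_toValuationSubring_of_ne_zero w (inv_ne_zero ht0), w.ord_inv]
    omega
  have h2 : algebraMap F F' t⁻¹ ∉ v.toValuationSubring := fun h => h1 ((hvw _).mpr h)
  rw [map_inv₀, H27.mem_toValuationSubring_of_ne_zero v (inv_ne_zero ht'), v.ord_inv] at h2
  omega

/-- `𝒪' = K' + t 𝒪'` for `𝒪' = K' 𝒪_w`, `deg w = 1`. -/
theorem exists_const_add_mul_of_mem_spanO (w : Place K F) (hdeg : w.deg = 1) {t : F}
    (ht0 : t ≠ 0) (ht : w.ord t = 1) {y : F'} (hy : y ∈ spanO K' (F' := F') w) :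
    ∃ (c : K') (y₁ : F'), y₁ ∈ spanO K' (F' := F') w ∧
      y = algebraMap K' F' c + algebraMap F F' t * y₁ := by
  have htO : algebraMap F F' t ∈ spanO K' (F' := F') w := by
    apply algebraMap_mem_spanO
    rw [H27.mem_toValuationSubring_of_ne_zero w ht0, ht]
    exact zero_le_one
  induction hy using Algebra.adjoin_induction with
  | mem z hz =>
    obtain ⟨x, hx, rfl⟩ := hz
    obtain ⟨c, x₁, hx₁, hxe⟩ := exists_const_add_mul_of_deg_eq_one w hdeg ht0 ht hx
    refine ⟨algebraMap K K' c, algebraMap F F' x₁, algebraMap_mem_spanO w hx₁, ?_⟩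
    rw [hxe, map_add, map_mul, ← IsScalarTower.algebraMap_apply K F F',
      ← IsScalarTower.algebraMap_apply K K' F']
  | algebraMap c => exact ⟨c, 0, zero_mem _, by rw [mul_zero, add_zero]⟩
  | add z₁ z₂ _ _ h₁ h₂ =>
    obtain ⟨c₁, y₁, hy₁, e₁⟩ := h₁
    obtain ⟨c₂, y₂, hy₂, e₂⟩ := h₂
    exact ⟨c₁ + c₂, y₁ + y₂, add_mem hy₁ hy₂, by rw [e₁, e₂, map_add]; ring⟩
  | mul z₁ z₂ _ _ h₁ h₂ =>
    obtain ⟨c₁, y₁, hy₁, e₁⟩ := h₁
    obtain ⟨c₂, y₂, hy₂, e₂⟩ := h₂
    refine ⟨c₁ * c₂, algebraMap K' F' c₁ * y₂ + algebraMap K' F' c₂ * y₁ +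
      algebraMap F F' t * (y₁ * y₂), ?_, by rw [e₁, e₂, map_mul]; ring⟩
    exact add_mem (add_mem (mul_mem (Subalgebra.algebraMap_mem _ _) hy₂)
      (mul_mem (Subalgebra.algebraMap_mem _ _) hy₁)) (mul_mem htO (mul_mem hy₁ hy₂))

/-- a "principal unit times constant" `c + t y₁` has order `0` at every place above `w`. -/
theorem ord_const_add_mul_eq_zero (v : Place K' F') (w : Place K F)
    (hvw : ∀ x : F, x ∈ w.toValuationSubring ↔ algebraMap F F' x ∈ v.toValuationSubring)
    {t : F} (ht0 : t ≠ 0) (ht : 0 < w.ord t) {c : K'} (hc : c ≠ 0) {y₁ : F'}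
    (hy₁ : y₁ ∈ spanO K' (F' := F') w) :
    algebraMap K' F' c + algebraMap F F' t * y₁ ≠ 0 ∧
      v.ord (algebraMap K' F' c + algebraMap F F' t * y₁) = 0 := by
  have hc' : algebraMap K' F' c ≠ 0 := (_root_.map_ne_zero _).mpr hc
  have hc0 : v.ord (algebraMap K' F' c) = 0 := H27.ord_algebraMap v c
  by_cases hy0 : y₁ = 0
  · rw [hy0, mul_zero, add_zero]
    exact ⟨hc', hc0⟩
  have ht' : algebraMap F F' t ≠ 0 := (_root_.map_ne_zero _).mpr ht0
  have htpos := ord_algebraMap_pos_of_above v w hvw ht0 ht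
  have hy₁v : 0 ≤ v.ord y₁ :=
    (H27.mem_toValuationSubring_of_ne_zero v hy0).mp (spanO_le v w hvw hy₁)
  have hm0 : algebraMap F F' t * y₁ ≠ 0 := mul_ne_zero ht' hy0
  have hmpos : 0 < v.ord (algebraMap F F' t * y₁) := by
    rw [v.ord_mul ht' hy0]; omega
  have hne : algebraMap K' F' c + algebraMap F F' t * y₁ ≠ 0 := by
    intro h
    have h2 : algebraMap K' F' c = -(algebraMap F F' t * y₁) := eq_neg_of_add_eq_zero_left h
    have h3 : v.ord (algebraMap K' F' c) = v.ord (algebraMap F F' t * y₁) := by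
      rw [h2, H27.ord_neg]
    omega
  refine ⟨hne, ?_⟩
  have hge := H27.min_ord_le_ord_add v hne
  have hle : min (v.ord (algebraMap K' F' c + algebraMap F F' t * y₁))
      (v.ord (-(algebraMap F F' t * y₁))) ≤ v.ord (algebraMap K' F' c) := by
    have := H27.min_ord_le_ord_add v (f := algebraMap K' F' c + algebraMap F F' t * y₁)
      (g := -(algebraMap F F' t * y₁)) (by rw [add_neg_cancel_right]; exact hc')
    rwa [add_neg_cancel_right] at this
  rw [H27.ord_neg] at hle
  rw [hc0] at hle hge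
  rcases min_le_iff.mp hle with h | h
  · have : min 0 (v.ord (algebraMap F F' t * y₁)) = 0 := min_eq_left hmpos.le
    rw [this] at hge
    omega
  · omega

/-- every nonzero element of `𝒪' = K' 𝒪_w` is `t ^ n * (c + t y₁)` with `c ≠ 0`. -/
theorem exists_pow_mul_of_mem_spanO (v : Place K' F') (w : Place K F)
    (hvw : ∀ x : F, x ∈ w.toValuationSubring ↔ algebraMap F F' x ∈ v.toValuationSubring)
    (hdeg : w.deg = 1) {t : F} (ht0 : t ≠ 0) (ht : w.ord t = 1) :
    ∀ (d : ℕ) {y : F'}, y ∈ spanO K' (F' := F') w → y ≠ 0 → (v.ord y).toNat ≤ d →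
      ∃ (n : ℕ) (c : K') (y₁ : F'), c ≠ 0 ∧ y₁ ∈ spanO K' (F' := F') w ∧
        y = algebraMap F F' t ^ n * (algebraMap K' F' c + algebraMap F F' t * y₁) := by
  have ht' : algebraMap F F' t ≠ 0 := (_root_.map_ne_zero _).mpr ht0
  have htpos := ord_algebraMap_pos_of_above v w hvw ht0 (by omega : 0 < w.ord t)
  intro d
  induction d with
  | zero =>
    intro y hy hy0 hd
    obtain ⟨c, y₁, hy₁, e⟩ := exists_const_add_mul_of_mem_spanO w hdeg ht0 ht hy
    by_cases hc : c = 0
    · exfalso
      rw [hc, map_zero, zero_add] at e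
      have hy₁0 : y₁ ≠ 0 := by rintro rfl; exact hy0 (by rw [e, mul_zero])
      have hy₁v : 0 ≤ v.ord y₁ :=
        (H27.mem_toValuationSubring_of_ne_zero v hy₁0).mp (spanO_le v w hvw hy₁)
      rw [e, v.ord_mul ht' hy₁0] at hd
      omega
    · exact ⟨0, c, y₁, hc, hy₁, by rw [pow_zero, one_mul]; exact e⟩
  | succ d ih =>
    intro y hy hy0 hd
    obtain ⟨c, y₁, hy₁, e⟩ := exists_const_add_mul_of_mem_spanO w hdeg ht0 ht hy
    by_cases hc : c = 0
    · rw [hc, map_zero, zero_add] at e
      have hy₁0 : y₁ ≠ 0 := by rintro rfl; exact hy0 (by rw [e, mul_zero])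
      have hy₁v : 0 ≤ v.ord y₁ :=
        (H27.mem_toValuationSubring_of_ne_zero v hy₁0).mp (spanO_le v w hvw hy₁)
      have hd' : (v.ord y₁).toNat ≤ d := by
        rw [e, v.ord_mul ht' hy₁0] at hd
        omega
      obtain ⟨n, c', y₂, hc', hy₂, e'⟩ := ih hy₁ hy₁0 hd'
      exact ⟨n + 1, c', y₂, hc', hy₂, by rw [e, e', pow_succ]; ring⟩
    · exact ⟨0, c, y₁, hc, hy₁, by rw [pow_zero, one_mul]; exact e⟩

/-- every element of `F'` is a quotient of elements of `𝒪' = K' 𝒪_w` with denominator in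
`𝒪_w`. -/
theorem exists_denominator_of_gen (w : Place K F)
    (hgen : Algebra.adjoin K' (Set.range (algebraMap F F')) = ⊤) (z : F') :
    ∃ d : F, d ∈ w.toValuationSubring ∧ d ≠ 0 ∧ algebraMap F F' d * z ∈ spanO K' (F' := F') w := by
  have hz : z ∈ Algebra.adjoin K' (Set.range (algebraMap F F')) := by rw [hgen]; trivial
  have h1 : (1 : F) ∈ w.toValuationSubring := one_mem _
  induction hz using Algebra.adjoin_induction with
  | mem z hz =>
    obtain ⟨f, rfl⟩ := hz
    rcases w.toValuationSubring.mem_or_inv_mem f with hf | hf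
    · exact ⟨1, h1, one_ne_zero, by rw [map_one, one_mul]; exact algebraMap_mem_spanO w hf⟩
    · by_cases hf0 : f = 0
      · exact ⟨1, h1, one_ne_zero, by rw [hf0, map_zero, mul_zero]; exact zero_mem _⟩
      · refine ⟨f⁻¹, hf, inv_ne_zero hf0, ?_⟩
        rw [← map_mul, inv_mul_cancel₀ hf0, map_one]
        exact one_mem _
  | algebraMap c =>
    exact ⟨1, h1, one_ne_zero, by rw [map_one, one_mul]; exact Subalgebra.algebraMap_mem _ _⟩
  | add z₁ z₂ _ _ h₁ h₂ =>
    obtain ⟨d₁, hd₁, hd₁0, e₁⟩ := h₁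
    obtain ⟨d₂, hd₂, hd₂0, e₂⟩ := h₂
    refine ⟨d₁ * d₂, mul_mem hd₁ hd₂, mul_ne_zero hd₁0 hd₂0, ?_⟩
    have : algebraMap F F' (d₁ * d₂) * (z₁ + z₂) =
        algebraMap F F' d₂ * (algebraMap F F' d₁ * z₁) +
          algebraMap F F' d₁ * (algebraMap F F' d₂ * z₂) := by
      rw [map_mul]; ring
    rw [this]
    exact add_mem (mul_mem (algebraMap_mem_spanO w hd₂) e₁) (mul_mem (algebraMap_mem_spanO w hd₁) e₂)
  | mul z₁ z₂ _ _ h₁ h₂ =>
    obtain ⟨d₁, hd₁, hd₁0, e₁⟩ := h₁
    obtain ⟨d₂, hd₂, hd₂0, e₂⟩ := h₂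
    refine ⟨d₁ * d₂, mul_mem hd₁ hd₂, mul_ne_zero hd₁0 hd₂0, ?_⟩
    have : algebraMap F F' (d₁ * d₂) * (z₁ * z₂) =
        (algebraMap F F' d₁ * z₁) * (algebraMap F F' d₂ * z₂) := by
      rw [map_mul]; ring
    rw [this]
    exact mul_mem e₁ e₂

/-- **Orders above a place of degree one.**  If `F' = K' F` and `w` has degree one with uniformiser
`t`, then for every `z ≠ 0` in `F'` there is ONE integer `k` with `ord_u z = k · ord_u t` for all
places `u` above `w` (the place `v` above `w` is only used as a termination measure). -/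
theorem exists_int_ord_eq_mul_of_above
    (hgen : Algebra.adjoin K' (Set.range (algebraMap F F')) = ⊤)
    (w : Place K F) (hdeg : w.deg = 1) {t : F} (ht0 : t ≠ 0) (ht : w.ord t = 1)
    (v : Place K' F')
    (hvw : ∀ x : F, x ∈ w.toValuationSubring ↔ algebraMap F F' x ∈ v.toValuationSubring)
    {z : F'} (hz0 : z ≠ 0) :
    ∃ k : ℤ, ∀ u : Place K' F',
      (∀ x : F, x ∈ w.toValuationSubring ↔ algebraMap F F' x ∈ u.toValuationSubring) →
        u.ord z = k * u.ord (algebraMap F F' t) := by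
  have ht' : algebraMap F F' t ≠ 0 := (_root_.map_ne_zero _).mpr ht0
  have htw : 0 < w.ord t := by omega
  obtain ⟨d, hd, hd0, hdz⟩ := exists_denominator_of_gen (K' := K') w hgen z
  have hd' : algebraMap F F' d ≠ 0 := (_root_.map_ne_zero _).mpr hd0
  have hdz0 : algebraMap F F' d * z ≠ 0 := mul_ne_zero hd' hz0
  obtain ⟨m, ca, ya, hca, hya, ea⟩ :=
    exists_pow_mul_of_mem_spanO v w hvw hdeg ht0 ht _ hdz hdz0 le_rfl
  obtain ⟨n, cb, yb, hcb, hyb, eb⟩ :=
    exists_pow_mul_of_mem_spanO v w hvw hdeg ht0 ht _ (algebraMap_mem_spanO (K' := K') w hd) hd'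
      le_rfl
  refine ⟨(m : ℤ) - n, fun u huw => ?_⟩
  obtain ⟨hua0, hua⟩ := ord_const_add_mul_eq_zero u w huw ht0 htw hca hya
  obtain ⟨hub0, hub⟩ := ord_const_add_mul_eq_zero u w huw ht0 htw hcb hyb
  have hpow : ∀ k : ℕ, u.ord (algebraMap F F' t ^ k) = k * u.ord (algebraMap F F' t) := fun k => by
    rw [← zpow_natCast, u.ord_zpow]
  have e1 : u.ord (algebraMap F F' d * z) = m * u.ord (algebraMap F F' t) := by
    rw [ea, u.ord_mul (pow_ne_zero _ ht') hua0, hpow, hua, add_zero]
  have e2 : u.ord (algebraMap F F' d) = n * u.ord (algebraMap F F' t) := by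
    conv_lhs => rw [eb]
    rw [u.ord_mul (pow_ne_zero _ ht') hub0, hpow, hub, add_zero]
  have e3 : u.ord (algebraMap F F' d * z) = u.ord (algebraMap F F' d) + u.ord z :=
    u.ord_mul hd' hz0
  rw [sub_mul]
  omega

/-- **Uniqueness of the extension of a place of degree one** to a constant field extension:
if `F' = K' F` then two places of `F' / K'` above the same place `w` of `F / K` of degree one
coincide. -/
theorem eq_of_above_of_deg_eq_one
    (hgen : Algebra.adjoin K' (Set.range (algebraMap F F')) = ⊤)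
    (w : Place K F) (hdeg : w.deg = 1) (v v' : Place K' F')
    (hvw : ∀ x : F, x ∈ w.toValuationSubring ↔ algebraMap F F' x ∈ v.toValuationSubring)
    (hv'w : ∀ x : F, x ∈ w.toValuationSubring ↔ algebraMap F F' x ∈ v'.toValuationSubring) :
    v = v' := by
  obtain ⟨t, ht0, ht⟩ := H27.exists_ord_eq_one w
  have htw : 0 < w.ord t := by omega
  have htpos := ord_algebraMap_pos_of_above v w hvw ht0 htw
  have htpos' := ord_algebraMap_pos_of_above v' w hv'w ht0 htw
  apply H27.eq_of_toValuationSubring_le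
  intro z hz
  by_cases hz0 : z = 0
  · rw [hz0]; exact zero_mem _
  obtain ⟨k, hk⟩ := exists_int_ord_eq_mul_of_above hgen w hdeg ht0 ht v hvw hz0
  have hzv : 0 ≤ v.ord z := (H27.mem_toValuationSubring_of_ne_zero v hz0).mp hz
  rw [H27.mem_toValuationSubring_of_ne_zero v' hz0, hk v' hv'w]
  rw [hk v hvw] at hzv
  have hk0 : 0 ≤ k := by
    by_contra hlt
    have hlt' : k < 0 := not_le.mp hlt
    have : k * v.ord (algebraMap F F' t) < 0 := mul_neg_of_neg_of_pos hlt' htpos
    omega
  exact mul_nonneg hk0 htpos'.le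

/-- **No ramification above a place of degree one** in a constant field extension `F' = K' F`:
a uniformiser of `w` is a uniformiser of `v`. -/
theorem ord_algebraMap_uniformiser_of_above
    (hgen : Algebra.adjoin K' (Set.range (algebraMap F F')) = ⊤)
    (w : Place K F) (hdeg : w.deg = 1) {t : F} (ht0 : t ≠ 0) (ht : w.ord t = 1)
    (v : Place K' F')
    (hvw : ∀ x : F, x ∈ w.toValuationSubring ↔ algebraMap F F' x ∈ v.toValuationSubring) :
    v.ord (algebraMap F F' t) = 1 := by
  have htw : 0 < w.ord t := by omega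
  have htpos := ord_algebraMap_pos_of_above v w hvw ht0 htw
  obtain ⟨s, hs0, hs⟩ := H27.exists_ord_eq_one v
  obtain ⟨k, hk⟩ := exists_int_ord_eq_mul_of_above hgen w hdeg ht0 ht v hvw hs0
  have h1 : k * v.ord (algebraMap F F' t) = 1 := by rw [← hk v hvw, hs]
  exact Int.eq_one_of_dvd_one htpos.le ⟨k, by rw [mul_comm]; exact h1.symm⟩

/-- and hence `ord_v = ord_w` on `F`. -/
theorem ord_algebraMap_eq_of_above
    (hgen : Algebra.adjoin K' (Set.range (algebraMap F F')) = ⊤)
    (w : Place K F) (hdeg : w.deg = 1) (v : Place K' F')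
    (hvw : ∀ x : F, x ∈ w.toValuationSubring ↔ algebraMap F F' x ∈ v.toValuationSubring)
    (x : F) : v.ord (algebraMap F F' x) = w.ord x := by
  by_cases hx0 : x = 0
  · rw [hx0, map_zero, Place.ord_zero, Place.ord_zero]
  obtain ⟨t, ht0, ht⟩ := H27.exists_ord_eq_one w
  have ht' : algebraMap F F' t ≠ 0 := (_root_.map_ne_zero _).mpr ht0
  have he := ord_algebraMap_uniformiser_of_above hgen w hdeg ht0 ht v hvw
  set k := w.ord x with hk
  set y := x * (t ^ k)⁻¹ with hy
  have htk : t ^ k ≠ 0 := zpow_ne_zero _ ht0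
  have hy0 : y ≠ 0 := mul_ne_zero hx0 (inv_ne_zero htk)
  have hyw : w.ord y = 0 := by
    rw [hy, w.ord_mul hx0 (inv_ne_zero htk), w.ord_inv, w.ord_zpow, ht, ← hk]
    ring
  have hy1 : y ∈ w.toValuationSubring := by
    rw [H27.mem_toValuationSubring_of_ne_zero w hy0, hyw]
  have hy2 : y⁻¹ ∈ w.toValuationSubring := by
    rw [H27.mem_toValuationSubring_of_ne_zero w (inv_ne_zero hy0), w.ord_inv, hyw, neg_zero]
  have hy' : algebraMap F F' y ≠ 0 := (_root_.map_ne_zero _).mpr hy0
  have h1 := (H27.mem_toValuationSubring_of_ne_zero v hy').mp ((hvw _).mp hy1)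
  have h2 := (hvw _).mp hy2
  rw [map_inv₀, H27.mem_toValuationSubring_of_ne_zero v (inv_ne_zero hy'), v.ord_inv] at h2
  have hyv : v.ord (algebraMap F F' y) = 0 := by omega
  have hx : x = t ^ k * y := by
    rw [hy]; field_simp
  have htk' : algebraMap F F' t ^ k ≠ 0 := zpow_ne_zero _ ht'
  conv_lhs => rw [hx]
  rw [map_mul, map_zpow₀, v.ord_mul htk' hy', v.ord_zpow, he, hyv]
  ring

end Unique

end Fermat.Agent.S35.H8
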