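import Mathlib
import Fermat.Agent.S35.H92_FrobPlacesE

/-!
# S35 / E-level G1b (helper92): TWO applications of a Frobenius lift on the E-level L0 places

`Φ := H45.galActFullC E hE _ φ` for a Frobenius lift `φ` at `ℓ`, `Ψ := Φ.trans Φ` (`Ψ y = Φ (Φ y)`),
`τ₂ : kA →+* kA` with `τ₂ x = x ^ (ℓ ^ 2)`:

* `resME_galActFullC_sq` : `Ψ VME ⊆ VME`, `resME (Ψ f) = coeffMap τ₂ (resME f)`;
* `placeInftyE_frobenius_sq`, `placeZeroE_frobenius_sq` : `Ψ (V_k'') ⊆ V_k''` and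
  `red_k'' (Ψ y) = coeffMap τ₂ (red_k'' y)` at the two E-level L0 places.
-/

set_option autoImplicit false
set_option linter.unusedSectionVars false
set_option linter.style.haveILetI false
set_option synthInstance.maxHeartbeats 400000

noncomputable section

namespace Fermat.Agent.S35.H92

open ModularCurve Polynomial IsLocalRing Fermat.Agent.S28
open Fermat.Agent.S18 Fermat.Agent.S34.H92 Fermat.Agent.S34.H16

local notation "Qbar" => AlgebraicClosure ℚ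

variable (M : ℕ) [NeZero M] {ℓ : ℕ} [hℓ : Fact ℓ.Prime] (hℓM : ¬ ℓ ∣ M)
  (A : ValuationSubring Qbar) (hA : A.LiesOverPrime ℓ)
  (E : IntermediateField (H45.unrCyclo ℓ) Qbar)
  (hE : ∀ (τ : Qbar ≃ₐ[ℚ] Qbar) (x : Qbar), x ∈ E → τ x ∈ E)

local notation "kA" => IsLocalRing.ResidueField A
set_option quotPrecheck false in
local notation "FME" => modularFunctionFieldFullC (↥E) M
set_option quotPrecheck false in
local notation "FNE" => modularFunctionFieldFullC (↥E) (ℓ * M)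

/-- the `ℓ`-power Frobenius of `kA` as a ring hom (no `CharP` instance needed by consumers). -/
def frobK : kA →+* kA :=
  haveI : CharP kA ℓ := Fermat.Agent.S18.H92.charP_residueField A hA
  frobenius kA ℓ

theorem frobK_apply (x : kA) : frobK A hA x = x ^ ℓ := rfl

theorem coeffMap_frobK_frobK (τ₂ : kA →+* kA) (hτ₂ : ∀ x : kA, τ₂ x = x ^ (ℓ ^ 2))
    (z : LaurentSeries kA) :
    coeffMap (frobK A hA) (coeffMap (frobK A hA) z) = coeffMap τ₂ z := by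
  rw [coeffMap_coeffMap]
  apply coeffMap_congr
  ext x
  rw [RingHom.comp_apply, frobK_apply, frobK_apply, hτ₂, ← pow_mul, sq]

/-- **Two applications of a Frobenius lift on `VME`.** -/
theorem resME_galActFullC_sq {φ : Qbar ≃ₐ[ℚ] Qbar} (hF : A.IsFrobeniusAt φ ℓ)
    (τ₂ : kA →+* kA) (hτ₂ : ∀ x : kA, τ₂ x = x ^ (ℓ ^ 2))
    (f : FME) (hf : f ∈ VME M hℓM A hA E) :
    ∃ h : H45.galActFullC E hE M φ (H45.galActFullC E hE M φ f) ∈ VME M hℓM A hA E,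
      resME M hℓM A hA E ⟨_, h⟩ = coeffMap τ₂ (resME M hℓM A hA E ⟨f, hf⟩) := by
  have key := resME_galActFullC_of_isFrobeniusAt M hℓM A hA E hE hF (frobK A hA)
    (frobK_apply A hA)
  have k1 := key f hf
  obtain ⟨h1, e1⟩ := k1
  have k2 := key _ h1
  obtain ⟨h2, e2⟩ := k2
  refine ⟨h2, ?_⟩
  have e3 := congrArg (coeffMap (frobK A hA)) e1
  have e4 := coeffMap_frobK_frobK A hA τ₂ hτ₂ (resME M hℓM A hA E ⟨f, hf⟩)
  exact e2.trans (e3.trans e4)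

/-- the same with `Ψ := Φ.trans Φ`. -/
theorem resME_galActFullC_trans {φ : Qbar ≃ₐ[ℚ] Qbar} (hF : A.IsFrobeniusAt φ ℓ)
    (τ₂ : kA →+* kA) (hτ₂ : ∀ x : kA, τ₂ x = x ^ (ℓ ^ 2))
    (f : FME) (hf : f ∈ VME M hℓM A hA E) :
    ∃ h : ((H45.galActFullC E hE M φ).trans (H45.galActFullC E hE M φ)) f ∈ VME M hℓM A hA E,
      resME M hℓM A hA E ⟨_, h⟩ = coeffMap τ₂ (resME M hℓM A hA E ⟨f, hf⟩) :=
  resME_galActFullC_sq M hℓM A hA E hE hF τ₂ hτ₂ f hf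

variable (ϖ : H45.cutOver A E)

/-- **Two applications of a Frobenius lift, `∞`-place.** -/
theorem placeInftyE_frobenius_sq {φ : Qbar ≃ₐ[ℚ] Qbar} (hF : A.IsFrobeniusAt φ ℓ)
    (τ₂ : kA →+* kA) (hτ₂ : ∀ x : kA, τ₂ x = x ^ (ℓ ^ 2)) :
    letI := degAlgebra (↥E) M (ℓ * M) (dvd_level M)
    letI := algebraVMEFN M hℓM A hA E
    ∀ (P : CA.H99.PlaceOver (L := FNE) (constVME M hℓM A hA E ϖ) (S18.H16.jNK (↥E) (ℓ * M))
      (resME M hℓM A hA E) (resME M hℓM A hA E (jMVE M hℓM A hA E) ^ ℓ)) {y : FNE}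
      (hy : y ∈ P.O1),
      ∃ hy' : H45.galActFullC E hE (ℓ * M) φ (H45.galActFullC E hE (ℓ * M) φ y) ∈ P.O1,
      P.res1 ⟨H45.galActFullC E hE (ℓ * M) φ (H45.galActFullC E hE (ℓ * M) φ y), hy'⟩ =
        coeffMap τ₂ (P.res1 ⟨y, hy⟩) := by
  letI := degAlgebra (↥E) M (ℓ * M) (dvd_level M)
  letI := algebraVMEFN M hℓM A hA E
  intro P y hy
  have key := placeInftyE_frobenius M hℓM A hA E hE ϖ hF (frobK A hA) (frobK_apply A hA)
  have k1 := key P (y := y) hy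
  obtain ⟨h1, e1⟩ := k1
  have k2 := key P (y := _) h1
  obtain ⟨h2, e2⟩ := k2
  refine ⟨h2, ?_⟩
  have e3 := congrArg (coeffMap (frobK A hA)) e1
  have e4 := coeffMap_frobK_frobK A hA τ₂ hτ₂ (P.res1 ⟨y, hy⟩)
  exact e2.trans (e3.trans e4)

/-- **Two applications of a Frobenius lift, `0`-place.** -/
theorem placeZeroE_frobenius_sq {φ : Qbar ≃ₐ[ℚ] Qbar} (hF : A.IsFrobeniusAt φ ℓ)
    (τ₂ : kA →+* kA) (hτ₂ : ∀ x : kA, τ₂ x = x ^ (ℓ ^ 2)) :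
    letI := degAlgebra (↥E) M (ℓ * M) (dvd_level M)
    letI := algebraVMEFN M hℓM A hA E
    ∀ (P : CA.H99.PlaceOver (L := FNE) (constVME M hℓM A hA E ϖ) (S18.H16.jNK (↥E) (ℓ * M))
      (iotaZeroE M hℓM A hA E) (resME M hℓM A hA E (jMVE M hℓM A hA E))) {y : FNE}
      (hy : y ∈ P.O1),
      ∃ hy' : H45.galActFullC E hE (ℓ * M) φ (H45.galActFullC E hE (ℓ * M) φ y) ∈ P.O1,
      P.res1 ⟨H45.galActFullC E hE (ℓ * M) φ (H45.galActFullC E hE (ℓ * M) φ y), hy'⟩ =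
        coeffMap τ₂ (P.res1 ⟨y, hy⟩) := by
  letI := degAlgebra (↥E) M (ℓ * M) (dvd_level M)
  letI := algebraVMEFN M hℓM A hA E
  intro P y hy
  have key := placeZeroE_frobenius M hℓM A hA E hE ϖ hF (frobK A hA) (frobK_apply A hA)
  have k1 := key P (y := y) hy
  obtain ⟨h1, e1⟩ := k1
  have k2 := key P (y := _) h1
  obtain ⟨h2, e2⟩ := k2
  refine ⟨h2, ?_⟩
  have e3 := congrArg (coeffMap (frobK A hA)) e1
  have e4 := coeffMap_frobK_frobK A hA τ₂ hτ₂ (P.res1 ⟨y, hy⟩)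
  exact e2.trans (e3.trans e4)

/-- `∞`-place, `Ψ := Φ.trans Φ` form. -/
theorem placeInftyE_frobenius_trans {φ : Qbar ≃ₐ[ℚ] Qbar} (hF : A.IsFrobeniusAt φ ℓ)
    (τ₂ : kA →+* kA) (hτ₂ : ∀ x : kA, τ₂ x = x ^ (ℓ ^ 2)) :
    letI := degAlgebra (↥E) M (ℓ * M) (dvd_level M)
    letI := algebraVMEFN M hℓM A hA E
    ∀ (P : CA.H99.PlaceOver (L := FNE) (constVME M hℓM A hA E ϖ) (S18.H16.jNK (↥E) (ℓ * M))
      (resME M hℓM A hA E) (resME M hℓM A hA E (jMVE M hℓM A hA E) ^ ℓ)) {y : FNE}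
      (hy : y ∈ P.O1),
      ∃ hy' : ((H45.galActFullC E hE (ℓ * M) φ).trans (H45.galActFullC E hE (ℓ * M) φ)) y ∈ P.O1,
      P.res1 ⟨((H45.galActFullC E hE (ℓ * M) φ).trans (H45.galActFullC E hE (ℓ * M) φ)) y, hy'⟩ =
        coeffMap τ₂ (P.res1 ⟨y, hy⟩) :=
  placeInftyE_frobenius_sq M hℓM A hA E hE ϖ hF τ₂ hτ₂

/-- `0`-place, `Ψ := Φ.trans Φ` form. -/
theorem placeZeroE_frobenius_trans {φ : Qbar ≃ₐ[ℚ] Qbar} (hF : A.IsFrobeniusAt φ ℓ)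
    (τ₂ : kA →+* kA) (hτ₂ : ∀ x : kA, τ₂ x = x ^ (ℓ ^ 2)) :
    letI := degAlgebra (↥E) M (ℓ * M) (dvd_level M)
    letI := algebraVMEFN M hℓM A hA E
    ∀ (P : CA.H99.PlaceOver (L := FNE) (constVME M hℓM A hA E ϖ) (S18.H16.jNK (↥E) (ℓ * M))
      (iotaZeroE M hℓM A hA E) (resME M hℓM A hA E (jMVE M hℓM A hA E))) {y : FNE}
      (hy : y ∈ P.O1),
      ∃ hy' : ((H45.galActFullC E hE (ℓ * M) φ).trans (H45.galActFullC E hE (ℓ * M) φ)) y ∈ P.O1,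
      P.res1 ⟨((H45.galActFullC E hE (ℓ * M) φ).trans (H45.galActFullC E hE (ℓ * M) φ)) y, hy'⟩ =
        coeffMap τ₂ (P.res1 ⟨y, hy⟩) :=
  placeZeroE_frobenius_sq M hℓM A hA E hE ϖ hF τ₂ hτ₂

end Fermat.Agent.S35.H92
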