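import Mathlib
import Fermat.Agent.S35.H92_GaussLevelME
import Fermat.Agent.S18.H3_ChartRing

/-!
# S35 / E-level (helper92): the E-level Gauss ring `VME` as an `H3.GaussModel`

`gaussModelVME : H3.GaussModel ϖ (resE A E) j j_M j̄ j̄_M` with `O1 = (VME).toSubring` and
`res1 = resMFE` (so `(res1 y : LaurentSeries kA) = resME y`), for every `M` with `ℓ ∤ M`, `E / K₁`
finite, `ϖ` a uniformiser of `A'' = H45.cutOver A E`.  E-level twin of `S34.H92.gaussModelVM`.
-/

set_option autoImplicit false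
set_option synthInstance.maxHeartbeats 400000
set_option linter.unusedSectionVars false

noncomputable section

namespace Fermat.Agent.S35.H92

open ModularCurve Polynomial AlgebraicCurve IsLocalRing
open Fermat.Agent.S18 Fermat.Agent.S18.H92 Fermat.Agent.S18.H45 Fermat.Agent.S34.H92

local notation "Qbar" => AlgebraicClosure ℚ

variable (M : ℕ) [NeZero M] {ℓ : ℕ} [hℓ : Fact ℓ.Prime] (hℓM : ¬ ℓ ∣ M)
  (A : ValuationSubring Qbar) (hA : A.LiesOverPrime ℓ)
  (E : IntermediateField (H45.unrCyclo ℓ) Qbar)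

local notation "kA" => IsLocalRing.ResidueField A
local notation "A₂" => H45.cutOver A E
set_option quotPrecheck false in
local notation "FME" => modularFunctionFieldFullC (↥E) M
local notation "FkM" => modularFunctionFieldFullC (IsLocalRing.ResidueField A) M

/-- `resMFE` on the underlying subring of `VME`. -/
def resSubE : (VME M hℓM A hA E).toSubring →+* FkM := resMFE M hℓM A hA E

theorem resSubE_apply (y : FME) (hy : y ∈ (VME M hℓM A hA E).toSubring) :
    resSubE M hℓM A hA E ⟨y, hy⟩ = resMFE M hℓM A hA E ⟨y, hy⟩ := rfl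

theorem coe_resSubE (y : FME) (hy : y ∈ (VME M hℓM A hA E).toSubring) :
    ((resSubE M hℓM A hA E ⟨y, hy⟩ : FkM) : LaurentSeries kA) =
      resME M hℓM A hA E ⟨y, hy⟩ := rfl

theorem resMFE_jK (h : H16.jK (↥E) M ∈ VME M hℓM A hA E) :
    resMFE M hℓM A hA E ⟨_, h⟩ = H16.jK kA M := by
  obtain ⟨hf, e⟩ := jK_mem_VME M hℓM A hA E
  apply Subtype.ext
  rw [H16.coe_jK, ← e]
  rfl

theorem resMFE_jNK (h : H16.jNK (↥E) M ∈ VME M hℓM A hA E) :
    resMFE M hℓM A hA E ⟨_, h⟩ = H16.jNK kA M := by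
  obtain ⟨hf, e⟩ := jNK_mem_VME M hℓM A hA E
  apply Subtype.ext
  rw [H16.coe_jNK, ← e]
  rfl

theorem algebraMap_cutOver_mem_VME (a : A₂) : algebraMap A₂ FME a ∈ VME M hℓM A hA E :=
  (const_mem_VME_iff M hℓM A hA E (a : ↥E)).2 a.2

theorem resMFE_algebraMap_cutOver (a : A₂) :
    resMFE M hℓM A hA E ⟨algebraMap A₂ FME a, algebraMap_cutOver_mem_VME M hℓM A hA E a⟩ =
      algebraMap kA FkM (resE A E a) :=
  resMFE_const M hℓM A hA E a

/-- polynomial expressions in `j` lie in `VME` and reduce coefficientwise. -/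
theorem aeval_jK_mem_VME (s : A₂[X]) :
    ∃ h : Polynomial.aeval (H16.jK (↥E) M) s ∈ (VME M hℓM A hA E).toSubring,
      resSubE M hℓM A hA E ⟨_, h⟩ = Polynomial.aeval (H16.jK kA M) (s.map (resE A E)) := by
  obtain ⟨hj, -⟩ := jK_mem_VME M hℓM A hA E
  obtain ⟨h, hh⟩ := H3.eval₂_mem_res (VME M hℓM A hA E).toSubring (resSubE M hℓM A hA E)
    (algebraMap A₂ FME) ((algebraMap kA FkM).comp (resE A E))
    (fun a => ⟨algebraMap_cutOver_mem_VME M hℓM A hA E a,
      resMFE_algebraMap_cutOver M hℓM A hA E a⟩)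
    (H16.jK (↥E) M) hj s
  have e : Polynomial.aeval (H16.jK (↥E) M) s = s.eval₂ (algebraMap A₂ FME) (H16.jK (↥E) M) :=
    Polynomial.aeval_def _ s
  have hmem : Polynomial.aeval (H16.jK (↥E) M) s ∈ (VME M hℓM A hA E).toSubring := e ▸ h
  refine ⟨hmem, ?_⟩
  have e2 : (⟨Polynomial.aeval (H16.jK (↥E) M) s, hmem⟩ : (VME M hℓM A hA E).toSubring) =
      ⟨s.eval₂ (algebraMap A₂ FME) (H16.jK (↥E) M), h⟩ := Subtype.ext e
  rw [e2, hh, resSubE_apply, resMFE_jK, Polynomial.aeval_def, Polynomial.eval₂_map]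

section DVR

variable [FiniteDimensional (H45.unrCyclo ℓ) E] (ϖ : H45.cutOver A E)
  (hϖ : IsLocalRing.maximalIdeal (H45.cutOver A E) = Ideal.span {ϖ})

/-- **The E-level Gauss ring as an `H3.GaussModel`** (`O1 = VME`, `res1 = resMFE`). -/
def gaussModelVME :
    H3.GaussModel ϖ (resE A E) (H16.jK (↥E) M) (H16.jNK (↥E) M)
      (H16.jK kA M) (H16.jNK kA M) where
  O1 := (VME M hℓM A hA E).toSubring
  res1 := resSubE M hℓM A hA E
  aeval_mem := fun s => (aeval_jK_mem_VME M hℓM A hA E s).1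
  res1_aeval := fun s => (aeval_jK_mem_VME M hℓM A hA E s).2
  θ_mem := (jNK_mem_VME M hℓM A hA E).1
  res1_θ := resMFE_jNK M hℓM A hA E _
  res1_eq_zero_iff := by
    intro y hy
    rw [resSubE_apply, resMFE_eq_zero_iff M hℓM A hA E ϖ hϖ]
    have hℓF : ((constVME M hℓM A hA E ϖ : VME M hℓM A hA E) : FME) = algebraMap A₂ FME ϖ := rfl
    constructor
    · rintro ⟨z, hz⟩
      refine ⟨z.1, z.2, ?_⟩
      have := congrArg (fun w : VME M hℓM A hA E => (w : FME)) hz
      simp only at this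
      rw [this, ← hℓF]
      rfl
    · rintro ⟨z, hz, e⟩
      refine ⟨⟨z, hz⟩, ?_⟩
      apply Subtype.ext
      show y = ((constVME M hℓM A hA E ϖ : VME M hℓM A hA E) : FME) * z
      rw [hℓF]
      exact e
  inv_mem := by
    intro y hy h
    have hu : IsUnit (⟨y, hy⟩ : VME M hℓM A hA E) := by
      by_contra hn
      apply h
      have := (resME_eq_zero_iff_not_isUnit M hℓM A hA E ⟨y, hy⟩).2 hn
      rw [resME_apply] at this
      exact Subtype.ext this
    obtain ⟨u, hu⟩ := hu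
    have h0 : (↑(u⁻¹) : VME M hℓM A hA E) * ⟨y, hy⟩ = 1 := by
      rw [← hu]; exact u.inv_mul
    have h1 : ((↑(u⁻¹) : VME M hℓM A hA E) : FME) * y = 1 :=
      congrArg (fun w : VME M hℓM A hA E => (w : FME)) h0
    have h2 : y⁻¹ = ((↑(u⁻¹) : VME M hℓM A hA E) : FME) := (eq_inv_of_mul_eq_one_left h1).symm
    rw [h2]
    exact (↑(u⁻¹) : VME M hℓM A hA E).2
  mem_of_isIntegral := by
    intro y hy
    have hy' : IsIntegral (VME M hℓM A hA E) y := hy
    obtain ⟨z, hz⟩ := (IsIntegrallyClosed.isIntegral_iff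
      (R := VME M hℓM A hA E) (K := FME)).1 hy'
    rw [← hz]
    exact z.2
  exists_repr := by
    intro y hy
    obtain ⟨s, g, hs, -, h⟩ := exists_repr_VME M hℓM A hA E y hy
    exact ⟨s, hs, g, h⟩

theorem gaussModelVME_O1 :
    (gaussModelVME M hℓM A hA E ϖ hϖ).O1 = (VME M hℓM A hA E).toSubring := rfl

theorem gaussModelVME_res1 (y : FME) (hy : y ∈ (gaussModelVME M hℓM A hA E ϖ hϖ).O1) :
    (((gaussModelVME M hℓM A hA E ϖ hϖ).res1 ⟨y, hy⟩ : FkM) : LaurentSeries kA) =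
      resME M hℓM A hA E ⟨y, hy⟩ := rfl

theorem gaussModelVME_res1' (y : FME) (hy : y ∈ (gaussModelVME M hℓM A hA E ϖ hϖ).O1) :
    (gaussModelVME M hℓM A hA E ϖ hϖ).res1 ⟨y, hy⟩ = resMFE M hℓM A hA E ⟨y, hy⟩ := rfl

end DVR

end Fermat.Agent.S35.H92
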