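import Mathlib
import Fermat.Agent.S35.H92_FrobPlacesESq
import Fermat.Agent.S35.H16_L0TransportE
import Fermat.Agent.S35.H46_G3Inst
import Fermat.Agent.S18.H84_RedModel

/-!
# S35 / (E3) (helper92): the `ResPlace`-level hypotheses of `H46.g3_roots_oneU` at the E-level

`PM := gaussResPlaceE` (the E-level Gauss ring `VME` as an `H46.ResPlace`), `Pinf`, `P0` :=
`H46.ResPlace.mk P.O1 P.res1 P.inv_mem` for the two E-level L0 places `P∞''`, `P0''`
(`S35.H92.nonempty_placeInftyE/_placeZeroE`), `κF := LaurentSeries kA`, `k := kA`,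
`ιk := HahnSeries.C`, `σk := τ` (`τ x = x ^ ℓ`), `φb := coeffMap τ`,
`Ψ := Φ.trans Φ`, `Φ := H45.galActFullC E hE (ℓ * M) φ` for a Frobenius lift `φ`.

Discharged here, in the EXACT shapes of `H46.g3_roots_oneU`:
`hφbk`, `hkinf`, `hk0`, `hMinf`, `hM0`, `hφbM`, `hΨinf`, `hΨ0`.
-/

set_option autoImplicit false
set_option linter.unusedSectionVars false
set_option linter.style.haveILetI false
set_option synthInstance.maxHeartbeats 400000

noncomputable section

namespace Fermat.Agent.S35.H92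

open ModularCurve Polynomial IsLocalRing Fermat.Agent.S28
open Fermat.Agent.S18 Fermat.Agent.S34.H92 Fermat.Agent.S34.H16

local notation "Qbar" => AlgebraicClosure ℚ

variable (M : ℕ) [NeZero M] {ℓ : ℕ} [hℓ : Fact ℓ.Prime] (hℓM : ¬ ℓ ∣ M)
  (A : ValuationSubring Qbar) (hA : A.LiesOverPrime ℓ)
  (E : IntermediateField (H45.unrCyclo ℓ) Qbar)

local notation "kA" => IsLocalRing.ResidueField A
set_option quotPrecheck false in
local notation "FME" => modularFunctionFieldFullC (↥E) M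
set_option quotPrecheck false in
local notation "FNE" => modularFunctionFieldFullC (↥E) (ℓ * M)
local notation "VE" => VME M hℓM A hA E

/-- The E-level Gauss place of `F_M(E)` as an `H46.ResPlace`. -/
def gaussResPlaceE : H46.ResPlace FME (LaurentSeries kA) where
  O1 := (VME M hℓM A hA E).toSubring
  res := resME M hℓM A hA E
  inv_mem := by
    intro y hy hne
    have hu : IsUnit (⟨y, hy⟩ : VE) := by
      by_contra h
      exact hne ((resME_eq_zero_iff_not_isUnit M hℓM A hA E ⟨y, hy⟩).2 h)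
    obtain ⟨w, hw⟩ := hu
    have h1 : ((w : VE) : FME) * (((w⁻¹ : VEˣ) : VE) : FME) = 1 := by
      have h0 : (w : VE) * ((w⁻¹ : VEˣ) : VE) = 1 := by
        rw [← Units.val_mul, mul_inv_cancel, Units.val_one]
      exact congrArg (fun z : VE => (z : FME)) h0
    rw [hw] at h1
    have h2 : y⁻¹ = (((w⁻¹ : VEˣ) : VE) : FME) := (eq_inv_of_mul_eq_one_right h1).symm ▸ rfl
    rw [h2]
    exact ((w⁻¹ : VEˣ) : VE).2

theorem gaussResPlaceE_O1 :
    (gaussResPlaceE M hℓM A hA E).O1 = (VME M hℓM A hA E).toSubring := rfl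

theorem gaussResPlaceE_res (y : FME) (hy : y ∈ (gaussResPlaceE M hℓM A hA E).O1) :
    (gaussResPlaceE M hℓM A hA E).res ⟨y, hy⟩ = resME M hℓM A hA E ⟨y, hy⟩ := rfl

theorem gaussResPlaceE_hasRes (n : VE) :
    ∃ h : algebraMap VE FME n ∈ (gaussResPlaceE M hℓM A hA E).O1,
      (gaussResPlaceE M hℓM A hA E).res ⟨_, h⟩ = resME M hℓM A hA E n :=
  ⟨n.2, rfl⟩

/-- the constants `kA → kA((t))` as a ring hom (`ιk` of `g3_roots_oneU`). -/
def constK : kA →+* LaurentSeries kA := HahnSeries.C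

theorem constK_apply (c : kA) : constK A c = HahnSeries.C c := rfl

/-- **`hφbk`**: `φb (ιk c) = ιk (σk c)` for `φb := coeffMap τ`, `σk := τ`. -/
theorem hφbk_E (τ : kA →+* kA) (c : kA) :
    coeffMap τ (constK A c) = constK A (τ c) :=
  S18.H84.coeffMap_C τ c

/-- **`hφbM`**: the residue units of the E-level Gauss place are stable under the coefficientwise
Frobenius (`φb := coeffMap τ`, `τ x = x ^ ℓ`), given a Frobenius lift acting on `E`. -/
theorem hφbM_E (hE : ∀ (τ : Qbar ≃ₐ[ℚ] Qbar) (x : Qbar), x ∈ E → τ x ∈ E)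
    {φ : Qbar ≃ₐ[ℚ] Qbar} (hF : A.IsFrobeniusAt φ ℓ) (τ : kA →+* kA) (hτ : ∀ x : kA, τ x = x ^ ℓ) :
    ∀ t ∈ (gaussResPlaceE M hℓM A hA E).resUnits,
      Units.map ((coeffMap τ : LaurentSeries kA →+* LaurentSeries kA) :
        LaurentSeries kA →* LaurentSeries kA) t ∈ (gaussResPlaceE M hℓM A hA E).resUnits := by
  rintro t ⟨y, hy, hres⟩
  have key := resME_galActFullC_of_isFrobeniusAt M hℓM A hA E hE hF τ hτ y hy
  obtain ⟨h1, e1⟩ := key
  refine ⟨H45.galActFullC E hE M φ y, h1, ?_⟩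
  rw [gaussResPlaceE_res, e1]
  rw [gaussResPlaceE_res] at hres
  rw [hres]
  rfl

section Places

variable (ϖ : H45.cutOver A E)

/-- **`hkinf`**: constants are residues at the `∞`-place. -/
theorem hkinf_E :
    letI := degAlgebra (↥E) M (ℓ * M) (dvd_level M)
    letI := algebraVMEFN M hℓM A hA E
    ∀ (P : CA.H99.PlaceOver (L := FNE) (constVME M hℓM A hA E ϖ) (S18.H16.jNK (↥E) (ℓ * M))
      (resME M hℓM A hA E) (resME M hℓM A hA E (jMVE M hℓM A hA E) ^ ℓ)) (c : kAˣ),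
      Units.map ((constK A : kA →+* LaurentSeries kA) : kA →* LaurentSeries kA) c ∈
        (H46.ResPlace.mk P.O1 P.res1 P.inv_mem).resUnits := by
  letI := degAlgebra (↥E) M (ℓ * M) (dvd_level M)
  letI := algebraVMEFN M hℓM A hA E
  intro P c
  obtain ⟨a, ha⟩ := resE_surjective A hA E (c : kA)
  refine ⟨algebraMap VE FNE (constVME M hℓM A hA E a), P.algebraMap_mem _, ?_⟩
  show P.res1 ⟨_, _⟩ = _
  rw [P.res1_algebraMap, resME_const, ha]
  rfl

/-- **`hk0`**: constants are residues at the `0`-place. -/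
theorem hk0_E :
    letI := degAlgebra (↥E) M (ℓ * M) (dvd_level M)
    letI := algebraVMEFN M hℓM A hA E
    ∀ (P : CA.H99.PlaceOver (L := FNE) (constVME M hℓM A hA E ϖ) (S18.H16.jNK (↥E) (ℓ * M))
      (iotaZeroE M hℓM A hA E) (resME M hℓM A hA E (jMVE M hℓM A hA E))) (c : kAˣ),
      Units.map ((constK A : kA →+* LaurentSeries kA) : kA →* LaurentSeries kA) c ∈
        (H46.ResPlace.mk P.O1 P.res1 P.inv_mem).resUnits := by
  letI := degAlgebra (↥E) M (ℓ * M) (dvd_level M)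
  letI := algebraVMEFN M hℓM A hA E
  intro P c
  obtain ⟨a, ha⟩ := resE_surjective A hA E (c : kA)
  refine ⟨algebraMap VE FNE (constVME M hℓM A hA E a), P.algebraMap_mem _, ?_⟩
  show P.res1 ⟨_, _⟩ = _
  rw [P.res1_algebraMap, iotaZeroE_apply, resME_const, ha, qExpand_C]
  rfl

/-- **`hMinf`**: residues of the Gauss place are residues at the `∞`-place (`ι = resME`). -/
theorem hMinf_E :
    letI := degAlgebra (↥E) M (ℓ * M) (dvd_level M)
    letI := algebraVMEFN M hℓM A hA E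
    ∀ (P : CA.H99.PlaceOver (L := FNE) (constVME M hℓM A hA E ϖ) (S18.H16.jNK (↥E) (ℓ * M))
      (resME M hℓM A hA E) (resME M hℓM A hA E (jMVE M hℓM A hA E) ^ ℓ)),
      ∀ t ∈ (gaussResPlaceE M hℓM A hA E).resUnits,
        t ∈ (H46.ResPlace.mk P.O1 P.res1 P.inv_mem).resUnits := by
  letI := degAlgebra (↥E) M (ℓ * M) (dvd_level M)
  letI := algebraVMEFN M hℓM A hA E
  rintro P t ⟨y, hy, hres⟩
  refine ⟨algebraMap VE FNE ⟨y, hy⟩, P.algebraMap_mem _, ?_⟩
  show P.res1 ⟨_, _⟩ = _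
  rw [P.res1_algebraMap]
  exact hres

/-- **`hM0`**: residues of the Gauss place are residues at the `0`-place (through `V_ℓ`:
`res_0 ∘ V_ℓ = resME`, helper16's `transport_vSub_zero`). -/
theorem hM0_E :
    letI := degAlgebra (↥E) M (ℓ * M) (dvd_level M)
    letI := algebraVMEFN M hℓM A hA E
    ∀ (P : CA.H99.PlaceOver (L := FNE) (constVME M hℓM A hA E ϖ) (S18.H16.jNK (↥E) (ℓ * M))
      (iotaZeroE M hℓM A hA E) (resME M hℓM A hA E (jMVE M hℓM A hA E))),
      ∀ t ∈ (gaussResPlaceE M hℓM A hA E).resUnits,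
        t ∈ (H46.ResPlace.mk P.O1 P.res1 P.inv_mem).resUnits := by
  letI := degAlgebra (↥E) M (ℓ * M) (dvd_level M)
  letI := algebraVMEFN M hℓM A hA E
  rintro P t ⟨y, hy, hres⟩
  have H := S35.H16.isPlaceDataE_of_placeOver M (ℓ * M) hℓM A hA E (dvd_level M)
    (isScalarTower_VMEFN M hℓM A hA E) P
  have key := H.transport_vSub_zero (hN := rfl) rfl (resME_jMVE M hℓM A hA E) ⟨y, hy⟩
  obtain ⟨h1, e1⟩ := key
  exact ⟨_, h1, e1.trans hres⟩

/-- **`hΨinf`**: two applications of a Frobenius lift at the `∞`-place, `HasRes` form. -/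
theorem hΨinf_E (hE : ∀ (τ : Qbar ≃ₐ[ℚ] Qbar) (x : Qbar), x ∈ E → τ x ∈ E)
    {φ : Qbar ≃ₐ[ℚ] Qbar} (hF : A.IsFrobeniusAt φ ℓ) (τ : kA →+* kA) (hτ : ∀ x : kA, τ x = x ^ ℓ) :
    letI := degAlgebra (↥E) M (ℓ * M) (dvd_level M)
    letI := algebraVMEFN M hℓM A hA E
    ∀ (P : CA.H99.PlaceOver (L := FNE) (constVME M hℓM A hA E ϖ) (S18.H16.jNK (↥E) (ℓ * M))
      (resME M hℓM A hA E) (resME M hℓM A hA E (jMVE M hℓM A hA E) ^ ℓ))
      (y : FNE) (s : (LaurentSeries kA)ˣ),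
      (H46.ResPlace.mk P.O1 P.res1 P.inv_mem).HasRes y s →
      (H46.ResPlace.mk P.O1 P.res1 P.inv_mem).HasRes
        (((H45.galActFullC E hE (ℓ * M) φ).trans (H45.galActFullC E hE (ℓ * M) φ)) y)
        (Units.map ((coeffMap τ : LaurentSeries kA →+* LaurentSeries kA) :
            LaurentSeries kA →* LaurentSeries kA)
          (Units.map ((coeffMap τ : LaurentSeries kA →+* LaurentSeries kA) :
            LaurentSeries kA →* LaurentSeries kA) s)) := by
  letI := degAlgebra (↥E) M (ℓ * M) (dvd_level M)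
  letI := algebraVMEFN M hℓM A hA E
  rintro P y s ⟨hy, hres⟩
  have key := placeInftyE_frobenius M hℓM A hA E hE ϖ hF τ hτ
  have k1 := key P (y := y) hy
  obtain ⟨h1, e1⟩ := k1
  have k2 := key P (y := _) h1
  obtain ⟨h2, e2⟩ := k2
  refine ⟨h2, ?_⟩
  have hres' : P.res1 ⟨y, hy⟩ = (s : LaurentSeries kA) := hres
  have e3 := congrArg (coeffMap τ) (e1.trans (congrArg (coeffMap τ) hres'))
  exact e2.trans e3

/-- **`hΨ0`**: two applications of a Frobenius lift at the `0`-place, `HasRes` form. -/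
theorem hΨ0_E (hE : ∀ (τ : Qbar ≃ₐ[ℚ] Qbar) (x : Qbar), x ∈ E → τ x ∈ E)
    {φ : Qbar ≃ₐ[ℚ] Qbar} (hF : A.IsFrobeniusAt φ ℓ) (τ : kA →+* kA) (hτ : ∀ x : kA, τ x = x ^ ℓ) :
    letI := degAlgebra (↥E) M (ℓ * M) (dvd_level M)
    letI := algebraVMEFN M hℓM A hA E
    ∀ (P : CA.H99.PlaceOver (L := FNE) (constVME M hℓM A hA E ϖ) (S18.H16.jNK (↥E) (ℓ * M))
      (iotaZeroE M hℓM A hA E) (resME M hℓM A hA E (jMVE M hℓM A hA E)))
      (y : FNE) (s : (LaurentSeries kA)ˣ),
      (H46.ResPlace.mk P.O1 P.res1 P.inv_mem).HasRes y s →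
      (H46.ResPlace.mk P.O1 P.res1 P.inv_mem).HasRes
        (((H45.galActFullC E hE (ℓ * M) φ).trans (H45.galActFullC E hE (ℓ * M) φ)) y)
        (Units.map ((coeffMap τ : LaurentSeries kA →+* LaurentSeries kA) :
            LaurentSeries kA →* LaurentSeries kA)
          (Units.map ((coeffMap τ : LaurentSeries kA →+* LaurentSeries kA) :
            LaurentSeries kA →* LaurentSeries kA) s)) := by
  letI := degAlgebra (↥E) M (ℓ * M) (dvd_level M)
  letI := algebraVMEFN M hℓM A hA E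
  rintro P y s ⟨hy, hres⟩
  have key := placeZeroE_frobenius M hℓM A hA E hE ϖ hF τ hτ
  have k1 := key P (y := y) hy
  obtain ⟨h1, e1⟩ := k1
  have k2 := key P (y := _) h1
  obtain ⟨h2, e2⟩ := k2
  refine ⟨h2, ?_⟩
  have hres' : P.res1 ⟨y, hy⟩ = (s : LaurentSeries kA) := hres
  have e3 := congrArg (coeffMap τ) (e1.trans (congrArg (coeffMap τ) hres'))
  exact e2.trans e3

end Places

end Fermat.Agent.S35.H92
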