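import Mathlib
import Fermat.Agent.S35.H92_ResPlaceE
import Fermat.Agent.S35.H16_G2AlphaBetaE

/-!
# S35 / (E3) (helper92): the two E-level Gauss `ResPlace`s coincide

`S35.H16.gaussResPlaceE` (helper16, used by `g2alpha_VME / g2beta_VME`) and
`S35.H92.gaussResPlaceE` (used by `hMinf_E`, `hM0_E`, `hφbM_E`, ...) are the same structure
(`O1 = VME.toSubring`, `res = resME`), by `rfl`.
-/

set_option autoImplicit false
set_option synthInstance.maxHeartbeats 400000

noncomputable section

namespace Fermat.Agent.S35.H92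

open ModularCurve Fermat.Agent.S18

local notation "Qbar" => AlgebraicClosure ℚ

theorem gaussResPlaceE_eq (M : ℕ) [NeZero M] {ℓ : ℕ} [hℓ : Fact ℓ.Prime] (hℓM : ¬ ℓ ∣ M)
    (A : ValuationSubring Qbar) (hA : A.LiesOverPrime ℓ)
    (E : IntermediateField (H45.unrCyclo ℓ) Qbar) :
    S35.H16.gaussResPlaceE M hℓM A hA E = gaussResPlaceE M hℓM A hA E := rfl

end Fermat.Agent.S35.H92
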