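import Mathlib
import Fermat.Agent.S35.H92_ResPlaceEBridge
import Fermat.Agent.S35.H46_G3GaussE

/-!
# S35 / (E3) (helper92): all three E-level Gauss `ResPlace`s coincide

`S35.H46.gaussResPlaceE` (helper46), `S35.H16.gaussResPlaceE` (helper16) and
`S35.H92.gaussResPlaceE` are the same structure (`O1 = VME.toSubring`, `res = resME`), by `rfl`;
so the place-level facts `hMinf_E`, `hM0_E` (stated with `S35.H92.gaussResPlaceE`) feed
`H46.g3_roots_oneU` at `PM := S35.H46.gaussResPlaceE` and helper16's `g2alpha_VME / g2beta_VME`.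
-/

set_option autoImplicit false
set_option synthInstance.maxHeartbeats 400000
set_option linter.style.haveILetI false

noncomputable section

namespace Fermat.Agent.S35.H92

open ModularCurve IsLocalRing Fermat.Agent.S18 Fermat.Agent.S34.H16

local notation "Qbar" => AlgebraicClosure ℚ

variable (M : ℕ) [NeZero M] {ℓ : ℕ} [hℓ : Fact ℓ.Prime] (hℓM : ¬ ℓ ∣ M)
  (A : ValuationSubring Qbar) (hA : A.LiesOverPrime ℓ)
  (E : IntermediateField (H45.unrCyclo ℓ) Qbar)

theorem gaussResPlaceE_eq46 :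
    S35.H46.gaussResPlaceE M hℓM A hA E = gaussResPlaceE M hℓM A hA E := rfl

theorem gaussResPlaceE_eq46_16 :
    S35.H46.gaussResPlaceE M hℓM A hA E = S35.H16.gaussResPlaceE M hℓM A hA E := rfl

local notation "kA" => IsLocalRing.ResidueField A
set_option quotPrecheck false in
local notation "FNE" => modularFunctionFieldFullC (↥E) (ℓ * M)

/-- `hMinf` at `PM := S35.H46.gaussResPlaceE`. -/
theorem hMinf_E46 (ϖ : H45.cutOver A E) :
    letI := degAlgebra (↥E) M (ℓ * M) (dvd_level M)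
    letI := algebraVMEFN M hℓM A hA E
    ∀ (P : CA.H99.PlaceOver (L := FNE) (constVME M hℓM A hA E ϖ) (S18.H16.jNK (↥E) (ℓ * M))
      (resME M hℓM A hA E) (resME M hℓM A hA E (jMVE M hℓM A hA E) ^ ℓ)),
      ∀ t ∈ (S35.H46.gaussResPlaceE M hℓM A hA E).resUnits,
        t ∈ (H46.ResPlace.mk P.O1 P.res1 P.inv_mem).resUnits :=
  hMinf_E M hℓM A hA E ϖ

/-- `hM0` at `PM := S35.H46.gaussResPlaceE`. -/
theorem hM0_E46 (ϖ : H45.cutOver A E) :
    letI := degAlgebra (↥E) M (ℓ * M) (dvd_level M)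
    letI := algebraVMEFN M hℓM A hA E
    ∀ (P : CA.H99.PlaceOver (L := FNE) (constVME M hℓM A hA E ϖ) (S18.H16.jNK (↥E) (ℓ * M))
      (iotaZeroE M hℓM A hA E) (resME M hℓM A hA E (jMVE M hℓM A hA E))),
      ∀ t ∈ (S35.H46.gaussResPlaceE M hℓM A hA E).resUnits,
        t ∈ (H46.ResPlace.mk P.O1 P.res1 P.inv_mem).resUnits :=
  hM0_E M hℓM A hA E ϖ

end Fermat.Agent.S35.H92
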